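/-
S41 (a), abstract part: operators `Hom(Γ₁, A) → Hom(Γ₂, A)` attached to finite families of
left cosets `Γ₁ α_i` in an ambient group `G` which are stable under right multiplication by `Γ₂`
(abstract Hecke operators / double coset operators on `H¹` with trivial coefficients).
-/
import Mathlib

set_option autoImplicit false

namespace Fermat.Agent.S41.H85

variable {G Γ₁ Γ₂ Γ₃ : Type*} [Group G] [Group Γ₁] [Group Γ₂] [Group Γ₃]

/-- A family of elements `α i` of `G` such that the union of the left cosets `ι₁(Γ₁) α i` is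
stable under right multiplication by `ι₂(Γ₂)`, together with the bookkeeping data
`α i * ι₂ γ = ι₁ (coc γ i) * α (perm γ i)`. -/
structure CosetDatum (ι₁ : Γ₁ →* G) (ι₂ : Γ₂ →* G) (I : Type*) where
  /-- coset representatives -/
  α : I → G
  /-- the permutation of the cosets induced by right multiplication -/
  perm : Γ₂ → I → I
  /-- the cocycle with values in `Γ₁` -/
  coc : Γ₂ → I → Γ₁
  eq : ∀ γ i, α i * ι₂ γ = ι₁ (coc γ i) * α (perm γ i)
  perm_one : ∀ i, perm 1 i = i
  perm_mul : ∀ γ δ i, perm (γ * δ) i = perm δ (perm γ i)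
  coc_mul : ∀ γ δ i, coc (γ * δ) i = coc γ i * coc δ (perm γ i)

/-- The cosets `ι₁(Γ₁) α i` are pairwise distinct and `ι₁` is injective. -/
structure IsReduced {I : Type*} (ι₁ : Γ₁ →* G) (α : I → G) : Prop where
  inj : Function.Injective ι₁
  distinct : ∀ i j (g : Γ₁), ι₁ g * α i = α j → i = j

theorem IsReduced.unique {I : Type*} {ι₁ : Γ₁ →* G} {α : I → G} (h : IsReduced ι₁ α)
    {i j : I} {g g' : Γ₁} (he : ι₁ g * α i = ι₁ g' * α j) : i = j ∧ g = g' := by
  have hij : i = j := by
    refine h.distinct i j (g'⁻¹ * g) ?_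
    rw [map_mul, map_inv, mul_assoc, he, ← mul_assoc, inv_mul_cancel, one_mul]
  subst hij
  exact ⟨rfl, h.inj (mul_right_cancel he)⟩

namespace CosetDatum

variable {ι₁ : Γ₁ →* G} {ι₂ : Γ₂ →* G} {ι₃ : Γ₃ →* G} {I K I' : Type*}

section basic

variable (D : CosetDatum ι₁ ι₂ I)

@[simp] theorem coc_one (i : I) : D.coc 1 i = 1 := by
  have h := D.coc_mul 1 1 i
  rw [mul_one, D.perm_one] at h
  exact (mul_eq_left.mp h.symm)

/-- The permutation of the index set attached to `γ`. -/
def permEquiv (γ : Γ₂) : Equiv.Perm I where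
  toFun := D.perm γ
  invFun := D.perm γ⁻¹
  left_inv i := by rw [← D.perm_mul, mul_inv_cancel, D.perm_one]
  right_inv i := by rw [← D.perm_mul, inv_mul_cancel, D.perm_one]

@[simp] theorem permEquiv_apply (γ : Γ₂) (i : I) : D.permEquiv γ i = D.perm γ i := rfl

theorem permEquiv_pow (γ : Γ₂) (m : ℕ) (i : I) : ((D.permEquiv γ) ^ m) i = D.perm (γ ^ m) i := by
  induction m generalizing i with
  | zero => simp [D.perm_one]
  | succ m ih =>
    rw [pow_succ, Equiv.Perm.mul_apply, ih, pow_succ', D.perm_mul, permEquiv_apply]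

theorem coc_pow_succ (γ : Γ₂) (m : ℕ) (i : I) :
    D.coc (γ ^ (m + 1)) i = D.coc (γ ^ m) i * D.coc γ (D.perm (γ ^ m) i) := by
  rw [pow_succ, D.coc_mul]

/-- Uniqueness of the bookkeeping data for a reduced datum. -/
theorem eq_of_isReduced (hr : IsReduced ι₁ D.α) {γ : Γ₂} {i j : I} {g : Γ₁}
    (h : D.α i * ι₂ γ = ι₁ g * D.α j) : D.perm γ i = j ∧ D.coc γ i = g := by
  have := hr.unique ((D.eq γ i).symm.trans h)
  exact ⟨this.1, this.2⟩

end basic

section ofReduced

variable {α : I → G} (hr : IsReduced ι₁ α)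
  (hs : ∀ (γ : Γ₂) (i : I), ∃ (j : I) (g : Γ₁), α i * ι₂ γ = ι₁ g * α j)

include hr in
theorem aux_mul_of_isReduced {γ δ : Γ₂} {i j₁ j₂ j₃ : I} {g₁ g₂ g₃ : Γ₁}
    (h1 : α i * ι₂ γ = ι₁ g₁ * α j₁) (h2 : α j₁ * ι₂ δ = ι₁ g₂ * α j₂)
    (h3 : α i * ι₂ (γ * δ) = ι₁ g₃ * α j₃) : j₃ = j₂ ∧ g₃ = g₁ * g₂ := by
  refine hr.unique ?_
  rw [← h3, map_mul, ← mul_assoc, h1, mul_assoc, h2, map_mul, mul_assoc]

/-- A reduced stable family of cosets gives a coset datum (bookkeeping data by choice). -/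
noncomputable def ofReduced : CosetDatum ι₁ ι₂ I where
  α := α
  perm γ i := (hs γ i).choose
  coc γ i := (hs γ i).choose_spec.choose
  eq γ i := (hs γ i).choose_spec.choose_spec
  perm_one i := by
    have h := (hs 1 i).choose_spec.choose_spec
    have h' : ι₁ 1 * α i = ι₁ (hs 1 i).choose_spec.choose * α (hs 1 i).choose := by
      rw [← h, map_one, map_one, one_mul, mul_one]
    exact (hr.unique h').1.symm
  perm_mul γ δ i :=
    (aux_mul_of_isReduced hr (hs γ i).choose_spec.choose_spec (hs δ (hs γ i).choose).choose_spec.choose_spec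
      (hs (γ * δ) i).choose_spec.choose_spec).1
  coc_mul γ δ i :=
    (aux_mul_of_isReduced hr (hs γ i).choose_spec.choose_spec (hs δ (hs γ i).choose).choose_spec.choose_spec
      (hs (γ * δ) i).choose_spec.choose_spec).2

@[simp] theorem ofReduced_α : (ofReduced hr hs).α = α := rfl

theorem ofReduced_isReduced : IsReduced ι₁ (ofReduced hr hs).α := hr

end ofReduced

section op

variable {A : Type*} [AddCommGroup A] [Fintype I] (D : CosetDatum ι₁ ι₂ I)

/-- The operator on homomorphisms attached to a coset datum: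
`(D.op φ) γ = ∑ i, φ (coc γ i)`. -/
def op : (Additive Γ₁ →+ A) →+ (Additive Γ₂ →+ A) where
  toFun φ :=
    { toFun := fun γ => ∑ i, φ (Additive.ofMul (D.coc (Additive.toMul γ) i))
      map_zero' := by
        show ∑ i, φ (Additive.ofMul (D.coc 1 i)) = 0
        simp
      map_add' := fun γ δ => by
        show ∑ i, φ (Additive.ofMul (D.coc (Additive.toMul γ * Additive.toMul δ) i)) = _
        simp only [D.coc_mul, ofMul_mul, map_add, Finset.sum_add_distrib]
        congr 1
        exact Equiv.sum_comp (D.permEquiv (Additive.toMul γ))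
          (fun i => φ (Additive.ofMul (D.coc (Additive.toMul δ) i))) }
  map_zero' := by
    refine AddMonoidHom.ext fun γ => ?_
    simp
  map_add' φ ψ := by
    refine AddMonoidHom.ext fun γ => ?_
    simp [Finset.sum_add_distrib]

theorem op_apply (φ : Additive Γ₁ →+ A) (γ : Γ₂) :
    D.op φ (Additive.ofMul γ) = ∑ i, φ (Additive.ofMul (D.coc γ i)) := rfl

theorem op_apply' (φ : Additive Γ₁ →+ A) (γ : Additive Γ₂) :
    D.op φ γ = ∑ i, φ (Additive.ofMul (D.coc (Additive.toMul γ) i)) := rfl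

/-- The `R`-linear version of `op`. -/
def opₗ (R : Type*) [Semiring R] [Module R A] :
    (Additive Γ₁ →+ A) →ₗ[R] (Additive Γ₂ →+ A) where
  toFun := D.op
  map_add' := D.op.map_add
  map_smul' c φ := by
    refine AddMonoidHom.ext fun γ => ?_
    simp [op_apply', Finset.smul_sum]

@[simp] theorem opₗ_apply (R : Type*) [Semiring R] [Module R A] (φ : Additive Γ₁ →+ A) :
    D.opₗ R φ = D.op φ := rfl

/-- Naturality of `op` in the coefficient group. -/
theorem op_comp_hom {B : Type*} [AddCommGroup B] (ι : A →+ B) (φ : Additive Γ₁ →+ A) :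
    D.op (ι.comp φ) = ι.comp (D.op φ) := by
  refine AddMonoidHom.ext fun γ => ?_
  simp [op_apply', map_sum]

end op

section comp

variable (D : CosetDatum ι₁ ι₂ I) (E : CosetDatum ι₂ ι₃ K)

/-- Composition of coset data: the family `α i * β k`. -/
def comp : CosetDatum ι₁ ι₃ (I × K) where
  α x := D.α x.1 * E.α x.2
  perm γ x := (D.perm (E.coc γ x.2) x.1, E.perm γ x.2)
  coc γ x := D.coc (E.coc γ x.2) x.1
  eq γ x := by
    rw [mul_assoc, E.eq, ← mul_assoc, D.eq, mul_assoc]
  perm_one x := by simp [D.perm_one, E.perm_one]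
  perm_mul γ δ x := by
    simp only [E.coc_mul, E.perm_mul, D.perm_mul]
  coc_mul γ δ x := by
    simp only [E.coc_mul, D.coc_mul]

variable {A : Type*} [AddCommGroup A] [Fintype I] [Fintype K]

theorem comp_op : ((D.comp E).op : (Additive Γ₁ →+ A) →+ _) = E.op.comp D.op := by
  refine AddMonoidHom.ext fun φ => AddMonoidHom.ext fun γ => ?_
  simp only [op_apply', AddMonoidHom.comp_apply, comp, Fintype.sum_prod_type, toMul_ofMul]
  exact Finset.sum_comm (γ := I) (α := K) (s := Finset.univ) (t := Finset.univ)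
    (f := fun i k => φ (Additive.ofMul (D.coc (E.coc (Additive.toMul γ) k) i)))

theorem comp_op_apply (φ : Additive Γ₁ →+ A) : (D.comp E).op φ = E.op (D.op φ) := by
  rw [comp_op]; rfl

end comp

section sum

variable (D : CosetDatum ι₁ ι₂ I) (E : CosetDatum ι₁ ι₂ K)

/-- Disjoint union of coset data. -/
def sum : CosetDatum ι₁ ι₂ (I ⊕ K) where
  α := Sum.elim D.α E.α
  perm γ := Sum.map (D.perm γ) (E.perm γ)
  coc γ := Sum.elim (D.coc γ) (E.coc γ)
  eq γ x := by
    cases x with
    | inl i => exact D.eq γ i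
    | inr k => exact E.eq γ k
  perm_one x := by
    cases x with
    | inl i => simp [D.perm_one]
    | inr k => simp [E.perm_one]
  perm_mul γ δ x := by
    cases x with
    | inl i => simp [D.perm_mul]
    | inr k => simp [E.perm_mul]
  coc_mul γ δ x := by
    cases x with
    | inl i => simp [D.coc_mul]
    | inr k => simp [E.coc_mul]

variable {A : Type*} [AddCommGroup A] [Fintype I] [Fintype K]

theorem sum_op : ((D.sum E).op : (Additive Γ₁ →+ A) →+ _) = D.op + E.op := by
  refine AddMonoidHom.ext fun φ => AddMonoidHom.ext fun γ => ?_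
  simp [op_apply', sum, Fintype.sum_sum_type]

end sum

section compare

variable {A : Type*} [AddCommGroup A] [Fintype I] [Fintype I']
  (D : CosetDatum ι₁ ι₂ I) (D' : CosetDatum ι₁ ι₂ I')

omit [Fintype I'] in
/-- Comparison of a datum with a reduced one: if every coset of `D` is (via `e`) a coset of the
reduced datum `D'`, then `D.op` is computed by the cocycle of `D'`. -/
theorem op_apply_eq_sum_of_isReduced (hr : IsReduced ι₁ D'.α) (e : I → I') (c : I → Γ₁)
    (h : ∀ i, D'.α (e i) = ι₁ (c i) * D.α i) (φ : Additive Γ₁ →+ A) (γ : Γ₂) :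
    D.op φ (Additive.ofMul γ) = ∑ i, φ (Additive.ofMul (D'.coc γ (e i))) := by
  have key : ∀ i, D'.coc γ (e i) = c i * D.coc γ i * (c (D.perm γ i))⁻¹ := by
    intro i
    refine (D'.eq_of_isReduced hr (j := e (D.perm γ i)) ?_).2
    rw [h, h, mul_assoc, D.eq, map_mul, map_mul, map_inv]
    simp only [mul_assoc, inv_mul_cancel_left]
  have hsum : ∑ i, φ (Additive.ofMul (c (D.perm γ i))) = ∑ i, φ (Additive.ofMul (c i)) :=
    Equiv.sum_comp (D.permEquiv γ) (fun i => φ (Additive.ofMul (c i)))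
  rw [op_apply]
  simp only [key, ofMul_mul, ofMul_inv, map_add, map_neg, Finset.sum_add_distrib,
    Finset.sum_neg_distrib, hsum]
  abel

/-- Two data with the same cosets (the second one reduced) define the same operator. -/
theorem op_eq_of_equiv (hr : IsReduced ι₁ D'.α) (e : I ≃ I') (c : I → Γ₁)
    (h : ∀ i, D'.α (e i) = ι₁ (c i) * D.α i) :
    (D.op : (Additive Γ₁ →+ A) →+ _) = D'.op := by
  refine AddMonoidHom.ext fun φ => AddMonoidHom.ext fun γ => ?_
  obtain ⟨γ, rfl⟩ := Additive.ofMul.surjective γ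
  rw [op_apply_eq_sum_of_isReduced D D' hr e c h, op_apply]
  exact Equiv.sum_comp e (fun i' => φ (Additive.ofMul (D'.coc γ i')))

/-- If every coset of the reduced datum `D'` occurs exactly `n` times in `D`, then
`D.op = n • D'.op`. -/
theorem op_eq_nsmul_of_fibers [DecidableEq I'] (hr : IsReduced ι₁ D'.α) (e : I → I')
    (c : I → Γ₁) (h : ∀ i, D'.α (e i) = ι₁ (c i) * D.α i) (n : ℕ)
    (hn : ∀ i', (Finset.univ.filter (fun i => e i = i')).card = n) :
    (D.op : (Additive Γ₁ →+ A) →+ _) = n • D'.op := by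
  refine AddMonoidHom.ext fun φ => AddMonoidHom.ext fun γ => ?_
  obtain ⟨γ, rfl⟩ := Additive.ofMul.surjective γ
  rw [op_apply_eq_sum_of_isReduced D D' hr e c h]
  simp only [AddMonoidHom.smul_apply, op_apply, Finset.smul_sum]
  rw [← Finset.sum_fiberwise (s := Finset.univ) (g := e)
    (f := fun i => φ (Additive.ofMul (D'.coc γ (e i))))]
  refine Finset.sum_congr rfl fun i' _ => ?_
  rw [Finset.sum_congr rfl (g := fun _ => φ (Additive.ofMul (D'.coc γ i')))
    (fun i hi => by rw [(Finset.mem_filter.mp hi).2]), Finset.sum_const, hn]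

end compare

section single

/-- The datum with a single coset `Γ₁ δ`, where `δ ι₂(γ) = ι₁(f γ) δ`. Its operator is
composition with `f` (restriction, conjugation, ...). -/
def single (δ : G) (f : Γ₂ →* Γ₁) (h : ∀ γ, δ * ι₂ γ = ι₁ (f γ) * δ) :
    CosetDatum ι₁ ι₂ Unit where
  α _ := δ
  perm _ i := i
  coc γ _ := f γ
  eq γ _ := h γ
  perm_one _ := rfl
  perm_mul _ _ _ := rfl
  coc_mul γ γ' _ := map_mul f γ γ'

variable {A : Type*} [AddCommGroup A]

theorem single_op_apply (δ : G) (f : Γ₂ →* Γ₁) (h : ∀ γ, δ * ι₂ γ = ι₁ (f γ) * δ)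
    (φ : Additive Γ₁ →+ A) :
    (single (ι₁ := ι₁) (ι₂ := ι₂) δ f h).op φ = φ.comp (MonoidHom.toAdditive f) := by
  refine AddMonoidHom.ext fun γ => ?_
  simp [op_apply', single]

end single

section conj

variable {A : Type*} [AddCommGroup A] [Fintype I] [Fintype I']
  (D : CosetDatum ι₁ ι₂ I) (D' : CosetDatum ι₁ ι₂ I')

omit [Fintype I'] in
/-- Comparison of a datum `D` with a reduced datum `D'` whose cosets are the conjugates of the
cosets of `D` by an element `J` normalising `Γ₁` and `Γ₂` (inducing `j₁`, `j₂`). -/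
theorem op_apply_conj_eq_sum_of_isReduced (hr : IsReduced ι₁ D'.α) (J : G)
    (j₁ : Γ₁ →* Γ₁) (j₂ : Γ₂ →* Γ₂)
    (hj₁ : ∀ g, ι₁ (j₁ g) * J = J * ι₁ g) (hj₂ : ∀ γ, ι₂ (j₂ γ) * J = J * ι₂ γ)
    (e : I → I') (c : I → Γ₁)
    (h : ∀ i, D'.α (e i) * J = ι₁ (c i) * J * D.α i) (ψ : Additive Γ₁ →+ A) (γ : Γ₂) :
    D.op (ψ.comp (MonoidHom.toAdditive j₁)) (Additive.ofMul γ)
      = ∑ i, ψ (Additive.ofMul (D'.coc (j₂ γ) (e i))) := by
  have key : ∀ i, D'.coc (j₂ γ) (e i) = c i * j₁ (D.coc γ i) * (c (D.perm γ i))⁻¹ := by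
    intro i
    refine (D'.eq_of_isReduced hr (j := e (D.perm γ i)) ?_).2
    apply mul_right_cancel (b := J)
    calc D'.α (e i) * ι₂ (j₂ γ) * J = D'.α (e i) * J * ι₂ γ := by
          rw [mul_assoc, hj₂, mul_assoc]
      _ = ι₁ (c i) * J * (D.α i * ι₂ γ) := by rw [h]; simp only [mul_assoc]
      _ = ι₁ (c i) * (J * ι₁ (D.coc γ i)) * D.α (D.perm γ i) := by
          rw [D.eq]; simp only [mul_assoc]
      _ = ι₁ (c i) * ι₁ (j₁ (D.coc γ i)) * (J * D.α (D.perm γ i)) := by
          rw [← hj₁]; simp only [mul_assoc]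
      _ = ι₁ (c i) * ι₁ (j₁ (D.coc γ i)) * ((ι₁ (c (D.perm γ i)))⁻¹ *
            (ι₁ (c (D.perm γ i)) * J * D.α (D.perm γ i))) := by
          simp only [mul_assoc, inv_mul_cancel_left]
      _ = ι₁ (c i * j₁ (D.coc γ i) * (c (D.perm γ i))⁻¹) * D'.α (e (D.perm γ i)) * J := by
          rw [← h, map_mul, map_mul, map_inv]; simp only [mul_assoc]
  have hsum : ∑ i, ψ (Additive.ofMul (c (D.perm γ i))) = ∑ i, ψ (Additive.ofMul (c i)) :=
    Equiv.sum_comp (D.permEquiv γ) (fun i => ψ (Additive.ofMul (c i)))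
  rw [op_apply]
  simp only [key, ofMul_mul, ofMul_inv, map_add, map_neg, Finset.sum_add_distrib,
    Finset.sum_neg_distrib, hsum, AddMonoidHom.comp_apply]
  simp only [MonoidHom.toAdditive_apply_apply, toMul_ofMul]
  abel

/-- If the conjugates by `J` of the cosets of `D` are exactly the cosets of the reduced
datum `D'`, then `D.op (ψ ∘ j₁) = (D'.op ψ) ∘ j₂`. -/
theorem op_comp_conj_of_equiv (hr : IsReduced ι₁ D'.α) (J : G)
    (j₁ : Γ₁ →* Γ₁) (j₂ : Γ₂ →* Γ₂)
    (hj₁ : ∀ g, ι₁ (j₁ g) * J = J * ι₁ g) (hj₂ : ∀ γ, ι₂ (j₂ γ) * J = J * ι₂ γ)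
    (e : I ≃ I') (c : I → Γ₁)
    (h : ∀ i, D'.α (e i) * J = ι₁ (c i) * J * D.α i) (ψ : Additive Γ₁ →+ A) :
    D.op (ψ.comp (MonoidHom.toAdditive j₁)) = (D'.op ψ).comp (MonoidHom.toAdditive j₂) := by
  refine AddMonoidHom.ext fun γ => ?_
  obtain ⟨γ, rfl⟩ := Additive.ofMul.surjective γ
  rw [op_apply_conj_eq_sum_of_isReduced D D' hr J j₁ j₂ hj₁ hj₂ e c h]
  show _ = D'.op ψ (Additive.ofMul (j₂ γ))
  rw [op_apply]
  exact Equiv.sum_comp e (fun i' => ψ (Additive.ofMul (D'.coc (j₂ γ) i')))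

end conj

section orbit

variable {A : Type*} [AddCommGroup A]

/-- A sum over a finite set on which a permutation acts vanishes as soon as all sums over
closed paths of the permutation vanish. -/
theorem sum_eq_zero_of_forall_periodic [Fintype I] (σ : Equiv.Perm I) (f : I → A)
    (h : ∀ (i : I) (m : ℕ), 0 < m → (σ ^ m) i = i →
      ∑ k ∈ Finset.range m, f ((σ ^ k) i) = 0) :
    ∑ i, f i = 0 := by
  classical
  suffices H : ∀ s : Finset I, (∀ i ∈ s, σ i ∈ s) → ∑ i ∈ s, f i = 0 from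
    H Finset.univ (fun _ _ => Finset.mem_univ _)
  intro s
  induction s using Finset.strongInduction with
  | H s ih =>
    intro hs
    rcases s.eq_empty_or_nonempty with rfl | ⟨i₀, hi₀⟩
    · simp
    have hpow : ∀ k : ℕ, (σ ^ k) i₀ ∈ s := by
      intro k
      induction k with
      | zero => simpa using hi₀
      | succ k ihk => rw [pow_succ', Equiv.Perm.mul_apply]; exact hs _ ihk
    have hper : i₀ ∈ Function.periodicPts σ := by
      refine Function.mk_mem_periodicPts (orderOf_pos σ) ?_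
      show (⇑σ)^[orderOf σ] i₀ = i₀
      rw [Equiv.Perm.iterate_eq_pow, pow_orderOf_eq_one, Equiv.Perm.one_apply]
    set m := Function.minimalPeriod σ i₀ with hm
    have hm0 : 0 < m := Function.minimalPeriod_pos_of_mem_periodicPts hper
    have hmper : (σ ^ m) i₀ = i₀ := by
      have := Function.isPeriodicPt_minimalPeriod σ i₀
      rw [Function.IsPeriodicPt, Function.IsFixedPt, Equiv.Perm.iterate_eq_pow] at this
      exact this
    have hinj : Set.InjOn (fun k : ℕ => (σ ^ k) i₀) (Finset.range m : Set ℕ) := by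
      intro a ha b hb hab
      have ha' : a < m := Finset.mem_range.mp ha
      have hb' : b < m := Finset.mem_range.mp hb
      have := Function.iterate_injOn_Iio_minimalPeriod (f := σ) (x := i₀)
        (Set.mem_Iio.mpr ha') (Set.mem_Iio.mpr hb')
      apply this
      simpa [Equiv.Perm.iterate_eq_pow] using hab
    set ω : Finset I := (Finset.range m).image (fun k : ℕ => (σ ^ k) i₀) with hω
    have hωs : ω ⊆ s := by
      intro x hx
      obtain ⟨k, -, rfl⟩ := Finset.mem_image.mp hx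
      exact hpow k
    have hi₀ω : i₀ ∈ ω := Finset.mem_image.mpr ⟨0, Finset.mem_range.mpr hm0, by simp⟩
    have hωstab : ∀ x, σ x ∈ ω → x ∈ ω := by
      intro x hx
      obtain ⟨k, hk, hkx⟩ := Finset.mem_image.mp hx
      have hk' : k < m := Finset.mem_range.mp hk
      rcases Nat.eq_zero_or_pos k with rfl | hkpos
      · refine Finset.mem_image.mpr ⟨m - 1, Finset.mem_range.mpr (by omega), ?_⟩
        apply σ.injective
        show σ ((σ ^ (m - 1)) i₀) = σ x
        rw [← Equiv.Perm.mul_apply, ← pow_succ', Nat.sub_add_cancel hm0, hmper, ← hkx]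
        simp
      · refine Finset.mem_image.mpr ⟨k - 1, Finset.mem_range.mpr (by omega), ?_⟩
        apply σ.injective
        show σ ((σ ^ (k - 1)) i₀) = σ x
        rw [← Equiv.Perm.mul_apply, ← pow_succ', Nat.sub_add_cancel hkpos, ← hkx]
    have hsub : s \ ω ⊂ s := by
      refine Finset.ssubset_iff_subset_ne.mpr ⟨Finset.sdiff_subset, fun heq => ?_⟩
      have : i₀ ∈ s \ ω := by rw [heq]; exact hi₀
      exact (Finset.mem_sdiff.mp this).2 hi₀ω
    have hstab' : ∀ i ∈ s \ ω, σ i ∈ s \ ω := by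
      intro i hi
      obtain ⟨his, hiω⟩ := Finset.mem_sdiff.mp hi
      exact Finset.mem_sdiff.mpr ⟨hs i his, fun hσ => hiω (hωstab i hσ)⟩
    rw [← Finset.sum_sdiff hωs, ih _ hsub hstab', zero_add, hω, Finset.sum_image hinj]
    exact h i₀ m hm0 hmper

variable [Fintype I] (D : CosetDatum ι₁ ι₂ I)

/-- **Orbit lemma.** If `φ` kills `coc (γ ^ m) i` whenever `γ ^ m` fixes the coset `i`
(`m > 0`), then `D.op φ` kills `γ`. Valid for arbitrary coefficients. -/
theorem op_apply_eq_zero_of_periodic (φ : Additive Γ₁ →+ A) (γ : Γ₂)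
    (h : ∀ (i : I) (m : ℕ), 0 < m → D.perm (γ ^ m) i = i →
      φ (Additive.ofMul (D.coc (γ ^ m) i)) = 0) :
    D.op φ (Additive.ofMul γ) = 0 := by
  rw [op_apply]
  refine sum_eq_zero_of_forall_periodic (D.permEquiv γ)
    (fun i => φ (Additive.ofMul (D.coc γ i))) fun i m hm hi => ?_
  have hcoc : ∀ n : ℕ, ∑ k ∈ Finset.range n,
      φ (Additive.ofMul (D.coc γ (((D.permEquiv γ) ^ k) i)))
        = φ (Additive.ofMul (D.coc (γ ^ n) i)) := by
    intro n
    induction n with
    | zero => simp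
    | succ n ihn =>
      rw [Finset.sum_range_succ, ihn, D.coc_pow_succ, ofMul_mul, map_add, D.permEquiv_pow]
  rw [hcoc m]
  exact h i m hm (by rw [← D.permEquiv_pow]; exact hi)

end orbit

end CosetDatum

end Fermat.Agent.S41.H85
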