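/-
S41 (a), concrete part: the Hecke operators `T_p` (`p ∤ N`) and `U_p` (`p ∣ N`) on
`Additive (Gamma0 N) →+ A`, built from the prelude coset representatives
`heckeMatrix p j`, `heckeDiagMatrix p`.
-/
import Mathlib
import Fermat.Prelude.Sol.S_ModularForm_heckeT_slash_eq_self_of_mem_Gamma0
import Fermat.Prelude.Def_ModularCurve_PeriodHomPair
import Fermat.Agent.S41.H85_CosetDatum

set_option autoImplicit false

open CongruenceSubgroup Matrix.SpecialLinearGroup ModularForm
open scoped MatrixGroups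
open P2MW.S_ModularForm_heckeT_slash_eq_self_of_mem_Gamma0.ModularForm.HeckeSlashInvariance

namespace Fermat.Agent.S41.H85

/-- The embedding `Γ₀(N) → GL₂(ℝ)`. -/
noncomputable def gl (N : ℕ) : Gamma0 N →* GL (Fin 2) ℝ := (mapGL ℝ).comp (Gamma0 N).subtype

theorem gl_apply (N : ℕ) (g : Gamma0 N) : gl N g = mapGL ℝ (g : SL(2, ℤ)) := rfl

theorem gl_injective (N : ℕ) : Function.Injective (gl N) := by
  intro g h hgh
  apply Subtype.ext
  exact Matrix.SpecialLinearGroup.mapGL_injective hgh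

theorem mem_Gamma0_of_dvd {N : ℕ} {g : SL(2, ℤ)} (h : (N : ℤ) ∣ g 1 0) : g ∈ Gamma0 N :=
  Gamma0_mem.mpr ((ZMod.intCast_zmod_eq_zero_iff_dvd _ _).mpr h)

theorem dvd_of_mem_Gamma0 {N : ℕ} {g : SL(2, ℤ)} (h : g ∈ Gamma0 N) : (N : ℤ) ∣ g 1 0 :=
  (ZMod.intCast_zmod_eq_zero_iff_dvd _ _).mp (Gamma0_mem.mp h)

section reduced

variable (N : ℕ) (p : ℕ)

theorem entry_eq {M M' : GL (Fin 2) ℝ} (h : M = M') (i j : Fin 2) :
    (M : Matrix (Fin 2) (Fin 2) ℝ) i j = (M' : Matrix (Fin 2) (Fin 2) ℝ) i j := by rw [h]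

theorem mapGL_mul_heckeMatrix_entries (hp : p ≠ 0) (g : SL(2, ℤ)) (j : ℕ) :
    ((mapGL ℝ g * heckeMatrix p j : GL (Fin 2) ℝ) : Matrix (Fin 2) (Fin 2) ℝ)
      = !![(g 0 0 : ℝ), (g 0 0 : ℝ) * j + (g 0 1 : ℝ) * p;
           (g 1 0 : ℝ), (g 1 0 : ℝ) * j + (g 1 1 : ℝ) * p] := by
  ext a b
  fin_cases a <;> fin_cases b <;> simp [hp, Matrix.mul_apply, Fin.sum_univ_two]

theorem mapGL_mul_heckeDiagMatrix_entries (hp : p ≠ 0) (g : SL(2, ℤ)) :
    ((mapGL ℝ g * heckeDiagMatrix p : GL (Fin 2) ℝ) : Matrix (Fin 2) (Fin 2) ℝ)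
      = !![(g 0 0 : ℝ) * p, (g 0 1 : ℝ); (g 1 0 : ℝ) * p, (g 1 1 : ℝ)] := by
  ext a b
  fin_cases a <;> fin_cases b <;> simp [hp, Matrix.mul_apply, Fin.sum_univ_two]

theorem not_int_mul_prime_eq_one {p : ℕ} (hp : p.Prime) (a : ℤ) (h : (a : ℝ) * (p : ℝ) = 1) :
    False := by
  have h' : a * (p : ℤ) = 1 := by exact_mod_cast h
  have hdvd : (p : ℤ) ∣ 1 := Dvd.intro_left a h'
  have : p ∣ 1 := Int.natCast_dvd_natCast.mp (by simpa using hdvd)
  exact hp.one_lt.ne' (Nat.dvd_one.mp this)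

/-- The cosets `Γ₀(N) · heckeRep p x`, `x ∈ ℙ¹(𝔽_p)`, are pairwise distinct. -/
theorem isReduced_heckeRep [Fact p.Prime] : IsReduced (gl N) (heckeRep p) where
  inj := gl_injective N
  distinct := by
    intro x y g h
    have hpp : p.Prime := Fact.out
    have hp : p ≠ 0 := hpp.ne_zero
    rw [gl_apply] at h
    induction x using OnePoint.rec with
    | infty =>
      induction y using OnePoint.rec with
      | infty => rfl
      | coe j' =>
        exfalso
        rw [heckeRep_infty, heckeRep_coe] at h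
        have h00 := entry_eq h 0 0
        rw [mapGL_mul_heckeDiagMatrix_entries p hp, val_heckeMatrix hp] at h00
        simp only [Matrix.of_apply, Matrix.cons_val', Matrix.cons_val_zero, Matrix.cons_val_fin_one]
          at h00
        exact not_int_mul_prime_eq_one hpp _ h00
    | coe j =>
      induction y using OnePoint.rec with
      | infty =>
        exfalso
        rw [heckeRep_infty, heckeRep_coe] at h
        have h10 := entry_eq h 1 0
        have h11 := entry_eq h 1 1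
        rw [mapGL_mul_heckeMatrix_entries p hp, val_heckeDiagMatrix hp] at h10 h11
        simp only [Matrix.of_apply, Matrix.cons_val', Matrix.cons_val_zero, Matrix.cons_val_one,
          Matrix.cons_val_fin_one] at h10 h11
        rw [h10, zero_mul, zero_add] at h11
        exact not_int_mul_prime_eq_one hpp _ h11
      | coe j' =>
        rw [heckeRep_coe, heckeRep_coe] at h
        have h00 := entry_eq h 0 0
        have h01 := entry_eq h 0 1
        rw [mapGL_mul_heckeMatrix_entries p hp, val_heckeMatrix hp] at h00 h01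
        simp only [Matrix.of_apply, Matrix.cons_val', Matrix.cons_val_zero, Matrix.cons_val_one,
          Matrix.cons_val_fin_one] at h00 h01
        rw [h00, one_mul] at h01
        have h01' : (j.val : ℤ) + ((g : SL(2, ℤ)) 0 1) * (p : ℤ) = (j'.val : ℤ) := by
          exact_mod_cast h01
        have hne : NeZero p := ⟨hp⟩
        have hc := congrArg (Int.cast : ℤ → ZMod p) h01'
        push_cast at hc
        rw [ZMod.natCast_zmod_val, ZMod.natCast_zmod_val, ZMod.natCast_self, mul_zero,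
          add_zero] at hc
        rw [hc]

/-- The family `heckeRep p` is stable under right multiplication by `Γ₀(N)` when `p ∤ N`. -/
theorem stable_heckeRep [Fact p.Prime] (hpN : ¬ p ∣ N) (γ : Gamma0 N) (x : OnePoint (ZMod p)) :
    ∃ (y : OnePoint (ZMod p)) (g : Gamma0 N), heckeRep p x * gl N γ = gl N g * heckeRep p y := by
  obtain ⟨g', hg', h⟩ := heckeRep_mul hpN (γ : SL(2, ℤ)) (dvd_of_mem_Gamma0 γ.2) x
  exact ⟨_, ⟨g', mem_Gamma0_of_dvd hg'⟩, h⟩

/-- The cosets `Γ₀(N) · heckeMatrix p j`, `j ∈ ℤ/p`, are pairwise distinct. -/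
theorem isReduced_heckeMatrix [NeZero p] :
    IsReduced (gl N) (fun x : ZMod p => heckeMatrix p x.val) where
  inj := gl_injective N
  distinct := by
    intro j j' g h
    have hp : p ≠ 0 := NeZero.ne p
    rw [gl_apply] at h
    have h00 := entry_eq h 0 0
    have h01 := entry_eq h 0 1
    rw [mapGL_mul_heckeMatrix_entries p hp, val_heckeMatrix hp] at h00 h01
    simp only [Matrix.of_apply, Matrix.cons_val', Matrix.cons_val_zero, Matrix.cons_val_one,
      Matrix.cons_val_fin_one] at h00 h01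
    rw [h00, one_mul] at h01
    have h01' : (j.val : ℤ) + ((g : SL(2, ℤ)) 0 1) * (p : ℤ) = (j'.val : ℤ) := by
      exact_mod_cast h01
    have hc := congrArg (Int.cast : ℤ → ZMod p) h01'
    push_cast at hc
    rw [ZMod.natCast_zmod_val, ZMod.natCast_zmod_val, ZMod.natCast_self, mul_zero,
      add_zero] at hc
    exact hc

/-- The family `heckeMatrix p j` is stable under right multiplication by `Γ₀(N)` when `p ∣ N`. -/
theorem stable_heckeMatrix [NeZero p] (hpN : p ∣ N) (γ : Gamma0 N) (x : ZMod p) :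
    ∃ (y : ZMod p) (g : Gamma0 N),
      heckeMatrix p x.val * gl N γ = gl N g * heckeMatrix p y.val := by
  have hN : (N : ℤ) ∣ (γ : SL(2, ℤ)) 1 0 := dvd_of_mem_Gamma0 γ.2
  have hc : (p : ℤ) ∣ (γ : SL(2, ℤ)) 1 0 := (Int.natCast_dvd_natCast.mpr hpN).trans hN
  obtain ⟨g', hg', h⟩ := heckeMatrix_mul_of_dvd (γ : SL(2, ℤ)) hc x
  exact ⟨_, ⟨g', mem_Gamma0_of_dvd (hg' ▸ Dvd.dvd.mul_left hN _)⟩, h⟩

end reduced

section data

variable (N : ℕ) (p : ℕ)

/-- The coset datum of the Hecke operator `T_p` on `Γ₀(N)`, `p ∤ N`. -/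
noncomputable def heckeTDatum [Fact p.Prime] (hpN : ¬ p ∣ N) :
    CosetDatum (gl N) (gl N) (OnePoint (ZMod p)) :=
  CosetDatum.ofReduced (isReduced_heckeRep N p) (stable_heckeRep N p hpN)

/-- The coset datum of the Hecke operator `U_p` on `Γ₀(N)`, `p ∣ N`. -/
noncomputable def heckeUDatum [NeZero p] (hpN : p ∣ N) :
    CosetDatum (gl N) (gl N) (ZMod p) :=
  CosetDatum.ofReduced (isReduced_heckeMatrix N p) (stable_heckeMatrix N p hpN)

@[simp] theorem heckeTDatum_α [Fact p.Prime] (hpN : ¬ p ∣ N) :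
    (heckeTDatum N p hpN).α = heckeRep p := rfl

@[simp] theorem heckeUDatum_α [NeZero p] (hpN : p ∣ N) :
    (heckeUDatum N p hpN).α = fun x : ZMod p => heckeMatrix p x.val := rfl

theorem heckeTDatum_isReduced [Fact p.Prime] (hpN : ¬ p ∣ N) :
    IsReduced (gl N) (heckeTDatum N p hpN).α := isReduced_heckeRep N p

theorem heckeUDatum_isReduced [NeZero p] (hpN : p ∣ N) :
    IsReduced (gl N) (heckeUDatum N p hpN).α := isReduced_heckeMatrix N p

variable {N p} (A : Type*) [AddCommGroup A]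

/-- The Hecke operator `T_p` (`p ∤ N` prime) on `Hom(Γ₀(N), A)`. -/
noncomputable def heckeTHom (hp : p.Prime) (hpN : ¬ p ∣ N) :
    (Additive (Gamma0 N) →+ A) →+ (Additive (Gamma0 N) →+ A) :=
  haveI : Fact p.Prime := ⟨hp⟩
  (heckeTDatum N p hpN).op

/-- The Hecke operator `U_p` (`p ∣ N`) on `Hom(Γ₀(N), A)`. -/
noncomputable def heckeUHom [NeZero p] (hpN : p ∣ N) :
    (Additive (Gamma0 N) →+ A) →+ (Additive (Gamma0 N) →+ A) :=
  (heckeUDatum N p hpN).op

/-- `R`-linear version of `heckeTHom`. -/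
noncomputable def heckeTₗ (R : Type*) [Semiring R] [Module R A] (hp : p.Prime) (hpN : ¬ p ∣ N) :
    (Additive (Gamma0 N) →+ A) →ₗ[R] (Additive (Gamma0 N) →+ A) :=
  haveI : Fact p.Prime := ⟨hp⟩
  (heckeTDatum N p hpN).opₗ R

/-- `R`-linear version of `heckeUHom`. -/
noncomputable def heckeUₗ (R : Type*) [Semiring R] [Module R A] [NeZero p] (hpN : p ∣ N) :
    (Additive (Gamma0 N) →+ A) →ₗ[R] (Additive (Gamma0 N) →+ A) :=
  (heckeUDatum N p hpN).opₗ R

@[simp] theorem heckeTₗ_apply (R : Type*) [Semiring R] [Module R A] (hp : p.Prime)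
    (hpN : ¬ p ∣ N) (φ : Additive (Gamma0 N) →+ A) :
    heckeTₗ A R hp hpN φ = heckeTHom A hp hpN φ := rfl

@[simp] theorem heckeUₗ_apply (R : Type*) [Semiring R] [Module R A] [NeZero p]
    (hpN : p ∣ N) (φ : Additive (Gamma0 N) →+ A) :
    heckeUₗ A R hpN φ = heckeUHom A hpN φ := rfl

end data

section parabolic

open ModularCurve.Period

/-- Powers of a matrix in `SL₂(ℤ)` with `tr² = 4` again satisfy `tr² = 4`. -/
theorem trace_pow_sq_eq_four (M : Matrix (Fin 2) (Fin 2) ℤ) (hdet : M.det = 1)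
    (htr : M.trace ^ 2 = 4) (m : ℕ) : (M ^ m).trace ^ 2 = 4 := by
  have hCH : M * M = M.trace • M - 1 := by
    rw [Matrix.det_fin_two] at hdet
    ext i j
    rw [Matrix.sub_apply, Matrix.smul_apply, Matrix.mul_apply, Fin.sum_univ_two,
      Matrix.trace_fin_two, smul_eq_mul]
    fin_cases i <;> fin_cases j <;> simp <;> first | ring1 | linear_combination -hdet
  have hrec : ∀ k : ℕ, (M ^ (k + 2)).trace = M.trace * (M ^ (k + 1)).trace - (M ^ k).trace := by
    intro k
    rw [pow_add, pow_two, hCH, mul_sub, mul_one, Matrix.mul_smul, Matrix.trace_sub,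
      Matrix.trace_smul, smul_eq_mul, ← pow_succ]
  have key : ∀ k : ℕ, (M ^ (k + 1)).trace * 2 = M.trace * (M ^ k).trace ∧
      M.trace * (M ^ (k + 1)).trace = 2 * (M ^ k).trace ∧
      (M ^ k).trace ^ 2 = 4 ∧ (M ^ (k + 1)).trace ^ 2 = 4 := by
    intro k
    induction k with
    | zero =>
      refine ⟨by simp [Matrix.trace_fin_two, mul_comm], ?_, by simp, ?_⟩
      · simp only [zero_add, pow_one, pow_zero, Matrix.trace_one, Fintype.card_fin]
        linear_combination htr
      · simpa using htr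
    | succ k ih =>
      obtain ⟨h1, h2, h3, h4⟩ := ih
      have h5 : (M ^ (k + 1 + 1)).trace = (M ^ k).trace := by
        rw [hrec k]; linear_combination h2
      refine ⟨?_, ?_, h4, ?_⟩
      · rw [h5]; linear_combination -h2
      · rw [h5]; linear_combination -h1
      · rw [h5]; exact h3
  exact (key m).2.2.1

theorem trace_mapGL (g : SL(2, ℤ)) :
    ((mapGL ℝ g : GL (Fin 2) ℝ) : Matrix (Fin 2) (Fin 2) ℝ).trace
      = (((g : Matrix (Fin 2) (Fin 2) ℤ).trace : ℤ) : ℝ) := by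
  simp [Matrix.trace_fin_two]

/-- Conjugate elements of `SL₂(ℤ)` inside `GL₂(ℝ)` have the same trace. -/
theorem trace_eq_of_conj {g h : SL(2, ℤ)} {a : GL (Fin 2) ℝ}
    (H : a * mapGL ℝ h = mapGL ℝ g * a) :
    (g : Matrix (Fin 2) (Fin 2) ℤ).trace = (h : Matrix (Fin 2) (Fin 2) ℤ).trace := by
  have h1 : mapGL ℝ g = a * mapGL ℝ h * a⁻¹ := by rw [H, mul_inv_cancel_right]
  have h2 : ((mapGL ℝ g : GL (Fin 2) ℝ) : Matrix (Fin 2) (Fin 2) ℝ).trace
      = ((mapGL ℝ h : GL (Fin 2) ℝ) : Matrix (Fin 2) (Fin 2) ℝ).trace := by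
    rw [h1, Units.val_mul, Units.val_mul, Matrix.trace_mul_comm, ← mul_assoc, ← Units.val_mul,
      inv_mul_cancel, Units.val_one, one_mul]
  rw [trace_mapGL, trace_mapGL] at h2
  exact_mod_cast h2

variable {N M : ℕ} {I : Type*} [Fintype I] {A : Type*} [AddCommGroup A]

/-- Any coset operator between `Γ₀(N)` and `Γ₀(M)` preserves parabolic homomorphisms
(arbitrary coefficients). -/
theorem op_mem_parabolicHoms (D : CosetDatum (gl N) (gl M) I) (R : Type*) [Semiring R]
    [Module R A] {φ : Additive (Gamma0 N) →+ A} (hφ : φ ∈ parabolicHoms R (Gamma0 N) A) :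
    D.op φ ∈ parabolicHoms R (Gamma0 M) A := by
  rw [mem_parabolicHoms_iff] at hφ ⊢
  intro γ hγ
  refine D.op_apply_eq_zero_of_periodic φ γ fun i m _ hi => ?_
  refine hφ _ ?_
  have heq := D.eq (γ ^ m) i
  rw [hi, gl_apply, gl_apply] at heq
  rw [trace_eq_of_conj heq]
  have hpow : (((γ ^ m : Gamma0 M) : SL(2, ℤ)) : Matrix (Fin 2) (Fin 2) ℤ)
      = ((γ : SL(2, ℤ)) : Matrix (Fin 2) (Fin 2) ℤ) ^ m := by
    rw [SubmonoidClass.coe_pow, Matrix.SpecialLinearGroup.coe_pow]
  rw [hpow]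
  exact trace_pow_sq_eq_four _ (γ : SL(2, ℤ)).2 hγ m

variable {p : ℕ}

theorem heckeTHom_mem_parabolicHoms (R : Type*) [Semiring R] [Module R A] (hp : p.Prime)
    (hpN : ¬ p ∣ N) {φ : Additive (Gamma0 N) →+ A} (hφ : φ ∈ parabolicHoms R (Gamma0 N) A) :
    heckeTHom A hp hpN φ ∈ parabolicHoms R (Gamma0 N) A :=
  haveI : Fact p.Prime := ⟨hp⟩
  op_mem_parabolicHoms (heckeTDatum N p hpN) R hφ

theorem heckeUHom_mem_parabolicHoms (R : Type*) [Semiring R] [Module R A] [NeZero p]
    (hpN : p ∣ N) {φ : Additive (Gamma0 N) →+ A} (hφ : φ ∈ parabolicHoms R (Gamma0 N) A) :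
    heckeUHom A hpN φ ∈ parabolicHoms R (Gamma0 N) A :=
  op_mem_parabolicHoms (heckeUDatum N p hpN) R hφ

/-- `T_p` as an endomorphism of the module of parabolic homomorphisms. -/
noncomputable def heckeTPar (A : Type*) [AddCommGroup A] (R : Type*) [Semiring R] [Module R A]
    (hp : p.Prime) (hpN : ¬ p ∣ N) :
    parabolicHoms R (Gamma0 N) A →ₗ[R] parabolicHoms R (Gamma0 N) A :=
  (heckeTₗ A R hp hpN).restrict fun _ hφ => heckeTHom_mem_parabolicHoms R hp hpN hφ

/-- `U_p` as an endomorphism of the module of parabolic homomorphisms. -/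
noncomputable def heckeUPar (A : Type*) [AddCommGroup A] (R : Type*) [Semiring R] [Module R A]
    [NeZero p] (hpN : p ∣ N) :
    parabolicHoms R (Gamma0 N) A →ₗ[R] parabolicHoms R (Gamma0 N) A :=
  (heckeUₗ A R hpN).restrict fun _ hφ => heckeUHom_mem_parabolicHoms R hpN hφ

@[simp] theorem coe_heckeTPar_apply (R : Type*) [Semiring R] [Module R A]
    (hp : p.Prime) (hpN : ¬ p ∣ N) (φ : parabolicHoms R (Gamma0 N) A) :
    (heckeTPar A R hp hpN φ : Additive (Gamma0 N) →+ A) = heckeTHom A hp hpN φ := rfl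

@[simp] theorem coe_heckeUPar_apply (R : Type*) [Semiring R] [Module R A] [NeZero p]
    (hpN : p ∣ N) (φ : parabolicHoms R (Gamma0 N) A) :
    (heckeUPar A R hpN φ : Additive (Gamma0 N) →+ A) = heckeUHom A hpN φ := rfl

end parabolic

section involution

open ModularCurve.Period

/-- The matrix `diag(1, -1)`. -/
noncomputable def Jmat : GL (Fin 2) ℝ :=
  Matrix.GeneralLinearGroup.mkOfDetNeZero !![1, 0; 0, -1] (by simp [Matrix.det_fin_two_of])

@[simp] theorem val_Jmat : ((Jmat : GL (Fin 2) ℝ) : Matrix (Fin 2) (Fin 2) ℝ) = !![1, 0; 0, -1] :=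
  rfl

theorem gl_jConj_mul_Jmat (N : ℕ) (g : Gamma0 N) :
    gl N (jConjGamma0 N g) * Jmat = Jmat * gl N g := by
  ext a b
  rw [gl_apply, gl_apply, jConjGamma0_coe]
  fin_cases a <;> fin_cases b <;>
    simp [Matrix.mul_apply, Fin.sum_univ_two, jConjMat]

/-- The upper unipotent element `[[1, x], [0, 1]]` of `Γ₀(N)`. -/
def upperGamma0 (N : ℕ) (x : ℤ) : Gamma0 N :=
  ⟨⟨!![1, x; 0, 1], by simp [Matrix.det_fin_two_of]⟩, mem_Gamma0_of_dvd (by simp)⟩

@[simp] theorem upperGamma0_coe (N : ℕ) (x : ℤ) :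
    (((upperGamma0 N x : Gamma0 N) : SL(2, ℤ)) : Matrix (Fin 2) (Fin 2) ℤ) = !![1, x; 0, 1] := rfl

/-- The correction exponent: `j.val + (-j).val = p * negShift j`. -/
def negShift {p : ℕ} (j : ZMod p) : ℤ := ((j.val : ℤ) + ((-j).val : ℤ)) / p

theorem negShift_spec {p : ℕ} [NeZero p] (j : ZMod p) :
    (p : ℤ) * negShift j = (j.val : ℤ) + ((-j).val : ℤ) := by
  unfold negShift
  refine Int.mul_ediv_cancel' ?_
  rw [← ZMod.intCast_zmod_eq_zero_iff_dvd]
  push_cast
  rw [ZMod.natCast_zmod_val, ZMod.natCast_zmod_val, add_neg_cancel]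

theorem heckeMatrix_neg_mul_Jmat (N : ℕ) {p : ℕ} [NeZero p] (j : ZMod p) :
    heckeMatrix p (-j).val * Jmat
      = gl N (upperGamma0 N (negShift j)) * Jmat * heckeMatrix p j.val := by
  have hp : p ≠ 0 := NeZero.ne p
  have hs := congrArg (Int.cast : ℤ → ℝ) (negShift_spec j)
  push_cast at hs
  ext a b
  rw [gl_apply]
  fin_cases a <;> fin_cases b <;>
    simp [Matrix.mul_apply, Fin.sum_univ_two, hp, -ZMod.natCast_val]
  linear_combination hs

theorem heckeDiagMatrix_mul_Jmat (N : ℕ) (p : ℕ) :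
    heckeDiagMatrix p * Jmat = gl N 1 * Jmat * heckeDiagMatrix p := by
  rw [map_one, one_mul]
  rcases eq_or_ne p 0 with rfl | hp
  · simp
  ext a b
  fin_cases a <;> fin_cases b <;>
    simp [Matrix.mul_apply, Fin.sum_univ_two, hp]

variable {N p : ℕ} (A : Type*) [AddCommGroup A]

/-- `U_p` commutes with the involution induced by conjugation with `diag(1,-1)`. -/
theorem heckeUHom_comp_jConj [NeZero p] (hpN : p ∣ N) (ψ : Additive (Gamma0 N) →+ A) :
    heckeUHom A hpN (ψ.comp (MonoidHom.toAdditive (jConjGamma0 N)))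
      = (heckeUHom A hpN ψ).comp (MonoidHom.toAdditive (jConjGamma0 N)) :=
  CosetDatum.op_comp_conj_of_equiv (heckeUDatum N p hpN) (heckeUDatum N p hpN)
    (heckeUDatum_isReduced N p hpN) Jmat (jConjGamma0 N) (jConjGamma0 N)
    (gl_jConj_mul_Jmat N) (gl_jConj_mul_Jmat N) (Equiv.neg (ZMod p))
    (fun j => upperGamma0 N (negShift j)) (fun j => heckeMatrix_neg_mul_Jmat N j) ψ

/-- The involution `∞ ↦ ∞`, `j ↦ -j` of `ℙ¹(𝔽_p)`. -/
def negOnePoint (p : ℕ) : OnePoint (ZMod p) ≃ OnePoint (ZMod p) where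
  toFun x := x.elim OnePoint.infty (fun j => ((-j : ZMod p) : OnePoint (ZMod p)))
  invFun x := x.elim OnePoint.infty (fun j => ((-j : ZMod p) : OnePoint (ZMod p)))
  left_inv x := by induction x using OnePoint.rec <;> simp
  right_inv x := by induction x using OnePoint.rec <;> simp

/-- `T_p` commutes with the involution induced by conjugation with `diag(1,-1)`. -/
theorem heckeTHom_comp_jConj (hp : p.Prime) (hpN : ¬ p ∣ N) (ψ : Additive (Gamma0 N) →+ A) :
    heckeTHom A hp hpN (ψ.comp (MonoidHom.toAdditive (jConjGamma0 N)))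
      = (heckeTHom A hp hpN ψ).comp (MonoidHom.toAdditive (jConjGamma0 N)) := by
  have : Fact p.Prime := ⟨hp⟩
  have : NeZero p := ⟨hp.ne_zero⟩
  refine CosetDatum.op_comp_conj_of_equiv (heckeTDatum N p hpN) (heckeTDatum N p hpN)
    (heckeTDatum_isReduced N p hpN) Jmat (jConjGamma0 N) (jConjGamma0 N)
    (gl_jConj_mul_Jmat N) (gl_jConj_mul_Jmat N) (negOnePoint p)
    (fun x => x.elim 1 (fun j => upperGamma0 N (negShift j))) (fun x => ?_) ψ
  induction x using OnePoint.rec with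
  | infty => exact heckeDiagMatrix_mul_Jmat N p
  | coe j => exact heckeMatrix_neg_mul_Jmat N j

/-- `T_p` commutes with the prelude `charInvolution`. -/
theorem heckeTHom_charInvolution (R : Type*) [Semiring R] [Module R A] (hp : p.Prime)
    (hpN : ¬ p ∣ N) (ψ : Additive (Gamma0 N) →+ A) :
    heckeTHom A hp hpN (charInvolution N R A ψ) = charInvolution N R A (heckeTHom A hp hpN ψ) :=
  heckeTHom_comp_jConj A hp hpN ψ

/-- `U_p` commutes with the prelude `charInvolution`. -/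
theorem heckeUHom_charInvolution (R : Type*) [Semiring R] [Module R A] [NeZero p]
    (hpN : p ∣ N) (ψ : Additive (Gamma0 N) →+ A) :
    heckeUHom A hpN (charInvolution N R A ψ) = charInvolution N R A (heckeUHom A hpN ψ) :=
  heckeUHom_comp_jConj A hpN ψ

end involution

end Fermat.Agent.S41.H85
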