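/-
S41 (E0/A), dictionary between eigenforms and eigenclasses:
a normalised eigenform (prelude `IsNormalizedEigenform`, defined by multiplicativity of the
`q`-coefficients) is an eigenvector of all `T_l`, `U_q`; its eigencharacter on the prelude Hecke
algebra and its eigenclass in `parabolicHoms ℂ Γ₀(N) ℂ`.
-/
import Mathlib
import Fermat.Prelude.Thm_CuspForm_intLattice_fg
import Fermat.Prelude.Def_FLTPrelim_ModularRep
import Fermat.Agent.S49.H90_Normalize
import Fermat.Agent.S41.H85_HeckeModule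

set_option autoImplicit false

open CongruenceSubgroup ModularFormClass UpperHalfPlane ModularCurve ModularCurve.Period

namespace Fermat.Agent.S41.H85

open Fermat.Agent.S49.H90

section relations

variable {N : ℕ} {f : CuspForm (Gamma0 N) 2}

theorem qCoeff_prime_pow_mul (hf : f.IsNormalizedEigenform) {p : ℕ} (hp : p.Prime) (e m : ℕ)
    (hm : ¬ p ∣ m) : qCoeff f (p ^ e * m) = qCoeff f (p ^ e) * qCoeff f m :=
  hf.qCoeff_mul_of_coprime _ _
    (Nat.Coprime.pow_left e ((Nat.Prime.coprime_iff_not_dvd hp).mpr hm))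

/-- The `T_p`-relation for the coefficients of a normalised eigenform. -/
theorem relT_of_isNormalizedEigenform (hf : f.IsNormalizedEigenform) {p : ℕ} (hp : p.Prime)
    (hpN : ¬ p ∣ N) (n : ℕ) :
    qCoeff f (n * p) + (if p ∣ n then (p : ℂ) * qCoeff f (n / p) else 0)
      = qCoeff f p * qCoeff f n := by
  rcases Nat.eq_zero_or_pos n with rfl | hn
  · simp [qCoeff_zero_eq f]
  obtain ⟨e, m, hm, rfl⟩ := Nat.exists_eq_pow_mul_and_not_dvd hn.ne' p hp.ne_one
  have h1 : p ^ e * m * p = p ^ (e + 1) * m := by ring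
  rw [h1, qCoeff_prime_pow_mul hf hp _ _ hm, qCoeff_prime_pow_mul hf hp _ _ hm]
  rcases Nat.eq_zero_or_pos e with rfl | he
  · have hnd : ¬ p ∣ p ^ 0 * m := by simpa using hm
    rw [if_neg hnd, add_zero, zero_add, pow_one, pow_zero, hf.qCoeff_one, one_mul]
  · obtain ⟨e', rfl⟩ : ∃ e', e = e' + 1 := ⟨e - 1, by omega⟩
    have hd : p ∣ p ^ (e' + 1) * m := Dvd.dvd.mul_right (dvd_pow_self p (by omega)) m
    have hdiv : p ^ (e' + 1) * m / p = p ^ e' * m := by
      rw [pow_succ, mul_comm (p ^ e') p, mul_assoc, Nat.mul_div_cancel_left _ hp.pos]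
    rw [if_pos hd, hdiv, qCoeff_prime_pow_mul hf hp _ _ hm,
      hf.qCoeff_prime_pow_of_not_dvd p e' hp hpN]
    ring

/-- The `U_p`-relation for the coefficients of a normalised eigenform. -/
theorem relU_of_isNormalizedEigenform (hf : f.IsNormalizedEigenform) {p : ℕ} (hp : p.Prime)
    (hpN : p ∣ N) (n : ℕ) : qCoeff f (n * p) = qCoeff f p * qCoeff f n := by
  rcases Nat.eq_zero_or_pos n with rfl | hn
  · simp [qCoeff_zero_eq f]
  obtain ⟨e, m, hm, rfl⟩ := Nat.exists_eq_pow_mul_and_not_dvd hn.ne' p hp.ne_one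
  have h1 : p ^ e * m * p = p ^ (e + 1) * m := by ring
  rw [h1, qCoeff_prime_pow_mul hf hp _ _ hm, qCoeff_prime_pow_mul hf hp _ _ hm]
  have h2 : qCoeff f (p ^ (e + 1)) = qCoeff f p * qCoeff f (p ^ e) := by
    rcases Nat.eq_zero_or_pos e with rfl | he
    · rw [zero_add, pow_one, pow_zero, hf.qCoeff_one, mul_one]
    · obtain ⟨e', rfl⟩ : ∃ e', e = e' + 1 := ⟨e - 1, by omega⟩
      exact hf.qCoeff_prime_pow_of_dvd p e' hp hpN
  rw [h2]; ring

end relations

section eigen

variable {N : ℕ} [NeZero N] {f : CuspForm (Gamma0 N) 2}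

omit [NeZero N] in
theorem eq_of_forall_qCoeff_eq {k : ℤ} (g h : CuspForm (Gamma0 N) k)
    (H : ∀ n, qCoeff g n = qCoeff h n) : g = h := by
  have h0 : g + (-1 : ℂ) • h = 0 := by
    apply eq_zero_of_forall_qCoeff_eq_zero
    intro n
    rw [P2MW.S_CuspForm_intLattice_fg.W3WsD.qCoeff_add, qCoeff_smul, H n]
    ring
  have : g = g + (-1 : ℂ) • h + h := by
    rw [add_assoc, neg_one_smul, neg_add_cancel, add_zero]
  rw [this, h0, zero_add]

omit [NeZero N] in
/-- A normalised eigenform is an eigenvector of `T_l`, `l ∤ N`, with eigenvalue `a_l`. -/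
theorem heckeTLin_eq_of_isNormalizedEigenform (hf : f.IsNormalizedEigenform) {l : ℕ}
    (hl : l.Prime) (hlN : ¬ l ∣ N) :
    CuspForm.heckeTLin 2 hl hlN f = qCoeff f l • f := by
  apply eq_of_forall_qCoeff_eq
  intro n
  rw [qCoeff_heckeTLin, qCoeff_smul, ModularForm.coeffHeckeT_apply,
    ← relT_of_isNormalizedEigenform hf hl hlN n]
  norm_num

/-- A normalised eigenform is an eigenvector of `U_q`, `q ∣ N`, with eigenvalue `a_q`. -/
theorem heckeULin_eq_of_isNormalizedEigenform (hf : f.IsNormalizedEigenform) {q : ℕ}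
    (hq : q.Prime) (hqN : q ∣ N) :
    CuspForm.heckeULin 2 hqN f = qCoeff f q • f := by
  apply eq_of_forall_qCoeff_eq
  intro n
  rw [qCoeff_heckeULin hq.ne_zero, qCoeff_smul, ModularForm.coeffHeckeU_apply,
    relU_of_isNormalizedEigenform hf hq hqN n]

end eigen

section eigenChar

variable {N : ℕ} [NeZero N] {f : CuspForm (Gamma0 N) 2}

/-- A normalised eigenform is an eigenvector of every element of the Hecke algebra. -/
theorem exists_eigenvalue_of_isNormalizedEigenform (hf : f.IsNormalizedEigenform) (S : Set ℕ)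
    (t : CuspForm.heckeAlgebra N 2 S) :
    ∃ c : ℂ, (t : Module.End ℂ (CuspForm (Gamma0 N) 2)) f = c • f := by
  obtain ⟨t, ht⟩ := t
  induction ht using Algebra.adjoin_induction with
  | mem T hT =>
    rcases hT with ⟨ℓ, hℓ, hℓN, -, rfl⟩ | ⟨q, hqN, hq, -, rfl⟩
    · exact ⟨_, heckeTLin_eq_of_isNormalizedEigenform hf hℓ hℓN⟩
    · exact ⟨_, heckeULin_eq_of_isNormalizedEigenform hf hq hqN⟩
  | algebraMap r =>
    refine ⟨(r : ℂ), ?_⟩
    show (algebraMap ℤ (Module.End ℂ (CuspForm (Gamma0 N) 2)) r) f = _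
    rw [eq_intCast, Module.End.intCast_apply, Int.cast_smul_eq_zsmul]
  | add T T' _ _ ihT ihT' =>
    obtain ⟨c, hc⟩ := ihT
    obtain ⟨c', hc'⟩ := ihT'
    exact ⟨c + c', by
      show (T + T') f = _
      rw [LinearMap.add_apply, hc, hc', add_smul]⟩
  | mul T T' _ _ ihT ihT' =>
    obtain ⟨c, hc⟩ := ihT
    obtain ⟨c', hc'⟩ := ihT'
    exact ⟨c * c', by
      show (T * T') f = _
      rw [Module.End.mul_apply, hc', map_smul, hc, smul_smul, mul_comm]⟩

omit [NeZero N] in
theorem smul_eq_smul_iff_of_isNormalizedEigenform (hf : f.IsNormalizedEigenform) {c c' : ℂ} :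
    c • f = c' • f ↔ c = c' := by
  refine ⟨fun h => ?_, fun h => by rw [h]⟩
  have h1 : qCoeff ((c • f : CuspForm (Gamma0 N) 2) : ℍ → ℂ) 1
      = qCoeff ((c' • f : CuspForm (Gamma0 N) 2) : ℍ → ℂ) 1 := by rw [h]
  rwa [qCoeff_smul, qCoeff_smul, hf.qCoeff_one, mul_one, mul_one] at h1

/-- The eigencharacter of a normalised eigenform on the prelude Hecke algebra:
`Θ_f(t) = a_1(t f)`. -/
noncomputable def eigenChar (hf : f.IsNormalizedEigenform) (S : Set ℕ) :
    CuspForm.heckeAlgebra N 2 S →+* ℂ where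
  toFun t := qCoeff ((t : Module.End ℂ (CuspForm (Gamma0 N) 2)) f) 1
  map_one' := by
    show qCoeff (((1 : Module.End ℂ (CuspForm (Gamma0 N) 2))) f) 1 = 1
    rw [Module.End.one_apply, hf.qCoeff_one]
  map_mul' t t' := by
    obtain ⟨c, hc⟩ := exists_eigenvalue_of_isNormalizedEigenform hf S t
    obtain ⟨c', hc'⟩ := exists_eigenvalue_of_isNormalizedEigenform hf S t'
    show qCoeff (((t : Module.End ℂ (CuspForm (Gamma0 N) 2)) *
      (t' : Module.End ℂ (CuspForm (Gamma0 N) 2))) f) 1 = _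
    simp only [Module.End.mul_apply, hc', map_smul, hc, qCoeff_smul, hf.qCoeff_one]
    ring
  map_zero' := by
    show qCoeff (((0 : Module.End ℂ (CuspForm (Gamma0 N) 2))) f) 1 = 0
    rw [LinearMap.zero_apply, ← zero_smul ℂ f, qCoeff_smul, zero_mul]
  map_add' t t' := by
    show qCoeff (((t : Module.End ℂ (CuspForm (Gamma0 N) 2)) +
      (t' : Module.End ℂ (CuspForm (Gamma0 N) 2))) f) 1 = _
    rw [LinearMap.add_apply, P2MW.S_CuspForm_intLattice_fg.W3WsD.qCoeff_add]

theorem eigenChar_spec (hf : f.IsNormalizedEigenform) (S : Set ℕ)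
    (t : CuspForm.heckeAlgebra N 2 S) :
    (t : Module.End ℂ (CuspForm (Gamma0 N) 2)) f = eigenChar hf S t • f := by
  obtain ⟨c, hc⟩ := exists_eigenvalue_of_isNormalizedEigenform hf S t
  have : eigenChar hf S t = c := by
    show qCoeff ((t : Module.End ℂ (CuspForm (Gamma0 N) 2)) f) 1 = c
    rw [hc, qCoeff_smul, hf.qCoeff_one, mul_one]
  rw [this, hc]

theorem eigenChar_T (hf : f.IsNormalizedEigenform) {S : Set ℕ} {ℓ : ℕ} (hℓ : ℓ.Prime)
    (hℓN : ¬ ℓ ∣ N) (hℓS : ℓ ∉ S) :
    eigenChar hf S (CuspForm.heckeAlgebra.T hℓ hℓN hℓS) = qCoeff f ℓ := by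
  show qCoeff (CuspForm.heckeTLin 2 hℓ hℓN f) 1 = _
  rw [heckeTLin_eq_of_isNormalizedEigenform hf hℓ hℓN, qCoeff_smul, hf.qCoeff_one, mul_one]

theorem eigenChar_U (hf : f.IsNormalizedEigenform) {S : Set ℕ} {q : ℕ} (hq : q.Prime)
    (hqN : q ∣ N) (hqS : q ∉ S) :
    eigenChar hf S (CuspForm.heckeAlgebra.U hq hqN hqS) = qCoeff f q := by
  show qCoeff (CuspForm.heckeULin 2 hqN f) 1 = _
  rw [heckeULin_eq_of_isNormalizedEigenform hf hq hqN, qCoeff_smul, hf.qCoeff_one, mul_one]

/-- The eigenclass of a normalised eigenform in `parabolicHoms ℂ Γ₀(N) ℂ`. -/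
noncomputable def eigenClass (N : ℕ) [NeZero N] (f : CuspForm (Gamma0 N) 2) :
    parabolicHoms ℂ (Gamma0 N) ℂ := esEquiv N (f, 0)

theorem eigenClass_ne_zero (hf : f.IsNormalizedEigenform) : eigenClass N f ≠ 0 := by
  intro h
  have h1 : (f, (0 : CuspForm (Gamma0 N) 2)) = 0 :=
    (esEquiv N).injective (by rw [map_zero]; exact h)
  exact hf.ne_zero (congrArg Prod.fst h1)

theorem heckeEndC_eigenClass (hf : f.IsNormalizedEigenform) (S : Set ℕ)
    (t : CuspForm.heckeAlgebra N 2 S) :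
    heckeEndC N S t (eigenClass N f) = eigenChar hf S t • eigenClass N f := by
  rw [heckeEndC_apply, eigenClass, LinearEquiv.symm_apply_apply, LinearMap.prodMap_apply,
    eigenChar_spec hf S t, map_zero, ← map_smul]
  congr 1
  simp

/-- Every element of the Hecke algebra is integral over `ℤ` (it acts faithfully on a finitely
generated `ℤ`-module). -/
theorem isIntegral_heckeAlgebra (S : Set ℕ) (t : CuspForm.heckeAlgebra N 2 S) :
    IsIntegral ℤ t := by
  have h1 : IsIntegral ℤ (cohHeckeRep N S t) := Algebra.IsIntegral.isIntegral _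
  exact (isIntegral_algHom_iff (cohHeckeRep N S).toIntAlgHom cohHeckeRep_injective).mp h1

theorem isIntegral_eigenChar (hf : f.IsNormalizedEigenform) (S : Set ℕ)
    (t : CuspForm.heckeAlgebra N 2 S) : IsIntegral ℤ (eigenChar hf S t) :=
  (isIntegral_heckeAlgebra S t).map (eigenChar hf S).toIntAlgHom

end eigenChar

end Fermat.Agent.S41.H85
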