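/-
S41 (a), integral part: the lattice `H_N = parabolicHoms ℤ (Gamma0 N) ℤ` is a finitely generated
free `ℤ`-module spanning `parabolicHoms ℂ (Gamma0 N) ℂ`, and it is a faithful module over the
prelude Hecke algebra `CuspForm.heckeAlgebra N 2 S`, the generators acting through the coset
operators `heckeTPar`, `heckeUPar`.
-/
import Mathlib
import Fermat.Prelude.Def_CuspForm_HeckeAlgebra
import Fermat.Agent.S21
import Fermat.Agent.S22.H82_Gamma0FG
import Fermat.Agent.S41.H85_HeckeES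

set_option autoImplicit false

open CongruenceSubgroup ModularCurve ModularCurve.Period
open scoped MatrixGroups

namespace Fermat.Agent.S41.H85

section baseChange

variable (N : ℕ)

/-- Base change `ℤ → ℂ` of parabolic classes. -/
noncomputable def parabolicBC :
    parabolicHoms ℤ (Gamma0 N) ℤ →ₗ[ℤ] parabolicHoms ℂ (Gamma0 N) ℂ where
  toFun φ := ⟨(Int.castAddHom ℂ).comp φ.1, by
    have h := φ.2
    rw [mem_parabolicHoms_iff] at h ⊢
    intro γ hγ
    show ((φ.1 (Additive.ofMul γ) : ℤ) : ℂ) = 0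
    rw [h γ hγ, Int.cast_zero]⟩
  map_add' φ ψ := by
    apply Subtype.ext
    refine AddMonoidHom.ext fun γ => ?_
    simp
  map_smul' c φ := by
    apply Subtype.ext
    refine AddMonoidHom.ext fun γ => ?_
    simp

@[simp] theorem parabolicBC_apply (φ : parabolicHoms ℤ (Gamma0 N) ℤ) (γ : Additive (Gamma0 N)) :
    (parabolicBC N φ).1 γ = ((φ.1 γ : ℤ) : ℂ) := rfl

theorem parabolicBC_injective : Function.Injective (parabolicBC N) := by
  intro φ ψ h
  apply Subtype.ext
  refine AddMonoidHom.ext fun γ => ?_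
  have := congrArg (fun x => x.1 γ) h
  simpa using this

variable {N} {p : ℕ}

theorem parabolicBC_heckeTPar (hp : p.Prime) (hpN : ¬ p ∣ N) (φ : parabolicHoms ℤ (Gamma0 N) ℤ) :
    parabolicBC N (heckeTPar ℤ ℤ hp hpN φ) = heckeTPar ℂ ℂ hp hpN (parabolicBC N φ) := by
  apply Subtype.ext
  have : Fact p.Prime := ⟨hp⟩
  exact ((heckeTDatum N p hpN).op_comp_hom (Int.castAddHom ℂ) φ.1).symm

theorem parabolicBC_heckeUPar [NeZero p] (hpN : p ∣ N) (φ : parabolicHoms ℤ (Gamma0 N) ℤ) :
    parabolicBC N (heckeUPar ℤ ℤ hpN φ) = heckeUPar ℂ ℂ hpN (parabolicBC N φ) := by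
  apply Subtype.ext
  exact ((heckeUDatum N p hpN).op_comp_hom (Int.castAddHom ℂ) φ.1).symm

/-- The integral parabolic classes span the complex ones. -/
theorem span_range_parabolicBC (N : ℕ) [NeZero N] :
    Submodule.span ℂ (Set.range (parabolicBC N)) = ⊤ := by
  rw [eq_top_iff]
  rintro φ -
  have hFG : Group.FG (Gamma0 N) := Fermat.Agent.S22.H82.groupFG_Gamma0 N
  set M : AddSubgroup ℂ := φ.1.range with hM
  have hfg : AddGroup.FG M := AddGroup.fg_range φ.1
  have hfin : Module.Finite ℤ M := Module.Finite.iff_addGroup_fg.mpr hfg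
  let b := Module.Free.chooseBasis ℤ M
  let φr : Additive (Gamma0 N) →+ M := φ.1.rangeRestrict
  have hpar : ∀ k, ((b.coord k : M →ₗ[ℤ] ℤ).toAddMonoidHom).comp φr
      ∈ parabolicHoms ℤ (Gamma0 N) ℤ := by
    intro k
    have h := φ.2
    rw [mem_parabolicHoms_iff] at h ⊢
    intro γ hγ
    have h0 : φr (Additive.ofMul γ) = 0 := by
      apply Subtype.ext
      exact h γ hγ
    show b.coord k (φr (Additive.ofMul γ)) = 0
    rw [h0, map_zero]
  let ψ : Module.Free.ChooseBasisIndex ℤ M → parabolicHoms ℤ (Gamma0 N) ℤ := fun k => ⟨_, hpar k⟩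
  have hφ : φ = ∑ k, ((b k : M) : ℂ) • parabolicBC N (ψ k) := by
    apply Subtype.ext
    refine AddMonoidHom.ext fun γ => ?_
    have h1 := b.sum_repr (φr γ)
    have h2 := congrArg (fun x : M => (x : ℂ)) h1
    simp only [AddSubgroup.val_finsetSum, AddSubgroup.coe_zsmul] at h2
    have h3 : ((φr γ : M) : ℂ) = φ.1 γ := rfl
    rw [h3] at h2
    rw [← h2]
    simp only [Submodule.coe_sum, Submodule.coe_smul, AddMonoidHom.coe_finsetSum,
      Finset.sum_apply, AddMonoidHom.smul_apply, parabolicBC_apply]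
    refine Finset.sum_congr rfl fun k _ => ?_
    simp only [zsmul_eq_mul, smul_eq_mul, ψ]
    rw [mul_comm]
    rfl
  rw [hφ]
  exact Submodule.sum_mem _ fun k _ =>
    Submodule.smul_mem _ _ (Submodule.subset_span ⟨ψ k, rfl⟩)

end baseChange

section finiteFree

variable (N : ℕ) [NeZero N]

/-- Evaluation of homomorphisms at a family of group elements. -/
noncomputable def evalAt {Γ : Type*} [Group Γ] {ι : Type*} (g : ι → Γ) :
    (Additive Γ →+ ℤ) →ₗ[ℤ] (ι → ℤ) where
  toFun φ i := φ (Additive.ofMul (g i))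
  map_add' _ _ := rfl
  map_smul' _ _ := rfl

theorem evalAt_injective {Γ : Type*} [Group Γ] {ι : Type*} (g : ι → Γ)
    (hg : Subgroup.closure (Set.range g) = ⊤) : Function.Injective (evalAt g) := by
  intro φ ψ h
  have hker : Subgroup.closure (Set.range g)
      ≤ (MonoidHom.eqLocus (AddMonoidHom.toMultiplicativeRight φ)
          (AddMonoidHom.toMultiplicativeRight ψ)) := by
    rw [Subgroup.closure_le]
    rintro _ ⟨i, rfl⟩
    have := congrFun h i
    exact congrArg Multiplicative.ofAdd this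
  rw [hg] at hker
  refine AddMonoidHom.ext fun γ => ?_
  have := hker (Subgroup.mem_top (Additive.toMul γ))
  exact Multiplicative.ofAdd.injective this

instance instFiniteHomInt : Module.Finite ℤ (Additive (Gamma0 N) →+ ℤ) := by
  have hFG : Group.FG (Gamma0 N) := Fermat.Agent.S22.H82.groupFG_Gamma0 N
  obtain ⟨S, hS⟩ := Group.fg_def.mp hFG
  have hcl : Subgroup.closure (Set.range (fun i : S => (i : Gamma0 N))) = ⊤ := by
    rw [Subtype.range_coe_subtype]
    simpa using hS
  exact Module.Finite.of_injective (evalAt (fun i : S => (i : Gamma0 N))) (evalAt_injective _ hcl)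

instance instFiniteParabolicInt : Module.Finite ℤ (parabolicHoms ℤ (Gamma0 N) ℤ) :=
  Module.Finite.of_injective (parabolicHoms ℤ (Gamma0 N) ℤ).subtype Subtype.val_injective

instance instAddTorsionFreeHomInt {Γ : Type*} [Group Γ] :
    IsAddTorsionFree (Additive Γ →+ ℤ) where
  nsmul_right_injective n hn φ ψ h := by
    refine AddMonoidHom.ext fun γ => ?_
    have := congrArg (fun f : Additive Γ →+ ℤ => f γ) h
    simp only [AddMonoidHom.smul_apply, nsmul_eq_mul] at this
    exact mul_left_cancel₀ (by exact_mod_cast hn) this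

instance instFreeParabolicInt : Module.Free ℤ (parabolicHoms ℤ (Gamma0 N) ℤ) :=
  inferInstance

end finiteFree

section heckeModule

variable (N : ℕ) [NeZero N]

/-- The Eichler–Shimura isomorphism `S₂(Γ₀(N))² ≃ parabolicHoms ℂ Γ₀(N) ℂ` (from S21). -/
noncomputable def esEquiv :
    (CuspForm (Gamma0 N) 2 × CuspForm (Gamma0 N) 2) ≃ₗ[ℂ] parabolicHoms ℂ (Gamma0 N) ℂ :=
  LinearEquiv.ofBijective (Fermat.Agent.S21.periodHomPairPar N)
    ⟨Fermat.Agent.S21.periodHomPairPar_injective N, by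
      intro φ
      have h : φ.1 ∈ LinearMap.range (periodHomPair N) := by
        rw [(Fermat.Agent.S21.result N).2]; exact φ.2
      obtain ⟨x, hx⟩ := h
      exact ⟨x, Subtype.ext hx⟩⟩

theorem coe_esEquiv_apply (x : CuspForm (Gamma0 N) 2 × CuspForm (Gamma0 N) 2) :
    ((esEquiv N x : parabolicHoms ℂ (Gamma0 N) ℂ) : Additive (Gamma0 N) →+ ℂ)
      = periodHomPair N x := rfl

variable {N} {p : ℕ}

theorem esEquiv_heckeTLin (hp : p.Prime) (hpN : ¬ p ∣ N)
    (x : CuspForm (Gamma0 N) 2 × CuspForm (Gamma0 N) 2) :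
    esEquiv N ((CuspForm.heckeTLin 2 hp hpN).prodMap (CuspForm.heckeTLin 2 hp hpN) x)
      = heckeTPar ℂ ℂ hp hpN (esEquiv N x) := by
  apply Subtype.ext
  obtain ⟨f, g⟩ := x
  exact periodHomPair_heckeTLin hp hpN f g

theorem esEquiv_heckeULin [NeZero p] (hpN : p ∣ N)
    (x : CuspForm (Gamma0 N) 2 × CuspForm (Gamma0 N) 2) :
    esEquiv N ((CuspForm.heckeULin 2 hpN).prodMap (CuspForm.heckeULin 2 hpN) x)
      = heckeUPar ℂ ℂ hpN (esEquiv N x) := by
  apply Subtype.ext
  obtain ⟨f, g⟩ := x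
  exact periodHomPair_heckeULin hpN f g

variable (N) (S : Set ℕ)

/-- The action of the prelude Hecke algebra on `parabolicHoms ℂ Γ₀(N) ℂ`, transported through the
Eichler–Shimura isomorphism. -/
noncomputable def heckeEndC :
    CuspForm.heckeAlgebra N 2 S →+* Module.End ℂ (parabolicHoms ℂ (Gamma0 N) ℂ) :=
  RingHom.comp ((esEquiv N).conjRingEquiv : Module.End ℂ _ →+* Module.End ℂ _)
    (RingHom.comp
      (LinearMap.prodMapRingHom ℂ (CuspForm (Gamma0 N) 2) (CuspForm (Gamma0 N) 2))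
      (RingHom.comp ((RingHom.id _).prod (RingHom.id _))
        (CuspForm.heckeAlgebra N 2 S).val.toRingHom))

theorem heckeEndC_apply (t : CuspForm.heckeAlgebra N 2 S) (v : parabolicHoms ℂ (Gamma0 N) ℂ) :
    heckeEndC N S t v
      = esEquiv N ((t : Module.End ℂ (CuspForm (Gamma0 N) 2)).prodMap
          (t : Module.End ℂ (CuspForm (Gamma0 N) 2)) ((esEquiv N).symm v)) := rfl

variable {N S}

theorem heckeEndC_T {ℓ : ℕ} (hℓ : ℓ.Prime) (hℓN : ¬ ℓ ∣ N) (hℓS : ℓ ∉ S) :
    heckeEndC N S (CuspForm.heckeAlgebra.T hℓ hℓN hℓS) = heckeTPar ℂ ℂ hℓ hℓN := by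
  refine LinearMap.ext fun v => ?_
  rw [heckeEndC_apply, CuspForm.heckeAlgebra.coe_T, esEquiv_heckeTLin, LinearEquiv.apply_symm_apply]

theorem heckeEndC_U {q : ℕ} (hq : q.Prime) (hqN : q ∣ N) (hqS : q ∉ S) :
    haveI : NeZero q := ⟨hq.ne_zero⟩
    heckeEndC N S (CuspForm.heckeAlgebra.U hq hqN hqS) = heckeUPar ℂ ℂ hqN := by
  have : NeZero q := ⟨hq.ne_zero⟩
  refine LinearMap.ext fun v => ?_
  rw [heckeEndC_apply, CuspForm.heckeAlgebra.coe_U, esEquiv_heckeULin, LinearEquiv.apply_symm_apply]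

theorem heckeEndC_injective : Function.Injective (heckeEndC N S) := by
  intro t t' h
  apply Subtype.ext
  refine LinearMap.ext fun f => ?_
  have h1 := congrArg (fun T : Module.End ℂ (parabolicHoms ℂ (Gamma0 N) ℂ) =>
    (esEquiv N).symm (T (esEquiv N (f, 0)))) h
  simp only [heckeEndC_apply, LinearEquiv.symm_apply_apply] at h1
  exact congrArg Prod.fst h1

/-- The Hecke algebra preserves the integral lattice inside `parabolicHoms ℂ Γ₀(N) ℂ`. -/
theorem heckeEndC_preserves (t : CuspForm.heckeAlgebra N 2 S)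
    (x : parabolicHoms ℤ (Gamma0 N) ℤ) :
    ∃ y : parabolicHoms ℤ (Gamma0 N) ℤ, parabolicBC N y = heckeEndC N S t (parabolicBC N x) := by
  obtain ⟨t, ht⟩ := t
  induction ht using Algebra.adjoin_induction generalizing x with
  | mem T hT =>
    rcases hT with ⟨ℓ, hℓ, hℓN, hℓS, rfl⟩ | ⟨q, hqN, hq, hqS, rfl⟩
    · refine ⟨heckeTPar ℤ ℤ hℓ hℓN x, ?_⟩
      rw [parabolicBC_heckeTPar]
      exact (congrArg (fun T : Module.End ℂ _ => T (parabolicBC N x))
        (heckeEndC_T (S := S) hℓ hℓN hℓS)).symm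
    · have : NeZero q := ⟨hq.ne_zero⟩
      refine ⟨heckeUPar ℤ ℤ hqN x, ?_⟩
      rw [parabolicBC_heckeUPar]
      exact (congrArg (fun T : Module.End ℂ _ => T (parabolicBC N x))
        (heckeEndC_U (S := S) hq hqN hqS)).symm
  | algebraMap r =>
    refine ⟨r • x, ?_⟩
    have h1 : (⟨algebraMap ℤ _ r, Subalgebra.algebraMap_mem _ r⟩ : CuspForm.heckeAlgebra N 2 S)
        = algebraMap ℤ (CuspForm.heckeAlgebra N 2 S) r := rfl
    rw [h1, map_smul, eq_intCast, map_intCast]
    simp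
  | add T T' hT hT' ihT ihT' =>
    obtain ⟨y, hy⟩ := ihT x
    obtain ⟨y', hy'⟩ := ihT' x
    refine ⟨y + y', ?_⟩
    have h1 : (⟨T + T', Subalgebra.add_mem _ hT hT'⟩ : CuspForm.heckeAlgebra N 2 S)
        = ⟨T, hT⟩ + ⟨T', hT'⟩ := rfl
    rw [h1, map_add, map_add, hy, hy', LinearMap.add_apply]
  | mul T T' hT hT' ihT ihT' =>
    obtain ⟨y', hy'⟩ := ihT' x
    obtain ⟨y, hy⟩ := ihT y'
    refine ⟨y, ?_⟩
    have h1 : (⟨T * T', Subalgebra.mul_mem _ hT hT'⟩ : CuspForm.heckeAlgebra N 2 S)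
        = ⟨T, hT⟩ * ⟨T', hT'⟩ := rfl
    rw [h1, map_mul, Module.End.mul_apply, ← hy', hy]

/-- Auxiliary: the action of `t` on an integral class. -/
noncomputable def liftFun (t : CuspForm.heckeAlgebra N 2 S) (x : parabolicHoms ℤ (Gamma0 N) ℤ) :
    parabolicHoms ℤ (Gamma0 N) ℤ := (heckeEndC_preserves t x).choose

theorem parabolicBC_liftFun (t : CuspForm.heckeAlgebra N 2 S)
    (x : parabolicHoms ℤ (Gamma0 N) ℤ) :
    parabolicBC N (liftFun t x) = heckeEndC N S t (parabolicBC N x) :=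
  (heckeEndC_preserves t x).choose_spec

variable (N S)

/-- **The integral Hecke module.** The prelude Hecke algebra acts on
`H_N = parabolicHoms ℤ Γ₀(N) ℤ`. -/
noncomputable def cohHeckeRep :
    CuspForm.heckeAlgebra N 2 S →+* Module.End ℤ (parabolicHoms ℤ (Gamma0 N) ℤ) where
  toFun t :=
    { toFun := liftFun t
      map_add' := fun x y => by
        apply parabolicBC_injective N
        rw [map_add, parabolicBC_liftFun, parabolicBC_liftFun, parabolicBC_liftFun, map_add,
          map_add]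
      map_smul' := fun c x => by
        apply parabolicBC_injective N
        rw [RingHom.id_apply, map_smul, parabolicBC_liftFun, parabolicBC_liftFun, map_smul,
          ← Int.cast_smul_eq_zsmul ℂ, map_smul]
        exact Int.cast_smul_eq_zsmul ℂ c (heckeEndC N S t (parabolicBC N x)) }
  map_one' := by
    refine LinearMap.ext fun x => ?_
    apply parabolicBC_injective N
    show parabolicBC N (liftFun 1 x) = _
    rw [parabolicBC_liftFun, map_one]
    rfl
  map_mul' t t' := by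
    refine LinearMap.ext fun x => ?_
    apply parabolicBC_injective N
    show parabolicBC N (liftFun (t * t') x) = parabolicBC N (liftFun t (liftFun t' x))
    rw [parabolicBC_liftFun, parabolicBC_liftFun, parabolicBC_liftFun, map_mul]
    rfl
  map_zero' := by
    refine LinearMap.ext fun x => ?_
    apply parabolicBC_injective N
    show parabolicBC N (liftFun 0 x) = _
    rw [parabolicBC_liftFun, map_zero]
    simp
  map_add' t t' := by
    refine LinearMap.ext fun x => ?_
    apply parabolicBC_injective N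
    show parabolicBC N (liftFun (t + t') x) = parabolicBC N (liftFun t x + liftFun t' x)
    rw [parabolicBC_liftFun, map_add (parabolicBC N), parabolicBC_liftFun, parabolicBC_liftFun,
      map_add]
    rfl

variable {N S}

/-- Characterisation of `cohHeckeRep`: it is compatible with base change to `ℂ`. -/
theorem parabolicBC_cohHeckeRep (t : CuspForm.heckeAlgebra N 2 S)
    (x : parabolicHoms ℤ (Gamma0 N) ℤ) :
    parabolicBC N (cohHeckeRep N S t x) = heckeEndC N S t (parabolicBC N x) :=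
  parabolicBC_liftFun t x

theorem cohHeckeRep_T {ℓ : ℕ} (hℓ : ℓ.Prime) (hℓN : ¬ ℓ ∣ N) (hℓS : ℓ ∉ S) :
    cohHeckeRep N S (CuspForm.heckeAlgebra.T hℓ hℓN hℓS) = heckeTPar ℤ ℤ hℓ hℓN := by
  refine LinearMap.ext fun x => ?_
  apply parabolicBC_injective N
  rw [parabolicBC_cohHeckeRep, heckeEndC_T, parabolicBC_heckeTPar]

theorem cohHeckeRep_U {q : ℕ} (hq : q.Prime) (hqN : q ∣ N) (hqS : q ∉ S) :
    haveI : NeZero q := ⟨hq.ne_zero⟩
    cohHeckeRep N S (CuspForm.heckeAlgebra.U hq hqN hqS) = heckeUPar ℤ ℤ hqN := by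
  have : NeZero q := ⟨hq.ne_zero⟩
  refine LinearMap.ext fun x => ?_
  apply parabolicBC_injective N
  rw [parabolicBC_cohHeckeRep, heckeEndC_U, parabolicBC_heckeUPar]

/-- **Faithfulness**: the Hecke algebra acts faithfully on the integral lattice. -/
theorem cohHeckeRep_injective : Function.Injective (cohHeckeRep N S) := by
  rw [injective_iff_map_eq_zero]
  intro t ht
  apply heckeEndC_injective (N := N) (S := S)
  rw [map_zero]
  have hvan : ∀ v ∈ Set.range (parabolicBC N), heckeEndC N S t v = 0 := by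
    rintro _ ⟨x, rfl⟩
    rw [← parabolicBC_cohHeckeRep, ht, LinearMap.zero_apply, map_zero]
  refine LinearMap.ext fun v => ?_
  have hv : v ∈ Submodule.span ℂ (Set.range (parabolicBC N)) := by
    rw [span_range_parabolicBC]; exact Submodule.mem_top
  rw [LinearMap.zero_apply]
  induction hv using Submodule.span_induction with
  | mem v hv => exact hvan v hv
  | zero => exact map_zero _
  | add v w _ _ hv hw => rw [map_add, hv, hw, add_zero]
  | smul c v _ hv => rw [map_smul, hv, smul_zero]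

section commute

variable {p l : ℕ}

theorem commute_heckeTPar_heckeTPar_int (hp : p.Prime) (hpN : ¬ p ∣ N) (hl : l.Prime)
    (hlN : ¬ l ∣ N) : Commute (heckeTPar ℤ ℤ hp hpN) (heckeTPar ℤ ℤ hl hlN) := by
  rw [← cohHeckeRep_T (S := ∅) hp hpN (Set.notMem_empty p),
    ← cohHeckeRep_T (S := ∅) hl hlN (Set.notMem_empty l)]
  exact (Commute.all _ _).map (cohHeckeRep N ∅)

theorem commute_heckeTPar_heckeUPar_int (hp : p.Prime) (hpN : ¬ p ∣ N) (hl : l.Prime)
    (hlN : l ∣ N) :
    haveI : NeZero l := ⟨hl.ne_zero⟩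
    Commute (heckeTPar ℤ ℤ hp hpN) (heckeUPar ℤ ℤ hlN) := by
  have : NeZero l := ⟨hl.ne_zero⟩
  rw [← cohHeckeRep_T (S := ∅) hp hpN (Set.notMem_empty p),
    ← cohHeckeRep_U (S := ∅) hl hlN (Set.notMem_empty l)]
  exact (Commute.all _ _).map (cohHeckeRep N ∅)

theorem commute_heckeUPar_heckeUPar_int (hp : p.Prime) (hpN : p ∣ N) (hl : l.Prime)
    (hlN : l ∣ N) :
    haveI : NeZero l := ⟨hl.ne_zero⟩
    haveI : NeZero p := ⟨hp.ne_zero⟩
    Commute (heckeUPar ℤ ℤ hpN) (heckeUPar ℤ ℤ hlN) := by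
  have : NeZero l := ⟨hl.ne_zero⟩
  have : NeZero p := ⟨hp.ne_zero⟩
  rw [← cohHeckeRep_U (S := ∅) hp hpN (Set.notMem_empty p),
    ← cohHeckeRep_U (S := ∅) hl hlN (Set.notMem_empty l)]
  exact (Commute.all _ _).map (cohHeckeRep N ∅)

theorem commute_heckeTPar_heckeTPar_complex (hp : p.Prime) (hpN : ¬ p ∣ N) (hl : l.Prime)
    (hlN : ¬ l ∣ N) : Commute (heckeTPar ℂ ℂ hp hpN) (heckeTPar ℂ ℂ hl hlN) := by
  rw [← heckeEndC_T (S := ∅) hp hpN (Set.notMem_empty p),
    ← heckeEndC_T (S := ∅) hl hlN (Set.notMem_empty l)]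
  exact (Commute.all _ _).map (heckeEndC N ∅)

theorem commute_heckeTPar_heckeUPar_complex (hp : p.Prime) (hpN : ¬ p ∣ N) (hl : l.Prime)
    (hlN : l ∣ N) :
    haveI : NeZero l := ⟨hl.ne_zero⟩
    Commute (heckeTPar ℂ ℂ hp hpN) (heckeUPar ℂ ℂ hlN) := by
  have : NeZero l := ⟨hl.ne_zero⟩
  rw [← heckeEndC_T (S := ∅) hp hpN (Set.notMem_empty p),
    ← heckeEndC_U (S := ∅) hl hlN (Set.notMem_empty l)]
  exact (Commute.all _ _).map (heckeEndC N ∅)

theorem commute_heckeUPar_heckeUPar_complex (hp : p.Prime) (hpN : p ∣ N) (hl : l.Prime)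
    (hlN : l ∣ N) :
    haveI : NeZero l := ⟨hl.ne_zero⟩
    haveI : NeZero p := ⟨hp.ne_zero⟩
    Commute (heckeUPar ℂ ℂ hpN) (heckeUPar ℂ ℂ hlN) := by
  have : NeZero l := ⟨hl.ne_zero⟩
  have : NeZero p := ⟨hp.ne_zero⟩
  rw [← heckeEndC_U (S := ∅) hp hpN (Set.notMem_empty p),
    ← heckeEndC_U (S := ∅) hl hlN (Set.notMem_empty l)]
  exact (Commute.all _ _).map (heckeEndC N ∅)

end commute

end heckeModule

end Fermat.Agent.S41.H85
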