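import Mathlib
import Fermat.Prelude.Def_ModularForm_HeckeOperator
import Fermat.Prelude.Def_FLTPrelim_Modularity

set_option autoImplicit false

/-!
# S41 / (g) : the Atkin–Lehner involution at `q ∥ N q` (matrix level, weight `2`)

`N q : ℕ`, `q x - N y = 1`.  `W = [[q x, y], [N q, q]]` has determinant `q`, normalises `Γ₀(N q)`,
`W² ∈ q • Γ₀(N q)`, and `W * [[1, j], [0, q]] = q • r_j` with `r_j ∈ Γ₀(N)`; the `r_j` (`j` mod `q`)
together with `1` represent the cosets `Γ₀(N q) \ Γ₀(N)`.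
-/

namespace Fermat.Agent.S41.H72

open Matrix.SpecialLinearGroup UpperHalfPlane CongruenceSubgroup ModularForm
open scoped MatrixGroups ModularForm

noncomputable section

/-- Bezout data for the Atkin–Lehner matrix: `q x - N y = 1`. -/
structure ALData (N q : ℕ) where
  x : ℤ
  y : ℤ
  h : (q : ℤ) * x - (N : ℤ) * y = 1

theorem nonempty_alData {N q : ℕ} (h : Nat.Coprime q N) : Nonempty (ALData N q) := by
  have h1 : IsCoprime (q : ℤ) (N : ℤ) := Nat.isCoprime_iff_coprime.mpr h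
  obtain ⟨u, v, huv⟩ := h1
  exact ⟨⟨u, -v, by linear_combination huv⟩⟩

variable {N q : ℕ}

/-- the determinant one integer matrix `[[a, b], [c, d]]` -/
def sl2 (a b c d : ℤ) (h : a * d - b * c = 1) : SL(2, ℤ) :=
  ⟨!![a, b; c, d], by rw [Matrix.det_fin_two_of]; exact h⟩

@[simp] theorem sl2_apply_zero_zero (a b c d : ℤ) (h : a * d - b * c = 1) :
    (sl2 a b c d h) 0 0 = a := rfl
@[simp] theorem sl2_apply_zero_one (a b c d : ℤ) (h : a * d - b * c = 1) :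
    (sl2 a b c d h) 0 1 = b := rfl
@[simp] theorem sl2_apply_one_zero (a b c d : ℤ) (h : a * d - b * c = 1) :
    (sl2 a b c d h) 1 0 = c := rfl
@[simp] theorem sl2_apply_one_one (a b c d : ℤ) (h : a * d - b * c = 1) :
    (sl2 a b c d h) 1 1 = d := rfl

theorem det_eq' (g : SL(2, ℤ)) : g 0 0 * g 1 1 - g 0 1 * g 1 0 = 1 := by
  have h := g.det_coe
  rwa [Matrix.det_fin_two] at h

/-- The Atkin–Lehner matrix `[[q x, y], [N q, q]]` as an element of `GL(2, ℝ)`. -/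
def alGL (D : ALData N q) (hq : q ≠ 0) : GL (Fin 2) ℝ :=
  Matrix.GeneralLinearGroup.mkOfDetNeZero !![((q : ℝ) * D.x), (D.y : ℝ); ((N : ℝ) * q), (q : ℝ)]
    (by
      rw [Matrix.det_fin_two_of]
      have h := congrArg (Int.cast : ℤ → ℝ) D.h
      push_cast at h
      have hq' : (q : ℝ) ≠ 0 := by exact_mod_cast hq
      have : (q : ℝ) * D.x * q - D.y * (N * q) = q := by linear_combination (q : ℝ) * h
      rw [this]
      exact hq')

@[simp] theorem val_alGL (D : ALData N q) (hq : q ≠ 0) :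
    ((alGL D hq : GL (Fin 2) ℝ) : Matrix (Fin 2) (Fin 2) ℝ) =
      !![((q : ℝ) * D.x), (D.y : ℝ); ((N : ℝ) * q), (q : ℝ)] := rfl

theorem det_alGL (D : ALData N q) (hq : q ≠ 0) : ((alGL D hq).det : ℝ) = q := by
  rw [Matrix.GeneralLinearGroup.val_det_apply, val_alGL, Matrix.det_fin_two_of]
  have h := congrArg (Int.cast : ℤ → ℝ) D.h
  push_cast at h
  linear_combination (q : ℝ) * h

/-- the scalar matrix `q` -/
def scalarGL (q : ℕ) (hq : q ≠ 0) : GL (Fin 2) ℝ :=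
  upperTriangularGL q 0 q (by
    have hq' : (q : ℝ) ≠ 0 := by exact_mod_cast hq
    exact mul_ne_zero hq' hq')

@[simp] theorem val_scalarGL (q : ℕ) (hq : q ≠ 0) :
    ((scalarGL q hq : GL (Fin 2) ℝ) : Matrix (Fin 2) (Fin 2) ℝ) = !![(q : ℝ), 0; 0, (q : ℝ)] := rfl


theorem det_scalarGL (q : ℕ) (hq : q ≠ 0) : ((scalarGL q hq).det : ℝ) = (q : ℝ) * q := by
  rw [Matrix.GeneralLinearGroup.val_det_apply, val_scalarGL, Matrix.det_fin_two_of]
  ring

theorem det_scalarGL_pos (q : ℕ) (hq : q ≠ 0) : 0 < ((scalarGL q hq).det : ℝ) := by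
  rw [det_scalarGL]
  have : (0 : ℝ) < q := by exact_mod_cast Nat.pos_of_ne_zero hq
  positivity

theorem det_alGL_pos (D : ALData N q) (hq : q ≠ 0) : 0 < ((alGL D hq).det : ℝ) := by
  rw [det_alGL]
  exact_mod_cast Nat.pos_of_ne_zero hq

theorem σ_scalarGL (q : ℕ) (hq : q ≠ 0) : UpperHalfPlane.σ (scalarGL q hq) = .refl ℝ ℂ := by
  rw [UpperHalfPlane.σ, if_pos (det_scalarGL_pos q hq)]

theorem σ_alGL (D : ALData N q) (hq : q ≠ 0) : UpperHalfPlane.σ (alGL D hq) = .refl ℝ ℂ := by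
  rw [UpperHalfPlane.σ, if_pos (det_alGL_pos D hq)]

theorem denom_scalarGL (q : ℕ) (hq : q ≠ 0) (τ : ℍ) :
    UpperHalfPlane.denom (scalarGL q hq) τ = q := by
  simp [UpperHalfPlane.denom, val_scalarGL]

theorem scalarGL_smul (q : ℕ) (hq : q ≠ 0) (τ : ℍ) : scalarGL q hq • τ = τ := by
  have hq' : (q : ℂ) ≠ 0 := by exact_mod_cast hq
  apply UpperHalfPlane.ext
  rw [UpperHalfPlane.coe_smul_of_det_pos (det_scalarGL_pos q hq)]
  simp [UpperHalfPlane.num, UpperHalfPlane.denom, val_scalarGL]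
  field_simp

/-- scalar matrices act trivially in weight `2` -/
theorem slash_scalarGL (q : ℕ) (hq : q ≠ 0) (f : ℍ → ℂ) : f ∣[(2 : ℤ)] scalarGL q hq = f := by
  have hq' : (q : ℂ) ≠ 0 := by exact_mod_cast hq
  ext τ
  rw [ModularForm.slash_apply, σ_scalarGL, det_scalarGL, denom_scalarGL, scalarGL_smul]
  simp only [ContinuousAlgEquiv.refl_apply]
  have h1 : |(q : ℝ) * q| = (q : ℝ) * q := abs_of_nonneg (by positivity)
  rw [h1]
  push_cast
  rw [zpow_one, zpow_neg, zpow_ofNat]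
  field_simp


/-! ### Matrix identities -/

@[simp] theorem mapGL_apply' (g : SL(2, ℤ)) (i j : Fin 2) :
    (mapGL ℝ g : GL (Fin 2) ℝ) i j = ((g i j : ℤ) : ℝ) := by
  simp

/-- the representative `r_j = [[x, x j + y], [N, N j + q]] ∈ Γ₀(N)` -/
def rj (D : ALData N q) (j : ℤ) : SL(2, ℤ) :=
  sl2 D.x (D.x * j + D.y) N (N * j + q) (by linear_combination D.h)

theorem rj_mem_Gamma0 (D : ALData N q) (j : ℤ) : rj D j ∈ Gamma0 N := by
  rw [Gamma0_mem]
  simp [rj]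

theorem alGL_mul_heckeMatrix (D : ALData N q) (hq : q ≠ 0) (j : ℕ) :
    alGL D hq * heckeMatrix q j = scalarGL q hq * mapGL ℝ (rj D j) := by
  ext i k
  fin_cases i <;> fin_cases k <;>
    simp [hq, Matrix.mul_apply, Fin.sum_univ_two, rj] <;> ring

/-- `W² = q • γ₀` -/
def gam0 (D : ALData N q) : SL(2, ℤ) :=
  sl2 (q * D.x ^ 2 + N * D.y) (D.x * D.y + D.y) (N * q * (D.x + 1)) (N * D.y + q)
    (by linear_combination ((q : ℤ) * D.x - N * D.y + 1) * D.h)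

theorem gam0_mem_Gamma0 (D : ALData N q) : gam0 D ∈ Gamma0 (N * q) := by
  rw [Gamma0_mem]
  simp only [gam0, sl2_apply_one_zero]
  have : ((N : ℤ) * q * (D.x + 1) : ℤ) = ((N * q : ℕ) : ℤ) * (D.x + 1) := by push_cast; ring
  rw [this, Int.cast_mul, Int.cast_natCast, ZMod.natCast_self, zero_mul]

theorem alGL_mul_alGL (D : ALData N q) (hq : q ≠ 0) :
    alGL D hq * alGL D hq = scalarGL q hq * mapGL ℝ (gam0 D) := by
  ext i k
  fin_cases i <;> fin_cases k <;>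
    simp [Matrix.mul_apply, Fin.sum_univ_two, gam0] <;> ring


/-- the integral Atkin–Lehner matrix -/
def alMatZ (D : ALData N q) : Matrix (Fin 2) (Fin 2) ℤ := !![(q : ℤ) * D.x, D.y; (N : ℤ) * q, q]

theorem det_alMatZ (D : ALData N q) : (alMatZ D).det = q := by
  rw [alMatZ, Matrix.det_fin_two_of]
  linear_combination (q : ℤ) * D.h

/-- `W g W⁻¹` for `g = [[a, b], [N q c', d]]` -/
def conjMat (D : ALData N q) (a b c' d : ℤ) : Matrix (Fin 2) (Fin 2) ℤ :=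
  !![(q : ℤ) * D.x * a + D.y * (N * q * c') - N * q * D.x * b - N * D.y * d,
     -D.x * a * D.y - D.y ^ 2 * N * c' + q * D.x ^ 2 * b + D.x * D.y * d;
     q * (N * a + N * q * c' - N ^ 2 * b - N * d),
     -N * a * D.y - N * q * c' * D.y + N * q * b * D.x + q * d * D.x]

theorem conjMat_mul (D : ALData N q) (a b c' d : ℤ) :
    conjMat D a b c' d * alMatZ D = alMatZ D * !![a, b; (N : ℤ) * q * c', d] := by
  have h := D.h
  ext i k
  fin_cases i <;> fin_cases k <;>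
    simp [conjMat, alMatZ, Matrix.mul_apply, Fin.sum_univ_two]
  · linear_combination ((q : ℤ) * (D.x * a + D.y * N * c')) * h
  · linear_combination ((q : ℤ) * D.x * b + D.y * d) * h
  · linear_combination ((q : ℤ) * (N * a + N * q * c')) * h
  · linear_combination ((q : ℤ) * (N * b + d)) * h

theorem det_conjMat (D : ALData N q) (hq : q ≠ 0) (a b c' d : ℤ)
    (hdet : a * d - b * ((N : ℤ) * q * c') = 1) : (conjMat D a b c' d).det = 1 := by
  have h := congrArg Matrix.det (conjMat_mul D a b c' d)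
  rw [Matrix.det_mul, Matrix.det_mul, det_alMatZ, Matrix.det_fin_two_of, hdet, mul_one] at h
  have hq' : (q : ℤ) ≠ 0 := by exact_mod_cast hq
  exact mul_right_cancel₀ hq' (by rw [h, one_mul])

/-- `W g W⁻¹ ∈ SL(2, ℤ)` for `g ∈ Γ₀(N q)` -/
def conjAL (D : ALData N q) (hq : q ≠ 0) (g : SL(2, ℤ)) (c' : ℤ)
    (hc : g 1 0 = (N : ℤ) * q * c') : SL(2, ℤ) :=
  ⟨conjMat D (g 0 0) (g 0 1) c' (g 1 1), det_conjMat D hq _ _ _ _ (by
    rw [← hc]; exact det_eq' g)⟩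

theorem conjAL_mem_Gamma0 (D : ALData N q) (hq : q ≠ 0) (g : SL(2, ℤ)) (c' : ℤ)
    (hc : g 1 0 = (N : ℤ) * q * c') : conjAL D hq g c' hc ∈ Gamma0 (N * q) := by
  rw [Gamma0_mem]
  have : (conjAL D hq g c' hc) 1 0 =
      ((N * q : ℕ) : ℤ) * (g 0 0 + q * c' - N * g 0 1 - g 1 1) := by
    show (conjMat D (g 0 0) (g 0 1) c' (g 1 1)) 1 0 = _
    simp [conjMat]
    ring
  rw [this, Int.cast_mul, Int.cast_natCast, ZMod.natCast_self, zero_mul]

theorem conjAL_apply (D : ALData N q) (hq : q ≠ 0) (g : SL(2, ℤ)) (c' : ℤ)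
    (hc : g 1 0 = (N : ℤ) * q * c') (i j : Fin 2) :
    (conjAL D hq g c' hc) i j = conjMat D (g 0 0) (g 0 1) c' (g 1 1) i j := rfl

theorem alGL_mul_mapGL (D : ALData N q) (hq : q ≠ 0) (g : SL(2, ℤ)) (c' : ℤ)
    (hc : g 1 0 = (N : ℤ) * q * c') :
    alGL D hq * mapGL ℝ g = mapGL ℝ (conjAL D hq g c' hc) * alGL D hq := by
  have h := congrArg (Matrix.map · (Int.cast : ℤ → ℝ)) (conjMat_mul D (g 0 0) (g 0 1) c' (g 1 1))
  have hg : (!![g 0 0, g 0 1; (N : ℤ) * q * c', g 1 1] : Matrix (Fin 2) (Fin 2) ℤ) = g.1 := by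
    ext i k
    fin_cases i <;> fin_cases k <;> simp [hc]
  rw [hg] at h
  ext i k
  have h' := congrFun (congrFun h i) k
  simp only [Matrix.map_apply, Matrix.mul_apply, Fin.sum_univ_two] at h'
  fin_cases i <;> fin_cases k <;>
    simp [Matrix.mul_apply, Fin.sum_univ_two, conjAL_apply, alMatZ] at h' ⊢ <;>
    linear_combination -h'


/-! ### Slash action statements (weight `2`) -/

theorem exists_eq_mul_of_mem_Gamma0 {M : ℕ} {g : SL(2, ℤ)} (hg : g ∈ Gamma0 M) :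
    ∃ c' : ℤ, g 1 0 = (M : ℤ) * c' := by
  rw [Gamma0_mem, ZMod.intCast_zmod_eq_zero_iff_dvd] at hg
  exact hg

/-- `f ∣ W` is `Γ₀(N q)`-invariant if `f` is. -/
theorem slash_alGL_invariant (D : ALData N q) (hq : q ≠ 0) {f : ℍ → ℂ}
    (hf : ∀ γ ∈ (Gamma0 (N * q) : Subgroup (GL (Fin 2) ℝ)), f ∣[(2 : ℤ)] γ = f)
    (γ : GL (Fin 2) ℝ) (hγ : γ ∈ (Gamma0 (N * q) : Subgroup (GL (Fin 2) ℝ))) :
    (f ∣[(2 : ℤ)] alGL D hq) ∣[(2 : ℤ)] γ = f ∣[(2 : ℤ)] alGL D hq := by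
  obtain ⟨g, hg, rfl⟩ := hγ
  obtain ⟨c', hc'⟩ := exists_eq_mul_of_mem_Gamma0 hg
  have hc : g 1 0 = (N : ℤ) * q * c' := by rw [hc']; push_cast; ring
  rw [← SlashAction.slash_mul, alGL_mul_mapGL D hq g c' hc, SlashAction.slash_mul,
    hf _ (Subgroup.mem_map_of_mem (mapGL ℝ) (conjAL_mem_Gamma0 D hq g c' hc))]

/-- `W` is an involution in weight `2` on `Γ₀(N q)`-invariant functions. -/
theorem slash_alGL_alGL (D : ALData N q) (hq : q ≠ 0) {f : ℍ → ℂ}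
    (hf : ∀ γ ∈ (Gamma0 (N * q) : Subgroup (GL (Fin 2) ℝ)), f ∣[(2 : ℤ)] γ = f) :
    (f ∣[(2 : ℤ)] alGL D hq) ∣[(2 : ℤ)] alGL D hq = f := by
  rw [← SlashAction.slash_mul, alGL_mul_alGL, SlashAction.slash_mul, slash_scalarGL,
    hf _ (Subgroup.mem_map_of_mem (mapGL ℝ) (gam0_mem_Gamma0 D))]

theorem slash_alGL_heckeMatrix (D : ALData N q) (hq : q ≠ 0) (f : ℍ → ℂ) (j : ℕ) :
    (f ∣[(2 : ℤ)] alGL D hq) ∣[(2 : ℤ)] heckeMatrix q j =
      f ∣[(2 : ℤ)] (mapGL ℝ (rj D j) : GL (Fin 2) ℝ) := by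
  rw [← SlashAction.slash_mul, alGL_mul_heckeMatrix, SlashAction.slash_mul, slash_scalarGL]

/-- `U_q (f ∣ W) = ∑_j f ∣ r_j` -/
theorem heckeU_slash_alGL (D : ALData N q) (hq : q ≠ 0) (f : ℍ → ℂ) :
    heckeU 2 q (f ∣[(2 : ℤ)] alGL D hq) =
      ∑ j ∈ Finset.range q, f ∣[(2 : ℤ)] (mapGL ℝ (rj D j) : GL (Fin 2) ℝ) := by
  rw [heckeU_def]
  exact Finset.sum_congr rfl fun j _ => slash_alGL_heckeMatrix D hq f j

/-- the trace `Γ₀(N q) → Γ₀(N)` in Atkin–Lehner form: `f + U_q (f ∣ W)` -/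
def traceFun (D : ALData N q) (hq : q ≠ 0) (f : ℍ → ℂ) : ℍ → ℂ :=
  f + heckeU 2 q (f ∣[(2 : ℤ)] alGL D hq)

theorem traceFun_eq_sum (D : ALData N q) (hq : q ≠ 0) (f : ℍ → ℂ) :
    traceFun D hq f =
      f + ∑ j ∈ Finset.range q, f ∣[(2 : ℤ)] (mapGL ℝ (rj D j) : GL (Fin 2) ℝ) := by
  rw [traceFun, heckeU_slash_alGL]

/-- **`q`-new implies `U_q² = 1`**: if both traces of `f` vanish then `U_q (U_q f) = f`. -/
theorem heckeU_heckeU_eq_self_of_traceFun_eq_zero (D : ALData N q) (hq : q ≠ 0) {f : ℍ → ℂ}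
    (hf : ∀ γ ∈ (Gamma0 (N * q) : Subgroup (GL (Fin 2) ℝ)), f ∣[(2 : ℤ)] γ = f)
    (h1 : traceFun D hq f = 0) (h2 : traceFun D hq (f ∣[(2 : ℤ)] alGL D hq) = 0) :
    heckeU 2 q (heckeU 2 q f) = f := by
  rw [traceFun, slash_alGL_alGL D hq hf] at h2
  rw [traceFun] at h1
  have e2 : heckeU 2 q f = -(f ∣[(2 : ℤ)] alGL D hq) := by
    rw [eq_neg_iff_add_eq_zero, add_comm]; exact h2
  have e1 : heckeU 2 q (f ∣[(2 : ℤ)] alGL D hq) = -f := by
    rw [eq_neg_iff_add_eq_zero, add_comm]; exact h1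
  rw [e2, heckeU_neg, e1, neg_neg]

end

end Fermat.Agent.S41.H72
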