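import Mathlib
import Fermat.Agent.S41.H72_AtkinLehner

set_option autoImplicit false

/-!
# S41 / (g) : coset representatives of `Γ₀(N q)` in `Γ₀(N)` and the trace

For `q` prime not dividing `N`, the matrices `1` and `r_j` (`j < q`) of `H72_AtkinLehner` represent
the cosets `Γ₀(N q) \ Γ₀(N)`; hence Mathlib's `CuspForm.trace` from level `N q` to level `N` is
`f + U_q (f ∣ W)`.
-/

namespace Fermat.Agent.S41.H72

open Matrix.SpecialLinearGroup UpperHalfPlane CongruenceSubgroup ModularForm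
open scoped MatrixGroups ModularForm

noncomputable section

variable {N q : ℕ}

theorem mem_Gamma0_iff_dvd {M : ℕ} {g : SL(2, ℤ)} : g ∈ Gamma0 M ↔ (M : ℤ) ∣ g 1 0 := by
  rw [Gamma0_mem, ZMod.intCast_zmod_eq_zero_iff_dvd]

theorem rj_mul_apply_one_zero (D : ALData N q) (j : ℤ) (h : SL(2, ℤ)) :
    (rj D j * h) 1 0 = (N : ℤ) * h 0 0 + ((N : ℤ) * j + q) * h 1 0 := by
  rw [Matrix.SpecialLinearGroup.coe_mul, Matrix.mul_apply, Fin.sum_univ_two]
  rfl

/-- **Completeness**: every element of `Γ₀(N)` lies in `Γ₀(N q)` or in some `r_j⁻¹ Γ₀(N q)`. -/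
theorem mem_or_exists_rj_mul_mem (D : ALData N q) (hq : q.Prime) (hqN : ¬ q ∣ N)
    {h : SL(2, ℤ)} (hh : h ∈ Gamma0 N) :
    h ∈ Gamma0 (N * q) ∨ ∃ j : ℕ, j < q ∧ rj D j * h ∈ Gamma0 (N * q) := by
  have : Fact q.Prime := ⟨hq⟩
  obtain ⟨c', hc'⟩ := mem_Gamma0_iff_dvd.mp hh
  by_cases hqc : (q : ℤ) ∣ c'
  · left
    obtain ⟨c'', rfl⟩ := hqc
    rw [mem_Gamma0_iff_dvd, hc']
    exact ⟨c'', by push_cast; ring⟩
  · right
    have hN0 : ((N : ℕ) : ZMod q) ≠ 0 := by
      rwa [Ne, ZMod.natCast_eq_zero_iff]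
    have hc0 : ((c' : ℤ) : ZMod q) ≠ 0 := by
      rwa [Ne, ZMod.intCast_zmod_eq_zero_iff_dvd]
    set t : ZMod q := -((h 0 0 : ℤ) : ZMod q) * (((N : ℕ) : ZMod q) * ((c' : ℤ) : ZMod q))⁻¹ with ht
    refine ⟨t.val, ZMod.val_lt t, ?_⟩
    rw [mem_Gamma0_iff_dvd, rj_mul_apply_one_zero, hc']
    have hdiv : (q : ℤ) ∣ h 0 0 + ((N : ℤ) * (t.val : ℤ) + q) * c' := by
      rw [← ZMod.intCast_zmod_eq_zero_iff_dvd]
      push_cast
      rw [ZMod.natCast_zmod_val, ZMod.natCast_self, add_zero, ht]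
      field_simp
      ring
    obtain ⟨e, he⟩ := hdiv
    refine ⟨e, ?_⟩
    push_cast
    linear_combination (N : ℤ) * he

theorem rj_notMem_Gamma0 (D : ALData N q) (hq : q.Prime) (hN : N ≠ 0) (j : ℤ) :
    rj D j ∉ Gamma0 (N * q) := by
  rw [mem_Gamma0_iff_dvd]
  simp only [rj, sl2_apply_one_zero]
  intro h
  have h' : N * q ∣ N := by exact_mod_cast h
  have := Nat.le_of_dvd (Nat.pos_of_ne_zero hN) h'
  have hq2 := hq.two_le
  nlinarith [Nat.pos_of_ne_zero hN]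

theorem rj_mul_inv_apply_one_zero (D : ALData N q) (j j' : ℤ) :
    (rj D j * (rj D j')⁻¹) 1 0 = (N : ℤ) ^ 2 * (j' - j) := by
  rw [Matrix.SpecialLinearGroup.coe_mul, Matrix.SpecialLinearGroup.coe_inv,
    Matrix.adjugate_fin_two]
  simp [rj, sl2, Matrix.mul_apply, Fin.sum_univ_two]
  ring

/-- **Irredundancy** -/
theorem eq_of_rj_mul_inv_mem (D : ALData N q) (hq : q.Prime) (hqN : ¬ q ∣ N) {j j' : ℕ}
    (hj : j < q) (hj' : j' < q) (h : rj D j * (rj D j')⁻¹ ∈ Gamma0 (N * q)) : j = j' := by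
  rw [mem_Gamma0_iff_dvd, rj_mul_inv_apply_one_zero] at h
  have hqd : (q : ℤ) ∣ (N : ℤ) ^ 2 * (j' - j) := by
    refine dvd_trans ⟨N, by push_cast; ring⟩ h
  have hq' : Prime (q : ℤ) := Nat.prime_iff_prime_int.mp hq
  rcases hq'.dvd_or_dvd hqd with h1 | h1
  · exfalso
    have := hq'.dvd_of_dvd_pow h1
    exact hqN (by exact_mod_cast this)
  · have h2 : (j : ℤ) ≡ j' [ZMOD q] := (Int.modEq_of_dvd h1)
    have h3 : (j : ℤ) % q = j' % q := h2
    rw [Int.emod_eq_of_lt (by positivity) (by exact_mod_cast hj),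
      Int.emod_eq_of_lt (by positivity) (by exact_mod_cast hj')] at h3
    exact_mod_cast h3


/-! ### The trace from level `N q` to level `N` -/

/-- `Γ₀(M)` inside `GL(2, ℝ)` -/
abbrev G0 (M : ℕ) : Subgroup (GL (Fin 2) ℝ) := (Gamma0 M : Subgroup (GL (Fin 2) ℝ))

theorem mem_G0_iff {M : ℕ} {g : SL(2, ℤ)} : (mapGL ℝ g : GL (Fin 2) ℝ) ∈ G0 M ↔ g ∈ Gamma0 M :=
  Subgroup.mem_map_iff_mem mapGL_injective

instance isFiniteRelIndex_G0 (N q : ℕ) [NeZero (N * q)] : (G0 (N * q)).IsFiniteRelIndex (G0 N) :=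
  Subgroup.isFiniteRelIndex_of_le_right (G0 (N * q)) (L := 𝒮ℒ) (by
    rintro _ ⟨g, -, rfl⟩
    exact ⟨g, rfl⟩)

/-- the coset representatives `1, r_j⁻¹` of `Γ₀(N) / Γ₀(N q)` -/
def cosetRep (D : ALData N q) : Option (Fin q) → G0 N
  | none => 1
  | some j => ⟨(mapGL ℝ (rj D (j : ℕ)))⁻¹,
      inv_mem (Subgroup.mem_map_of_mem (mapGL ℝ) (rj_mem_Gamma0 D _))⟩

theorem cosetRep_bijective (D : ALData N q) (hq : q.Prime) (hqN : ¬ q ∣ N) (hN : N ≠ 0) :
    Function.Bijective (fun i : Option (Fin q) =>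
      (QuotientGroup.mk (cosetRep D i) : G0 N ⧸ (G0 (N * q)).subgroupOf (G0 N))) := by
  constructor
  · intro i i' h
    simp only at h
    rw [QuotientGroup.eq, Subgroup.mem_subgroupOf] at h
    rcases i with _ | j <;> rcases i' with _ | j'
    · rfl
    · exfalso
      simp only [cosetRep, inv_one, one_mul] at h
      have h2 := inv_mem h
      rw [inv_inv, mem_G0_iff] at h2
      exact rj_notMem_Gamma0 D hq hN _ h2
    · exfalso
      simp only [cosetRep, mul_one, Subgroup.coe_inv, inv_inv] at h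
      rw [mem_G0_iff] at h
      exact rj_notMem_Gamma0 D hq hN _ h
    · simp only [cosetRep, Subgroup.coe_mul, Subgroup.coe_inv, inv_inv] at h
      rw [← map_inv, ← map_mul, mem_G0_iff] at h
      have := eq_of_rj_mul_inv_mem D hq hqN j.2 j'.2 h
      exact congrArg some (Fin.ext this)
  · intro x
    induction x using QuotientGroup.induction_on with
    | H z =>
      obtain ⟨γ, hγ⟩ := z
      obtain ⟨h, hh, rfl⟩ := hγ
      rcases mem_or_exists_rj_mul_mem D hq hqN hh with h1 | ⟨j, hj, h1⟩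
      · refine ⟨none, ?_⟩
        simp only
        rw [QuotientGroup.eq, Subgroup.mem_subgroupOf]
        simp only [cosetRep, inv_one, one_mul]
        exact mem_G0_iff.mpr h1
      · refine ⟨some ⟨j, hj⟩, ?_⟩
        simp only
        rw [QuotientGroup.eq, Subgroup.mem_subgroupOf]
        simp only [cosetRep, Subgroup.coe_mul, Subgroup.coe_inv, inv_inv]
        rw [← map_mul, mem_G0_iff]
        exact h1


/-- **Trace formula**: Mathlib's trace from `Γ₀(N q)` to `Γ₀(N)` is `f + U_q (f ∣ W)`. -/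
theorem sum_quotientFunc_eq_traceFun (D : ALData N q) (hq : q.Prime) (hqN : ¬ q ∣ N) (hN : N ≠ 0)
    [Fintype (G0 N ⧸ (G0 (N * q)).subgroupOf (G0 N))]
    {F : Type*} [FunLike F ℍ ℂ] [SlashInvariantFormClass F (G0 (N * q)) 2]
    (g : F) :
    (∑ x : G0 N ⧸ (G0 (N * q)).subgroupOf (G0 N), SlashInvariantForm.quotientFunc g x) =
      traceFun D hq.ne_zero ⇑g := by
  classical
  rw [traceFun_eq_sum]
  have hb := cosetRep_bijective D hq hqN hN
  rw [← Fintype.sum_bijective _ hb (fun i => SlashInvariantForm.quotientFunc g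
    (QuotientGroup.mk (cosetRep D i) : G0 N ⧸ (G0 (N * q)).subgroupOf (G0 N))) _ (fun _ => rfl)]
  rw [Fintype.sum_option]
  congr 1
  · show SlashInvariantForm.quotientFunc g ⟦cosetRep D none⟧ = _
    rw [SlashInvariantForm.quotientFunc_mk]
    simp [cosetRep]
  · rw [← Fin.sum_univ_eq_sum_range]
    refine Finset.sum_congr rfl fun j _ => ?_
    show SlashInvariantForm.quotientFunc g ⟦cosetRep D (some j)⟧ = _
    rw [SlashInvariantForm.quotientFunc_mk]
    simp [cosetRep]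


theorem coe_trace_eq_traceFun (D : ALData N q) (hq : q.Prime) (hqN : ¬ q ∣ N) (hN : N ≠ 0)
    [NeZero (N * q)] (g : CuspForm (Gamma0 (N * q)) 2) :
    ⇑(CuspForm.trace (G0 N) g) = traceFun D hq.ne_zero ⇑g := by
  rw [CuspForm.coe_trace]
  exact @sum_quotientFunc_eq_traceFun N q D hq hqN hN (Fintype.ofFinite _) _ _ _ g

end

end Fermat.Agent.S41.H72
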