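import Mathlib
import Fermat.Prelude.Def_FreyPackage_LevelRaising
import Fermat.Prelude.Def_ModularForm_HeckeOperatorForms
import Fermat.Prelude.Thm_ModularFormClass_qCoeff_heckeU
import Fermat.Prelude.Thm_CongruenceSubgroup_one_mem_strictPeriods_Gamma0
import Fermat.Agent.S41.H72_AtkinLehnerCosets

set_option autoImplicit false

/-!
# S41 / (g) : Atkin–Lehner operator and trace on cusp forms; `q`-new ⇒ `a_q² = 1`

* `alOp D hq : CuspForm Γ₀(N q) 2 →ₗ[ℂ] CuspForm Γ₀(N q) 2`, `g ↦ g ∣ W`.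
* `traceDown D hq … : CuspForm Γ₀(N q) 2 →ₗ[ℂ] CuspForm Γ₀(N) 2`, Mathlib's trace, equal to
  `g + U_q (g ∣ W)`.
* `isNewAt_of_traceDown_eq_zero` : a normalised eigenform of level `N q` killed by `traceDown` and
  `traceDown ∘ alOp` satisfies `a_q ^ 2 = 1`, i.e. `g.IsNewAt q`.
-/

namespace Fermat.Agent.S41.H72

open Matrix.SpecialLinearGroup UpperHalfPlane CongruenceSubgroup ModularForm ConjAct
open scoped MatrixGroups ModularForm Pointwise

noncomputable section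

variable {N q : ℕ}

/-- conjugation by `W` maps `Γ₀(N q)` into itself -/
theorem alGL_conj_mem (D : ALData N q) (hq : q ≠ 0) {x : GL (Fin 2) ℝ} (hx : x ∈ G0 (N * q)) :
    alGL D hq * x * (alGL D hq)⁻¹ ∈ G0 (N * q) := by
  obtain ⟨g, hg, rfl⟩ := hx
  obtain ⟨c', hc'⟩ := exists_eq_mul_of_mem_Gamma0 hg
  have hc : g 1 0 = (N : ℤ) * q * c' := by rw [hc']; push_cast; ring
  rw [alGL_mul_mapGL D hq g c' hc, mul_inv_cancel_right]
  exact Subgroup.mem_map_of_mem (mapGL ℝ) (conjAL_mem_Gamma0 D hq g c' hc)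

theorem scalarGL_comm (hq : q ≠ 0) (x : GL (Fin 2) ℝ) : scalarGL q hq * x = x * scalarGL q hq := by
  ext i k
  fin_cases i <;> fin_cases k <;> simp [Matrix.mul_apply, Fin.sum_univ_two] <;> ring

/-- conjugation by `W⁻¹` maps `Γ₀(N q)` into itself -/
theorem alGL_inv_conj_mem (D : ALData N q) (hq : q ≠ 0) {x : GL (Fin 2) ℝ}
    (hx : x ∈ G0 (N * q)) : (alGL D hq)⁻¹ * x * alGL D hq ∈ G0 (N * q) := by
  set W := alGL D hq with hW
  set s := scalarGL q hq with hs
  set γ : GL (Fin 2) ℝ := mapGL ℝ (gam0 D) with hγ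
  have hγmem : γ ∈ G0 (N * q) := Subgroup.mem_map_of_mem (mapGL ℝ) (gam0_mem_Gamma0 D)
  have hWW : W * W = s * γ := alGL_mul_alGL D hq
  have h1 : W⁻¹ = γ⁻¹ * s⁻¹ * W := by
    rw [eq_comm, ← mul_inv_rev, ← hWW, mul_inv_rev, mul_assoc, inv_mul_cancel, mul_one]
  have h2 : W = W⁻¹ * (s * γ) := by rw [← hWW, inv_mul_cancel_left]
  have hs_comm : ∀ y : GL (Fin 2) ℝ, s⁻¹ * y * s = y := fun y => by
    rw [mul_assoc, ← scalarGL_comm hq y, ← mul_assoc, inv_mul_cancel, one_mul]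
  have key : W⁻¹ * x * W = γ⁻¹ * (W * x * W⁻¹) * γ := by
    calc W⁻¹ * x * W = (γ⁻¹ * s⁻¹ * W) * x * (W⁻¹ * (s * γ)) := by rw [← h1, ← h2]
      _ = γ⁻¹ * (s⁻¹ * (W * x * W⁻¹) * s) * γ := by group
      _ = γ⁻¹ * (W * x * W⁻¹) * γ := by rw [hs_comm]
  rw [key]
  exact mul_mem (mul_mem (inv_mem hγmem) (alGL_conj_mem D hq hx)) hγmem

theorem conj_G0_eq (D : ALData N q) (hq : q ≠ 0) :
    toConjAct (alGL D hq)⁻¹ • G0 (N * q) = G0 (N * q) := by
  ext x
  rw [Subgroup.mem_pointwise_smul_iff_inv_smul_mem, ← toConjAct_inv, inv_inv, ConjAct.smul_def,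
    ofConjAct_toConjAct]
  constructor
  · intro h
    have := alGL_inv_conj_mem D hq h
    simpa [mul_assoc] using this
  · intro h
    exact alGL_conj_mem D hq h


/-- **The Atkin–Lehner operator** `g ↦ g ∣ W` on cusp forms of level `N q`, weight `2`. -/
def alOp (D : ALData N q) (hq : q ≠ 0) :
    CuspForm (Gamma0 (N * q)) 2 →ₗ[ℂ] CuspForm (Gamma0 (N * q)) 2 where
  toFun g :=
    { toFun := ⇑g ∣[(2 : ℤ)] alGL D hq
      slash_action_eq' := slash_alGL_invariant D hq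
        (fun γ hγ => SlashInvariantFormClass.slash_action_eq g γ hγ)
      holo' := (CuspFormClass.holo g).slash 2 (alGL D hq)
      zero_at_cusps' := fun {c} hc =>
        (CuspForm.translate g (alGL D hq)).zero_at_cusps' (by rw [conj_G0_eq D hq]; exact hc) }
  map_add' f g := DFunLike.coe_injective <| by
    show (⇑(f + g)) ∣[(2 : ℤ)] alGL D hq = ⇑f ∣[(2 : ℤ)] alGL D hq + ⇑g ∣[(2 : ℤ)] alGL D hq
    rw [FunLike.coe_add, SlashAction.add_slash]
  map_smul' c f := DFunLike.coe_injective <| by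
    show (⇑(c • f)) ∣[(2 : ℤ)] alGL D hq = c • (⇑f ∣[(2 : ℤ)] alGL D hq)
    rw [FunLike.coe_smul, ModularForm.smul_slash, σ_alGL, ContinuousAlgEquiv.refl_apply]

@[simp] theorem coe_alOp (D : ALData N q) (hq : q ≠ 0) (g : CuspForm (Gamma0 (N * q)) 2) :
    ⇑(alOp D hq g) = ⇑g ∣[(2 : ℤ)] alGL D hq := rfl

theorem alOp_alOp (D : ALData N q) (hq : q ≠ 0) (g : CuspForm (Gamma0 (N * q)) 2) :
    alOp D hq (alOp D hq g) = g :=
  DFunLike.coe_injective <| by
    rw [coe_alOp, coe_alOp]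
    exact slash_alGL_alGL D hq (fun γ hγ => SlashInvariantFormClass.slash_action_eq g γ hγ)

theorem traceFun_add (D : ALData N q) (hq : q ≠ 0) (f g : ℍ → ℂ) :
    traceFun D hq (f + g) = traceFun D hq f + traceFun D hq g := by
  simp only [traceFun, SlashAction.add_slash, heckeU_add]
  abel

theorem traceFun_smul (D : ALData N q) (hq : q ≠ 0) (c : ℂ) (f : ℍ → ℂ) :
    traceFun D hq (c • f) = c • traceFun D hq f := by
  simp only [traceFun, ModularForm.smul_slash, σ_alGL, ContinuousAlgEquiv.refl_apply, heckeU_smul,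
    smul_add]

/-- **The trace** from level `N q` to level `N` (Mathlib's `CuspForm.trace`), as a linear map;
as a function it is `g + U_q (g ∣ W)`. -/
def traceDown (D : ALData N q) (hq : q.Prime) (hqN : ¬ q ∣ N) (hN : N ≠ 0) :
    CuspForm (Gamma0 (N * q)) 2 →ₗ[ℂ] CuspForm (Gamma0 N) 2 :=
  have : NeZero (N * q) := ⟨Nat.mul_ne_zero hN hq.ne_zero⟩
  { toFun := fun g => CuspForm.trace (G0 N) g
    map_add' := fun f g => DFunLike.coe_injective <| by
      rw [FunLike.coe_add, coe_trace_eq_traceFun D hq hqN hN, coe_trace_eq_traceFun D hq hqN hN,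
        coe_trace_eq_traceFun D hq hqN hN, FunLike.coe_add, traceFun_add]
    map_smul' := fun c f => DFunLike.coe_injective <| by
      rw [RingHom.id_apply, FunLike.coe_smul, coe_trace_eq_traceFun D hq hqN hN,
        coe_trace_eq_traceFun D hq hqN hN, FunLike.coe_smul, traceFun_smul] }

theorem coe_traceDown (D : ALData N q) (hq : q.Prime) (hqN : ¬ q ∣ N) (hN : N ≠ 0)
    (g : CuspForm (Gamma0 (N * q)) 2) :
    ⇑(traceDown D hq hqN hN g) = traceFun D hq.ne_zero ⇑g := by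
  have : NeZero (N * q) := ⟨Nat.mul_ne_zero hN hq.ne_zero⟩
  exact coe_trace_eq_traceFun D hq hqN hN g

theorem coe_traceDown' (D : ALData N q) (hq : q.Prime) (hqN : ¬ q ∣ N) (hN : N ≠ 0)
    (g : CuspForm (Gamma0 (N * q)) 2) :
    ⇑(traceDown D hq hqN hN g) = ⇑g + heckeU 2 q (⇑g ∣[(2 : ℤ)] alGL D hq.ne_zero) :=
  coe_traceDown D hq hqN hN g

/-- **`q`-new ⇒ `U_q² = 1`.** -/
theorem heckeU_heckeU_of_traceDown_eq_zero (D : ALData N q) (hq : q.Prime) (hqN : ¬ q ∣ N)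
    (hN : N ≠ 0) (g : CuspForm (Gamma0 (N * q)) 2)
    (h1 : traceDown D hq hqN hN g = 0)
    (h2 : traceDown D hq hqN hN (alOp D hq.ne_zero g) = 0) :
    heckeU 2 q (heckeU 2 q ⇑g) = ⇑g := by
  refine heckeU_heckeU_eq_self_of_traceFun_eq_zero D hq.ne_zero
    (fun γ hγ => SlashInvariantFormClass.slash_action_eq g γ hγ) ?_ ?_
  · rw [← coe_traceDown D hq hqN hN, h1]; rfl
  · rw [← coe_alOp, ← coe_traceDown D hq hqN hN, h2]; rfl

/-- **`q`-new normalised eigenforms have `a_q² = 1`** (the frozen `IsNewAt`). -/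
theorem isNewAt_of_traceDown_eq_zero (D : ALData N q) (hq : q.Prime) (hqN : ¬ q ∣ N)
    (hN : N ≠ 0) (g : CuspForm (Gamma0 (N * q)) 2) (hg : g.IsNormalizedEigenform)
    (h1 : traceDown D hq hqN hN g = 0)
    (h2 : traceDown D hq hqN hN (alOp D hq.ne_zero g) = 0) :
    g.IsNewAt q := by
  have : NeZero (N * q) := ⟨Nat.mul_ne_zero hN hq.ne_zero⟩
  have hqM : q ∣ N * q := dvd_mul_left q N
  have hU := heckeU_heckeU_of_traceDown_eq_zero D hq hqN hN g h1 h2
  have hper := CongruenceSubgroup.one_mem_strictPeriods_Gamma0 (N * q)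
  have e1 := ModularFormClass.qCoeff_heckeU (CuspForm.heckeULin 2 hqM g) hper hq.ne_zero 1
  have e2 := ModularFormClass.qCoeff_heckeU g hper hq.ne_zero (1 * q)
  rw [CuspForm.coe_heckeULin_apply] at e1
  rw [coeffHeckeU_apply, e2, coeffHeckeU_apply, hU, hg.qCoeff_one] at e1
  have e3 := hg.qCoeff_prime_pow_of_dvd q 0 hq hqM
  rw [zero_add, zero_add, pow_one] at e3
  unfold CuspForm.IsNewAt
  rw [pow_two, ← e3, pow_two, e1]
  ring_nf

end

end Fermat.Agent.S41.H72
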