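import Mathlib
import Fermat.Prelude.Def_ModularForm_HeckeOperatorForms
import Fermat.Prelude.Thm_ModularFormClass_heckeT_heckeU_comm
import Fermat.Prelude.Thm_ModularFormClass_heckeU_heckeU_comm
import Fermat.Agent.S41.H72_AtkinLehnerForms

set_option autoImplicit false

/-!
# S41 / (g) : Hecke operators commute with the Atkin–Lehner involution and the trace

* `toGL` : integer `2 × 2` matrices of nonzero determinant inside `GL(2, ℝ)`; identities between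
  such matrices are checked over `ℤ`.
* `exists_eq_mul_hrepZ` : every integer matrix of determinant `ℓ` (prime, `ℓ ∤ M`) with lower left
  entry divisible by `M` is `γ * β_i` with `γ ∈ Γ₀(M)`, `β_i` one of the `ℓ + 1` Hecke
  representatives.
* `heckeT_slash_alGL`, `heckeU_slash_alGL'` : `T_ℓ (f ∣ W) = (T_ℓ f) ∣ W` (`ℓ ∤ N q`) and
  `U_ℓ (f ∣ W) = (U_ℓ f) ∣ W` (`ℓ ∣ N`) for `Γ₀(N q)`-invariant `f`.
-/

namespace Fermat.Agent.S41.H72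

open Matrix.SpecialLinearGroup UpperHalfPlane CongruenceSubgroup ModularForm
open scoped MatrixGroups ModularForm

noncomputable section

/-! ### Integer matrices in `GL(2, ℝ)` -/

/-- an integer matrix of nonzero determinant as an element of `GL(2, ℝ)` -/
def toGL (X : Matrix (Fin 2) (Fin 2) ℤ) (hX : X.det ≠ 0) : GL (Fin 2) ℝ :=
  Matrix.GeneralLinearGroup.mkOfDetNeZero (X.map (Int.cast : ℤ → ℝ)) (by
    have : (X.map (Int.cast : ℤ → ℝ)).det = ((X.det : ℤ) : ℝ) := by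
      have := (RingHom.map_det (Int.castRingHom ℝ) X).symm
      simpa using this
    rw [this]
    exact_mod_cast hX)

@[simp] theorem val_toGL (X : Matrix (Fin 2) (Fin 2) ℤ) (hX : X.det ≠ 0) :
    ((toGL X hX : GL (Fin 2) ℝ) : Matrix (Fin 2) (Fin 2) ℝ) = X.map (Int.cast : ℤ → ℝ) := rfl

theorem toGL_mul (X Y : Matrix (Fin 2) (Fin 2) ℤ) (hX : X.det ≠ 0) (hY : Y.det ≠ 0)
    (hXY : (X * Y).det ≠ 0) : toGL (X * Y) hXY = toGL X hX * toGL Y hY := by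
  apply Matrix.GeneralLinearGroup.ext
  intro i j
  simp only [val_toGL, Matrix.GeneralLinearGroup.coe_mul]
  have := Matrix.map_mul (L := X) (M := Y) (f := Int.castRingHom ℝ)
  exact congrFun (congrFun this i) j

theorem toGL_congr {X Y : Matrix (Fin 2) (Fin 2) ℤ} (h : X = Y) (hX : X.det ≠ 0) (hY : Y.det ≠ 0) :
    toGL X hX = toGL Y hY := by
  subst h; rfl

/-- **transfer principle**: an identity `A * B = C * E` of integer matrices gives the identity in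
`GL(2, ℝ)`. -/
theorem toGL_mul_eq {A B C E : Matrix (Fin 2) (Fin 2) ℤ} (h : A * B = C * E)
    (hA : A.det ≠ 0) (hB : B.det ≠ 0) (hC : C.det ≠ 0) (hE : E.det ≠ 0) :
    toGL A hA * toGL B hB = toGL C hC * toGL E hE := by
  have hAB : (A * B).det ≠ 0 := by rw [Matrix.det_mul]; exact mul_ne_zero hA hB
  have hCE : (C * E).det ≠ 0 := by rw [Matrix.det_mul]; exact mul_ne_zero hC hE
  rw [← toGL_mul A B hA hB hAB, ← toGL_mul C E hC hE hCE]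
  exact toGL_congr h _ _

theorem det_ne_zero_of_SL (g : SL(2, ℤ)) : (g.1 : Matrix (Fin 2) (Fin 2) ℤ).det ≠ 0 := by
  rw [g.2]; exact one_ne_zero

theorem mapGL_eq_toGL (g : SL(2, ℤ)) : (mapGL ℝ g : GL (Fin 2) ℝ) = toGL g.1 (det_ne_zero_of_SL g) := by
  apply Matrix.GeneralLinearGroup.ext
  intro i j
  simp


/-! ### Hecke representatives -/

/-- the `ℓ + 1` Hecke representatives as integer matrices: `none ↦ [[ℓ,0],[0,1]]`,
`some j ↦ [[1,j],[0,ℓ]]` -/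
def hrepZ (ℓ : ℕ) : Option (Fin ℓ) → Matrix (Fin 2) (Fin 2) ℤ
  | none => !![(ℓ : ℤ), 0; 0, 1]
  | some j => !![1, ((j : ℕ) : ℤ); 0, (ℓ : ℤ)]

theorem det_hrepZ (ℓ : ℕ) (i : Option (Fin ℓ)) : (hrepZ ℓ i).det = ℓ := by
  rcases i with _ | j <;> simp [hrepZ, Matrix.det_fin_two_of]

theorem det_hrepZ_ne_zero {ℓ : ℕ} (hℓ : ℓ ≠ 0) (i : Option (Fin ℓ)) : (hrepZ ℓ i).det ≠ 0 := by
  rw [det_hrepZ]; exact_mod_cast hℓ

/-- the Hecke representatives in `GL(2, ℝ)` -/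
def hrep (ℓ : ℕ) (hℓ : ℓ ≠ 0) (i : Option (Fin ℓ)) : GL (Fin 2) ℝ :=
  toGL (hrepZ ℓ i) (det_hrepZ_ne_zero hℓ i)

theorem hrep_none (ℓ : ℕ) (hℓ : ℓ ≠ 0) : hrep ℓ hℓ none = heckeDiagMatrix ℓ := by
  apply Matrix.GeneralLinearGroup.ext
  intro i j
  fin_cases i <;> fin_cases j <;> simp [hrep, hrepZ, hℓ]

theorem hrep_some (ℓ : ℕ) (hℓ : ℓ ≠ 0) (j : Fin ℓ) : hrep ℓ hℓ (some j) = heckeMatrix ℓ j := by
  apply Matrix.GeneralLinearGroup.ext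
  intro i k
  fin_cases i <;> fin_cases k <;> simp [hrep, hrepZ, hℓ]

theorem heckeT_eq_sum_hrep (k : ℤ) (ℓ : ℕ) (hℓ : ℓ ≠ 0) (f : ℍ → ℂ) :
    heckeT k ℓ f = ∑ i : Option (Fin ℓ), f ∣[k] hrep ℓ hℓ i := by
  rw [heckeT_def, Fintype.sum_option, hrep_none, add_comm,
    ← Fin.sum_univ_eq_sum_range (fun j => f ∣[k] heckeMatrix ℓ j)]
  congr 1
  exact Finset.sum_congr rfl fun j _ => by rw [hrep_some]

theorem heckeU_eq_sum_hrep (k : ℤ) (ℓ : ℕ) (hℓ : ℓ ≠ 0) (f : ℍ → ℂ) :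
    heckeU k ℓ f = ∑ j : Fin ℓ, f ∣[k] hrep ℓ hℓ (some j) := by
  rw [heckeU_def, ← Fin.sum_univ_eq_sum_range (fun j => f ∣[k] heckeMatrix ℓ j)]
  exact Finset.sum_congr rfl fun j _ => by rw [hrep_some]

/-! ### Decomposition of integer matrices of determinant `ℓ` -/

theorem det_core {a b c d j e₁ e₂ ℓ : ℤ} (hℓ0 : ℓ ≠ 0) (hdet : a * d - b * c = ℓ)
    (h1 : b - a * j = ℓ * e₁) (h2 : d - c * j = ℓ * e₂) : a * e₂ - e₁ * c = 1 := by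
  have : ℓ * (a * e₂ - e₁ * c) = ℓ * 1 := by
    linear_combination (-a) * h2 + c * h1 + hdet
  exact mul_left_cancel₀ hℓ0 this

/-- finite part: `δ = γ * [[1,j],[0,ℓ]]` as soon as `ℓ ∣ b - a j` and `ℓ ∣ d - c j`. -/
theorem eq_mul_hrepZ_some {ℓ M : ℕ} (hℓ : ℓ ≠ 0) (δ : Matrix (Fin 2) (Fin 2) ℤ)
    (hdet : δ.det = ℓ) (hc : (M : ℤ) ∣ δ 1 0) (j : Fin ℓ) {e₁ e₂ : ℤ}
    (h1 : δ 0 1 - δ 0 0 * ((j : ℕ) : ℤ) = ℓ * e₁) (h2 : δ 1 1 - δ 1 0 * ((j : ℕ) : ℤ) = ℓ * e₂) :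
    ∃ γ : SL(2, ℤ), γ ∈ Gamma0 M ∧ δ = γ.1 * hrepZ ℓ (some j) := by
  have hℓ' : (ℓ : ℤ) ≠ 0 := by exact_mod_cast hℓ
  rw [Matrix.det_fin_two] at hdet
  refine ⟨sl2 (δ 0 0) e₁ (δ 1 0) e₂ (det_core hℓ' hdet h1 h2), ?_, ?_⟩
  · rw [mem_Gamma0_iff_dvd]
    exact hc
  · ext i k
    fin_cases i <;> fin_cases k <;>
      simp [sl2, hrepZ, Matrix.mul_apply, Fin.sum_univ_two]
    · linear_combination h1
    · linear_combination h2

theorem exists_eq_mul_hrepZ {ℓ M : ℕ} (hℓ : ℓ.Prime) (hℓM : ¬ ℓ ∣ M)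
    (δ : Matrix (Fin 2) (Fin 2) ℤ) (hdet : δ.det = ℓ) (hc : (M : ℤ) ∣ δ 1 0) :
    ∃ γ : SL(2, ℤ), γ ∈ Gamma0 M ∧ ∃ i : Option (Fin ℓ), δ = γ.1 * hrepZ ℓ i := by
  have : Fact ℓ.Prime := ⟨hℓ⟩
  have hℓ' : Prime (ℓ : ℤ) := Nat.prime_iff_prime_int.mp hℓ
  have hdet' := hdet
  rw [Matrix.det_fin_two] at hdet'
  by_cases ha : (ℓ : ℤ) ∣ δ 0 0
  · by_cases hcl : (ℓ : ℤ) ∣ δ 1 0
    · -- the diagonal representative
      obtain ⟨a', ha'⟩ := ha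
      obtain ⟨c', hc'⟩ := hcl
      have hdet1 : a' * δ 1 1 - δ 0 1 * c' = 1 := by
        have : (ℓ : ℤ) * (a' * δ 1 1 - δ 0 1 * c') = ℓ * 1 := by
          rw [ha', hc'] at hdet'
          linear_combination hdet'
        exact mul_left_cancel₀ hℓ'.ne_zero this
      refine ⟨sl2 a' (δ 0 1) c' (δ 1 1) hdet1, ?_, none, ?_⟩
      · rw [mem_Gamma0_iff_dvd]
        show (M : ℤ) ∣ c'
        have hcop : IsCoprime (M : ℤ) (ℓ : ℤ) := by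
          rw [Nat.isCoprime_iff_coprime]
          exact (Nat.Coprime.symm ((Nat.Prime.coprime_iff_not_dvd hℓ).mpr hℓM))
        rw [hc'] at hc
        exact hcop.dvd_of_dvd_mul_left hc
      · ext i k
        fin_cases i <;> fin_cases k <;>
          simp [sl2, hrepZ, Matrix.mul_apply, Fin.sum_univ_two]
        · rw [ha']; ring
        · rw [hc']; ring
    · -- `ℓ ∣ a`, `ℓ ∤ c`
      have hc0 : ((δ 1 0 : ℤ) : ZMod ℓ) ≠ 0 := by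
        rwa [Ne, ZMod.intCast_zmod_eq_zero_iff_dvd]
      set t : ZMod ℓ := ((δ 1 1 : ℤ) : ZMod ℓ) * ((δ 1 0 : ℤ) : ZMod ℓ)⁻¹ with ht
      have h2 : (ℓ : ℤ) ∣ δ 1 1 - δ 1 0 * ((t.val : ℕ) : ℤ) := by
        rw [← ZMod.intCast_zmod_eq_zero_iff_dvd]
        push_cast
        rw [ZMod.natCast_zmod_val, ht]
        field_simp
        ring
      obtain ⟨e₂, he₂⟩ := h2
      have h1 : (ℓ : ℤ) ∣ δ 0 1 - δ 0 0 * ((t.val : ℕ) : ℤ) := by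
        have hmul : (ℓ : ℤ) ∣ δ 1 0 * (δ 0 1 - δ 0 0 * ((t.val : ℕ) : ℤ)) := by
          refine ⟨δ 0 0 * e₂ - 1, ?_⟩
          linear_combination δ 0 0 * he₂ - hdet'
        exact (hℓ'.dvd_or_dvd hmul).resolve_left hcl
      obtain ⟨e₁, he₁⟩ := h1
      obtain ⟨γ, hγ, h⟩ := eq_mul_hrepZ_some hℓ.ne_zero δ hdet hc ⟨t.val, ZMod.val_lt t⟩ he₁ he₂
      exact ⟨γ, hγ, _, h⟩
  · -- `ℓ ∤ a`
    have ha0 : ((δ 0 0 : ℤ) : ZMod ℓ) ≠ 0 := by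
      rwa [Ne, ZMod.intCast_zmod_eq_zero_iff_dvd]
    set t : ZMod ℓ := ((δ 0 1 : ℤ) : ZMod ℓ) * ((δ 0 0 : ℤ) : ZMod ℓ)⁻¹ with ht
    have h1 : (ℓ : ℤ) ∣ δ 0 1 - δ 0 0 * ((t.val : ℕ) : ℤ) := by
      rw [← ZMod.intCast_zmod_eq_zero_iff_dvd]
      push_cast
      rw [ZMod.natCast_zmod_val, ht]
      field_simp
      ring
    obtain ⟨e₁, he₁⟩ := h1
    have h2 : (ℓ : ℤ) ∣ δ 1 1 - δ 1 0 * ((t.val : ℕ) : ℤ) := by
      have hmul : (ℓ : ℤ) ∣ δ 0 0 * (δ 1 1 - δ 1 0 * ((t.val : ℕ) : ℤ)) := by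
        refine ⟨1 + δ 1 0 * e₁, ?_⟩
        linear_combination hdet' + δ 1 0 * he₁
      exact (hℓ'.dvd_or_dvd hmul).resolve_left ha
    obtain ⟨e₂, he₂⟩ := h2
    obtain ⟨γ, hγ, h⟩ := eq_mul_hrepZ_some hℓ.ne_zero δ hdet hc ⟨t.val, ZMod.val_lt t⟩ he₁ he₂
    exact ⟨γ, hγ, _, h⟩

/-- the `U`-version: if `ℓ ∤ a` only finite representatives occur (no hypothesis `ℓ ∤ M`). -/
theorem exists_eq_mul_hrepZ_some {ℓ M : ℕ} (hℓ : ℓ.Prime)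
    (δ : Matrix (Fin 2) (Fin 2) ℤ) (hdet : δ.det = ℓ) (hc : (M : ℤ) ∣ δ 1 0)
    (ha : ¬ (ℓ : ℤ) ∣ δ 0 0) :
    ∃ γ : SL(2, ℤ), γ ∈ Gamma0 M ∧ ∃ j : Fin ℓ, δ = γ.1 * hrepZ ℓ (some j) := by
  have : Fact ℓ.Prime := ⟨hℓ⟩
  have hℓ' : Prime (ℓ : ℤ) := Nat.prime_iff_prime_int.mp hℓ
  have hdet' := hdet
  rw [Matrix.det_fin_two] at hdet'
  have ha0 : ((δ 0 0 : ℤ) : ZMod ℓ) ≠ 0 := by
    rwa [Ne, ZMod.intCast_zmod_eq_zero_iff_dvd]
  set t : ZMod ℓ := ((δ 0 1 : ℤ) : ZMod ℓ) * ((δ 0 0 : ℤ) : ZMod ℓ)⁻¹ with ht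
  have h1 : (ℓ : ℤ) ∣ δ 0 1 - δ 0 0 * ((t.val : ℕ) : ℤ) := by
    rw [← ZMod.intCast_zmod_eq_zero_iff_dvd]
    push_cast
    rw [ZMod.natCast_zmod_val, ht]
    field_simp
    ring
  obtain ⟨e₁, he₁⟩ := h1
  have h2 : (ℓ : ℤ) ∣ δ 1 1 - δ 1 0 * ((t.val : ℕ) : ℤ) := by
    have hmul : (ℓ : ℤ) ∣ δ 0 0 * (δ 1 1 - δ 1 0 * ((t.val : ℕ) : ℤ)) := by
      refine ⟨1 + δ 1 0 * e₁, ?_⟩
      linear_combination hdet' + δ 1 0 * he₁
    exact (hℓ'.dvd_or_dvd hmul).resolve_left ha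
  obtain ⟨e₂, he₂⟩ := h2
  obtain ⟨γ, hγ, h⟩ := eq_mul_hrepZ_some hℓ.ne_zero δ hdet hc ⟨t.val, ZMod.val_lt t⟩ he₁ he₂
  exact ⟨γ, hγ, _, h⟩


/-! ### Uniqueness of the Hecke representative -/

theorem toGL_injective {X Y : Matrix (Fin 2) (Fin 2) ℤ} (hX : X.det ≠ 0) (hY : Y.det ≠ 0)
    (h : toGL X hX = toGL Y hY) : X = Y := by
  have h' := congrArg (fun g : GL (Fin 2) ℝ => (g : Matrix (Fin 2) (Fin 2) ℝ)) h
  simp only [val_toGL] at h'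
  ext i j
  have := congrFun (congrFun h' i) j
  simpa using this

theorem hrepZ_eq_of_eq_mul {ℓ : ℕ} (hℓ : 2 ≤ ℓ) (γ : SL(2, ℤ)) {i i' : Option (Fin ℓ)}
    (h : hrepZ ℓ i = γ.1 * hrepZ ℓ i') : i = i' := by
  have hdet := det_eq' γ
  have hℓ0 : (ℓ : ℤ) ≠ 0 := by
    have : 0 < ℓ := by omega
    exact_mod_cast this.ne'
  have e00 := congrFun (congrFun h 0) 0
  have e01 := congrFun (congrFun h 0) 1
  have e10 := congrFun (congrFun h 1) 0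
  have e11 := congrFun (congrFun h 1) 1
  have h2ℓ : (2 : ℤ) ≤ ℓ := by exact_mod_cast hℓ
  rcases i with _ | j <;> rcases i' with _ | j'
  · rfl
  · -- none, some
    exfalso
    simp [hrepZ, Matrix.mul_apply, Fin.sum_univ_two] at e00 e10
    rw [← e10, ← e00] at hdet
    have h1 : (ℓ : ℤ) ∣ 1 := ⟨γ 1 1, by linear_combination -hdet⟩
    have := Int.le_of_dvd one_pos h1
    omega
  · -- some, none
    exfalso
    simp [hrepZ, Matrix.mul_apply, Fin.sum_univ_two] at e00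
    have h1 : (ℓ : ℤ) ∣ 1 := ⟨γ 0 0, by rw [mul_comm]; exact e00⟩
    have := Int.le_of_dvd one_pos h1
    omega
  · -- some, some
    simp [hrepZ, Matrix.mul_apply, Fin.sum_univ_two] at e00 e01
    have hj : (j : ℕ) < ℓ := j.2
    have hj' : (j' : ℕ) < ℓ := j'.2
    have h2 : ((j : ℕ) : ℤ) = (j' : ℕ) + γ 0 1 * ℓ := by
      rw [e01, ← e00]; ring
    have h3 : γ 0 1 = 0 := by
      by_contra hne
      have hj0 : (0 : ℤ) ≤ (j : ℕ) := Int.natCast_nonneg _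
      have hj0' : (0 : ℤ) ≤ (j' : ℕ) := Int.natCast_nonneg _
      have hjl : ((j : ℕ) : ℤ) < ℓ := by exact_mod_cast hj
      have hjl' : ((j' : ℕ) : ℤ) < ℓ := by exact_mod_cast hj'
      rcases lt_or_gt_of_ne hne with hlt | hgt
      · have : γ 0 1 * ℓ ≤ -1 * ℓ := by
          have : γ 0 1 ≤ -1 := by omega
          exact mul_le_mul_of_nonneg_right this (by omega)
        omega
      · have : 1 * (ℓ : ℤ) ≤ γ 0 1 * ℓ := by
          have : 1 ≤ γ 0 1 := by omega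
          exact mul_le_mul_of_nonneg_right this (by omega)
        omega
    rw [h3, zero_mul, add_zero] at h2
    have : (j : ℕ) = (j' : ℕ) := by exact_mod_cast h2
    exact congrArg some (Fin.ext this)


/-! ### Conjugating the Hecke representatives by `W` -/

variable {N q : ℕ}

theorem det_alMatZ_ne_zero (D : ALData N q) (hq : q ≠ 0) : (alMatZ D).det ≠ 0 := by
  rw [det_alMatZ]; exact_mod_cast hq

theorem alGL_eq_toGL (D : ALData N q) (hq : q ≠ 0) :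
    alGL D hq = toGL (alMatZ D) (det_alMatZ_ne_zero D hq) := by
  apply Matrix.GeneralLinearGroup.ext
  intro i j
  fin_cases i <;> fin_cases j <;> simp [alMatZ]

theorem conjMat_mul_ut (D : ALData N q) (a b d : ℤ) :
    conjMat D a b 0 d * alMatZ D = alMatZ D * !![a, b; 0, d] := by
  have := conjMat_mul D a b 0 d
  simpa using this

theorem det_conjMat_ut (D : ALData N q) (hq : q ≠ 0) (a b d : ℤ) :
    (conjMat D a b 0 d).det = a * d := by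
  have h := congrArg Matrix.det (conjMat_mul_ut D a b d)
  rw [Matrix.det_mul, Matrix.det_mul, det_alMatZ, Matrix.det_fin_two_of] at h
  have hq' : (q : ℤ) ≠ 0 := by exact_mod_cast hq
  refine mul_right_cancel₀ hq' ?_
  rw [h]; ring

theorem conjMat_ut_apply_one_zero (D : ALData N q) (a b d : ℤ) :
    conjMat D a b 0 d 1 0 = ((N * q : ℕ) : ℤ) * (a - N * b - d) := by
  simp [conjMat]
  ring

theorem conjMat_ut_apply_zero_zero (D : ALData N q) (a b d : ℤ) :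
    conjMat D a b 0 d 0 0 = (q : ℤ) * D.x * a - N * q * D.x * b - N * D.y * d := by
  simp [conjMat]

theorem hrepZ_eq_ut (ℓ : ℕ) (i : Option (Fin ℓ)) :
    hrepZ ℓ i = !![hrepZ ℓ i 0 0, hrepZ ℓ i 0 1; 0, hrepZ ℓ i 1 1] := by
  rcases i with _ | j <;>
  · ext r s
    fin_cases r <;> fin_cases s <;> simp [hrepZ]

theorem hrepZ_diag_mul (ℓ : ℕ) (i : Option (Fin ℓ)) : hrepZ ℓ i 0 0 * hrepZ ℓ i 1 1 = ℓ := by
  rcases i with _ | j <;> simp [hrepZ]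

/-- `W β_i = γ β_{i'} W` with `γ ∈ Γ₀(N q)` (`ℓ` prime not dividing `N q`) -/
theorem exists_alGL_mul_hrep (D : ALData N q) (hq : q ≠ 0) {ℓ : ℕ} (hℓ : ℓ.Prime)
    (hℓM : ¬ ℓ ∣ N * q) (i : Option (Fin ℓ)) :
    ∃ γ : SL(2, ℤ), γ ∈ Gamma0 (N * q) ∧ ∃ i' : Option (Fin ℓ),
      alGL D hq * hrep ℓ hℓ.ne_zero i = mapGL ℝ γ * hrep ℓ hℓ.ne_zero i' * alGL D hq := by
  set a := hrepZ ℓ i 0 0
  set b := hrepZ ℓ i 0 1
  set d := hrepZ ℓ i 1 1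
  have hdet : (conjMat D a b 0 d).det = ℓ := by
    rw [det_conjMat_ut D hq]; exact hrepZ_diag_mul ℓ i
  have hc : ((N * q : ℕ) : ℤ) ∣ conjMat D a b 0 d 1 0 := by
    rw [conjMat_ut_apply_one_zero]; exact dvd_mul_right _ _
  obtain ⟨γ, hγ, i', hi'⟩ := exists_eq_mul_hrepZ hℓ hℓM _ hdet hc
  refine ⟨γ, hγ, i', ?_⟩
  have hZ : alMatZ D * hrepZ ℓ i = (γ.1 * hrepZ ℓ i') * alMatZ D := by
    rw [← hi', conjMat_mul_ut, ← hrepZ_eq_ut]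
  have hγdet : ((γ.1 : Matrix (Fin 2) (Fin 2) ℤ) * hrepZ ℓ i').det ≠ 0 := by
    rw [Matrix.det_mul]
    exact mul_ne_zero (det_ne_zero_of_SL γ) (det_hrepZ_ne_zero hℓ.ne_zero i')
  have h1 := toGL_mul_eq hZ (det_alMatZ_ne_zero D hq) (det_hrepZ_ne_zero hℓ.ne_zero i) hγdet
    (det_alMatZ_ne_zero D hq)
  rw [toGL_mul γ.1 (hrepZ ℓ i') (det_ne_zero_of_SL γ) (det_hrepZ_ne_zero hℓ.ne_zero i') hγdet,
    ← alGL_eq_toGL, ← mapGL_eq_toGL] at h1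
  exact h1

/-- `U`-version: for `ℓ ∣ N` the finite representatives are permuted among themselves -/
theorem exists_alGL_mul_hrep_some (D : ALData N q) (hq : q ≠ 0) {ℓ : ℕ} (hℓ : ℓ.Prime)
    (hℓN : ℓ ∣ N) (j : Fin ℓ) :
    ∃ γ : SL(2, ℤ), γ ∈ Gamma0 (N * q) ∧ ∃ j' : Fin ℓ,
      alGL D hq * hrep ℓ hℓ.ne_zero (some j) =
        mapGL ℝ γ * hrep ℓ hℓ.ne_zero (some j') * alGL D hq := by
  set i : Option (Fin ℓ) := some j
  set a := hrepZ ℓ i 0 0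
  set b := hrepZ ℓ i 0 1
  set d := hrepZ ℓ i 1 1
  have hdet : (conjMat D a b 0 d).det = ℓ := by
    rw [det_conjMat_ut D hq]; exact hrepZ_diag_mul ℓ i
  have hc : ((N * q : ℕ) : ℤ) ∣ conjMat D a b 0 d 1 0 := by
    rw [conjMat_ut_apply_one_zero]; exact dvd_mul_right _ _
  have ha : ¬ (ℓ : ℤ) ∣ conjMat D a b 0 d 0 0 := by
    rw [conjMat_ut_apply_zero_zero]
    have ha1 : a = 1 := by simp [a, i, hrepZ]
    have hd1 : d = ℓ := by simp [d, i, hrepZ]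
    obtain ⟨n, hn⟩ := hℓN
    intro hdiv
    have h1 : (ℓ : ℤ) ∣ 1 := by
      have hx : (q : ℤ) * D.x = 1 + N * D.y := by linear_combination D.h
      rw [ha1, hd1, mul_one, hx] at hdiv
      have hN' : (N : ℤ) = (ℓ : ℤ) * n := by exact_mod_cast hn
      have h2 : (ℓ : ℤ) ∣ (N : ℤ) * (D.y - q * D.x * b - D.y * ℓ) :=
        ⟨n * (D.y - q * D.x * b - D.y * ℓ), by rw [hN']; ring⟩
      have h3 := dvd_sub hdiv h2
      have : (1 + (N : ℤ) * D.y - (N : ℤ) * q * D.x * b - (N : ℤ) * D.y * ℓ) -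
          (N : ℤ) * (D.y - q * D.x * b - D.y * ℓ) = 1 := by ring
      rwa [this] at h3
    have := Int.le_of_dvd one_pos h1
    have : (2 : ℤ) ≤ ℓ := by exact_mod_cast hℓ.two_le
    omega
  obtain ⟨γ, hγ, j', hj'⟩ := exists_eq_mul_hrepZ_some hℓ _ hdet hc ha
  refine ⟨γ, hγ, j', ?_⟩
  have hZ : alMatZ D * hrepZ ℓ i = (γ.1 * hrepZ ℓ (some j')) * alMatZ D := by
    rw [← hj', conjMat_mul_ut, ← hrepZ_eq_ut]
  have hγdet : ((γ.1 : Matrix (Fin 2) (Fin 2) ℤ) * hrepZ ℓ (some j')).det ≠ 0 := by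
    rw [Matrix.det_mul]
    exact mul_ne_zero (det_ne_zero_of_SL γ) (det_hrepZ_ne_zero hℓ.ne_zero _)
  have h1 := toGL_mul_eq hZ (det_alMatZ_ne_zero D hq) (det_hrepZ_ne_zero hℓ.ne_zero i) hγdet
    (det_alMatZ_ne_zero D hq)
  rw [toGL_mul γ.1 (hrepZ ℓ (some j')) (det_ne_zero_of_SL γ) (det_hrepZ_ne_zero hℓ.ne_zero _)
    hγdet, ← alGL_eq_toGL, ← mapGL_eq_toGL] at h1
  exact h1


/-! ### `T_ℓ` and `U_ℓ` commute with `W` -/

theorem hrep_eq_of_eq_mapGL_mul {ℓ : ℕ} (hℓ : 2 ≤ ℓ) (hℓ0 : ℓ ≠ 0) (γ : SL(2, ℤ))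
    {i i' : Option (Fin ℓ)} (h : hrep ℓ hℓ0 i = mapGL ℝ γ * hrep ℓ hℓ0 i') : i = i' := by
  have hγdet : ((γ.1 : Matrix (Fin 2) (Fin 2) ℤ) * hrepZ ℓ i').det ≠ 0 := by
    rw [Matrix.det_mul]
    exact mul_ne_zero (det_ne_zero_of_SL γ) (det_hrepZ_ne_zero hℓ0 i')
  rw [mapGL_eq_toGL, hrep, hrep,
    ← toGL_mul γ.1 (hrepZ ℓ i') (det_ne_zero_of_SL γ) (det_hrepZ_ne_zero hℓ0 i') hγdet] at h
  exact hrepZ_eq_of_eq_mul hℓ γ (toGL_injective _ _ h)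

/-- the abstract permutation argument: if `W β_i = γ_i β_{e i} W` with `γ_i ∈ Γ₀(N q)` for all `i`
in a finite index set of Hecke representatives, then `e` is injective. -/
theorem injective_of_alGL_mul_hrep (D : ALData N q) (hq : q ≠ 0) {ℓ : ℕ} (hℓ : 2 ≤ ℓ) (hℓ0 : ℓ ≠ 0)
    {ι : Type*} (r : ι → Option (Fin ℓ)) (hr : Function.Injective r) (e : ι → ι)
    (γ : ι → SL(2, ℤ)) (hγ : ∀ i, γ i ∈ Gamma0 (N * q))
    (he : ∀ i, alGL D hq * hrep ℓ hℓ0 (r i) =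
      mapGL ℝ (γ i) * hrep ℓ hℓ0 (r (e i)) * alGL D hq) :
    Function.Injective e := by
  intro i i' hii
  set W := alGL D hq
  have h1 := he i
  have h2 := he i'
  rw [hii] at h1
  -- `hrep (r (e i')) * W = (γ i)⁻¹ W β_i = (γ i')⁻¹ W β_i'`
  have h3 : hrep ℓ hℓ0 (r i) =
      (W⁻¹ * ((mapGL ℝ (γ i) : GL (Fin 2) ℝ) * (mapGL ℝ (γ i'))⁻¹) * W) * hrep ℓ hℓ0 (r i') := by
    have e1 : hrep ℓ hℓ0 (r (e i')) * W = (mapGL ℝ (γ i) : GL (Fin 2) ℝ)⁻¹ * (W * hrep ℓ hℓ0 (r i)) := by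
      rw [h1]; group
    have e2 : hrep ℓ hℓ0 (r (e i')) * W =
        (mapGL ℝ (γ i') : GL (Fin 2) ℝ)⁻¹ * (W * hrep ℓ hℓ0 (r i')) := by
      rw [h2]; group
    have e3 : W * hrep ℓ hℓ0 (r i) =
        (mapGL ℝ (γ i) : GL (Fin 2) ℝ) * ((mapGL ℝ (γ i'))⁻¹ * (W * hrep ℓ hℓ0 (r i'))) := by
      rw [← e2, e1]; group
    calc hrep ℓ hℓ0 (r i) = W⁻¹ * (W * hrep ℓ hℓ0 (r i)) := by group
      _ = _ := by rw [e3]; group
  have hx : (mapGL ℝ (γ i) : GL (Fin 2) ℝ) * (mapGL ℝ (γ i'))⁻¹ ∈ G0 (N * q) :=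
    mul_mem (Subgroup.mem_map_of_mem (mapGL ℝ) (hγ i))
      (inv_mem (Subgroup.mem_map_of_mem (mapGL ℝ) (hγ i')))
  obtain ⟨γ'', -, hγ''⟩ := alGL_inv_conj_mem D hq hx
  rw [← hγ''] at h3
  exact hr (hrep_eq_of_eq_mapGL_mul hℓ hℓ0 γ'' h3)

/-- **`T_ℓ` commutes with the Atkin–Lehner involution** (`ℓ` prime, `ℓ ∤ N q`). -/
theorem heckeT_slash_alGL (D : ALData N q) (hq : q ≠ 0) {ℓ : ℕ} (hℓ : ℓ.Prime)
    (hℓM : ¬ ℓ ∣ N * q) {f : ℍ → ℂ}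
    (hf : ∀ γ ∈ (Gamma0 (N * q) : Subgroup (GL (Fin 2) ℝ)), f ∣[(2 : ℤ)] γ = f) :
    heckeT 2 ℓ (f ∣[(2 : ℤ)] alGL D hq) = (heckeT 2 ℓ f) ∣[(2 : ℤ)] alGL D hq := by
  classical
  choose γ hγ e he using exists_alGL_mul_hrep D hq hℓ hℓM
  have hslash : ∀ i, (f ∣[(2 : ℤ)] alGL D hq) ∣[(2 : ℤ)] hrep ℓ hℓ.ne_zero i =
      (f ∣[(2 : ℤ)] hrep ℓ hℓ.ne_zero (e i)) ∣[(2 : ℤ)] alGL D hq := by
    intro i
    rw [← SlashAction.slash_mul, he i, SlashAction.slash_mul, SlashAction.slash_mul,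
      hf _ (Subgroup.mem_map_of_mem (mapGL ℝ) (hγ i))]
  have hinj : Function.Injective e :=
    injective_of_alGL_mul_hrep D hq hℓ.two_le hℓ.ne_zero id Function.injective_id e γ hγ he
  have hbij : Function.Bijective e := Finite.injective_iff_bijective.mp hinj
  rw [heckeT_eq_sum_hrep 2 ℓ hℓ.ne_zero, heckeT_eq_sum_hrep 2 ℓ hℓ.ne_zero, SlashAction.sum_slash]
  calc ∑ i, (f ∣[(2 : ℤ)] alGL D hq) ∣[(2 : ℤ)] hrep ℓ hℓ.ne_zero i
      = ∑ i, (f ∣[(2 : ℤ)] hrep ℓ hℓ.ne_zero (e i)) ∣[(2 : ℤ)] alGL D hq :=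
        Finset.sum_congr rfl fun i _ => hslash i
    _ = ∑ i, (f ∣[(2 : ℤ)] hrep ℓ hℓ.ne_zero i) ∣[(2 : ℤ)] alGL D hq :=
        Equiv.sum_comp (Equiv.ofBijective e hbij)
          (fun i => (f ∣[(2 : ℤ)] hrep ℓ hℓ.ne_zero i) ∣[(2 : ℤ)] alGL D hq)

/-- **`U_ℓ` commutes with the Atkin–Lehner involution `W_q`** (`ℓ` prime, `ℓ ∣ N`). -/
theorem heckeU_slash_alGL' (D : ALData N q) (hq : q ≠ 0) {ℓ : ℕ} (hℓ : ℓ.Prime)
    (hℓN : ℓ ∣ N) {f : ℍ → ℂ}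
    (hf : ∀ γ ∈ (Gamma0 (N * q) : Subgroup (GL (Fin 2) ℝ)), f ∣[(2 : ℤ)] γ = f) :
    heckeU 2 ℓ (f ∣[(2 : ℤ)] alGL D hq) = (heckeU 2 ℓ f) ∣[(2 : ℤ)] alGL D hq := by
  classical
  choose γ hγ e he using exists_alGL_mul_hrep_some D hq hℓ hℓN
  have hslash : ∀ j, (f ∣[(2 : ℤ)] alGL D hq) ∣[(2 : ℤ)] hrep ℓ hℓ.ne_zero (some j) =
      (f ∣[(2 : ℤ)] hrep ℓ hℓ.ne_zero (some (e j))) ∣[(2 : ℤ)] alGL D hq := by
    intro j
    rw [← SlashAction.slash_mul, he j, SlashAction.slash_mul, SlashAction.slash_mul,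
      hf _ (Subgroup.mem_map_of_mem (mapGL ℝ) (hγ j))]
  have hinj : Function.Injective e :=
    injective_of_alGL_mul_hrep D hq hℓ.two_le hℓ.ne_zero some (Option.some_injective _) e γ hγ he
  have hbij : Function.Bijective e := Finite.injective_iff_bijective.mp hinj
  rw [heckeU_eq_sum_hrep 2 ℓ hℓ.ne_zero, heckeU_eq_sum_hrep 2 ℓ hℓ.ne_zero, SlashAction.sum_slash]
  calc ∑ j, (f ∣[(2 : ℤ)] alGL D hq) ∣[(2 : ℤ)] hrep ℓ hℓ.ne_zero (some j)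
      = ∑ j, (f ∣[(2 : ℤ)] hrep ℓ hℓ.ne_zero (some (e j))) ∣[(2 : ℤ)] alGL D hq :=
        Finset.sum_congr rfl fun j _ => hslash j
    _ = ∑ j, (f ∣[(2 : ℤ)] hrep ℓ hℓ.ne_zero (some j)) ∣[(2 : ℤ)] alGL D hq :=
        Equiv.sum_comp (Equiv.ofBijective e hbij)
          (fun j => (f ∣[(2 : ℤ)] hrep ℓ hℓ.ne_zero (some j)) ∣[(2 : ℤ)] alGL D hq)


/-! ### Cusp form level: `alOp`, `traceDown` and the Hecke operators -/

theorem slashInv (g : CuspForm (Gamma0 (N * q)) 2) :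
    ∀ γ ∈ (Gamma0 (N * q) : Subgroup (GL (Fin 2) ℝ)), (⇑g) ∣[(2 : ℤ)] γ = ⇑g :=
  fun γ hγ => SlashInvariantFormClass.slash_action_eq g γ hγ

theorem alOp_heckeTLin (D : ALData N q) (hq : q ≠ 0) {ℓ : ℕ} (hℓ : ℓ.Prime)
    (hℓM : ¬ ℓ ∣ N * q) (g : CuspForm (Gamma0 (N * q)) 2) :
    alOp D hq (CuspForm.heckeTLin 2 hℓ hℓM g) = CuspForm.heckeTLin 2 hℓ hℓM (alOp D hq g) :=
  DFunLike.coe_injective <| by
    rw [coe_alOp, CuspForm.coe_heckeTLin_apply, CuspForm.coe_heckeTLin_apply, coe_alOp]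
    exact (heckeT_slash_alGL D hq hℓ hℓM (slashInv g)).symm

theorem alOp_heckeULin (D : ALData N q) (hq : q ≠ 0) [NeZero (N * q)] {ℓ : ℕ} (hℓ : ℓ.Prime)
    (hℓN : ℓ ∣ N) (g : CuspForm (Gamma0 (N * q)) 2) :
    alOp D hq (CuspForm.heckeULin 2 (Dvd.dvd.mul_right hℓN q) g) =
      CuspForm.heckeULin 2 (Dvd.dvd.mul_right hℓN q) (alOp D hq g) :=
  DFunLike.coe_injective <| by
    rw [coe_alOp, CuspForm.coe_heckeULin_apply, CuspForm.coe_heckeULin_apply, coe_alOp]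
    exact (heckeU_slash_alGL' D hq hℓ hℓN (slashInv g)).symm

theorem traceDown_heckeTLin (D : ALData N q) (hq : q.Prime) (hqN : ¬ q ∣ N) (hN : N ≠ 0)
    {ℓ : ℕ} (hℓ : ℓ.Prime) (hℓM : ¬ ℓ ∣ N * q) (g : CuspForm (Gamma0 (N * q)) 2) :
    traceDown D hq hqN hN (CuspForm.heckeTLin 2 hℓ hℓM g) =
      CuspForm.heckeTLin 2 hℓ (fun h => hℓM (Dvd.dvd.mul_right h q)) (traceDown D hq hqN hN g) :=
  DFunLike.coe_injective <| by
    have hper := CongruenceSubgroup.one_mem_strictPeriods_Gamma0 (N * q)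
    have hℓq : Nat.Coprime ℓ q := by
      rw [Nat.coprime_primes hℓ hq]
      rintro rfl
      exact hℓM (dvd_mul_left _ _)
    rw [coe_traceDown', CuspForm.coe_heckeTLin_apply, CuspForm.coe_heckeTLin_apply,
      coe_traceDown', heckeT_add, ← heckeT_slash_alGL D hq.ne_zero hℓ hℓM (slashInv g),
      ← coe_alOp, ModularFormClass.heckeT_heckeU_comm (alOp D hq.ne_zero g) hper hℓq]

theorem traceDown_heckeULin (D : ALData N q) (hq : q.Prime) (hqN : ¬ q ∣ N) (hN : N ≠ 0)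
    [NeZero N] [NeZero (N * q)] {ℓ : ℕ} (hℓ : ℓ.Prime) (hℓN : ℓ ∣ N)
    (g : CuspForm (Gamma0 (N * q)) 2) :
    traceDown D hq hqN hN (CuspForm.heckeULin 2 (Dvd.dvd.mul_right hℓN q) g) =
      CuspForm.heckeULin 2 hℓN (traceDown D hq hqN hN g) :=
  DFunLike.coe_injective <| by
    have hper := CongruenceSubgroup.one_mem_strictPeriods_Gamma0 (N * q)
    rw [coe_traceDown', CuspForm.coe_heckeULin_apply, CuspForm.coe_heckeULin_apply,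
      coe_traceDown', heckeU_add, ← heckeU_slash_alGL' D hq.ne_zero hℓ hℓN (slashInv g),
      ← coe_alOp, ModularFormClass.heckeU_heckeU_comm (alOp D hq.ne_zero g) hper ℓ q]

/-- **The `q`-new subspace** of `S₂(Γ₀(N q))`: the common kernel of the two traces to level `N`. -/
def qNew (D : ALData N q) (hq : q.Prime) (hqN : ¬ q ∣ N) (hN : N ≠ 0) :
    Submodule ℂ (CuspForm (Gamma0 (N * q)) 2) :=
  LinearMap.ker (traceDown D hq hqN hN) ⊓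
    LinearMap.ker ((traceDown D hq hqN hN).comp (alOp D hq.ne_zero))

theorem mem_qNew (D : ALData N q) (hq : q.Prime) (hqN : ¬ q ∣ N) (hN : N ≠ 0)
    (g : CuspForm (Gamma0 (N * q)) 2) :
    g ∈ qNew D hq hqN hN ↔
      traceDown D hq hqN hN g = 0 ∧ traceDown D hq hqN hN (alOp D hq.ne_zero g) = 0 := by
  simp [qNew, Submodule.mem_inf, LinearMap.mem_ker]

theorem alOp_mem_qNew (D : ALData N q) (hq : q.Prime) (hqN : ¬ q ∣ N) (hN : N ≠ 0)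
    {g : CuspForm (Gamma0 (N * q)) 2} (hg : g ∈ qNew D hq hqN hN) :
    alOp D hq.ne_zero g ∈ qNew D hq hqN hN := by
  rw [mem_qNew] at hg ⊢
  exact ⟨hg.2, by rw [alOp_alOp]; exact hg.1⟩

theorem heckeTLin_mem_qNew (D : ALData N q) (hq : q.Prime) (hqN : ¬ q ∣ N) (hN : N ≠ 0)
    {ℓ : ℕ} (hℓ : ℓ.Prime) (hℓM : ¬ ℓ ∣ N * q)
    {g : CuspForm (Gamma0 (N * q)) 2} (hg : g ∈ qNew D hq hqN hN) :
    CuspForm.heckeTLin 2 hℓ hℓM g ∈ qNew D hq hqN hN := by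
  rw [mem_qNew] at hg ⊢
  refine ⟨?_, ?_⟩
  · rw [traceDown_heckeTLin, hg.1, map_zero]
  · rw [alOp_heckeTLin, traceDown_heckeTLin, hg.2, map_zero]

theorem heckeULin_mem_qNew (D : ALData N q) (hq : q.Prime) (hqN : ¬ q ∣ N) (hN : N ≠ 0)
    [NeZero N] [NeZero (N * q)] {ℓ : ℕ} (hℓ : ℓ.Prime) (hℓN : ℓ ∣ N)
    {g : CuspForm (Gamma0 (N * q)) 2} (hg : g ∈ qNew D hq hqN hN) :
    CuspForm.heckeULin 2 (Dvd.dvd.mul_right hℓN q) g ∈ qNew D hq hqN hN := by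
  rw [mem_qNew] at hg ⊢
  refine ⟨?_, ?_⟩
  · rw [traceDown_heckeULin D hq hqN hN hℓ hℓN, hg.1, map_zero]
  · rw [alOp_heckeULin D hq.ne_zero hℓ hℓN, traceDown_heckeULin D hq hqN hN hℓ hℓN, hg.2, map_zero]

/-- on the `q`-new subspace `U_q = - W_q` -/
theorem heckeULin_eq_neg_alOp_of_mem_qNew (D : ALData N q) (hq : q.Prime) (hqN : ¬ q ∣ N)
    (hN : N ≠ 0) [NeZero (N * q)]
    {g : CuspForm (Gamma0 (N * q)) 2} (hg : g ∈ qNew D hq hqN hN) :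
    CuspForm.heckeULin 2 (dvd_mul_left q N) g = - alOp D hq.ne_zero g := by
  rw [mem_qNew] at hg
  have h2 : (⇑(traceDown D hq hqN hN (alOp D hq.ne_zero g)) : ℍ → ℂ) = 0 := by
    rw [hg.2]; rfl
  rw [coe_traceDown', coe_alOp,
    slash_alGL_alGL D hq.ne_zero (slashInv g)] at h2
  apply DFunLike.coe_injective
  rw [CuspForm.coe_heckeULin_apply]
  have h3 : heckeU 2 q ⇑g = -(⇑g ∣[(2 : ℤ)] alGL D hq.ne_zero) := by
    rw [eq_neg_iff_add_eq_zero, add_comm]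
    exact h2
  rw [h3]
  rfl

theorem heckeULin_q_mem_qNew (D : ALData N q) (hq : q.Prime) (hqN : ¬ q ∣ N) (hN : N ≠ 0)
    [NeZero (N * q)]
    {g : CuspForm (Gamma0 (N * q)) 2} (hg : g ∈ qNew D hq hqN hN) :
    CuspForm.heckeULin 2 (dvd_mul_left q N) g ∈ qNew D hq hqN hN := by
  rw [heckeULin_eq_neg_alOp_of_mem_qNew D hq hqN hN hg]
  exact Submodule.neg_mem _ (alOp_mem_qNew D hq hqN hN hg)

end

end Fermat.Agent.S41.H72
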