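/-
S41 package B (degeneracy calculus), part 1: definitions.

Levels `N` and `N q` (`q` prime, `q ∤ N`).  The four degeneracy operators between
`Hom(Γ₀(N), A)` and `Hom(Γ₀(N q), A)`, for an arbitrary coefficient group `A`, as operators of
coset data in the sense of `H85_CosetDatum`:

* `res`  : restriction along `Γ₀(N q) ⊆ Γ₀(N)`;
* `cst`  : composition with `cHom : Γ₀(N q) → Γ₀(N)`, `[[a,b],[c,d]] ↦ [[a,q b],[c/q,d]]`
           (conjugation by `diag(q,1)`);
* `cor`  : transfer along the inclusion (coset representatives `1, r_j` of `H72_AtkinLehner`);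
* `corc` : transfer along `cHom`, realised as `cor ∘ AL`, `AL` = composition with the
           Atkin–Lehner automorphism `alHom` of `Γ₀(N q)` (conjugation by `W`).
-/
import Mathlib
import Fermat.Agent.S41.H85_HeckeGamma0
import Fermat.Agent.S41.H72_AtkinLehnerHecke

set_option autoImplicit false

open CongruenceSubgroup Matrix.SpecialLinearGroup ModularForm
open scoped MatrixGroups
open P2MW.S_ModularForm_heckeT_slash_eq_self_of_mem_Gamma0.ModularForm.HeckeSlashInvariance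

namespace Fermat.Agent.S41.H65

open Fermat.Agent.S41.H85 Fermat.Agent.S41.H72

/-! ### General lemmas on coset data -/

section general

variable {G Γ₁ Γ₂ Γ₃ : Type*} [Group G] [Group Γ₁] [Group Γ₂] [Group Γ₃]
variable {ι₁ : Γ₁ →* G} {ι₂ : Γ₂ →* G} {ι₃ : Γ₃ →* G} {I K I' : Type*}

/-- Naturality of coset operators in the coefficient group. -/
theorem op_comp_coeff {A B : Type*} [AddCommGroup A] [AddCommGroup B] [Fintype I]
    (D : CosetDatum ι₁ ι₂ I) (u : A →+ B) (φ : Additive Γ₁ →+ A) :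
    D.op (u.comp φ) = u.comp (D.op φ) := by
  refine AddMonoidHom.ext fun γ => ?_
  simp [CosetDatum.op_apply', map_sum]

/-- Homomorphisms to abelian groups are invariant under inner automorphisms. -/
theorem hom_conj_eq {Γ A : Type*} [Group Γ] [AddCommGroup A] (ψ : Additive Γ →+ A) (g γ : Γ) :
    ψ (Additive.ofMul (g * γ * g⁻¹)) = ψ (Additive.ofMul γ) := by
  rw [ofMul_mul, ofMul_mul, ofMul_inv, map_add, map_add, map_neg]
  abel

/-- A map `f : Γ₂ → Γ₁` intertwining `ι₂` and `ι₁` through conjugation by `δ` is a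
homomorphism. -/
def homOfConj (hinj : Function.Injective ι₁) (δ : G) (f : Γ₂ → Γ₁)
    (h : ∀ γ, δ * ι₂ γ = ι₁ (f γ) * δ) : Γ₂ →* Γ₁ where
  toFun := f
  map_one' := by
    apply hinj
    have h1 := h 1
    rw [map_one, mul_one] at h1
    rw [map_one]
    exact (mul_eq_right.mp h1.symm)
  map_mul' γ γ' := by
    apply hinj
    apply mul_right_cancel (b := δ)
    rw [← h, map_mul, map_mul, ← mul_assoc, h, mul_assoc, h, mul_assoc]

@[simp] theorem homOfConj_apply (hinj : Function.Injective ι₁) (δ : G) (f : Γ₂ → Γ₁)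
    (h : ∀ γ, δ * ι₂ γ = ι₁ (f γ) * δ) (γ : Γ₂) : homOfConj hinj δ f h γ = f γ := rfl

/-- Two reduced coset data of the same cardinality, such that every coset of the first is a
coset of the second, define the same operator. -/
theorem op_eq_of_forall_exists [Fintype I] [Fintype I'] {A : Type*} [AddCommGroup A]
    (D : CosetDatum ι₁ ι₂ I) (D' : CosetDatum ι₁ ι₂ I')
    (hr : IsReduced ι₁ D.α) (hr' : IsReduced ι₁ D'.α)
    (hcard : Fintype.card I = Fintype.card I')
    (h : ∀ i, ∃ (i' : I') (c : Γ₁), D'.α i' = ι₁ c * D.α i) :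
    (D.op : (Additive Γ₁ →+ A) →+ _) = D'.op := by
  classical
  choose e c hec using h
  have hinj : Function.Injective e := by
    intro i j hij
    have h1 := hec i
    have h2 := hec j
    rw [hij] at h1
    exact (hr.unique (h1.symm.trans h2)).1
  have hbij : Function.Bijective e :=
    (Fintype.bijective_iff_injective_and_card e).mpr ⟨hinj, hcard⟩
  exact D.op_eq_of_equiv D' hr' (Equiv.ofBijective e hbij) c hec

/-- Composition of reduced data is reduced when the representatives of the first datum lie in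
the middle group and `ι₁` factors through `ι₂`. -/
theorem isReduced_comp_of_range (D : CosetDatum ι₁ ι₂ I) (E : CosetDatum ι₂ ι₃ K)
    (hD : IsReduced ι₁ D.α) (hE : IsReduced ι₂ E.α) (j : Γ₁ →* Γ₂) (hj : ∀ g, ι₁ g = ι₂ (j g))
    (a : I → Γ₂) (ha : ∀ i, D.α i = ι₂ (a i)) : IsReduced ι₁ (D.comp E).α where
  inj := hD.inj
  distinct := by
    rintro ⟨i, k⟩ ⟨i', k'⟩ g h
    have h' : ι₂ (j g * a i) * E.α k = ι₂ (a i') * E.α k' := by
      have : ι₁ g * (D.α i * E.α k) = D.α i' * E.α k' := h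
      rw [map_mul, ← hj, ← ha, ← ha, mul_assoc]
      exact this
    obtain ⟨hk, hg⟩ := hE.unique h'
    have hi : i = i' := by
      refine hD.distinct i i' g ?_
      rw [hj, ha, ha, ← map_mul, hg]
    rw [hi, hk]

/-- Right multiplication by a single element preserves reducedness. -/
theorem isReduced_comp_single (D : CosetDatum ι₁ ι₂ I) (hD : IsReduced ι₁ D.α) (w : G)
    (f : Γ₃ →* Γ₂) (h : ∀ γ, w * ι₃ γ = ι₂ (f γ) * w) :
    IsReduced ι₁ (D.comp (CosetDatum.single (ι₁ := ι₂) (ι₂ := ι₃) w f h)).α where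
  inj := hD.inj
  distinct := by
    rintro ⟨i, u⟩ ⟨i', u'⟩ g hg
    have h1 : ι₁ g * (D.α i * w) = D.α i' * w := hg
    have hi : i = i' := by
      refine hD.distinct i i' g ?_
      apply mul_right_cancel (b := w)
      rw [mul_assoc]
      exact h1
    rw [hi]

/-- Left multiplication by a single element normalising the groups preserves reducedness. -/
theorem isReduced_single_comp (E : CosetDatum ι₂ ι₃ K) (hE : IsReduced ι₂ E.α)
    (hinj : Function.Injective ι₁) (w : G)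
    (f : Γ₂ →* Γ₁) (hf : Function.Surjective f) (h : ∀ γ, w * ι₂ γ = ι₁ (f γ) * w) :
    IsReduced ι₁ ((CosetDatum.single (ι₁ := ι₁) (ι₂ := ι₂) w f h).comp E).α where
  inj := hinj
  distinct := by
    rintro ⟨u, k⟩ ⟨u', k'⟩ g hg
    obtain ⟨g', rfl⟩ := hf g
    have h1 : ι₁ (f g') * (w * E.α k) = w * E.α k' := hg
    have hk : k = k' := by
      refine hE.distinct k k' g' ?_
      apply mul_left_cancel (a := w)
      rw [← mul_assoc, h, mul_assoc]
      exact h1
    rw [hk]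

end general

/-! ### The groups and homomorphisms -/

section homs

variable (N q : ℕ)

theorem gamma0_mul_le : Gamma0 (N * q) ≤ Gamma0 N := by
  intro g hg
  rw [H72.mem_Gamma0_iff_dvd] at hg ⊢
  exact dvd_trans ⟨(q : ℤ), by push_cast; ring⟩ hg

/-- The inclusion `Γ₀(N q) → Γ₀(N)`. -/
def inclHom : Gamma0 (N * q) →* Gamma0 N := Subgroup.inclusion (gamma0_mul_le N q)

@[simp] theorem inclHom_coe (γ : Gamma0 (N * q)) :
    ((inclHom N q γ : Gamma0 N) : SL(2, ℤ)) = (γ : SL(2, ℤ)) := rfl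

theorem gl_inclHom (γ : Gamma0 (N * q)) : gl N (inclHom N q γ) = gl (N * q) γ := rfl

theorem dvd_lower_left (γ : Gamma0 (N * q)) : ((N : ℤ) * q) ∣ (γ : SL(2, ℤ)) 1 0 := by
  have := H72.mem_Gamma0_iff_dvd.mp γ.2
  simpa using this

theorem q_dvd_lower_left (γ : Gamma0 (N * q)) : (q : ℤ) ∣ (γ : SL(2, ℤ)) 1 0 :=
  dvd_trans ⟨(N : ℤ), by ring⟩ (dvd_lower_left N q γ)

theorem q_mul_ediv (γ : Gamma0 (N * q)) :
    (q : ℤ) * ((γ : SL(2, ℤ)) 1 0 / q) = (γ : SL(2, ℤ)) 1 0 :=
  Int.mul_ediv_cancel' (q_dvd_lower_left N q γ)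

variable {N q}

/-- The underlying function of `cHom`: `[[a,b],[c,d]] ↦ [[a, q b],[c / q, d]]`. -/
def cFun (hq : q ≠ 0) (γ : Gamma0 (N * q)) : Gamma0 N :=
  ⟨H72.sl2 ((γ : SL(2, ℤ)) 0 0) (q * (γ : SL(2, ℤ)) 0 1) ((γ : SL(2, ℤ)) 1 0 / q)
      ((γ : SL(2, ℤ)) 1 1) (by
        have h1 := H72.det_eq' (γ : SL(2, ℤ))
        have h2 := q_mul_ediv N q γ
        linear_combination h1 - (γ : SL(2, ℤ)) 0 1 * h2),
    by
      rw [H72.mem_Gamma0_iff_dvd, H72.sl2_apply_one_zero]
      obtain ⟨c', hc'⟩ := dvd_lower_left N q γ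
      have hq' : (q : ℤ) ≠ 0 := by exact_mod_cast hq
      refine ⟨c', ?_⟩
      rw [hc', mul_assoc, mul_comm (N : ℤ), mul_assoc, Int.mul_ediv_cancel_left _ hq']
      ring⟩

theorem cFun_coe_apply (hq : q ≠ 0) (γ : Gamma0 (N * q)) :
    (((cFun hq γ : Gamma0 N) : SL(2, ℤ)) : Matrix (Fin 2) (Fin 2) ℤ)
      = !![(γ : SL(2, ℤ)) 0 0, q * (γ : SL(2, ℤ)) 0 1;
           (γ : SL(2, ℤ)) 1 0 / q, (γ : SL(2, ℤ)) 1 1] := rfl

theorem heckeDiag_mul_gl (hq : q ≠ 0) (γ : Gamma0 (N * q)) :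
    heckeDiagMatrix q * gl (N * q) γ = gl N (cFun hq γ) * heckeDiagMatrix q := by
  have h2 := congrArg (Int.cast : ℤ → ℝ) (q_mul_ediv N q γ)
  push_cast at h2
  ext a b
  rw [gl_apply, gl_apply]
  fin_cases a <;> fin_cases b <;>
    simp [Matrix.mul_apply, Fin.sum_univ_two, hq, cFun_coe_apply, mul_comm]
  linarith

/-- `cHom : Γ₀(N q) →* Γ₀(N)`, `[[a,b],[c,d]] ↦ [[a, q b],[c / q, d]]` (conjugation by
`diag(q, 1)`). -/
noncomputable def cHom (hq : q ≠ 0) : Gamma0 (N * q) →* Gamma0 N :=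
  homOfConj (gl_injective N) (heckeDiagMatrix q) (cFun hq) (heckeDiag_mul_gl hq)

@[simp] theorem cHom_apply (hq : q ≠ 0) (γ : Gamma0 (N * q)) : cHom hq γ = cFun hq γ := rfl

theorem cHom_coe_apply (hq : q ≠ 0) (γ : Gamma0 (N * q)) :
    (((cHom hq γ : Gamma0 N) : SL(2, ℤ)) : Matrix (Fin 2) (Fin 2) ℤ)
      = !![(γ : SL(2, ℤ)) 0 0, q * (γ : SL(2, ℤ)) 0 1;
           (γ : SL(2, ℤ)) 1 0 / q, (γ : SL(2, ℤ)) 1 1] := rfl

theorem heckeDiag_mul_gl_cHom (hq : q ≠ 0) (γ : Gamma0 (N * q)) :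
    heckeDiagMatrix q * gl (N * q) γ = gl N (cHom hq γ) * heckeDiagMatrix q :=
  heckeDiag_mul_gl hq γ

/-! ### The Atkin–Lehner automorphism of `Γ₀(N q)` -/

theorem lower_left_eq (γ : Gamma0 (N * q)) :
    (γ : SL(2, ℤ)) 1 0 = (N : ℤ) * q * ((γ : SL(2, ℤ)) 1 0 / ((N : ℤ) * q)) :=
  (Int.mul_ediv_cancel' (dvd_lower_left N q γ)).symm

/-- The underlying function of the Atkin–Lehner automorphism. -/
def alFun (D : ALData N q) (hq : q ≠ 0) (γ : Gamma0 (N * q)) : Gamma0 (N * q) :=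
  ⟨conjAL D hq (γ : SL(2, ℤ)) _ (lower_left_eq γ), conjAL_mem_Gamma0 D hq _ _ _⟩

theorem alGL_mul_gl (D : ALData N q) (hq : q ≠ 0) (γ : Gamma0 (N * q)) :
    alGL D hq * gl (N * q) γ = gl (N * q) (alFun D hq γ) * alGL D hq :=
  alGL_mul_mapGL D hq (γ : SL(2, ℤ)) _ (lower_left_eq γ)

/-- The Atkin–Lehner automorphism `γ ↦ W γ W⁻¹` of `Γ₀(N q)`. -/
noncomputable def alHom (D : ALData N q) (hq : q ≠ 0) : Gamma0 (N * q) →* Gamma0 (N * q) :=
  homOfConj (gl_injective (N * q)) (alGL D hq) (alFun D hq) (alGL_mul_gl D hq)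

theorem alGL_mul_gl_alHom (D : ALData N q) (hq : q ≠ 0) (γ : Gamma0 (N * q)) :
    alGL D hq * gl (N * q) γ = gl (N * q) (alHom D hq γ) * alGL D hq :=
  alGL_mul_gl D hq γ

/-- The element `γ₀ ∈ Γ₀(N q)` with `W² = q γ₀`. -/
def gam0' (D : ALData N q) : Gamma0 (N * q) := ⟨gam0 D, gam0_mem_Gamma0 D⟩

/-- The Atkin–Lehner automorphism is an involution up to the inner automorphism of `γ₀`. -/
theorem alHom_alHom (D : ALData N q) (hq : q ≠ 0) (γ : Gamma0 (N * q)) :
    alHom D hq (alHom D hq γ) = gam0' D * γ * (gam0' D)⁻¹ := by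
  apply gl_injective (N * q)
  have h1 := alGL_mul_gl_alHom D hq γ
  have h2 := alGL_mul_gl_alHom D hq (alHom D hq γ)
  have h3 : alGL D hq * alGL D hq = scalarGL q hq * gl (N * q) (gam0' D) := alGL_mul_alGL D hq
  have h4 : gl (N * q) (alHom D hq (alHom D hq γ)) * (alGL D hq * alGL D hq)
      = (alGL D hq * alGL D hq) * gl (N * q) γ := by
    rw [← mul_assoc, ← h2, mul_assoc, ← h1, mul_assoc]
  rw [h3, ← mul_assoc, ← scalarGL_comm hq, mul_assoc, mul_assoc] at h4
  have h5 := mul_left_cancel h4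
  rw [map_mul, map_mul, map_inv, ← h5, mul_inv_cancel_right]

theorem alHom_surjective (D : ALData N q) (hq : q ≠ 0) : Function.Surjective (alHom D hq) := by
  intro γ
  refine ⟨alHom D hq ((gam0' D)⁻¹ * γ * gam0' D), ?_⟩
  rw [alHom_alHom]
  group

end homs

/-! ### Coset representatives of `Γ₀(N q) \ Γ₀(N)` -/

section reps

variable {N q : ℕ}

/-- The representatives `1, r_j` (`j ∈ ℤ/q`) of `Γ₀(N q) \ Γ₀(N)`. -/
def corRep (D : ALData N q) (x : OnePoint (ZMod q)) : Gamma0 N :=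
  x.elim 1 (fun j => ⟨rj D (j.val : ℤ), rj_mem_Gamma0 D _⟩)

@[simp] theorem corRep_infty (D : ALData N q) : corRep D (OnePoint.infty) = 1 := rfl

@[simp] theorem corRep_coe (D : ALData N q) (j : ZMod q) :
    corRep D (j : OnePoint (ZMod q)) = ⟨rj D (j.val : ℤ), rj_mem_Gamma0 D _⟩ := rfl

theorem corRep_coe_coe (D : ALData N q) (j : ZMod q) :
    ((corRep D (j : OnePoint (ZMod q)) : Gamma0 N) : SL(2, ℤ)) = rj D (j.val : ℤ) := rfl

/-- The family `gl N (corRep D x)` of elements of `GL₂(ℝ)`. -/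
noncomputable def corAlpha (D : ALData N q) (x : OnePoint (ZMod q)) : GL (Fin 2) ℝ :=
  gl N (corRep D x)

theorem mem_gamma0_of_gl_eq {g : Gamma0 (N * q)} {h : SL(2, ℤ)}
    (H : gl (N * q) g = mapGL ℝ h) : h ∈ Gamma0 (N * q) := by
  rw [gl_apply] at H
  rw [← mapGL_injective H]
  exact g.2

theorem isReduced_corAlpha (D : ALData N q) (hq : q.Prime) (hqN : ¬ q ∣ N) (hN : N ≠ 0) :
    IsReduced (gl (N * q)) (corAlpha D) where
  inj := gl_injective (N * q)
  distinct := by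
    have : NeZero q := ⟨hq.ne_zero⟩
    intro x y g h
    induction x using OnePoint.rec with
    | infty =>
      induction y using OnePoint.rec with
      | infty => rfl
      | coe j' =>
        exfalso
        simp only [corAlpha, corRep_infty, map_one, mul_one] at h
        rw [gl_apply, gl_apply, corRep_coe_coe] at h
        have := mapGL_injective h
        exact rj_notMem_Gamma0 D hq hN _ (this ▸ g.2)
    | coe j =>
      induction y using OnePoint.rec with
      | infty =>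
        exfalso
        simp only [corAlpha, corRep_infty, map_one] at h
        rw [gl_apply, gl_apply, corRep_coe_coe, ← map_mul] at h
        have h1 : (g : SL(2, ℤ)) * rj D (j.val : ℤ) = 1 := by
          have := mapGL_injective (h.trans (map_one _).symm)
          exact this
        have h2 : rj D (j.val : ℤ) = (g : SL(2, ℤ))⁻¹ := eq_inv_of_mul_eq_one_right h1
        exact rj_notMem_Gamma0 D hq hN _ (h2 ▸ inv_mem g.2)
      | coe j' =>
        simp only [corAlpha] at h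
        rw [gl_apply, gl_apply, gl_apply, corRep_coe_coe, corRep_coe_coe, ← map_mul] at h
        have h1 : (g : SL(2, ℤ)) * rj D (j.val : ℤ) = rj D (j'.val : ℤ) := mapGL_injective h
        have h2 : rj D (j'.val : ℤ) * (rj D (j.val : ℤ))⁻¹ ∈ Gamma0 (N * q) := by
          rw [← h1, mul_inv_cancel_right]
          exact g.2
        have h3 := eq_of_rj_mul_inv_mem D hq hqN (ZMod.val_lt j') (ZMod.val_lt j) h2
        rw [ZMod.val_injective q h3]

theorem stable_corAlpha (D : ALData N q) (hq : q.Prime) (hqN : ¬ q ∣ N)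
    (γ : Gamma0 N) (x : OnePoint (ZMod q)) :
    ∃ (y : OnePoint (ZMod q)) (g : Gamma0 (N * q)),
      corAlpha D x * gl N γ = gl (N * q) g * corAlpha D y := by
  have : NeZero q := ⟨hq.ne_zero⟩
  set h : Gamma0 N := corRep D x * γ with hh
  have hmem : ((h⁻¹ : Gamma0 N) : SL(2, ℤ)) ∈ Gamma0 N := (h⁻¹).2
  rcases mem_or_exists_rj_mul_mem D hq hqN hmem with h1 | ⟨j, hj, h1⟩
  · refine ⟨OnePoint.infty, ⟨(h : SL(2, ℤ)), ?_⟩, ?_⟩
    · have := inv_mem h1
      simpa using this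
    · simp only [corAlpha, corRep_infty, map_one, mul_one]
      rw [← map_mul, ← hh]
      rfl
  · refine ⟨((j : ZMod q) : OnePoint (ZMod q)),
      ⟨(rj D (j : ℤ) * ((h⁻¹ : Gamma0 N) : SL(2, ℤ)))⁻¹, inv_mem h1⟩, ?_⟩
    simp only [corAlpha]
    rw [← map_mul, ← hh, gl_apply, gl_apply, gl_apply, corRep_coe_coe, ← map_mul]
    congr 1
    rw [ZMod.val_cast_of_lt hj]
    simp only [InvMemClass.coe_inv, mul_inv_rev, inv_inv]
    rw [inv_mul_cancel_right]

end reps

/-! ### The coset data and the four operators -/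

section data

variable {N q : ℕ}

/-- Coset datum of the restriction `Hom(Γ₀(N), A) → Hom(Γ₀(N q), A)`. -/
noncomputable def resDatum (N q : ℕ) : CosetDatum (gl N) (gl (N * q)) Unit :=
  CosetDatum.single 1 (inclHom N q) (fun γ => by rw [one_mul, mul_one]; rfl)

/-- Coset datum of `φ ↦ φ ∘ cHom`. -/
noncomputable def cstDatum (N : ℕ) {q : ℕ} (hq : q ≠ 0) : CosetDatum (gl N) (gl (N * q)) Unit :=
  CosetDatum.single (heckeDiagMatrix q) (cHom hq) (heckeDiag_mul_gl_cHom hq)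

/-- Coset datum of the Atkin–Lehner involution `ψ ↦ ψ ∘ alHom`. -/
noncomputable def alDatum (D : ALData N q) (hq : q ≠ 0) :
    CosetDatum (gl (N * q)) (gl (N * q)) Unit :=
  CosetDatum.single (alGL D hq) (alHom D hq) (alGL_mul_gl_alHom D hq)

/-- Coset datum of the transfer `Hom(Γ₀(N q), A) → Hom(Γ₀(N), A)`. -/
noncomputable def corDatum (D : ALData N q) (hq : q.Prime) (hqN : ¬ q ∣ N) (hN : N ≠ 0) :
    haveI : NeZero q := ⟨hq.ne_zero⟩
    CosetDatum (gl (N * q)) (gl N) (OnePoint (ZMod q)) :=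
  CosetDatum.ofReduced (isReduced_corAlpha D hq hqN hN) (stable_corAlpha D hq hqN)

theorem corDatum_α (D : ALData N q) (hq : q.Prime) (hqN : ¬ q ∣ N) (hN : N ≠ 0) :
    (corDatum D hq hqN hN).α = corAlpha D := rfl

theorem corDatum_isReduced (D : ALData N q) (hq : q.Prime) (hqN : ¬ q ∣ N) (hN : N ≠ 0) :
    IsReduced (gl (N * q)) (corDatum D hq hqN hN).α := isReduced_corAlpha D hq hqN hN

variable (A : Type*) [AddCommGroup A]

/-- Restriction `Hom(Γ₀(N), A) → Hom(Γ₀(N q), A)`. -/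
noncomputable def res (N q : ℕ) :
    (Additive (Gamma0 N) →+ A) →+ (Additive (Gamma0 (N * q)) →+ A) :=
  (resDatum N q).op

/-- `cst φ = φ ∘ cHom`, the second degeneracy map `Hom(Γ₀(N), A) → Hom(Γ₀(N q), A)`. -/
noncomputable def cst (N : ℕ) {q : ℕ} (hq : q ≠ 0) :
    (Additive (Gamma0 N) →+ A) →+ (Additive (Gamma0 (N * q)) →+ A) :=
  (cstDatum N hq).op

/-- The Atkin–Lehner involution on `Hom(Γ₀(N q), A)`. -/
noncomputable def atkinLehner (D : ALData N q) (hq : q ≠ 0) :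
    (Additive (Gamma0 (N * q)) →+ A) →+ (Additive (Gamma0 (N * q)) →+ A) :=
  (alDatum D hq).op

/-- The transfer `Hom(Γ₀(N q), A) → Hom(Γ₀(N), A)` along the inclusion. -/
noncomputable def cor (D : ALData N q) (hq : q.Prime) (hqN : ¬ q ∣ N) (hN : N ≠ 0) :
    (Additive (Gamma0 (N * q)) →+ A) →+ (Additive (Gamma0 N) →+ A) :=
  haveI : NeZero q := ⟨hq.ne_zero⟩
  (corDatum D hq hqN hN).op

/-- Coset datum of the transfer along `cHom` (cosets `Γ₀(N q) W`, `Γ₀(N q) W r_j`). -/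
noncomputable def corcDatum (D : ALData N q) (hq : q.Prime) (hqN : ¬ q ∣ N) (hN : N ≠ 0) :
    haveI : NeZero q := ⟨hq.ne_zero⟩
    CosetDatum (gl (N * q)) (gl N) (Unit × OnePoint (ZMod q)) :=
  (alDatum D hq.ne_zero).comp (corDatum D hq hqN hN)

/-- The transfer `Hom(Γ₀(N q), A) → Hom(Γ₀(N), A)` along `cHom`. -/
noncomputable def corc (D : ALData N q) (hq : q.Prime) (hqN : ¬ q ∣ N) (hN : N ≠ 0) :
    (Additive (Gamma0 (N * q)) →+ A) →+ (Additive (Gamma0 N) →+ A) :=
  haveI : NeZero q := ⟨hq.ne_zero⟩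
  (corcDatum D hq hqN hN).op

variable {A}

theorem res_apply (φ : Additive (Gamma0 N) →+ A) :
    res A N q φ = φ.comp (MonoidHom.toAdditive (inclHom N q)) :=
  CosetDatum.single_op_apply _ _ _ φ

theorem res_apply_apply (φ : Additive (Gamma0 N) →+ A) (γ : Gamma0 (N * q)) :
    res A N q φ (Additive.ofMul γ) = φ (Additive.ofMul (inclHom N q γ)) := by
  rw [res_apply]; rfl

theorem cst_apply (hq : q ≠ 0) (φ : Additive (Gamma0 N) →+ A) :
    cst A N hq φ = φ.comp (MonoidHom.toAdditive (cHom hq)) :=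
  CosetDatum.single_op_apply _ _ _ φ

theorem cst_apply_apply (hq : q ≠ 0) (φ : Additive (Gamma0 N) →+ A) (γ : Gamma0 (N * q)) :
    cst A N hq φ (Additive.ofMul γ) = φ (Additive.ofMul (cHom hq γ)) := by
  rw [cst_apply]; rfl

theorem atkinLehner_apply (D : ALData N q) (hq : q ≠ 0) (ψ : Additive (Gamma0 (N * q)) →+ A) :
    atkinLehner A D hq ψ = ψ.comp (MonoidHom.toAdditive (alHom D hq)) :=
  CosetDatum.single_op_apply _ _ _ ψ

theorem atkinLehner_apply_apply (D : ALData N q) (hq : q ≠ 0)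
    (ψ : Additive (Gamma0 (N * q)) →+ A) (γ : Gamma0 (N * q)) :
    atkinLehner A D hq ψ (Additive.ofMul γ) = ψ (Additive.ofMul (alHom D hq γ)) := by
  rw [atkinLehner_apply]; rfl

/-- `corc = cor ∘ AL`. -/
theorem corc_eq (D : ALData N q) (hq : q.Prime) (hqN : ¬ q ∣ N) (hN : N ≠ 0)
    (ψ : Additive (Gamma0 (N * q)) →+ A) :
    corc A D hq hqN hN ψ = cor A D hq hqN hN (atkinLehner A D hq.ne_zero ψ) := by
  have : NeZero q := ⟨hq.ne_zero⟩
  exact CosetDatum.comp_op_apply (alDatum D hq.ne_zero) (corDatum D hq hqN hN) ψ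

/-- The Atkin–Lehner operator is an involution. -/
theorem atkinLehner_atkinLehner (D : ALData N q) (hq : q ≠ 0)
    (ψ : Additive (Gamma0 (N * q)) →+ A) :
    atkinLehner A D hq (atkinLehner A D hq ψ) = ψ := by
  refine AddMonoidHom.ext fun γ => ?_
  obtain ⟨γ, rfl⟩ := Additive.ofMul.surjective γ
  rw [atkinLehner_apply_apply, atkinLehner_apply_apply, alHom_alHom, hom_conj_eq]

/-- The element `r₀ = [[x, y],[N, q]] ∈ Γ₀(N)`, so that `W = r₀ · diag(q,1)`. -/
def r0 (D : ALData N q) : Gamma0 N := ⟨rj D 0, rj_mem_Gamma0 D 0⟩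

theorem alGL_eq_r0_mul (D : ALData N q) (hq : q ≠ 0) :
    alGL D hq = gl N (r0 D) * heckeDiagMatrix q := by
  ext a b
  rw [gl_apply]
  fin_cases a <;> fin_cases b <;>
    simp [Matrix.mul_apply, Fin.sum_univ_two, hq, r0, rj, mul_comm]

theorem inclHom_alHom (D : ALData N q) (hq : q ≠ 0) (γ : Gamma0 (N * q)) :
    inclHom N q (alHom D hq γ) = r0 D * cHom hq γ * (r0 D)⁻¹ := by
  apply gl_injective N
  have h1 := alGL_mul_gl_alHom D hq γ
  have h2 := heckeDiag_mul_gl_cHom hq γ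
  rw [alGL_eq_r0_mul, mul_assoc, h2, ← mul_assoc, ← mul_assoc] at h1
  have h3 := mul_right_cancel h1
  rw [gl_inclHom, map_mul, map_mul, map_inv, h3, mul_inv_cancel_right]

/-- `cst = AL ∘ res`. -/
theorem cst_eq_atkinLehner_res (D : ALData N q) (hq : q ≠ 0) (φ : Additive (Gamma0 N) →+ A) :
    cst A N hq φ = atkinLehner A D hq (res A N q φ) := by
  refine AddMonoidHom.ext fun γ => ?_
  obtain ⟨γ, rfl⟩ := Additive.ofMul.surjective γ
  rw [cst_apply_apply, atkinLehner_apply_apply, res_apply_apply, inclHom_alHom, hom_conj_eq]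

/-- `res = AL ∘ cst`. -/
theorem res_eq_atkinLehner_cst (D : ALData N q) (hq : q ≠ 0) (φ : Additive (Gamma0 N) →+ A) :
    res A N q φ = atkinLehner A D hq (cst A N hq φ) := by
  rw [cst_eq_atkinLehner_res D hq, atkinLehner_atkinLehner]

end data

end Fermat.Agent.S41.H65
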