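/-
S41 package B (degeneracy calculus), part 2: the identities
`cor ∘ res = q + 1 = corc ∘ cst`, `cor ∘ cst = T_q = corc ∘ res`.
-/
import Mathlib
import Fermat.Agent.S41.H65_DegDefs

set_option autoImplicit false

open CongruenceSubgroup Matrix.SpecialLinearGroup ModularForm
open scoped MatrixGroups
open P2MW.S_ModularForm_heckeT_slash_eq_self_of_mem_Gamma0.ModularForm.HeckeSlashInvariance

namespace Fermat.Agent.S41.H65

open Fermat.Agent.S41.H85 Fermat.Agent.S41.H72

variable {N q : ℕ} {A : Type*} [AddCommGroup A]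

/-- The trivial coset datum (one coset `Γ₀(N)`). -/
noncomputable def idDatum (N : ℕ) : CosetDatum (gl N) (gl N) Unit :=
  CosetDatum.single 1 (MonoidHom.id _) (fun γ => by rw [one_mul, mul_one]; rfl)

theorem idDatum_op (φ : Additive (Gamma0 N) →+ A) : (idDatum N).op φ = φ := by
  rw [idDatum, CosetDatum.single_op_apply]
  rfl

theorem isReduced_idDatum (N : ℕ) : IsReduced (gl N) (idDatum N).α where
  inj := gl_injective N
  distinct := fun _ _ _ _ => rfl

theorem card_onePoint_zmod (q : ℕ) [NeZero q] : Fintype.card (OnePoint (ZMod q)) = q + 1 := by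
  have : Fintype.card (OnePoint (ZMod q)) = Fintype.card (Option (ZMod q)) :=
    Fintype.card_congr (Equiv.refl _)
  rw [this, Fintype.card_option, ZMod.card]

/-- **`cor ∘ res = q + 1`.** -/
theorem cor_res (D : ALData N q) (hq : q.Prime) (hqN : ¬ q ∣ N) (hN : N ≠ 0)
    (φ : Additive (Gamma0 N) →+ A) :
    cor A D hq hqN hN (res A N q φ) = (q + 1) • φ := by
  classical
  have : NeZero q := ⟨hq.ne_zero⟩
  have h1 : cor A D hq hqN hN (res A N q φ)
      = ((resDatum N q).comp (corDatum D hq hqN hN)).op φ :=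
    (CosetDatum.comp_op_apply (resDatum N q) (corDatum D hq hqN hN) φ).symm
  rw [h1]
  have h2 := CosetDatum.op_eq_nsmul_of_fibers (A := A)
    ((resDatum N q).comp (corDatum D hq hqN hN)) (idDatum N) (isReduced_idDatum N)
    (fun _ => ()) (fun i => (corRep D i.2)⁻¹) (fun i => by
      show (1 : GL (Fin 2) ℝ) = gl N (corRep D i.2)⁻¹ * (1 * gl N (corRep D i.2))
      rw [one_mul, ← map_mul, inv_mul_cancel, map_one]) (q + 1) (fun _ => by
      rw [Finset.filter_true_of_mem (fun _ _ => rfl), Finset.card_univ, Fintype.card_prod,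
        Fintype.card_unit, one_mul, card_onePoint_zmod])
  rw [h2, AddMonoidHom.smul_apply, idDatum_op]

/-- The element `g₀ = [[1, -y],[-N, q x]] ∈ Γ₀(N)`. -/
def g0 (D : ALData N q) : Gamma0 N :=
  ⟨sl2 1 (-D.y) (-(N : ℤ)) (q * D.x) (by linear_combination D.h), by
    rw [mem_Gamma0_iff_dvd, sl2_apply_one_zero]
    exact (dvd_neg).mpr dvd_rfl⟩

theorem g0_coe (D : ALData N q) :
    ((g0 D : Gamma0 N) : SL(2, ℤ)) = sl2 1 (-D.y) (-(N : ℤ)) (q * D.x)
      (by linear_combination D.h) := rfl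

theorem heckeMatrix_eq_g0_mul (D : ALData N q) (hq : q ≠ 0) (j : ℕ) :
    heckeMatrix q j = gl N (g0 D) * (heckeDiagMatrix q * mapGL ℝ (rj D (j : ℤ))) := by
  have h := congrArg (Int.cast : ℤ → ℝ) D.h
  push_cast at h
  ext a b
  rw [gl_apply, g0_coe]
  fin_cases a <;> fin_cases b <;>
    simp [Matrix.mul_apply, Fin.sum_univ_two, hq, rj, Matrix.vecMul, dotProduct]
  · linear_combination -h
  · linear_combination -(j : ℝ) * h
  · ring
  · linear_combination -(q : ℝ) * h

/-- **`cor ∘ cst = T_q`.** -/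
theorem cor_cst (D : ALData N q) (hq : q.Prime) (hqN : ¬ q ∣ N) (hN : N ≠ 0)
    (φ : Additive (Gamma0 N) →+ A) :
    cor A D hq hqN hN (cst A N hq.ne_zero φ) = heckeTHom A hq hqN φ := by
  have : NeZero q := ⟨hq.ne_zero⟩
  have : Fact q.Prime := ⟨hq⟩
  have h1 : cor A D hq hqN hN (cst A N hq.ne_zero φ)
      = ((cstDatum N hq.ne_zero).comp (corDatum D hq hqN hN)).op φ :=
    (CosetDatum.comp_op_apply (cstDatum N hq.ne_zero) (corDatum D hq hqN hN) φ).symm
  rw [h1]
  have h2 := CosetDatum.op_eq_of_equiv (A := A)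
    ((cstDatum N hq.ne_zero).comp (corDatum D hq hqN hN)) (heckeTDatum N q hqN)
    (heckeTDatum_isReduced N q hqN) (Equiv.punitProd (OnePoint (ZMod q)))
    (fun i => i.2.elim 1 (fun _ => g0 D)) (fun i => by
      obtain ⟨u, x⟩ := i
      induction x using OnePoint.rec with
      | infty =>
        show heckeRep q OnePoint.infty = gl N 1 * (heckeDiagMatrix q * gl N (corRep D OnePoint.infty))
        rw [corRep_infty, map_one, one_mul, mul_one]
        rfl
      | coe j =>
        show heckeRep q (j : OnePoint (ZMod q))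
          = gl N (g0 D) * (heckeDiagMatrix q * gl N (corRep D (j : OnePoint (ZMod q))))
        rw [heckeRep_coe, gl_apply (g := corRep D _), corRep_coe_coe]
        exact heckeMatrix_eq_g0_mul D hq.ne_zero j.val)
  rw [h2]
  rfl

/-- **`corc ∘ cst = q + 1`.** -/
theorem corc_cst (D : ALData N q) (hq : q.Prime) (hqN : ¬ q ∣ N) (hN : N ≠ 0)
    (φ : Additive (Gamma0 N) →+ A) :
    corc A D hq hqN hN (cst A N hq.ne_zero φ) = (q + 1) • φ := by
  rw [corc_eq, cst_eq_atkinLehner_res D hq.ne_zero, atkinLehner_atkinLehner, cor_res]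

/-- **`corc ∘ res = T_q`.** -/
theorem corc_res (D : ALData N q) (hq : q.Prime) (hqN : ¬ q ∣ N) (hN : N ≠ 0)
    (φ : Additive (Gamma0 N) →+ A) :
    corc A D hq hqN hN (res A N q φ) = heckeTHom A hq hqN φ := by
  rw [corc_eq, ← cst_eq_atkinLehner_res D hq.ne_zero, cor_cst]

/-- The degeneracy map `α (φ, ψ) = res φ + cst ψ`. -/
noncomputable def degAlpha (A : Type*) [AddCommGroup A] (N : ℕ) {q : ℕ} (hq : q ≠ 0) :
    (Additive (Gamma0 N) →+ A) × (Additive (Gamma0 N) →+ A) →+
      (Additive (Gamma0 (N * q)) →+ A) :=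
  (res A N q).coprod (cst A N hq)

/-- The transfer map `β y = (cor y, corc y)`. -/
noncomputable def degBeta (A : Type*) [AddCommGroup A] (D : ALData N q) (hq : q.Prime)
    (hqN : ¬ q ∣ N) (hN : N ≠ 0) :
    (Additive (Gamma0 (N * q)) →+ A) →+
      (Additive (Gamma0 N) →+ A) × (Additive (Gamma0 N) →+ A) :=
  (cor A D hq hqN hN).prod (corc A D hq hqN hN)

theorem degAlpha_apply (hq : q ≠ 0) (x : (Additive (Gamma0 N) →+ A) × (Additive (Gamma0 N) →+ A)) :
    degAlpha A N hq x = res A N q x.1 + cst A N hq x.2 := rfl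

theorem degBeta_apply (D : ALData N q) (hq : q.Prime) (hqN : ¬ q ∣ N) (hN : N ≠ 0)
    (y : Additive (Gamma0 (N * q)) →+ A) :
    degBeta A D hq hqN hN y = (cor A D hq hqN hN y, corc A D hq hqN hN y) := rfl

/-- **`β ∘ α = [[q+1, T_q],[T_q, q+1]]`.** -/
theorem degBeta_degAlpha (D : ALData N q) (hq : q.Prime) (hqN : ¬ q ∣ N) (hN : N ≠ 0)
    (x : (Additive (Gamma0 N) →+ A) × (Additive (Gamma0 N) →+ A)) :
    degBeta A D hq hqN hN (degAlpha A N hq.ne_zero x)
      = ((q + 1) • x.1 + heckeTHom A hq hqN x.2, heckeTHom A hq hqN x.1 + (q + 1) • x.2) := by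
  rw [degAlpha_apply, degBeta_apply, map_add, map_add, cor_res, cor_cst, corc_res, corc_cst]

end Fermat.Agent.S41.H65
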