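import Fermat.Agent.S41.H66_LevelRaisingAlgebra

/-!
# S41 / step (5), part (B) (helper66): producing eigenvectors mod `p`

* `exists_eigenvector_finite` : a commutative ring `R` acting on a finite abelian group `V`,
  `χ : R →+* ZMod p`, `W` a stable subgroup such that every `r` killing `W` has `χ r = 0`
  (`ker χ ∈ Supp W`).  Then `W` contains a nonzero `χ`-eigenvector.
* `redEndHom p : End ℤ L →+* End ℤ (L ⧸ p L)`, `finite_quotient_pSub`.
* `exists_isEigenMod_mem` : for a finitely generated `ℤ`-module `L`, a `ρ`-stable submodule `K`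
  such that every `t` with `ρ t K ⊆ p L` has `χ t = 0` contains a `χ`-eigenvector mod `p`;
  special cases `exists_isEigenMod_of_modp_support` (`K = ⊤`) and `exists_isEigenMod_map_mem`
  (`K = Θ⁻¹(p L')`).
* `chi_eq_zero_of_forall_mem_pSub` : `ker ρ ≤ ker χ` and `ρ t L ⊆ p L` imply `χ t = 0`
  (Cayley-Hamilton).
* `exists_isEigenMod_of_ker_le` : `ker ρ ≤ ker χ` gives a `χ`-eigenvector mod `p` in `L`.
* `IsEigenMod.comap` : restriction of scalars.
-/

set_option autoImplicit false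

namespace Fermat.Agent.S41.H66

open Module

section FiniteOrder

variable {V : Type*} [AddCommGroup V] [Finite V]

/-- an endomorphism of a finite abelian group mapping the subgroup `W` onto itself has finite
order on `W`. -/
theorem exists_pow_apply_eq_self (W : Submodule ℤ V) (g : Module.End ℤ V)
    (hgW : ∀ w ∈ W, g w ∈ W) (hsurj : ∀ w ∈ W, ∃ u ∈ W, g u = w) :
    ∃ m : ℕ, 0 < m ∧ ∀ w ∈ W, (g ^ m) w = w := by
  have hsurj' : Function.Surjective (g.restrict hgW) := by
    rintro ⟨w, hw⟩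
    obtain ⟨u, hu, rfl⟩ := hsurj w hw
    exact ⟨⟨u, hu⟩, rfl⟩
  have hbij : Function.Bijective (g.restrict hgW) :=
    ⟨Finite.injective_iff_surjective.mpr hsurj', hsurj'⟩
  set σ : Equiv.Perm W := Equiv.ofBijective _ hbij with hσ
  obtain ⟨m, hm, hσm⟩ := isOfFinOrder_iff_pow_eq_one.mp (isOfFinOrder_of_finite σ)
  have key : ∀ (k : ℕ) (w : W), (((σ ^ k) w : W) : V) = (g ^ k) (w : V) := by
    intro k
    induction k with
    | zero => intro w; simp
    | succ k ih =>
      intro w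
      rw [pow_succ', pow_succ', Equiv.Perm.mul_apply, Module.End.mul_apply, ← ih]
      rfl
  refine ⟨m, hm, fun w hw => ?_⟩
  have := key m ⟨w, hw⟩
  rw [hσm] at this
  simpa using this.symm

end FiniteOrder

section FiniteEigen

variable {p : ℕ} [Fact p.Prime] {R : Type*} [CommRing R] (χ : R →+* ZMod p)
  {V : Type*} [AddCommGroup V] [Finite V] (ρ : R →+* Module.End ℤ V)

theorem exists_eigenvector_finite_aux :
    ∀ (n : ℕ) (W : Submodule ℤ V), (W : Set V).ncard = n → (∀ r, ∀ w ∈ W, ρ r w ∈ W) →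
      (∀ r, (∀ w ∈ W, ρ r w = 0) → χ r = 0) →
      ∃ v ∈ W, v ≠ 0 ∧ ∀ r, ρ r v = ((χ r).val : ℤ) • v := by
  intro n
  induction n using Nat.strong_induction_on with
  | _ n ih =>
  intro W hn hstab hann
  have hWne : W ≠ ⊥ := by
    intro h
    have h1 : χ 1 = 0 := hann 1 fun w hw => by
      rw [h] at hw
      rw [(Submodule.mem_bot ℤ).mp hw, map_zero]
    rw [map_one] at h1
    exact one_ne_zero h1
  by_cases hsc : ∀ r, ∀ w ∈ W, ρ r w = ((χ r).val : ℤ) • w
  · obtain ⟨v, hvW, hv0⟩ := Submodule.exists_mem_ne_zero_of_ne_bot hWne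
    exact ⟨v, hvW, hv0, fun r => hsc r v hvW⟩
  · push Not at hsc
    obtain ⟨r₀, w₁, hw₁W, hw₁⟩ := hsc
    set s : R := r₀ - (((χ r₀).val : ℤ) : R) with hs
    have hχs : χ s = 0 := by
      rw [hs, map_sub, map_intCast]
      push_cast
      rw [ZMod.natCast_zmod_val, sub_self]
    set g : Module.End ℤ V := ρ s with hg
    have hgapp : ∀ x, g x = ρ r₀ x - ((χ r₀).val : ℤ) • x := fun x => by
      rw [hg, hs, map_sub, map_intCast, LinearMap.sub_apply, Module.End.intCast_apply]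
    have hcomm : ∀ r x, g (ρ r x) = ρ r (g x) := by
      intro r x
      rw [hg, ← Module.End.mul_apply, ← Module.End.mul_apply, ← map_mul, ← map_mul, mul_comm]
    have hgW : ∀ w ∈ W, g w ∈ W := fun w hw => hstab s w hw
    have hgw₁ : g w₁ ≠ 0 := by rw [hgapp]; exact sub_ne_zero.mpr hw₁
    set W₁ : Submodule ℤ V := W ⊓ LinearMap.ker g with hW₁
    set W₂ : Submodule ℤ V := W.map g with hW₂
    have hW₁le : W₁ ≤ W := inf_le_left
    have hW₂le : W₂ ≤ W := by
      rintro _ ⟨u, hu, rfl⟩; exact hgW u hu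
    have hW₁lt : W₁ < W := by
      refine lt_of_le_of_ne hW₁le fun h => ?_
      have : w₁ ∈ W₁ := h ▸ hw₁W
      exact hgw₁ this.2
    have hstab₁ : ∀ r, ∀ w ∈ W₁, ρ r w ∈ W₁ := by
      intro r w hw
      refine ⟨hstab r w hw.1, ?_⟩
      show g (ρ r w) = 0
      rw [hcomm, LinearMap.mem_ker.mp hw.2, map_zero]
    have hstab₂ : ∀ r, ∀ w ∈ W₂, ρ r w ∈ W₂ := by
      rintro r _ ⟨u, hu, rfl⟩
      rw [← hcomm]
      exact Submodule.mem_map_of_mem (hstab r u hu)
    have hcard₁ : (W₁ : Set V).ncard < n := by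
      rw [← hn]
      exact Set.ncard_lt_ncard (SetLike.coe_ssubset_coe.mpr hW₁lt) (Set.toFinite _)
    by_cases h₁ : ∀ r, (∀ w ∈ W₁, ρ r w = 0) → χ r = 0
    · obtain ⟨v, hv, hv0, hμ⟩ := ih _ hcard₁ W₁ rfl hstab₁ h₁
      exact ⟨v, hW₁le hv, hv0, hμ⟩
    · push Not at h₁
      obtain ⟨r₁, hr₁, hr₁n⟩ := h₁
      have h₂ : ∀ r, (∀ w ∈ W₂, ρ r w = 0) → χ r = 0 := by
        intro r₂ hr₂
        have hmem : χ (r₁ * r₂) = 0 := by
          apply hann
          intro w hw
          rw [map_mul, Module.End.mul_apply]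
          apply hr₁
          refine ⟨hstab r₂ w hw, ?_⟩
          show g (ρ r₂ w) = 0
          rw [hcomm]
          exact hr₂ _ (Submodule.mem_map_of_mem hw)
        rw [map_mul] at hmem
        exact (mul_eq_zero.mp hmem).resolve_left hr₁n
      have hW₂lt : W₂ < W := by
        refine lt_of_le_of_ne hW₂le fun h => ?_
        obtain ⟨m, hm, hgm⟩ := exists_pow_apply_eq_self W g hgW (fun w hw => by
          rw [← h] at hw
          obtain ⟨u, hu, rfl⟩ := hw
          exact ⟨u, hu, rfl⟩)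
        have h0 : χ (s ^ m - 1) = 0 := by
          apply hann
          intro w hw
          rw [map_sub, map_pow, map_one, LinearMap.sub_apply, Module.End.one_apply, hgm w hw,
            sub_self]
        rw [map_sub, map_pow, hχs, zero_pow hm.ne', map_one, zero_sub, neg_eq_zero] at h0
        exact one_ne_zero h0
      have hcard₂ : (W₂ : Set V).ncard < n := by
        rw [← hn]
        exact Set.ncard_lt_ncard (SetLike.coe_ssubset_coe.mpr hW₂lt) (Set.toFinite _)
      obtain ⟨v, hv, hv0, hμ⟩ := ih _ hcard₂ W₂ rfl hstab₂ h₂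
      exact ⟨v, hW₂le hv, hv0, hμ⟩

/-- **Eigenvectors from support** (finite version): if every `r` killing the `ρ`-stable subgroup
`W` of the finite abelian group `V` has `χ r = 0`, then `W` contains a nonzero `χ`-eigenvector. -/
theorem exists_eigenvector_finite (W : Submodule ℤ V) (hstab : ∀ r, ∀ w ∈ W, ρ r w ∈ W)
    (hann : ∀ r, (∀ w ∈ W, ρ r w = 0) → χ r = 0) :
    ∃ v ∈ W, v ≠ 0 ∧ ∀ r, ρ r v = ((χ r).val : ℤ) • v :=
  exists_eigenvector_finite_aux χ ρ _ W rfl hstab hann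

end FiniteEigen

section Reduction

variable (p : ℕ) {L : Type*} [AddCommGroup L]

/-- reduction mod `p` of endomorphisms, as a ring homomorphism -/
def redEndHom : Module.End ℤ L →+* Module.End ℤ (L ⧸ pSub p L) where
  toFun f := (pSub p L).mapQ (pSub p L) f (fun _ hx => map_mem_pSub f hx)
  map_one' := by
    ext x
    simp
  map_mul' f g := by
    ext x
    simp
  map_zero' := by
    ext x
    simp
  map_add' f g := by
    ext x
    simp

@[simp]
theorem redEndHom_mk (f : Module.End ℤ L) (x : L) :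
    redEndHom p f (Submodule.Quotient.mk x) = Submodule.Quotient.mk (f x) := rfl

theorem mk_eq_zero_iff {x : L} :
    (Submodule.Quotient.mk x : L ⧸ pSub p L) = 0 ↔ x ∈ pSub p L :=
  Submodule.Quotient.mk_eq_zero _

theorem finite_quotient_pSub [Module.Finite ℤ L] [NeZero p] : Finite (L ⧸ pSub p L) := by
  apply Module.finite_of_fg_torsion
  intro v
  induction v using Submodule.Quotient.induction_on with
  | _ x =>
  refine ⟨⟨(p : ℤ), ?_⟩, ?_⟩
  · simp [mem_nonZeroDivisors_iff_ne_zero, NeZero.ne p]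
  · show (p : ℤ) • (Submodule.Quotient.mk x : L ⧸ pSub p L) = 0
    rw [← Submodule.Quotient.mk_smul, mk_eq_zero_iff]
    exact smul_mem_pSub x

end Reduction

section Producer

variable {p : ℕ} [Fact p.Prime] {R : Type*} [CommRing R] (χ : R →+* ZMod p)
  {L : Type*} [AddCommGroup L] (ρ : R →+* Module.End ℤ L)

/-- **Eigenvectors mod `p` from support.**  `L` a finitely generated abelian group, `K` a
`ρ`-stable subgroup such that every `t` with `ρ t K ⊆ p L` has `χ t = 0`.  Then `K` contains a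
`χ`-eigenvector mod `p`. -/
theorem exists_isEigenMod_mem [Module.Finite ℤ L] (K : Submodule ℤ L)
    (hK : ∀ t, ∀ x ∈ K, ρ t x ∈ K)
    (hsupp : ∀ t, (∀ x ∈ K, ρ t x ∈ pSub p L) → χ t = 0) : ∃ x ∈ K, IsEigenMod χ ρ x := by
  have : NeZero p := ⟨(Fact.out : p.Prime).ne_zero⟩
  have : Finite (L ⧸ pSub p L) := finite_quotient_pSub p
  set ρbar : R →+* Module.End ℤ (L ⧸ pSub p L) := (redEndHom p).comp ρ with hρbar
  set W : Submodule ℤ (L ⧸ pSub p L) := K.map (pSub p L).mkQ with hW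
  have hstab : ∀ r, ∀ w ∈ W, ρbar r w ∈ W := by
    rintro r _ ⟨x, hx, rfl⟩
    exact ⟨ρ r x, hK r x hx, rfl⟩
  have hann : ∀ r, (∀ w ∈ W, ρbar r w = 0) → χ r = 0 := by
    intro r hr
    apply hsupp
    intro x hx
    have := hr _ (Submodule.mem_map_of_mem (f := (pSub p L).mkQ) hx)
    exact (mk_eq_zero_iff p).mp this
  obtain ⟨v, ⟨x, hxK, rfl⟩, hv0, hv⟩ := exists_eigenvector_finite χ ρbar W hstab hann
  refine ⟨x, hxK, fun hx => hv0 ((mk_eq_zero_iff p).mpr hx), fun t => ?_⟩
  rw [← mk_eq_zero_iff p, Submodule.Quotient.mk_sub, Submodule.Quotient.mk_smul, sub_eq_zero]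
  exact hv t

/-- the case `K = ⊤`. -/
theorem exists_isEigenMod_of_modp_support [Module.Finite ℤ L]
    (hsupp : ∀ t, (∀ x, ρ t x ∈ pSub p L) → χ t = 0) : ∃ x, IsEigenMod χ ρ x := by
  obtain ⟨x, -, hx⟩ := exists_isEigenMod_mem χ ρ ⊤ (fun _ _ _ => Submodule.mem_top)
    (fun t ht => hsupp t fun x => ht x Submodule.mem_top)
  exact ⟨x, hx⟩

/-- the case `K = Θ⁻¹(p L')` for an equivariant map `Θ`. -/
theorem exists_isEigenMod_map_mem [Module.Finite ℤ L] {L' : Type*} [AddCommGroup L']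
    (ρ' : R →+* Module.End ℤ L') (Θ : L →ₗ[ℤ] L') (hΘ : ∀ t x, Θ (ρ t x) = ρ' t (Θ x))
    (hsupp : ∀ t, (∀ x, Θ x ∈ pSub p L' → ρ t x ∈ pSub p L) → χ t = 0) :
    ∃ x, IsEigenMod χ ρ x ∧ Θ x ∈ pSub p L' := by
  obtain ⟨x, hxK, hx⟩ := exists_isEigenMod_mem χ ρ ((pSub p L').comap Θ)
    (fun t x hx => by
      rw [Submodule.mem_comap] at hx ⊢
      rw [hΘ]
      exact map_mem_pSub (ρ' t) hx)
    (fun t ht => hsupp t fun x hx => ht x hx)
  exact ⟨x, hx, hxK⟩

end Producer

section CH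

open Polynomial

variable {p : ℕ} [Fact p.Prime] {R : Type*} [CommRing R] (χ : R →+* ZMod p)
  {L : Type*} [AddCommGroup L] (ρ : R →+* Module.End ℤ L)

theorem pSub_eq_span_smul_top (p : ℕ) (L : Type*) [AddCommGroup L] :
    pSub p L = (Ideal.span {(p : ℤ)} : Ideal ℤ) • (⊤ : Submodule ℤ L) := by
  rw [Submodule.ideal_span_singleton_smul]
  ext x
  rw [mem_pSub, Submodule.mem_smul_pointwise_iff_exists]
  simp

/-- **Cayley-Hamilton**: if `ker ρ ≤ ker χ` and `ρ t L ⊆ p L` for the finitely generated abelian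
group `L`, then `χ t = 0`. -/
theorem chi_eq_zero_of_forall_mem_pSub [Module.Finite ℤ L] (hker : ∀ t, ρ t = 0 → χ t = 0)
    (t : R) (ht : ∀ x, ρ t x ∈ pSub p L) : χ t = 0 := by
  have hrange : LinearMap.range (ρ t) ≤ (Ideal.span {(p : ℤ)} : Ideal ℤ) • (⊤ : Submodule ℤ L) := by
    rw [← pSub_eq_span_smul_top]
    rintro _ ⟨x, rfl⟩
    exact ht x
  obtain ⟨P, hmonic, -, hcoeff, hP⟩ :=
    LinearMap.exists_monic_and_natDegree_eq_and_coeff_mem_pow_and_aeval_eq_zero ℤ (ρ t)
      (Ideal.span {(p : ℤ)}) hrange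
  -- the element `P(t)` of `R`
  have h1 : ρ (aeval t P) = aeval (ρ t) P := by
    rw [aeval_def, aeval_def, hom_eval₂]
    congr 1
    exact Subsingleton.elim _ _
  have h2 : χ (aeval t P) = 0 := hker _ (by rw [h1, hP])
  have h3 : χ (aeval t P) = (P.map (Int.castRingHom (ZMod p))).eval (χ t) := by
    rw [aeval_def, hom_eval₂, eval_map]
    congr 1
    exact Subsingleton.elim _ _
  have h4 : P.map (Int.castRingHom (ZMod p)) = X ^ P.natDegree := by
    ext k
    rw [coeff_map, coeff_X_pow]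
    split_ifs with hk
    · rw [hk, hmonic.coeff_natDegree, map_one]
    · rcases lt_or_gt_of_ne hk with hlt | hgt
      · have hmem := hcoeff k
        have hle : (Ideal.span {(p : ℤ)} : Ideal ℤ) ^ (P.natDegree - k) ≤ Ideal.span {(p : ℤ)} :=
          Ideal.pow_le_self (Nat.sub_ne_zero_of_lt hlt)
        have hdvd : (p : ℤ) ∣ P.coeff k := Ideal.mem_span_singleton.mp (hle hmem)
        rw [eq_intCast, ZMod.intCast_zmod_eq_zero_iff_dvd]
        exact hdvd
      · rw [coeff_eq_zero_of_natDegree_lt hgt, map_zero]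
  rw [h3, h4, eval_pow, eval_X] at h2
  exact eq_zero_of_pow_eq_zero h2

end CH


section Corollaries

variable {p : ℕ} [Fact p.Prime] {R : Type*} [CommRing R] (χ : R →+* ZMod p)
  {L : Type*} [AddCommGroup L] (ρ : R →+* Module.End ℤ L)

/-- **Eigenvectors mod `p` from `ker ρ ≤ ker χ`.** -/
theorem exists_isEigenMod_of_ker_le [Module.Finite ℤ L] (hker : ∀ t, ρ t = 0 → χ t = 0) :
    ∃ x, IsEigenMod χ ρ x :=
  exists_isEigenMod_of_modp_support χ ρ (chi_eq_zero_of_forall_mem_pSub χ ρ hker)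

variable {χ ρ}

/-- restriction of scalars along a ring homomorphism `ι : R' → R`. -/
theorem IsEigenMod.comap {R' : Type*} [CommRing R'] (ι : R' →+* R) {x : L}
    (hx : IsEigenMod χ ρ x) : IsEigenMod (χ.comp ι) (ρ.comp ι) x :=
  ⟨hx.1, fun t => hx.2 (ι t)⟩

end Corollaries

end Fermat.Agent.S41.H66
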