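/-
S41 (E0), second half: the `𝔽_p`-rational residual character of a normalised eigenform on a
polynomial Hecke ring, for any family of Hecke generators whose eigenvalues are congruent to
integers modulo a maximal ideal `𝔪 ∋ p` of `integralClosure ℤ ℂ`; the support hypothesis
`hker` consumed by `H66.exists_isEigenMod_of_ker_le`.
-/
import Mathlib
import Fermat.Agent.S41.H85_EigenDict
import Fermat.Agent.S41.H66_EigenProducer

set_option autoImplicit false

open CongruenceSubgroup ModularFormClass UpperHalfPlane ModularCurve ModularCurve.Period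

namespace Fermat.Agent.S41.H85

section residual

variable {N : ℕ} [NeZero N] {f : CuspForm (Gamma0 N) 2}

/-- The eigencharacter with values in the ring of algebraic integers. -/
noncomputable def eigenCharInt (hf : f.IsNormalizedEigenform) (S : Set ℕ) :
    CuspForm.heckeAlgebra N 2 S →+* integralClosure ℤ ℂ :=
  (eigenChar hf S).codRestrict (integralClosure ℤ ℂ) (isIntegral_eigenChar hf S)

@[simp] theorem coe_eigenCharInt (hf : f.IsNormalizedEigenform) (S : Set ℕ)
    (t : CuspForm.heckeAlgebra N 2 S) :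
    ((eigenCharInt hf S t : integralClosure ℤ ℂ) : ℂ) = eigenChar hf S t := rfl

variable {σ : Type*} {S : Set ℕ}

/-- The polynomial Hecke ring on a family of generators. -/
noncomputable def polyToHecke (gen : σ → CuspForm.heckeAlgebra N 2 S) :
    MvPolynomial σ ℤ →+* CuspForm.heckeAlgebra N 2 S :=
  (MvPolynomial.aeval gen : MvPolynomial σ ℤ →ₐ[ℤ] CuspForm.heckeAlgebra N 2 S).toRingHom

@[simp] theorem polyToHecke_X (gen : σ → CuspForm.heckeAlgebra N 2 S) (i : σ) :
    polyToHecke gen (MvPolynomial.X i) = gen i := by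
  simp [polyToHecke]

/-- The residual character: evaluation at integers, reduced modulo `p`. -/
noncomputable def residualChar (p : ℕ) (a : σ → ℤ) : MvPolynomial σ ℤ →+* ZMod p :=
  MvPolynomial.eval₂Hom (Int.castRingHom (ZMod p)) (fun i => ((a i : ℤ) : ZMod p))

@[simp] theorem residualChar_X (p : ℕ) (a : σ → ℤ) (i : σ) :
    residualChar p a (MvPolynomial.X i) = ((a i : ℤ) : ZMod p) := by
  simp [residualChar]

theorem residualChar_eq_eval (p : ℕ) (a : σ → ℤ) (t : MvPolynomial σ ℤ) :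
    residualChar p a t = ((MvPolynomial.eval a t : ℤ) : ZMod p) := by
  have h : residualChar p a = (Int.castRingHom (ZMod p)).comp (MvPolynomial.eval a) := by
    refine MvPolynomial.ringHom_ext (fun n => ?_) (fun i => ?_)
    · simp [residualChar]
    · simp [residualChar]
  rw [h]; rfl

theorem residualChar_surjective (p : ℕ) (a : σ → ℤ) :
    Function.Surjective (residualChar p a) := by
  intro x
  obtain ⟨n, rfl⟩ := ZMod.intCast_surjective x
  exact ⟨MvPolynomial.C n, by simp [residualChar]⟩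

variable (hf : f.IsNormalizedEigenform) {p : ℕ} [Fact p.Prime]
  (𝔪 : Ideal (integralClosure ℤ ℂ)) [h𝔪 : 𝔪.IsMaximal]

include h𝔪 in
/-- **Congruence of the eigencharacter with the residual character.** -/
theorem eigenCharInt_sub_mem (hp : (p : integralClosure ℤ ℂ) ∈ 𝔪)
    (gen : σ → CuspForm.heckeAlgebra N 2 S) (a : σ → ℤ)
    (hcong : ∀ i, eigenCharInt hf S (gen i) - ((a i : ℤ) : integralClosure ℤ ℂ) ∈ 𝔪)
    (t : MvPolynomial σ ℤ) (c : ℤ) (hc : (c : ZMod p) = residualChar p a t) :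
    eigenCharInt hf S (polyToHecke gen t) - ((c : ℤ) : integralClosure ℤ ℂ) ∈ 𝔪 := by
  -- the two ring homs `MvPolynomial σ ℤ → 𝒪/𝔪`
  let κ := integralClosure ℤ ℂ ⧸ 𝔪
  let _ : Field κ := Ideal.Quotient.field 𝔪
  have hpκ : ((p : ℕ) : κ) = 0 := by
    have : (Ideal.Quotient.mk 𝔪) (p : integralClosure ℤ ℂ) = 0 :=
      Ideal.Quotient.eq_zero_iff_mem.mpr hp
    simpa using this
  have : CharP κ p := (CharP.charP_iff_prime_eq_zero (Fact.out : p.Prime)).mpr hpκ
  let ι : ZMod p →+* κ := ZMod.castHom (dvd_refl p) κ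
  let r1 : MvPolynomial σ ℤ →+* κ :=
    (Ideal.Quotient.mk 𝔪).comp ((eigenCharInt hf S).comp (polyToHecke gen))
  let r2 : MvPolynomial σ ℤ →+* κ := ι.comp (residualChar p a)
  have h12 : r1 = r2 := by
    refine MvPolynomial.ringHom_ext (fun n => ?_) (fun i => ?_)
    · simp [r1, r2, ι]
    · simp only [r1, r2, RingHom.comp_apply, polyToHecke_X, residualChar_X, map_intCast]
      rw [← map_intCast (Ideal.Quotient.mk 𝔪), Ideal.Quotient.eq]
      exact hcong i
  have h1 := congrArg (fun r : MvPolynomial σ ℤ →+* κ => r t) h12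
  simp only [r1, r2, RingHom.comp_apply, ← hc, map_intCast] at h1
  rw [← map_intCast (Ideal.Quotient.mk 𝔪), Ideal.Quotient.eq] at h1
  exact h1

include h𝔪 in
/-- If the eigencharacter kills `t`, so does the residual character. -/
theorem residualChar_eq_zero_of_eigenChar_eq_zero (hp : (p : integralClosure ℤ ℂ) ∈ 𝔪)
    (gen : σ → CuspForm.heckeAlgebra N 2 S) (a : σ → ℤ)
    (hcong : ∀ i, eigenCharInt hf S (gen i) - ((a i : ℤ) : integralClosure ℤ ℂ) ∈ 𝔪)
    (t : MvPolynomial σ ℤ) (ht : eigenChar hf S (polyToHecke gen t) = 0) :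
    residualChar p a t = 0 := by
  obtain ⟨c, hc⟩ := ZMod.intCast_surjective (residualChar p a t)
  have h1 := eigenCharInt_sub_mem hf 𝔪 hp gen a hcong t c hc
  have h0 : eigenCharInt hf S (polyToHecke gen t) = 0 := Subtype.ext ht
  rw [h0, zero_sub, neg_mem_iff] at h1
  -- `c ∈ 𝔪 ∩ ℤ = (p)`
  rw [← hc, ZMod.intCast_zmod_eq_zero_iff_dvd]
  by_contra hnd
  have hcop : IsCoprime (c : ℤ) (p : ℤ) :=
    ((Nat.prime_iff_prime_int.mp (Fact.out : p.Prime)).coprime_iff_not_dvd.mpr hnd).symm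
  obtain ⟨u, v, huv⟩ := hcop
  have h1' : ((u * c + v * p : ℤ) : integralClosure ℤ ℂ) ∈ 𝔪 := by
    push_cast
    exact 𝔪.add_mem (𝔪.mul_mem_left _ h1) (𝔪.mul_mem_left _ (by simpa using hp))
  rw [huv, Int.cast_one] at h1'
  exact h𝔪.ne_top ((Ideal.eq_top_iff_one 𝔪).mpr h1')

include h𝔪 in
/-- **The support hypothesis of `H66.exists_isEigenMod_of_ker_le`** for the integral Hecke
module `L_N`: a Hecke polynomial acting as `0` on `L_N` is killed by the residual character. -/
theorem residualChar_eq_zero_of_cohHeckeRep_eq_zero (hp : (p : integralClosure ℤ ℂ) ∈ 𝔪)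
    (gen : σ → CuspForm.heckeAlgebra N 2 S) (a : σ → ℤ)
    (hcong : ∀ i, eigenCharInt hf S (gen i) - ((a i : ℤ) : integralClosure ℤ ℂ) ∈ 𝔪)
    (t : MvPolynomial σ ℤ) (ht : ((cohHeckeRep N S).comp (polyToHecke gen)) t = 0) :
    residualChar p a t = 0 := by
  refine residualChar_eq_zero_of_eigenChar_eq_zero hf 𝔪 hp gen a hcong t ?_
  have : polyToHecke gen t = 0 := cohHeckeRep_injective (by rw [map_zero]; exact ht)
  rw [this, map_zero]

omit [Fact p.Prime] in
include h𝔪 in
/-- The sign: `b² ≡ c² (mod 𝔪)` implies `b ≡ ± c (mod 𝔪)`. -/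
theorem exists_sign_of_sq_sub_sq_mem {b c : integralClosure ℤ ℂ} (h : b ^ 2 - c ^ 2 ∈ 𝔪) :
    ∃ ε : ℤ, (ε = 1 ∨ ε = -1) ∧ b - (ε : integralClosure ℤ ℂ) * c ∈ 𝔪 := by
  have h' : (b - c) * (b + c) ∈ 𝔪 := by
    have : (b - c) * (b + c) = b ^ 2 - c ^ 2 := by ring
    rw [this]; exact h
  rcases h𝔪.isPrime.mem_or_mem h' with h1 | h1
  · exact ⟨1, Or.inl rfl, by simpa using h1⟩
  · exact ⟨-1, Or.inr rfl, by simpa [sub_neg_eq_add] using h1⟩

include hf h𝔪 in
/-- **E0 for level raising.** From a normalised eigenform `f` of level `N` congruent modulo `𝔪`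
to an integer system `ap` on a set `G` of primes not dividing `N`, and with
`a_q(f)² ≡ (q+1)² (mod 𝔪)`: there are a sign `ε` and a class `v ∈ L_N` which is an eigenvector
modulo `p` of `T_l` (`l ∈ G`) with eigenvalue `ap l` and of `T_q` with eigenvalue `ε (q + 1)`. -/
theorem exists_isEigenMod_of_congruence (hp : (p : integralClosure ℤ ℂ) ∈ 𝔪)
    {q : ℕ} (hq : q.Prime) (hqN : ¬ q ∣ N) (G : Set ℕ) (hG : ∀ l ∈ G, l.Prime ∧ ¬ l ∣ N)
    (ap : ℕ → ℤ)
    (hcong : ∀ l ∈ G, ∃ b : integralClosure ℤ ℂ, (b : ℂ) = qCoeff f l ∧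
      b - ((ap l : ℤ) : integralClosure ℤ ℂ) ∈ 𝔪)
    (hLR : ∃ b : integralClosure ℤ ℂ, (b : ℂ) = qCoeff f q ∧
      b ^ 2 - ((q : integralClosure ℤ ℂ) + 1) ^ 2 ∈ 𝔪) :
    ∃ ε : ℤ, (ε = 1 ∨ ε = -1) ∧ ∃ v : parabolicHoms ℤ (Gamma0 N) ℤ,
      Fermat.Agent.S41.H66.IsEigenMod
        (residualChar p (fun i : Option G => i.elim (ε * ((q : ℤ) + 1)) (fun l => ap l)))
        ((cohHeckeRep N ∅).comp (polyToHecke (fun i : Option G =>
          i.elim (CuspForm.heckeAlgebra.T hq hqN (Set.notMem_empty q))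
            (fun l => CuspForm.heckeAlgebra.T (hG l l.2).1 (hG l l.2).2 (Set.notMem_empty _))))) v := by
  obtain ⟨b, hb, hb2⟩ := hLR
  obtain ⟨ε, hε, hεb⟩ := exists_sign_of_sq_sub_sq_mem 𝔪 hb2
  refine ⟨ε, hε, ?_⟩
  refine Fermat.Agent.S41.H66.exists_isEigenMod_of_ker_le _ _ fun t ht => ?_
  refine residualChar_eq_zero_of_cohHeckeRep_eq_zero hf 𝔪 hp _ _ (fun i => ?_) t ht
  cases i with
  | none =>
    have h1 : eigenCharInt hf ∅ (CuspForm.heckeAlgebra.T hq hqN (Set.notMem_empty q)) = b := by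
      apply Subtype.ext
      rw [coe_eigenCharInt, eigenChar_T, hb]
    simp only [Option.elim_none]
    rw [h1]
    push_cast
    exact hεb
  | some l =>
    obtain ⟨b', hb', hb'2⟩ := hcong l l.2
    have h1 : eigenCharInt hf ∅
        (CuspForm.heckeAlgebra.T (hG l l.2).1 (hG l l.2).2 (Set.notMem_empty _)) = b' := by
      apply Subtype.ext
      rw [coe_eigenCharInt, eigenChar_T, hb']
    simp only [Option.elim_some]
    rw [h1]
    exact hb'2

end residual

end Fermat.Agent.S41.H85
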