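import Mathlib

/-!
# S41 / step (5) (helper66): the abstract algebra of level raising

Everything is done elementwise modulo `p L` on `ℤ`-modules `L` (the eigensystem coming from an
elliptic curve over `ℚ` is `𝔽_p`-rational), so no tensor products, localisations or duality are
needed.

* `pSub p L` : the subgroup `p L`.
* `IsEigenMod p χ ρ x` : `x ∉ p L` and `ρ t x ≡ χ(t) x  (mod p L)` for all `t`.
* `exists_eigen_in_ker` : Ihara's lemma mod `p` (for `α`), its dual (for `β = αᵗ`) and a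
  `χ`-eigenvector `x` mod `p` with `β (α x) ≡ 0` give a `χ`-eigenvector mod `p` inside `ker β`.
* `annihilator_le_ker` : hence every `t` killing `ker β` has `χ t = 0`
  (`𝔪 = ker χ` is in the support of the `q`-new lattice).
-/

set_option autoImplicit false

namespace Fermat.Agent.S41.H66

open Module

section Basic

variable (p : ℕ) (L : Type*) [AddCommGroup L]

/-- the subgroup `p L` of an abelian group `L` -/
def pSub : Submodule ℤ L := LinearMap.range (LinearMap.lsmul ℤ L (p : ℤ))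

variable {p L}

theorem mem_pSub {x : L} : x ∈ pSub p L ↔ ∃ y : L, (p : ℤ) • y = x := by
  simp [pSub, LinearMap.mem_range]

theorem smul_mem_pSub (y : L) : (p : ℤ) • y ∈ pSub p L := mem_pSub.mpr ⟨y, rfl⟩

theorem map_mem_pSub {L' : Type*} [AddCommGroup L'] (f : L →ₗ[ℤ] L') {x : L}
    (hx : x ∈ pSub p L) : f x ∈ pSub p L' := by
  obtain ⟨y, rfl⟩ := mem_pSub.mp hx
  rw [map_smul]
  exact smul_mem_pSub _

/-- if `c` is prime to `p` and `c x ∈ p L` then `x ∈ p L`. -/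
theorem mem_pSub_of_smul_mem [Fact p.Prime] {c : ℤ} (hc : (c : ZMod p) ≠ 0) {x : L}
    (hx : c • x ∈ pSub p L) : x ∈ pSub p L := by
  have hp : Prime (p : ℤ) := Nat.prime_iff_prime_int.mp Fact.out
  have hnd : ¬ (p : ℤ) ∣ c := fun h => hc ((ZMod.intCast_zmod_eq_zero_iff_dvd c p).mpr h)
  have hcop : IsCoprime (p : ℤ) c := (hp.irreducible.coprime_iff_not_dvd).mpr hnd
  obtain ⟨u, v, huv⟩ := hcop
  have : x = (u * (p : ℤ)) • x + (v * c) • x := by
    rw [← add_smul, huv, one_smul]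
  rw [this]
  refine (pSub p L).add_mem ?_ ?_
  · rw [mul_comm, mul_smul]
    exact smul_mem_pSub _
  · rw [mul_smul]
    exact (pSub p L).smul_mem v hx

end Basic

section Eigen

variable {p : ℕ} {R : Type*} [CommRing R] (χ : R →+* ZMod p) {L : Type*} [AddCommGroup L]
  (ρ : R →+* Module.End ℤ L)

/-- `x` is a `χ`-eigenvector modulo `p`: `x ∉ p L` and `ρ t x ≡ χ(t) x` modulo `p L`. -/
def IsEigenMod (x : L) : Prop :=
  x ∉ pSub p L ∧ ∀ t : R, ρ t x - ((χ t).val : ℤ) • x ∈ pSub p L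

variable {χ ρ}

/-- the congruence `ρ t x ≡ c x` for every integer `c` lifting `χ t`. -/
theorem IsEigenMod.sub_mem [NeZero p] {x : L} (hx : IsEigenMod χ ρ x) (t : R) {c : ℤ}
    (hc : (c : ZMod p) = χ t) : ρ t x - c • x ∈ pSub p L := by
  have h1 := hx.2 t
  have h2 : (((χ t).val : ℤ) - c) • x ∈ pSub p L := by
    have hd : (p : ℤ) ∣ ((χ t).val : ℤ) - c := by
      rw [← ZMod.intCast_zmod_eq_zero_iff_dvd]
      push_cast
      rw [ZMod.natCast_zmod_val, hc, sub_self]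
    obtain ⟨e, he⟩ := hd
    rw [he, mul_smul]
    exact smul_mem_pSub _
  have : ρ t x - c • x = (ρ t x - ((χ t).val : ℤ) • x) + (((χ t).val : ℤ) - c) • x := by
    rw [sub_smul]; abel
  rw [this]
  exact (pSub p L).add_mem h1 h2

/-- an operator `t` with `χ t ≠ 0` cannot send a `χ`-eigenvector mod `p` into `p L`. -/
theorem IsEigenMod.not_mem [Fact p.Prime] {x : L} (hx : IsEigenMod χ ρ x) {t : R}
    (ht : χ t ≠ 0) : ρ t x ∉ pSub p L := by
  intro h
  have h1 := hx.2 t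
  have h2 : ((χ t).val : ℤ) • x ∈ pSub p L := by
    have := (pSub p L).sub_mem h h1
    simpa using this
  have hc : (((χ t).val : ℤ) : ZMod p) ≠ 0 := by
    push_cast
    rw [ZMod.natCast_zmod_val]
    exact ht
  exact hx.1 (mem_pSub_of_smul_mem hc h2)

/-- equivariant maps send eigenvectors mod `p` to eigenvectors mod `p`, if the image is not in
`p L'`. -/
theorem IsEigenMod.map {L' : Type*} [AddCommGroup L'] {ρ' : R →+* Module.End ℤ L'}
    (f : L →ₗ[ℤ] L') (hf : ∀ t x, f (ρ t x) = ρ' t (f x)) {x : L} (hx : IsEigenMod χ ρ x)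
    (hfx : f x ∉ pSub p L') : IsEigenMod χ ρ' (f x) := by
  refine ⟨hfx, fun t => ?_⟩
  have := map_mem_pSub f (hx.2 t)
  rwa [map_sub, map_smul, hf] at this

/-- `ρ s` preserves the eigen-congruences. -/
theorem IsEigenMod.apply [Fact p.Prime] {x : L} (hx : IsEigenMod χ ρ x) {s : R}
    (hs : χ s ≠ 0) : IsEigenMod χ ρ (ρ s x) := by
  refine ⟨hx.not_mem hs, fun t => ?_⟩
  have := map_mem_pSub (ρ s) (hx.2 t)
  rw [map_sub, map_smul] at this
  have hcomm : ρ s (ρ t x) = ρ t (ρ s x) := by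
    rw [← Module.End.mul_apply, ← Module.End.mul_apply, ← map_mul, ← map_mul, mul_comm]
  rwa [hcomm] at this

/-- changing an eigenvector mod `p` by an element of `p L`. -/
theorem IsEigenMod.add_mem {x y : L} (hx : IsEigenMod χ ρ x) (hy : y ∈ pSub p L) :
    IsEigenMod χ ρ (x + y) := by
  refine ⟨fun h => hx.1 ?_, fun t => ?_⟩
  · have := (pSub p L).sub_mem h hy
    simpa using this
  · have h1 := hx.2 t
    have h2 : ρ t y - ((χ t).val : ℤ) • y ∈ pSub p L :=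
      (pSub p L).sub_mem (map_mem_pSub (ρ t) hy) ((pSub p L).smul_mem _ hy)
    have : ρ t (x + y) - ((χ t).val : ℤ) • (x + y) =
        (ρ t x - ((χ t).val : ℤ) • x) + (ρ t y - ((χ t).val : ℤ) • y) := by
      rw [map_add, smul_add]; abel
    rw [this]
    exact (pSub p L).add_mem h1 h2

end Eigen

section Main

variable {p : ℕ} [Fact p.Prime] {R : Type*} [CommRing R] (χ : R →+* ZMod p)
  {L₁ L₂ : Type*} [AddCommGroup L₁] [AddCommGroup L₂]
  (ρ₁ : R →+* Module.End ℤ L₁) (ρ₂ : R →+* Module.End ℤ L₂)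
  (α : L₁ →ₗ[ℤ] L₂) (β : L₂ →ₗ[ℤ] L₁)

/-- **Level raising, abstract form.**  `α : L₁ → L₂` and `β : L₂ → L₁` are equivariant for the
commutative ring `R`; `t₁` (with `χ t₁ ≠ 0`) kills the kernel of `α` mod `p` (Ihara's lemma) and
`t₂` (with `χ t₂ ≠ 0`) kills the `p`-torsion of the cokernel of `β` (dual Ihara).  Then every
`χ`-eigenvector `x` mod `p` of `L₁` with `β (α x) ∈ p L₁` produces a `χ`-eigenvector mod `p` of
`L₂` lying in `ker β`. -/
theorem exists_eigen_in_ker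
    (hα : ∀ t x, α (ρ₁ t x) = ρ₂ t (α x)) (hβ : ∀ t y, β (ρ₂ t y) = ρ₁ t (β y))
    (t₁ t₂ : R) (h1 : χ t₁ ≠ 0) (hI : ∀ x, α x ∈ pSub p L₂ → ρ₁ t₁ x ∈ pSub p L₁)
    (h2 : χ t₂ ≠ 0)
    (hD : ∀ z : L₁, (p : ℤ) • z ∈ LinearMap.range β → ρ₁ t₂ z ∈ LinearMap.range β)
    (x : L₁) (hx : IsEigenMod χ ρ₁ x) (hdet : β (α x) ∈ pSub p L₁) :
    ∃ y : L₂, β y = 0 ∧ IsEigenMod χ ρ₂ y := by
  -- `y₀ = α x` is an eigenvector mod `p`
  have hy₀ : IsEigenMod χ ρ₂ (α x) :=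
    hx.map α hα (fun h => hx.not_mem h1 (hI x h))
  obtain ⟨z, hz⟩ := mem_pSub.mp hdet
  obtain ⟨y', hy'⟩ := hD z (by rw [hz]; exact ⟨α x, rfl⟩)
  refine ⟨ρ₂ t₂ (α x) + (p : ℤ) • (-y'), ?_, (hy₀.apply h2).add_mem (smul_mem_pSub _)⟩
  rw [map_add, hβ, ← hz, map_smul, map_smul, map_neg, hy', smul_neg, add_neg_cancel]

/-- **Support of the new lattice**: under the hypotheses of `exists_eigen_in_ker`, every `t`
killing `ker β` lies in `ker χ`. -/
theorem annihilator_le_ker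
    (hα : ∀ t x, α (ρ₁ t x) = ρ₂ t (α x)) (hβ : ∀ t y, β (ρ₂ t y) = ρ₁ t (β y))
    (t₁ t₂ : R) (h1 : χ t₁ ≠ 0) (hI : ∀ x, α x ∈ pSub p L₂ → ρ₁ t₁ x ∈ pSub p L₁)
    (h2 : χ t₂ ≠ 0)
    (hD : ∀ z : L₁, (p : ℤ) • z ∈ LinearMap.range β → ρ₁ t₂ z ∈ LinearMap.range β)
    (x : L₁) (hx : IsEigenMod χ ρ₁ x) (hdet : β (α x) ∈ pSub p L₁)
    (t : R) (ht : ∀ y : L₂, β y = 0 → ρ₂ t y = 0) : χ t = 0 := by
  obtain ⟨y, hy0, hy⟩ := exists_eigen_in_ker χ ρ₁ ρ₂ α β hα hβ t₁ t₂ h1 hI h2 hD x hx hdet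
  by_contra hne
  apply hy.not_mem hne
  rw [ht y hy0]
  exact (pSub p L₂).zero_mem

end Main

end Fermat.Agent.S41.H66
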