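/-
S41 package B (degeneracy calculus), part 3: the degeneracy operators `res`, `cst`, `cor`,
`corc` and the Atkin–Lehner operator commute with the Hecke operators `T_ℓ`, `ℓ ∤ N q`.
-/
import Mathlib
import Fermat.Agent.S41.H65_DegIdentities

set_option autoImplicit false

open CongruenceSubgroup Matrix.SpecialLinearGroup ModularForm
open scoped MatrixGroups
open P2MW.S_ModularForm_heckeT_slash_eq_self_of_mem_Gamma0.ModularForm.HeckeSlashInvariance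

namespace Fermat.Agent.S41.H65

open Fermat.Agent.S41.H85 Fermat.Agent.S41.H72

variable {N q ℓ : ℕ} {A : Type*} [AddCommGroup A]

theorem not_dvd_left_of_not_dvd_mul (h : ¬ ℓ ∣ N * q) : ¬ ℓ ∣ N :=
  fun h' => h (Dvd.dvd.mul_right h' q)

/-! ### `res` -/

/-- **`T_ℓ ∘ res = res ∘ T_ℓ`.** -/
theorem heckeTHom_res (hℓ : ℓ.Prime) (hℓM : ¬ ℓ ∣ N * q) (φ : Additive (Gamma0 N) →+ A) :
    heckeTHom A hℓ hℓM (res A N q φ)
      = res A N q (heckeTHom A hℓ (not_dvd_left_of_not_dvd_mul hℓM) φ) := by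
  have : Fact ℓ.Prime := ⟨hℓ⟩
  have hℓN := not_dvd_left_of_not_dvd_mul hℓM
  refine AddMonoidHom.ext fun γ => ?_
  obtain ⟨γ, rfl⟩ := Additive.ofMul.surjective γ
  rw [res_apply_apply]
  show (heckeTDatum (N * q) ℓ hℓM).op (res A N q φ) (Additive.ofMul γ)
    = (heckeTDatum N ℓ hℓN).op φ (Additive.ofMul (inclHom N q γ))
  rw [CosetDatum.op_apply, CosetDatum.op_apply]
  refine Finset.sum_congr rfl fun x _ => ?_
  rw [res_apply_apply]
  congr 2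
  have h := (heckeTDatum (N * q) ℓ hℓM).eq γ x
  rw [heckeTDatum_α] at h
  exact (((heckeTDatum N ℓ hℓN).eq_of_isReduced (heckeTDatum_isReduced N ℓ hℓN)
    (i := x) (γ := inclHom N q γ)
    (j := (heckeTDatum (N * q) ℓ hℓM).perm γ x)
    (g := inclHom N q ((heckeTDatum (N * q) ℓ hℓM).coc γ x)) (by
      rw [heckeTDatum_α]
      exact h)).2).symm

/-! ### Bridge between `hrep` and `heckeRep` -/

theorem exists_hrep_eq_heckeRep (hℓ0 : ℓ ≠ 0) (x : OnePoint (ZMod ℓ)) :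
    ∃ i : Option (Fin ℓ), hrep ℓ hℓ0 i = heckeRep ℓ x := by
  have : NeZero ℓ := ⟨hℓ0⟩
  induction x using OnePoint.rec with
  | infty => exact ⟨none, hrep_none ℓ hℓ0⟩
  | coe z => exact ⟨some ⟨z.val, ZMod.val_lt z⟩, hrep_some ℓ hℓ0 _⟩

theorem exists_heckeRep_eq_hrep (hℓ0 : ℓ ≠ 0) (i : Option (Fin ℓ)) :
    ∃ x : OnePoint (ZMod ℓ), heckeRep ℓ x = hrep ℓ hℓ0 i := by
  rcases i with _ | j
  · exact ⟨OnePoint.infty, (hrep_none ℓ hℓ0).symm⟩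
  · refine ⟨(((j : ℕ) : ZMod ℓ) : OnePoint (ZMod ℓ)), ?_⟩
    rw [heckeRep_coe, ZMod.val_cast_of_lt j.2, hrep_some]

/-! ### The Atkin–Lehner operator -/

theorem card_unit_prod (X : Type*) [Fintype X] :
    Fintype.card (Unit × X) = Fintype.card (X × Unit) := by
  rw [Fintype.card_prod, Fintype.card_prod, mul_comm]

/-- **`T_ℓ ∘ AL = AL ∘ T_ℓ`.** -/
theorem heckeTHom_atkinLehner (D : ALData N q) (hq : q ≠ 0) (hℓ : ℓ.Prime) (hℓM : ¬ ℓ ∣ N * q)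
    (ψ : Additive (Gamma0 (N * q)) →+ A) :
    heckeTHom A hℓ hℓM (atkinLehner A D hq ψ)
      = atkinLehner A D hq (heckeTHom A hℓ hℓM ψ) := by
  have : Fact ℓ.Prime := ⟨hℓ⟩
  have h1 : heckeTHom A hℓ hℓM (atkinLehner A D hq ψ)
      = ((alDatum D hq).comp (heckeTDatum (N * q) ℓ hℓM)).op ψ :=
    (CosetDatum.comp_op_apply (alDatum D hq) (heckeTDatum (N * q) ℓ hℓM) ψ).symm
  have h2 : atkinLehner A D hq (heckeTHom A hℓ hℓM ψ)
      = ((heckeTDatum (N * q) ℓ hℓM).comp (alDatum D hq)).op ψ :=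
    (CosetDatum.comp_op_apply (heckeTDatum (N * q) ℓ hℓM) (alDatum D hq) ψ).symm
  rw [h1, h2]
  refine congrFun (congrArg DFunLike.coe (op_eq_of_forall_exists (A := A)
    ((alDatum D hq).comp (heckeTDatum (N * q) ℓ hℓM))
    ((heckeTDatum (N * q) ℓ hℓM).comp (alDatum D hq))
    (isReduced_single_comp _ (heckeTDatum_isReduced (N * q) ℓ hℓM) (gl_injective _) _ _
      (alHom_surjective D hq) _)
    (isReduced_comp_single _ (heckeTDatum_isReduced (N * q) ℓ hℓM) _ _ _)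
    (card_unit_prod _) ?_)) ψ
  rintro ⟨u, x⟩
  obtain ⟨i, hi⟩ := exists_hrep_eq_heckeRep hℓ.ne_zero x
  obtain ⟨γ, hγ, i', hi'⟩ := exists_alGL_mul_hrep D hq hℓ hℓM i
  obtain ⟨x', hx'⟩ := exists_heckeRep_eq_hrep hℓ.ne_zero i'
  refine ⟨(x', ()), (⟨γ, hγ⟩ : Gamma0 (N * q))⁻¹, ?_⟩
  show heckeRep ℓ x' * alGL D hq = gl (N * q) (⟨γ, hγ⟩ : Gamma0 (N * q))⁻¹ * (alGL D hq * heckeRep ℓ x)
  rw [← hi, hi', hx', map_inv, gl_apply]
  simp only [mul_assoc, inv_mul_cancel_left]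

/-! ### `cor` -/

theorem real_entry_eq {M M' : GL (Fin 2) ℝ} (h : M = M') (i j : Fin 2) :
    (M : Matrix (Fin 2) (Fin 2) ℝ) i j = (M' : Matrix (Fin 2) (Fin 2) ℝ) i j := by rw [h]

/-- Arithmetic lemma: if `h_x b = γ h_x'` with `q ∣ γ₁₀` and `ℓ` prime different from the prime
`q`, then `q ∣ b₁₀`. -/
theorem dvd_of_heckeRep_mul_eq (hℓ : ℓ.Prime) (hq : q.Prime) (hℓq : ℓ ≠ q)
    (x x' : OnePoint (ZMod ℓ)) (b γ : SL(2, ℤ))
    (h : heckeRep ℓ x * mapGL ℝ b = mapGL ℝ γ * heckeRep ℓ x') (hγ : (q : ℤ) ∣ γ 1 0) :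
    (q : ℤ) ∣ b 1 0 := by
  have hℓ0 : ℓ ≠ 0 := hℓ.ne_zero
  have h10 := real_entry_eq h 1 0
  have hq' : Prime (q : ℤ) := Nat.prime_iff_prime_int.mp hq
  have hnd : ¬ (q : ℤ) ∣ (ℓ : ℤ) := by
    intro hd
    have : q ∣ ℓ := by exact_mod_cast hd
    exact hℓq ((Nat.prime_dvd_prime_iff_eq hq hℓ).mp this).symm
  induction x using OnePoint.rec with
  | infty =>
    induction x' using OnePoint.rec with
    | infty =>
      simp [heckeRep_infty, Matrix.mul_apply, Fin.sum_univ_two, hℓ0] at h10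
      have h' : b 1 0 = γ 1 0 * ℓ := by exact_mod_cast h10
      rw [h']
      exact Dvd.dvd.mul_right hγ _
    | coe z' =>
      simp [heckeRep_infty, heckeRep_coe, Matrix.mul_apply, Fin.sum_univ_two, hℓ0] at h10
      have h' : b 1 0 = γ 1 0 := by exact_mod_cast h10
      rw [h']
      exact hγ
  | coe z =>
    induction x' using OnePoint.rec with
    | infty =>
      simp [heckeRep_infty, heckeRep_coe, Matrix.mul_apply, Fin.sum_univ_two, hℓ0] at h10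
      have h' : (ℓ : ℤ) * b 1 0 = γ 1 0 * ℓ := by exact_mod_cast h10
      have hd : (q : ℤ) ∣ (ℓ : ℤ) * b 1 0 := by
        rw [h']
        exact Dvd.dvd.mul_right hγ _
      exact (hq'.dvd_or_dvd hd).resolve_left hnd
    | coe z' =>
      simp [heckeRep_coe, Matrix.mul_apply, Fin.sum_univ_two, hℓ0] at h10
      have h' : (ℓ : ℤ) * b 1 0 = γ 1 0 := by exact_mod_cast h10
      have hd : (q : ℤ) ∣ (ℓ : ℤ) * b 1 0 := by
        rw [h']
        exact hγ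
      exact (hq'.dvd_or_dvd hd).resolve_left hnd

theorem ne_of_not_dvd_mul (hℓM : ¬ ℓ ∣ N * q) : ℓ ≠ q := by
  rintro rfl
  exact hℓM (dvd_mul_left _ _)

theorem mem_gamma0_mul_of_dvd (hq : q.Prime) (hqN : ¬ q ∣ N) {b : SL(2, ℤ)} (hb : b ∈ Gamma0 N)
    (hqb : (q : ℤ) ∣ b 1 0) : b ∈ Gamma0 (N * q) := by
  rw [H72.mem_Gamma0_iff_dvd] at hb ⊢
  have hcop : IsCoprime (N : ℤ) (q : ℤ) := by
    rw [Nat.isCoprime_iff_coprime]
    exact ((Nat.Prime.coprime_iff_not_dvd hq).mpr hqN).symm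
  have := hcop.mul_dvd hb hqb
  simpa using this

/-- The family `h_x r_i` is reduced with respect to `Γ₀(N q)`. -/
theorem isReduced_hecke_comp_cor (D : ALData N q) (hq : q.Prime) (hqN : ¬ q ∣ N) (hN : N ≠ 0)
    (hℓ : ℓ.Prime) (hℓM : ¬ ℓ ∣ N * q) :
    haveI : Fact ℓ.Prime := ⟨hℓ⟩
    haveI : NeZero q := ⟨hq.ne_zero⟩
    IsReduced (gl (N * q)) ((heckeTDatum (N * q) ℓ hℓM).comp (corDatum D hq hqN hN)).α := by
  have : Fact ℓ.Prime := ⟨hℓ⟩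
  have : NeZero q := ⟨hq.ne_zero⟩
  have hℓN := not_dvd_left_of_not_dvd_mul hℓM
  refine ⟨gl_injective _, ?_⟩
  rintro ⟨x₁, i₁⟩ ⟨x₂, i₂⟩ g hg
  have hg' : gl (N * q) g * (heckeRep ℓ x₁ * gl N (corRep D i₁))
      = heckeRep ℓ x₂ * gl N (corRep D i₂) := hg
  set b : Gamma0 N := corRep D i₁ * (corRep D i₂)⁻¹ with hb
  -- `h_{x₁} b = γ h_{x'}` at level `N`
  obtain ⟨x', γ, hγ⟩ := stable_heckeRep N ℓ hℓN b x₁
  have h1 : gl N (inclHom N q g * γ) * heckeRep ℓ x' = heckeRep ℓ x₂ := by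
    have : heckeRep ℓ x₂ = gl (N * q) g * (heckeRep ℓ x₁ * gl N b) := by
      rw [hb, map_mul, map_inv, ← mul_assoc (heckeRep ℓ x₁), ← mul_assoc (gl (N * q) g), hg',
        mul_inv_cancel_right]
    rw [this, hγ, map_mul, gl_inclHom, mul_assoc]
  obtain ⟨hx', hgγ⟩ := (isReduced_heckeRep N ℓ).unique (i := x') (j := x₂)
    (g := inclHom N q g * γ) (g' := 1) (by rw [map_one, one_mul]; exact h1)
  -- hence `γ = g⁻¹ ∈ Γ₀(N q)`
  have hγmem : (γ : SL(2, ℤ)) ∈ Gamma0 (N * q) := by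
    have h2 : γ = (inclHom N q g)⁻¹ := eq_inv_of_mul_eq_one_right hgγ
    rw [h2]
    exact inv_mem g.2
  have hqb : (q : ℤ) ∣ (b : SL(2, ℤ)) 1 0 := by
    refine dvd_of_heckeRep_mul_eq hℓ hq (ne_of_not_dvd_mul hℓM) x₁ x' (b : SL(2, ℤ))
      (γ : SL(2, ℤ)) hγ ?_
    exact dvd_trans ⟨(N : ℤ), by push_cast; ring⟩ (H72.mem_Gamma0_iff_dvd.mp hγmem)
  have hbmem : (b : SL(2, ℤ)) ∈ Gamma0 (N * q) := mem_gamma0_mul_of_dvd hq hqN b.2 hqb
  have hi : i₂ = i₁ := by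
    refine (isReduced_corAlpha D hq hqN hN).distinct i₂ i₁ ⟨(b : SL(2, ℤ)), hbmem⟩ ?_
    show gl N b * gl N (corRep D i₂) = gl N (corRep D i₁)
    rw [← map_mul, hb, inv_mul_cancel_right]
  subst hi
  have hx : x₁ = x₂ := by
    refine (isReduced_heckeRep (N * q) ℓ).distinct x₁ x₂ g ?_
    apply mul_right_cancel (b := gl N (corRep D i₂))
    rw [mul_assoc]
    exact hg'
  rw [hx]

/-- **`T_ℓ ∘ cor = cor ∘ T_ℓ`.** -/
theorem heckeTHom_cor (D : ALData N q) (hq : q.Prime) (hqN : ¬ q ∣ N) (hN : N ≠ 0)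
    (hℓ : ℓ.Prime) (hℓM : ¬ ℓ ∣ N * q) (ψ : Additive (Gamma0 (N * q)) →+ A) :
    heckeTHom A hℓ (not_dvd_left_of_not_dvd_mul hℓM) (cor A D hq hqN hN ψ)
      = cor A D hq hqN hN (heckeTHom A hℓ hℓM ψ) := by
  have : Fact ℓ.Prime := ⟨hℓ⟩
  have : NeZero q := ⟨hq.ne_zero⟩
  have hℓN := not_dvd_left_of_not_dvd_mul hℓM
  have h1 : heckeTHom A hℓ hℓN (cor A D hq hqN hN ψ)
      = ((corDatum D hq hqN hN).comp (heckeTDatum N ℓ hℓN)).op ψ :=
    (CosetDatum.comp_op_apply (corDatum D hq hqN hN) (heckeTDatum N ℓ hℓN) ψ).symm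
  have h2 : cor A D hq hqN hN (heckeTHom A hℓ hℓM ψ)
      = ((heckeTDatum (N * q) ℓ hℓM).comp (corDatum D hq hqN hN)).op ψ :=
    (CosetDatum.comp_op_apply (heckeTDatum (N * q) ℓ hℓM) (corDatum D hq hqN hN) ψ).symm
  rw [h1, h2]
  symm
  refine congrFun (congrArg DFunLike.coe (op_eq_of_forall_exists (A := A)
    ((heckeTDatum (N * q) ℓ hℓM).comp (corDatum D hq hqN hN))
    ((corDatum D hq hqN hN).comp (heckeTDatum N ℓ hℓN))
    (isReduced_hecke_comp_cor D hq hqN hN hℓ hℓM)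
    (isReduced_comp_of_range _ _ (corDatum_isReduced D hq hqN hN)
      (heckeTDatum_isReduced N ℓ hℓN) (inclHom N q) (fun _ => rfl) (corRep D) (fun _ => rfl))
    (by rw [Fintype.card_prod, Fintype.card_prod, mul_comm]) ?_)) ψ
  rintro ⟨x, i⟩
  obtain ⟨x', γ, hγ⟩ := stable_heckeRep N ℓ hℓN (corRep D i) x
  obtain ⟨y, g, hg⟩ := stable_corAlpha D hq hqN γ OnePoint.infty
  refine ⟨(y, x'), g⁻¹, ?_⟩
  show gl N (corRep D y) * heckeRep ℓ x' = gl (N * q) g⁻¹ * (heckeRep ℓ x * gl N (corRep D i))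
  rw [hγ]
  simp only [corAlpha, corRep_infty, map_one, one_mul] at hg
  rw [hg, map_inv]
  simp only [mul_assoc, inv_mul_cancel_left]

/-! ### `cst` and `corc` -/

/-- **`T_ℓ ∘ cst = cst ∘ T_ℓ`.** -/
theorem heckeTHom_cst (hq : q.Prime) (hqN : ¬ q ∣ N) (hℓ : ℓ.Prime) (hℓM : ¬ ℓ ∣ N * q)
    (φ : Additive (Gamma0 N) →+ A) :
    heckeTHom A hℓ hℓM (cst A N hq.ne_zero φ)
      = cst A N hq.ne_zero (heckeTHom A hℓ (not_dvd_left_of_not_dvd_mul hℓM) φ) := by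
  obtain ⟨D⟩ := nonempty_alData ((Nat.Prime.coprime_iff_not_dvd hq).mpr hqN)
  rw [cst_eq_atkinLehner_res D hq.ne_zero, cst_eq_atkinLehner_res D hq.ne_zero,
    heckeTHom_atkinLehner, heckeTHom_res]

/-- **`T_ℓ ∘ corc = corc ∘ T_ℓ`.** -/
theorem heckeTHom_corc (D : ALData N q) (hq : q.Prime) (hqN : ¬ q ∣ N) (hN : N ≠ 0)
    (hℓ : ℓ.Prime) (hℓM : ¬ ℓ ∣ N * q) (ψ : Additive (Gamma0 (N * q)) →+ A) :
    heckeTHom A hℓ (not_dvd_left_of_not_dvd_mul hℓM) (corc A D hq hqN hN ψ)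
      = corc A D hq hqN hN (heckeTHom A hℓ hℓM ψ) := by
  rw [corc_eq, corc_eq, heckeTHom_cor, heckeTHom_atkinLehner]

/-- `α` commutes with `T_ℓ`. -/
theorem heckeTHom_degAlpha (hq : q.Prime) (hqN : ¬ q ∣ N) (hℓ : ℓ.Prime) (hℓM : ¬ ℓ ∣ N * q)
    (x : (Additive (Gamma0 N) →+ A) × (Additive (Gamma0 N) →+ A)) :
    heckeTHom A hℓ hℓM (degAlpha A N hq.ne_zero x)
      = degAlpha A N hq.ne_zero
          (heckeTHom A hℓ (not_dvd_left_of_not_dvd_mul hℓM) x.1,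
           heckeTHom A hℓ (not_dvd_left_of_not_dvd_mul hℓM) x.2) := by
  rw [degAlpha_apply, degAlpha_apply, map_add, heckeTHom_res, heckeTHom_cst hq hqN]

/-- `β` commutes with `T_ℓ`. -/
theorem heckeTHom_degBeta (D : ALData N q) (hq : q.Prime) (hqN : ¬ q ∣ N) (hN : N ≠ 0)
    (hℓ : ℓ.Prime) (hℓM : ¬ ℓ ∣ N * q) (y : Additive (Gamma0 (N * q)) →+ A) :
    degBeta A D hq hqN hN (heckeTHom A hℓ hℓM y)
      = (heckeTHom A hℓ (not_dvd_left_of_not_dvd_mul hℓM) (degBeta A D hq hqN hN y).1,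
         heckeTHom A hℓ (not_dvd_left_of_not_dvd_mul hℓM) (degBeta A D hq hqN hN y).2) := by
  rw [degBeta_apply, degBeta_apply, heckeTHom_cor, heckeTHom_corc]

end Fermat.Agent.S41.H65
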