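import Fermat.Agent.S41.H66_EigenProducer

/-!
# S41 / step (5), part (C) (helper66): the kernel of `[[m, T], [T, m]]` mod `p`

`L` an abelian group with the action `ρ` of a commutative ring `R`, `χ : R →+* ZMod p`,
`tq : R` and `m : ℤ` (in the application `m = q + 1`, `ρ tq = T_q`) with `χ tq ^ 2 = m ^ 2`.

* `pSub` of a product, `diagAction ρ : R →+* End ℤ (L × L)`, `thetaMap m T : End ℤ (L × L)`.
* `exists_theta_kernel` (componentwise) and `exists_isEigenMod_thetaMap` (on `L × L`): a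
  `χ`-eigenvector mod `p` of `L` gives a `χ`-eigenvector mod `p` of `L × L` (diagonal action)
  which `thetaMap m (ρ tq)` sends into `p (L × L)`.
* `exists_isEigenMod_thetaMap_of_ker_le` : the same from `ker ρ ≤ ker χ`, `L` finitely generated.
-/

set_option autoImplicit false

namespace Fermat.Agent.S41.H66

open Module

section Prod

variable {p : ℕ} {L L' : Type*} [AddCommGroup L] [AddCommGroup L']

theorem mem_pSub_prod {x : L × L'} :
    x ∈ pSub p (L × L') ↔ x.1 ∈ pSub p L ∧ x.2 ∈ pSub p L' := by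
  constructor
  · intro h
    obtain ⟨y, rfl⟩ := mem_pSub.mp h
    exact ⟨smul_mem_pSub y.1, smul_mem_pSub y.2⟩
  · rintro ⟨h1, h2⟩
    obtain ⟨y1, hy1⟩ := mem_pSub.mp h1
    obtain ⟨y2, hy2⟩ := mem_pSub.mp h2
    exact mem_pSub.mpr ⟨(y1, y2), Prod.ext hy1 hy2⟩

end Prod

section Diag

variable {R : Type*} [CommRing R] {L : Type*} [AddCommGroup L]

/-- the diagonal action on `L × L`. -/
def diagAction (ρ : R →+* Module.End ℤ L) : R →+* Module.End ℤ (L × L) :=
  (LinearMap.prodMapRingHom ℤ L L).comp (ρ.prod ρ)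

@[simp]
theorem diagAction_apply (ρ : R →+* Module.End ℤ L) (t : R) (x : L × L) :
    diagAction ρ t x = (ρ t x.1, ρ t x.2) := rfl

/-- the endomorphism `(x₁, x₂) ↦ (m x₁ + T x₂, T x₁ + m x₂)` of `L × L`. -/
def thetaMap (m : ℤ) (T : Module.End ℤ L) : Module.End ℤ (L × L) :=
  (m • LinearMap.fst ℤ L L + T ∘ₗ LinearMap.snd ℤ L L).prod
    (T ∘ₗ LinearMap.fst ℤ L L + m • LinearMap.snd ℤ L L)

@[simp]
theorem thetaMap_apply (m : ℤ) (T : Module.End ℤ L) (x : L × L) :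
    thetaMap m T x = (m • x.1 + T x.2, T x.1 + m • x.2) := rfl

end Diag

section Theta

variable {p : ℕ} [Fact p.Prime] {R : Type*} [CommRing R] {χ : R →+* ZMod p}
  {L : Type*} [AddCommGroup L] {ρ : R →+* Module.End ℤ L}

/-- integer multiples of an eigenvector mod `p` satisfy the eigen-congruences. -/
theorem IsEigenMod.smul_sub_mem {x : L} (hx : IsEigenMod χ ρ x) (c : ℤ) (t : R) :
    ρ t (c • x) - ((χ t).val : ℤ) • (c • x) ∈ pSub p L := by
  have : ρ t (c • x) - ((χ t).val : ℤ) • (c • x) = c • (ρ t x - ((χ t).val : ℤ) • x) := by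
    rw [map_zsmul, smul_sub, smul_comm]
  rw [this]
  exact (pSub p L).smul_mem c (hx.2 t)

/-- a multiple of an eigenvector mod `p` by an integer prime to `p` is an eigenvector mod `p`. -/
theorem IsEigenMod.smul {x : L} (hx : IsEigenMod χ ρ x) {c : ℤ} (hc : (c : ZMod p) ≠ 0) :
    IsEigenMod χ ρ (c • x) :=
  ⟨fun h => hx.1 (mem_pSub_of_smul_mem hc h), hx.smul_sub_mem c⟩

theorem dvd_smul_mem_pSub {c : ℤ} (hc : (c : ZMod p) = 0) (x : L) : c • x ∈ pSub p L := by
  obtain ⟨e, rfl⟩ := (ZMod.intCast_zmod_eq_zero_iff_dvd c p).mp hc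
  rw [mul_smul]
  exact smul_mem_pSub _

/-- **Kernel of `Θ = [[m, T_q], [T_q, m]]` mod `p`**, componentwise form. -/
theorem exists_theta_kernel {x : L} (hx : IsEigenMod χ ρ x) (tq : R) (m : ℤ)
    (hsq : χ tq ^ 2 = (m : ZMod p) ^ 2) :
    ∃ x₁ x₂ : L, ¬ (x₁ ∈ pSub p L ∧ x₂ ∈ pSub p L) ∧
      (∀ t, ρ t x₁ - ((χ t).val : ℤ) • x₁ ∈ pSub p L) ∧
      (∀ t, ρ t x₂ - ((χ t).val : ℤ) • x₂ ∈ pSub p L) ∧
      m • x₁ + ρ tq x₂ ∈ pSub p L ∧ ρ tq x₁ + m • x₂ ∈ pSub p L := by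
  have hp : NeZero p := ⟨(Fact.out : p.Prime).ne_zero⟩
  by_cases hm : (m : ZMod p) = 0
  · -- `p ∣ m`, so `χ tq = 0`: take `(x, 0)`
    have hq0 : χ tq = 0 := by
      rw [hm, zero_pow two_ne_zero] at hsq
      exact eq_zero_of_pow_eq_zero hsq
    refine ⟨x, 0, fun h => hx.1 h.1, hx.2, fun t => by simp, ?_, ?_⟩
    · rw [map_zero, add_zero]
      exact dvd_smul_mem_pSub hm x
    · rw [smul_zero, add_zero]
      have := hx.sub_mem tq (c := 0) (by rw [hq0]; simp)
      simpa using this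
  · -- `p ∤ m`: take `(a x, - m x)`
    set A : ℤ := ((χ tq).val : ℤ) with hA
    have hAc : (A : ZMod p) = χ tq := by
      rw [hA]; push_cast; exact ZMod.natCast_zmod_val _
    have hnegm : ((-m : ℤ) : ZMod p) ≠ 0 := by
      push_cast
      exact neg_ne_zero.mpr hm
    refine ⟨A • x, (-m) • x, fun h => hx.1 (mem_pSub_of_smul_mem hnegm h.2),
      hx.smul_sub_mem A, hx.smul_sub_mem (-m), ?_, ?_⟩
    · have : m • A • x + ρ tq ((-m) • x) = (-m) • (ρ tq x - A • x) := by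
        simp only [map_zsmul, map_neg, smul_sub, neg_smul]
        abel
      rw [this]
      exact (pSub p L).smul_mem _ (hx.2 tq)
    · have : ρ tq (A • x) + m • (-m) • x = A • (ρ tq x - A • x) + (A * A - m * m) • x := by
        simp only [map_zsmul, smul_sub, sub_smul, mul_smul, neg_smul, smul_neg]
        abel
      rw [this]
      refine (pSub p L).add_mem ((pSub p L).smul_mem _ (hx.2 tq)) (dvd_smul_mem_pSub ?_ x)
      push_cast
      rw [hAc, ← pow_two, ← pow_two, hsq, sub_self]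

/-- **Kernel of `Θ = [[m, T_q], [T_q, m]]` mod `p`** on `L × L` with the diagonal action. -/
theorem exists_isEigenMod_thetaMap {x : L} (hx : IsEigenMod χ ρ x) (tq : R) (m : ℤ)
    (hsq : χ tq ^ 2 = (m : ZMod p) ^ 2) :
    ∃ y : L × L, IsEigenMod χ (diagAction ρ) y ∧ thetaMap m (ρ tq) y ∈ pSub p (L × L) := by
  obtain ⟨x₁, x₂, hne, h1, h2, h3, h4⟩ := exists_theta_kernel hx tq m hsq
  refine ⟨(x₁, x₂), ⟨fun h => hne (mem_pSub_prod.mp h), fun t => ?_⟩, ?_⟩
  · rw [mem_pSub_prod]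
    exact ⟨h1 t, h2 t⟩
  · rw [mem_pSub_prod]
    exact ⟨h3, h4⟩

/-- the same, starting from `ker ρ ≤ ker χ` on a finitely generated `L`. -/
theorem exists_isEigenMod_thetaMap_of_ker_le [Module.Finite ℤ L]
    (hker : ∀ t, ρ t = 0 → χ t = 0) (tq : R) (m : ℤ) (hsq : χ tq ^ 2 = (m : ZMod p) ^ 2) :
    ∃ y : L × L, IsEigenMod χ (diagAction ρ) y ∧ thetaMap m (ρ tq) y ∈ pSub p (L × L) := by
  obtain ⟨x, hx⟩ := exists_isEigenMod_of_ker_le χ ρ hker
  exact exists_isEigenMod_thetaMap hx tq m hsq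

end Theta

end Fermat.Agent.S41.H66
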