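/-
S41 (assembly, part 1): the degeneracy operators of `H65_DegDefs` on the integral parabolic
lattices `L_M = parabolicHoms ℤ Γ₀(M) ℤ`, as `ℤ`-linear maps

* `resPar`, `cstPar : L_N →ₗ[ℤ] L_{Nq}`, `corPar`, `corcPar : L_{Nq} →ₗ[ℤ] L_N`;
* `degAlphaPar : L_N × L_N →ₗ[ℤ] L_{Nq}`, `degBetaPar : L_{Nq} →ₗ[ℤ] L_N × L_N`;
* `degBetaPar_degAlphaPar` (`β ∘ α = [[q+1, T_q],[T_q, q+1]]`), Hecke equivariance of `α`, `β`
  (for `T_ℓ`, `ℓ ∤ N q`), `degBetaPar_eq_zero_iff`.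

These are the maps in terms of which the Poincare duality package (P) and the Ihara package (I)
are consumed by `H85_Assembly`.
-/
import Mathlib
import Fermat.Agent.S41.H65_DegHecke
import Fermat.Agent.S41.H85_HeckeModule
import Fermat.Agent.S41.H66_ThetaKernel

set_option autoImplicit false

open CongruenceSubgroup ModularCurve ModularCurve.Period
open scoped MatrixGroups

namespace Fermat.Agent.S41.H85

open Fermat.Agent.S41.H72 Fermat.Agent.S41.H66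

section opPar

variable {N M : ℕ} {I : Type*} [Fintype I]

/-- The operator of a coset datum between `Γ₀(N)` and `Γ₀(M)` on parabolic homomorphisms. -/
noncomputable def CosetDatum.opPar (D : CosetDatum (gl N) (gl M) I) (A : Type*) [AddCommGroup A]
    (R : Type*) [Semiring R] [Module R A] :
    parabolicHoms R (Gamma0 N) A →ₗ[R] parabolicHoms R (Gamma0 M) A :=
  (D.opₗ R).restrict fun _ hφ => op_mem_parabolicHoms D R hφ

@[simp] theorem CosetDatum.coe_opPar_apply (D : CosetDatum (gl N) (gl M) I) (A : Type*)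
    [AddCommGroup A] (R : Type*) [Semiring R] [Module R A] (φ : parabolicHoms R (Gamma0 N) A) :
    (D.opPar A R φ : Additive (Gamma0 M) →+ A) = D.op φ.1 := rfl

end opPar

/-- The integral parabolic lattice `L_M = H¹_par(Γ₀(M), ℤ)`. -/
abbrev Lat (M : ℕ) : Type := parabolicHoms ℤ (Gamma0 M) ℤ

section deg

variable {N q : ℕ}

/-- `res : L_N → L_{Nq}`. -/
noncomputable def resPar (N q : ℕ) : Lat N →ₗ[ℤ] Lat (N * q) :=
  (H65.resDatum N q).opPar ℤ ℤ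

/-- `cst : L_N → L_{Nq}`. -/
noncomputable def cstPar (N : ℕ) {q : ℕ} (hq : q ≠ 0) : Lat N →ₗ[ℤ] Lat (N * q) :=
  (H65.cstDatum N hq).opPar ℤ ℤ

/-- `cor : L_{Nq} → L_N`. -/
noncomputable def corPar (D : ALData N q) (hq : q.Prime) (hqN : ¬ q ∣ N) (hN : N ≠ 0) :
    Lat (N * q) →ₗ[ℤ] Lat N :=
  haveI : NeZero q := ⟨hq.ne_zero⟩
  (H65.corDatum D hq hqN hN).opPar ℤ ℤ

/-- `corc : L_{Nq} → L_N`. -/
noncomputable def corcPar (D : ALData N q) (hq : q.Prime) (hqN : ¬ q ∣ N) (hN : N ≠ 0) :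
    Lat (N * q) →ₗ[ℤ] Lat N :=
  haveI : NeZero q := ⟨hq.ne_zero⟩
  (H65.corcDatum D hq hqN hN).opPar ℤ ℤ

@[simp] theorem coe_resPar (x : Lat N) :
    (resPar N q x : Additive (Gamma0 (N * q)) →+ ℤ) = H65.res ℤ N q x.1 := rfl

@[simp] theorem coe_cstPar (hq : q ≠ 0) (x : Lat N) :
    (cstPar N hq x : Additive (Gamma0 (N * q)) →+ ℤ) = H65.cst ℤ N hq x.1 := rfl

@[simp] theorem coe_corPar (D : ALData N q) (hq : q.Prime) (hqN : ¬ q ∣ N) (hN : N ≠ 0)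
    (y : Lat (N * q)) :
    (corPar D hq hqN hN y : Additive (Gamma0 N) →+ ℤ) = H65.cor ℤ D hq hqN hN y.1 := rfl

@[simp] theorem coe_corcPar (D : ALData N q) (hq : q.Prime) (hqN : ¬ q ∣ N) (hN : N ≠ 0)
    (y : Lat (N * q)) :
    (corcPar D hq hqN hN y : Additive (Gamma0 N) →+ ℤ) = H65.corc ℤ D hq hqN hN y.1 := rfl

/-- `α (x₁, x₂) = res x₁ + cst x₂`. -/
noncomputable def degAlphaPar (N : ℕ) {q : ℕ} (hq : q ≠ 0) : Lat N × Lat N →ₗ[ℤ] Lat (N * q) :=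
  (resPar N q).coprod (cstPar N hq)

/-- `β y = (cor y, corc y)`. -/
noncomputable def degBetaPar (D : ALData N q) (hq : q.Prime) (hqN : ¬ q ∣ N) (hN : N ≠ 0) :
    Lat (N * q) →ₗ[ℤ] Lat N × Lat N :=
  (corPar D hq hqN hN).prod (corcPar D hq hqN hN)

@[simp] theorem degAlphaPar_apply (hq : q ≠ 0) (x : Lat N × Lat N) :
    degAlphaPar N hq x = resPar N q x.1 + cstPar N hq x.2 := rfl

@[simp] theorem degBetaPar_apply (D : ALData N q) (hq : q.Prime) (hqN : ¬ q ∣ N) (hN : N ≠ 0)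
    (y : Lat (N * q)) :
    degBetaPar D hq hqN hN y = (corPar D hq hqN hN y, corcPar D hq hqN hN y) := rfl

theorem coe_degAlphaPar (hq : q ≠ 0) (x : Lat N × Lat N) :
    (degAlphaPar N hq x : Additive (Gamma0 (N * q)) →+ ℤ)
      = H65.degAlpha ℤ N hq (x.1.1, x.2.1) := rfl

theorem degBetaPar_eq_zero_iff (D : ALData N q) (hq : q.Prime) (hqN : ¬ q ∣ N) (hN : N ≠ 0)
    (y : Lat (N * q)) :
    degBetaPar D hq hqN hN y = 0 ↔ H65.degBeta ℤ D hq hqN hN y.1 = 0 := by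
  rw [degBetaPar_apply, H65.degBeta_apply, Prod.mk_eq_zero, Prod.mk_eq_zero,
    ← Submodule.coe_eq_zero, ← Submodule.coe_eq_zero (x := corcPar D hq hqN hN y)]
  rfl

/-- **`β ∘ α = [[q+1, T_q],[T_q, q+1]]`** on the lattices. -/
theorem degBetaPar_degAlphaPar (D : ALData N q) (hq : q.Prime) (hqN : ¬ q ∣ N) (hN : N ≠ 0)
    (x : Lat N × Lat N) :
    degBetaPar D hq hqN hN (degAlphaPar N hq.ne_zero x)
      = thetaMap ((q : ℤ) + 1) (heckeTPar ℤ ℤ hq hqN) x := by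
  have h := H65.degBeta_degAlpha (A := ℤ) D hq hqN hN (x.1.1, x.2.1)
  rw [H65.degBeta_apply, Prod.mk.injEq] at h
  rw [thetaMap_apply, degBetaPar_apply]
  refine Prod.ext (Subtype.ext ?_) (Subtype.ext ?_)
  · rw [coe_corPar, coe_degAlphaPar, h.1]
    simp only [Submodule.coe_add, Submodule.coe_smul, coe_heckeTPar_apply]
    rw [← natCast_zsmul]; push_cast; rfl
  · rw [coe_corcPar, coe_degAlphaPar, h.2]
    simp only [Submodule.coe_add, Submodule.coe_smul, coe_heckeTPar_apply]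
    rw [← natCast_zsmul]; push_cast; rfl

variable {ℓ : ℕ}

/-- `α` commutes with `T_ℓ`, `ℓ ∤ N q`. -/
theorem heckeTPar_degAlphaPar (hq : q.Prime) (hqN : ¬ q ∣ N) (hℓ : ℓ.Prime) (hℓM : ¬ ℓ ∣ N * q)
    (x : Lat N × Lat N) :
    heckeTPar ℤ ℤ hℓ hℓM (degAlphaPar N hq.ne_zero x)
      = degAlphaPar N hq.ne_zero
          (heckeTPar ℤ ℤ hℓ (H65.not_dvd_left_of_not_dvd_mul hℓM) x.1,
           heckeTPar ℤ ℤ hℓ (H65.not_dvd_left_of_not_dvd_mul hℓM) x.2) := by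
  apply Subtype.ext
  rw [coe_heckeTPar_apply, coe_degAlphaPar, coe_degAlphaPar]
  exact H65.heckeTHom_degAlpha hq hqN hℓ hℓM (x.1.1, x.2.1)

/-- `β` commutes with `T_ℓ`, `ℓ ∤ N q`. -/
theorem heckeTPar_degBetaPar (D : ALData N q) (hq : q.Prime) (hqN : ¬ q ∣ N) (hN : N ≠ 0)
    (hℓ : ℓ.Prime) (hℓM : ¬ ℓ ∣ N * q) (y : Lat (N * q)) :
    degBetaPar D hq hqN hN (heckeTPar ℤ ℤ hℓ hℓM y)
      = (heckeTPar ℤ ℤ hℓ (H65.not_dvd_left_of_not_dvd_mul hℓM) (degBetaPar D hq hqN hN y).1,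
         heckeTPar ℤ ℤ hℓ (H65.not_dvd_left_of_not_dvd_mul hℓM) (degBetaPar D hq hqN hN y).2) := by
  have h := H65.heckeTHom_degBeta (A := ℤ) D hq hqN hN hℓ hℓM y.1
  rw [H65.degBeta_apply, H65.degBeta_apply, Prod.mk.injEq] at h
  rw [degBetaPar_apply, degBetaPar_apply]
  refine Prod.ext (Subtype.ext ?_) (Subtype.ext ?_)
  · exact h.1
  · exact h.2

/-! ### The four identities on the lattices, and self-adjointness of `T_q` -/

theorem corPar_cstPar (D : ALData N q) (hq : q.Prime) (hqN : ¬ q ∣ N) (hN : N ≠ 0) (x : Lat N) :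
    corPar D hq hqN hN (cstPar N hq.ne_zero x) = heckeTPar ℤ ℤ hq hqN x :=
  Subtype.ext (H65.cor_cst D hq hqN hN x.1)

theorem corcPar_resPar (D : ALData N q) (hq : q.Prime) (hqN : ¬ q ∣ N) (hN : N ≠ 0) (x : Lat N) :
    corcPar D hq hqN hN (resPar N q x) = heckeTPar ℤ ℤ hq hqN x :=
  Subtype.ext (H65.corc_res D hq hqN hN x.1)

theorem corPar_resPar (D : ALData N q) (hq : q.Prime) (hqN : ¬ q ∣ N) (hN : N ≠ 0) (x : Lat N) :
    corPar D hq hqN hN (resPar N q x) = (q + 1) • x :=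
  Subtype.ext (H65.cor_res D hq hqN hN x.1)

theorem corcPar_cstPar (D : ALData N q) (hq : q.Prime) (hqN : ¬ q ∣ N) (hN : N ≠ 0) (x : Lat N) :
    corcPar D hq hqN hN (cstPar N hq.ne_zero x) = (q + 1) • x :=
  Subtype.ext (H65.corc_cst D hq hqN hN x.1)

/-- **Self-adjointness of `T_q` on `L_N`** from the two adjunctions `(res, cor)`, `(cst, corc)`
between the levels `N` and `N q` and the (skew-)symmetry of the two forms:
`T_q = cor ∘ cst = corc ∘ res`. -/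
theorem pd_heckeTPar_self_of_adjoint (D : ALData N q) (hq : q.Prime) (hqN : ¬ q ∣ N) (hN : N ≠ 0)
    (pdN : Lat N →ₗ[ℤ] Lat N →ₗ[ℤ] ℤ) (pdNq : Lat (N * q) →ₗ[ℤ] Lat (N * q) →ₗ[ℤ] ℤ)
    (hsymm : ((∀ x y, pdN x y = pdN y x) ∧ ∀ x y, pdNq x y = pdNq y x) ∨
      ((∀ x y, pdN x y = - pdN y x) ∧ ∀ x y, pdNq x y = - pdNq y x))
    (hrc : ∀ x y, pdNq (resPar N q x) y = pdN x (corPar D hq hqN hN y))
    (hcc : ∀ x y, pdNq (cstPar N hq.ne_zero x) y = pdN x (corcPar D hq hqN hN y))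
    (x y : Lat N) :
    pdN (heckeTPar ℤ ℤ hq hqN x) y = pdN x (heckeTPar ℤ ℤ hq hqN y) := by
  rw [← corPar_cstPar D hq hqN hN x, ← corcPar_resPar D hq hqN hN y, ← hcc]
  rcases hsymm with ⟨h1, h2⟩ | ⟨h1, h2⟩
  · rw [h1, ← hrc, h2]
  · rw [h1, ← hrc, h2, neg_neg]

end deg

end Fermat.Agent.S41.H85
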