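/-
S41 / E-EIS-all-primes (helper49).

On characters of congruence quotients of `Γ₀(N)[1/q]` the Hecke operator `T_ℓ` acts as `ℓ + 1`
for EVERY prime `ℓ` not dividing the level `M` of the congruence quotient (not only for
`ℓ ≡ 1 mod M`).  This file contains the finite-level statement, in vocabulary-neutral form:

* `borel n : Subgroup SL(2, R)` : matrices with `n ∣ c`; generators `uU`, `uL`, `uD`.
* `conjD t`, `conjB n t` : conjugation by `diag(1, t)`; `conjD_mul_dMat`.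
* `exists_decomp` : over `ZMod M`, every element of `borel n` is `U(x) L(n y) D(t) U(z)`.
* `lemmaX` : `φ (conjB n t g) ^ (ℓ + 1) = φ g ^ (ℓ + 1)` for every character `φ` of `borel n`.
* `prod_map_eq_pow`, `prod_eq_pow_of_heckeReps`, `sum_eq_nsmul_of_heckeReps` :
  if `a i * g = γ i * a (σ i)` for the reductions `a i` of the standard representatives
  `[[1,j],[0,ℓ]]`, `[[ℓ,0],[0,1]]`, then `∑ i, φ (γ i) = (ℓ + 1) • φ g`.

Mathlib only.
-/
import Mathlib

set_option autoImplicit false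

namespace Fermat.Agent.S41.H49

open Matrix
open scoped MatrixGroups

section General

variable {R : Type*} [CommRing R]

/-- Upper unipotent matrix. -/
def uU (x : R) : SL(2, R) := ⟨!![1, x; 0, 1], by simp [Matrix.det_fin_two_of]⟩

/-- Lower unipotent matrix. -/
def uL (y : R) : SL(2, R) := ⟨!![1, 0; y, 1], by simp [Matrix.det_fin_two_of]⟩

/-- Diagonal matrix `diag(t, t⁻¹)`. -/
def uD (t : Rˣ) : SL(2, R) :=
  ⟨!![(t : R), 0; 0, ((t⁻¹ : Rˣ) : R)], by simp [Matrix.det_fin_two_of]⟩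

@[simp] theorem uU_val (x : R) : (uU x : Matrix (Fin 2) (Fin 2) R) = !![1, x; 0, 1] := rfl
@[simp] theorem uL_val (y : R) : (uL y : Matrix (Fin 2) (Fin 2) R) = !![1, 0; y, 1] := rfl
@[simp] theorem uD_val (t : Rˣ) :
    (uD t : Matrix (Fin 2) (Fin 2) R) = !![(t : R), 0; 0, ((t⁻¹ : Rˣ) : R)] := rfl

theorem uU_add (x y : R) : uU (x + y) = uU x * uU y := by
  ext i j
  fin_cases i <;> fin_cases j <;> simp [Matrix.mul_apply, Fin.sum_univ_two, add_comm]

theorem uL_add (x y : R) : uL (x + y) = uL x * uL y := by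
  ext i j
  fin_cases i <;> fin_cases j <;> simp [Matrix.mul_apply, Fin.sum_univ_two, add_comm]

@[simp] theorem uU_zero : uU (0 : R) = 1 := by
  ext i j
  fin_cases i <;> fin_cases j <;> simp

@[simp] theorem uL_zero : uL (0 : R) = 1 := by
  ext i j
  fin_cases i <;> fin_cases j <;> simp

/-- `uU` as a monoid hom from `Multiplicative R`. -/
def uUHom : Multiplicative R →* SL(2, R) where
  toFun x := uU x.toAdd
  map_one' := by simp
  map_mul' x y := by simp [uU_add]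

def uLHom : Multiplicative R →* SL(2, R) where
  toFun x := uL x.toAdd
  map_one' := by simp
  map_mul' x y := by simp [uL_add]

theorem uU_natCast_mul (k : ℕ) (x : R) : uU ((k : R) * x) = uU x ^ k := by
  have := map_pow (uUHom (R := R)) (Multiplicative.ofAdd x) k
  simp only [uUHom, MonoidHom.coe_mk, OneHom.coe_mk, toAdd_pow, toAdd_ofAdd, nsmul_eq_mul] at this
  exact this

theorem uL_natCast_mul (k : ℕ) (x : R) : uL ((k : R) * x) = uL x ^ k := by
  have := map_pow (uLHom (R := R)) (Multiplicative.ofAdd x) k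
  simp only [uLHom, MonoidHom.coe_mk, OneHom.coe_mk, toAdd_pow, toAdd_ofAdd, nsmul_eq_mul] at this
  exact this

/-- The subgroup `{g ∈ SL₂(R) : n ∣ c}`. -/
def borel (n : R) : Subgroup SL(2, R) where
  carrier := {g | n ∣ g 1 0}
  mul_mem' := by
    intro g h hg hh
    simp only [Set.mem_ofPred_eq] at hg hh ⊢
    rw [Matrix.SpecialLinearGroup.coe_mul, Matrix.mul_apply, Fin.sum_univ_two]
    exact dvd_add (Dvd.dvd.mul_right hg _) (Dvd.dvd.mul_left hh _)
  one_mem' := by simp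
  inv_mem' := by
    intro g hg
    simp only [Set.mem_ofPred_eq] at hg ⊢
    rw [Matrix.SpecialLinearGroup.coe_inv, Matrix.adjugate_fin_two]
    simpa using hg

theorem mem_borel {n : R} {g : SL(2, R)} : g ∈ borel n ↔ n ∣ g 1 0 := Iff.rfl

theorem uU_mem_borel (n x : R) : uU x ∈ borel n := by simp [mem_borel]
theorem uL_mem_borel (n y : R) : uL (n * y) ∈ borel n := by simp [mem_borel]
theorem uD_mem_borel (n : R) (t : Rˣ) : uD t ∈ borel n := by simp [mem_borel]

/-- The plain matrix `diag(1, t)`. -/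
def dMat (t : R) : Matrix (Fin 2) (Fin 2) R := !![1, 0; 0, t]

/-- Conjugation by `diag(1, t)` on `SL₂(R)`, written out explicitly (underlying function). -/
def conjDFun (t : Rˣ) (g : SL(2, R)) : SL(2, R) :=
  ⟨!![g 0 0, g 0 1 * ((t⁻¹ : Rˣ) : R); g 1 0 * (t : R), g 1 1], by
    have hg := g.2
    rw [Matrix.det_fin_two] at hg
    rw [Matrix.det_fin_two_of]
    have ht : (t : R) * ((t⁻¹ : Rˣ) : R) = 1 := by simp
    linear_combination hg - (g 0 1 * g 1 0) * ht⟩

@[simp] theorem conjDFun_val (t : Rˣ) (g : SL(2, R)) :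
    (conjDFun t g : Matrix (Fin 2) (Fin 2) R) =
      !![g 0 0, g 0 1 * ((t⁻¹ : Rˣ) : R); g 1 0 * (t : R), g 1 1] := rfl

/-- Conjugation by `diag(1, t)` on `SL₂(R)`. -/
def conjD (t : Rˣ) : SL(2, R) →* SL(2, R) where
  toFun := conjDFun t
  map_one' := by
    ext i j
    fin_cases i <;> fin_cases j <;> simp
  map_mul' g h := by
    have ht : (t : R) * ((t⁻¹ : Rˣ) : R) = 1 := by simp
    apply Subtype.ext
    simp only [Matrix.SpecialLinearGroup.coe_mul, conjDFun_val]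
    ext i j
    fin_cases i <;> fin_cases j <;>
      simp [Matrix.mul_apply, Fin.sum_univ_two]
    · linear_combination (-(g 0 1 * h 1 0)) * ht
    · ring
    · ring
    · linear_combination (-(g 1 0 * h 0 1)) * ht

@[simp] theorem conjD_val (t : Rˣ) (g : SL(2, R)) :
    (conjD t g : Matrix (Fin 2) (Fin 2) R) =
      !![g 0 0, g 0 1 * ((t⁻¹ : Rˣ) : R); g 1 0 * (t : R), g 1 1] := rfl

/-- `conjD t g * diag(1,t) = diag(1,t) * g`. -/
theorem conjD_mul_dMat (t : Rˣ) (g : SL(2, R)) :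
    (conjD t g : Matrix (Fin 2) (Fin 2) R) * dMat (t : R) = dMat (t : R) * g := by
  ext i j
  fin_cases i <;> fin_cases j <;>
    simp [dMat, Matrix.mul_apply, Fin.sum_univ_two, mul_comm]

theorem conjD_mem_borel {n : R} (t : Rˣ) {g : SL(2, R)} (hg : g ∈ borel n) :
    conjD t g ∈ borel n := by
  rw [mem_borel] at hg ⊢
  simp only [conjD_val, Matrix.of_apply, Matrix.cons_val', Matrix.cons_val_one, Matrix.cons_val_zero]
  exact Dvd.dvd.mul_right hg _

theorem conjD_uU (t : Rˣ) (x : R) : conjD t (uU x) = uU (x * ((t⁻¹ : Rˣ) : R)) := by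
  ext i j
  fin_cases i <;> fin_cases j <;> simp

theorem conjD_uL (t : Rˣ) (y : R) : conjD t (uL y) = uL (y * (t : R)) := by
  ext i j
  fin_cases i <;> fin_cases j <;> simp

theorem conjD_uD (t s : Rˣ) : conjD t (uD s) = uD s := by
  ext i j
  fin_cases i <;> fin_cases j <;> simp

/-- `D(t) U(x) D(t)⁻¹ = U(t² x)`. -/
theorem uD_mul_uU_mul_inv (t : Rˣ) (x : R) :
    uD t * uU x * (uD t)⁻¹ = uU ((t : R) ^ 2 * x) := by
  rw [mul_inv_eq_iff_eq_mul]
  ext i j
  fin_cases i <;> fin_cases j <;> simp [Matrix.mul_apply, Fin.sum_univ_two]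
  have ht : (t : R) * ((t⁻¹ : Rˣ) : R) = 1 := by simp
  linear_combination (-(t : R) * x) * ht

/-- `D(t)⁻¹ L(y) D(t) = L(t² y)`. -/
theorem uD_inv_mul_uL_mul (t : Rˣ) (y : R) :
    (uD t)⁻¹ * uL y * uD t = uL ((t : R) ^ 2 * y) := by
  rw [mul_assoc, inv_mul_eq_iff_eq_mul]
  ext i j
  fin_cases i <;> fin_cases j <;> simp [Matrix.mul_apply, Fin.sum_univ_two]
  have ht : (t : R) * ((t⁻¹ : Rˣ) : R) = 1 := by simp
  linear_combination (-(y * (t : R))) * ht

end General

section ZModPart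

/-- Stable range one for `ℤ/M`: if `gcd(a, c, M) = 1` then `a + t c` is prime to `M` for a
suitable `t`. -/
theorem exists_coprime_add_mul (a c M : ℕ) (hM : M ≠ 0) (h : Nat.gcd a (Nat.gcd c M) = 1) :
    ∃ t : ℕ, Nat.Coprime (a + t * c) M := by
  classical
  let S : Finset ℕ := M.primeFactors.filter (fun p => ¬ p ∣ a)
  refine ⟨∏ p ∈ S, p, ?_⟩
  by_contra hcop
  obtain ⟨q, hq, hq1, hq2⟩ := Nat.Prime.not_coprime_iff_dvd.mp hcop
  by_cases hqa : q ∣ a
  · have hq3 : q ∣ (∏ p ∈ S, p) * c := (Nat.dvd_add_right hqa).mp hq1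
    rcases (Nat.Prime.dvd_mul hq).mp hq3 with hqt | hqc
    · obtain ⟨p, hpS, hqp⟩ := (Prime.dvd_finsetProd_iff hq.prime _).mp hqt
      have hp : p.Prime := Nat.prime_of_mem_primeFactors (Finset.mem_filter.mp hpS).1
      have : q = p := (Nat.prime_dvd_prime_iff_eq hq hp).mp hqp
      subst this
      exact (Finset.mem_filter.mp hpS).2 hqa
    · have : q ∣ Nat.gcd a (Nat.gcd c M) := Nat.dvd_gcd hqa (Nat.dvd_gcd hqc hq2)
      rw [h] at this
      exact hq.one_lt.ne' (Nat.dvd_one.mp this)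
  · have hqS : q ∈ S := Finset.mem_filter.mpr ⟨Nat.mem_primeFactors.mpr ⟨hq, hq2, hM⟩, hqa⟩
    have hqt : q ∣ ∏ p ∈ S, p := Finset.dvd_prod_of_mem _ hqS
    have : q ∣ a := (Nat.dvd_add_left (Dvd.dvd.mul_right hqt c)).mp hq1
    exact hqa this

variable {M : ℕ} [NeZero M]

/-- In `ZMod M`, a unimodular pair `(a, c)` can be moved to `(unit, c)` by `a ↦ a + x c`. -/
theorem exists_isUnit_add_mul (a c : ZMod M) (h : IsCoprime a c) :
    ∃ x : ZMod M, IsUnit (a + x * c) := by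
  obtain ⟨u, v, huv⟩ := h
  have hg : Nat.gcd a.val (Nat.gcd c.val M) = 1 := by
    set g := Nat.gcd a.val (Nat.gcd c.val M) with hgdef
    have hga : (g : ℤ) ∣ a.val := Int.natCast_dvd_natCast.mpr (Nat.gcd_dvd_left _ _)
    have hgc : (g : ℤ) ∣ c.val :=
      Int.natCast_dvd_natCast.mpr ((Nat.gcd_dvd_right _ _).trans (Nat.gcd_dvd_left _ _))
    have hgM : (g : ℤ) ∣ M :=
      Int.natCast_dvd_natCast.mpr ((Nat.gcd_dvd_right _ _).trans (Nat.gcd_dvd_right _ _))
    have hz : (((u.val : ℤ) * a.val + (v.val : ℤ) * c.val - 1 : ℤ) : ZMod M) = 0 := by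
      push_cast
      rw [ZMod.natCast_zmod_val, ZMod.natCast_zmod_val, ZMod.natCast_zmod_val,
        ZMod.natCast_zmod_val, huv, sub_self]
    have hN : (M : ℤ) ∣ (u.val : ℤ) * a.val + (v.val : ℤ) * c.val - 1 :=
      (ZMod.intCast_zmod_eq_zero_iff_dvd _ M).mp hz
    have h1 : (g : ℤ) ∣ 1 := by
      have h2 : (g : ℤ) ∣ (u.val : ℤ) * a.val + (v.val : ℤ) * c.val - 1 := hgM.trans hN
      have h3 : (g : ℤ) ∣ (u.val : ℤ) * a.val + (v.val : ℤ) * c.val :=
        Dvd.dvd.add (Dvd.dvd.mul_left hga _) (Dvd.dvd.mul_left hgc _)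
      have := Dvd.dvd.sub h3 h2
      simpa using this
    have : g ∣ 1 := Int.natCast_dvd_natCast.mp (by simpa using h1)
    exact Nat.dvd_one.mp this
  obtain ⟨t, ht⟩ := exists_coprime_add_mul a.val c.val M (NeZero.ne M) hg
  refine ⟨(t : ZMod M), ?_⟩
  have := (ZMod.isUnit_iff_coprime (a.val + t * c.val) M).mpr ht
  push_cast at this
  rwa [ZMod.natCast_zmod_val, ZMod.natCast_zmod_val] at this

/-- Every element of `borel n ≤ SL₂(ℤ/M)` is of the form `U(x) L(n y) D(t) U(z)`. -/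
theorem exists_decomp (n : ZMod M) {g : SL(2, ZMod M)} (hg : g ∈ borel n) :
    ∃ (x y z : ZMod M) (t : (ZMod M)ˣ), g = uU x * uL (n * y) * uD t * uU z := by
  obtain ⟨c₀, hc₀⟩ := (mem_borel.mp hg)
  have hdet := g.2
  rw [Matrix.det_fin_two] at hdet
  have hcop : IsCoprime (g 0 0) (g 1 0) := ⟨g 1 1, - g 0 1, by linear_combination hdet⟩
  obtain ⟨x₀, hx₀⟩ := exists_isUnit_add_mul (g 0 0) (g 1 0) hcop
  obtain ⟨t, ht⟩ := hx₀
  have htt : (t : ZMod M) * ((t⁻¹ : (ZMod M)ˣ) : ZMod M) = 1 := by simp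
  refine ⟨-x₀, c₀ * ((t⁻¹ : (ZMod M)ˣ) : ZMod M),
    (g 0 1 + x₀ * g 1 1) * ((t⁻¹ : (ZMod M)ˣ) : ZMod M), t, ?_⟩
  have ha : g 0 0 = (t : ZMod M) - x₀ * (n * c₀) := by rw [ht, hc₀]; ring
  have hdet' : ((t : ZMod M) - x₀ * (n * c₀)) * g 1 1 - g 0 1 * (n * c₀) = 1 := by
    rw [← ha, ← hc₀]; exact hdet
  ext i j
  fin_cases i <;> fin_cases j <;>
    simp [Matrix.mul_apply, Fin.sum_univ_two]
  · rw [ha]
    linear_combination (x₀ * n * c₀) * htt
  · linear_combination (-(g 0 1) + x₀ * n * c₀ * (g 0 1 + x₀ * g 1 1) *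
      ((t⁻¹ : (ZMod M)ˣ) : ZMod M)) * htt - ((t⁻¹ : (ZMod M)ˣ) : ZMod M) * x₀ * hdet'
  · rw [hc₀]
    linear_combination (-(n * c₀)) * htt
  · linear_combination (-(g 1 1) - n * c₀ * (g 0 1 + x₀ * g 1 1) *
      ((t⁻¹ : (ZMod M)ˣ) : ZMod M)) * htt + ((t⁻¹ : (ZMod M)ˣ) : ZMod M) * hdet'

end ZModPart

section LemmaX

variable {R : Type*} [CommRing R] {C : Type*} [CommGroup C]

/-- Abstract core of Lemma X: a character `χ` of the additive group of `R`, invariant under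
multiplication by `t ^ 2`, where `t` is the image of the natural number `ℓ`. -/
theorem pow_succ_mul_unit_eq (χ : Multiplicative R →* C) (t : Rˣ) (ℓ : ℕ)
    (hℓ : (ℓ : R) = t) (hinv : ∀ y : R, χ (Multiplicative.ofAdd ((t : R) ^ 2 * y)) =
      χ (Multiplicative.ofAdd y)) (x : R) :
    χ (Multiplicative.ofAdd (x * (t : R))) ^ (ℓ + 1) = χ (Multiplicative.ofAdd x) ^ (ℓ + 1) ∧
    χ (Multiplicative.ofAdd (x * ((t⁻¹ : Rˣ) : R))) ^ (ℓ + 1) =
      χ (Multiplicative.ofAdd x) ^ (ℓ + 1) := by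
  have hpow : ∀ y : R, χ (Multiplicative.ofAdd y) ^ ℓ = χ (Multiplicative.ofAdd ((t : R) * y)) := by
    intro y
    rw [← map_pow, ← ofAdd_nsmul, nsmul_eq_mul, hℓ]
  have htt : (t : R) * ((t⁻¹ : Rˣ) : R) = 1 := by simp
  constructor
  · rw [pow_succ, pow_succ, hpow, hpow]
    have h1 : (t : R) * (x * (t : R)) = (t : R) ^ 2 * x := by ring
    rw [h1, hinv, mul_comm x (t : R), mul_comm]
  · rw [pow_succ, pow_succ, hpow, hpow]
    have h1 : (t : R) * (x * ((t⁻¹ : Rˣ) : R)) = x := by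
      linear_combination x * htt
    have h2 : (t : R) * x = (t : R) ^ 2 * (x * ((t⁻¹ : Rˣ) : R)) := by
      linear_combination (-(t : R) * x) * htt
    rw [h1, h2, hinv, mul_comm]

/-- Conjugation by `diag(1,t)` restricted to `borel n`. -/
def conjB (n : R) (t : Rˣ) : borel n →* borel n :=
  ((conjD t).comp (borel n).subtype).codRestrict (borel n) (fun g => conjD_mem_borel t g.2)

@[simp] theorem conjB_coe (n : R) (t : Rˣ) (g : borel n) :
    ((conjB n t g : borel n) : SL(2, R)) = conjD t (g : SL(2, R)) := rfl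

/-- `x ↦ U(x)` as a hom `Multiplicative R →* borel n`. -/
def bUHom (n : R) : Multiplicative R →* borel n :=
  (uUHom (R := R)).codRestrict (borel n) (fun _ => uU_mem_borel n _)

/-- `y ↦ L(n y)` as a hom `Multiplicative R →* borel n`. -/
def bLHom (n : R) : Multiplicative R →* borel n where
  toFun y := ⟨uL (n * y.toAdd), uL_mem_borel n _⟩
  map_one' := by
    apply Subtype.ext
    simp
  map_mul' x y := by
    apply Subtype.ext
    simp [mul_add, uL_add]

/-- `D(t)` as an element of `borel n`. -/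
def bD (n : R) (t : Rˣ) : borel n := ⟨uD t, uD_mem_borel n t⟩

@[simp] theorem bUHom_coe (n : R) (x : Multiplicative R) :
    ((bUHom n x : borel n) : SL(2, R)) = uU x.toAdd := rfl

@[simp] theorem bLHom_coe (n : R) (y : Multiplicative R) :
    ((bLHom n y : borel n) : SL(2, R)) = uL (n * y.toAdd) := rfl

@[simp] theorem bD_coe (n : R) (t : Rˣ) : ((bD n t : borel n) : SL(2, R)) = uD t := rfl

theorem conjB_bUHom (n : R) (t : Rˣ) (x : R) :
    conjB n t (bUHom n (Multiplicative.ofAdd x)) =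
      bUHom n (Multiplicative.ofAdd (x * ((t⁻¹ : Rˣ) : R))) := by
  apply Subtype.ext
  simp [conjD_uU]

theorem conjB_bLHom (n : R) (t : Rˣ) (y : R) :
    conjB n t (bLHom n (Multiplicative.ofAdd y)) =
      bLHom n (Multiplicative.ofAdd (y * (t : R))) := by
  apply Subtype.ext
  simp [conjD_uL, mul_assoc]

theorem conjB_bD (n : R) (t s : Rˣ) : conjB n t (bD n s) = bD n s := by
  apply Subtype.ext
  simp [conjD_uD]

theorem bD_mul_bUHom_mul_inv (n : R) (t : Rˣ) (x : R) :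
    bD n t * bUHom n (Multiplicative.ofAdd x) * (bD n t)⁻¹ =
      bUHom n (Multiplicative.ofAdd ((t : R) ^ 2 * x)) := by
  apply Subtype.ext
  simp [uD_mul_uU_mul_inv]

theorem bD_inv_mul_bLHom_mul (n : R) (t : Rˣ) (y : R) :
    (bD n t)⁻¹ * bLHom n (Multiplicative.ofAdd y) * bD n t =
      bLHom n (Multiplicative.ofAdd ((t : R) ^ 2 * y)) := by
  apply Subtype.ext
  simp only [Subgroup.coe_mul, Subgroup.coe_inv, bD_coe, bLHom_coe, toAdd_ofAdd]
  rw [uD_inv_mul_uL_mul]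
  congr 1
  ring

/-- Lemma X on the generators. -/
theorem lemmaX_gen (n : R) (φ : borel n →* C) (t : Rˣ) (ℓ : ℕ) (hℓ : (ℓ : R) = t) :
    (∀ x : R, φ (conjB n t (bUHom n (Multiplicative.ofAdd x))) ^ (ℓ + 1) =
      φ (bUHom n (Multiplicative.ofAdd x)) ^ (ℓ + 1)) ∧
    (∀ y : R, φ (conjB n t (bLHom n (Multiplicative.ofAdd y))) ^ (ℓ + 1) =
      φ (bLHom n (Multiplicative.ofAdd y)) ^ (ℓ + 1)) := by
  constructor
  · intro x
    rw [conjB_bUHom]
    have hinv : ∀ y : R, (φ.comp (bUHom n)) (Multiplicative.ofAdd ((t : R) ^ 2 * y)) =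
        (φ.comp (bUHom n)) (Multiplicative.ofAdd y) := by
      intro y
      simp only [MonoidHom.comp_apply]
      rw [← bD_mul_bUHom_mul_inv, map_mul, map_mul, map_inv, mul_comm (φ (bD n t)), mul_assoc,
        mul_inv_cancel, mul_one]
    exact (pow_succ_mul_unit_eq (φ.comp (bUHom n)) t ℓ hℓ hinv x).2
  · intro y
    rw [conjB_bLHom]
    have hinv : ∀ z : R, (φ.comp (bLHom n)) (Multiplicative.ofAdd ((t : R) ^ 2 * z)) =
        (φ.comp (bLHom n)) (Multiplicative.ofAdd z) := by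
      intro z
      simp only [MonoidHom.comp_apply]
      rw [← bD_inv_mul_bLHom_mul, map_mul, map_mul, map_inv, mul_comm (φ (bD n t))⁻¹, mul_assoc,
        inv_mul_cancel, mul_one]
    exact (pow_succ_mul_unit_eq (φ.comp (bLHom n)) t ℓ hℓ hinv y).1

end LemmaX

section Main

variable {M : ℕ} [NeZero M] {C : Type*} [CommGroup C]

/-- **Lemma X.** For every character `φ` of `borel n ≤ SL₂(ℤ/M)` with values in a commutative
group, and every natural number `ℓ` whose class mod `M` is the unit `t`, the characters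
`φ ∘ conj_{diag(1,t)}` and `φ` have the same `(ℓ+1)`-st power. -/
theorem lemmaX (n : ZMod M) (φ : borel n →* C) (t : (ZMod M)ˣ) (ℓ : ℕ)
    (hℓ : (ℓ : ZMod M) = t) (g : borel n) :
    φ (conjB n t g) ^ (ℓ + 1) = φ g ^ (ℓ + 1) := by
  obtain ⟨x, y, z, s, hg⟩ := exists_decomp n g.2
  have hg' : g = bUHom n (Multiplicative.ofAdd x) * bLHom n (Multiplicative.ofAdd y) * bD n s *
      bUHom n (Multiplicative.ofAdd z) := by
    apply Subtype.ext
    simpa using hg
  obtain ⟨hU, hL⟩ := lemmaX_gen n φ t ℓ hℓ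
  rw [hg']
  simp only [map_mul, mul_pow, hU, hL, conjB_bD]

/-- **Finite-level Eisenstein formula.** Let `φ` be a character of `borel n ≤ SL₂(ℤ/M)`, `ℓ` a
natural number which is a unit mod `M` (class `t`), and suppose that a family `γ i ∈ borel n`,
indexed by a type with `ℓ + 1` elements, satisfies
`γ i * (diag(1,t) * u (σ i)) = (diag(1,t) * u i) * g` for a permutation `σ` and elements
`u i ∈ borel n`.  Then `∏ i, φ (γ i) = φ g ^ (ℓ + 1)`. -/
theorem prod_map_eq_pow (n : ZMod M) (φ : borel n →* C) (t : (ZMod M)ˣ) (ℓ : ℕ)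
    (hℓ : (ℓ : ZMod M) = t) {ι : Type*} [Fintype ι] (hcard : Fintype.card ι = ℓ + 1)
    (σ : Equiv.Perm ι) (u : ι → borel n) (g : borel n) (γ : ι → borel n)
    (h : ∀ i, ((γ i : SL(2, ZMod M)) : Matrix (Fin 2) (Fin 2) (ZMod M)) *
        (dMat (t : ZMod M) * ((u (σ i) : SL(2, ZMod M)) : Matrix (Fin 2) (Fin 2) (ZMod M))) =
      (dMat (t : ZMod M) * ((u i : SL(2, ZMod M)) : Matrix (Fin 2) (Fin 2) (ZMod M))) *
        ((g : SL(2, ZMod M)) : Matrix (Fin 2) (Fin 2) (ZMod M))) :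
    ∏ i, φ (γ i) = φ g ^ (ℓ + 1) := by
  have hγ : ∀ i, γ i = conjB n t (u i * g * (u (σ i))⁻¹) := by
    intro i
    apply Subtype.ext
    apply Subtype.ext
    set h' : SL(2, ZMod M) := (u i : SL(2, ZMod M)) * g * (u (σ i) : SL(2, ZMod M))⁻¹ with hh'
    have h1 : h' * (u (σ i) : SL(2, ZMod M)) = (u i : SL(2, ZMod M)) * g := by
      rw [hh']; group
    have h2 : (h' : Matrix (Fin 2) (Fin 2) (ZMod M)) * (u (σ i) : SL(2, ZMod M)) =
        ((u i : SL(2, ZMod M)) : Matrix (Fin 2) (Fin 2) (ZMod M)) * (g : SL(2, ZMod M)) := by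
      rw [← Matrix.SpecialLinearGroup.coe_mul, h1, Matrix.SpecialLinearGroup.coe_mul]
    have hunit : IsUnit (dMat (t : ZMod M) *
        ((u (σ i) : SL(2, ZMod M)) : Matrix (Fin 2) (Fin 2) (ZMod M))) := by
      rw [Matrix.isUnit_iff_isUnit_det, Matrix.det_mul]
      have : (dMat (t : ZMod M)).det = t := by simp [dMat, Matrix.det_fin_two_of]
      rw [this, (u (σ i) : SL(2, ZMod M)).2, mul_one]
      exact t.isUnit
    apply hunit.mul_left_injective
    show ((γ i : SL(2, ZMod M)) : Matrix (Fin 2) (Fin 2) (ZMod M)) * _ =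
      ((conjD t h' : SL(2, ZMod M)) : Matrix (Fin 2) (Fin 2) (ZMod M)) * _
    calc ((γ i : SL(2, ZMod M)) : Matrix (Fin 2) (Fin 2) (ZMod M)) *
          (dMat (t : ZMod M) * ((u (σ i) : SL(2, ZMod M)) : Matrix (Fin 2) (Fin 2) (ZMod M)))
        = (dMat (t : ZMod M) * ((u i : SL(2, ZMod M)) : Matrix (Fin 2) (Fin 2) (ZMod M))) *
            ((g : SL(2, ZMod M)) : Matrix (Fin 2) (Fin 2) (ZMod M)) := h i
      _ = dMat (t : ZMod M) * ((h' : Matrix (Fin 2) (Fin 2) (ZMod M)) *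
            ((u (σ i) : SL(2, ZMod M)) : Matrix (Fin 2) (Fin 2) (ZMod M))) := by
          rw [h2, Matrix.mul_assoc]
      _ = (dMat (t : ZMod M) * (h' : Matrix (Fin 2) (Fin 2) (ZMod M))) *
            ((u (σ i) : SL(2, ZMod M)) : Matrix (Fin 2) (Fin 2) (ZMod M)) := by
          rw [Matrix.mul_assoc]
      _ = (((conjD t h' : SL(2, ZMod M)) : Matrix (Fin 2) (Fin 2) (ZMod M)) * dMat (t : ZMod M)) *
            ((u (σ i) : SL(2, ZMod M)) : Matrix (Fin 2) (Fin 2) (ZMod M)) := by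
          rw [conjD_mul_dMat]
      _ = _ := by rw [Matrix.mul_assoc]
  have hprod : ∏ i, φ (γ i) =
      ∏ i, (φ (conjB n t (u i)) * φ (conjB n t g) * (φ (conjB n t (u (σ i))))⁻¹) := by
    refine Finset.prod_congr rfl (fun i _ => ?_)
    rw [hγ i, map_mul, map_mul, map_inv, map_mul, map_mul, map_inv]
  rw [hprod, Finset.prod_mul_distrib, Finset.prod_mul_distrib, Finset.prod_inv_distrib,
    Equiv.prod_comp σ (fun i => φ (conjB n t (u i))), Finset.prod_const, Finset.card_univ, hcard,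
    mul_comm (∏ i, φ (conjB n t (u i))), mul_assoc, mul_inv_cancel, mul_one]
  exact lemmaX n φ t ℓ hℓ g

/-- **Finite-level Eisenstein formula for the standard Hecke representatives.**
Let `φ` be a character of `borel n ≤ SL₂(ℤ/M)` and `ℓ` a natural number prime to `M`.  Suppose
the matrices `a i` (`i` in a type with `ℓ + 1` elements) are the reductions of the standard
representatives `[[1, j], [0, ℓ]]` and `[[ℓ, 0], [0, 1]]`, and that `a i * g = γ i * a (σ i)` for
a permutation `σ` and elements `g, γ i ∈ borel n`.  Then `∏ i, φ (γ i) = φ g ^ (ℓ + 1)`: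
on characters of congruence quotients the Hecke operator `T_ℓ` is multiplication by `ℓ + 1`,
for **every** `ℓ` prime to `M` (not only `ℓ ≡ 1 mod M`). -/
theorem prod_eq_pow_of_heckeReps (n : ZMod M) (φ : borel n →* C) {ℓ : ℕ}
    (hℓ : IsUnit (ℓ : ZMod M)) {ι : Type*} [Fintype ι] (hcard : Fintype.card ι = ℓ + 1)
    (σ : Equiv.Perm ι) (a : ι → Matrix (Fin 2) (Fin 2) (ZMod M))
    (ha : ∀ i, (∃ j : ZMod M, a i = !![1, j; 0, (ℓ : ZMod M)]) ∨ a i = !![(ℓ : ZMod M), 0; 0, 1])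
    (g : borel n) (γ : ι → borel n)
    (h : ∀ i, a i * ((g : SL(2, ZMod M)) : Matrix (Fin 2) (Fin 2) (ZMod M)) =
      ((γ i : SL(2, ZMod M)) : Matrix (Fin 2) (Fin 2) (ZMod M)) * a (σ i)) :
    ∏ i, φ (γ i) = φ g ^ (ℓ + 1) := by
  obtain ⟨t, ht⟩ := hℓ
  have hu : ∀ i, ∃ u : borel n, a i = dMat (t : ZMod M) *
      ((u : SL(2, ZMod M)) : Matrix (Fin 2) (Fin 2) (ZMod M)) := by
    intro i
    rcases ha i with ⟨j, hj⟩ | hj
    · refine ⟨bUHom n (Multiplicative.ofAdd j), ?_⟩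
      rw [hj, ← ht]
      ext r c
      fin_cases r <;> fin_cases c <;> simp [dMat, Matrix.mul_apply, Fin.sum_univ_two]
    · refine ⟨bD n t, ?_⟩
      rw [hj, ← ht]
      ext r c
      fin_cases r <;> fin_cases c <;> simp [dMat, Matrix.mul_apply, Fin.sum_univ_two]
  choose u hu using hu
  refine prod_map_eq_pow n φ t ℓ ht.symm hcard σ u g γ (fun i => ?_)
  rw [← hu, ← hu]
  exact (h i).symm

/-- Additive form of `prod_eq_pow_of_heckeReps`. -/
theorem sum_eq_nsmul_of_heckeReps {A : Type*} [AddCommGroup A] (n : ZMod M)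
    (φ : Additive (borel n) →+ A) {ℓ : ℕ}
    (hℓ : IsUnit (ℓ : ZMod M)) {ι : Type*} [Fintype ι] (hcard : Fintype.card ι = ℓ + 1)
    (σ : Equiv.Perm ι) (a : ι → Matrix (Fin 2) (Fin 2) (ZMod M))
    (ha : ∀ i, (∃ j : ZMod M, a i = !![1, j; 0, (ℓ : ZMod M)]) ∨ a i = !![(ℓ : ZMod M), 0; 0, 1])
    (g : borel n) (γ : ι → borel n)
    (h : ∀ i, a i * ((g : SL(2, ZMod M)) : Matrix (Fin 2) (Fin 2) (ZMod M)) =
      ((γ i : SL(2, ZMod M)) : Matrix (Fin 2) (Fin 2) (ZMod M)) * a (σ i)) :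
    ∑ i, φ (Additive.ofMul (γ i)) = (ℓ + 1) • φ (Additive.ofMul g) := by
  have := prod_eq_pow_of_heckeReps n (AddMonoidHom.toMultiplicative φ) hℓ hcard σ a ha g γ h
  have h2 := congrArg Multiplicative.toAdd this
  rw [toAdd_prod, toAdd_pow] at h2
  exact h2

end Main

end Fermat.Agent.S41.H49
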