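/-
S41 / I-EIS-Gamma0 (helper49).

Congruence characters of `Γ₀(N)` are Eisenstein for every prime `ℓ ∤ N M`:
if `φ : Γ₀(N) → A` kills `Γ₀(N) ∩ Γ(M)` then `T_ℓ φ = (ℓ + 1) φ` (helper85's `heckeTHom`).

* `redG N M : Gamma0 N →* borel (N : ZMod M)` reduction mod `M`, `redG_surjective`,
  `redG_eq_one_iff`.
* `heckeTHom_eq_nsmul_of_kills_Gamma`.
-/
import Mathlib
import Fermat.Agent.S41.H49_EisAll
import Fermat.Agent.S41.H85_HeckeGamma0

set_option autoImplicit false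

open CongruenceSubgroup Matrix.SpecialLinearGroup ModularForm
open scoped MatrixGroups
open P2MW.S_ModularForm_heckeT_slash_eq_self_of_mem_Gamma0.ModularForm.HeckeSlashInvariance

namespace Fermat.Agent.S41.H49

open Matrix

/-- Reduction mod `M` on `SL(2, ℤ)`. -/
noncomputable def redSL (M : ℕ) : SL(2, ℤ) →* SL(2, ZMod M) :=
  Matrix.SpecialLinearGroup.map (Int.castRingHom (ZMod M))

@[simp] theorem redSL_apply (M : ℕ) (g : SL(2, ℤ)) (i j : Fin 2) :
    (redSL M g) i j = ((g i j : ℤ) : ZMod M) := rfl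

theorem redSL_val (M : ℕ) (g : SL(2, ℤ)) :
    (redSL M g : Matrix (Fin 2) (Fin 2) (ZMod M)) =
      (g : Matrix (Fin 2) (Fin 2) ℤ).map (Int.castRingHom (ZMod M)) := rfl

theorem redSL_mem_borel (N M : ℕ) (g : Gamma0 N) :
    redSL M (g : SL(2, ℤ)) ∈ borel ((N : ℕ) : ZMod M) := by
  rw [mem_borel, redSL_apply]
  obtain ⟨k, hk⟩ := H85.dvd_of_mem_Gamma0 g.2
  rw [hk]
  push_cast
  exact Dvd.intro _ rfl

/-- Reduction mod `M` as a hom `Γ₀(N) →* borel (N : ZMod M)`. -/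
noncomputable def redG (N M : ℕ) : Gamma0 N →* borel ((N : ℕ) : ZMod M) :=
  ((redSL M).comp (Gamma0 N).subtype).codRestrict _ (redSL_mem_borel N M)

@[simp] theorem redG_coe (N M : ℕ) (g : Gamma0 N) :
    ((redG N M g : borel ((N : ℕ) : ZMod M)) : SL(2, ZMod M)) = redSL M (g : SL(2, ℤ)) := rfl

theorem redG_eq_one_iff (N M : ℕ) (g : Gamma0 N) :
    redG N M g = 1 ↔ (g : SL(2, ℤ)) ∈ Gamma M := by
  rw [Gamma_mem']
  constructor
  · intro h
    have := congrArg (fun x : borel ((N : ℕ) : ZMod M) => (x : SL(2, ZMod M))) h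
    exact this
  · intro h
    apply Subtype.ext
    exact h

/-- A unimodular pair mod `M` has lifts with `gcd (ã, c̃, M) = 1`. -/
theorem gcd_lift_eq_one {M : ℕ} (a c : ZMod M) (h : IsCoprime a c) (a' c' : ℕ)
    (ha : ((a' : ℕ) : ZMod M) = a) (hc : ((c' : ℕ) : ZMod M) = c) :
    Nat.gcd a' (Nat.gcd M c') = 1 := by
  obtain ⟨u, v, huv⟩ := h
  set g := Nat.gcd a' (Nat.gcd M c') with hgdef
  have hga : (g : ℤ) ∣ a' := Int.natCast_dvd_natCast.mpr (Nat.gcd_dvd_left _ _)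
  have hgc : (g : ℤ) ∣ c' :=
    Int.natCast_dvd_natCast.mpr ((Nat.gcd_dvd_right _ _).trans (Nat.gcd_dvd_right _ _))
  have hgM : (g : ℤ) ∣ M :=
    Int.natCast_dvd_natCast.mpr ((Nat.gcd_dvd_right _ _).trans (Nat.gcd_dvd_left _ _))
  obtain ⟨u', hu'⟩ := ZMod.intCast_surjective u
  obtain ⟨v', hv'⟩ := ZMod.intCast_surjective v
  have hz : ((u' * a' + v' * c' - 1 : ℤ) : ZMod M) = 0 := by
    push_cast
    rw [hu', hv', ha, hc, huv, sub_self]
  have hN : (M : ℤ) ∣ u' * a' + v' * c' - 1 :=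
    (ZMod.intCast_zmod_eq_zero_iff_dvd _ M).mp hz
  have h1 : (g : ℤ) ∣ 1 := by
    have h2 : (g : ℤ) ∣ u' * a' + v' * c' - 1 := hgM.trans hN
    have h3 : (g : ℤ) ∣ u' * a' + v' * c' :=
      Dvd.dvd.add (Dvd.dvd.mul_left hga _) (Dvd.dvd.mul_left hgc _)
    have := Dvd.dvd.sub h3 h2
    simpa using this
  have : g ∣ 1 := Int.natCast_dvd_natCast.mp (by simpa using h1)
  exact Nat.dvd_one.mp this

/-- **Strong approximation for `Γ₀(N)`**: reduction mod `M` maps `Γ₀(N)` onto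
`borel (N : ZMod M)`. -/
theorem redG_surjective (N M : ℕ) [NeZero N] [NeZero M] : Function.Surjective (redG N M) := by
  rintro ⟨g, hg⟩
  obtain ⟨c₀, hc₀⟩ := mem_borel.mp hg
  have hdet := g.2
  rw [Matrix.det_fin_two] at hdet
  have hcop : IsCoprime (g 0 0) (g 1 0) := ⟨g 1 1, - g 0 1, by linear_combination hdet⟩
  -- lifts of the first column
  set a₀ : ℕ := (g 0 0).val with ha₀
  set c₁ : ℕ := if c₀.val = 0 then M else c₀.val with hc₁
  have hc₁ne : c₁ ≠ 0 := by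
    rw [hc₁]; split_ifs with h0
    · exact NeZero.ne M
    · exact h0
  have hc₁cast : ((c₁ : ℕ) : ZMod M) = c₀ := by
    rw [hc₁]; split_ifs with h0
    · rw [ZMod.natCast_self]; exact ((ZMod.val_eq_zero c₀).mp h0).symm
    · exact ZMod.natCast_zmod_val c₀
  set c' : ℕ := N * c₁ with hc'
  have hc'ne : c' ≠ 0 := Nat.mul_ne_zero (NeZero.ne N) hc₁ne
  have hc'cast : ((c' : ℕ) : ZMod M) = g 1 0 := by
    rw [hc', Nat.cast_mul, hc₁cast, hc₀]
  have ha₀cast : ((a₀ : ℕ) : ZMod M) = g 0 0 := ZMod.natCast_zmod_val _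
  have hgcd := gcd_lift_eq_one (g 0 0) (g 1 0) hcop a₀ c' ha₀cast hc'cast
  obtain ⟨t, ht⟩ := exists_coprime_add_mul a₀ M c' hc'ne hgcd
  set a' : ℕ := a₀ + t * M with ha'
  have ha'cast : ((a' : ℕ) : ZMod M) = g 0 0 := by
    rw [ha']; push_cast; rw [ha₀cast, ZMod.natCast_self, mul_zero, add_zero]
  obtain ⟨u, v, huv⟩ := Nat.isCoprime_iff_coprime.mpr ht
  -- the first lift
  let g₁ : SL(2, ℤ) := ⟨!![(a' : ℤ), -v; (c' : ℤ), u], by
    rw [Matrix.det_fin_two_of]; linear_combination huv⟩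
  have hg₁ : g₁ ∈ Gamma0 N := by
    apply H85.mem_Gamma0_of_dvd
    show (N : ℤ) ∣ (c' : ℤ)
    rw [hc']; push_cast; exact Dvd.intro _ rfl
  -- the correction by an upper unipotent
  have e00 : (redSL M g₁) 0 0 = g 0 0 := by
    show (((a' : ℕ) : ℤ) : ZMod M) = g 0 0
    rw [Int.cast_natCast, ha'cast]
  have e10 : (redSL M g₁) 1 0 = g 1 0 := by
    show (((c' : ℕ) : ℤ) : ZMod M) = g 1 0
    rw [Int.cast_natCast, hc'cast]
  have e01 : (redSL M g₁) 0 1 = -((v : ℤ) : ZMod M) := by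
    show ((-v : ℤ) : ZMod M) = _
    push_cast; rfl
  have e11 : (redSL M g₁) 1 1 = ((u : ℤ) : ZMod M) := rfl
  have huv' : ((u : ℤ) : ZMod M) * g 0 0 + ((v : ℤ) : ZMod M) * g 1 0 = 1 := by
    have := congrArg (Int.cast : ℤ → ZMod M) huv
    push_cast at this
    rw [ha'cast, hc'cast] at this
    exact this
  set h := (redSL M g₁)⁻¹ * g with hh
  have hh00 : h 0 0 = 1 := by
    rw [hh, Matrix.SpecialLinearGroup.coe_mul, Matrix.SpecialLinearGroup.coe_inv,
      Matrix.adjugate_fin_two, Matrix.mul_apply, Fin.sum_univ_two]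
    simp only [Matrix.of_apply, Matrix.cons_val', Matrix.cons_val_zero,
      Matrix.cons_val_one, Matrix.cons_val_fin_one]
    rw [e11, e01]
    linear_combination huv'
  have hh10 : h 1 0 = 0 := by
    rw [hh, Matrix.SpecialLinearGroup.coe_mul, Matrix.SpecialLinearGroup.coe_inv,
      Matrix.adjugate_fin_two, Matrix.mul_apply, Fin.sum_univ_two]
    simp only [Matrix.of_apply, Matrix.cons_val', Matrix.cons_val_zero,
      Matrix.cons_val_one, Matrix.cons_val_fin_one]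
    rw [e10, e00]
    ring
  have hh11 : h 1 1 = 1 := by
    have hd := h.2
    rw [Matrix.det_fin_two, hh00, hh10] at hd
    linear_combination hd
  have hhU : h = uU (h 0 1) := by
    ext i j
    fin_cases i <;> fin_cases j <;> simp [hh00, hh10, hh11]
  let g₂ : SL(2, ℤ) := ⟨!![1, ((h 0 1).val : ℤ); 0, 1], by simp [Matrix.det_fin_two_of]⟩
  have hg₂ : g₂ ∈ Gamma0 N := by
    apply H85.mem_Gamma0_of_dvd
    show (N : ℤ) ∣ (0 : ℤ)
    exact dvd_zero _
  have hred₂ : redSL M g₂ = uU (h 0 1) := by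
    ext i j
    fin_cases i <;> fin_cases j
    · show ((1 : ℤ) : ZMod M) = 1
      simp
    · show ((((h 0 1).val : ℕ) : ℤ) : ZMod M) = h 0 1
      simp
    · show ((0 : ℤ) : ZMod M) = 0
      simp
    · show ((1 : ℤ) : ZMod M) = 1
      simp
  refine ⟨⟨g₁ * g₂, (Gamma0 N).mul_mem hg₁ hg₂⟩, ?_⟩
  apply Subtype.ext
  show redSL M (g₁ * g₂) = g
  rw [map_mul, hred₂, ← hhU, hh, mul_inv_cancel_left]

/-- The integral matrices underlying the prelude representatives `heckeRep ℓ x`. -/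
noncomputable def heckeInt (ℓ : ℕ) : OnePoint (ZMod ℓ) → Matrix (Fin 2) (Fin 2) ℤ
  | none => !![(ℓ : ℤ), 0; 0, 1]
  | some j => !![1, (j.val : ℤ); 0, (ℓ : ℤ)]

theorem heckeRep_val (ℓ : ℕ) (hℓ : ℓ ≠ 0) (x : OnePoint (ZMod ℓ)) :
    ((heckeRep ℓ x : GL (Fin 2) ℝ) : Matrix (Fin 2) (Fin 2) ℝ) =
      (heckeInt ℓ x).map (Int.castRingHom ℝ) := by
  induction x using OnePoint.rec with
  | infty =>
    rw [heckeRep_infty, val_heckeDiagMatrix hℓ]
    ext i j
    fin_cases i <;> fin_cases j <;> simp [heckeInt]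
  | coe j =>
    rw [heckeRep_coe, val_heckeMatrix hℓ]
    ext i k
    fin_cases i <;> fin_cases k <;> simp [heckeInt]

theorem gl_val (N : ℕ) (γ : Gamma0 N) :
    ((H85.gl N γ : GL (Fin 2) ℝ) : Matrix (Fin 2) (Fin 2) ℝ) =
      ((γ : SL(2, ℤ)) : Matrix (Fin 2) (Fin 2) ℤ).map (Int.castRingHom ℝ) := by
  rw [H85.gl_apply, mapGL_coe_matrix]
  rfl

/-- The integral form of the coset-datum equation. -/
theorem heckeInt_mul_eq (N ℓ : ℕ) [Fact ℓ.Prime] (hℓN : ¬ ℓ ∣ N) (γ : Gamma0 N)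
    (x : OnePoint (ZMod ℓ)) :
    heckeInt ℓ x * ((γ : SL(2, ℤ)) : Matrix (Fin 2) (Fin 2) ℤ) =
      (((H85.heckeTDatum N ℓ hℓN).coc γ x : Gamma0 N) : SL(2, ℤ)) *
        heckeInt ℓ ((H85.heckeTDatum N ℓ hℓN).perm γ x) := by
  have hℓ0 : ℓ ≠ 0 := (Fact.out : ℓ.Prime).ne_zero
  have h := (H85.heckeTDatum N ℓ hℓN).eq γ x
  rw [H85.heckeTDatum_α] at h
  have h' := congrArg (fun X : GL (Fin 2) ℝ => (X : Matrix (Fin 2) (Fin 2) ℝ)) h
  simp only [Matrix.GeneralLinearGroup.coe_mul, heckeRep_val ℓ hℓ0, gl_val] at h'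
  rw [← Matrix.map_mul, ← Matrix.map_mul] at h'
  exact Matrix.map_injective (RingHom.injective_int (Int.castRingHom ℝ)) h'

/-- **Congruence characters of `Γ₀(N)` are Eisenstein at every prime `ℓ ∤ N M`.**
If `φ : Γ₀(N) → A` kills `Γ₀(N) ∩ Γ(M)`, then `T_ℓ φ = (ℓ + 1) φ`. -/
theorem heckeTHom_eq_nsmul_of_kills_Gamma {N M ℓ : ℕ} [NeZero N] [NeZero M] (hℓ : ℓ.Prime)
    (hℓN : ¬ ℓ ∣ N) (hℓM : ℓ.Coprime M) {A : Type*} [AddCommGroup A]
    (φ : Additive (Gamma0 N) →+ A)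
    (hφ : ∀ γ : Gamma0 N, (γ : SL(2, ℤ)) ∈ Gamma M → φ (Additive.ofMul γ) = 0) :
    H85.heckeTHom A hℓ hℓN φ = (ℓ + 1) • φ := by
  have : Fact ℓ.Prime := ⟨hℓ⟩
  -- factor `φ` through reduction mod `M`
  let φm : Gamma0 N →* Multiplicative A := AddMonoidHom.toMultiplicativeRight φ
  have hker : (redG N M).ker ≤ φm.ker := by
    intro γ hγ
    rw [MonoidHom.mem_ker] at hγ ⊢
    have := hφ γ ((redG_eq_one_iff N M γ).mp hγ)
    show Multiplicative.ofAdd (φ (Additive.ofMul γ)) = 1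
    rw [this]; rfl
  let ψ : borel ((N : ℕ) : ZMod M) →* Multiplicative A :=
    (redG N M).liftOfSurjective (redG_surjective N M) ⟨φm, hker⟩
  have hψ : ∀ γ : Gamma0 N, ψ (redG N M γ) = Multiplicative.ofAdd (φ (Additive.ofMul γ)) := by
    intro γ
    exact MonoidHom.liftOfRightInverse_comp_apply _ _ _ ⟨φm, hker⟩ γ
  refine AddMonoidHom.ext fun γ' => ?_
  obtain ⟨γ, rfl⟩ : ∃ γ : Gamma0 N, Additive.ofMul γ = γ' := ⟨Additive.toMul γ', rfl⟩
  show (H85.heckeTDatum N ℓ hℓN).op φ (Additive.ofMul γ) = _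
  rw [H85.CosetDatum.op_apply]
  set D := H85.heckeTDatum N ℓ hℓN with hD
  have hunit : IsUnit ((ℓ : ℕ) : ZMod M) := (ZMod.isUnit_iff_coprime ℓ M).mpr hℓM
  have hcard : Fintype.card (OnePoint (ZMod ℓ)) = ℓ + 1 := by
    have : Fintype.card (Option (ZMod ℓ)) = ℓ + 1 := by rw [Fintype.card_option, ZMod.card]
    exact this
  have key := prod_eq_pow_of_heckeReps ((N : ℕ) : ZMod M) ψ hunit hcard (D.permEquiv γ)
    (fun x => (heckeInt ℓ x).map (Int.castRingHom (ZMod M)))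
    (fun x => by
      induction x using OnePoint.rec with
      | infty =>
        right
        ext i j
        fin_cases i <;> fin_cases j <;> simp [heckeInt]
      | coe j =>
        left
        refine ⟨((j.val : ℕ) : ZMod M), ?_⟩
        ext i k
        fin_cases i <;> fin_cases k <;> simp [heckeInt])
    (redG N M γ) (fun x => redG N M (D.coc γ x))
    (fun x => by
      rw [redG_coe, redG_coe, redSL_val, redSL_val, ← Matrix.map_mul, ← Matrix.map_mul,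
        heckeInt_mul_eq N ℓ hℓN γ x]
      rfl)
  simp only [hψ] at key
  have h2 := congrArg Multiplicative.toAdd key
  rw [toAdd_prod, toAdd_pow] at h2
  simpa using h2

end Fermat.Agent.S41.H49
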