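import Mathlib

/-!
S41 / package P4 (helper43): THEOREM A of helper98's route `P-int` to Poincare duality.

Abstract setting: `G` a group, `Γ ≤ G` of finite index, `D = G ⧸ Γ` (left cosets, left action),
`S U : G`, `T = U * S`, with `S ^ 4 = 1`, `U ^ 3 = 1`, `S ^ 2` central and in `Γ`, and the
presentation property `hpres` (`G` is the amalgam `⟨S⟩ *_{⟨S²⟩} ⟨S² U⟩`), as hypotheses.
For cocycles `a b : G → (D → ℚ)` with `a U = 0`, `a S = S • v - v` (idem `b`, `v'`), and
`T • w - w = U • v - v`, every primitive `κ` of `φ ∪ ψ` on `Γ` has cusp sum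
`- ∑ x, (S • w - w) x * v' x`.
-/

set_option autoImplicit false

noncomputable section

namespace Fermat.Agent.S41.H43

open MulAction Subgroup

/-! ### the permutation action on functions -/

section Act

variable {G : Type*} [Group G] {D : Type*} [MulAction G D] {R : Type*}

/-- `(g • v) x = v (g⁻¹ • x)`. -/
def act (g : G) (v : D → R) : D → R := fun x => v (g⁻¹ • x)

@[simp] theorem act_apply (g : G) (v : D → R) (x : D) : act g v x = v (g⁻¹ • x) := rfl

theorem act_one (v : D → R) : act (1 : G) v = v := by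
  ext x; simp

theorem act_mul (g h : G) (v : D → R) : act (g * h) v = act g (act h v) := by
  ext x; simp [mul_smul]

theorem act_inv_act (g : G) (v : D → R) : act g⁻¹ (act g v) = v := by
  rw [← act_mul, inv_mul_cancel, act_one]

theorem act_act_inv (g : G) (v : D → R) : act g (act g⁻¹ v) = v := by
  rw [← act_mul, mul_inv_cancel, act_one]

theorem act_zero [Zero R] (g : G) : act g (0 : D → R) = 0 := rfl

theorem act_add [Add R] (g : G) (v v' : D → R) : act g (v + v') = act g v + act g v' := rfl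

theorem act_sub [Sub R] (g : G) (v v' : D → R) : act g (v - v') = act g v - act g v' := rfl

theorem act_neg [Neg R] (g : G) (v : D → R) : act g (-v) = -act g v := rfl

theorem act_mul' [Mul R] (g : G) (v v' : D → R) : act g (v * v') = act g v * act g v' := rfl

theorem act_pow (g : G) (n : ℕ) (v : D → R) : act (g ^ n) v = (act g)^[n] v := by
  induction n with
  | zero => simp [act_one]
  | succ n ih => rw [pow_succ', act_mul, ih, Function.iterate_succ_apply']

theorem act_sum [AddCommMonoid R] {ι : Type*} (s : Finset ι) (g : G) (f : ι → D → R) :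
    act g (∑ i ∈ s, f i) = ∑ i ∈ s, act g (f i) := by
  ext x
  simp [Finset.sum_apply]

theorem sum_act [Fintype D] [AddCommMonoid R] (g : G) (v : D → R) :
    ∑ x, act g v x = ∑ x, v x :=
  Equiv.sum_comp (MulAction.toPerm g⁻¹) v

theorem sum_act_mul [Fintype D] [CommSemiring R] (g : G) (v v' : D → R) :
    ∑ x, act g v x * v' x = ∑ x, v x * act g⁻¹ v' x := by
  rw [← sum_act g⁻¹ (fun x => act g v x * v' x)]
  refine Finset.sum_congr rfl fun x _ => ?_
  simp

/-- The ring automorphism of `D → R` given by `g`. -/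
def actRingEquiv (R : Type*) [Semiring R] (g : G) : (D → R) ≃+* (D → R) where
  toFun := act g
  invFun := act g⁻¹
  left_inv v := act_inv_act g v
  right_inv v := act_act_inv g v
  map_mul' _ _ := rfl
  map_add' _ _ := rfl

/-- `G → RingAut (D → R)`. -/
def actRingAut (R : Type*) [Semiring R] : G →* RingAut (D → R) where
  toFun := actRingEquiv R
  map_one' := by
    ext v : 1
    exact act_one v
  map_mul' g h := by
    ext v : 1
    exact act_mul g h v

@[simp] theorem actRingAut_apply (R : Type*) [Semiring R] (g : G) (v : D → R) :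
    actRingAut R g v = act g v := rfl

end Act

/-! ### the Heisenberg group of a commutative ring -/

/-- Triples `(a, b, k)` with `(a,b,k)(a',b',k') = (a+a', b+b', k+k' - a b')`. -/
@[ext] structure Heis (V : Type*) where
  a : V
  b : V
  k : V

namespace Heis

variable {V : Type*} [CommRing V]

instance : Mul (Heis V) := ⟨fun x y => ⟨x.a + y.a, x.b + y.b, x.k + y.k - x.a * y.b⟩⟩
instance : One (Heis V) := ⟨⟨0, 0, 0⟩⟩
instance : Inv (Heis V) := ⟨fun x => ⟨-x.a, -x.b, -x.k - x.a * x.b⟩⟩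

@[simp] theorem mul_a (x y : Heis V) : (x * y).a = x.a + y.a := rfl
@[simp] theorem mul_b (x y : Heis V) : (x * y).b = x.b + y.b := rfl
@[simp] theorem mul_k (x y : Heis V) : (x * y).k = x.k + y.k - x.a * y.b := rfl
@[simp] theorem one_a : (1 : Heis V).a = 0 := rfl
@[simp] theorem one_b : (1 : Heis V).b = 0 := rfl
@[simp] theorem one_k : (1 : Heis V).k = 0 := rfl
@[simp] theorem inv_a (x : Heis V) : (x⁻¹).a = -x.a := rfl
@[simp] theorem inv_b (x : Heis V) : (x⁻¹).b = -x.b := rfl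
@[simp] theorem inv_k (x : Heis V) : (x⁻¹).k = -x.k - x.a * x.b := rfl

instance : Group (Heis V) :=
  Group.ofLeftAxioms
    (fun x y z => by ext <;> simp <;> ring)
    (fun x => by ext <;> simp)
    (fun x => by ext <;> simp <;> ring)

/-- Functoriality in ring automorphisms. -/
def mapEquiv (e : V ≃+* V) : Heis V ≃* Heis V where
  toFun x := ⟨e x.a, e x.b, e x.k⟩
  invFun x := ⟨e.symm x.a, e.symm x.b, e.symm x.k⟩
  left_inv x := by ext <;> simp
  right_inv x := by ext <;> simp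
  map_mul' x y := by ext <;> simp

/-- `RingAut V → MulAut (Heis V)`. -/
def aut : RingAut V →* MulAut (Heis V) where
  toFun := mapEquiv
  map_one' := by
    ext x <;> rfl
  map_mul' e₁ e₂ := by
    ext x <;> rfl

@[simp] theorem aut_apply_a (e : RingAut V) (x : Heis V) : (aut e x).a = e x.a := rfl
@[simp] theorem aut_apply_b (e : RingAut V) (x : Heis V) : (aut e x).b = e x.b := rfl
@[simp] theorem aut_apply_k (e : RingAut V) (x : Heis V) : (aut e x).k = e x.k := rfl

end Heis

/-! ### presentation data -/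

/-- What we use of `SL(2,ℤ) = ⟨S⟩ *_{⟨S²⟩} ⟨S² U⟩` (`S⁴ = 1`, `U³ = 1`, `S²` central). -/
structure PresData (G : Type) [Group G] where
  S : G
  U : G
  hS4 : S ^ 4 = 1
  hU3 : U ^ 3 = 1
  hcentral : ∀ g : G, S ^ 2 * g = g * S ^ 2
  hgen : Subgroup.closure {S, S ^ 2 * U} = ⊤
  hpres : ∀ (E : Type) [Group E] (s u : E), s ^ 4 = 1 → u ^ 3 = s ^ 2 →
    ∃ F : G →* E, F S = s ∧ F (S ^ 2 * U) = u

namespace PresData

variable {G : Type} [Group G] (P : PresData G)

/-- `T = U S`. -/
def T : G := P.U * P.S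

theorem zU_pow_three : (P.S ^ 2 * P.U) ^ 3 = P.S ^ 2 := by
  have hc : Commute (P.S ^ 2) P.U := P.hcentral P.U
  rw [hc.mul_pow, P.hU3, mul_one, ← pow_mul]
  calc P.S ^ (2 * 3) = P.S ^ 4 * P.S ^ 2 := by rw [← pow_add]
    _ = P.S ^ 2 := by rw [P.hS4, one_mul]

end PresData

/-! ### cocycles -/

section Cocycle

variable {G : Type} [Group G] {D : Type} [MulAction G D]

/-- 1-cocycles of `G` in `D → ℚ`. -/
def IsCocycle (c : G → D → ℚ) : Prop := ∀ g h, c (g * h) = c g + act g (c h)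

theorem IsCocycle.map_one {c : G → D → ℚ} (hc : IsCocycle c) : c 1 = 0 := by
  have h := hc 1 1
  rw [mul_one, act_one] at h
  exact left_eq_add.mp h

theorem IsCocycle.map_inv {c : G → D → ℚ} (hc : IsCocycle c) (g : G) :
    c g⁻¹ = -act g⁻¹ (c g) := by
  have h := hc g⁻¹ g
  rw [inv_mul_cancel, hc.map_one] at h
  exact eq_neg_of_add_eq_zero_left h.symm

theorem IsCocycle.map_pow {c : G → D → ℚ} (hc : IsCocycle c) (g : G) (n : ℕ) :
    c (g ^ n) = ∑ i ∈ Finset.range n, act (g ^ i) (c g) := by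
  induction n with
  | zero => simp [hc.map_one]
  | succ n ih => rw [pow_succ, hc, ih, Finset.sum_range_succ]

/-- Two cocycles agreeing on a generating set are equal. -/
theorem IsCocycle.ext_of_closure {c c' : G → D → ℚ} (hc : IsCocycle c) (hc' : IsCocycle c')
    {X : Set G} (hX : Subgroup.closure X = ⊤) (h : ∀ g ∈ X, c g = c' g) : c = c' := by
  let H : Subgroup G :=
    { carrier := {g | c g = c' g}
      one_mem' := by simp [hc.map_one, hc'.map_one]
      mul_mem' := by
        intro g h hg hh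
        simp only [Set.mem_setOf_eq] at hg hh ⊢
        rw [hc, hc', hg, hh]
      inv_mem' := by
        intro g hg
        simp only [Set.mem_setOf_eq] at hg ⊢
        rw [hc.map_inv, hc'.map_inv, hg] }
  have hle : Subgroup.closure X ≤ H := (Subgroup.closure_le H).mpr h
  rw [hX] at hle
  funext g
  exact hle (Subgroup.mem_top g)

/-- The value of a cocycle on a conjugate `h⁻¹ t h`, at a point `x0` with
`t • (h • x0) = h • x0`. -/
theorem IsCocycle.conj_apply {c : G → D → ℚ} (hc : IsCocycle c) (h t : G) {x0 x : D}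
    (hx0 : h • x0 = x) (ht : t • x = x) : c (h⁻¹ * t * h) x0 = c t x := by
  have r1 : (h⁻¹ * t)⁻¹ • x0 = x := by
    rw [mul_inv_rev, inv_inv, mul_smul, hx0, inv_smul_eq_iff, ht]
  have r2 : (h⁻¹)⁻¹ • x0 = x := by rw [inv_inv, hx0]
  have e1 := congrFun (hc (h⁻¹ * t) h) x0
  have e2 := congrFun (hc h⁻¹ t) x0
  have e3 := congrFun (hc.map_inv h) x0
  simp only [Pi.add_apply, Pi.neg_apply, act_apply, r1, r2] at e1 e2 e3
  linear_combination e1 + e2 + e3

end Cocycle

/-! ### the twisted cochain `K` with `dK = - a ∪ b` -/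

section KExist

variable {G : Type} [Group G] (P : PresData G) {D : Type} [MulAction G D]

/-- The action of `G` on the Heisenberg group of `D → ℚ`. -/
def heisAct (G : Type) [Group G] (D : Type) [MulAction G D] : G →* MulAut (Heis (D → ℚ)) :=
  Heis.aut.comp (actRingAut ℚ)

theorem act_sq_of_trivial (hz : ∀ x : D, P.S ^ 2 • x = x) (v : D → ℚ) :
    act (P.S ^ 2) v = v := by
  ext x
  rw [act_apply, inv_smul_eq_iff.mpr (hz x).symm]

theorem act_S_act_S (hz : ∀ x : D, P.S ^ 2 • x = x) (v : D → ℚ) :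
    act P.S (act P.S v) = v := by
  rw [← act_mul, ← pow_two, act_sq_of_trivial P hz]

theorem exists_K (hz : ∀ x : D, P.S ^ 2 • x = x) {a b : G → D → ℚ}
    (ha : IsCocycle a) (hb : IsCocycle b) (haU : a P.U = 0) (hbU : b P.U = 0)
    (haS : act P.S (a P.S) = -a P.S) (hbS : act P.S (b P.S) = -b P.S) :
    ∃ K : G → D → ℚ, (∀ g h, K (g * h) = K g + act g (K h) - a g * act g (b h)) ∧
      K P.U = 0 ∧ K P.S = fun x => a P.S x * act P.S (b P.S) x / 2 := by
  classical
  let φH : G →* MulAut (Heis (D → ℚ)) := heisAct G D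
  let kS : D → ℚ := fun x => a P.S x * act P.S (b P.S) x / 2
  let nS : Heis (D → ℚ) := ⟨a P.S, b P.S, kS⟩
  let s : Heis (D → ℚ) ⋊[φH] G := ⟨nS, P.S⟩
  let u : Heis (D → ℚ) ⋊[φH] G := SemidirectProduct.inr (P.S ^ 2 * P.U)
  have h1 : ∀ x, a P.S (P.S⁻¹ • x) = -a P.S x := fun x => congrFun haS x
  have h2 : ∀ x, b P.S (P.S⁻¹ • x) = -b P.S x := fun x => congrFun hbS x
  have hs2 : s ^ 2 = SemidirectProduct.inr (P.S ^ 2) := by
    rw [pow_two, pow_two]
    refine SemidirectProduct.ext ?_ ?_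
    · rw [SemidirectProduct.mul_left, SemidirectProduct.left_inr]
      change nS * φH P.S nS = 1
      refine Heis.ext ?_ ?_ ?_
      · change a P.S + act P.S (a P.S) = 0
        rw [haS, add_neg_cancel]
      · change b P.S + act P.S (b P.S) = 0
        rw [hbS, add_neg_cancel]
      · change kS + act P.S kS - a P.S * act P.S (b P.S) = 0
        funext x
        simp only [Pi.add_apply, Pi.sub_apply, Pi.mul_apply, act_apply, Pi.zero_apply, kS, h1, h2]
        ring
    · rw [SemidirectProduct.mul_right, SemidirectProduct.right_inr]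
  have hs4 : s ^ 4 = 1 := by
    have : s ^ 4 = (s ^ 2) ^ 2 := by rw [← pow_mul]
    rw [this, hs2, ← map_pow, ← pow_mul, P.hS4, map_one]
  have hu3 : u ^ 3 = s ^ 2 := by
    rw [hs2, ← map_pow, P.zU_pow_three]
  obtain ⟨Φ, hΦS, hΦU⟩ := P.hpres _ s u hs4 hu3
  have hright : ∀ g, (Φ g).right = g := by
    have : (SemidirectProduct.rightHom (φ := φH)).comp Φ = MonoidHom.id G := by
      refine MonoidHom.eq_of_eqOn_dense P.hgen ?_
      intro g hg
      rcases hg with rfl | rfl
      · simp only [MonoidHom.comp_apply, hΦS, SemidirectProduct.rightHom_eq_right,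
          MonoidHom.id_apply, s]
      · simp only [MonoidHom.comp_apply, hΦU, SemidirectProduct.rightHom_eq_right,
          MonoidHom.id_apply, u, SemidirectProduct.right_inr]
    intro g
    exact DFunLike.congr_fun this g
  have hn : ∀ g h, (Φ (g * h)).left = (Φ g).left * φH g (Φ h).left := by
    intro g h
    rw [map_mul, SemidirectProduct.mul_left, hright]
  have hA : IsCocycle fun g => (Φ g).left.a := by
    intro g h
    change (Φ (g * h)).left.a = (Φ g).left.a + act g (Φ h).left.a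
    rw [hn]
    rfl
  have hB : IsCocycle fun g => (Φ g).left.b := by
    intro g h
    change (Φ (g * h)).left.b = (Φ g).left.b + act g (Φ h).left.b
    rw [hn]
    rfl
  have hS2 : ∀ {c : G → D → ℚ}, IsCocycle c → act P.S (c P.S) = -c P.S → c (P.S ^ 2) = 0 := by
    intro c hc hcS
    rw [pow_two, hc, hcS, add_neg_cancel]
  have hzU : ∀ {c : G → D → ℚ}, IsCocycle c → act P.S (c P.S) = -c P.S → c P.U = 0 →
      c (P.S ^ 2 * P.U) = 0 := by
    intro c hc hcS hcU
    rw [hc, hS2 hc hcS, hcU, act_zero, add_zero]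
  have hAa : (fun g => (Φ g).left.a) = a := by
    refine hA.ext_of_closure ha P.hgen ?_
    intro g hg
    rcases hg with rfl | rfl
    · change (Φ P.S).left.a = a P.S
      rw [hΦS]
    · change (Φ (P.S ^ 2 * P.U)).left.a = a (P.S ^ 2 * P.U)
      rw [hΦU, hzU ha haS haU]
      rfl
  have hBb : (fun g => (Φ g).left.b) = b := by
    refine hB.ext_of_closure hb P.hgen ?_
    intro g hg
    rcases hg with rfl | rfl
    · change (Φ P.S).left.b = b P.S
      rw [hΦS]
    · change (Φ (P.S ^ 2 * P.U)).left.b = b (P.S ^ 2 * P.U)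
      rw [hΦU, hzU hb hbS hbU]
      rfl
  have hK : ∀ g h, (Φ (g * h)).left.k =
      (Φ g).left.k + act g (Φ h).left.k - a g * act g (b h) := by
    intro g h
    rw [hn, ← hAa, ← hBb]
    rfl
  refine ⟨fun g => (Φ g).left.k, hK, ?_, ?_⟩
  · have h3 : (Φ (P.S ^ 2 * P.U)).left.k = 0 := by
      rw [hΦU]; rfl
    have h4 : (Φ (P.S ^ 2)).left.k = 0 := by
      rw [map_pow, hΦS, hs2]; rfl
    rw [hK, h4, hS2 ha haS, act_sq_of_trivial P hz, zero_mul, zero_add, sub_zero] at h3
    exact h3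
  · change (Φ P.S).left.k = _
    rw [hΦS]

end KExist

/-! ### twisted cochains: general identities -/

section Twisted

variable {G : Type} [Group G] {D : Type} [MulAction G D]

/-- `K (g h) = K g + g • K h - a g * g • b h`. -/
def IsTwisted (a b K : G → D → ℚ) : Prop :=
  ∀ g h, K (g * h) = K g + act g (K h) - a g * act g (b h)

theorem IsTwisted.map_one {a b K : G → D → ℚ} (ha : IsCocycle a) (hK : IsTwisted a b K) :
    K 1 = 0 := by
  have h := hK 1 1
  rw [mul_one, act_one, ha.map_one, zero_mul, sub_zero] at h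
  exact left_eq_add.mp h

/-- The value of `K` on a conjugate `h⁻¹ t h`, at a point `x0` with `t • (h • x0) = h • x0`. -/
theorem IsTwisted.conj_apply {a b K : G → D → ℚ} (ha : IsCocycle a) (hK : IsTwisted a b K)
    (h t : G) {x0 x : D} (hx0 : h • x0 = x) (ht : t • x = x) :
    K (h⁻¹ * t * h) x0 = K t x - a t x * b h x + a h x * b t x := by
  have r1 : (h⁻¹ * t)⁻¹ • x0 = x := by
    rw [mul_inv_rev, inv_inv, mul_smul, hx0, inv_smul_eq_iff, ht]
  have r2 : (h⁻¹)⁻¹ • x0 = x := by rw [inv_inv, hx0]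
  have e1 := congrFun (hK (h⁻¹ * t) h) x0
  have e2 := congrFun (hK h⁻¹ t) x0
  have e3 := congrFun (ha h⁻¹ t) x0
  have e4 := congrFun (hK h⁻¹ h) x0
  have e5 := congrFun (ha.map_inv h) x0
  rw [inv_mul_cancel, hK.map_one ha] at e4
  simp only [Pi.add_apply, Pi.sub_apply, Pi.mul_apply, Pi.neg_apply, Pi.zero_apply, act_apply,
    r1, r2] at e1 e2 e3 e4 e5
  linear_combination e1 + e2 - b h x * e3 - e4 - b t x * e5

theorem IsCocycle.map_pow_of_eq {c : G → D → ℚ} (hc : IsCocycle c) {t : G} {y : D → ℚ}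
    (hy : c t = act t y - y) (n : ℕ) : c (t ^ n) = act (t ^ n) y - y := by
  induction n with
  | zero => simp [hc.map_one, act_one]
  | succ n ih => rw [pow_succ, hc, ih, hy, act_sub, ← act_mul]; abel

theorem IsTwisted.map_pow {a b K : G → D → ℚ} (ha : IsCocycle a) (hb : IsCocycle b)
    (hK : IsTwisted a b K) {t : G} {y : D → ℚ} (hy : a t = act t y - y) (n : ℕ) :
    K (t ^ n) = ∑ i ∈ Finset.range n, act (t ^ i) (K t - y * b t) + y * b (t ^ n) := by
  induction n with
  | zero => simp [hK.map_one ha, hb.map_one]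
  | succ n ih =>
    rw [pow_succ, hK, ih, Finset.sum_range_succ, hb (t ^ n) t, ha.map_pow_of_eq hy n, act_sub,
      act_mul']
    ring

end Twisted

/-! ### sums over the orbits of a cyclic group on `G ⧸ Γ` -/

section Orbits

variable {G : Type} [Group G] (Γ : Subgroup G)

theorem sum_zmod_cast {n : ℕ} [NeZero n] {M : Type*} [AddCommMonoid M] (f : ℤ → M) :
    ∑ k : ZMod n, f (ZMod.cast k : ℤ) = ∑ i ∈ Finset.range n, f (i : ℤ) := by
  cases n with
  | zero => exact absurd rfl (NeZero.ne 0)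
  | succ m =>
    rw [← Fin.sum_univ_eq_sum_range (fun i => f (i : ℤ)) (m + 1)]
    rfl

theorem sum_range_inv_smul {D : Type*} [MulAction G D] {M : Type*} [AddCommGroup M]
    (t : G) (x : D) (n : ℕ) (hn : t ^ n • x = x) (F : D → M) :
    ∑ i ∈ Finset.range n, F ((t ^ i)⁻¹ • x) = ∑ i ∈ Finset.range n, F (t ^ i • x) := by
  have h1 : ∀ i ∈ Finset.range n, F ((t ^ i)⁻¹ • x) = F (t ^ (n - 1 - i + 1) • x) := by
    intro i hi
    rw [Finset.mem_range] at hi
    congr 1
    rw [inv_smul_eq_iff, ← mul_smul, ← pow_add]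
    have : i + (n - 1 - i + 1) = n := by omega
    rw [this, hn]
  rw [Finset.sum_congr rfl h1, Finset.sum_range_reflect (fun j => F (t ^ (j + 1) • x)) n]
  have h3 : ∑ j ∈ Finset.range (n + 1), F (t ^ j • x) =
      ∑ j ∈ Finset.range n, F (t ^ (j + 1) • x) + F (t ^ 0 • x) :=
    Finset.sum_range_succ' (fun j => F (t ^ j • x)) n
  rw [Finset.sum_range_succ, hn, pow_zero, one_smul] at h3
  exact (add_right_cancel h3).symm

theorem sum_orbits [Γ.FiniteIndex] [Fintype (G ⧸ Γ)] (t : G)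
    [Fintype (Quotient (orbitRel (zpowers t) (G ⧸ Γ)))] (F : G ⧸ Γ → ℚ) :
    ∑ q : Quotient (orbitRel (zpowers t) (G ⧸ Γ)),
      ∑ i ∈ Finset.range (Function.minimalPeriod (t • ·) q.out), F (t ^ i • q.out) =
    ∑ x, F x := by
  classical
  calc _ = ∑ q : Quotient (orbitRel (zpowers t) (G ⧸ Γ)),
        ∑ k : ZMod (Function.minimalPeriod (t • ·) q.out), F (t ^ (ZMod.cast k : ℤ) • q.out) := by
        refine Fintype.sum_congr _ _ fun q => ?_
        rw [sum_zmod_cast (fun k : ℤ => F (t ^ k • q.out))]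
        simp only [zpow_natCast]
    _ = ∑ p : Σ q : orbitRel.Quotient (zpowers t) (G ⧸ Γ),
          ZMod (Function.minimalPeriod (t • ·) q.out),
          F ((quotientEquivSigmaZMod Γ t).symm p) := by
        rw [Fintype.sum_sigma]
        rfl
    _ = ∑ x, F x := (quotientEquivSigmaZMod Γ t).symm.sum_comp F

end Orbits

/-! ### the cusp sum and THEOREM A -/

section CuspSum

variable {G : Type} [Group G] (Γ : Subgroup G)

/-- The cusp sum of a function `κ` on `Γ`: the sum over the `⟨t⟩`-orbits `O` on `G ⧸ Γ` of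
`κ (h_O⁻¹ t ^ |O| h_O)` (the indexing of Mathlib's explicit transfer formula). -/
def cuspSum [Γ.FiniteIndex] (t : G) [Fintype (Quotient (orbitRel (zpowers t) (G ⧸ Γ)))]
    (κ : Γ → ℚ) : ℚ :=
  ∑ q : Quotient (orbitRel (zpowers t) (G ⧸ Γ)),
    κ ⟨q.out.out⁻¹ * t ^ Function.minimalPeriod (t • ·) q.out * q.out.out,
      QuotientGroup.out_conj_pow_minimalPeriod_mem Γ t q.out⟩

theorem cuspSum_add [Γ.FiniteIndex] (t : G) [Fintype (Quotient (orbitRel (zpowers t) (G ⧸ Γ)))]
    (κ κ' : Γ → ℚ) : cuspSum Γ t (κ + κ') = cuspSum Γ t κ + cuspSum Γ t κ' := by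
  simp only [cuspSum, Pi.add_apply, Finset.sum_add_distrib]

/-- The cusp sum of an additive character is the transfer, hence vanishes on products of
torsion elements. -/
theorem cuspSum_hom_eq_zero [Γ.FiniteIndex] {s u : G} {m n : ℕ} (hm : 0 < m) (hn : 0 < n)
    (hs : s ^ m = 1) (hu : u ^ n = 1)
    [Fintype (Quotient (orbitRel (zpowers (u * s)) (G ⧸ Γ)))]
    {χ : Γ → ℚ} (hχ : ∀ γ γ' : Γ, χ (γ * γ') = χ γ + χ γ') : cuspSum Γ (u * s) χ = 0 := by
  let ϕ : Γ →* Multiplicative ℚ :=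
    MonoidHom.mk' (fun γ => Multiplicative.ofAdd (χ γ)) (by
      intro γ γ'
      rw [hχ, ofAdd_add])
  have htors : ∀ (g : G) (k : ℕ), 0 < k → g ^ k = 1 → MonoidHom.transfer ϕ g = 1 := by
    intro g k hk hg
    have h1 : (MonoidHom.transfer ϕ g) ^ k = 1 := by rw [← map_pow, hg, map_one]
    have h2 : k • Multiplicative.toAdd (MonoidHom.transfer ϕ g) = 0 := by
      rw [← toAdd_pow, h1, toAdd_one]
    rcases smul_eq_zero.mp h2 with h | h
    · omega
    · exact Multiplicative.toAdd.injective h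
  have h0 : MonoidHom.transfer ϕ (u * s) = 1 := by
    rw [map_mul, htors u n hn hu, htors s m hm hs, one_mul]
  rw [MonoidHom.transfer_eq_prod_quotient_orbitRel_zpowers_quot] at h0
  have h1 := congrArg Multiplicative.toAdd h0
  rw [toAdd_prod, toAdd_one] at h1
  exact h1

variable (P : PresData G)

theorem sq_smul_quotient (hzΓ : P.S ^ 2 ∈ Γ) (x : G ⧸ Γ) : P.S ^ 2 • x = x := by
  induction x using QuotientGroup.induction_on with
  | H g =>
    rw [MulAction.Quotient.smul_coe, smul_eq_mul, eq_comm, QuotientGroup.eq, P.hcentral g,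
      inv_mul_cancel_left]
    exact hzΓ

/-- Existence of a primitive of `φ ∪ ψ` (from the presentation). -/
theorem exists_primitive (hzΓ : P.S ^ 2 ∈ Γ)
    {a b : G → (G ⧸ Γ) → ℚ} (ha : IsCocycle a) (hb : IsCocycle b)
    {v v' : G ⧸ Γ → ℚ} (haU : a P.U = 0) (hbU : b P.U = 0)
    (haS : a P.S = act P.S v - v) (hbS : b P.S = act P.S v' - v')
    {φ ψ : Γ → ℚ} (hφ : ∀ γ : Γ, φ γ = a γ ((1 : G) : G ⧸ Γ))
    (hψ : ∀ γ : Γ, ψ γ = b γ ((1 : G) : G ⧸ Γ)) :
    ∃ κ : Γ → ℚ, ∀ γ γ' : Γ, κ (γ * γ') = κ γ + κ γ' - φ γ * ψ γ' := by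
  have hz : ∀ x : G ⧸ Γ, P.S ^ 2 • x = x := sq_smul_quotient Γ P hzΓ
  have hSS : ∀ f : G ⧸ Γ → ℚ, act P.S (act P.S f) = f := act_S_act_S P hz
  have haS' : act P.S (a P.S) = -a P.S := by rw [haS, act_sub, hSS]; abel
  have hbS' : act P.S (b P.S) = -b P.S := by rw [hbS, act_sub, hSS]; abel
  obtain ⟨K, hK, -, -⟩ := exists_K P hz ha hb haU hbU haS' hbS'
  have hbase : ∀ γ : Γ, (γ : G)⁻¹ • (((1 : G) : G ⧸ Γ)) = ((1 : G) : G ⧸ Γ) := by
    intro γ
    rw [MulAction.Quotient.smul_coe, smul_eq_mul, mul_one, QuotientGroup.eq, inv_inv, mul_one]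
    exact γ.2
  refine ⟨fun γ => K γ ((1 : G) : G ⧸ Γ), ?_⟩
  intro γ γ'
  have := congrFun (hK γ γ') ((1 : G) : G ⧸ Γ)
  simp only [Pi.add_apply, Pi.sub_apply, Pi.mul_apply, act_apply, hbase] at this
  rw [hφ, hψ]
  simpa using this

/-- **THEOREM A** (abstract form), with `t = U S` as a variable. -/
theorem cuspSum_eq_aux [Γ.FiniteIndex] (hzΓ : P.S ^ 2 ∈ Γ) [Fintype (G ⧸ Γ)] (t : G)
    (ht : t = P.U * P.S) [Fintype (Quotient (orbitRel (zpowers t) (G ⧸ Γ)))]
    {a b : G → (G ⧸ Γ) → ℚ} (ha : IsCocycle a) (hb : IsCocycle b)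
    {v v' w w' : G ⧸ Γ → ℚ} (haU : a P.U = 0) (hbU : b P.U = 0)
    (haS : a P.S = act P.S v - v) (hbS : b P.S = act P.S v' - v')
    (hw : act t w - w = act P.U v - v)
    (hw' : act t w' - w' = act P.U v' - v')
    {φ ψ κ : Γ → ℚ} (hφ : ∀ γ : Γ, φ γ = a γ ((1 : G) : G ⧸ Γ))
    (hψ : ∀ γ : Γ, ψ γ = b γ ((1 : G) : G ⧸ Γ))
    (hκ : ∀ γ γ' : Γ, κ (γ * γ') = κ γ + κ γ' - φ γ * ψ γ') :
    cuspSum Γ t κ = -∑ x, (act P.S w - w) x * v' x := by
  classical
  have hz : ∀ x : G ⧸ Γ, P.S ^ 2 • x = x := sq_smul_quotient Γ P hzΓ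
  have hSS : ∀ f : G ⧸ Γ → ℚ, act P.S (act P.S f) = f := act_S_act_S P hz
  have haS' : act P.S (a P.S) = -a P.S := by rw [haS, act_sub, hSS]; abel
  have hbS' : act P.S (b P.S) = -b P.S := by rw [hbS, act_sub, hSS]; abel
  obtain ⟨K, hK, hKU, hKS⟩ := exists_K P hz ha hb haU hbU haS' hbS'
  have hK' : IsTwisted a b K := hK
  -- the base point is fixed by `Γ`
  have hbase : ∀ γ : Γ, (γ : G)⁻¹ • (((1 : G) : G ⧸ Γ)) = ((1 : G) : G ⧸ Γ) := by
    intro γ
    rw [MulAction.Quotient.smul_coe, smul_eq_mul, mul_one, QuotientGroup.eq, inv_inv, mul_one]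
    exact γ.2
  -- `κ0` is a primitive
  set κ0 : Γ → ℚ := fun γ => K γ ((1 : G) : G ⧸ Γ) with hκ0def
  have hκ0 : ∀ γ γ' : Γ, κ0 (γ * γ') = κ0 γ + κ0 γ' - φ γ * ψ γ' := by
    intro γ γ'
    have := congrFun (hK γ γ') ((1 : G) : G ⧸ Γ)
    simp only [Pi.add_apply, Pi.sub_apply, Pi.mul_apply, act_apply, hbase] at this
    rw [hκ0def, hφ, hψ]
    simpa using this
  -- the difference is additive, so its cusp sum vanishes
  have hχ : ∀ γ γ' : Γ, (κ - κ0) (γ * γ') = (κ - κ0) γ + (κ - κ0) γ' := by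
    intro γ γ'
    simp only [Pi.sub_apply, hκ, hκ0]
    ring
  have hsplit : κ = κ0 + (κ - κ0) := by abel
  have hzero : cuspSum Γ t (κ - κ0) = 0 := by
    subst ht
    exact cuspSum_hom_eq_zero Γ (by norm_num : 0 < 4) (by norm_num : 0 < 3) P.hS4 P.hU3 hχ
  rw [hsplit, cuspSum_add, hzero, add_zero]
  -- the cusp sum of `κ0`
  set y : G ⧸ Γ → ℚ := v - w with hy
  set y' : G ⧸ Γ → ℚ := v' - w' with hy'
  have haT : a t = act t y - y := by
    have e : a t = act t v - act P.U v := by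
      rw [ht, ha, haU, zero_add, haS, act_sub, ← act_mul]
    rw [e, hy, act_sub]
    linear_combination (exp := 1) hw
  have hbT : b t = act t y' - y' := by
    have e : b t = act t v' - act P.U v' := by
      rw [ht, hb, hbU, zero_add, hbS, act_sub, ← act_mul]
    rw [e, hy', act_sub]
    linear_combination (exp := 1) hw'
  set F : G ⧸ Γ → ℚ := K t - y * b t with hF
  have hper : ∀ x : G ⧸ Γ, t ^ Function.minimalPeriod (t • ·) x • x = x := fun x =>
    MulAction.pow_smul_eq_iff_minimalPeriod_dvd.mpr dvd_rfl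
  have hterm : ∀ q : Quotient (orbitRel (zpowers t) (G ⧸ Γ)),
      κ0 ⟨q.out.out⁻¹ * t ^ Function.minimalPeriod (t • ·) q.out * q.out.out,
        QuotientGroup.out_conj_pow_minimalPeriod_mem Γ t q.out⟩ =
      ∑ i ∈ Finset.range (Function.minimalPeriod (t • ·) q.out), F (t ^ i • q.out) := by
    intro q
    change K (q.out.out⁻¹ * t ^ Function.minimalPeriod (t • ·) q.out * q.out.out)
      ((1 : G) : G ⧸ Γ) = _
    generalize q.out = x
    have hx0 : x.out • (((1 : G) : G ⧸ Γ)) = x := by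
      rw [MulAction.Quotient.smul_coe, smul_eq_mul, mul_one, QuotientGroup.out_eq']
    have htx : t ^ Function.minimalPeriod (t • ·) x • x = x := hper x
    generalize Function.minimalPeriod (t • ·) x = n at htx ⊢
    have hinv : (t ^ n)⁻¹ • x = x := by rw [inv_smul_eq_iff, htx]
    have e := hK'.conj_apply ha x.out (t ^ n) hx0 htx
    have ea : a (t ^ n) x = 0 := by
      rw [ha.map_pow_of_eq haT n]
      simp only [Pi.sub_apply, act_apply, hinv, sub_self]
    have eb : b (t ^ n) x = 0 := by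
      rw [hb.map_pow_of_eq hbT n]
      simp only [Pi.sub_apply, act_apply, hinv, sub_self]
    rw [e, ea, eb, zero_mul, mul_zero, sub_zero, add_zero, hK'.map_pow ha hb haT n]
    simp only [Pi.add_apply, Pi.mul_apply, eb, mul_zero, add_zero, Finset.sum_apply, act_apply]
    exact sum_range_inv_smul t x n htx F
  have hcs : cuspSum Γ t κ0 = ∑ x, F x := by
    rw [cuspSum, Fintype.sum_congr _ _ hterm, sum_orbits Γ t F]
  rw [hcs]
  -- the final computation
  have hKT : K t = act P.U (K P.S) := by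
    rw [ht, hK, hKU, haU, zero_mul, zero_add, sub_zero]
  have hbT' : b t = act P.U (b P.S) := by
    rw [ht, hb, hbU, zero_add]
  have hUy : act P.U⁻¹ y = v - act P.S w := by
    have h1 : y = act P.U (v - act P.S w) := by
      rw [act_sub, ← act_mul, hy, ← ht]
      linear_combination (exp := 1) hw
    rw [h1, act_inv_act]
  have hbS'' : act P.S (b P.S) = v' - act P.S v' := by
    rw [hbS, act_sub, hSS]
  have hI1 : ∑ x, K t x = ∑ x, K P.S x := by rw [hKT, sum_act]
  have hI2 : ∑ x, (y * b t) x = ∑ x, b P.S x * act P.U⁻¹ y x := by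
    rw [hbT', ← sum_act_mul]
    refine Finset.sum_congr rfl fun x _ => ?_
    rw [Pi.mul_apply, mul_comm]
  have hsym : ∀ f g : G ⧸ Γ → ℚ, ∑ x, act P.S f x * g x = ∑ x, f x * act P.S g x := by
    intro f g
    rw [sum_act_mul]
    have : act P.S⁻¹ g = act P.S g := by
      conv_lhs => rw [← hSS g]
      rw [act_inv_act]
    rw [this]
  have hsym2 : ∀ f g : G ⧸ Γ → ℚ, ∑ x, act P.S f x * act P.S g x = ∑ x, f x * g x := by
    intro f g
    rw [hsym, hSS]
  simp only [hF, Pi.sub_apply, Finset.sum_sub_distrib]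
  rw [hI1, hI2, hKS, hbS'', hUy, haS, hbS]
  simp only [Pi.sub_apply, sub_mul, mul_sub, Finset.sum_sub_distrib, sub_div,
    ← Finset.sum_div]
  have c1 := hsym2 v v'
  have c2 := hsym v v'
  have c3 := hsym v' v
  have c4 := hsym2 v' w
  have c5 : ∑ x, v' x * v x = ∑ x, v x * v' x :=
    Finset.sum_congr rfl fun x _ => mul_comm _ _
  have c6 : ∑ x, act P.S w x * v' x = ∑ x, v' x * act P.S w x :=
    Finset.sum_congr rfl fun x _ => mul_comm _ _
  have c7 : ∑ x, w x * v' x = ∑ x, v' x * w x :=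
    Finset.sum_congr rfl fun x _ => mul_comm _ _
  have c8 : ∑ x, v' x * act P.S v x = ∑ x, act P.S v x * v' x :=
    Finset.sum_congr rfl fun x _ => mul_comm _ _
  linear_combination (-1 / 2 : ℚ) * c1 - (1 / 2 : ℚ) * c2 - c3 - c8 + c5 + c4 - c7 + c6

/-- **THEOREM A** (abstract form). -/
theorem cuspSum_eq [Γ.FiniteIndex] (hzΓ : P.S ^ 2 ∈ Γ) [Fintype (G ⧸ Γ)]
    [Fintype (Quotient (orbitRel (zpowers (P.U * P.S)) (G ⧸ Γ)))]
    {a b : G → (G ⧸ Γ) → ℚ} (ha : IsCocycle a) (hb : IsCocycle b)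
    {v v' w w' : G ⧸ Γ → ℚ} (haU : a P.U = 0) (hbU : b P.U = 0)
    (haS : a P.S = act P.S v - v) (hbS : b P.S = act P.S v' - v')
    (hw : act (P.U * P.S) w - w = act P.U v - v)
    (hw' : act (P.U * P.S) w' - w' = act P.U v' - v')
    {φ ψ κ : Γ → ℚ} (hφ : ∀ γ : Γ, φ γ = a γ ((1 : G) : G ⧸ Γ))
    (hψ : ∀ γ : Γ, ψ γ = b γ ((1 : G) : G ⧸ Γ))
    (hκ : ∀ γ γ' : Γ, κ (γ * γ') = κ γ + κ γ' - φ γ * ψ γ') :
    cuspSum Γ (P.U * P.S) κ = -∑ x, (act P.S w - w) x * v' x :=
  cuspSum_eq_aux Γ P hzΓ _ rfl ha hb haU hbU haS hbS hw hw' hφ hψ hκ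

end CuspSum

end Fermat.Agent.S41.H43
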