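import Mathlib

/-!
# S41 / P1 : Poincaré duality on permutation modules (abstract part)

`D` a finite set with two permutations `σ` (an involution) and `μ`; `τ = μ σ`.
For a commutative ring `A`, `V = D → A` with the dot product.  We define

* `Par  = {v | ∃ w, (τ - 1) w = (μ - 1) v}`   (parabolic vectors),
* `Triv = V^σ + V^μ ⊆ Par`,
* `B(v, v') = ⟨(σ - 1) w_v, v'⟩`.

The first part of this file is formal: it only uses a symmetric bilinear form and two
isometries, one of which is an involution (`PDData`).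
-/

set_option autoImplicit false

namespace Fermat.Agent.S41.H98

open LinearMap

/-- Abstract data: a symmetric bilinear form `ip`, an involutive isometry `σ`, an isometry `μ`
with inverse `ν`. -/
structure PDData (A V : Type*) [CommRing A] [AddCommGroup V] [Module A V] where
  ip : LinearMap.BilinForm A V
  ip_symm : ∀ v v', ip v v' = ip v' v
  σ : V →ₗ[A] V
  μ : V →ₗ[A] V
  ν : V →ₗ[A] V
  σσ : ∀ v, σ (σ v) = v
  μν : ∀ v, μ (ν v) = v
  νμ : ∀ v, ν (μ v) = v
  σ_adj : ∀ v v', ip (σ v) v' = ip v (σ v')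
  μ_adj : ∀ v v', ip (μ v) v' = ip v (ν v')

namespace PDData

variable {A V : Type*} [CommRing A] [AddCommGroup V] [Module A V] (P : PDData A V)

theorem ν_adj (v v' : V) : P.ip (P.ν v) v' = P.ip v (P.μ v') := by
  have h := P.μ_adj (P.ν v) (P.μ v')
  rw [P.μν, P.νμ] at h
  exact h.symm

/-- `IsWit v w` : `w` witnesses that `v` is parabolic: `(τ - 1) w = (μ - 1) v`. -/
def IsWit (v w : V) : Prop := P.μ (P.σ w) - w = P.μ v - v

theorem IsWit.add {v v' w w' : V} (h : P.IsWit v w) (h' : P.IsWit v' w') :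
    P.IsWit (v + v') (w + w') := by
  unfold IsWit at *
  rw [map_add, map_add, map_add]
  rw [show P.μ (P.σ w) + P.μ (P.σ w') - (w + w') = (P.μ (P.σ w) - w) + (P.μ (P.σ w') - w') by abel,
    h, h']
  abel

theorem IsWit.smul {v w : V} (a : A) (h : P.IsWit v w) : P.IsWit (a • v) (a • w) := by
  unfold IsWit at *
  rw [map_smul, map_smul, map_smul, ← smul_sub, h, smul_sub]

theorem IsWit.neg {v w : V} (h : P.IsWit v w) : P.IsWit (-v) (-w) := by
  have := h.smul P (-1 : A)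
  simpa using this

theorem IsWit.sub {v v' w w' : V} (h : P.IsWit v w) (h' : P.IsWit v' w') :
    P.IsWit (v - v') (w - w') := by
  rw [sub_eq_add_neg, sub_eq_add_neg]
  exact h.add P (h'.neg P)

theorem isWit_zero : P.IsWit 0 0 := by
  unfold IsWit
  simp

/-- The submodule of parabolic vectors. -/
def Par : Submodule A V where
  carrier := {v | ∃ w, P.IsWit v w}
  add_mem' := by
    rintro v v' ⟨w, hw⟩ ⟨w', hw'⟩
    exact ⟨w + w', hw.add P hw'⟩
  zero_mem' := ⟨0, P.isWit_zero⟩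
  smul_mem' := by
    rintro a v ⟨w, hw⟩
    exact ⟨a • w, hw.smul P a⟩

theorem mem_Par {v : V} : v ∈ P.Par ↔ ∃ w, P.IsWit v w := Iff.rfl

/-- `σ`-invariants. -/
def fixσ : Submodule A V := LinearMap.ker (P.σ - LinearMap.id)

/-- `μ`-invariants. -/
def fixμ : Submodule A V := LinearMap.ker (P.μ - LinearMap.id)

theorem mem_fixσ {v : V} : v ∈ P.fixσ ↔ P.σ v = v := by
  unfold fixσ
  rw [LinearMap.mem_ker, LinearMap.sub_apply, LinearMap.id_apply, sub_eq_zero]

theorem mem_fixμ {v : V} : v ∈ P.fixμ ↔ P.μ v = v := by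
  unfold fixμ
  rw [LinearMap.mem_ker, LinearMap.sub_apply, LinearMap.id_apply, sub_eq_zero]

/-- The trivial classes `V^σ + V^μ`. -/
def Triv : Submodule A V := P.fixσ ⊔ P.fixμ

theorem isWit_of_mem_fixσ {a : V} (ha : a ∈ P.fixσ) : P.IsWit a a := by
  unfold IsWit
  rw [P.mem_fixσ.mp ha]

theorem isWit_of_mem_fixμ {b : V} (hb : b ∈ P.fixμ) : P.IsWit b 0 := by
  unfold IsWit
  rw [P.mem_fixμ.mp hb]
  simp

theorem Triv_le_Par : P.Triv ≤ P.Par := by
  unfold Triv
  rw [sup_le_iff]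
  exact ⟨fun a ha => ⟨a, P.isWit_of_mem_fixσ ha⟩, fun b hb => ⟨0, P.isWit_of_mem_fixμ hb⟩⟩

/-- the raw pairing `⟨(σ - 1) w, v'⟩`. -/
def Bw (w v' : V) : A := P.ip (P.σ w - w) v'

theorem Bw_add_left (w₁ w₂ v' : V) : P.Bw (w₁ + w₂) v' = P.Bw w₁ v' + P.Bw w₂ v' := by
  unfold Bw
  rw [map_add, show P.σ w₁ + P.σ w₂ - (w₁ + w₂) = (P.σ w₁ - w₁) + (P.σ w₂ - w₂) by abel, map_add,
    LinearMap.add_apply]

theorem Bw_smul_left (a : A) (w v' : V) : P.Bw (a • w) v' = a * P.Bw w v' := by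
  unfold Bw
  rw [map_smul, ← smul_sub, map_smul, LinearMap.smul_apply, smul_eq_mul]

theorem Bw_add_right (w v₁ v₂ : V) : P.Bw w (v₁ + v₂) = P.Bw w v₁ + P.Bw w v₂ := by
  unfold Bw
  rw [map_add]

theorem Bw_smul_right (a : A) (w v' : V) : P.Bw w (a • v') = a * P.Bw w v' := by
  unfold Bw
  rw [map_smul, smul_eq_mul]

theorem Bw_sub_left (w₁ w₂ v' : V) : P.Bw (w₁ - w₂) v' = P.Bw w₁ v' - P.Bw w₂ v' := by
  have h := P.Bw_add_left (w₁ - w₂) w₂ v'
  rw [sub_add_cancel] at h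
  rw [h]
  ring

/-- **(1)** if `τ w = w` and `v'` is parabolic then `⟨(σ - 1) w, v'⟩ = 0`. -/
theorem Bw_eq_zero_of_fixed {w v' w' : V} (hw : P.μ (P.σ w) = w) (hv' : P.IsWit v' w') :
    P.Bw w v' = 0 := by
  have h1 : P.σ w = P.ν w := by
    have := congrArg P.ν hw
    rw [P.νμ] at this
    exact this
  unfold Bw
  unfold IsWit at hv'
  -- `⟨σ w, v'⟩ = ⟨ν w, v'⟩ = ⟨w, μ v'⟩`
  have e1 : P.ip (P.σ w) v' = P.ip w (P.μ v') := by rw [h1, P.ν_adj]
  -- `⟨w, μ σ w'⟩ = ⟨ν w, σ w'⟩ = ⟨σ ν w, w'⟩ = ⟨w, w'⟩`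
  have e2 : P.ip w (P.μ (P.σ w')) = P.ip w w' := by
    rw [← P.ν_adj, ← P.σ_adj, ← h1, P.σσ]
  have e3 : P.ip w (P.μ (P.σ w') - w') = P.ip w (P.μ v' - v') := by rw [hv']
  rw [map_sub, map_sub] at e3
  rw [map_sub, LinearMap.sub_apply]
  linear_combination e1 + e2 - e3

/-- **(1')** the pairing does not depend on the witness. -/
theorem Bw_eq_of_isWit {v w₁ w₂ v' w' : V} (h₁ : P.IsWit v w₁) (h₂ : P.IsWit v w₂)
    (hv' : P.IsWit v' w') : P.Bw w₁ v' = P.Bw w₂ v' := by
  have h : P.μ (P.σ (w₁ - w₂)) = w₁ - w₂ := by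
    unfold IsWit at h₁ h₂
    rw [map_sub, map_sub]
    have : P.μ (P.σ w₁) - w₁ = P.μ (P.σ w₂) - w₂ := by rw [h₁, h₂]
    have h3 : P.μ (P.σ w₁) - P.μ (P.σ w₂) - (w₁ - w₂) = 0 := by
      rw [show P.μ (P.σ w₁) - P.μ (P.σ w₂) - (w₁ - w₂)
        = (P.μ (P.σ w₁) - w₁) - (P.μ (P.σ w₂) - w₂) by abel, this, sub_self]
    exact sub_eq_zero.mp h3
  have := P.Bw_eq_zero_of_fixed h hv'
  rw [P.Bw_sub_left] at this
  exact sub_eq_zero.mp this

/-- key identity: with `x = v - w` one has `(σ - 1) w = (1 - ν) x`. -/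
theorem sigma_sub_eq {v w : V} (h : P.IsWit v w) : P.σ w - w = (v - w) - P.ν (v - w) := by
  unfold IsWit at h
  -- `v - w = μ (v - σ w)`
  have h1 : v - w = P.μ (v - P.σ w) := by
    rw [map_sub]
    have : P.μ v - P.μ (P.σ w) - (v - w) = 0 := by
      rw [show P.μ v - P.μ (P.σ w) - (v - w) = (P.μ v - v) - (P.μ (P.σ w) - w) by abel, h, sub_self]
    exact (sub_eq_zero.mp this).symm
  have h2 : P.ν (v - w) = v - P.σ w := by rw [h1, P.νμ]
  rw [h2]
  abel

/-- **(2a)** `B(v, a) = 0` for `a ∈ V^σ`. -/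
theorem Bw_fixσ_right (w : V) {a : V} (ha : a ∈ P.fixσ) : P.Bw w a = 0 := by
  unfold Bw
  rw [map_sub, LinearMap.sub_apply, P.σ_adj, P.mem_fixσ.mp ha, sub_self]

/-- **(2b)** `B(v, b) = 0` for `b ∈ V^μ`. -/
theorem Bw_fixμ_right {v w : V} (h : P.IsWit v w) {b : V} (hb : b ∈ P.fixμ) : P.Bw w b = 0 := by
  unfold Bw
  rw [P.sigma_sub_eq h, map_sub, LinearMap.sub_apply, P.ν_adj, P.mem_fixμ.mp hb, sub_self]

theorem Bw_Triv_right {v w : V} (h : P.IsWit v w) {t : V} (ht : t ∈ P.Triv) : P.Bw w t = 0 := by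
  unfold Triv at ht
  obtain ⟨a, ha, b, hb, rfl⟩ := Submodule.mem_sup.mp ht
  rw [P.Bw_add_right, P.Bw_fixσ_right w ha, P.Bw_fixμ_right h hb, add_zero]

/-- **(2c)** `B(t, v') = 0` for `t ∈ Triv` (computed with any witness). -/
theorem Bw_Triv_left {t w v' w' : V} (ht : t ∈ P.Triv) (h : P.IsWit t w) (hv' : P.IsWit v' w') :
    P.Bw w v' = 0 := by
  unfold Triv at ht
  obtain ⟨a, ha, b, hb, rfl⟩ := Submodule.mem_sup.mp ht
  have h0 : P.IsWit (a + b) (a + 0) := (P.isWit_of_mem_fixσ ha).add P (P.isWit_of_mem_fixμ hb)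
  rw [P.Bw_eq_of_isWit h h0 hv', add_zero]
  unfold Bw
  rw [P.mem_fixσ.mp ha, sub_self, map_zero, LinearMap.zero_apply]

/-- **(3)** antisymmetry. -/
theorem Bw_antisymm {v w v' w' : V} (h : P.IsWit v w) (h' : P.IsWit v' w') :
    P.Bw w v' + P.Bw w' v = 0 := by
  have hP := P.sigma_sub_eq h
  have hP' := P.sigma_sub_eq h'
  obtain ⟨x, hx⟩ : ∃ x, x = v - w := ⟨_, rfl⟩
  obtain ⟨x', hx'⟩ : ∃ x', x' = v' - w' := ⟨_, rfl⟩
  rw [← hx] at hP
  rw [← hx'] at hP'
  have hv : v = w + x := by rw [hx]; abel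
  have hv' : v' = w' + x' := by rw [hx']; abel
  -- `⟨P, P'⟩` computed in two ways
  have e1 : P.ip (P.σ w - w) (P.σ w' - w')
      = 2 * P.ip w w' - 2 * P.ip (P.σ w) w' := by
    have a1 : P.ip (P.σ w) (P.σ w') = P.ip w w' := by rw [P.σ_adj, P.σσ]
    have a2 : P.ip w (P.σ w') = P.ip (P.σ w) w' := by rw [P.σ_adj]
    rw [map_sub, map_sub, LinearMap.sub_apply, LinearMap.sub_apply, a1, a2]
    ring
  have e2 : P.ip (P.σ w - w) (P.σ w' - w')
      = 2 * P.ip x x' - P.ip x (P.μ x') - P.ip (P.μ x) x' := by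
    have a1 : P.ip (P.ν x) (P.ν x') = P.ip x x' := by rw [P.ν_adj, P.μν]
    have a2 : P.ip (P.ν x) x' = P.ip x (P.μ x') := P.ν_adj x x'
    have a3 : P.ip x (P.ν x') = P.ip (P.μ x) x' := (P.μ_adj x x').symm
    rw [hP, hP', map_sub, map_sub, LinearMap.sub_apply, LinearMap.sub_apply, a1, a2, a3]
    ring
  have e3 : P.ip (P.σ w - w) w' = P.ip (P.σ w) w' - P.ip w w' := by
    rw [map_sub, LinearMap.sub_apply]
  have e4 : P.ip (P.σ w' - w') w = P.ip (P.σ w) w' - P.ip w w' := by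
    rw [map_sub, LinearMap.sub_apply, P.σ_adj, P.ip_symm w' (P.σ w), P.ip_symm w' w]
  have e5 : P.ip (P.σ w - w) x' = P.ip x x' - P.ip x (P.μ x') := by
    rw [hP, map_sub, LinearMap.sub_apply, P.ν_adj]
  have e6 : P.ip (P.σ w' - w') x = P.ip x x' - P.ip (P.μ x) x' := by
    rw [hP', map_sub, LinearMap.sub_apply, P.ν_adj, P.ip_symm x' x, P.ip_symm x' (P.μ x)]
  unfold Bw
  rw [hv, hv', map_add (P.ip (P.σ w - w)), map_add (P.ip (P.σ w' - w'))]
  linear_combination e3 + e4 + e5 + e6 + e1 - e2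

theorem Bw_self {v w : V} (h : P.IsWit v w) : 2 * P.Bw w v = 0 := by
  have := P.Bw_antisymm h h
  linear_combination this

/-! ### The pairing as a bilinear form on `Par` -/

/-- a chosen witness. -/
noncomputable def wit (v : P.Par) : V := Classical.choose v.2

theorem isWit_wit (v : P.Par) : P.IsWit (v : V) (P.wit v) := Classical.choose_spec v.2

/-- The Poincaré duality pairing on parabolic vectors. -/
noncomputable def form : P.Par →ₗ[A] P.Par →ₗ[A] A :=
  LinearMap.mk₂ A (fun v v' => P.Bw (P.wit v) (v' : V))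
    (fun v₁ v₂ v' => by
      rw [← P.Bw_add_left]
      exact P.Bw_eq_of_isWit (P.isWit_wit (v₁ + v₂)) ((P.isWit_wit v₁).add P (P.isWit_wit v₂))
        (P.isWit_wit v'))
    (fun a v v' => by
      rw [smul_eq_mul, ← P.Bw_smul_left]
      exact P.Bw_eq_of_isWit (P.isWit_wit (a • v)) ((P.isWit_wit v).smul P a) (P.isWit_wit v'))
    (fun v v₁ v₂ => by
      rw [Submodule.coe_add, P.Bw_add_right])
    (fun a v v' => by
      rw [Submodule.coe_smul, P.Bw_smul_right, smul_eq_mul])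

theorem form_apply (v v' : P.Par) {w : V} (hw : P.IsWit (v : V) w) :
    P.form v v' = P.Bw w (v' : V) := by
  unfold form
  rw [LinearMap.mk₂_apply]
  exact P.Bw_eq_of_isWit (P.isWit_wit v) hw (P.isWit_wit v')

theorem form_antisymm (v v' : P.Par) : P.form v v' = - P.form v' v := by
  rw [P.form_apply v v' (P.isWit_wit v), P.form_apply v' v (P.isWit_wit v')]
  have := P.Bw_antisymm (P.isWit_wit v) (P.isWit_wit v')
  linear_combination this

theorem form_triv_right (v : P.Par) {t : P.Par} (ht : (t : V) ∈ P.Triv) : P.form v t = 0 := by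
  rw [P.form_apply v t (P.isWit_wit v)]
  exact P.Bw_Triv_right (P.isWit_wit v) ht

theorem form_triv_left {t : P.Par} (ht : (t : V) ∈ P.Triv) (v : P.Par) : P.form t v = 0 := by
  rw [P.form_antisymm, P.form_triv_right v ht, neg_zero]

/-- The trivial classes as a submodule of `Par`. -/
def TrivP : Submodule A P.Par := P.Triv.comap P.Par.subtype

theorem mem_TrivP {t : P.Par} : t ∈ P.TrivP ↔ (t : V) ∈ P.Triv := Iff.rfl

/-- The cohomology module `H = Par / Triv`. -/
abbrev H : Type _ := P.Par ⧸ P.TrivP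

/-- The pairing on `H = Par / Triv`. -/
noncomputable def formQ : P.H →ₗ[A] P.H →ₗ[A] A :=
  P.TrivP.liftQ
    { toFun := fun v => P.TrivP.liftQ (P.form v) (fun t ht => by
        rw [LinearMap.mem_ker]
        exact P.form_triv_right v (P.mem_TrivP.mp ht))
      map_add' := fun v₁ v₂ => by
        apply Submodule.linearMap_qext
        ext v'
        simp
      map_smul' := fun a v => by
        apply Submodule.linearMap_qext
        ext v'
        simp }
    (fun t ht => by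
      rw [LinearMap.mem_ker]
      apply Submodule.linearMap_qext
      ext v'
      simpa using P.form_triv_left (P.mem_TrivP.mp ht) v')

@[simp] theorem formQ_mk (v v' : P.Par) :
    P.formQ (Submodule.Quotient.mk v) (Submodule.Quotient.mk v') = P.form v v' := by
  unfold formQ
  simp

theorem formQ_antisymm (x y : P.H) : P.formQ x y = - P.formQ y x := by
  induction x using Submodule.Quotient.induction_on with
  | H v =>
    induction y using Submodule.Quotient.induction_on with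
    | H v' => rw [formQ_mk, formQ_mk, P.form_antisymm]

/-! ### (4) the radical over a field -/

section Field

variable {K W : Type*} [Field K] [AddCommGroup W] [Module K W] [FiniteDimensional K W]
  (Q : PDData K W)

theorem orthogonal_fixσ_le (hnd : Q.ip.Nondegenerate) :
    Q.ip.orthogonal Q.fixσ ≤ LinearMap.range (Q.σ - LinearMap.id) := by
  have hrefl : Q.ip.IsRefl := fun x y h => by rw [Q.ip_symm]; exact h
  have h1 : Q.ip.orthogonal (LinearMap.range (Q.σ - LinearMap.id)) ≤ Q.fixσ := by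
    intro m hm
    rw [LinearMap.BilinForm.mem_orthogonal_iff] at hm
    rw [Q.mem_fixσ]
    have : ∀ z, Q.ip z (Q.σ m - m) = 0 := by
      intro z
      have := hm (Q.σ z - z) ⟨z, by simp⟩
      rw [map_sub, LinearMap.sub_apply, Q.σ_adj] at this
      rw [map_sub]
      exact this
    exact sub_eq_zero.mp (hnd.2 _ this)
  have h2 := LinearMap.BilinForm.orthogonal_le (B := Q.ip) h1
  rwa [LinearMap.BilinForm.orthogonal_orthogonal hnd hrefl] at h2

theorem orthogonal_fixμ_le (hnd : Q.ip.Nondegenerate) :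
    Q.ip.orthogonal Q.fixμ ≤ LinearMap.range (Q.μ - LinearMap.id) := by
  have hrefl : Q.ip.IsRefl := fun x y h => by rw [Q.ip_symm]; exact h
  have h1 : Q.ip.orthogonal (LinearMap.range (Q.μ - LinearMap.id)) ≤ Q.fixμ := by
    intro m hm
    rw [LinearMap.BilinForm.mem_orthogonal_iff] at hm
    rw [Q.mem_fixμ]
    have : ∀ z, Q.ip z (Q.ν m - m) = 0 := by
      intro z
      have := hm (Q.μ z - z) ⟨z, by simp⟩
      rw [map_sub, LinearMap.sub_apply, Q.μ_adj] at this
      rw [map_sub]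
      exact this
    have h3 : Q.ν m = m := sub_eq_zero.mp (hnd.2 _ this)
    have := congrArg Q.μ h3
    rw [Q.μν] at this
    exact this.symm
  have h2 := LinearMap.BilinForm.orthogonal_le (B := Q.ip) h1
  rwa [LinearMap.BilinForm.orthogonal_orthogonal hnd hrefl] at h2

/-- **(4)** over a field, a parabolic vector orthogonal to all parabolic vectors is trivial. -/
theorem mem_Triv_of_forall_Bw_eq_zero (hnd : Q.ip.Nondegenerate) {v' : W}
    (h : ∀ v w, Q.IsWit v w → Q.Bw w v' = 0) : v' ∈ Q.Triv := by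
  have hrefl : Q.ip.IsRefl := fun x y h => by rw [Q.ip_symm]; exact h
  rw [← LinearMap.BilinForm.orthogonal_orthogonal hnd hrefl Q.Triv,
    LinearMap.BilinForm.mem_orthogonal_iff]
  intro p hp
  have hpσ : p ∈ Q.ip.orthogonal Q.fixσ :=
    LinearMap.BilinForm.orthogonal_le (le_sup_left : Q.fixσ ≤ Q.Triv) hp
  have hpμ : p ∈ Q.ip.orthogonal Q.fixμ :=
    LinearMap.BilinForm.orthogonal_le (le_sup_right : Q.fixμ ≤ Q.Triv) hp
  obtain ⟨w, hw⟩ := Q.orthogonal_fixσ_le hnd hpσ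
  obtain ⟨y, hy⟩ := Q.orthogonal_fixμ_le hnd hpμ
  rw [LinearMap.sub_apply, LinearMap.id_apply] at hw hy
  have hwit : Q.IsWit (Q.μ y + w) w := by
    unfold IsWit
    have e : Q.μ (Q.σ w) - w = Q.μ (Q.σ w - w) + (Q.μ w - w) := by
      rw [map_sub]; abel
    rw [e, hw, ← hy, map_add, map_sub]
    abel
  have := h _ _ hwit
  unfold Bw at this
  rw [hw] at this
  exact this

end Field

end PDData

end Fermat.Agent.S41.H98
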