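import Mathlib
import Fermat.Agent.S41.H98_PermPD

/-!
# S41 / P1 : Poincaré duality on permutation modules (concrete part)

`D` a finite set, `σ μ : Equiv.Perm D`, `σ` an involution, `V_A = D → A` with the dot product and
`(g v)(x) = v (g⁻¹ x)`.
-/

set_option autoImplicit false
set_option linter.unusedSectionVars false

namespace Fermat.Agent.S41.H98

open LinearMap

variable {D : Type*} [Fintype D] [DecidableEq D]

section Basic

variable (A : Type*) [CommRing A]

/-- The dot product on `D → A`. -/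
def dot : LinearMap.BilinForm A (D → A) :=
  LinearMap.mk₂ A (fun v w => ∑ x, v x * w x)
    (fun v₁ v₂ w => by simp [add_mul, Finset.sum_add_distrib])
    (fun a v w => by simp [Finset.mul_sum, mul_assoc])
    (fun v w₁ w₂ => by simp [mul_add, Finset.sum_add_distrib])
    (fun a v w => by simp [Finset.mul_sum, mul_left_comm])

theorem dot_apply (v w : D → A) : dot A v w = ∑ x, v x * w x := rfl

theorem dot_symm (v w : D → A) : dot A v w = dot A w v := by
  rw [dot_apply, dot_apply]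
  exact Finset.sum_congr rfl fun x _ => mul_comm _ _

theorem dot_single_left (x : D) (a : A) (w : D → A) : dot A (Pi.single x a) w = a * w x := by
  rw [dot_apply, Finset.sum_eq_single x]
  · rw [Pi.single_eq_same]
  · intro y _ hy
    rw [Pi.single_eq_of_ne hy, zero_mul]
  · intro h
    exact absurd (Finset.mem_univ x) h

theorem dot_nondegenerate : (dot A : LinearMap.BilinForm A (D → A)).Nondegenerate := by
  constructor
  · intro v hv
    funext x
    have := hv (Pi.single x 1)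
    rw [dot_symm, dot_single_left, one_mul] at this
    exact this
  · intro w hw
    funext x
    have := hw (Pi.single x 1)
    rw [dot_single_left, one_mul] at this
    exact this

/-- The action of a permutation on functions: `(g v)(x) = v (g⁻¹ x)`. -/
def act (g : Equiv.Perm D) : (D → A) →ₗ[A] (D → A) := LinearMap.funLeft A A g.symm

theorem act_apply (g : Equiv.Perm D) (v : D → A) (x : D) : act A g v x = v (g.symm x) := rfl

theorem act_mul (g h : Equiv.Perm D) (v : D → A) : act A (g * h) v = act A g (act A h v) := by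
  funext x
  rw [act_apply, act_apply, act_apply]
  rfl

theorem act_one (v : D → A) : act A (1 : Equiv.Perm D) v = v := rfl

theorem act_inv_act (g : Equiv.Perm D) (v : D → A) : act A g⁻¹ (act A g v) = v := by
  rw [← act_mul, inv_mul_cancel, act_one]

theorem act_act_inv (g : Equiv.Perm D) (v : D → A) : act A g (act A g⁻¹ v) = v := by
  rw [← act_mul, mul_inv_cancel, act_one]

theorem act_single (g : Equiv.Perm D) (x : D) (a : A) :
    act A g (Pi.single x a) = Pi.single (g x) a := by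
  funext y
  rw [act_apply]
  by_cases h : y = g x
  · rw [h, Equiv.symm_apply_apply, Pi.single_eq_same, Pi.single_eq_same]
  · rw [Pi.single_eq_of_ne h, Pi.single_eq_of_ne]
    intro h'
    apply h
    rw [← h', Equiv.apply_symm_apply]

theorem dot_act_left (g : Equiv.Perm D) (v w : D → A) :
    dot A (act A g v) w = dot A v (act A g⁻¹ w) := by
  rw [dot_apply, dot_apply]
  rw [← Equiv.sum_comp g (fun x => act A g v x * w x)]
  refine Finset.sum_congr rfl fun x _ => ?_
  rw [act_apply, act_apply, Equiv.symm_apply_apply]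
  rfl

/-- The `PDData` of a pair of permutations. -/
def permData (σ μ : Equiv.Perm D) (hσ : ∀ x, σ (σ x) = x) : PDData A (D → A) where
  ip := dot A
  ip_symm := dot_symm A
  σ := act A σ
  μ := act A μ
  ν := act A μ⁻¹
  σσ := fun v => by
    rw [← act_mul]
    have : σ * σ = 1 := by
      ext x
      exact hσ x
    rw [this, act_one]
  μν := act_act_inv A μ
  νμ := act_inv_act A μ
  σ_adj := fun v w => by
    rw [dot_act_left]
    have : σ⁻¹ = σ := by
      ext x
      rw [Equiv.Perm.inv_def]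
      apply σ.injective
      rw [Equiv.apply_symm_apply, hσ]
    rw [this]
  μ_adj := dot_act_left A μ

end Basic

/-! ### The orbit lemma -/

section Orbit

variable (σ μ : Equiv.Perm D)

/-- `E = (μ - 1) V + (τ - 1) V`, `τ = μ σ`, as the set of `(μ - 1) a + (τ - 1) b`. -/
def IsBdry (r : D → ℤ) : Prop :=
  ∃ a b : D → ℤ, r = (act ℤ μ a - a) + (act ℤ μ (act ℤ σ b) - b)

theorem IsBdry.add {r r' : D → ℤ} (h : IsBdry σ μ r) (h' : IsBdry σ μ r') :
    IsBdry σ μ (r + r') := by
  obtain ⟨a, b, rfl⟩ := h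
  obtain ⟨a', b', rfl⟩ := h'
  refine ⟨a + a', b + b', ?_⟩
  simp only [map_add]
  abel

theorem IsBdry.neg {r : D → ℤ} (h : IsBdry σ μ r) : IsBdry σ μ (-r) := by
  obtain ⟨a, b, rfl⟩ := h
  refine ⟨-a, -b, ?_⟩
  simp only [map_neg]
  abel

theorem isBdry_zero : IsBdry σ μ 0 := ⟨0, 0, by simp⟩

theorem IsBdry.zsmul {r : D → ℤ} (n : ℤ) (h : IsBdry σ μ r) : IsBdry σ μ (n • r) := by
  obtain ⟨a, b, rfl⟩ := h
  refine ⟨n • a, n • b, ?_⟩
  simp only [map_smul, smul_add, smul_sub]

theorem isBdry_sum {ι : Type*} (s : Finset ι) (f : ι → D → ℤ) (h : ∀ i ∈ s, IsBdry σ μ (f i)) :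
    IsBdry σ μ (∑ i ∈ s, f i) := by
  classical
  induction s using Finset.induction_on with
  | empty => simpa using isBdry_zero σ μ
  | insert i s hi ih =>
    rw [Finset.sum_insert hi]
    exact (h i (Finset.mem_insert_self i s)).add σ μ
      (ih fun j hj => h j (Finset.mem_insert_of_mem hj))

theorem isBdry_act_sub (g : Equiv.Perm D) (hg : g ∈ Subgroup.closure ({σ, μ} : Set (Equiv.Perm D)))
    (v : D → ℤ) : IsBdry σ μ (act ℤ g v - v) := by
  induction hg using Subgroup.closure_induction generalizing v with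
  | mem g hg =>
    rcases hg with rfl | hg
    · -- `σ = μ⁻¹ τ`
      refine ⟨-(act ℤ μ⁻¹ (act ℤ μ (act ℤ g v))), v, ?_⟩
      rw [map_neg, act_act_inv, act_inv_act]
      abel
    · rw [Set.mem_singleton_iff] at hg
      subst hg
      exact ⟨v, 0, by simp⟩
  | one => simpa [act_one] using isBdry_zero σ μ
  | mul g h _ _ ihg ihh =>
    have := (ihg (act ℤ h v)).add σ μ (ihh v)
    rw [act_mul]
    convert this using 1
    abel
  | inv g _ ih =>
    have := (ih (act ℤ g⁻¹ v)).neg σ μ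
    rw [act_act_inv] at this
    convert this using 1
    abel

/-- a choice of representatives of the orbits of `⟨σ, μ⟩` -/
noncomputable def orep (x : D) : D :=
  Quotient.out (Quotient.mk (MulAction.orbitRel
    (Subgroup.closure ({σ, μ} : Set (Equiv.Perm D))) D) x)

theorem orep_rel (x : D) :
    ∃ g ∈ Subgroup.closure ({σ, μ} : Set (Equiv.Perm D)), g x = orep σ μ x := by
  have h : Quotient.mk (MulAction.orbitRel
      (Subgroup.closure ({σ, μ} : Set (Equiv.Perm D))) D) (orep σ μ x) = Quotient.mk _ x :=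
    Quotient.out_eq _
  have h2 := Quotient.exact h
  change orep σ μ x ∈ MulAction.orbit _ x at h2
  obtain ⟨⟨g, hg⟩, hgx⟩ := h2
  exact ⟨g, hg, hgx⟩

theorem orep_smul (g : Equiv.Perm D) (hg : g ∈ Subgroup.closure ({σ, μ} : Set (Equiv.Perm D)))
    (x : D) : orep σ μ (g x) = orep σ μ x := by
  unfold orep
  congr 1
  apply Quotient.sound
  change g x ∈ MulAction.orbit _ x
  exact ⟨⟨g, hg⟩, rfl⟩

/-- **orbit lemma**: a vector orthogonal to all `⟨σ, μ⟩`-invariant vectors is a boundary. -/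
theorem isBdry_of_forall_dot_eq_zero (r : D → ℤ)
    (h : ∀ c : D → ℤ, act ℤ σ c = c → act ℤ μ c = c → dot ℤ r c = 0) : IsBdry σ μ r := by
  classical
  have hσ : σ ∈ Subgroup.closure ({σ, μ} : Set (Equiv.Perm D)) :=
    Subgroup.subset_closure (Set.mem_insert _ _)
  have hμ : μ ∈ Subgroup.closure ({σ, μ} : Set (Equiv.Perm D)) :=
    Subgroup.subset_closure (Set.mem_insert_of_mem _ rfl)
  -- `r = ∑ r x (e_x - e_{ρ x}) + ∑ r x e_{ρ x}`
  have h1 : r = ∑ x, r x • ((Pi.single x (1 : ℤ) : D → ℤ) - (Pi.single (orep σ μ x) (1 : ℤ) : D → ℤ))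
      + ∑ x, r x • (Pi.single (orep σ μ x) (1 : ℤ) : D → ℤ) := by
    rw [← Finset.sum_add_distrib]
    funext y
    rw [Finset.sum_apply]
    simp only [smul_sub, sub_add_cancel, Pi.smul_apply, smul_eq_mul]
    rw [Finset.sum_eq_single y]
    · rw [Pi.single_eq_same, mul_one]
    · intro x _ hx
      rw [Pi.single_eq_of_ne' hx, mul_zero]
    · intro hy
      exact absurd (Finset.mem_univ y) hy
  have h2 : ∑ x, r x • (Pi.single (orep σ μ x) (1 : ℤ) : D → ℤ) = 0 := by
    funext y
    rw [Finset.sum_apply, Pi.zero_apply]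
    have hc := h (fun x => if orep σ μ x = y then 1 else 0) ?_ ?_
    · rw [dot_apply] at hc
      rw [← hc]
      refine Finset.sum_congr rfl fun x _ => ?_
      rw [Pi.smul_apply, smul_eq_mul]
      congr 1
      by_cases hxy : orep σ μ x = y
      · rw [if_pos hxy, hxy, Pi.single_eq_same]
      · rw [if_neg hxy, Pi.single_eq_of_ne' hxy]
    · funext x
      rw [act_apply]
      have : orep σ μ (σ.symm x) = orep σ μ x :=
        orep_smul σ μ σ⁻¹ (Subgroup.inv_mem _ hσ) x
      rw [this]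
    · funext x
      rw [act_apply]
      have : orep σ μ (μ.symm x) = orep σ μ x :=
        orep_smul σ μ μ⁻¹ (Subgroup.inv_mem _ hμ) x
      rw [this]
  rw [h1, h2, add_zero]
  apply isBdry_sum
  intro x _
  apply IsBdry.zsmul
  obtain ⟨g, hg, hgx⟩ := orep_rel σ μ x
  -- `e_x - e_{g x} = -(g e_x - e_x)`
  have := (isBdry_act_sub σ μ g hg (Pi.single x 1)).neg σ μ
  rw [act_single, hgx] at this
  convert this using 1
  abel

end Orbit

/-! ### Reduction modulo `p` -/

section Reduction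

variable (p : ℕ)

/-- reduction mod `p` of an integer vector. -/
def red (v : D → ℤ) : D → ZMod p := fun x => ((v x : ℤ) : ZMod p)

theorem red_apply (v : D → ℤ) (x : D) : red p v x = ((v x : ℤ) : ZMod p) := rfl

theorem red_add (v w : D → ℤ) : red p (v + w) = red p v + red p w := by
  funext x
  simp [red_apply]

theorem red_sub (v w : D → ℤ) : red p (v - w) = red p v - red p w := by
  funext x
  simp [red_apply]

theorem red_zero : red p (0 : D → ℤ) = 0 := by
  funext x
  simp [red_apply]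

theorem red_smul_self (v : D → ℤ) : red p ((p : ℤ) • v) = 0 := by
  funext x
  simp [red_apply]

theorem red_act (g : Equiv.Perm D) (v : D → ℤ) : red p (act ℤ g v) = act (ZMod p) g (red p v) :=
  rfl

theorem dot_red (v w : D → ℤ) : dot (ZMod p) (red p v) (red p w) = ((dot ℤ v w : ℤ) : ZMod p) := by
  rw [dot_apply, dot_apply, Int.cast_sum]
  refine Finset.sum_congr rfl fun x _ => ?_
  rw [red_apply, red_apply, Int.cast_mul]

/-- a canonical lift `ZMod p → ℤ`. -/
noncomputable def lft (a : ZMod p) : ℤ := (ZMod.intCast_surjective a).choose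

theorem cast_lft (a : ZMod p) : ((lft p a : ℤ) : ZMod p) = a := (ZMod.intCast_surjective a).choose_spec

/-- the canonical lift of a vector. -/
noncomputable def vlft (v : D → ZMod p) : D → ℤ := fun x => lft p (v x)

theorem red_vlft (v : D → ZMod p) : red p (vlft p v) = v := by
  funext x
  exact cast_lft p (v x)

theorem act_vlft (g : Equiv.Perm D) (v : D → ZMod p) :
    act ℤ g (vlft p v) = vlft p (act (ZMod p) g v) := rfl

theorem exists_smul_of_red_eq_zero {v : D → ℤ} (h : red p v = 0) : ∃ r : D → ℤ, v = (p : ℤ) • r := by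
  have h1 : ∀ x, (p : ℤ) ∣ v x := fun x => by
    have := congrFun h x
    rw [red_apply, Pi.zero_apply] at this
    exact (ZMod.intCast_zmod_eq_zero_iff_dvd _ _).mp this
  choose r hr using h1
  exact ⟨r, funext fun x => by rw [Pi.smul_apply, smul_eq_mul, hr x]⟩

end Reduction

/-! ### (5) lifting parabolic vectors and (6) Poincaré duality mod `p` -/

section Main

variable (σ μ : Equiv.Perm D) (hσ : ∀ x, σ (σ x) = x) (p : ℕ)

theorem isWit_red {v w : D → ℤ} (h : (permData ℤ σ μ hσ).IsWit v w) :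
    (permData (ZMod p) σ μ hσ).IsWit (red p v) (red p w) := by
  unfold PDData.IsWit at *
  change act ℤ μ (act ℤ σ w) - w = act ℤ μ v - v at h
  change act (ZMod p) μ (act (ZMod p) σ (red p w)) - red p w = act (ZMod p) μ (red p v) - red p v
  rw [← red_act, ← red_act, ← red_act, ← red_sub, ← red_sub, h]

theorem Bw_red (w v' : D → ℤ) :
    (permData (ZMod p) σ μ hσ).Bw (red p w) (red p v')
      = (((permData ℤ σ μ hσ).Bw w v' : ℤ) : ZMod p) := by
  unfold PDData.Bw
  change dot (ZMod p) (act (ZMod p) σ (red p w) - red p w) (red p v')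
    = ((dot ℤ (act ℤ σ w - w) v' : ℤ) : ZMod p)
  rw [← red_act, ← red_sub, dot_red]

/-- **(5)** parabolic vectors lift from `ZMod p` to `ℤ` (together with their witnesses). -/
theorem exists_lift_isWit [NeZero p] {v w : D → ZMod p}
    (h : (permData (ZMod p) σ μ hσ).IsWit v w) :
    ∃ v₁ w₁ : D → ℤ, (permData ℤ σ μ hσ).IsWit v₁ w₁ ∧ red p v₁ = v ∧ red p w₁ = w := by
  have hp0 : (p : ℤ) ≠ 0 := Int.natCast_ne_zero.mpr (NeZero.ne p)
  set v₀ := vlft p v with hv₀
  set w₀ := vlft p w with hw₀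
  -- the defect
  obtain ⟨r, hr⟩ : ∃ r : D → ℤ,
      (act ℤ μ v₀ - v₀) - (act ℤ μ (act ℤ σ w₀) - w₀) = (p : ℤ) • r := by
    apply exists_smul_of_red_eq_zero
    rw [red_sub, red_sub, red_sub, red_act, red_act, red_act, hv₀, hw₀, red_vlft, red_vlft]
    unfold PDData.IsWit at h
    change act (ZMod p) μ (act (ZMod p) σ w) - w = act (ZMod p) μ v - v at h
    rw [h, sub_self]
  -- `r` is a boundary
  have hb : IsBdry σ μ r := by
    apply isBdry_of_forall_dot_eq_zero
    intro c hcσ hcμ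
    have hcμ' : act ℤ μ⁻¹ c = c := by
      conv_lhs => rw [← hcμ]
      rw [act_inv_act]
    have hcσ' : act ℤ σ⁻¹ c = c := by
      conv_lhs => rw [← hcσ]
      rw [act_inv_act]
    have h1 : dot ℤ ((p : ℤ) • r) c = 0 := by
      rw [← hr]
      simp only [map_sub, LinearMap.sub_apply]
      rw [dot_act_left, dot_act_left, dot_act_left, hcμ', hcσ']
      ring
    rw [map_smul, LinearMap.smul_apply, smul_eq_mul] at h1
    exact (mul_eq_zero.mp h1).resolve_left hp0
  obtain ⟨a, b, hab⟩ := hb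
  refine ⟨v₀ - (p : ℤ) • a, w₀ + (p : ℤ) • b, ?_, ?_, ?_⟩
  · unfold PDData.IsWit
    change act ℤ μ (act ℤ σ (w₀ + (p : ℤ) • b)) - (w₀ + (p : ℤ) • b)
      = act ℤ μ (v₀ - (p : ℤ) • a) - (v₀ - (p : ℤ) • a)
    have e : (act ℤ μ (v₀ - (p : ℤ) • a) - (v₀ - (p : ℤ) • a))
        - (act ℤ μ (act ℤ σ (w₀ + (p : ℤ) • b)) - (w₀ + (p : ℤ) • b))
        = ((act ℤ μ v₀ - v₀) - (act ℤ μ (act ℤ σ w₀) - w₀))
          - (p : ℤ) • ((act ℤ μ a - a) + (act ℤ μ (act ℤ σ b) - b)) := by
      simp only [map_sub, map_add, map_smul, smul_add, smul_sub]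
      abel
    rw [hr, ← hab, sub_self] at e
    exact (sub_eq_zero.mp e).symm
  · rw [red_sub, red_smul_self, sub_zero, hv₀, red_vlft]
  · rw [red_add, red_smul_self, add_zero, hw₀, red_vlft]

/-- **(6) Poincaré duality mod `p` over `ℤ`** (any prime `p`): a parabolic integer vector whose
pairing with every parabolic integer vector is divisible by `p` lies in `p Par + Triv`. -/
theorem exists_decomp_of_forall_dvd [Fact p.Prime] {v w : D → ℤ}
    (h : (permData ℤ σ μ hσ).IsWit v w)
    (hdiv : ∀ v' w' : D → ℤ, (permData ℤ σ μ hσ).IsWit v' w' →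
      (p : ℤ) ∣ (permData ℤ σ μ hσ).Bw w v') :
    ∃ v₁ w₁ a b : D → ℤ, (permData ℤ σ μ hσ).IsWit v₁ w₁ ∧ act ℤ σ a = a ∧ act ℤ μ b = b ∧
      v = (p : ℤ) • v₁ + a + b := by
  have : NeZero p := ⟨(Fact.out : p.Prime).ne_zero⟩
  have hp0 : (p : ℤ) ≠ 0 := Int.natCast_ne_zero.mpr (NeZero.ne p)
  set P := permData ℤ σ μ hσ with hP
  set Q := permData (ZMod p) σ μ hσ with hQ
  -- `red v` is trivial
  have htriv : red p v ∈ Q.Triv := by
    apply PDData.mem_Triv_of_forall_Bw_eq_zero Q (dot_nondegenerate (ZMod p))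
    intro u z huz
    obtain ⟨u₁, z₁, h₁, hu₁, hz₁⟩ := exists_lift_isWit σ μ hσ p huz
    rw [← hz₁, hQ, Bw_red]
    have hanti := P.Bw_antisymm h₁ h
    have hd := hdiv u₁ z₁ h₁
    have : (p : ℤ) ∣ P.Bw z₁ v := by
      have e : P.Bw z₁ v = - P.Bw w u₁ := by linear_combination hanti
      rw [e]
      exact (dvd_neg).mpr hd
    exact (ZMod.intCast_zmod_eq_zero_iff_dvd _ _).mpr this
  obtain ⟨a', ha', b', hb', hsum⟩ := Submodule.mem_sup.mp htriv
  have ha'σ : act (ZMod p) σ a' = a' := Q.mem_fixσ.mp ha'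
  have hb'μ : act (ZMod p) μ b' = b' := Q.mem_fixμ.mp hb'
  set a := vlft p a' with ha
  set b := vlft p b' with hb
  have haσ : act ℤ σ a = a := by rw [ha, act_vlft, ha'σ]
  have hbμ : act ℤ μ b = b := by rw [hb, act_vlft, hb'μ]
  obtain ⟨v₁, hv₁⟩ : ∃ v₁ : D → ℤ, v - a - b = (p : ℤ) • v₁ := by
    apply exists_smul_of_red_eq_zero
    rw [red_sub, red_sub, ha, hb, red_vlft, red_vlft, ← hsum]
    abel
  -- `v₁` is parabolic
  have hw : act ℤ μ (act ℤ σ w) - w = act ℤ μ v - v := h
  have e1 : (p : ℤ) • (act ℤ μ v₁ - v₁) = act ℤ μ (act ℤ σ (w - a)) - (w - a) := by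
    rw [smul_sub, ← map_smul, ← hv₁]
    simp only [map_sub]
    rw [haσ, hbμ]
    have hw' : act ℤ μ (act ℤ σ w) = act ℤ μ v - v + w := by rw [← hw]; abel
    rw [hw']
    abel
  set z := w - a with hz
  -- `red z` is `τ`-invariant
  have hzinv : act (ZMod p) μ (act (ZMod p) σ (red p z)) = red p z := by
    have := congrArg (red p) e1
    rw [red_smul_self, red_sub, red_act, red_act] at this
    exact (sub_eq_zero.mp this.symm)
  set z₀ := vlft p (red p z) with hz₀
  have hz₀inv : act ℤ μ (act ℤ σ z₀) = z₀ := by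
    rw [hz₀, act_vlft, act_vlft, hzinv]
  obtain ⟨z₁, hz₁⟩ : ∃ z₁ : D → ℤ, z - z₀ = (p : ℤ) • z₁ := by
    apply exists_smul_of_red_eq_zero
    rw [red_sub, hz₀, red_vlft, sub_self]
  have hzz : z = z₀ + (p : ℤ) • z₁ := by rw [← hz₁]; abel
  have e2 : (p : ℤ) • (act ℤ μ v₁ - v₁) = (p : ℤ) • (act ℤ μ (act ℤ σ z₁) - z₁) := by
    rw [e1, hzz]
    simp only [map_add, map_smul, smul_sub]
    rw [hz₀inv]
    abel
  have e3 : act ℤ μ v₁ - v₁ = act ℤ μ (act ℤ σ z₁) - z₁ := by
    funext x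
    have := congrFun e2 x
    rw [Pi.smul_apply, Pi.smul_apply, smul_eq_mul, smul_eq_mul] at this
    exact mul_left_cancel₀ hp0 this
  refine ⟨v₁, z₁, a, b, e3.symm, haσ, hbμ, ?_⟩
  rw [← hv₁]
  abel

/-- **(6')** the same for the bilinear form `form` on `Par`. -/
theorem form_nondeg_mod_p [Fact p.Prime] (v : (permData ℤ σ μ hσ).Par)
    (hdiv : ∀ v' : (permData ℤ σ μ hσ).Par, (p : ℤ) ∣ (permData ℤ σ μ hσ).form v v') :
    ∃ (v₁ : (permData ℤ σ μ hσ).Par) (t : (permData ℤ σ μ hσ).Par),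
      (t : D → ℤ) ∈ (permData ℤ σ μ hσ).Triv ∧ v = (p : ℤ) • v₁ + t := by
  have hw := (permData ℤ σ μ hσ).isWit_wit v
  obtain ⟨v₁, w₁, a, b, h₁, haσ, hbμ, hv⟩ := exists_decomp_of_forall_dvd σ μ hσ p hw
    (fun v' w' h' => by
      have := hdiv ⟨v', ⟨w', h'⟩⟩
      rwa [(permData ℤ σ μ hσ).form_apply v ⟨v', ⟨w', h'⟩⟩ hw] at this)
  have ha : a ∈ (permData ℤ σ μ hσ).fixσ := (permData ℤ σ μ hσ).mem_fixσ.mpr haσ
  have hb : b ∈ (permData ℤ σ μ hσ).fixμ := (permData ℤ σ μ hσ).mem_fixμ.mpr hbμ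
  have hab : a + b ∈ (permData ℤ σ μ hσ).Triv := Submodule.add_mem_sup ha hb
  refine ⟨⟨v₁, ⟨w₁, h₁⟩⟩, ⟨a + b, (permData ℤ σ μ hσ).Triv_le_Par hab⟩, hab, ?_⟩
  apply Subtype.ext
  rw [Submodule.coe_add, Submodule.coe_smul]
  change (v : D → ℤ) = (p : ℤ) • v₁ + (a + b)
  rw [hv]
  abel

/-- **(6'')** the pairing on `H = Par / Triv` over `ℤ` is non-degenerate modulo every prime. -/
theorem formQ_nondeg_mod_p [Fact p.Prime] (x : (permData ℤ σ μ hσ).H)
    (hdiv : ∀ y : (permData ℤ σ μ hσ).H, (p : ℤ) ∣ (permData ℤ σ μ hσ).formQ x y) :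
    ∃ x₁ : (permData ℤ σ μ hσ).H, x = (p : ℤ) • x₁ := by
  revert hdiv
  refine Submodule.Quotient.induction_on _ x ?_
  intro v hdiv
  obtain ⟨v₁, t, ht, hv⟩ := form_nondeg_mod_p σ μ hσ p v (fun v' => by
    have := hdiv (Submodule.Quotient.mk v')
    rwa [PDData.formQ_mk] at this)
  refine ⟨Submodule.Quotient.mk v₁, ?_⟩
  rw [← Submodule.Quotient.mk_smul, hv, Submodule.Quotient.mk_add]
  have : (Submodule.Quotient.mk t : (permData ℤ σ μ hσ).H) = 0 :=
    (Submodule.Quotient.mk_eq_zero _).mpr ((permData ℤ σ μ hσ).mem_TrivP.mpr ht)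
  rw [this, add_zero]

end Main

end Fermat.Agent.S41.H98
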