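import Mathlib
import Fermat.Prelude.Def_ModularCurve_PeriodMap
import Fermat.Agent.S41.H98_PermPD2

/-!
# S41 / P-int : the permutation model of `Γ ≤ SL(2,ℤ)` (interface for P2, P3, P4, P5)

`Γ ≤ SL(2,ℤ)` of finite index with `-1 ∈ Γ`;  `Cos Γ = SL(2,ℤ) ⧸ Γ` (left cosets, left action),
`base = Γ`.  `mS = S`, `mT = T`, `mU = T S⁻¹` (so `mU ^ 3 = 1`, `mT = mU * mS`).
Functions `v : Cos Γ → A` carry the action `(g • v)(x) = v (g⁻¹ • x)` (`gact`).

* `modelData Γ hneg A : PDData A (Cos Γ → A)` : the data of `H98_PermPD` for `σ = mS`, `μ = mU`.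
* `IsCocycle Γ f` : `f (g * h) = f g + g • f h`.
* `Rep Γ φ v` : `φ` is represented by `v`: there is a cocycle `f` with `f mU = 0`,
  `f mS = mS • v - v` and `φ γ = f γ base` on `Γ`.
-/

set_option autoImplicit false
set_option linter.unusedSectionVars false

namespace Fermat.Agent.S41.H98

open scoped MatrixGroups
open ModularCurve.Period

/-- `S`. -/
def mS : SL(2, ℤ) := ModularGroup.S
/-- `T`. -/
def mT : SL(2, ℤ) := ModularGroup.T
/-- `U = T S⁻¹ = [[-1, 1], [-1, 0]]`, of order `3`. -/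
def mU : SL(2, ℤ) := ModularGroup.T * ModularGroup.S⁻¹

theorem mU_pow_three : mU ^ 3 = 1 := by decide
theorem mS_sq : mS ^ 2 = -1 := by decide
theorem mS_pow_four : mS ^ 4 = 1 := by decide
theorem mT_eq : mT = mU * mS := by decide
theorem mS_inv : mS⁻¹ = -mS := by decide
/-- the order `6` element `-U = S² U = T S`, with `(-U)³ = S²`. -/
theorem neg_mU_eq : -mU = mS ^ 2 * mU := by decide
theorem neg_mU_eq' : -mU = mT * mS := by decide
theorem neg_mU_pow_three : (-mU) ^ 3 = mS ^ 2 := by decide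
/-- relation with the generator `S T` of helper69's presentation: `-U = S⁻¹ (S T) S`. -/
theorem neg_mU_eq_conj : -mU = mS⁻¹ * (mS * mT) * mS := by decide

variable (Γ : Subgroup SL(2, ℤ))

/-- The coset space `SL(2,ℤ) ⧸ Γ` (left cosets `g Γ`, left action). -/
abbrev Cos : Type := SL(2, ℤ) ⧸ Γ

/-- The base coset `Γ`. -/
def base : Cos Γ := ((1 : SL(2, ℤ)) : SL(2, ℤ) ⧸ Γ)

theorem smul_base (γ : Γ) : (γ : SL(2, ℤ)) • base Γ = base Γ := by
  unfold base
  rw [MulAction.Quotient.smul_coe, smul_eq_mul, mul_one, QuotientGroup.eq, mul_one]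
  exact Γ.inv_mem γ.2

theorem smul_base_eq_iff (g : SL(2, ℤ)) : g • base Γ = base Γ ↔ g ∈ Γ := by
  unfold base
  rw [MulAction.Quotient.smul_coe, smul_eq_mul, mul_one, QuotientGroup.eq, mul_one]
  exact ⟨fun h => by simpa using Γ.inv_mem h, fun h => Γ.inv_mem h⟩

theorem neg_one_smul (hneg : (-1 : SL(2, ℤ)) ∈ Γ) (x : Cos Γ) : (-1 : SL(2, ℤ)) • x = x := by
  induction x using QuotientGroup.induction_on with
  | H g =>
    rw [MulAction.Quotient.smul_coe, smul_eq_mul, QuotientGroup.eq]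
    have : (-1 * g)⁻¹ * g = -1 := by
      rw [neg_mul, one_mul]
      have : (-g)⁻¹ = -g⁻¹ := by
        apply inv_eq_of_mul_eq_one_left
        simp
      rw [this, neg_mul, inv_mul_cancel]
    rw [this]
    exact hneg

theorem mS_smul_mS_smul (hneg : (-1 : SL(2, ℤ)) ∈ Γ) (x : Cos Γ) : mS • mS • x = x := by
  rw [← mul_smul, ← sq, mS_sq, neg_one_smul Γ hneg]

section Action

variable {A : Type*} [AddCommGroup A]

/-- `(g • v)(x) = v (g⁻¹ • x)`. -/
def gact (g : SL(2, ℤ)) (v : Cos Γ → A) : Cos Γ → A := fun x => v (g⁻¹ • x)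

theorem gact_apply (g : SL(2, ℤ)) (v : Cos Γ → A) (x : Cos Γ) : gact Γ g v x = v (g⁻¹ • x) := rfl

theorem gact_mul (g h : SL(2, ℤ)) (v : Cos Γ → A) : gact Γ (g * h) v = gact Γ g (gact Γ h v) := by
  funext x
  rw [gact_apply, gact_apply, gact_apply, mul_inv_rev, mul_smul]

theorem gact_one (v : Cos Γ → A) : gact Γ 1 v = v := by
  funext x
  rw [gact_apply, inv_one, one_smul]

theorem gact_add (g : SL(2, ℤ)) (v w : Cos Γ → A) : gact Γ g (v + w) = gact Γ g v + gact Γ g w := rfl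

theorem gact_sub (g : SL(2, ℤ)) (v w : Cos Γ → A) : gact Γ g (v - w) = gact Γ g v - gact Γ g w := rfl

theorem gact_zero (g : SL(2, ℤ)) : gact Γ g (0 : Cos Γ → A) = 0 := rfl

theorem gact_neg (g : SL(2, ℤ)) (v : Cos Γ → A) : gact Γ g (-v) = -gact Γ g v := rfl

/-- A `1`-cocycle `SL(2,ℤ) → Map(Cos Γ, A)`: `f (g h) = f g + g • f h`. -/
def IsCocycle (f : SL(2, ℤ) → Cos Γ → A) : Prop :=
  ∀ g h : SL(2, ℤ), f (g * h) = f g + gact Γ g (f h)

/-- `v` represents the homomorphism `φ : Γ → A`. -/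
def Rep (φ : Additive Γ →+ A) (v : Cos Γ → A) : Prop :=
  ∃ f : SL(2, ℤ) → Cos Γ → A, IsCocycle Γ f ∧ f mU = 0 ∧ f mS = gact Γ mS v - v ∧
    ∀ γ : Γ, φ (Additive.ofMul γ) = f γ (base Γ)

end Action

section Model

variable [Γ.FiniteIndex] (hneg : (-1 : SL(2, ℤ)) ∈ Γ) (A : Type*) [CommRing A]

/-- The `Fintype` structure on `Cos Γ` (classical). -/
@[instance_reducible]
noncomputable def cosFintype : Fintype (Cos Γ) :=
  haveI : Finite (Cos Γ) := Subgroup.finite_quotient_of_finiteIndex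
  Fintype.ofFinite _

/-- The Poincaré duality data of `Γ`: `σ = S`, `μ = U = T S⁻¹` acting on `Cos Γ → A`. -/
noncomputable def modelData : PDData A (Cos Γ → A) :=
  letI : Fintype (Cos Γ) := cosFintype Γ
  letI : DecidableEq (Cos Γ) := Classical.decEq _
  permData A (MulAction.toPerm mS : Equiv.Perm (Cos Γ)) (MulAction.toPerm mU)
    (fun x => mS_smul_mS_smul Γ hneg x)

theorem modelData_σ (v : Cos Γ → A) : (modelData Γ hneg A).σ v = gact Γ mS v := rfl

theorem modelData_μ (v : Cos Γ → A) : (modelData Γ hneg A).μ v = gact Γ mU v := rfl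

theorem modelData_ν (v : Cos Γ → A) : (modelData Γ hneg A).ν v = gact Γ mU⁻¹ v := by
  funext x
  change v ((MulAction.toPerm mU : Equiv.Perm (Cos Γ))⁻¹.symm x) = v ((mU⁻¹)⁻¹ • x)
  rw [inv_inv]
  rfl

theorem modelData_ip [Fintype (Cos Γ)] (v w : Cos Γ → A) :
    (modelData Γ hneg A).ip v w = ∑ x, v x * w x := by
  change @Finset.sum _ _ _ (@Finset.univ _ (cosFintype Γ)) (fun x => v x * w x) = _
  have : cosFintype Γ = ‹Fintype (Cos Γ)› := Subsingleton.elim _ _
  rw [this]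

/-- `IsWit v w` in the model: `T • w - w = U • v - v`. -/
theorem modelData_isWit_iff (v w : Cos Γ → A) :
    (modelData Γ hneg A).IsWit v w ↔ gact Γ mT w - w = gact Γ mU v - v := by
  unfold PDData.IsWit
  rw [modelData_σ, modelData_μ, modelData_μ, mT_eq, gact_mul]

theorem modelData_Bw [Fintype (Cos Γ)] (w v' : Cos Γ → A) :
    (modelData Γ hneg A).Bw w v' = ∑ x, (gact Γ mS w x - w x) * v' x := by
  unfold PDData.Bw
  rw [modelData_ip, modelData_σ]
  rfl

end Model

end Fermat.Agent.S41.H98
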