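import Mathlib
import Fermat.Agent.S41.H98_PDModel

/-!
# S41 / P-int / P2 : the dictionary between homomorphisms `Γ → ℤ` and the permutation model

Vocabulary of `H98_PDModel`: `Cos Γ`, `base Γ`, `gact Γ`, `IsCocycle Γ`, `Rep Γ φ v`, `modelData`.

* cocycle toolkit (`IsCocycle.map_one`, `map_inv`, `map_pow`, `conj_base`, `exists_cob`);
* the Shapiro cocycle `shap` of a homomorphism `φ : Γ → A`;
* `Rep.add`, `Rep.neg`, `Rep.sub`, `Rep.zsmul`, `Rep.add_triv`;
* `rep_unique` : two representatives of the same `φ` differ by an element of `Triv`;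
* `exists_rep'` : every `φ : Γ → ℤ` has a representative;
* `rep_par` : a representative of a parabolic `φ` is a parabolic vector;
* `exists_rep` : (D1).
-/

set_option autoImplicit false
set_option linter.unusedSectionVars false

namespace Fermat.Agent.S41.H58

open scoped MatrixGroups
open ModularCurve.Period
open Fermat.Agent.S41.H98

/-! ### A permutation lemma over `ℤ` -/

section Perm

variable {D : Type*} [Fintype D] [DecidableEq D]

theorem act_pow_fixed (π : Equiv.Perm D) {c : D → ℤ} (hc : act ℤ π c = c) (i : ℕ) :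
    act ℤ (π ^ i) c = c := by
  induction i with
  | zero => rw [pow_zero, act_one]
  | succ i ih => rw [pow_succ, act_mul, hc, ih]

/-- If `∑_{i<n} π^i u = 0` with `n > 0` then `u = π y - y` (over `ℤ`). -/
theorem exists_act_sub_of_sum_eq_zero (π : Equiv.Perm D) (n : ℕ) (hn : 0 < n) (u : D → ℤ)
    (h : ∑ i ∈ Finset.range n, act ℤ (π ^ i) u = 0) : ∃ y : D → ℤ, u = act ℤ π y - y := by
  have hb : IsBdry (1 : Equiv.Perm D) π u := by
    apply isBdry_of_forall_dot_eq_zero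
    intro c _ hc
    have h1 : dot ℤ (∑ i ∈ Finset.range n, act ℤ (π ^ i) u) c = (n : ℤ) * dot ℤ u c := by
      rw [map_sum, LinearMap.sum_apply]
      have : ∀ i ∈ Finset.range n, dot ℤ (act ℤ (π ^ i) u) c = dot ℤ u c := by
        intro i _
        rw [dot_act_left, ← inv_pow, act_pow_fixed]
        conv_lhs => rw [← hc]
        rw [act_inv_act]
      rw [Finset.sum_congr rfl this, Finset.sum_const, Finset.card_range, nsmul_eq_mul]
    rw [h, map_zero, LinearMap.zero_apply] at h1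
    have hn0 : (n : ℤ) ≠ 0 := by exact_mod_cast hn.ne'
    exact (mul_eq_zero.mp h1.symm).resolve_left hn0
  obtain ⟨a, b, hab⟩ := hb
  refine ⟨a + b, ?_⟩
  rw [hab, act_one, map_add]
  abel

end Perm

/-! ### Cocycle toolkit -/

section Cocycle

variable (Γ : Subgroup SL(2, ℤ)) {A : Type*} [AddCommGroup A]

theorem gact_inv_gact (g : SL(2, ℤ)) (v : Cos Γ → A) : gact Γ g⁻¹ (gact Γ g v) = v := by
  rw [← gact_mul, inv_mul_cancel, gact_one]

theorem gact_gact_inv (g : SL(2, ℤ)) (v : Cos Γ → A) : gact Γ g (gact Γ g⁻¹ v) = v := by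
  rw [← gact_mul, mul_inv_cancel, gact_one]

theorem gact_sum {ι : Type*} (s : Finset ι) (g : SL(2, ℤ)) (F : ι → Cos Γ → A) :
    gact Γ g (∑ i ∈ s, F i) = ∑ i ∈ s, gact Γ g (F i) := by
  funext x
  rw [gact_apply, Finset.sum_apply, Finset.sum_apply]
  rfl

theorem gact_zsmul (g : SL(2, ℤ)) (n : ℤ) (v : Cos Γ → A) :
    gact Γ g (n • v) = n • gact Γ g v := rfl

variable {Γ}

theorem isCocycle_map_one {f : SL(2, ℤ) → Cos Γ → A} (hf : IsCocycle Γ f) : f 1 = 0 := by
  have h := hf 1 1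
  rw [mul_one, gact_one] at h
  exact left_eq_add.mp h

theorem isCocycle_map_inv {f : SL(2, ℤ) → Cos Γ → A} (hf : IsCocycle Γ f) (g : SL(2, ℤ)) :
    f g⁻¹ = - gact Γ g⁻¹ (f g) := by
  have h := hf g⁻¹ g
  rw [inv_mul_cancel, isCocycle_map_one hf] at h
  exact eq_neg_of_add_eq_zero_left h.symm

theorem isCocycle_map_pow {f : SL(2, ℤ) → Cos Γ → A} (hf : IsCocycle Γ f) (g : SL(2, ℤ)) (n : ℕ) :
    f (g ^ n) = ∑ i ∈ Finset.range n, gact Γ (g ^ i) (f g) := by
  induction n with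
  | zero => rw [pow_zero, isCocycle_map_one hf, Finset.range_zero, Finset.sum_empty]
  | succ n ih => rw [pow_succ, hf, ih, Finset.sum_range_succ]

/-- conjugation formula: if `t` fixes `h • base` then `f (h⁻¹ t h) base = f t (h • base)`. -/
theorem isCocycle_conj_base {f : SL(2, ℤ) → Cos Γ → A} (hf : IsCocycle Γ f) (h t : SL(2, ℤ))
    (ht : t • h • base Γ = h • base Γ) : f (h⁻¹ * t * h) (base Γ) = f t (h • base Γ) := by
  have ht' : t⁻¹ • h • base Γ = h • base Γ := by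
    rw [inv_smul_eq_iff, ht]
  rw [mul_assoc, hf, hf, isCocycle_map_inv hf]
  simp only [Pi.add_apply, Pi.neg_apply, gact_apply, inv_inv, ht']
  abel

theorem isCocycle_add {f f' : SL(2, ℤ) → Cos Γ → A} (hf : IsCocycle Γ f) (hf' : IsCocycle Γ f') :
    IsCocycle Γ (fun g => f g + f' g) := by
  intro g h
  simp only [hf g h, hf' g h, gact_add]
  abel

theorem isCocycle_neg {f : SL(2, ℤ) → Cos Γ → A} (hf : IsCocycle Γ f) :
    IsCocycle Γ (fun g => - f g) := by
  intro g h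
  simp only [hf g h, gact_neg]
  abel

theorem isCocycle_sub {f f' : SL(2, ℤ) → Cos Γ → A} (hf : IsCocycle Γ f) (hf' : IsCocycle Γ f') :
    IsCocycle Γ (fun g => f g - f' g) := by
  intro g h
  simp only [hf g h, hf' g h, gact_sub]
  abel

theorem isCocycle_zsmul {f : SL(2, ℤ) → Cos Γ → A} (hf : IsCocycle Γ f) (n : ℤ) :
    IsCocycle Γ (fun g => n • f g) := by
  intro g h
  simp only [hf g h, gact_zsmul, smul_add]

variable (Γ)

/-- the coboundary of `m`. -/
theorem isCocycle_cob (m : Cos Γ → A) : IsCocycle Γ (fun g => gact Γ g m - m) := by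
  intro g h
  simp only [gact_mul, gact_sub]
  abel

variable {Γ}

/-- **Shapiro injectivity**: a cocycle vanishing at the base coset on `Γ` is a coboundary. -/
theorem isCocycle_exists_cob {f : SL(2, ℤ) → Cos Γ → A} (hf : IsCocycle Γ f)
    (h0 : ∀ γ : Γ, f γ (base Γ) = 0) : ∃ m : Cos Γ → A, ∀ g, f g = gact Γ g m - m := by
  -- `m (h • base) = - f h (h • base)`
  have hout : ∀ x : Cos Γ, (Quotient.out x : SL(2, ℤ)) • base Γ = x := by
    intro x
    unfold base
    rw [MulAction.Quotient.smul_coe, smul_eq_mul, mul_one]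
    exact QuotientGroup.out_eq' x
  have hwd : ∀ h h' : SL(2, ℤ), h • base Γ = h' • base Γ → f h (h • base Γ) = f h' (h' • base Γ) := by
    intro h h' hh
    have hγ : h⁻¹ * h' ∈ Γ := by
      rw [← smul_base_eq_iff, mul_smul, ← hh, inv_smul_smul]
    have e : h' = h * (h⁻¹ * h') := by group
    have := h0 ⟨_, hγ⟩
    rw [← hh]
    conv_rhs => rw [e, hf]
    simp only [Pi.add_apply, gact_apply, inv_smul_smul]
    rw [this, add_zero]
  refine ⟨fun x => - f (Quotient.out x) x, fun g => ?_⟩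
  funext x
  simp only [Pi.sub_apply, gact_apply]
  -- `x = h • base`
  set h := (Quotient.out x : SL(2, ℤ)) with hh
  have hx : h • base Γ = x := hout x
  have e1 : f (Quotient.out (g⁻¹ • x)) (g⁻¹ • x) = f (g⁻¹ * h) ((g⁻¹ * h) • base Γ) := by
    have := hwd (Quotient.out (g⁻¹ • x)) (g⁻¹ * h) (by rw [hout, mul_smul, hx])
    rw [hout] at this
    exact this
  have e2 : f (g⁻¹ * h) ((g⁻¹ * h) • base Γ) = - f g x + f h x := by
    rw [hf, isCocycle_map_inv hf, mul_smul, hx]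
    simp only [Pi.add_apply, Pi.neg_apply, gact_apply, inv_inv, smul_inv_smul]
  rw [e1, e2]
  abel

end Cocycle

/-! ### The Shapiro cocycle -/

section Shapiro

variable (Γ : Subgroup SL(2, ℤ)) {A : Type*} [AddCommGroup A]

theorem out_smul_base (x : Cos Γ) : (Quotient.out x : SL(2, ℤ)) • base Γ = x := by
  unfold base
  rw [MulAction.Quotient.smul_coe, smul_eq_mul, mul_one]
  exact QuotientGroup.out_eq' x

theorem shapElt_mem (g : SL(2, ℤ)) (x : Cos Γ) :
    (Quotient.out x : SL(2, ℤ))⁻¹ * g * (Quotient.out (g⁻¹ • x) : SL(2, ℤ)) ∈ Γ := by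
  rw [← smul_base_eq_iff, mul_smul, mul_smul, out_smul_base, smul_inv_smul, inv_smul_eq_iff,
    out_smul_base]

/-- The element `r(x)⁻¹ g r(g⁻¹ x)` of `Γ`. -/
noncomputable def shapElt (g : SL(2, ℤ)) (x : Cos Γ) : Γ :=
  ⟨(Quotient.out x : SL(2, ℤ))⁻¹ * g * (Quotient.out (g⁻¹ • x) : SL(2, ℤ)), shapElt_mem Γ g x⟩

theorem shapElt_mul (g h : SL(2, ℤ)) (x : Cos Γ) :
    shapElt Γ (g * h) x = shapElt Γ g x * shapElt Γ h (g⁻¹ • x) := by
  apply Subtype.ext
  simp only [shapElt, Subgroup.coe_mul, mul_inv_rev, mul_smul]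
  group

/-- The Shapiro cocycle `F_φ (g)(x) = φ (r(x)⁻¹ g r(g⁻¹ x))`. -/
noncomputable def shap (φ : Additive Γ →+ A) (g : SL(2, ℤ)) : Cos Γ → A :=
  fun x => φ (Additive.ofMul (shapElt Γ g x))

theorem isCocycle_shap (φ : Additive Γ →+ A) : IsCocycle Γ (shap Γ φ) := by
  intro g h
  funext x
  simp only [shap, Pi.add_apply, gact_apply]
  rw [shapElt_mul, ofMul_mul, map_add]

theorem shap_base (φ : Additive Γ →+ A) (γ : Γ) : shap Γ φ γ (base Γ) = φ (Additive.ofMul γ) := by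
  have hx : (γ : SL(2, ℤ))⁻¹ • base Γ = base Γ := by
    rw [inv_smul_eq_iff, smul_base]
  have hr : (Quotient.out (base Γ) : SL(2, ℤ)) ∈ Γ := by
    rw [← smul_base_eq_iff, out_smul_base]
  have hs : shapElt Γ (γ : SL(2, ℤ)) (base Γ) = (⟨_, hr⟩ : Γ)⁻¹ * γ * ⟨_, hr⟩ := by
    apply Subtype.ext
    simp only [shapElt, hx, Subgroup.coe_mul, Subgroup.coe_inv]
  unfold shap
  rw [hs, ofMul_mul, ofMul_mul, ofMul_inv, map_add, map_add, map_neg]
  abel

end Shapiro

/-! ### Formal properties of `Rep` -/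

section RepFormal

variable (Γ : Subgroup SL(2, ℤ)) {A : Type*} [AddCommGroup A]

theorem rep_zero : Rep Γ (0 : Additive Γ →+ A) 0 :=
  ⟨fun _ => 0, fun _ _ => by simp [gact_zero], rfl, by simp [gact_zero], fun _ => rfl⟩

variable {Γ}

theorem rep_add {φ ψ : Additive Γ →+ A} {v v' : Cos Γ → A} (h : Rep Γ φ v) (h' : Rep Γ ψ v') :
    Rep Γ (φ + ψ) (v + v') := by
  obtain ⟨f, hf, hU, hS, hb⟩ := h
  obtain ⟨f', hf', hU', hS', hb'⟩ := h'
  refine ⟨fun g => f g + f' g, isCocycle_add hf hf', ?_, ?_, ?_⟩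
  · simp only [hU, hU', add_zero]
  · simp only [hS, hS', gact_add]
    abel
  · intro γ
    rw [AddMonoidHom.add_apply, hb, hb']
    rfl

theorem rep_neg {φ : Additive Γ →+ A} {v : Cos Γ → A} (h : Rep Γ φ v) : Rep Γ (-φ) (-v) := by
  obtain ⟨f, hf, hU, hS, hb⟩ := h
  refine ⟨fun g => - f g, isCocycle_neg hf, ?_, ?_, ?_⟩
  · simp only [hU, neg_zero]
  · simp only [hS, gact_neg]
    abel
  · intro γ
    rw [AddMonoidHom.neg_apply, hb]
    rfl

theorem rep_sub {φ ψ : Additive Γ →+ A} {v v' : Cos Γ → A} (h : Rep Γ φ v) (h' : Rep Γ ψ v') :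
    Rep Γ (φ - ψ) (v - v') := by
  rw [sub_eq_add_neg, sub_eq_add_neg]
  exact rep_add h (rep_neg h')

theorem rep_zsmul {φ : Additive Γ →+ A} {v : Cos Γ → A} (n : ℤ) (h : Rep Γ φ v) :
    Rep Γ (n • φ) (n • v) := by
  obtain ⟨f, hf, hU, hS, hb⟩ := h
  refine ⟨fun g => n • f g, isCocycle_zsmul hf n, ?_, ?_, ?_⟩
  · simp only [hU, smul_zero]
  · simp only [hS, gact_zsmul, smul_sub]
  · intro γ
    rw [AddMonoidHom.smul_apply, hb]
    rfl

/-- `Rep φ v` only depends on `v` modulo `V^S + V^U`. -/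
theorem rep_add_triv {φ : Additive Γ →+ A} {v a b : Cos Γ → A} (h : Rep Γ φ v)
    (ha : gact Γ mS a = a) (hb : gact Γ mU b = b) : Rep Γ φ (v + a + b) := by
  obtain ⟨f, hf, hU, hS, hbase⟩ := h
  refine ⟨fun g => f g + (gact Γ g b - b), isCocycle_add hf (isCocycle_cob Γ b), ?_, ?_, ?_⟩
  · simp only [hU, hb, sub_self, add_zero]
  · simp only [hS, gact_add, ha]
    abel
  · intro γ
    have hx : (γ : SL(2, ℤ))⁻¹ • base Γ = base Γ := by
      rw [inv_smul_eq_iff, smul_base]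
    rw [hbase]
    change f γ (base Γ) = f γ (base Γ) + (b ((γ : SL(2, ℤ))⁻¹ • base Γ) - b (base Γ))
    rw [hx, sub_self, add_zero]

end RepFormal

/-! ### The dictionary -/

section Main

variable (Γ : Subgroup SL(2, ℤ))

/-- conjugates of powers of `T` have trace `2`. -/
theorem trace_conj_mT_pow (h : SL(2, ℤ)) (n : ℕ) :
    ((h⁻¹ * mT ^ n * h : SL(2, ℤ)) : Matrix (Fin 2) (Fin 2) ℤ).trace = 2 := by
  rw [Matrix.SpecialLinearGroup.coe_mul, Matrix.SpecialLinearGroup.coe_mul, Matrix.trace_mul_cycle,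
    ← Matrix.SpecialLinearGroup.coe_mul, mul_inv_cancel, Matrix.SpecialLinearGroup.coe_one,
    one_mul]
  unfold mT
  rw [← zpow_natCast, ModularGroup.coe_T_zpow]
  simp [Matrix.trace_fin_two]

/-- **uniqueness of the representative modulo `Triv`** (any coefficient ring). -/
theorem rep_unique [Γ.FiniteIndex] (hneg : (-1 : SL(2, ℤ)) ∈ Γ) {A : Type*} [CommRing A]
    {φ : Additive Γ →+ A} {v v' : Cos Γ → A} (h : Rep Γ φ v) (h' : Rep Γ φ v') :
    v - v' ∈ (modelData Γ hneg A).Triv := by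
  obtain ⟨f, hf, hU, hS, hb⟩ := h
  obtain ⟨f', hf', hU', hS', hb'⟩ := h'
  obtain ⟨m, hm⟩ := isCocycle_exists_cob (isCocycle_sub hf hf') (fun γ => by
    change f γ (base Γ) - f' γ (base Γ) = 0
    rw [← hb, ← hb', sub_self])
  have hmU : gact Γ mU m = m := by
    have := hm mU
    simp only [hU, hU', sub_self] at this
    exact sub_eq_zero.mp this.symm
  have hmS : gact Γ mS (v - v' - m) = v - v' - m := by
    have := hm mS
    simp only [hS, hS'] at this
    rw [gact_sub, gact_sub]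
    have e : gact Γ mS v - gact Γ mS v' - gact Γ mS m - (v - v' - m)
        = (gact Γ mS v - v - (gact Γ mS v' - v')) - (gact Γ mS m - m) := by abel
    exact sub_eq_zero.mp (by rw [e, this, sub_self])
  have e : v - v' = (v - v' - m) + m := by abel
  rw [e]
  unfold PDData.Triv
  exact Submodule.add_mem_sup
    ((modelData Γ hneg A).mem_fixσ.mpr (by rw [modelData_σ]; exact hmS))
    ((modelData Γ hneg A).mem_fixμ.mpr (by rw [modelData_μ]; exact hmU))

variable [Γ.FiniteIndex]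

/-- `∑_{i<n} g^i u = 0` with `n > 0` implies `u = g y - y` (over `ℤ`). -/
theorem exists_gact_sub_of_sum_eq_zero (g : SL(2, ℤ)) (n : ℕ) (hn : 0 < n) (u : Cos Γ → ℤ)
    (h : ∑ i ∈ Finset.range n, gact Γ (g ^ i) u = 0) : ∃ y : Cos Γ → ℤ, u = gact Γ g y - y := by
  let _ : Fintype (Cos Γ) := cosFintype Γ
  let _ : DecidableEq (Cos Γ) := Classical.decEq _
  have key : ∀ (k : SL(2, ℤ)) (v : Cos Γ → ℤ), gact Γ k v = act ℤ (MulAction.toPerm k) v :=
    fun _ _ => rfl
  have hpow : ∀ i : ℕ, (MulAction.toPerm (g ^ i) : Equiv.Perm (Cos Γ)) = (MulAction.toPerm g) ^ i :=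
    fun i => map_pow (MulAction.toPermHom SL(2, ℤ) (Cos Γ)) g i
  obtain ⟨y, hy⟩ := exists_act_sub_of_sum_eq_zero (MulAction.toPerm g : Equiv.Perm (Cos Γ)) n hn u
    (by
      rw [← h]
      refine Finset.sum_congr rfl fun i _ => ?_
      rw [key, hpow])
  exact ⟨y, hy⟩

/-- every homomorphism `Γ → ℤ` has a representative (no parabolicity needed). -/
theorem exists_rep' (hneg : (-1 : SL(2, ℤ)) ∈ Γ) (φ : Additive Γ →+ ℤ) : ∃ v, Rep Γ φ v := by
  have hF := isCocycle_shap Γ φ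
  have h3 : ∑ i ∈ Finset.range 3, gact Γ (mU ^ i) (shap Γ φ mU) = 0 := by
    rw [← isCocycle_map_pow hF, mU_pow_three, isCocycle_map_one hF]
  obtain ⟨m, hm⟩ := exists_gact_sub_of_sum_eq_zero Γ mU 3 (by norm_num) _ h3
  obtain ⟨f, hfdef⟩ : ∃ f : SL(2, ℤ) → Cos Γ → ℤ, f = fun g => shap Γ φ g - (gact Γ g m - m) :=
    ⟨_, rfl⟩
  have hf : IsCocycle Γ f := by
    rw [hfdef]
    exact isCocycle_sub hF (isCocycle_cob Γ m)
  have hfU : f mU = 0 := by
    rw [hfdef]
    change shap Γ φ mU - (gact Γ mU m - m) = 0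
    rw [hm, sub_self]
  have hfb : ∀ γ : Γ, f γ (base Γ) = φ (Additive.ofMul γ) := by
    intro γ
    have hx : (γ : SL(2, ℤ))⁻¹ • base Γ = base Γ := by
      rw [inv_smul_eq_iff, smul_base]
    rw [hfdef]
    change shap Γ φ γ (base Γ) - (m ((γ : SL(2, ℤ))⁻¹ • base Γ) - m (base Γ)) = _
    rw [hx, sub_self, sub_zero, shap_base]
  have hφneg : φ (Additive.ofMul (⟨-1, hneg⟩ : Γ)) = 0 := by
    have h2 : φ (Additive.ofMul (⟨-1, hneg⟩ : Γ)) + φ (Additive.ofMul (⟨-1, hneg⟩ : Γ)) = 0 := by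
      rw [← map_add, ← ofMul_mul]
      have : (⟨-1, hneg⟩ : Γ) * ⟨-1, hneg⟩ = 1 := by
        apply Subtype.ext
        simp
      rw [this, ofMul_one, map_zero]
    omega
  have hfneg : f (-1) = 0 := by
    funext x
    have hc := isCocycle_conj_base hf (Quotient.out x) (-1) (by rw [neg_one_smul Γ hneg])
    rw [out_smul_base] at hc
    have e : (Quotient.out x : SL(2, ℤ))⁻¹ * -1 * Quotient.out x = -1 := by
      rw [mul_neg, mul_one, neg_mul, inv_mul_cancel]
    rw [e] at hc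
    rw [← hc]
    exact (hfb ⟨-1, hneg⟩).trans hφneg
  have h2 : ∑ i ∈ Finset.range 2, gact Γ (mS ^ i) (f mS) = 0 := by
    rw [← isCocycle_map_pow hf, mS_sq, hfneg]
  obtain ⟨v, hv⟩ := exists_gact_sub_of_sum_eq_zero Γ mS 2 (by norm_num) _ h2
  exact ⟨v, f, hf, hfU, hv, fun γ => (hfb γ).symm⟩

/-- a representative of a parabolic homomorphism is a parabolic vector. -/
theorem rep_par (hneg : (-1 : SL(2, ℤ)) ∈ Γ) {φ : Additive Γ →+ ℤ} {v : Cos Γ → ℤ}
    (h : Rep Γ φ v) (hφ : φ ∈ parabolicHoms ℤ Γ ℤ) : ∃ w, (modelData Γ hneg ℤ).IsWit v w := by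
  obtain ⟨f, hf, hU, hS, hb⟩ := h
  have : Finite (Cos Γ) := Subgroup.finite_quotient_of_finiteIndex
  obtain ⟨n, hn, hτn⟩ : ∃ n : ℕ, 0 < n ∧
      (MulAction.toPerm mT : Equiv.Perm (Cos Γ)) ^ n = 1 :=
    ⟨orderOf _, orderOf_pos _, pow_orderOf_eq_one _⟩
  have hTn : ∀ x : Cos Γ, (mT ^ n) • x = x := by
    intro x
    have h1 : (MulAction.toPerm (mT ^ n) : Equiv.Perm (Cos Γ)) = 1 := by
      rw [show (MulAction.toPerm (mT ^ n) : Equiv.Perm (Cos Γ)) = (MulAction.toPerm mT) ^ n from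
        map_pow (MulAction.toPermHom SL(2, ℤ) (Cos Γ)) mT n, hτn]
    exact Equiv.Perm.congr_fun h1 x
  have hfT : f (mT ^ n) = 0 := by
    funext x
    have hc := isCocycle_conj_base hf (Quotient.out x) (mT ^ n) (hTn _)
    rw [out_smul_base] at hc
    rw [← hc]
    have hmem : (Quotient.out x : SL(2, ℤ))⁻¹ * mT ^ n * Quotient.out x ∈ Γ := by
      rw [← smul_base_eq_iff, mul_smul, mul_smul, hTn, inv_smul_smul]
    have hpar := hφ ⟨_, hmem⟩ (by rw [trace_conj_mT_pow]; norm_num)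
    rw [hb ⟨_, hmem⟩] at hpar
    exact hpar
  have hsum : ∑ i ∈ Finset.range n, gact Γ (mT ^ i) (f mT) = 0 := by
    rw [← isCocycle_map_pow hf, hfT]
  obtain ⟨y, hy⟩ := exists_gact_sub_of_sum_eq_zero Γ mT n hn _ hsum
  have hT : f mT = gact Γ mU (gact Γ mS v) - gact Γ mU v := by
    rw [mT_eq, hf, hU, zero_add, hS, gact_sub]
  refine ⟨v - y, ?_⟩
  rw [modelData_isWit_iff]
  have e : gact Γ mT v = gact Γ mU (gact Γ mS v) := by rw [mT_eq, gact_mul]
  rw [gact_sub, e]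
  rw [hT] at hy
  have e2 : gact Γ mU (gact Γ mS v) - gact Γ mT y - (v - y)
      = gact Γ mU (gact Γ mS v) - v - (gact Γ mT y - y) := by abel
  rw [e2, ← hy]
  abel

/-- **(D1)** every parabolic homomorphism `Γ → ℤ` is represented by a parabolic vector. -/
theorem exists_rep (hneg : (-1 : SL(2, ℤ)) ∈ Γ) {φ : Additive Γ →+ ℤ}
    (hφ : φ ∈ parabolicHoms ℤ Γ ℤ) :
    ∃ v w, (modelData Γ hneg ℤ).IsWit v w ∧ Rep Γ φ v := by
  obtain ⟨v, hv⟩ := exists_rep' Γ hneg φ
  obtain ⟨w, hw⟩ := rep_par Γ hneg hv hφ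
  exact ⟨v, w, hw, hv⟩

end Main

end Fermat.Agent.S41.H58
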