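import Mathlib
import Fermat.Agent.S21.Parabolic

/-!
# S41 / P0 (helper69), second half: parabolic elements of `SL(2, ℤ)`

Every `γ ∈ SL(2, ℤ)` with `(tr γ)² = 4` is `± δ Tⁿ δ⁻¹` for some `δ ∈ SL(2, ℤ)`, `n ∈ ℤ`.
-/

set_option autoImplicit false

open Matrix ModularGroup MatrixGroups

namespace Fermat.Agent.S41.H69

/-- an upper triangular element of `SL(2, ℤ)` is `± Tⁿ`. -/
theorem eq_T_zpow_or_neg_of_lower_left_eq_zero (β : SL(2, ℤ)) (h : β 1 0 = 0) :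
    ∃ n : ℤ, β = T ^ n ∨ β = -T ^ n := by
  have hdet : β 0 0 * β 1 1 - β 0 1 * β 1 0 = 1 := by
    have := β.det_coe
    rwa [Matrix.det_fin_two] at this
  rw [h, mul_zero, sub_zero] at hdet
  rcases Int.mul_eq_one_iff_eq_one_or_neg_one.mp hdet with ⟨h0, h1⟩ | ⟨h0, h1⟩
  · refine ⟨β 0 1, Or.inl ?_⟩
    ext i j
    rw [coe_T_zpow]
    fin_cases i <;> fin_cases j <;> simp [h0, h1, h]
  · refine ⟨-β 0 1, Or.inr ?_⟩
    ext i j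
    rw [Matrix.SpecialLinearGroup.coe_neg, coe_T_zpow]
    fin_cases i <;> fin_cases j <;> simp [h0, h1, h]

/-- **Parabolic elements**: `(tr γ)² = 4` implies `γ = ± δ Tⁿ δ⁻¹`. -/
theorem exists_conj_T_zpow (γ : SL(2, ℤ))
    (h : (γ : Matrix (Fin 2) (Fin 2) ℤ).trace ^ 2 = 4) :
    ∃ (δ : SL(2, ℤ)) (n : ℤ), γ = δ * T ^ n * δ⁻¹ ∨ γ = -(δ * T ^ n * δ⁻¹) := by
  obtain ⟨δ, hδ⟩ := Fermat.Agent.S21.exists_conj_lower_left_eq_zero γ h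
  obtain ⟨n, hn | hn⟩ := eq_T_zpow_or_neg_of_lower_left_eq_zero _ hδ
  · refine ⟨δ, n, Or.inl ?_⟩
    rw [← hn]; group
  · refine ⟨δ, n, Or.inr ?_⟩
    have : δ * T ^ n * δ⁻¹ = -(δ * (δ⁻¹ * γ * δ) * δ⁻¹) := by
      rw [hn]; simp
    rw [this, neg_neg]; group

/-- the same with `-1 = S ^ 2`. -/
theorem exists_conj_T_zpow' (γ : SL(2, ℤ))
    (h : (γ : Matrix (Fin 2) (Fin 2) ℤ).trace ^ 2 = 4) :
    ∃ (δ : SL(2, ℤ)) (n : ℤ), γ = δ * T ^ n * δ⁻¹ ∨ γ = S ^ 2 * (δ * T ^ n * δ⁻¹) := by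
  obtain ⟨δ, n, h1 | h1⟩ := exists_conj_T_zpow γ h
  · exact ⟨δ, n, Or.inl h1⟩
  · refine ⟨δ, n, Or.inr ?_⟩
    have hS : (S ^ 2 : SL(2, ℤ)) = -1 := by decide
    rw [h1, hS]; simp

end Fermat.Agent.S41.H69
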