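import Mathlib

/-!
# Ping-pong for amalgamated products of two subgroups (helper58)

Let `S false`, `S true` be two subgroups of a group `𝔾` acting on `Ω`, with disjoint nonempty
sets `Y false`, `Y true ⊆ Ω` such that `S s ∖ S (!s)` maps `Y (!s)` into `Y s` (strictly), and
the intersection `S false ⊓ S true` preserves both sets.  Then the canonical map from the
amalgamated product `S false *_{S false ⊓ S true} S true` (Mathlib's `Monoid.PushoutI`) to `𝔾`
is injective, with image `S false ⊔ S true`.  Consequently homomorphisms on `S false` and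
`S true` which agree on the intersection glue uniquely to `S false ⊔ S true`.
-/

set_option autoImplicit false

namespace Fermat.Agent.S41.H58

open Monoid

section PingPongList

variable {𝔾 : Type*} [Group 𝔾] {Ω : Type*} [MulAction 𝔾 Ω]

/-- Ping-pong data for the two subgroups `S false`, `S true`. -/
structure PingPong (S : Bool → Subgroup 𝔾) (Y : Bool → Set Ω) : Prop where
  pp : ∀ s, ∀ g ∈ S s, g ∉ S (!s) → ∀ ω ∈ Y (!s), g • ω ∈ Y s
  core : ∀ c, (∀ s, c ∈ S s) → ∀ s, ∀ ω ∈ Y s, c • ω ∈ Y s
  disj : ∀ ω, ω ∈ Y false → ω ∉ Y true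
  ne : ∀ s, (Y s).Nonempty
  strict : ∀ s, ∀ g ∈ S s, g ∉ S (!s) → ∃ ω₀ ∈ Y s, ∀ ω ∈ Y (!s), g • ω ≠ ω₀

/-- Alternating lists: the letters lie alternately in `S s ∖ S (!s)`, `S (!s) ∖ S s`, ... -/
def IsAlt (S : Bool → Subgroup 𝔾) : Bool → List 𝔾 → Prop
  | _, [] => True
  | s, g :: l => g ∈ S s ∧ g ∉ S (!s) ∧ IsAlt S (!s) l

/-- The type of the last letter of an alternating list starting with type `s`
(`!s` for the empty list). -/
def endType : Bool → List 𝔾 → Bool
  | s, [] => !s
  | s, _ :: l => endType (!s) l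

variable {S : Bool → Subgroup 𝔾} {Y : Bool → Set Ω}

lemma PingPong.prod_smul_mem (h : PingPong S Y) :
    ∀ (l : List 𝔾) (s : Bool), IsAlt S s l → l ≠ [] →
      ∀ ω ∈ Y (!(endType s l)), l.prod • ω ∈ Y s := by
  intro l
  induction l with
  | nil => intro s _ hne; exact absurd rfl hne
  | cons g l ih =>
    intro s hl _ ω hω
    obtain ⟨hg, hg', hl'⟩ := hl
    rcases l with _ | ⟨g', l''⟩
    · simp only [endType, Bool.not_not] at hω
      simpa using h.pp s g hg hg' ω hω
    · have := ih (!s) hl' (by simp) ω hω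
      rw [List.prod_cons, mul_smul]
      have h2 := h.pp s g hg hg' _ this
      exact h2

lemma PingPong.prod_smul_eq_head_smul (h : PingPong S Y) (g : 𝔾) (l : List 𝔾) (s : Bool)
    (hl : IsAlt S s (g :: l)) (ω : Ω) (hω : ω ∈ Y (!(endType s (g :: l)))) :
    ∃ ω' ∈ Y (!s), (g :: l).prod • ω = g • ω' := by
  obtain ⟨_, _, hl'⟩ := hl
  rcases l with _ | ⟨g', l''⟩
  · simp only [endType, Bool.not_not] at hω
    exact ⟨ω, hω, by simp⟩
  · refine ⟨(g' :: l'').prod • ω, h.prod_smul_mem _ (!s) hl' (by simp) ω hω, ?_⟩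
    rw [List.prod_cons, mul_smul]

/-- **Ping-pong**: a nonempty alternating product is not in the intersection. -/
theorem PingPong.prod_not_mem_core (h : PingPong S Y) {s : Bool} {l : List 𝔾}
    (hl : IsAlt S s l) (hne : l ≠ []) : ¬ ∀ t, l.prod ∈ S t := by
  intro hc
  rcases l with _ | ⟨g, l'⟩
  · exact hne rfl
  have hcinv : ∀ t, (g :: l').prod⁻¹ ∈ S t := fun t => (S t).inv_mem (hc t)
  by_cases he : endType s (g :: l') = s
  · obtain ⟨ω, hω⟩ := h.ne (!s)
    have h1 := h.prod_smul_mem _ s hl (by simp) ω (by rw [he]; exact hω)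
    have h2 := h.core _ hc (!s) ω hω
    cases s
    · exact h.disj _ h1 h2
    · exact h.disj _ h2 h1
  · have he' : (!(endType s (g :: l'))) = s := by
      cases hs : endType s (g :: l') <;> cases s <;> simp_all
    obtain ⟨ω₀, hω₀, hne₀⟩ := h.strict s g hl.1 hl.2.1
    have h1 : (g :: l').prod⁻¹ • ω₀ ∈ Y s := h.core _ hcinv s ω₀ hω₀
    obtain ⟨ω', hω', heq⟩ := h.prod_smul_eq_head_smul g l' s hl _ (by rw [he']; exact h1)
    rw [smul_inv_smul] at heq
    exact hne₀ ω' hω' heq.symm

end PingPongList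

section Amalgam

variable {𝔾 : Type*} [Group 𝔾] (S : Bool → Subgroup 𝔾)

/-- The intersection of the two subgroups. -/
def core : Subgroup 𝔾 := S false ⊓ S true

lemma mem_core_iff {c : 𝔾} : c ∈ core S ↔ ∀ s, c ∈ S s := by
  simp [core, Subgroup.mem_inf]

lemma core_le (i : Bool) : core S ≤ S i := by
  cases i
  · exact inf_le_left
  · exact inf_le_right

/-- The inclusion of the intersection in each factor. -/
def incl (i : Bool) : ↥(core S) →* ↥(S i) := Subgroup.inclusion (core_le S i)

lemma incl_injective (i : Bool) : Function.Injective (incl S i) :=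
  Subgroup.inclusion_injective _

lemma mem_range_incl_iff {i : Bool} (g : ↥(S i)) :
    g ∈ (incl S i).range ↔ (g : 𝔾) ∈ S (!i) := by
  constructor
  · rintro ⟨c, rfl⟩
    exact core_le S (!i) c.2
  · intro hg
    refine ⟨⟨g, (mem_core_iff S).mpr fun s => ?_⟩, rfl⟩
    cases i <;> cases s <;> first | exact g.2 | exact hg

/-- The amalgamated product of `S false` and `S true` over their intersection. -/
abbrev Amalgam : Type _ := PushoutI (incl S)

/-- The canonical map from the amalgam to the ambient group. -/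
def toAmbient : Amalgam S →* 𝔾 :=
  PushoutI.lift (fun i => (S i).subtype) (core S).subtype (fun i => by ext x; rfl)

@[simp] lemma toAmbient_of (i : Bool) (g : ↥(S i)) :
    toAmbient S (PushoutI.of i g) = (g : 𝔾) := by
  simp [toAmbient]

@[simp] lemma toAmbient_base (c : ↥(core S)) :
    toAmbient S (PushoutI.base (incl S) c) = (c : 𝔾) := by
  simp [toAmbient]

lemma toAmbient_ofCoprodI_prod (w : CoprodI.Word fun i => ↥(S i)) :
    toAmbient S (PushoutI.ofCoprodI w.prod) =
      (w.toList.map fun l => ((l.2 : ↥(S l.1)) : 𝔾)).prod := by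
  rw [CoprodI.Word.prod, map_list_prod, map_list_prod, List.map_map, List.map_map]
  congr 1

lemma isAlt_of_chain : ∀ (T : List (Σ i, ↥(S i))),
    T.IsChain (fun l l' => l.1 ≠ l'.1) → (∀ l ∈ T, ((l.2 : ↥(S l.1)) : 𝔾) ∉ S (!l.1)) →
    ∀ s, (∀ l ∈ T.head?, l.1 = s) → IsAlt S s (T.map fun l => ((l.2 : ↥(S l.1)) : 𝔾)) := by
  intro T
  induction T with
  | nil => intro _ _ s _; exact trivial
  | cons l T ih =>
    intro hch hn s hs
    have hl : l.1 = s := hs l (by simp)
    subst hl
    rw [List.isChain_cons] at hch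
    refine ⟨l.2.2, hn l (by simp), ?_⟩
    refine ih hch.2 (fun l' hl' => hn l' (List.mem_cons_of_mem _ hl')) _ ?_
    intro l' hl'
    have := hch.1 l' hl'
    cases h1 : l.1 <;> cases h2 : l'.1 <;> simp_all

variable {S}

/-- **Injectivity of the amalgam** under ping-pong hypotheses. -/
theorem toAmbient_injective {Ω : Type*} [MulAction 𝔾 Ω] {Y : Bool → Set Ω}
    (h : PingPong S Y) : Function.Injective (toAmbient S) := by
  classical
  rw [injective_iff_map_eq_one]
  intro x hx
  obtain ⟨d⟩ := PushoutI.NormalWord.transversal_nonempty (incl S) (incl_injective S)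
  obtain ⟨w, rfl⟩ : ∃ w : PushoutI.NormalWord d, w.prod = x :=
    ⟨PushoutI.NormalWord.equiv x, PushoutI.NormalWord.equiv.symm_apply_apply x⟩
  rw [PushoutI.NormalWord.prod, map_mul, toAmbient_base, toAmbient_ofCoprodI_prod] at hx
  -- the letters are not in the intersection
  have hn : ∀ l ∈ w.toList, ((l.2 : ↥(S l.1)) : 𝔾) ∉ S (!l.1) := by
    intro l hl hmem
    have hr : l.2 ∈ (incl S l.1).range := (mem_range_incl_iff S l.2).mpr hmem
    have hset : l.2 ∈ d.set l.1 := w.normalized l.1 l.2 (by simpa using hl)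
    have hcompl := d.compl l.1
    have h1 : (⟨⟨l.2, hr⟩, ⟨1, d.one_mem l.1⟩⟩ :
        (incl S l.1).range × d.set l.1) = ⟨⟨1, one_mem _⟩, ⟨l.2, hset⟩⟩ := by
      apply hcompl.1
      simp
    have h2 : l.2 = 1 := by
      have := congrArg (fun z => (z.1 : ↥(S l.1))) h1
      simpa using this
    exact w.ne_one l hl h2
  by_cases hempty : w.toList = []
  · -- the word is empty, so `x` is in the base
    have hhead : ((w.head : ↥(core S)) : 𝔾) = 1 := by simpa [hempty] using hx
    have hhead' : w.head = 1 := Subtype.ext hhead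
    simp [PushoutI.NormalWord.prod, CoprodI.Word.prod, hempty, hhead']
  · exfalso
    obtain ⟨l₀, T, hT⟩ := List.exists_cons_of_ne_nil hempty
    have halt := isAlt_of_chain S w.toList w.chain_ne hn l₀.1 (by simp [hT])
    refine h.prod_not_mem_core halt (by simpa using hempty) ?_
    have hprod : (w.toList.map fun l => ((l.2 : ↥(S l.1)) : 𝔾)).prod
        = ((w.head : ↥(core S)) : 𝔾)⁻¹ := eq_inv_of_mul_eq_one_right hx
    rw [hprod]
    exact (mem_core_iff S).mp ((core S).inv_mem w.head.2)

/-- The image of the amalgam is the join of the two subgroups. -/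
theorem range_toAmbient : (toAmbient S).range = S false ⊔ S true := by
  apply le_antisymm
  · rintro _ ⟨x, rfl⟩
    induction x using PushoutI.induction_on with
    | of i g =>
      rw [toAmbient_of]
      cases i
      · exact Subgroup.mem_sup_left g.2
      · exact Subgroup.mem_sup_right g.2
    | base c =>
      rw [toAmbient_base]
      exact Subgroup.mem_sup_left (core_le S false c.2)
    | mul x y hx hy =>
      rw [map_mul]
      exact mul_mem hx hy
  · rw [sup_le_iff]
    constructor
    · intro g hg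
      exact ⟨PushoutI.of false ⟨g, hg⟩, by simp⟩
    · intro g hg
      exact ⟨PushoutI.of true ⟨g, hg⟩, by simp⟩

/-- Under ping-pong hypotheses the amalgam is isomorphic to the join of the two subgroups. -/
noncomputable def amalgamEquiv {Ω : Type*} [MulAction 𝔾 Ω] {Y : Bool → Set Ω}
    (h : PingPong S Y) : Amalgam S ≃* ↥(S false ⊔ S true) :=
  (MonoidHom.ofInjective (toAmbient_injective h)).trans (MulEquiv.subgroupCongr range_toAmbient)

lemma coe_amalgamEquiv {Ω : Type*} [MulAction 𝔾 Ω] {Y : Bool → Set Ω}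
    (h : PingPong S Y) (x : Amalgam S) : ((amalgamEquiv h x : ↥(S false ⊔ S true)) : 𝔾)
      = toAmbient S x := rfl

lemma amalgamEquiv_of {Ω : Type*} [MulAction 𝔾 Ω] {Y : Bool → Set Ω}
    (h : PingPong S Y) (i : Bool) (g : ↥(S i)) (hg : (g : 𝔾) ∈ S false ⊔ S true) :
    amalgamEquiv h (PushoutI.of i g) = ⟨g, hg⟩ :=
  Subtype.ext (by rw [coe_amalgamEquiv, toAmbient_of])

/-- **Gluing**: homomorphisms on the two subgroups which agree on the intersection extend
uniquely to the subgroup generated by them. -/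
theorem glue {Ω : Type*} [MulAction 𝔾 Ω] {Y : Bool → Set Ω} (h : PingPong S Y)
    {G : Type*} [Group G] (φ : ↥(S false) →* G) (ψ : ↥(S true) →* G)
    (hc : ∀ (c : 𝔾) (h0 : c ∈ S false) (h1 : c ∈ S true), φ ⟨c, h0⟩ = ψ ⟨c, h1⟩) :
    ∃! Φ : ↥(S false ⊔ S true) →* G,
      (∀ a : ↥(S false), Φ ⟨a, Subgroup.mem_sup_left a.2⟩ = φ a) ∧
      (∀ b : ↥(S true), Φ ⟨b, Subgroup.mem_sup_right b.2⟩ = ψ b) := by
  let f : ∀ i : Bool, ↥(S i) →* G := fun i => match i with
    | false => φ
    | true => ψ
  have hf : ∀ i, (f i).comp (incl S i) = φ.comp (incl S false) := by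
    intro i
    cases i
    · rfl
    · ext c
      exact (hc c (core_le S false c.2) (core_le S true c.2)).symm
  let L : Amalgam S →* G := PushoutI.lift f (φ.comp (incl S false)) hf
  have hL0 : ∀ a : ↥(S false), L (PushoutI.of false a) = φ a :=
    fun a => PushoutI.lift_of f _ hf a
  have hL1 : ∀ b : ↥(S true), L (PushoutI.of true b) = ψ b :=
    fun b => PushoutI.lift_of f _ hf b
  refine ⟨L.comp (amalgamEquiv h).symm.toMonoidHom, ⟨fun a => ?_, fun b => ?_⟩, ?_⟩
  · have : (amalgamEquiv h).symm ⟨a, Subgroup.mem_sup_left a.2⟩ = PushoutI.of false a := by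
      rw [MulEquiv.symm_apply_eq, amalgamEquiv_of]
    simp only [MonoidHom.coe_comp, MulEquiv.coe_toMonoidHom, Function.comp_apply, this]
    exact hL0 a
  · have : (amalgamEquiv h).symm ⟨b, Subgroup.mem_sup_right b.2⟩ = PushoutI.of true b := by
      rw [MulEquiv.symm_apply_eq, amalgamEquiv_of]
    simp only [MonoidHom.coe_comp, MulEquiv.coe_toMonoidHom, Function.comp_apply, this]
    exact hL1 b
  · rintro Φ ⟨hΦa, hΦb⟩
    have key : Φ.comp (amalgamEquiv h).toMonoidHom = L := by
      apply PushoutI.hom_ext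
      · intro i
        ext g
        simp only [MonoidHom.coe_comp, MulEquiv.coe_toMonoidHom, Function.comp_apply]
        cases i
        · rw [amalgamEquiv_of h false g (Subgroup.mem_sup_left g.2), hΦa]
          exact (hL0 g).symm
        · rw [amalgamEquiv_of h true g (Subgroup.mem_sup_right g.2), hΦb]
          exact (hL1 g).symm
      · ext c
        simp only [MonoidHom.coe_comp, MulEquiv.coe_toMonoidHom, Function.comp_apply]
        rw [← PushoutI.of_apply_eq_base (incl S) false c,
          amalgamEquiv_of h false _ (Subgroup.mem_sup_left (incl S false c).2), hΦa]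
        exact (hL0 _).symm
    ext x
    rw [← key]
    simp

end Amalgam

end Fermat.Agent.S41.H58
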