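import Mathlib
import Fermat.Agent.S41.H58_PingPong

/-!
# S41 / P0 (helper69): the presentation `SL(2, ℤ) = ⟨S⟩ *_{±1} ⟨S T⟩`

`S` has order `4`, `V = S * T` has order `6`, `V ^ 3 = S ^ 2 = -1`, and `SL(2, ℤ)` is the
amalgamated product of `⟨S⟩` and `⟨V⟩` over `{±1}` (ping-pong on `ℤ²`, helper58's `PingPong`).

Main result: the universal property

`existsUnique_hom (s u : E) (hs : s ^ 4 = 1) (hu : u ^ 3 = s ^ 2) :`
`  ∃! F : SL(2, ℤ) →* E, F S = s ∧ F (S * T) = u`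

and the variants `existsUnique_hom'` (`T * S ↦ u`) and `existsUnique_hom_negU`
(`S ^ 2 * (T * S⁻¹) ↦ u`, the form `-U ↦ u` with `U = T S⁻¹`, `U ^ 3 = 1`).
-/

set_option autoImplicit false

open Matrix ModularGroup MatrixGroups Subgroup

namespace Fermat.Agent.S41.H69

/-- `V = S * T = [[0, -1], [1, 1]]`, an element of order `6`. -/
def V : SL(2, ℤ) := S * T

theorem S_pow_four : S ^ 4 = 1 := by decide

theorem V_pow_six : V ^ 6 = 1 := by decide

theorem V_pow_three : V ^ 3 = S ^ 2 := by decide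

theorem orderOf_S : orderOf S = 4 := by
  rw [orderOf_eq_iff (by norm_num)]
  exact ⟨S_pow_four, by decide⟩

theorem orderOf_V : orderOf V = 6 := by
  rw [orderOf_eq_iff (by norm_num)]
  exact ⟨V_pow_six, by decide⟩

/-- elements of a cyclic subgroup generated by an element with `g ^ n = 1`. -/
theorem exists_lt_of_mem_zpowers {G : Type*} [Group G] {g x : G} {n : ℕ} (hn : 0 < n)
    (hg : g ^ n = 1) (hx : x ∈ zpowers g) : ∃ r : ℕ, r < n ∧ x = g ^ r := by
  obtain ⟨k, rfl⟩ := mem_zpowers_iff.mp hx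
  have hg' : g ^ (n : ℤ) = 1 := by rw [zpow_natCast, hg]
  rw [zpow_eq_zpow_emod k hg']
  have h0 : 0 ≤ k % (n : ℤ) := Int.emod_nonneg k (by exact_mod_cast hn.ne')
  have h1 : k % (n : ℤ) < n := Int.emod_lt_of_pos k (by exact_mod_cast hn)
  obtain ⟨r, hr⟩ := Int.eq_ofNat_of_zero_le h0
  refine ⟨r, ?_, ?_⟩
  · rw [hr] at h1
    exact_mod_cast h1
  · rw [hr, zpow_natCast]

theorem mem_zpowers_S {g : SL(2, ℤ)} (hg : g ∈ zpowers S) :
    g = 1 ∨ g = S ∨ g = S ^ 2 ∨ g = S ^ 3 := by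
  obtain ⟨r, hr, rfl⟩ := exists_lt_of_mem_zpowers (by norm_num) S_pow_four hg
  interval_cases r <;> simp

theorem mem_zpowers_V {g : SL(2, ℤ)} (hg : g ∈ zpowers V) :
    g = 1 ∨ g = V ∨ g = V ^ 2 ∨ g = V ^ 3 ∨ g = V ^ 4 ∨ g = V ^ 5 := by
  obtain ⟨r, hr, rfl⟩ := exists_lt_of_mem_zpowers (by norm_num) V_pow_six hg
  interval_cases r <;> simp

theorem S_sq_mem_zpowers_V : S ^ 2 ∈ zpowers V := by
  rw [← V_pow_three]
  exact pow_mem (mem_zpowers V) 3

/-- elements of `⟨S⟩` outside `⟨V⟩`. -/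
theorem eq_of_mem_S_not_mem_V {g : SL(2, ℤ)} (hg : g ∈ zpowers S) (hg' : g ∉ zpowers V) :
    g = S ∨ g = S ^ 3 := by
  rcases mem_zpowers_S hg with rfl | rfl | rfl | rfl
  · exact absurd (one_mem _) hg'
  · exact Or.inl rfl
  · exact absurd S_sq_mem_zpowers_V hg'
  · exact Or.inr rfl

/-- elements of `⟨V⟩` outside `⟨S⟩`. -/
theorem eq_of_mem_V_not_mem_S {g : SL(2, ℤ)} (hg : g ∈ zpowers V) (hg' : g ∉ zpowers S) :
    g = V ∨ g = V ^ 2 ∨ g = V ^ 4 ∨ g = V ^ 5 := by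
  rcases mem_zpowers_V hg with rfl | rfl | rfl | rfl | rfl | rfl
  · exact absurd (one_mem _) hg'
  · exact Or.inl rfl
  · exact Or.inr (Or.inl rfl)
  · rw [V_pow_three] at hg'
    exact absurd (pow_mem (mem_zpowers S) 2) hg'
  · exact Or.inr (Or.inr (Or.inl rfl))
  · exact Or.inr (Or.inr (Or.inr rfl))

/-- the intersection `⟨S⟩ ∩ ⟨V⟩` is `{1, S ^ 2}`. -/
theorem eq_of_mem_both {g : SL(2, ℤ)} (hg : g ∈ zpowers S) (hg' : g ∈ zpowers V) :
    g = 1 ∨ g = S ^ 2 := by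
  rcases mem_zpowers_S hg with rfl | rfl | rfl | rfl
  · exact Or.inl rfl
  · exfalso
    rcases mem_zpowers_V hg' with h | h | h | h | h | h <;> revert h <;> decide
  · exact Or.inr rfl
  · exfalso
    rcases mem_zpowers_V hg' with h | h | h | h | h | h <;> revert h <;> decide

/-! ### The action on `ℤ²` -/

theorem smul_zero' (g : SL(2, ℤ)) (v : Fin 2 → ℤ) :
    (g • v) 0 = g 0 0 * v 0 + g 0 1 * v 1 := by
  simp [Matrix.SpecialLinearGroup.smul_def, Matrix.smul_eq_mulVec, Matrix.mulVec, dotProduct,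
    Fin.sum_univ_two]

theorem smul_one' (g : SL(2, ℤ)) (v : Fin 2 → ℤ) :
    (g • v) 1 = g 1 0 * v 0 + g 1 1 * v 1 := by
  simp [Matrix.SpecialLinearGroup.smul_def, Matrix.smul_eq_mulVec, Matrix.mulVec, dotProduct,
    Fin.sum_univ_two]

/-- the entries of `g • v` from the four entries of `g`. -/
theorem smul_entries {g : SL(2, ℤ)} {a b c d : ℤ} (ha : g 0 0 = a) (hb : g 0 1 = b)
    (hc : g 1 0 = c) (hd : g 1 1 = d) (v : Fin 2 → ℤ) :
    (g • v) 0 = a * v 0 + b * v 1 ∧ (g • v) 1 = c * v 0 + d * v 1 := by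
  rw [smul_zero', smul_one', ha, hb, hc, hd]
  exact ⟨rfl, rfl⟩

theorem S_smul (v : Fin 2 → ℤ) : (S • v) 0 = -v 1 ∧ (S • v) 1 = v 0 := by
  have h := smul_entries (g := S) (a := 0) (b := -1) (c := 1) (d := 0)
    (by decide) (by decide) (by decide) (by decide) v
  constructor
  · rw [h.1]; ring
  · rw [h.2]; ring

theorem S3_smul (v : Fin 2 → ℤ) : ((S ^ 3) • v) 0 = v 1 ∧ ((S ^ 3) • v) 1 = -v 0 := by
  have h := smul_entries (g := S ^ 3) (a := 0) (b := 1) (c := -1) (d := 0)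
    (by decide) (by decide) (by decide) (by decide) v
  constructor
  · rw [h.1]; ring
  · rw [h.2]; ring

theorem S2_smul (v : Fin 2 → ℤ) : ((S ^ 2) • v) 0 = -v 0 ∧ ((S ^ 2) • v) 1 = -v 1 := by
  have h := smul_entries (g := S ^ 2) (a := -1) (b := 0) (c := 0) (d := -1)
    (by decide) (by decide) (by decide) (by decide) v
  constructor
  · rw [h.1]; ring
  · rw [h.2]; ring

theorem V_smul (v : Fin 2 → ℤ) : (V • v) 0 = -v 1 ∧ (V • v) 1 = v 0 + v 1 := by
  have h := smul_entries (g := V) (a := 0) (b := -1) (c := 1) (d := 1)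
    (by decide) (by decide) (by decide) (by decide) v
  constructor
  · rw [h.1]; ring
  · rw [h.2]; ring

theorem V2_smul (v : Fin 2 → ℤ) : ((V ^ 2) • v) 0 = -v 0 - v 1 ∧ ((V ^ 2) • v) 1 = v 0 := by
  have h := smul_entries (g := V ^ 2) (a := -1) (b := -1) (c := 1) (d := 0)
    (by decide) (by decide) (by decide) (by decide) v
  constructor
  · rw [h.1]; ring
  · rw [h.2]; ring

theorem V4_smul (v : Fin 2 → ℤ) : ((V ^ 4) • v) 0 = v 1 ∧ ((V ^ 4) • v) 1 = -v 0 - v 1 := by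
  have h := smul_entries (g := V ^ 4) (a := 0) (b := 1) (c := -1) (d := -1)
    (by decide) (by decide) (by decide) (by decide) v
  constructor
  · rw [h.1]; ring
  · rw [h.2]; ring

theorem V5_smul (v : Fin 2 → ℤ) : ((V ^ 5) • v) 0 = v 0 + v 1 ∧ ((V ^ 5) • v) 1 = -v 0 := by
  have h := smul_entries (g := V ^ 5) (a := 1) (b := 1) (c := -1) (d := 0)
    (by decide) (by decide) (by decide) (by decide) v
  constructor
  · rw [h.1]; ring
  · rw [h.2]; ring

/-- the two subgroups `⟨S⟩` and `⟨V⟩`. -/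
def pair : Bool → Subgroup SL(2, ℤ)
  | false => zpowers S
  | true => zpowers V

/-- the ping-pong sets: the open first and third quadrants, and the open second and fourth
quadrants minus the antidiagonal. -/
def setY : Bool → Set (Fin 2 → ℤ)
  | false => {v | 0 < v 0 * v 1}
  | true => {v | v 0 * v 1 < 0 ∧ |v 0| ≠ |v 1|}

theorem abs_add_of_mul_pos {x y : ℤ} (h : 0 < x * y) : |x + y| = |x| + |y| := by
  rcases mul_pos_iff.mp h with ⟨hx, hy⟩ | ⟨hx, hy⟩
  · rw [abs_of_pos hx, abs_of_pos hy, abs_of_pos (by linarith)]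
  · rw [abs_of_neg hx, abs_of_neg hy, abs_of_neg (by linarith)]
    ring

theorem abs_pos_of_mul_pos {x y : ℤ} (h : 0 < x * y) : 0 < |x| ∧ 0 < |y| := by
  constructor
  · exact abs_pos.mpr (left_ne_zero_of_mul h.ne')
  · exact abs_pos.mpr (right_ne_zero_of_mul h.ne')

/-- images of the quadrant `xy > 0` under `V ^ k`, `k = 1, 2, 4, 5`. -/
theorem mem_setY_true_of {v w : Fin 2 → ℤ} (hv : 0 < v 0 * v 1)
    (h : (w 0 = -v 1 ∧ w 1 = v 0 + v 1) ∨ (w 0 = -v 0 - v 1 ∧ w 1 = v 0) ∨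
      (w 0 = v 1 ∧ w 1 = -v 0 - v 1) ∨ (w 0 = v 0 + v 1 ∧ w 1 = -v 0)) :
    w ∈ setY true := by
  have habs := abs_add_of_mul_pos hv
  obtain ⟨h0, h1⟩ := abs_pos_of_mul_pos hv
  have hneg : -v 0 - v 1 = -(v 0 + v 1) := by ring
  rcases h with ⟨e0, e1⟩ | ⟨e0, e1⟩ | ⟨e0, e1⟩ | ⟨e0, e1⟩
  · refine ⟨?_, ?_⟩
    · rw [e0, e1]; nlinarith [sq_nonneg (v 1), sq_abs (v 1)]
    · rw [e0, e1, abs_neg, habs]; omega
  · refine ⟨?_, ?_⟩
    · rw [e0, e1]; nlinarith [sq_nonneg (v 0), sq_abs (v 0)]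
    · rw [e0, e1, hneg, abs_neg, habs]; omega
  · refine ⟨?_, ?_⟩
    · rw [e0, e1]; nlinarith [sq_nonneg (v 1), sq_abs (v 1)]
    · rw [e0, e1, hneg, abs_neg, habs]; omega
  · refine ⟨?_, ?_⟩
    · rw [e0, e1]; nlinarith [sq_nonneg (v 0), sq_abs (v 0)]
    · rw [e0, e1, abs_neg, habs]; omega

/-- a vector of `ℤ²` from its two coordinates. -/
def vec (x y : ℤ) : Fin 2 → ℤ := ![x, y]

@[simp] theorem vec_zero (x y : ℤ) : vec x y 0 = x := rfl
@[simp] theorem vec_one (x y : ℤ) : vec x y 1 = y := rfl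

theorem pingPong_SV : H58.PingPong pair setY where
  pp := by
    intro s g hg hg' ω hω
    cases s
    · -- `g = S` or `S ^ 3`, `ω` in the second/fourth quadrants
      obtain ⟨hω1, -⟩ := hω
      rcases eq_of_mem_S_not_mem_V hg hg' with rfl | rfl
      · obtain ⟨e0, e1⟩ := S_smul ω
        show 0 < (S • ω) 0 * (S • ω) 1
        rw [e0, e1]; nlinarith
      · obtain ⟨e0, e1⟩ := S3_smul ω
        show 0 < ((S ^ 3) • ω) 0 * ((S ^ 3) • ω) 1
        rw [e0, e1]; nlinarith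
    · have hω1 : 0 < ω 0 * ω 1 := hω
      rcases eq_of_mem_V_not_mem_S hg hg' with rfl | rfl | rfl | rfl
      · exact mem_setY_true_of hω1 (Or.inl (V_smul ω))
      · exact mem_setY_true_of hω1 (Or.inr (Or.inl (V2_smul ω)))
      · exact mem_setY_true_of hω1 (Or.inr (Or.inr (Or.inl (V4_smul ω))))
      · exact mem_setY_true_of hω1 (Or.inr (Or.inr (Or.inr (V5_smul ω))))
  core := by
    intro c hc s ω hω
    rcases eq_of_mem_both (hc false) (hc true) with rfl | rfl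
    · rwa [one_smul]
    · obtain ⟨e0, e1⟩ := S2_smul ω
      cases s
      · show 0 < ((S ^ 2) • ω) 0 * ((S ^ 2) • ω) 1
        have hω1 : 0 < ω 0 * ω 1 := hω
        rw [e0, e1]; nlinarith
      · obtain ⟨hω1, hω2⟩ := hω
        refine ⟨?_, ?_⟩
        · rw [e0, e1]; nlinarith
        · rw [e0, e1, abs_neg, abs_neg]; exact hω2
  disj := by
    intro ω h0 h1
    have h0' : 0 < ω 0 * ω 1 := h0
    exact absurd h1.1 (not_lt.mpr h0'.le)
  ne := by
    intro s
    cases s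
    · exact ⟨vec 1 1, by simp [setY]⟩
    · exact ⟨vec 2 (-1), by simp [setY]⟩
  strict := by
    intro s g hg hg'
    cases s
    · refine ⟨vec 1 1, by simp [setY], ?_⟩
      rintro ω ⟨-, hω2⟩ heq
      have h0 := congrFun heq 0
      have h1 := congrFun heq 1
      rcases eq_of_mem_S_not_mem_V hg hg' with rfl | rfl
      · obtain ⟨e0, e1⟩ := S_smul ω
        rw [e0] at h0; rw [e1] at h1
        simp only [vec_zero, vec_one] at h0 h1
        apply hω2
        rw [h1, show ω 1 = -1 by linarith]; simp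
      · obtain ⟨e0, e1⟩ := S3_smul ω
        rw [e0] at h0; rw [e1] at h1
        simp only [vec_zero, vec_one] at h0 h1
        apply hω2
        rw [h0, show ω 0 = -1 by linarith]; simp
    · rcases eq_of_mem_V_not_mem_S hg hg' with rfl | rfl | rfl | rfl
      · refine ⟨vec 2 (-1), by simp [setY], ?_⟩
        intro ω hω heq
        have hω1 : 0 < ω 0 * ω 1 := hω
        have h0 := congrFun heq 0
        have h1 := congrFun heq 1
        obtain ⟨e0, e1⟩ := V_smul ω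
        rw [e0] at h0; rw [e1] at h1
        simp only [vec_zero, vec_one] at h0 h1
        have : ω 1 = -2 := by linarith
        have : ω 0 = 1 := by linarith
        nlinarith
      · refine ⟨vec 1 (-2), by simp [setY], ?_⟩
        intro ω hω heq
        have hω1 : 0 < ω 0 * ω 1 := hω
        have h0 := congrFun heq 0
        have h1 := congrFun heq 1
        obtain ⟨e0, e1⟩ := V2_smul ω
        rw [e0] at h0; rw [e1] at h1
        simp only [vec_zero, vec_one] at h0 h1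
        have : ω 0 = -2 := by linarith
        have : ω 1 = 1 := by linarith
        nlinarith
      · refine ⟨vec (-2) 1, by simp [setY], ?_⟩
        intro ω hω heq
        have hω1 : 0 < ω 0 * ω 1 := hω
        have h0 := congrFun heq 0
        have h1 := congrFun heq 1
        obtain ⟨e0, e1⟩ := V4_smul ω
        rw [e0] at h0; rw [e1] at h1
        simp only [vec_zero, vec_one] at h0 h1
        have : ω 1 = -2 := by linarith
        have : ω 0 = 1 := by linarith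
        nlinarith
      · refine ⟨vec (-1) 2, by simp [setY], ?_⟩
        intro ω hω heq
        have hω1 : 0 < ω 0 * ω 1 := hω
        have h0 := congrFun heq 0
        have h1 := congrFun heq 1
        obtain ⟨e0, e1⟩ := V5_smul ω
        rw [e0] at h0; rw [e1] at h1
        simp only [vec_zero, vec_one] at h0 h1
        have : ω 0 = -2 := by linarith
        have : ω 1 = 1 := by linarith
        nlinarith

/-- `⟨S⟩ ⊔ ⟨V⟩ = SL(2, ℤ)`. -/
theorem pair_sup_eq_top : pair false ⊔ pair true = ⊤ := by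
  rw [eq_top_iff, ← SpecialLinearGroup.SL2Z_generators, closure_le]
  rintro g (rfl | rfl)
  · exact mem_sup_left (mem_zpowers S)
  · have hT : T = S⁻¹ * V := by rw [V]; group
    rw [hT]
    exact mul_mem (mem_sup_left (inv_mem (mem_zpowers S))) (mem_sup_right (mem_zpowers V))

/-! ### Homomorphisms out of the two cyclic groups -/

section Cyclic

variable {G E : Type*} [Group G] [Group E]

/-- a homomorphism from the cyclic subgroup `⟨g⟩` sending `g` to `e`, when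
`orderOf e ∣ orderOf g`. -/
noncomputable def zpowersLift (g : G) (e : E) (h : orderOf e ∣ orderOf g) : zpowers g →* E :=
  monoidHomOfForallMemZpowers (g := (⟨g, mem_zpowers g⟩ : zpowers g))
    (fun x => by
      obtain ⟨k, hk⟩ := mem_zpowers_iff.mp x.2
      exact mem_zpowers_iff.mpr ⟨k, Subtype.ext (by rw [coe_zpow]; exact hk)⟩)
    (g' := e) (by rwa [orderOf_mk])

theorem zpowersLift_gen (g : G) (e : E) (h : orderOf e ∣ orderOf g) :
    zpowersLift g e h ⟨g, mem_zpowers g⟩ = e :=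
  monoidHomOfForallMemZpowers_apply_gen _ _

theorem zpowersLift_pow (g : G) (e : E) (h : orderOf e ∣ orderOf g) (n : ℕ)
    (hn : g ^ n ∈ zpowers g) : zpowersLift g e h ⟨g ^ n, hn⟩ = e ^ n := by
  have : (⟨g ^ n, hn⟩ : zpowers g) = ⟨g, mem_zpowers g⟩ ^ n := Subtype.ext (by simp)
  rw [this, map_pow, zpowersLift_gen]

end Cyclic

/-- **The presentation of `SL(2, ℤ)`** as `ℤ/4 *_{ℤ/2} ℤ/6`, universal property form. -/
theorem existsUnique_hom {E : Type*} [Group E] (s u : E) (hs : s ^ 4 = 1)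
    (hu : u ^ 3 = s ^ 2) : ∃! F : SL(2, ℤ) →* E, F S = s ∧ F (S * T) = u := by
  have hu6 : u ^ 6 = 1 := by
    rw [show 6 = 3 * 2 by norm_num, pow_mul, hu, ← pow_mul]
    exact hs
  have hos : orderOf s ∣ orderOf S := by
    rw [orderOf_S]; exact orderOf_dvd_of_pow_eq_one hs
  have hou : orderOf u ∣ orderOf V := by
    rw [orderOf_V]; exact orderOf_dvd_of_pow_eq_one hu6
  let φ : ↥(zpowers S) →* E := zpowersLift S s hos
  let ψ : ↥(zpowers V) →* E := zpowersLift V u hou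
  have hφS : φ ⟨S, mem_zpowers S⟩ = s := zpowersLift_gen S s hos
  have hψV : ψ ⟨V, mem_zpowers V⟩ = u := zpowersLift_gen V u hou
  have hφ2 : ∀ h : S ^ 2 ∈ zpowers S, φ ⟨S ^ 2, h⟩ = s ^ 2 :=
    fun h => zpowersLift_pow S s hos 2 h
  have hψ3 : ∀ h : S ^ 2 ∈ zpowers V, ψ ⟨S ^ 2, h⟩ = u ^ 3 := by
    intro h
    have e : (⟨S ^ 2, h⟩ : ↥(zpowers V)) = ⟨V ^ 3, pow_mem (mem_zpowers V) 3⟩ :=
      Subtype.ext V_pow_three.symm
    rw [e]
    exact zpowersLift_pow V u hou 3 _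
  have hc : ∀ (c : SL(2, ℤ)) (h0 : c ∈ pair false) (h1 : c ∈ pair true),
      (φ : ↥(pair false) →* E) ⟨c, h0⟩ = (ψ : ↥(pair true) →* E) ⟨c, h1⟩ := by
    intro c h0 h1
    rcases eq_of_mem_both h0 h1 with rfl | rfl
    · exact (map_one φ).trans (map_one ψ).symm
    · exact ((hφ2 h0).trans hu.symm).trans (hψ3 h1).symm
  obtain ⟨Φ, ⟨hΦ0, hΦ1⟩, -⟩ := H58.glue pingPong_SV (φ : ↥(pair false) →* E) ψ hc
  -- transport along `⟨S⟩ ⊔ ⟨V⟩ = ⊤`
  have hmem : ∀ g : SL(2, ℤ), g ∈ pair false ⊔ pair true := fun g => by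
    rw [pair_sup_eq_top]; exact mem_top g
  let ι : SL(2, ℤ) →* ↥(pair false ⊔ pair true) :=
    { toFun := fun g => ⟨g, hmem g⟩
      map_one' := rfl
      map_mul' := fun _ _ => rfl }
  have h1 : (Φ.comp ι) S = s := (hΦ0 ⟨S, mem_zpowers S⟩).trans hφS
  have h2 : (Φ.comp ι) (S * T) = u := (hΦ1 ⟨V, mem_zpowers V⟩).trans hψV
  refine ⟨Φ.comp ι, ⟨h1, h2⟩, ?_⟩
  rintro F ⟨hF0, hF1⟩
  -- two homomorphisms agreeing on the generators `S`, `T`
  have hT : T = S⁻¹ * (S * T) := by group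
  have hFT : F T = (Φ.comp ι) T := by
    have e1 : F T = s⁻¹ * u := by
      calc F T = F (S⁻¹ * (S * T)) := congrArg F hT
        _ = s⁻¹ * u := by rw [map_mul, map_inv, hF0, hF1]
    have e2 : (Φ.comp ι) T = s⁻¹ * u := by
      calc (Φ.comp ι) T = (Φ.comp ι) (S⁻¹ * (S * T)) := congrArg (Φ.comp ι) hT
        _ = s⁻¹ * u := by rw [map_mul, map_inv, h1, h2]
    rw [e1, e2]
  have hcl : Subgroup.closure ({S, T} : Set SL(2, ℤ)) = ⊤ :=
    SpecialLinearGroup.SL2Z_generators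
  refine MonoidHom.eq_of_eqOn_dense hcl ?_
  rintro g (rfl | rfl)
  · rw [hF0, h1]
  · exact hFT

/-- the same with `T * S` in place of `S * T`. -/
theorem existsUnique_hom' {E : Type*} [Group E] (s u : E) (hs : s ^ 4 = 1)
    (hu : u ^ 3 = s ^ 2) : ∃! F : SL(2, ℤ) →* E, F S = s ∧ F (T * S) = u := by
  -- `T * S = S⁻¹ * (S * T) * S`
  have hTS : T * S = S⁻¹ * (S * T) * S := by group
  have hu' : (s * u * s⁻¹) ^ 3 = s ^ 2 := by
    rw [conj_pow, hu]; group
  obtain ⟨F, ⟨hF0, hF1⟩, hF⟩ := existsUnique_hom s (s * u * s⁻¹) hs hu'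
  refine ⟨F, ⟨hF0, ?_⟩, ?_⟩
  · rw [hTS, map_mul, map_mul, map_inv, hF0, hF1]; group
  · rintro F' ⟨hF0', hF1'⟩
    apply hF
    refine ⟨hF0', ?_⟩
    have hST : S * T = S * (T * S) * S⁻¹ := by group
    rw [hST, map_mul, map_mul, map_inv, hF0', hF1']

/-- `U = T S⁻¹` (of order `3`) and `-U = S² U = T S`: the form consumed by the cusp-sum
argument: `S ↦ s`, `S ^ 2 * (T * S⁻¹) ↦ u`. -/
theorem existsUnique_hom_negU {E : Type*} [Group E] (s u : E) (hs : s ^ 4 = 1)
    (hu : u ^ 3 = s ^ 2) : ∃! F : SL(2, ℤ) →* E, F S = s ∧ F (S ^ 2 * (T * S⁻¹)) = u := by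
  have h : S ^ 2 * (T * S⁻¹) = T * S := by decide
  rw [h]
  exact existsUnique_hom' s u hs hu

theorem U_pow_three : (T * S⁻¹) ^ 3 = 1 := by decide

theorem S_sq_mul_U : S ^ 2 * (T * S⁻¹) = T * S := by decide

theorem S_sq_central (g : SL(2, ℤ)) : S ^ 2 * g = g * S ^ 2 := by
  have h : (S ^ 2 : SL(2, ℤ)) = -1 := by decide
  rw [h]
  simp

end Fermat.Agent.S41.H69
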