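import Mathlib
import Fermat.Agent.S41.H98_PDModel

/-!
# S41 / P-int / P2b : the dictionary `parabolicHoms ℤ Γ ℤ ↔ Par / Triv`, second half

* `Rep` calculus (`rep_add`, `rep_zsmul`, …);
* (D2) `exists_eq_smul_of_rep` : a class represented by `p v₁ + t` (`t` trivial) is divisible by `p`;
* (D3) `exists_hom_of_isWit` : every parabolic vector represents a parabolic homomorphism
  (uses the presentation of `SL(2,ℤ)` as a hypothesis `HasPresentation`);
* `pd` : the Poincaré duality pairing on `parabolicHoms ℤ Γ ℤ` and `pd_nondeg`.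
-/

set_option autoImplicit false
set_option linter.unusedSectionVars false

namespace Fermat.Agent.S41.H98

open scoped MatrixGroups
open ModularCurve.Period

variable (Γ : Subgroup SL(2, ℤ))

/-! ### cocycle calculus -/

section Cocycle

variable {A : Type*} [AddCommGroup A]

theorem IsCocycle.map_one {f : SL(2, ℤ) → Cos Γ → A} (hf : IsCocycle Γ f) : f 1 = 0 := by
  have h := hf 1 1
  rw [mul_one, gact_one] at h
  exact left_eq_add.mp h

theorem IsCocycle.map_inv {f : SL(2, ℤ) → Cos Γ → A} (hf : IsCocycle Γ f) (g : SL(2, ℤ)) :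
    f g⁻¹ = - gact Γ g⁻¹ (f g) := by
  have h := hf g⁻¹ g
  rw [inv_mul_cancel, hf.map_one] at h
  exact eq_neg_of_add_eq_zero_left h.symm

theorem IsCocycle.add {f f' : SL(2, ℤ) → Cos Γ → A} (hf : IsCocycle Γ f) (hf' : IsCocycle Γ f') :
    IsCocycle Γ (f + f') := by
  intro g h
  simp only [Pi.add_apply]
  rw [hf g h, hf' g h, gact_add]
  abel

theorem IsCocycle.neg {f : SL(2, ℤ) → Cos Γ → A} (hf : IsCocycle Γ f) : IsCocycle Γ (-f) := by
  intro g h
  simp only [Pi.neg_apply]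
  rw [hf g h, gact_neg]
  abel

theorem IsCocycle.sub {f f' : SL(2, ℤ) → Cos Γ → A} (hf : IsCocycle Γ f) (hf' : IsCocycle Γ f') :
    IsCocycle Γ (f - f') := by
  rw [sub_eq_add_neg]
  exact hf.add Γ (hf'.neg Γ)

/-- the coboundary of `b`: `g ↦ g • b - b`. -/
def cob (b : Cos Γ → A) : SL(2, ℤ) → Cos Γ → A := fun g => gact Γ g b - b

theorem isCocycle_cob (b : Cos Γ → A) : IsCocycle Γ (cob Γ b) := by
  intro g h
  unfold cob
  rw [gact_mul, gact_sub]
  abel

/-- if `f g = g • y - y` then `f (g ^ n) = g ^ n • y - y` for all integers `n`. -/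
theorem IsCocycle.map_zpow {f : SL(2, ℤ) → Cos Γ → A} (hf : IsCocycle Γ f) {g : SL(2, ℤ)}
    {y : Cos Γ → A} (hg : f g = gact Γ g y - y) (n : ℤ) : f (g ^ n) = gact Γ (g ^ n) y - y := by
  have key : ∀ k : ℕ, f (g ^ k) = gact Γ (g ^ k) y - y := by
    intro k
    induction k with
    | zero => rw [pow_zero, hf.map_one, gact_one, sub_self]
    | succ k ih =>
      rw [pow_succ, hf (g ^ k) g, ih, hg, gact_sub, ← gact_mul]
      abel
  cases n with
  | ofNat k => simpa using key k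
  | negSucc k =>
    rw [zpow_negSucc, hf.map_inv, key (k + 1), gact_sub, ← gact_mul, inv_mul_cancel, gact_one]
    abel

end Cocycle

/-! ### `Rep` calculus -/

section RepCalc

variable {A : Type*} [AddCommGroup A]

theorem rep_add {φ φ' : Additive Γ →+ A} {v v' : Cos Γ → A} (h : Rep Γ φ v) (h' : Rep Γ φ' v') :
    Rep Γ (φ + φ') (v + v') := by
  obtain ⟨f, hf, hU, hS, hφ⟩ := h
  obtain ⟨f', hf', hU', hS', hφ'⟩ := h'
  refine ⟨f + f', hf.add Γ hf', ?_, ?_, ?_⟩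
  · rw [Pi.add_apply, hU, hU', add_zero]
  · rw [Pi.add_apply, hS, hS', gact_add]
    abel
  · intro γ
    rw [AddMonoidHom.add_apply, hφ, hφ']
    rfl

theorem rep_neg {φ : Additive Γ →+ A} {v : Cos Γ → A} (h : Rep Γ φ v) : Rep Γ (-φ) (-v) := by
  obtain ⟨f, hf, hU, hS, hφ⟩ := h
  refine ⟨-f, hf.neg Γ, ?_, ?_, ?_⟩
  · rw [Pi.neg_apply, hU, neg_zero]
  · rw [Pi.neg_apply, hS, gact_neg]
    abel
  · intro γ
    rw [AddMonoidHom.neg_apply, hφ]
    rfl

theorem rep_zero : Rep Γ (0 : Additive Γ →+ A) (0 : Cos Γ → A) :=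
  ⟨0, fun g h => by simp [gact_zero], rfl, by simp [gact_zero], fun γ => rfl⟩

theorem rep_sub {φ φ' : Additive Γ →+ A} {v v' : Cos Γ → A} (h : Rep Γ φ v) (h' : Rep Γ φ' v') :
    Rep Γ (φ - φ') (v - v') := by
  rw [sub_eq_add_neg, sub_eq_add_neg]
  exact rep_add Γ h (rep_neg Γ h')

theorem rep_nsmul {φ : Additive Γ →+ A} {v : Cos Γ → A} (h : Rep Γ φ v) (n : ℕ) :
    Rep Γ (n • φ) (n • v) := by
  induction n with
  | zero => simpa using rep_zero Γ
  | succ n ih =>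
    rw [succ_nsmul, succ_nsmul]
    exact rep_add Γ ih h

theorem rep_zsmul {φ : Additive Γ →+ A} {v : Cos Γ → A} (h : Rep Γ φ v) (n : ℤ) :
    Rep Γ (n • φ) (n • v) := by
  cases n with
  | ofNat k => simpa using rep_nsmul Γ h k
  | negSucc k =>
    rw [negSucc_zsmul, negSucc_zsmul]
    exact rep_neg Γ (rep_nsmul Γ h (k + 1))

end RepCalc

/-! ### (D2) divisibility -/

section D2

theorem closure_mS_mT : Subgroup.closure ({mS, mT} : Set SL(2, ℤ)) = ⊤ :=
  SpecialLinearGroup.SL2Z_generators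

/-- a cocycle whose values at `S` and `U` are divisible by `p` has all values divisible by `p`. -/
theorem IsCocycle.forall_dvd {f : SL(2, ℤ) → Cos Γ → ℤ} (hf : IsCocycle Γ f) (p : ℤ)
    (hS : ∃ c, f mS = p • c) (hU : ∃ c, f mU = p • c) (g : SL(2, ℤ)) : ∃ c, f g = p • c := by
  have hT : ∃ c, f mT = p • c := by
    obtain ⟨c, hc⟩ := hS
    obtain ⟨c', hc'⟩ := hU
    refine ⟨c' + gact Γ mU c, ?_⟩
    rw [mT_eq, hf, hc, hc', smul_add]
    rfl
  have hg : g ∈ Subgroup.closure ({mS, mT} : Set SL(2, ℤ)) := by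
    rw [closure_mS_mT]
    trivial
  induction hg using Subgroup.closure_induction with
  | mem g hg =>
    rcases hg with rfl | hg
    · exact hS
    · rw [Set.mem_singleton_iff] at hg
      subst hg
      exact hT
  | one => exact ⟨0, by rw [hf.map_one, smul_zero]⟩
  | mul g h _ _ ihg ihh =>
    obtain ⟨c, hc⟩ := ihg
    obtain ⟨c', hc'⟩ := ihh
    refine ⟨c + gact Γ g c', ?_⟩
    rw [hf, hc, hc', smul_add]
    rfl
  | inv g _ ih =>
    obtain ⟨c, hc⟩ := ih
    refine ⟨- gact Γ g⁻¹ c, ?_⟩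
    rw [hf.map_inv, hc, smul_neg]
    rfl

variable [Γ.FiniteIndex] (hneg : (-1 : SL(2, ℤ)) ∈ Γ)

/-- **(D2)** if `φ` is represented by `p v₁ + t` with `t` trivial, then `φ` is divisible by `p`. -/
theorem exists_eq_smul_of_rep {p : ℤ} (hp : p ≠ 0) {φ : Additive Γ →+ ℤ}
    (hφ : IsParabolicHom Γ φ) {v v₁ t : Cos Γ → ℤ} (h : Rep Γ φ v) (hv : v = p • v₁ + t)
    (ht : t ∈ (modelData Γ hneg ℤ).Triv) :
    ∃ φ₁ : Additive Γ →+ ℤ, IsParabolicHom Γ φ₁ ∧ φ = p • φ₁ := by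
  obtain ⟨f, hf, hU, hS, hφf⟩ := h
  obtain ⟨a, ha, b, hb, rfl⟩ := Submodule.mem_sup.mp ht
  have haσ : gact Γ mS a = a := by
    have := (modelData Γ hneg ℤ).mem_fixσ.mp ha
    rwa [modelData_σ] at this
  have hbμ : gact Γ mU b = b := by
    have := (modelData Γ hneg ℤ).mem_fixμ.mp hb
    rwa [modelData_μ] at this
  -- the modified cocycle
  have hf₁ : IsCocycle Γ (f - cob Γ b) := hf.sub Γ (isCocycle_cob Γ b)
  have h₁U : ∃ c, (f - cob Γ b) mU = p • c := by
    refine ⟨0, ?_⟩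
    rw [Pi.sub_apply, hU, cob, hbμ, sub_self, sub_zero, smul_zero]
  have h₁S : ∃ c, (f - cob Γ b) mS = p • c := by
    refine ⟨gact Γ mS v₁ - v₁, ?_⟩
    rw [Pi.sub_apply, hS, hv, cob]
    simp only [gact_add, haσ, smul_sub]
    have : gact Γ mS (p • v₁) = p • gact Γ mS v₁ := rfl
    rw [this]
    abel
  have hdiv : ∀ γ : Γ, p ∣ φ (Additive.ofMul γ) := by
    intro γ
    obtain ⟨c, hc⟩ := hf₁.forall_dvd Γ p h₁S h₁U (γ : SL(2, ℤ))
    have e : f γ (base Γ) = (f - cob Γ b) γ (base Γ) := by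
      rw [Pi.sub_apply, Pi.sub_apply, cob, Pi.sub_apply, gact_apply]
      have : ((γ : SL(2, ℤ))⁻¹) • base Γ = base Γ := smul_base Γ γ⁻¹
      rw [this]
      ring
    rw [hφf γ, e, hc]
    exact ⟨c (base Γ), by simp⟩
  -- divide
  let φ₁ : Additive Γ →+ ℤ :=
    { toFun := fun γ => φ γ / p
      map_zero' := by simp
      map_add' := fun γ δ => by
        rw [map_add]
        exact Int.add_ediv_of_dvd_left (hdiv (Additive.toMul γ)) }
  have hφ₁ : ∀ γ : Additive Γ, p * φ₁ γ = φ γ := fun γ =>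
    Int.mul_ediv_cancel' (hdiv (Additive.toMul γ))
  refine ⟨φ₁, ?_, ?_⟩
  · intro γ hγ
    have := hφ₁ (Additive.ofMul γ)
    rw [hφ γ hγ] at this
    exact (mul_eq_zero.mp this).resolve_left hp
  · apply AddMonoidHom.ext
    intro γ
    rw [AddMonoidHom.smul_apply, smul_eq_mul, hφ₁]

end D2

/-! ### (D3) every parabolic vector represents a parabolic homomorphism -/

/-- **P0 hypothesis** : the universal property of `SL(2,ℤ) = ⟨S⟩ *_{±1} ⟨-U⟩`. -/
def HasPresentation : Prop :=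
  ∀ (E : Type) [Group E] (s u : E), s ^ 4 = 1 → u ^ 3 = s ^ 2 →
    ∃ F : SL(2, ℤ) →* E, F mS = s ∧ F (-mU) = u

/-- **P0 hypothesis** : every element of trace `±2` is `± h Tⁿ h⁻¹`. -/
def HasParabolicForm : Prop :=
  ∀ g : SL(2, ℤ), (g : Matrix (Fin 2) (Fin 2) ℤ).trace ^ 2 = 4 →
    ∃ (h : SL(2, ℤ)) (n : ℤ), g = h * mT ^ n * h⁻¹ ∨ g = -(h * mT ^ n * h⁻¹)

section D3

/-- the action on `Multiplicative (Cos Γ → ℤ)` by automorphisms. -/
def gactAut (g : SL(2, ℤ)) : MulAut (Multiplicative (Cos Γ → ℤ)) where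
  toFun m := Multiplicative.ofAdd (gact Γ g m.toAdd)
  invFun m := Multiplicative.ofAdd (gact Γ g⁻¹ m.toAdd)
  left_inv m := by
    change Multiplicative.ofAdd (gact Γ g⁻¹ (gact Γ g m.toAdd)) = m
    rw [← gact_mul, inv_mul_cancel, gact_one]
    rfl
  right_inv m := by
    change Multiplicative.ofAdd (gact Γ g (gact Γ g⁻¹ m.toAdd)) = m
    rw [← gact_mul, mul_inv_cancel, gact_one]
    rfl
  map_mul' m m' := rfl

/-- the action as a homomorphism to `MulAut`. -/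
def gactHom : SL(2, ℤ) →* MulAut (Multiplicative (Cos Γ → ℤ)) where
  toFun := gactAut Γ
  map_one' := by
    apply MulEquiv.ext
    intro m
    change Multiplicative.ofAdd (gact Γ 1 m.toAdd) = m
    rw [gact_one]
    rfl
  map_mul' g h := by
    apply MulEquiv.ext
    intro m
    change Multiplicative.ofAdd (gact Γ (g * h) m.toAdd) = _
    rw [gact_mul]
    rfl

theorem gactHom_apply (g : SL(2, ℤ)) (m : Multiplicative (Cos Γ → ℤ)) :
    gactHom Γ g m = Multiplicative.ofAdd (gact Γ g m.toAdd) := rfl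

theorem closure_mS_neg_mU : Subgroup.closure ({mS, -mU} : Set SL(2, ℤ)) = ⊤ := by
  rw [eq_top_iff, ← closure_mS_mT, Subgroup.closure_le]
  rintro g (rfl | hg)
  · exact Subgroup.subset_closure (Set.mem_insert _ _)
  · rw [Set.mem_singleton_iff] at hg
    subst hg
    have h1 : mS ∈ Subgroup.closure ({mS, -mU} : Set SL(2, ℤ)) :=
      Subgroup.subset_closure (Set.mem_insert _ _)
    have h2 : -mU ∈ Subgroup.closure ({mS, -mU} : Set SL(2, ℤ)) :=
      Subgroup.subset_closure (Set.mem_insert_of_mem _ rfl)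
    have : mT = -mU * mS⁻¹ := by decide
    rw [this]
    exact Subgroup.mul_mem _ h2 (Subgroup.inv_mem _ h1)

theorem gact_neg_one (hneg : (-1 : SL(2, ℤ)) ∈ Γ) (v : Cos Γ → ℤ) : gact Γ (-1) v = v := by
  funext x
  rw [gact_apply]
  have : ((-1 : SL(2, ℤ)))⁻¹ = -1 := by decide
  rw [this, neg_one_smul Γ hneg]

/-- existence of the cocycle attached to a vector `v` (from the presentation). -/
theorem exists_cocycle (hneg : (-1 : SL(2, ℤ)) ∈ Γ) (hpres : HasPresentation) (v : Cos Γ → ℤ) :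
    ∃ f : SL(2, ℤ) → Cos Γ → ℤ, IsCocycle Γ f ∧ f mU = 0 ∧ f mS = gact Γ mS v - v := by
  set a : Cos Γ → ℤ := gact Γ mS v - v with ha
  have haa : a + gact Γ mS a = 0 := by
    rw [ha, gact_sub, ← gact_mul]
    have : mS * mS = -1 := by decide
    rw [this, gact_neg_one Γ hneg]
    abel
  let E := Multiplicative (Cos Γ → ℤ) ⋊[gactHom Γ] SL(2, ℤ)
  let s : E := ⟨Multiplicative.ofAdd a, mS⟩
  let u : E := SemidirectProduct.inr (-mU)
  have hs2 : s ^ 2 = SemidirectProduct.inr (mS ^ 2) := by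
    rw [sq, sq]
    apply SemidirectProduct.ext
    · rw [SemidirectProduct.mul_left, SemidirectProduct.left_inr]
      change Multiplicative.ofAdd a * Multiplicative.ofAdd (gact Γ mS a) = 1
      rw [← ofAdd_add, haa]
      rfl
    · rw [SemidirectProduct.mul_right, SemidirectProduct.right_inr]
  have hs4 : s ^ 4 = 1 := by
    have : s ^ 4 = (s ^ 2) ^ 2 := by rw [← pow_mul]
    rw [this, hs2, ← map_pow, ← pow_mul, mS_pow_four, map_one]
  have hu3 : u ^ 3 = s ^ 2 := by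
    rw [hs2, ← map_pow, neg_mU_pow_three]
  obtain ⟨F, hFS, hFU⟩ := hpres E s u hs4 hu3
  -- the right component of `F g` is `g`
  have hright : ∀ g, (F g).right = g := by
    have : (SemidirectProduct.rightHom.comp F : SL(2, ℤ) →* SL(2, ℤ)) = MonoidHom.id _ := by
      apply MonoidHom.eq_of_eqOn_dense (closure_mS_neg_mU)
      rintro g (rfl | hg)
      · change (F mS).right = mS
        rw [hFS]
      · rw [Set.mem_singleton_iff] at hg
        subst hg
        change (F (-mU)).right = -mU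
        rw [hFU]
        rfl
    intro g
    exact congrArg (fun φ : SL(2, ℤ) →* SL(2, ℤ) => φ g) this
  refine ⟨fun g => (F g).left.toAdd, ?_, ?_, ?_⟩
  · intro g h
    change (F (g * h)).left.toAdd = (F g).left.toAdd + gact Γ g (F h).left.toAdd
    rw [map_mul, SemidirectProduct.mul_left, hright]
    rfl
  · change (F mU).left.toAdd = 0
    have : mU = mS ^ 2 * -mU := by decide
    rw [this, map_mul, map_pow, hFS, hFU, hs2, ← map_mul, SemidirectProduct.left_inr]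
    rfl
  · change (F mS).left.toAdd = a
    rw [hFS]
    rfl

/-- **(D3)** every parabolic vector represents a parabolic homomorphism. -/
theorem exists_hom_of_isWit [Γ.FiniteIndex] (hneg : (-1 : SL(2, ℤ)) ∈ Γ) (hpres : HasPresentation)
    (hpar : HasParabolicForm) {v w : Cos Γ → ℤ} (hw : (modelData Γ hneg ℤ).IsWit v w) :
    ∃ φ : Additive Γ →+ ℤ, IsParabolicHom Γ φ ∧ Rep Γ φ v := by
  obtain ⟨f, hf, hU, hS⟩ := exists_cocycle Γ hneg hpres v
  rw [modelData_isWit_iff] at hw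
  -- `f T = T • y - y`, `y = v - w`
  have hT : f mT = gact Γ mT (v - w) - (v - w) := by
    rw [mT_eq, hf, hU, hS, zero_add, gact_sub, ← gact_mul, ← mT_eq, gact_sub]
    have : gact Γ mU v = gact Γ mT w - w + v := by rw [hw]; abel
    rw [this]
    abel
  -- the homomorphism
  let φ : Additive Γ →+ ℤ :=
    { toFun := fun γ => f ((Additive.toMul γ : Γ) : SL(2, ℤ)) (base Γ)
      map_zero' := by
        change f ((1 : Γ) : SL(2, ℤ)) (base Γ) = 0
        rw [Subgroup.coe_one, hf.map_one]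
        rfl
      map_add' := fun γ δ => by
        change f (((Additive.toMul γ * Additive.toMul δ : Γ)) : SL(2, ℤ)) (base Γ) = _
        rw [Subgroup.coe_mul, hf, Pi.add_apply, gact_apply]
        have : ((Additive.toMul γ : Γ) : SL(2, ℤ))⁻¹ • base Γ = base Γ :=
          smul_base Γ (Additive.toMul γ)⁻¹
        rw [this] }
  have hφ : ∀ γ : Γ, φ (Additive.ofMul γ) = f γ (base Γ) := fun γ => rfl
  refine ⟨φ, ?_, ⟨f, hf, hU, hS, hφ⟩⟩
  -- parabolicity
  have hfneg : ∀ g : SL(2, ℤ), f (-g) = f g := by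
    intro g
    have e : -g = mS ^ 2 * g := by rw [mS_sq, neg_mul, one_mul]
    have h2 : f (mS ^ 2) = 0 := by
      rw [sq, hf, hS, gact_sub, ← gact_mul]
      have : mS * mS = -1 := by decide
      rw [this, gact_neg_one Γ hneg]
      abel
    rw [e, hf, h2, zero_add, mS_sq, gact_neg_one Γ hneg]
  have hconj : ∀ (h : SL(2, ℤ)) (n : ℤ), h * mT ^ n * h⁻¹ ∈ Γ →
      f (h * mT ^ n * h⁻¹) (base Γ) = 0 := by
    intro h n hmem
    have hinv : (h * mT ^ n * h⁻¹)⁻¹ • base Γ = base Γ :=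
      (smul_base_eq_iff Γ _).mpr (Γ.inv_mem hmem)
    rw [hf, hf, hf.map_inv, hf.map_zpow Γ hT n]
    simp only [Pi.add_apply, Pi.sub_apply, Pi.neg_apply, gact_apply]
    have e1 : (mT ^ n)⁻¹ • h⁻¹ • base Γ = h⁻¹ • base Γ := by
      have : (mT ^ n)⁻¹ • h⁻¹ • base Γ = h⁻¹ • ((h * mT ^ n * h⁻¹)⁻¹ • base Γ) := by
        rw [← mul_smul, ← mul_smul]
        congr 1
        group
      rw [this, hinv]
    have e2 : (h⁻¹)⁻¹ • (h * mT ^ n)⁻¹ • base Γ = base Γ := by
      have : (h⁻¹)⁻¹ • (h * mT ^ n)⁻¹ • base Γ = (h * mT ^ n * h⁻¹)⁻¹ • base Γ := by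
        rw [← mul_smul]
        congr 1
        group
      rw [this, hinv]
    rw [e1, e2]
    ring
  intro γ hγ
  rw [hφ]
  obtain ⟨h, n, hg | hg⟩ := hpar (γ : SL(2, ℤ)) hγ
  · rw [hg]
    exact hconj h n (hg ▸ γ.2)
  · rw [hg, hfneg]
    apply hconj h n
    have : h * mT ^ n * h⁻¹ = -(γ : SL(2, ℤ)) := by rw [hg, neg_neg]
    rw [this]
    have : -(γ : SL(2, ℤ)) = -1 * γ := by rw [neg_mul, one_mul]
    rw [this]
    exact Γ.mul_mem hneg γ.2

end D3

/-! ### uniqueness of the representing vector modulo `Triv` -/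

section Unique

/-- a cocycle vanishing at the base point on `Γ` is a coboundary (Shapiro injectivity). -/
theorem IsCocycle.eq_cob_of_base_eq_zero {f : SL(2, ℤ) → Cos Γ → ℤ} (hf : IsCocycle Γ f)
    (h0 : ∀ γ : Γ, f γ (base Γ) = 0) : ∃ m : Cos Γ → ℤ, f = cob Γ m := by
  -- `m (g⁻¹ • base) = f g base`
  have hwd : ∀ g g' : SL(2, ℤ), g⁻¹ • base Γ = g'⁻¹ • base Γ → f g (base Γ) = f g' (base Γ) := by
    intro g g' hgg
    have hmem : g' * g⁻¹ ∈ Γ := by
      rw [← smul_base_eq_iff, mul_smul, hgg, ← mul_smul, mul_inv_cancel, one_smul]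
    have e : g' = (g' * g⁻¹) * g := by group
    rw [e, hf, Pi.add_apply, gact_apply]
    have h1 := h0 ⟨g' * g⁻¹, hmem⟩
    have h2 : (g' * g⁻¹)⁻¹ • base Γ = base Γ := (smul_base_eq_iff Γ _).mpr (Γ.inv_mem hmem)
    simp only at h1
    rw [h1, h2, zero_add]
  let m : Cos Γ → ℤ := fun x => f (Quotient.out x)⁻¹ (base Γ)
  have hm : ∀ g : SL(2, ℤ), m (g⁻¹ • base Γ) = f g (base Γ) := by
    intro g
    apply hwd
    rw [inv_inv]
    have : (Quotient.out (g⁻¹ • base Γ) : SL(2, ℤ)) • base Γ = g⁻¹ • base Γ := by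
      unfold base
      rw [MulAction.Quotient.smul_coe, smul_eq_mul, mul_one]
      exact QuotientGroup.out_eq' _
    exact this
  refine ⟨m, ?_⟩
  funext g x
  obtain ⟨h, rfl⟩ : ∃ h : SL(2, ℤ), x = h⁻¹ • base Γ := by
    refine ⟨(Quotient.out x)⁻¹, ?_⟩
    rw [inv_inv]
    unfold base
    rw [MulAction.Quotient.smul_coe, smul_eq_mul, mul_one]
    exact (QuotientGroup.out_eq' _).symm
  have h1 := congrFun (hf h g) (base Γ)
  rw [Pi.add_apply, gact_apply] at h1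
  unfold cob
  rw [Pi.sub_apply, gact_apply, ← mul_smul, ← mul_inv_rev, hm, hm, h1]
  ring

variable [Γ.FiniteIndex] (hneg : (-1 : SL(2, ℤ)) ∈ Γ)

/-- a vector representing the zero homomorphism is trivial. -/
theorem mem_Triv_of_rep_zero {u : Cos Γ → ℤ} (h : Rep Γ (0 : Additive Γ →+ ℤ) u) :
    u ∈ (modelData Γ hneg ℤ).Triv := by
  obtain ⟨f, hf, hU, hS, h0⟩ := h
  obtain ⟨m, rfl⟩ := hf.eq_cob_of_base_eq_zero Γ (fun γ => (h0 γ).symm)
  unfold cob at hU hS
  have hmμ : m ∈ (modelData Γ hneg ℤ).fixμ := by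
    rw [PDData.mem_fixμ, modelData_μ]
    exact sub_eq_zero.mp hU
  have humσ : u - m ∈ (modelData Γ hneg ℤ).fixσ := by
    rw [PDData.mem_fixσ, modelData_σ, gact_sub]
    have : gact Γ mS u - gact Γ mS m - (u - m) = 0 := by
      rw [show gact Γ mS u - gact Γ mS m - (u - m)
        = (gact Γ mS u - u) - (gact Γ mS m - m) by abel, hS, sub_self]
    exact sub_eq_zero.mp this
  have : u = (u - m) + m := by abel
  rw [this]
  exact Submodule.add_mem_sup humσ hmμ

/-- **uniqueness**: two vectors representing the same homomorphism differ by a trivial vector. -/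
theorem rep_unique {φ : Additive Γ →+ ℤ} {v v' : Cos Γ → ℤ} (h : Rep Γ φ v) (h' : Rep Γ φ v') :
    v - v' ∈ (modelData Γ hneg ℤ).Triv := by
  have := rep_sub Γ h h'
  rw [sub_self] at this
  exact mem_Triv_of_rep_zero Γ hneg this

end Unique

/-! ### The pairing on `parabolicHoms ℤ Γ ℤ` -/

/-- **(D1) as a hypothesis** : every parabolic homomorphism has a parabolic representing vector. -/
def HasReps [Γ.FiniteIndex] (hneg : (-1 : SL(2, ℤ)) ∈ Γ) : Prop :=
  ∀ φ : Additive Γ →+ ℤ, IsParabolicHom Γ φ →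
    ∃ v w : Cos Γ → ℤ, (modelData Γ hneg ℤ).IsWit v w ∧ Rep Γ φ v

section PD

variable [Γ.FiniteIndex] (hneg : (-1 : SL(2, ℤ)) ∈ Γ) (hD1 : HasReps Γ hneg)

/-- a chosen parabolic vector representing `φ`. -/
noncomputable def repVec (φ : parabolicHoms ℤ Γ ℤ) : (modelData Γ hneg ℤ).Par :=
  ⟨Classical.choose (hD1 φ.1 φ.2),
    ⟨Classical.choose (Classical.choose_spec (hD1 φ.1 φ.2)),
      (Classical.choose_spec (Classical.choose_spec (hD1 φ.1 φ.2))).1⟩⟩

theorem rep_repVec (φ : parabolicHoms ℤ Γ ℤ) :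
    Rep Γ φ.1 (repVec Γ hneg hD1 φ : Cos Γ → ℤ) :=
  (Classical.choose_spec (Classical.choose_spec (hD1 φ.1 φ.2))).2

include hD1 in
/-- a vector representing a parabolic homomorphism is parabolic. -/
theorem mem_Par_of_rep {φ : Additive Γ →+ ℤ} (hφ : IsParabolicHom Γ φ) {v : Cos Γ → ℤ}
    (h : Rep Γ φ v) : v ∈ (modelData Γ hneg ℤ).Par := by
  have h0 := rep_repVec Γ hneg hD1 ⟨φ, hφ⟩
  have ht := rep_unique Γ hneg h h0
  have : v = (v - (repVec Γ hneg hD1 ⟨φ, hφ⟩ : Cos Γ → ℤ)) + (repVec Γ hneg hD1 ⟨φ, hφ⟩ : Cos Γ → ℤ) := by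
    abel
  rw [this]
  exact Submodule.add_mem _ ((modelData Γ hneg ℤ).Triv_le_Par ht) (repVec Γ hneg hD1 ⟨φ, hφ⟩).2

theorem form_congr_left {P : PDData ℤ (Cos Γ → ℤ)} {a b : P.Par} (c : P.Par)
    (h : (a : Cos Γ → ℤ) - b ∈ P.Triv) : P.form a c = P.form b c := by
  have e : a = (a - b) + b := by abel
  rw [e, map_add, LinearMap.add_apply, P.form_triv_left (t := a - b) h, zero_add]

theorem form_congr_right {P : PDData ℤ (Cos Γ → ℤ)} {a b : P.Par} (c : P.Par)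
    (h : (a : Cos Γ → ℤ) - b ∈ P.Triv) : P.form c a = P.form c b := by
  rw [P.form_antisymm, form_congr_left Γ c h, ← P.form_antisymm]

/-- **The Poincaré duality pairing** on `parabolicHoms ℤ Γ ℤ`. -/
noncomputable def pd : parabolicHoms ℤ Γ ℤ →ₗ[ℤ] parabolicHoms ℤ Γ ℤ →ₗ[ℤ] ℤ :=
  LinearMap.mk₂ ℤ
    (fun φ ψ => (modelData Γ hneg ℤ).form (repVec Γ hneg hD1 φ) (repVec Γ hneg hD1 ψ))
    (fun φ₁ φ₂ ψ => by
      rw [← LinearMap.add_apply, ← map_add]
      apply form_congr_left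
      exact rep_unique Γ hneg (rep_repVec Γ hneg hD1 (φ₁ + φ₂))
        (rep_add Γ (rep_repVec Γ hneg hD1 φ₁) (rep_repVec Γ hneg hD1 φ₂)))
    (fun n φ ψ => by
      rw [← LinearMap.smul_apply, ← map_smul]
      apply form_congr_left
      exact rep_unique Γ hneg (rep_repVec Γ hneg hD1 (n • φ))
        (rep_zsmul Γ (rep_repVec Γ hneg hD1 φ) n))
    (fun φ ψ₁ ψ₂ => by
      rw [← map_add]
      apply form_congr_right
      exact rep_unique Γ hneg (rep_repVec Γ hneg hD1 (ψ₁ + ψ₂))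
        (rep_add Γ (rep_repVec Γ hneg hD1 ψ₁) (rep_repVec Γ hneg hD1 ψ₂)))
    (fun n φ ψ => by
      rw [← map_smul]
      apply form_congr_right
      exact rep_unique Γ hneg (rep_repVec Γ hneg hD1 (n • ψ))
        (rep_zsmul Γ (rep_repVec Γ hneg hD1 ψ) n))

theorem pd_apply (φ ψ : parabolicHoms ℤ Γ ℤ) :
    pd Γ hneg hD1 φ ψ
      = (modelData Γ hneg ℤ).form (repVec Γ hneg hD1 φ) (repVec Γ hneg hD1 ψ) := rfl

/-- `pd` computed with arbitrary representing vectors. -/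
theorem pd_eq (φ ψ : parabolicHoms ℤ Γ ℤ) {v w v' : Cos Γ → ℤ} (hv : Rep Γ φ.1 v)
    (hw : (modelData Γ hneg ℤ).IsWit v w) (hv' : Rep Γ ψ.1 v') :
    pd Γ hneg hD1 φ ψ = (modelData Γ hneg ℤ).Bw w v' := by
  have hvP : v ∈ (modelData Γ hneg ℤ).Par := ⟨w, hw⟩
  have hv'P : v' ∈ (modelData Γ hneg ℤ).Par := mem_Par_of_rep Γ hneg hD1 ψ.2 hv'
  rw [pd_apply,
    form_congr_left Γ (a := repVec Γ hneg hD1 φ) (b := ⟨v, hvP⟩) _
      (rep_unique Γ hneg (rep_repVec Γ hneg hD1 φ) hv),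
    form_congr_right Γ (a := repVec Γ hneg hD1 ψ) (b := ⟨v', hv'P⟩) _
      (rep_unique Γ hneg (rep_repVec Γ hneg hD1 ψ) hv'),
    (modelData Γ hneg ℤ).form_apply ⟨v, hvP⟩ ⟨v', hv'P⟩ hw]

theorem pd_antisymm (φ ψ : parabolicHoms ℤ Γ ℤ) :
    pd Γ hneg hD1 φ ψ = - pd Γ hneg hD1 ψ φ := by
  rw [pd_apply, pd_apply, (modelData Γ hneg ℤ).form_antisymm]

/-- **Poincaré duality mod `p`** : the pairing `pd` is non-degenerate modulo every prime. -/
theorem pd_nondeg (hpres : HasPresentation) (hpar : HasParabolicForm) (p : ℕ) [Fact p.Prime]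
    (φ : parabolicHoms ℤ Γ ℤ) (hdiv : ∀ ψ : parabolicHoms ℤ Γ ℤ, (p : ℤ) ∣ pd Γ hneg hD1 φ ψ) :
    ∃ φ₁ : parabolicHoms ℤ Γ ℤ, φ = (p : ℤ) • φ₁ := by
  have hp0 : (p : ℤ) ≠ 0 := Int.natCast_ne_zero.mpr (Fact.out : p.Prime).ne_zero
  have hv := rep_repVec Γ hneg hD1 φ
  obtain ⟨w, hw⟩ := (repVec Γ hneg hD1 φ).2
  have key := @exists_decomp_of_forall_dvd (Cos Γ) (cosFintype Γ) (Classical.decEq _)
    (MulAction.toPerm mS) (MulAction.toPerm mU) (fun x => mS_smul_mS_smul Γ hneg x) p _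
    (repVec Γ hneg hD1 φ : Cos Γ → ℤ) w hw
    (fun v' w' hw' => by
      obtain ⟨ψ, hψ, hrep⟩ := exists_hom_of_isWit Γ hneg hpres hpar hw'
      have := hdiv ⟨ψ, hψ⟩
      rwa [pd_eq Γ hneg hD1 φ ⟨ψ, hψ⟩ hv hw hrep] at this)
  obtain ⟨v₁, w₁, a, b, h₁, haσ, hbμ, hdec⟩ := key
  have ha : a ∈ (modelData Γ hneg ℤ).fixσ := (modelData Γ hneg ℤ).mem_fixσ.mpr haσ
  have hb : b ∈ (modelData Γ hneg ℤ).fixμ := (modelData Γ hneg ℤ).mem_fixμ.mpr hbμ
  have hab : a + b ∈ (modelData Γ hneg ℤ).Triv := Submodule.add_mem_sup ha hb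
  obtain ⟨φ₁, hφ₁, hφ⟩ := exists_eq_smul_of_rep Γ hneg hp0 φ.2 hv
    (by rw [hdec]; abel : (repVec Γ hneg hD1 φ : Cos Γ → ℤ) = (p : ℤ) • v₁ + (a + b)) hab
  exact ⟨⟨φ₁, hφ₁⟩, Subtype.ext hφ⟩

end PD

end Fermat.Agent.S41.H98
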