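import Mathlib
import Fermat.Agent.S41.H98_PDDict2
import Fermat.Agent.S41.H69_SL2ZPresentation
import Fermat.Agent.S41.H69_ParabolicConj

/-!
# S41 / P-int : discharge of the P0 hypotheses of `H98_PDDict2`

`HasPresentation` and `HasParabolicForm` from helper69's landed P0, and the resulting
hypothesis-light forms of (D3) and `pd_nondeg` (only (D1) = `HasReps` remains).
-/

set_option autoImplicit false
set_option linter.unusedSectionVars false

namespace Fermat.Agent.S41.H98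

open scoped MatrixGroups
open ModularCurve.Period

theorem hasPresentation : HasPresentation := by
  intro E _ s u hs hu
  obtain ⟨F, ⟨hFS, hFU⟩, -⟩ := Fermat.Agent.S41.H69.existsUnique_hom_negU s u hs hu
  refine ⟨F, hFS, ?_⟩
  rw [neg_mU_eq]
  exact hFU

theorem hasParabolicForm : HasParabolicForm := fun g hg =>
  Fermat.Agent.S41.H69.exists_conj_T_zpow g hg

variable (Γ : Subgroup SL(2, ℤ)) [Γ.FiniteIndex] (hneg : (-1 : SL(2, ℤ)) ∈ Γ)

/-- **(D3)**, unconditional. -/
theorem exists_hom_of_isWit' {v w : Cos Γ → ℤ} (hw : (modelData Γ hneg ℤ).IsWit v w) :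
    ∃ φ : Additive Γ →+ ℤ, IsParabolicHom Γ φ ∧ Rep Γ φ v :=
  exists_hom_of_isWit Γ hneg hasPresentation hasParabolicForm hw

/-- **Poincaré duality mod `p`**, conditional only on (D1) = `HasReps`. -/
theorem pd_nondeg' (hD1 : HasReps Γ hneg) (p : ℕ) [Fact p.Prime] (φ : parabolicHoms ℤ Γ ℤ)
    (hdiv : ∀ ψ : parabolicHoms ℤ Γ ℤ, (p : ℤ) ∣ pd Γ hneg hD1 φ ψ) :
    ∃ φ₁ : parabolicHoms ℤ Γ ℤ, φ = (p : ℤ) • φ₁ :=
  pd_nondeg Γ hneg hD1 hasPresentation hasParabolicForm p φ hdiv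

end Fermat.Agent.S41.H98
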