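import Mathlib
import Fermat.Agent.S41.H98_PDInst
import Fermat.Agent.S41.H58_PDDict

/-!
# S41 / P-int / P2 final : the Poincaré duality pairing on `parabolicHoms ℤ Γ ℤ`, hypothesis-free

For `Γ ≤ SL(2,ℤ)` of finite index with `-1 ∈ Γ`:

* `pdΓ Γ hneg : parabolicHoms ℤ Γ ℤ →ₗ[ℤ] parabolicHoms ℤ Γ ℤ →ₗ[ℤ] ℤ`;
* `pdΓ_eq` : computation with arbitrary representing vectors (`Rep`);
* `pdΓ_antisymm`;
* `pdΓ_nondeg` : non-degenerate modulo every prime `p`.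
-/

set_option autoImplicit false
set_option linter.unusedSectionVars false

namespace Fermat.Agent.S41.H98

open scoped MatrixGroups
open ModularCurve.Period

variable (Γ : Subgroup SL(2, ℤ)) [Γ.FiniteIndex] (hneg : (-1 : SL(2, ℤ)) ∈ Γ)

/-- (D1), from helper58's `H58_PDDict`. -/
theorem hasReps : HasReps Γ hneg := fun _ hφ =>
  Fermat.Agent.S41.H58.exists_rep Γ hneg hφ

/-- **The Poincaré duality pairing** on `parabolicHoms ℤ Γ ℤ`. -/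
noncomputable def pdΓ : parabolicHoms ℤ Γ ℤ →ₗ[ℤ] parabolicHoms ℤ Γ ℤ →ₗ[ℤ] ℤ :=
  pd Γ hneg (hasReps Γ hneg)

/-- every parabolic homomorphism has a parabolic representing vector. -/
theorem exists_rep (φ : parabolicHoms ℤ Γ ℤ) :
    ∃ v w : Cos Γ → ℤ, (modelData Γ hneg ℤ).IsWit v w ∧ Rep Γ φ.1 v :=
  hasReps Γ hneg φ.1 φ.2

/-- `pdΓ` computed with arbitrary representing vectors. -/
theorem pdΓ_eq (φ ψ : parabolicHoms ℤ Γ ℤ) {v w v' : Cos Γ → ℤ} (hv : Rep Γ φ.1 v)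
    (hw : (modelData Γ hneg ℤ).IsWit v w) (hv' : Rep Γ ψ.1 v') :
    pdΓ Γ hneg φ ψ = (modelData Γ hneg ℤ).Bw w v' :=
  pd_eq Γ hneg (hasReps Γ hneg) φ ψ hv hw hv'

theorem pdΓ_antisymm (φ ψ : parabolicHoms ℤ Γ ℤ) : pdΓ Γ hneg φ ψ = - pdΓ Γ hneg ψ φ :=
  pd_antisymm Γ hneg (hasReps Γ hneg) φ ψ

/-- **Poincaré duality mod `p`** for every prime `p` (`2` and `3` included). -/
theorem pdΓ_nondeg (p : ℕ) [Fact p.Prime] (φ : parabolicHoms ℤ Γ ℤ)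
    (hdiv : ∀ ψ : parabolicHoms ℤ Γ ℤ, (p : ℤ) ∣ pdΓ Γ hneg φ ψ) :
    ∃ φ₁ : parabolicHoms ℤ Γ ℤ, φ = (p : ℤ) • φ₁ :=
  pd_nondeg' Γ hneg (hasReps Γ hneg) p φ hdiv

/-- every parabolic vector represents a parabolic homomorphism (surjectivity of the dictionary). -/
theorem exists_parabolicHom_of_isWit {v w : Cos Γ → ℤ} (hw : (modelData Γ hneg ℤ).IsWit v w) :
    ∃ φ : parabolicHoms ℤ Γ ℤ, Rep Γ φ.1 v := by
  obtain ⟨φ, hφ, hrep⟩ := exists_hom_of_isWit' Γ hneg hw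
  exact ⟨⟨φ, hφ⟩, hrep⟩

end Fermat.Agent.S41.H98
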