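import Mathlib

/-!
# Package D (congruence subgroup property for `SL₂(ℤ[1/q])`): shared definitions (helper2)

Blueprint: board posts #1439 (Theorem I, centrality) and #1456 (Theorem T, invariant characters).

* `IsInvChar m p φ` : the homomorphism `φ : Γ(m) → 𝔽_p` is invariant under conjugation by
  `SL(2, ℤ)`.
* `TheoremT p` : the statement of Theorem T for the prime `p` (a `Prop`, proved elsewhere).
* `ExtensionStep p ℓ m₁` : the statement of the extension lemma from level `ℓ * m₁` to level `m₁`.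
-/

set_option autoImplicit false

open Matrix CongruenceSubgroup
open scoped MatrixGroups

namespace Fermat.Agent.S41.H2

/-- `φ : Γ(m) → 𝔽_p` is invariant under conjugation by `SL(2, ℤ)`. -/
def IsInvChar (m p : ℕ) (φ : ↥(Gamma m) →* Multiplicative (ZMod p)) : Prop :=
  ∀ (σ : SL(2, ℤ)) (g : ↥(Gamma m)),
    φ ⟨σ * g * σ⁻¹, (Gamma_normal m).conj_mem g g.2 σ⟩ = φ g

lemma Gamma_le_of_dvd {m₁ m : ℕ} (h : m₁ ∣ m) : Gamma m ≤ Gamma m₁ := by
  intro γ hγ
  rw [Gamma_mem] at hγ ⊢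
  obtain ⟨k, rfl⟩ := h
  have key : ∀ x : ℤ, ∀ c : ℤ, ((x : ZMod (m₁ * k)) = c) → ((x : ZMod m₁) = c) := by
    intro x c hx
    have h1 : ((x - c : ℤ) : ZMod (m₁ * k)) = 0 := by push_cast; rw [hx]; simp
    rw [ZMod.intCast_zmod_eq_zero_iff_dvd] at h1
    have h2 : ((x - c : ℤ) : ZMod m₁) = 0 := by
      rw [ZMod.intCast_zmod_eq_zero_iff_dvd]
      exact dvd_trans ⟨(k : ℤ), by push_cast; ring⟩ h1
    push_cast at h2
    exact sub_eq_zero.mp h2
  refine ⟨?_, ?_, ?_, ?_⟩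
  · simpa using key _ 1 (by simpa using hγ.1)
  · simpa using key _ 0 (by simpa using hγ.2.1)
  · simpa using key _ 0 (by simpa using hγ.2.2.1)
  · simpa using key _ 1 (by simpa using hγ.2.2.2)

/-- **Theorem T** (statement): for an odd prime `p`, every `SL(2, ℤ)`-invariant character
`Γ(m) → 𝔽_p` with `p ∣ m` is trivial. -/
def TheoremT (p : ℕ) : Prop :=
  ∀ (m : ℕ), p ∣ m → 0 < m → ∀ φ : ↥(Gamma m) →* Multiplicative (ZMod p), IsInvChar m p φ → φ = 1

/-- The extension step from level `ℓ * m₁` to level `m₁` (statement). -/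
def ExtensionStep (p ℓ m₁ : ℕ) : Prop :=
  ∀ φ : ↥(Gamma (ℓ * m₁)) →* Multiplicative (ZMod p), IsInvChar (ℓ * m₁) p φ →
    ∃ φ₁ : ↥(Gamma m₁) →* Multiplicative (ZMod p), IsInvChar m₁ p φ₁ ∧
      ∀ g : ↥(Gamma (ℓ * m₁)), φ₁ ⟨g, Gamma_le_of_dvd (Dvd.intro_left ℓ rfl) g.2⟩ = φ g

/-- The base case of Theorem T (statement): level `p`. -/
def BaseStep (p : ℕ) : Prop :=
  ∀ φ : ↥(Gamma p) →* Multiplicative (ZMod p), IsInvChar p p φ → φ = 1

/-- Theorem T follows from the base case and the extension steps by induction on `m`. -/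
theorem theoremT_of_steps {p : ℕ} (hp : p.Prime) (hbase : BaseStep p)
    (hstep : ∀ (ℓ m₁ : ℕ), ℓ.Prime → 0 < m₁ → p ∣ m₁ → ExtensionStep p ℓ m₁) : TheoremT p := by
  intro m
  induction m using Nat.strong_induction_on with
  | _ m ih =>
    intro hpm hm φ hφ
    obtain ⟨k, rfl⟩ := hpm
    by_cases hk : k = 1
    · subst hk
      have h1 : p * 1 = p := mul_one p
      revert φ
      rw [h1]
      intro φ hφ
      exact hbase φ hφ
    · have hk0 : k ≠ 0 := by rintro rfl; simp at hm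
      obtain ⟨ℓ, hℓ, hℓk⟩ := Nat.exists_prime_and_dvd hk
      obtain ⟨k', rfl⟩ := hℓk
      have hk'0 : 0 < k' := Nat.pos_of_ne_zero (by rintro rfl; simp at hk0)
      have hm₁ : 0 < p * k' := Nat.mul_pos hp.pos hk'0
      have e : p * (ℓ * k') = ℓ * (p * k') := by ring
      revert φ
      rw [e]
      intro φ hφ
      obtain ⟨φ₁, hφ₁, hext⟩ := hstep ℓ (p * k') hℓ hm₁ (Dvd.intro _ rfl) φ hφ
      have hlt : p * k' < ℓ * (p * k') := by
        have := hℓ.two_le
        nlinarith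
      have h1 : φ₁ = 1 := ih (p * k') (by rw [e]; exact hlt) (Dvd.intro _ rfl) hm₁ φ₁ hφ₁
      ext g
      rw [← hext g, h1]
      rfl

end Fermat.Agent.S41.H2
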