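import Mathlib
import Fermat.Agent.S41.H58_PingPong

/-!
# `Γ₀(N)[1/q]` is an amalgam (helper58)

Inside `SL(2, ℚ)` let `Γ` be the image of `Γ₀(N)` and `Γ' = δ⁻¹ Γ δ`, `δ = diag(q, 1)`, i.e. the
matrices `[[a, b/q], [q c, d]]` with `[[a, b], [c, d]] ∈ Γ₀(N)`.  For a prime `q` the subgroups
`Γ`, `Γ'` satisfy the ping-pong hypotheses of `H58_PingPong` for the action on `ℚ²`, with
`X = {(x, y) : |x|_q ≤ |y|_q, y ≠ 0}` and `X' = {(x, y) : |y|_q < |x|_q}`.  Hence `Γ ⊔ Γ'` is the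
amalgamated product of `Γ` and `Γ'` over `Γ ∩ Γ'` (the image of `Γ₀(N q)`), and homomorphisms
glue.
-/

set_option autoImplicit false

open Matrix CongruenceSubgroup
open scoped MatrixGroups

namespace Fermat.Agent.S41.H58

/-! ## The twist automorphism `[[a, b], [c, d]] ↦ [[a, b/t], [t c, d]]` of `SL(2, ℚ)` -/

/-- Conjugation by `diag(1, t)`. -/
def twistMat (t : ℚ) (ht : t ≠ 0) (g : SL(2, ℚ)) : SL(2, ℚ) :=
  ⟨!![g.1 0 0, g.1 0 1 / t; t * g.1 1 0, g.1 1 1], by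
    have h := g.det_coe
    rw [Matrix.det_fin_two] at h
    rw [Matrix.det_fin_two_of]
    field_simp
    linarith⟩

@[simp] lemma twistMat_00 (t : ℚ) (ht : t ≠ 0) (g : SL(2, ℚ)) :
    (twistMat t ht g).1 0 0 = g.1 0 0 := rfl
@[simp] lemma twistMat_01 (t : ℚ) (ht : t ≠ 0) (g : SL(2, ℚ)) :
    (twistMat t ht g).1 0 1 = g.1 0 1 / t := rfl
@[simp] lemma twistMat_10 (t : ℚ) (ht : t ≠ 0) (g : SL(2, ℚ)) :
    (twistMat t ht g).1 1 0 = t * g.1 1 0 := rfl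
@[simp] lemma twistMat_11 (t : ℚ) (ht : t ≠ 0) (g : SL(2, ℚ)) :
    (twistMat t ht g).1 1 1 = g.1 1 1 := rfl

lemma sl2_ext {g h : SL(2, ℚ)} (h00 : g.1 0 0 = h.1 0 0) (h01 : g.1 0 1 = h.1 0 1)
    (h10 : g.1 1 0 = h.1 1 0) (h11 : g.1 1 1 = h.1 1 1) : g = h := by
  apply Subtype.ext
  ext i j
  fin_cases i <;> fin_cases j <;> assumption

lemma sl2_mul_00 (g h : SL(2, ℚ)) : (g * h).1 0 0 = g.1 0 0 * h.1 0 0 + g.1 0 1 * h.1 1 0 := by
  simp [Matrix.mul_apply, Fin.sum_univ_two]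
lemma sl2_mul_01 (g h : SL(2, ℚ)) : (g * h).1 0 1 = g.1 0 0 * h.1 0 1 + g.1 0 1 * h.1 1 1 := by
  simp [Matrix.mul_apply, Fin.sum_univ_two]
lemma sl2_mul_10 (g h : SL(2, ℚ)) : (g * h).1 1 0 = g.1 1 0 * h.1 0 0 + g.1 1 1 * h.1 1 0 := by
  simp [Matrix.mul_apply, Fin.sum_univ_two]
lemma sl2_mul_11 (g h : SL(2, ℚ)) : (g * h).1 1 1 = g.1 1 0 * h.1 0 1 + g.1 1 1 * h.1 1 1 := by
  simp [Matrix.mul_apply, Fin.sum_univ_two]

/-- The twist as a group automorphism of `SL(2, ℚ)`. -/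
def twistEquiv (t : ℚ) (ht : t ≠ 0) : SL(2, ℚ) ≃* SL(2, ℚ) where
  toFun := twistMat t ht
  invFun := twistMat t⁻¹ (inv_ne_zero ht)
  left_inv g := by
    apply sl2_ext <;> simp <;> field_simp
  right_inv g := by
    apply sl2_ext <;> simp <;> field_simp
  map_mul' g h := by
    apply sl2_ext <;>
      simp only [sl2_mul_00, sl2_mul_01, sl2_mul_10, sl2_mul_11, twistMat_00, twistMat_01,
        twistMat_10, twistMat_11] <;> field_simp

/-! ## The subgroups -/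

/-- The cast `SL(2, ℤ) → SL(2, ℚ)`. -/
def castQ : SL(2, ℤ) →* SL(2, ℚ) := Matrix.SpecialLinearGroup.map (Int.castRingHom ℚ)

@[simp] lemma castQ_apply (γ : SL(2, ℤ)) (i j : Fin 2) : (castQ γ).1 i j = ((γ.1 i j : ℤ) : ℚ) := by
  simp [castQ]

lemma castQ_mk (A : Matrix (Fin 2) (Fin 2) ℤ) (hA : A.det = 1) (i j : Fin 2) :
    (castQ ⟨A, hA⟩).1 i j = ((A i j : ℤ) : ℚ) := castQ_apply _ _ _

lemma castQ_injective : Function.Injective castQ := by
  intro γ γ' h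
  apply Subtype.ext
  ext i j
  have := congrArg (fun g : SL(2, ℚ) => g.1 i j) h
  simpa using this

/-- The image of `Γ₀(N)` in `SL(2, ℚ)`. -/
def gammaQ (N : ℕ) : Subgroup SL(2, ℚ) := (Gamma0 N).map castQ

variable (N q : ℕ) [hq : Fact q.Prime]

lemma q_ne_zero : (q : ℚ) ≠ 0 := Nat.cast_ne_zero.mpr hq.out.ne_zero

/-- `Γ' = δ⁻¹ Γ₀(N) δ`: the matrices `[[a, b/q], [q c, d]]`, `[[a, b], [c, d]] ∈ Γ₀(N)`. -/
def gammaQ' : Subgroup SL(2, ℚ) := (gammaQ N).map (twistEquiv q (q_ne_zero q)).toMonoidHom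

/-- The pair of subgroups for the ping-pong. -/
def gammaPair : Bool → Subgroup SL(2, ℚ)
  | false => gammaQ N
  | true => gammaQ' N q

lemma mem_gammaQ_iff {g : SL(2, ℚ)} : g ∈ gammaQ N ↔ ∃ γ ∈ Gamma0 N, castQ γ = g := Iff.rfl

lemma mem_gammaQ'_iff {g : SL(2, ℚ)} :
    g ∈ gammaQ' N q ↔ ∃ γ ∈ Gamma0 N, twistMat q (q_ne_zero q) (castQ γ) = g := by
  constructor
  · rintro ⟨_, ⟨γ, hγ, rfl⟩, rfl⟩
    exact ⟨γ, hγ, rfl⟩
  · rintro ⟨γ, hγ, rfl⟩
    exact ⟨castQ γ, ⟨γ, hγ, rfl⟩, rfl⟩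

lemma Gamma0_mem_iff_dvd {M : ℕ} {γ : SL(2, ℤ)} : γ ∈ Gamma0 M ↔ (M : ℤ) ∣ γ.1 1 0 := by
  rw [Gamma0_mem, ZMod.intCast_zmod_eq_zero_iff_dvd]

/-- An element of `Γ₀(N)` whose lower-left entry is divisible by `q` lies in `Γ'`. -/
lemma castQ_mem_gammaQ'_of_dvd {γ : SL(2, ℤ)} (hγ : γ ∈ Gamma0 N) (hq' : (q : ℤ) ∣ γ.1 1 0)
    (hNq : Nat.Coprime N q) : castQ γ ∈ gammaQ' N q := by
  obtain ⟨c', hc'⟩ := hq'
  have hdet := γ.det_coe
  rw [Matrix.det_fin_two] at hdet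
  let γ' : SL(2, ℤ) := ⟨!![γ.1 0 0, q * γ.1 0 1; c', γ.1 1 1], by
    rw [Matrix.det_fin_two_of]
    rw [hc'] at hdet
    linarith⟩
  rw [mem_gammaQ'_iff]
  refine ⟨γ', ?_, ?_⟩
  · rw [Gamma0_mem_iff_dvd] at hγ ⊢
    show (N : ℤ) ∣ c'
    have h1 : (N : ℤ) ∣ (q : ℤ) * c' := hc' ▸ hγ
    exact (Int.isCoprime_iff_gcd_eq_one.mpr (by exact_mod_cast hNq)).dvd_of_dvd_mul_left h1
  · have hq0 := q_ne_zero q
    apply sl2_ext
    · simp [γ', castQ_mk]
    · simp [γ', castQ_mk]; field_simp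
    · simp [γ', castQ_mk, hc']
    · simp [γ', castQ_mk]

/-- An element of `Γ'` with `q ∣ b` lies in `Γ`. -/
lemma twist_mem_gammaQ_of_dvd {γ : SL(2, ℤ)} (hγ : γ ∈ Gamma0 N) (hq' : (q : ℤ) ∣ γ.1 0 1) :
    twistMat q (q_ne_zero q) (castQ γ) ∈ gammaQ N := by
  obtain ⟨b', hb'⟩ := hq'
  have hdet := γ.det_coe
  rw [Matrix.det_fin_two] at hdet
  let γ' : SL(2, ℤ) := ⟨!![γ.1 0 0, b'; q * γ.1 1 0, γ.1 1 1], by
    rw [Matrix.det_fin_two_of]
    rw [hb'] at hdet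
    linarith⟩
  refine ⟨γ', ?_, ?_⟩
  · rw [Gamma0_mem_iff_dvd] at hγ
    refine Gamma0_mem_iff_dvd.mpr ?_
    show (N : ℤ) ∣ q * γ.1 1 0
    exact Dvd.dvd.mul_left hγ _
  · have hq0 := q_ne_zero q
    apply sl2_ext
    · simp [γ', castQ_mk]
    · simp [γ', castQ_mk, hb']; field_simp
    · simp [γ', castQ_mk]
    · simp [γ', castQ_mk]

/-! ## `q`-adic norm estimates -/

section Norm

variable {q}

lemma nq_add_eq_right {u v : ℚ} (h : padicNorm q u < padicNorm q v) :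
    padicNorm q (u + v) = padicNorm q v := by
  rw [padicNorm.add_eq_max_of_ne h.ne, max_eq_right h.le]

lemma nq_add_eq_left {u v : ℚ} (h : padicNorm q v < padicNorm q u) :
    padicNorm q (u + v) = padicNorm q u := by
  rw [padicNorm.add_eq_max_of_ne h.ne', max_eq_left h.le]

lemma nq_add_le {u v B : ℚ} (hu : padicNorm q u ≤ B) (hv : padicNorm q v ≤ B) :
    padicNorm q (u + v) ≤ B :=
  padicNorm.nonarchimedean.trans (max_le hu hv)

lemma nq_add_lt {u v B : ℚ} (hu : padicNorm q u < B) (hv : padicNorm q v < B) :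
    padicNorm q (u + v) < B :=
  padicNorm.nonarchimedean.trans_lt (max_lt hu hv)

lemma nq_mul_le {a x : ℚ} (ha : padicNorm q a ≤ 1) : padicNorm q (a * x) ≤ padicNorm q x := by
  rw [padicNorm.mul]
  exact mul_le_of_le_one_left (padicNorm.nonneg _) ha

lemma nq_mul_eq {a x : ℚ} (ha : padicNorm q a = 1) : padicNorm q (a * x) = padicNorm q x := by
  rw [padicNorm.mul, ha, one_mul]

lemma q_inv_lt_one : (q : ℚ)⁻¹ < 1 := by
  have h : (1 : ℚ) < q := by exact_mod_cast hq.out.one_lt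
  exact inv_lt_one_of_one_lt₀ h

lemma q_inv_pos : (0 : ℚ) < (q : ℚ)⁻¹ := by
  have h : (0 : ℚ) < q := by exact_mod_cast hq.out.pos
  exact inv_pos.mpr h

lemma nq_mul_le_inv {c x : ℚ} (hc : padicNorm q c ≤ (q : ℚ)⁻¹) :
    padicNorm q (c * x) ≤ (q : ℚ)⁻¹ * padicNorm q x := by
  rw [padicNorm.mul]
  exact mul_le_mul_of_nonneg_right hc (padicNorm.nonneg _)

lemma nq_mul_lt_of_inv {c x : ℚ} (hc : padicNorm q c ≤ (q : ℚ)⁻¹) (hx : 0 < padicNorm q x) :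
    padicNorm q (c * x) < padicNorm q x := by
  refine (nq_mul_le_inv hc).trans_lt ?_
  have := mul_lt_mul_of_pos_right (q_inv_lt_one (q := q)) hx
  rwa [one_mul] at this

lemma nq_pos_of_ne {x : ℚ} (hx : x ≠ 0) : 0 < padicNorm q x :=
  lt_of_le_of_ne (padicNorm.nonneg _) (Ne.symm (padicNorm.nonzero hx))

omit hq in
lemma ne_zero_of_nq_pos {x : ℚ} (hx : 0 < padicNorm q x) : x ≠ 0 := by
  rintro rfl
  simp at hx

lemma nq_int_le (z : ℤ) : padicNorm q (z : ℚ) ≤ 1 := padicNorm.of_int z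

lemma nq_int_eq_one {z : ℤ} (h : ¬ (q : ℤ) ∣ z) : padicNorm q (z : ℚ) = 1 :=
  (padicNorm.int_eq_one_iff z).mpr h

lemma nq_int_le_inv {z : ℤ} (h : (q : ℤ) ∣ z) : padicNorm q (z : ℚ) ≤ (q : ℚ)⁻¹ := by
  obtain ⟨z', rfl⟩ := h
  push_cast
  rw [padicNorm.mul, padicNorm.padicNorm_p_of_prime]
  exact mul_le_of_le_one_right q_inv_pos.le (padicNorm.of_int z')

/-- (A) `|c| = 1`: `X' → X`. -/
lemma norm_lemma_A {a b c d x y : ℚ} (ha : padicNorm q a ≤ 1) (hb : padicNorm q b ≤ 1)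
    (hc : padicNorm q c = 1) (hd : padicNorm q d ≤ 1) (hxy : padicNorm q y < padicNorm q x) :
    padicNorm q (a * x + b * y) ≤ padicNorm q (c * x + d * y) ∧ c * x + d * y ≠ 0 := by
  have h1 : padicNorm q (c * x + d * y) = padicNorm q x := by
    rw [nq_add_eq_left, nq_mul_eq hc]
    rw [nq_mul_eq hc]
    exact (nq_mul_le hd).trans_lt hxy
  have hx : 0 < padicNorm q x := (padicNorm.nonneg _).trans_lt hxy
  refine ⟨?_, ne_zero_of_nq_pos (by rw [h1]; exact hx)⟩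
  rw [h1]
  exact nq_add_le (nq_mul_le ha) ((nq_mul_le hb).trans hxy.le)

/-- (B) `|b'| = q`, `|c'| ≤ 1/q`: `X → X'`. -/
lemma norm_lemma_B {a b c d x y : ℚ} (ha : padicNorm q a ≤ 1) (hb : padicNorm q b = q)
    (hc : padicNorm q c ≤ (q : ℚ)⁻¹) (hd : padicNorm q d ≤ 1)
    (hxy : padicNorm q x ≤ padicNorm q y) (hy : y ≠ 0) :
    padicNorm q (c * x + d * y) < padicNorm q (a * x + b * y) := by
  have hy' := nq_pos_of_ne (q := q) hy
  have hq1 : (1 : ℚ) < q := by exact_mod_cast hq.out.one_lt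
  have hlt : padicNorm q y < q * padicNorm q y := by
    have := mul_lt_mul_of_pos_right hq1 hy'
    rwa [one_mul] at this
  have h1 : padicNorm q (a * x + b * y) = q * padicNorm q y := by
    have hby : padicNorm q (b * y) = q * padicNorm q y := by rw [padicNorm.mul, hb]
    rw [nq_add_eq_right, hby]
    rw [hby]
    exact ((nq_mul_le ha).trans hxy).trans_lt hlt
  rw [h1]
  refine (nq_add_le (B := padicNorm q y) ?_ (nq_mul_le hd)).trans_lt hlt
  refine (nq_mul_le (hc.trans q_inv_lt_one.le)).trans hxy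

/-- (C) `|c| ≤ 1/q`, `|d| = 1`: `X → X`. -/
lemma norm_lemma_C {a b c d x y : ℚ} (ha : padicNorm q a ≤ 1) (hb : padicNorm q b ≤ 1)
    (hc : padicNorm q c ≤ (q : ℚ)⁻¹) (hd : padicNorm q d = 1)
    (hxy : padicNorm q x ≤ padicNorm q y) (hy : y ≠ 0) :
    padicNorm q (a * x + b * y) ≤ padicNorm q (c * x + d * y) ∧ c * x + d * y ≠ 0 := by
  have hy' := nq_pos_of_ne (q := q) hy
  have h1 : padicNorm q (c * x + d * y) = padicNorm q y := by
    rw [nq_add_eq_right, nq_mul_eq hd]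
    rw [nq_mul_eq hd]
    refine (nq_mul_le_inv hc).trans_lt ?_
    have h2 : (q : ℚ)⁻¹ * padicNorm q x ≤ (q : ℚ)⁻¹ * padicNorm q y :=
      mul_le_mul_of_nonneg_left hxy q_inv_pos.le
    refine h2.trans_lt ?_
    have := mul_lt_mul_of_pos_right (q_inv_lt_one (q := q)) hy'
    rwa [one_mul] at this
  refine ⟨?_, ne_zero_of_nq_pos (by rw [h1]; exact hy')⟩
  rw [h1]
  exact nq_add_le ((nq_mul_le ha).trans hxy) (nq_mul_le hb)

/-- (D) `|a| = 1`, `|c| ≤ 1/q`: `X' → X'`. -/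
lemma norm_lemma_D {a b c d x y : ℚ} (ha : padicNorm q a = 1) (hb : padicNorm q b ≤ 1)
    (hc : padicNorm q c ≤ (q : ℚ)⁻¹) (hd : padicNorm q d ≤ 1)
    (hxy : padicNorm q y < padicNorm q x) :
    padicNorm q (c * x + d * y) < padicNorm q (a * x + b * y) := by
  have hx : 0 < padicNorm q x := (padicNorm.nonneg _).trans_lt hxy
  have h1 : padicNorm q (a * x + b * y) = padicNorm q x := by
    rw [nq_add_eq_left, nq_mul_eq ha]
    rw [nq_mul_eq ha]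
    exact (nq_mul_le hb).trans_lt hxy
  rw [h1]
  exact nq_add_lt (nq_mul_lt_of_inv hc hx) ((nq_mul_le hd).trans_lt hxy)

end Norm

/-! ## The action on `ℚ²` and the ping-pong sets -/

lemma smul_entry_zero (g : SL(2, ℚ)) (v : Fin 2 → ℚ) :
    (g • v) 0 = g.1 0 0 * v 0 + g.1 0 1 * v 1 := by
  simp [Matrix.SpecialLinearGroup.smul_def, Matrix.smul_eq_mulVec, Matrix.mulVec, dotProduct,
    Fin.sum_univ_two]

lemma smul_entry_one (g : SL(2, ℚ)) (v : Fin 2 → ℚ) :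
    (g • v) 1 = g.1 1 0 * v 0 + g.1 1 1 * v 1 := by
  simp [Matrix.SpecialLinearGroup.smul_def, Matrix.smul_eq_mulVec, Matrix.mulVec, dotProduct,
    Fin.sum_univ_two]

/-- `X = {(x, y) : |x|_q ≤ |y|_q, y ≠ 0}`. -/
def setX : Set (Fin 2 → ℚ) := {v | padicNorm q (v 0) ≤ padicNorm q (v 1) ∧ v 1 ≠ 0}

/-- `X' = {(x, y) : |y|_q < |x|_q}`. -/
def setX' : Set (Fin 2 → ℚ) := {v | padicNorm q (v 1) < padicNorm q (v 0)}

/-- The ping-pong sets. -/
def setY : Bool → Set (Fin 2 → ℚ)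
  | false => setX q
  | true => setX' q

variable {N q}

omit hq in
lemma smul_mem_setX_iff {g : SL(2, ℚ)} {v : Fin 2 → ℚ} :
    g • v ∈ setX q ↔
      padicNorm q (g.1 0 0 * v 0 + g.1 0 1 * v 1) ≤ padicNorm q (g.1 1 0 * v 0 + g.1 1 1 * v 1) ∧
        g.1 1 0 * v 0 + g.1 1 1 * v 1 ≠ 0 := by
  simp only [setX, Set.mem_ofPred_eq, smul_entry_zero, smul_entry_one]

omit hq in
lemma smul_mem_setX'_iff {g : SL(2, ℚ)} {v : Fin 2 → ℚ} :
    g • v ∈ setX' q ↔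
      padicNorm q (g.1 1 0 * v 0 + g.1 1 1 * v 1) < padicNorm q (g.1 0 0 * v 0 + g.1 0 1 * v 1) := by
  simp only [setX', Set.mem_ofPred_eq, smul_entry_zero, smul_entry_one]

/-- Elements of `Γ ∖ Γ'` have lower-left entry prime to `q`. -/
lemma not_dvd_of_not_mem_gammaQ' (hNq : Nat.Coprime N q) {γ : SL(2, ℤ)} (hγ : γ ∈ Gamma0 N)
    (h : castQ γ ∉ gammaQ' N q) : ¬ (q : ℤ) ∣ γ.1 1 0 :=
  fun hd => h (castQ_mem_gammaQ'_of_dvd N q hγ hd hNq)

/-- Elements of `Γ' ∖ Γ` have upper-right entry (before twisting) prime to `q`. -/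
lemma not_dvd_of_not_mem_gammaQ {γ : SL(2, ℤ)} (hγ : γ ∈ Gamma0 N)
    (h : twistMat q (q_ne_zero q) (castQ γ) ∉ gammaQ N) : ¬ (q : ℤ) ∣ γ.1 0 1 :=
  fun hd => h (twist_mem_gammaQ_of_dvd N q hγ hd)

/-- Elements of `Γ ∩ Γ'` come from `Γ₀(N)` with `q ∣ c`. -/
lemma exists_of_mem_both {g : SL(2, ℚ)} (h0 : g ∈ gammaQ N) (h1 : g ∈ gammaQ' N q) :
    ∃ γ ∈ Gamma0 N, castQ γ = g ∧ (q : ℤ) ∣ γ.1 1 0 := by
  obtain ⟨γ, hγ, rfl⟩ := h0
  obtain ⟨γ₂, _, h2⟩ := (mem_gammaQ'_iff N q).mp h1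
  refine ⟨γ, hγ, rfl, γ₂.1 1 0, ?_⟩
  have := congrArg (fun g : SL(2, ℚ) => g.1 1 0) h2
  simp only [twistMat_10, castQ_apply] at this
  exact_mod_cast this.symm

/-- If `q ∣ c` then `a` and `d` are prime to `q`. -/
lemma not_dvd_diag_of_dvd {γ : SL(2, ℤ)} (h : (q : ℤ) ∣ γ.1 1 0) :
    ¬ (q : ℤ) ∣ γ.1 0 0 ∧ ¬ (q : ℤ) ∣ γ.1 1 1 := by
  have hdet := γ.det_coe
  rw [Matrix.det_fin_two] at hdet
  have hq1 : ¬ (q : ℤ) ∣ 1 := by
    intro h1
    have := Int.eq_one_of_dvd_one (by positivity) h1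
    have h2 : q = 1 := by exact_mod_cast this
    exact hq.out.one_lt.ne' h2
  constructor
  · intro ha
    apply hq1
    rw [← hdet]
    exact dvd_sub (Dvd.dvd.mul_right ha _) (Dvd.dvd.mul_left h _)
  · intro hd
    apply hq1
    rw [← hdet]
    exact dvd_sub (Dvd.dvd.mul_left hd _) (Dvd.dvd.mul_left h _)

lemma nq_div_q {b : ℤ} (hb : ¬ (q : ℤ) ∣ b) : padicNorm q ((b : ℚ) / q) = q := by
  rw [padicNorm.div, nq_int_eq_one hb, padicNorm.padicNorm_p_of_prime, one_div, inv_inv]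

lemma nq_q_mul (c : ℤ) : padicNorm q ((q : ℚ) * c) ≤ (q : ℚ)⁻¹ := by
  rw [padicNorm.mul, padicNorm.padicNorm_p_of_prime]
  exact mul_le_of_le_one_right q_inv_pos.le (nq_int_le c)

lemma nq_q : padicNorm q (q : ℚ) = (q : ℚ)⁻¹ := padicNorm.padicNorm_p_of_prime

/-- The vector `(x, y)`. -/
def vec (x y : ℚ) : Fin 2 → ℚ := ![x, y]

@[simp] lemma vec_zero (x y : ℚ) : vec x y 0 = x := rfl
@[simp] lemma vec_one (x y : ℚ) : vec x y 1 = y := rfl

/-- **Ping-pong for `Γ₀(N)` and its `diag(q,1)`-conjugate.** -/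
theorem pingPong_gamma (hNq : Nat.Coprime N q) : PingPong (gammaPair N q) (setY q) where
  pp := by
    intro s g hg hg' ω hω
    cases s
    · obtain ⟨γ, hγ, rfl⟩ := hg
      have hc := not_dvd_of_not_mem_gammaQ' hNq hγ hg'
      show castQ γ • ω ∈ setX q
      rw [smul_mem_setX_iff]
      simp only [castQ_apply]
      exact norm_lemma_A (nq_int_le _) (nq_int_le _) (nq_int_eq_one hc) (nq_int_le _) hω
    · obtain ⟨γ, hγ, rfl⟩ := (mem_gammaQ'_iff N q).mp hg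
      have hb := not_dvd_of_not_mem_gammaQ hγ hg'
      show _ • ω ∈ setX' q
      rw [smul_mem_setX'_iff]
      simp only [twistMat_00, twistMat_01, twistMat_10, twistMat_11, castQ_apply]
      exact norm_lemma_B (nq_int_le _) (nq_div_q hb) (nq_q_mul _) (nq_int_le _) hω.1 hω.2
  core := by
    intro c hc s ω hω
    obtain ⟨γ, hγ, rfl, hq'⟩ := exists_of_mem_both (hc false) (hc true)
    obtain ⟨ha, hd⟩ := not_dvd_diag_of_dvd hq'
    cases s
    · show castQ γ • ω ∈ setX q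
      rw [smul_mem_setX_iff]
      simp only [castQ_apply]
      exact norm_lemma_C (nq_int_le _) (nq_int_le _) (nq_int_le_inv hq') (nq_int_eq_one hd)
        hω.1 hω.2
    · show castQ γ • ω ∈ setX' q
      rw [smul_mem_setX'_iff]
      simp only [castQ_apply]
      exact norm_lemma_D (nq_int_eq_one ha) (nq_int_le _) (nq_int_le_inv hq') (nq_int_le _) hω
  disj := by
    intro ω h h'
    exact absurd h' (not_lt.mpr h.1)
  ne := by
    intro s
    cases s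
    · exact ⟨vec 0 1, by simp [setY, setX]⟩
    · exact ⟨vec 1 0, by simp [setY, setX']⟩
  strict := by
    intro s g hg hg'
    -- it suffices to find `u₀ ∈ Y s` with `g • u₀ ∈ Y s`
    suffices h : ∃ u₀ ∈ setY q s, g • u₀ ∈ setY q s by
      obtain ⟨u₀, hu₀, hgu₀⟩ := h
      refine ⟨g • u₀, hgu₀, fun ω hω heq => ?_⟩
      have : ω = u₀ := MulAction.injective g heq
      subst this
      cases s
      · exact absurd hω (not_lt.mpr hu₀.1)
      · exact absurd hu₀ (not_lt.mpr hω.1)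
    cases s
    · obtain ⟨γ, hγ, rfl⟩ := hg
      have hc := not_dvd_of_not_mem_gammaQ' hNq hγ hg'
      by_cases hd : (q : ℤ) ∣ γ.1 1 1
      · refine ⟨vec 1 1, by simp [setY, setX], ?_⟩
        show castQ γ • vec 1 1 ∈ setX q
        rw [smul_mem_setX_iff]
        simp only [castQ_apply, vec_zero, vec_one, mul_one]
        have h1 : padicNorm q ((γ.1 1 0 : ℚ) + (γ.1 1 1 : ℚ)) = 1 := by
          rw [nq_add_eq_left, nq_int_eq_one hc]
          rw [nq_int_eq_one hc]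
          exact (nq_int_le_inv hd).trans_lt q_inv_lt_one
        refine ⟨?_, ne_zero_of_nq_pos (q := q) (by rw [h1]; exact one_pos)⟩
        rw [h1]
        exact nq_add_le (nq_int_le _) (nq_int_le _)
      · refine ⟨vec 0 1, by simp [setY, setX], ?_⟩
        show castQ γ • vec 0 1 ∈ setX q
        rw [smul_mem_setX_iff]
        simp only [castQ_apply, vec_zero, vec_one, mul_one, mul_zero, zero_add]
        refine ⟨?_, ne_zero_of_nq_pos (q := q) (by rw [nq_int_eq_one hd]; exact one_pos)⟩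
        rw [nq_int_eq_one hd]
        exact nq_int_le _
    · obtain ⟨γ, hγ, rfl⟩ := (mem_gammaQ'_iff N q).mp hg
      have hb := not_dvd_of_not_mem_gammaQ hγ hg'
      by_cases ha : (q : ℤ) ∣ γ.1 0 0
      · refine ⟨vec 1 q, ?_, ?_⟩
        · show padicNorm q (q : ℚ) < padicNorm q 1
          rw [nq_q, padicNorm.one]
          exact q_inv_lt_one
        show _ • vec 1 q ∈ setX' q
        rw [smul_mem_setX'_iff]
        simp only [twistMat_00, twistMat_01, twistMat_10, twistMat_11, castQ_apply, vec_zero,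
          vec_one, mul_one]
        have hq0 := q_ne_zero q
        have e1 : (γ.1 0 1 : ℚ) / q * q = γ.1 0 1 := by field_simp
        rw [e1]
        have h1 : padicNorm q ((γ.1 0 0 : ℚ) + (γ.1 0 1 : ℚ)) = 1 := by
          rw [nq_add_eq_right, nq_int_eq_one hb]
          rw [nq_int_eq_one hb]
          exact (nq_int_le_inv ha).trans_lt q_inv_lt_one
        rw [h1]
        refine nq_add_lt ((nq_q_mul _).trans_lt q_inv_lt_one) ?_
        rw [mul_comm]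
        exact (nq_q_mul _).trans_lt q_inv_lt_one
      · refine ⟨vec 1 0, by simp [setY, setX'], ?_⟩
        show _ • vec 1 0 ∈ setX' q
        rw [smul_mem_setX'_iff]
        simp only [twistMat_00, twistMat_01, twistMat_10, twistMat_11, castQ_apply, vec_zero,
          vec_one, mul_one, mul_zero, add_zero]
        rw [nq_int_eq_one ha]
        exact (nq_q_mul _).trans_lt q_inv_lt_one

/-! ## Consequences: intersection, amalgam, gluing -/

/-- `Γ ∩ Γ'` is the image of `Γ₀(N q)`. -/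
theorem gammaQ_inf_gammaQ' (hNq : Nat.Coprime N q) :
    gammaQ N ⊓ gammaQ' N q = gammaQ (N * q) := by
  ext g
  rw [Subgroup.mem_inf]
  constructor
  · rintro ⟨h0, h1⟩
    obtain ⟨γ, hγ, rfl, hq'⟩ := exists_of_mem_both h0 h1
    refine ⟨γ, Gamma0_mem_iff_dvd.mpr ?_, rfl⟩
    rw [Gamma0_mem_iff_dvd] at hγ
    push_cast
    exact IsCoprime.mul_dvd (Int.isCoprime_iff_gcd_eq_one.mpr (by exact_mod_cast hNq)) hγ hq'
  · rintro ⟨γ, hγ, rfl⟩
    have hγ' := Gamma0_mem_iff_dvd.mp hγ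
    push_cast at hγ'
    have hN : γ ∈ Gamma0 N := Gamma0_mem_iff_dvd.mpr (dvd_of_mul_right_dvd hγ')
    exact ⟨⟨γ, hN, rfl⟩, castQ_mem_gammaQ'_of_dvd N q hN (dvd_of_mul_left_dvd hγ') hNq⟩

variable (N q)

/-- `Γ₀(N)[1/q]`, defined as the subgroup of `SL(2, ℚ)` generated by `Γ₀(N)` and its
`diag(q, 1)`-conjugate. -/
def Delta : Subgroup SL(2, ℚ) := gammaQ N ⊔ gammaQ' N q

/-- The standard embedding `Γ₀(N) → Γ₀(N)[1/q]`. -/
def iota : ↥(Gamma0 N) →* ↥(Delta N q) where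
  toFun γ := ⟨castQ γ, Subgroup.mem_sup_left ⟨γ, γ.2, rfl⟩⟩
  map_one' := Subtype.ext (map_one castQ)
  map_mul' _ _ := Subtype.ext (map_mul castQ _ _)

/-- The twisted embedding `Γ₀(N) → Γ₀(N)[1/q]`, `[[a, b], [c, d]] ↦ [[a, b/q], [q c, d]]`. -/
def iota' : ↥(Gamma0 N) →* ↥(Delta N q) where
  toFun γ := ⟨twistMat q (q_ne_zero q) (castQ γ),
    Subgroup.mem_sup_right ((mem_gammaQ'_iff N q).mpr ⟨γ, γ.2, rfl⟩)⟩
  map_one' := Subtype.ext (by
    show twistEquiv q (q_ne_zero q) (castQ _) = 1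
    simp)
  map_mul' _ _ := Subtype.ext (by
    show twistEquiv q (q_ne_zero q) (castQ _) = twistEquiv q (q_ne_zero q) (castQ _) *
      twistEquiv q (q_ne_zero q) (castQ _)
    simp)

@[simp] lemma coe_iota (γ : ↥(Gamma0 N)) : ((iota N q γ : ↥(Delta N q)) : SL(2, ℚ)) = castQ γ := rfl

@[simp] lemma coe_iota' (γ : ↥(Gamma0 N)) :
    ((iota' N q γ : ↥(Delta N q)) : SL(2, ℚ)) = twistMat q (q_ne_zero q) (castQ γ) := rfl

lemma iota_injective : Function.Injective (iota N q) := by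
  intro γ γ' h
  have := congrArg (fun x : ↥(Delta N q) => (x : SL(2, ℚ))) h
  exact Subtype.ext (castQ_injective this)

lemma iota'_injective : Function.Injective (iota' N q) := by
  intro γ γ' h
  have := congrArg (fun x : ↥(Delta N q) => (x : SL(2, ℚ))) h
  exact Subtype.ext (castQ_injective ((twistEquiv q (q_ne_zero q)).injective this))

variable {N q}

/-- The compatibility relation in terms of matrix entries: `γ₂ = [[a, q b], [c / q, d]]`. -/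
lemma castQ_eq_twist_iff {γ₁ γ₂ : SL(2, ℤ)} :
    castQ γ₁ = twistMat q (q_ne_zero q) (castQ γ₂) ↔
      γ₁.1 0 0 = γ₂.1 0 0 ∧ (q : ℤ) * γ₁.1 0 1 = γ₂.1 0 1 ∧ γ₁.1 1 0 = (q : ℤ) * γ₂.1 1 0 ∧
        γ₁.1 1 1 = γ₂.1 1 1 := by
  have hq0 := q_ne_zero q
  constructor
  · intro h
    have h00 := congrArg (fun g : SL(2, ℚ) => g.1 0 0) h
    have h01 := congrArg (fun g : SL(2, ℚ) => g.1 0 1) h
    have h10 := congrArg (fun g : SL(2, ℚ) => g.1 1 0) h
    have h11 := congrArg (fun g : SL(2, ℚ) => g.1 1 1) h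
    simp only [twistMat_00, twistMat_01, twistMat_10, twistMat_11, castQ_apply] at h00 h01 h10 h11
    refine ⟨by exact_mod_cast h00, ?_, by exact_mod_cast h10, by exact_mod_cast h11⟩
    have : (q : ℚ) * (γ₁.1 0 1 : ℚ) = (γ₂.1 0 1 : ℚ) := by
      rw [h01]; field_simp
    exact_mod_cast this
  · rintro ⟨h00, h01, h10, h11⟩
    apply sl2_ext <;> simp only [twistMat_00, twistMat_01, twistMat_10, twistMat_11, castQ_apply]
    · exact_mod_cast h00
    · rw [← h01]; push_cast; field_simp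
    · rw [h10]; push_cast; rfl
    · exact_mod_cast h11

/-- **Gluing for `Γ₀(N)[1/q]`** (multiplicative form): two homomorphisms `φ`, `ψ` on `Γ₀(N)`
such that `φ(γ₁) = ψ(γ₂)` whenever `γ₁ = δ⁻¹ γ₂ δ` (`δ = diag(q, 1)`; this forces
`γ₁ ∈ Γ₀(N q)`) extend uniquely to a homomorphism on `Γ₀(N)[1/q]` restricting to `φ` on the
standard copy and to `ψ` on the twisted copy of `Γ₀(N)`. -/
theorem glue_gamma (hNq : Nat.Coprime N q) {G : Type*} [Group G] (φ ψ : ↥(Gamma0 N) →* G)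
    (hc : ∀ γ₁ γ₂ : ↥(Gamma0 N),
      castQ γ₁ = twistMat q (q_ne_zero q) (castQ γ₂) → φ γ₁ = ψ γ₂) :
    ∃! Φ : ↥(Delta N q) →* G, Φ.comp (iota N q) = φ ∧ Φ.comp (iota' N q) = ψ := by
  -- transport `φ`, `ψ` to the subgroups of `SL(2, ℚ)`
  let e₀ : ↥(Gamma0 N) ≃* ↥(gammaQ N) := (Gamma0 N).equivMapOfInjective castQ castQ_injective
  let e₁ : ↥(gammaQ N) ≃* ↥(gammaQ' N q) := (twistEquiv q (q_ne_zero q)).subgroupMap (gammaQ N)
  let e₂ : ↥(Gamma0 N) ≃* ↥(gammaQ' N q) := e₀.trans e₁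
  have he₀ : ∀ γ, ((e₀ γ : ↥(gammaQ N)) : SL(2, ℚ)) = castQ γ := fun γ => rfl
  have he₂ : ∀ γ, ((e₂ γ : ↥(gammaQ' N q)) : SL(2, ℚ)) = twistMat q (q_ne_zero q) (castQ γ) :=
    fun γ => rfl
  let φ' : ↥(gammaQ N) →* G := φ.comp e₀.symm.toMonoidHom
  let ψ' : ↥(gammaQ' N q) →* G := ψ.comp e₂.symm.toMonoidHom
  have hφ' : ∀ γ, φ' (e₀ γ) = φ γ := fun γ => by
    show φ (e₀.symm (e₀ γ)) = φ γ
    rw [MulEquiv.symm_apply_apply]
  have hψ' : ∀ γ, ψ' (e₂ γ) = ψ γ := fun γ => by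
    show ψ (e₂.symm (e₂ γ)) = ψ γ
    rw [MulEquiv.symm_apply_apply]
  have hcompat : ∀ (c : SL(2, ℚ)) (h0 : c ∈ gammaQ N) (h1 : c ∈ gammaQ' N q),
      φ' ⟨c, h0⟩ = ψ' ⟨c, h1⟩ := by
    intro c h0 h1
    show φ (e₀.symm ⟨c, h0⟩) = ψ (e₂.symm ⟨c, h1⟩)
    apply hc
    rw [← he₀, ← he₂, MulEquiv.apply_symm_apply, MulEquiv.apply_symm_apply]
  have key : ∃! Φ : ↥(Delta N q) →* G,
      (∀ a : ↥(gammaQ N), Φ ⟨a, Subgroup.mem_sup_left a.2⟩ = φ' a) ∧
      (∀ b : ↥(gammaQ' N q), Φ ⟨b, Subgroup.mem_sup_right b.2⟩ = ψ' b) :=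
    glue (S := gammaPair N q) (pingPong_gamma (N := N) (q := q) hNq) φ' ψ' hcompat
  obtain ⟨Φ, ⟨hΦ0, hΦ1⟩, huniq⟩ := key
  refine ⟨Φ, ⟨?_, ?_⟩, ?_⟩
  · ext γ
    rw [← hφ' γ, ← hΦ0 (e₀ γ)]
    rfl
  · ext γ
    rw [← hψ' γ, ← hΦ1 (e₂ γ)]
    rfl
  · rintro Φ' ⟨h0, h1⟩
    apply huniq
    constructor
    · intro a
      obtain ⟨γ, rfl⟩ := e₀.surjective a
      rw [hφ' γ, ← h0]
      rfl
    · intro b
      obtain ⟨γ, rfl⟩ := e₂.surjective b
      rw [hψ' γ, ← h1]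
      rfl

/-- **Gluing for `Γ₀(N)[1/q]`** (additive form, in the vocabulary of `parabolicHoms`). -/
theorem glue_gamma_add (hNq : Nat.Coprime N q) {M : Type*} [AddGroup M]
    (φ ψ : Additive ↥(Gamma0 N) →+ M)
    (hc : ∀ γ₁ γ₂ : ↥(Gamma0 N), castQ γ₁ = twistMat q (q_ne_zero q) (castQ γ₂) →
      φ (Additive.ofMul γ₁) = ψ (Additive.ofMul γ₂)) :
    ∃! Φ : Additive ↥(Delta N q) →+ M,
      (∀ γ : ↥(Gamma0 N), Φ (Additive.ofMul (iota N q γ)) = φ (Additive.ofMul γ)) ∧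
      (∀ γ : ↥(Gamma0 N), Φ (Additive.ofMul (iota' N q γ)) = ψ (Additive.ofMul γ)) := by
  obtain ⟨Φ, ⟨h0, h1⟩, huniq⟩ := glue_gamma hNq (AddMonoidHom.toMultiplicativeRight φ)
    (AddMonoidHom.toMultiplicativeRight ψ) (fun γ₁ γ₂ h => by
      show Multiplicative.ofAdd (φ (Additive.ofMul γ₁)) = Multiplicative.ofAdd (ψ (Additive.ofMul γ₂))
      rw [hc γ₁ γ₂ h])
  refine ⟨MonoidHom.toAdditiveLeft Φ, ⟨fun γ => ?_, fun γ => ?_⟩, ?_⟩
  · have := DFunLike.congr_fun h0 γ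
    exact congrArg Multiplicative.toAdd this
  · have := DFunLike.congr_fun h1 γ
    exact congrArg Multiplicative.toAdd this
  · rintro Φ' ⟨h0', h1'⟩
    have := huniq (AddMonoidHom.toMultiplicativeRight Φ') ⟨?_, ?_⟩
    · rw [← this]
      rfl
    · ext γ
      exact congrArg Multiplicative.ofAdd (h0' γ)
    · ext γ
      exact congrArg Multiplicative.ofAdd (h1' γ)

end Fermat.Agent.S41.H58
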