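import Mathlib
import Fermat.Agent.S41.H58_Gamma0Amalgam

/-!
# `Γ₀(N)[1/q]` is the `S`-arithmetic group (helper58)

`Delta N q = ⟨Γ₀(N), δ⁻¹ Γ₀(N) δ⟩ ⊆ SL(2, ℚ)` (with `δ = diag(q, 1)`) equals the group of matrices
in `SL(2, ℚ)` with entries in `ℤ[1/q]` and lower-left entry in `N ℤ[1/q]`.
The proof is the usual descent on the power of `q` in the denominators (= the distance in the
Bruhat–Tits tree), made explicit with integer matrices.
-/

set_option autoImplicit false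

open Matrix CongruenceSubgroup
open scoped MatrixGroups

namespace Fermat.Agent.S41.H58

/-! ## The ring `ℤ[1/q]` inside `ℚ` and the arithmetic group -/

/-- `ℤ[1/q]` as a subring of `ℚ`. -/
def Zq (q : ℕ) : Subring ℚ where
  carrier := {x | ∃ (k : ℕ) (z : ℤ), x * (q : ℚ) ^ k = z}
  mul_mem' := by
    rintro x y ⟨k, z, hz⟩ ⟨l, w, hw⟩
    exact ⟨k + l, z * w, by push_cast; rw [← hz, ← hw]; ring⟩
  one_mem' := ⟨0, 1, by simp⟩
  add_mem' := by
    rintro x y ⟨k, z, hz⟩ ⟨l, w, hw⟩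
    exact ⟨k + l, z * q ^ l + w * q ^ k, by push_cast; rw [← hz, ← hw]; ring⟩
  zero_mem' := ⟨0, 0, by simp⟩
  neg_mem' := by
    rintro x ⟨k, z, hz⟩
    exact ⟨k, -z, by push_cast; rw [← hz]; ring⟩

lemma mem_Zq_iff {q : ℕ} {x : ℚ} : x ∈ Zq q ↔ ∃ (k : ℕ) (z : ℤ), x * (q : ℚ) ^ k = z := Iff.rfl

lemma intCast_mem_Zq (q : ℕ) (z : ℤ) : (z : ℚ) ∈ Zq q := ⟨0, z, by simp⟩

lemma sl2_inv_00 (g : SL(2, ℚ)) : (g⁻¹).1 0 0 = g.1 1 1 := by
  simp [Matrix.SpecialLinearGroup.coe_inv, Matrix.adjugate_fin_two]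
lemma sl2_inv_01 (g : SL(2, ℚ)) : (g⁻¹).1 0 1 = - g.1 0 1 := by
  simp [Matrix.SpecialLinearGroup.coe_inv, Matrix.adjugate_fin_two]
lemma sl2_inv_10 (g : SL(2, ℚ)) : (g⁻¹).1 1 0 = - g.1 1 0 := by
  simp [Matrix.SpecialLinearGroup.coe_inv, Matrix.adjugate_fin_two]
lemma sl2_inv_11 (g : SL(2, ℚ)) : (g⁻¹).1 1 1 = g.1 0 0 := by
  simp [Matrix.SpecialLinearGroup.coe_inv, Matrix.adjugate_fin_two]

lemma forall_fin2 {P : Fin 2 → Fin 2 → Prop} :
    (∀ i j, P i j) ↔ P 0 0 ∧ P 0 1 ∧ P 1 0 ∧ P 1 1 := by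
  constructor
  · intro h
    exact ⟨h 0 0, h 0 1, h 1 0, h 1 1⟩
  · rintro ⟨h00, h01, h10, h11⟩ i j
    fin_cases i <;> fin_cases j <;> assumption

/-- The `S`-arithmetic group `Γ₀(N)[1/q]`: matrices in `SL(2, ℚ)` with entries in `ℤ[1/q]` and
lower-left entry in `N ℤ[1/q]`. -/
def DeltaArith (N q : ℕ) : Subgroup SL(2, ℚ) where
  carrier := {g | (∀ i j, g.1 i j ∈ Zq q) ∧ ∃ y ∈ Zq q, g.1 1 0 = N * y}
  mul_mem' := by
    rintro g h ⟨hg, yg, hyg, hcg⟩ ⟨hh, yh, hyh, hch⟩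
    rw [forall_fin2] at hg hh
    obtain ⟨g00, g01, g10, g11⟩ := hg
    obtain ⟨h00, h01, h10, h11⟩ := hh
    refine ⟨?_, yg * h.1 0 0 + g.1 1 1 * yh, ?_, ?_⟩
    · rw [forall_fin2]
      refine ⟨?_, ?_, ?_, ?_⟩
      · rw [sl2_mul_00]; exact add_mem (mul_mem g00 h00) (mul_mem g01 h10)
      · rw [sl2_mul_01]; exact add_mem (mul_mem g00 h01) (mul_mem g01 h11)
      · rw [sl2_mul_10]; exact add_mem (mul_mem g10 h00) (mul_mem g11 h10)
      · rw [sl2_mul_11]; exact add_mem (mul_mem g10 h01) (mul_mem g11 h11)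
    · exact add_mem (mul_mem hyg h00) (mul_mem g11 hyh)
    · rw [sl2_mul_10, hcg, hch]; ring
  one_mem' := by
    refine ⟨?_, 0, zero_mem _, by simp⟩
    rw [forall_fin2]
    simp [zero_mem, one_mem]
  inv_mem' := by
    rintro g ⟨hg, yg, hyg, hcg⟩
    rw [forall_fin2] at hg
    obtain ⟨g00, g01, g10, g11⟩ := hg
    refine ⟨?_, -yg, neg_mem hyg, ?_⟩
    · rw [forall_fin2]
      refine ⟨?_, ?_, ?_, ?_⟩
      · rw [sl2_inv_00]; exact g11
      · rw [sl2_inv_01]; exact neg_mem g01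
      · rw [sl2_inv_10]; exact neg_mem g10
      · rw [sl2_inv_11]; exact g00
    · rw [sl2_inv_10, hcg]; ring

lemma mem_DeltaArith_iff {N q : ℕ} {g : SL(2, ℚ)} :
    g ∈ DeltaArith N q ↔ (∀ i j, g.1 i j ∈ Zq q) ∧ ∃ y ∈ Zq q, g.1 1 0 = N * y := Iff.rfl

variable (N q : ℕ) [hq : Fact q.Prime]

omit hq in
lemma gammaQ_le_DeltaArith : gammaQ N ≤ DeltaArith N q := by
  rintro _ ⟨γ, hγ, rfl⟩
  obtain ⟨y, hy⟩ := Gamma0_mem_iff_dvd.mp hγ
  refine ⟨fun i j => ?_, y, intCast_mem_Zq q y, ?_⟩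
  · rw [castQ_apply]; exact intCast_mem_Zq q _
  · rw [castQ_apply, hy]; push_cast; ring

lemma q_inv_mem_Zq : ((q : ℚ))⁻¹ ∈ Zq q :=
  ⟨1, 1, by have := q_ne_zero q; field_simp; simp⟩

lemma gammaQ'_le_DeltaArith : gammaQ' N q ≤ DeltaArith N q := by
  intro g hg
  obtain ⟨γ, hγ, rfl⟩ := (mem_gammaQ'_iff N q).mp hg
  obtain ⟨y, hy⟩ := Gamma0_mem_iff_dvd.mp hγ
  refine ⟨?_, q * y, mul_mem (by exact_mod_cast intCast_mem_Zq q q) (intCast_mem_Zq q y), ?_⟩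
  · rw [forall_fin2]
    refine ⟨?_, ?_, ?_, ?_⟩
    · rw [twistMat_00, castQ_apply]; exact intCast_mem_Zq q _
    · rw [twistMat_01, castQ_apply, div_eq_mul_inv]
      exact mul_mem (intCast_mem_Zq q _) (q_inv_mem_Zq q)
    · rw [twistMat_10, castQ_apply]
      exact mul_mem (by exact_mod_cast intCast_mem_Zq q q) (intCast_mem_Zq q _)
    · rw [twistMat_11, castQ_apply]; exact intCast_mem_Zq q _
  · rw [twistMat_10, castQ_apply, hy]; push_cast; ring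

lemma Delta_le_DeltaArith : Delta N q ≤ DeltaArith N q :=
  sup_le (gammaQ_le_DeltaArith N q) (gammaQ'_le_DeltaArith N q)

/-! ## Killing a row modulo `q` with an element of `Γ₀(N)` -/

variable {N q}

/-- Solving a linear congruence modulo the prime `q`. -/
lemma exists_dvd_mul_add {x : ℤ} (hx : ¬ (q : ℤ) ∣ x) (y : ℤ) : ∃ m : ℤ, (q : ℤ) ∣ m * x + y := by
  have hp : Prime (q : ℤ) := Nat.prime_iff_prime_int.mp hq.out
  have hcop : IsCoprime x (q : ℤ) := (hp.coprime_iff_not_dvd.mpr hx).symm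
  obtain ⟨u, v, huv⟩ := hcop
  refine ⟨-y * u, y * v, ?_⟩
  linear_combination (-y) * huv

omit hq in
lemma exists_bezout (hNq : Nat.Coprime N q) : ∃ u v : ℤ, u * q + v * N = 1 := by
  have : IsCoprime (q : ℤ) (N : ℤ) :=
    Int.isCoprime_iff_gcd_eq_one.mpr (by exact_mod_cast hNq.symm)
  obtain ⟨u, v, huv⟩ := this
  exact ⟨u, v, huv⟩

/-- The lower unipotent `[[1, 0], [N m, 1]] ∈ Γ₀(N)`. -/
def lowerUni (N : ℕ) (m : ℤ) : SL(2, ℤ) :=
  ⟨!![1, 0; N * m, 1], by rw [Matrix.det_fin_two_of]; ring⟩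

lemma lowerUni_mem (N : ℕ) (m : ℤ) : lowerUni N m ∈ Gamma0 N :=
  Gamma0_mem_iff_dvd.mpr ⟨m, rfl⟩

/-- The upper unipotent `[[1, m], [0, 1]] ∈ Γ₀(N)`. -/
def upperUni (m : ℤ) : SL(2, ℤ) :=
  ⟨!![1, m; 0, 1], by rw [Matrix.det_fin_two_of]; ring⟩

lemma upperUni_mem (N : ℕ) (m : ℤ) : upperUni m ∈ Gamma0 N :=
  Gamma0_mem_iff_dvd.mpr ⟨0, by simp [upperUni]⟩

/-- Given an integer matrix with determinant divisible by `q`, some `γ ∈ Γ₀(N)` makes the bottom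
row of `γ M` divisible by `q`. -/
lemma rowKill_bot (hNq : Nat.Coprime N q) (m00 m01 m10 m11 : ℤ)
    (hdet : (q : ℤ) ∣ m00 * m11 - m01 * m10) :
    ∃ γ ∈ Gamma0 N, (q : ℤ) ∣ γ.1 1 0 * m00 + γ.1 1 1 * m10 ∧
      (q : ℤ) ∣ γ.1 1 0 * m01 + γ.1 1 1 * m11 := by
  have hp : Prime (q : ℤ) := Nat.prime_iff_prime_int.mp hq.out
  have hN : ¬ (q : ℤ) ∣ (N : ℤ) := by
    intro h
    have h1 : q ∣ N := by exact_mod_cast h
    have := Nat.eq_one_of_dvd_coprimes hNq h1 dvd_rfl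
    exact hq.out.one_lt.ne' this
  by_cases h0 : (q : ℤ) ∣ m00
  · by_cases h1 : (q : ℤ) ∣ m01
    · obtain ⟨u, v, huv⟩ := exists_bezout hNq
      refine ⟨⟨!![u, -v; N, q], by rw [Matrix.det_fin_two_of]; linear_combination huv⟩,
        Gamma0_mem_iff_dvd.mpr ⟨1, by simp⟩, ?_, ?_⟩
      · show (q : ℤ) ∣ (N : ℤ) * m00 + q * m10
        exact dvd_add (Dvd.dvd.mul_left h0 _) (dvd_mul_right _ _)
      · show (q : ℤ) ∣ (N : ℤ) * m01 + q * m11
        exact dvd_add (Dvd.dvd.mul_left h1 _) (dvd_mul_right _ _)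
    · have hx : ¬ (q : ℤ) ∣ N * m01 := fun h => (hp.dvd_or_dvd h).elim hN h1
      obtain ⟨m, hm⟩ := exists_dvd_mul_add hx m11
      refine ⟨lowerUni N m, lowerUni_mem N m, ?_, ?_⟩
      · show (q : ℤ) ∣ (N : ℤ) * m * m00 + 1 * m10
        have h2 : (q : ℤ) ∣ m01 * ((N : ℤ) * m * m00 + 1 * m10) := by
          have : m01 * ((N : ℤ) * m * m00 + 1 * m10) =
              m00 * (m * (N * m01) + m11) - (m00 * m11 - m01 * m10) := by ring
          rw [this]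
          exact dvd_sub (Dvd.dvd.mul_left hm _) hdet
        exact (hp.dvd_or_dvd h2).resolve_left h1
      · show (q : ℤ) ∣ (N : ℤ) * m * m01 + 1 * m11
        have : (N : ℤ) * m * m01 + 1 * m11 = m * (N * m01) + m11 := by ring
        rw [this]; exact hm
  · have hx : ¬ (q : ℤ) ∣ N * m00 := fun h => (hp.dvd_or_dvd h).elim hN h0
    obtain ⟨m, hm⟩ := exists_dvd_mul_add hx m10
    refine ⟨lowerUni N m, lowerUni_mem N m, ?_, ?_⟩
    · show (q : ℤ) ∣ (N : ℤ) * m * m00 + 1 * m10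
      have : (N : ℤ) * m * m00 + 1 * m10 = m * (N * m00) + m10 := by ring
      rw [this]; exact hm
    · show (q : ℤ) ∣ (N : ℤ) * m * m01 + 1 * m11
      have h2 : (q : ℤ) ∣ m00 * ((N : ℤ) * m * m01 + 1 * m11) := by
        have : m00 * ((N : ℤ) * m * m01 + 1 * m11) =
            m01 * (m * (N * m00) + m10) + (m00 * m11 - m01 * m10) := by ring
        rw [this]
        exact dvd_add (Dvd.dvd.mul_left hm _) hdet
      exact (hp.dvd_or_dvd h2).resolve_left h0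

/-- Given an integer matrix with determinant divisible by `q`, some `γ ∈ Γ₀(N)` makes the top
row of `γ M` divisible by `q`. -/
lemma rowKill_top (hNq : Nat.Coprime N q) (m00 m01 m10 m11 : ℤ)
    (hdet : (q : ℤ) ∣ m00 * m11 - m01 * m10) :
    ∃ γ ∈ Gamma0 N, (q : ℤ) ∣ γ.1 0 0 * m00 + γ.1 0 1 * m10 ∧
      (q : ℤ) ∣ γ.1 0 0 * m01 + γ.1 0 1 * m11 := by
  have hp : Prime (q : ℤ) := Nat.prime_iff_prime_int.mp hq.out
  by_cases h0 : (q : ℤ) ∣ m10
  · by_cases h1 : (q : ℤ) ∣ m11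
    · obtain ⟨u, v, huv⟩ := exists_bezout hNq
      refine ⟨⟨!![q, -v; N, u], by rw [Matrix.det_fin_two_of]; linear_combination huv⟩,
        Gamma0_mem_iff_dvd.mpr ⟨1, by simp⟩, ?_, ?_⟩
      · show (q : ℤ) ∣ (q : ℤ) * m00 + -v * m10
        exact dvd_add (dvd_mul_right _ _) (Dvd.dvd.mul_left h0 _)
      · show (q : ℤ) ∣ (q : ℤ) * m01 + -v * m11
        exact dvd_add (dvd_mul_right _ _) (Dvd.dvd.mul_left h1 _)
    · obtain ⟨m, hm⟩ := exists_dvd_mul_add h1 m01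
      refine ⟨upperUni m, upperUni_mem N m, ?_, ?_⟩
      · show (q : ℤ) ∣ 1 * m00 + m * m10
        have h2 : (q : ℤ) ∣ m11 * (1 * m00 + m * m10) := by
          have : m11 * (1 * m00 + m * m10) =
              m10 * (m * m11 + m01) + (m00 * m11 - m01 * m10) := by ring
          rw [this]
          exact dvd_add (Dvd.dvd.mul_left hm _) hdet
        exact (hp.dvd_or_dvd h2).resolve_left h1
      · show (q : ℤ) ∣ 1 * m01 + m * m11
        have : 1 * m01 + m * m11 = m * m11 + m01 := by ring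
        rw [this]; exact hm
  · obtain ⟨m, hm⟩ := exists_dvd_mul_add h0 m00
    refine ⟨upperUni m, upperUni_mem N m, ?_, ?_⟩
    · show (q : ℤ) ∣ 1 * m00 + m * m10
      have : 1 * m00 + m * m10 = m * m10 + m00 := by ring
      rw [this]; exact hm
    · show (q : ℤ) ∣ 1 * m01 + m * m11
      have h2 : (q : ℤ) ∣ m10 * (1 * m01 + m * m11) := by
        have : m10 * (1 * m01 + m * m11) =
            m11 * (m * m10 + m00) - (m00 * m11 - m01 * m10) := by ring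
        rw [this]
        exact dvd_sub (Dvd.dvd.mul_left hm _) hdet
      exact (hp.dvd_or_dvd h2).resolve_left h0

/-! ## The descent -/

/-- Row `i` of `q ^ k • g` is integral. -/
def RowInt (q k : ℕ) (g : SL(2, ℚ)) (i : Fin 2) : Prop :=
  ∀ j, ∃ z : ℤ, (q : ℚ) ^ k * g.1 i j = z

lemma sl2_det_eq (g : SL(2, ℚ)) : g.1 0 0 * g.1 1 1 - g.1 0 1 * g.1 1 0 = 1 := by
  have h := g.det_coe
  rwa [Matrix.det_fin_two] at h

/-- Step A: multiply by `γ ∈ Γ` to gain a factor `q` in the bottom row. -/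
lemma step_A (hNq : Nat.Coprime N q) (k : ℕ) (g : SL(2, ℚ)) (h0 : RowInt q (k + 1) g 0)
    (h1 : RowInt q (k + 1) g 1) :
    ∃ γ ∈ Gamma0 N, RowInt q (k + 1) (castQ γ * g) 0 ∧ RowInt q k (castQ γ * g) 1 := by
  have hq0 := q_ne_zero q
  obtain ⟨z00, e00⟩ := h0 0
  obtain ⟨z01, e01⟩ := h0 1
  obtain ⟨z10, e10⟩ := h1 0
  obtain ⟨z11, e11⟩ := h1 1
  have hdetQ : ((z00 * z11 - z01 * z10 : ℤ) : ℚ) = ((q : ℤ) ^ (2 * k + 1) * q : ℤ) := by
    push_cast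
    rw [← e00, ← e01, ← e10, ← e11]
    linear_combination ((q : ℚ) ^ (k + 1)) ^ 2 * sl2_det_eq g
  have hdet : (q : ℤ) ∣ z00 * z11 - z01 * z10 := by
    have : z00 * z11 - z01 * z10 = (q : ℤ) ^ (2 * k + 1) * q := by exact_mod_cast hdetQ
    rw [this]
    exact dvd_mul_left _ _
  obtain ⟨γ, hγ, ⟨w0, hw0⟩, ⟨w1, hw1⟩⟩ := rowKill_bot hNq z00 z01 z10 z11 hdet
  refine ⟨γ, hγ, ?_, ?_⟩
  · intro j
    fin_cases j
    · refine ⟨γ.1 0 0 * z00 + γ.1 0 1 * z10, ?_⟩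
      show (q : ℚ) ^ (k + 1) * (castQ γ * g).1 0 0 = _
      rw [sl2_mul_00, castQ_apply, castQ_apply]
      push_cast
      rw [← e00, ← e10]; ring
    · refine ⟨γ.1 0 0 * z01 + γ.1 0 1 * z11, ?_⟩
      show (q : ℚ) ^ (k + 1) * (castQ γ * g).1 0 1 = _
      rw [sl2_mul_01, castQ_apply, castQ_apply]
      push_cast
      rw [← e01, ← e11]; ring
  · intro j
    fin_cases j
    · refine ⟨w0, ?_⟩
      show (q : ℚ) ^ k * (castQ γ * g).1 1 0 = _
      rw [sl2_mul_10, castQ_apply, castQ_apply]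
      have hw0' : ((γ.1 1 0 : ℤ) : ℚ) * z00 + ((γ.1 1 1 : ℤ) : ℚ) * z10 = q * w0 := by
        exact_mod_cast hw0
      rw [← e00, ← e10] at hw0'
      apply mul_left_cancel₀ hq0
      rw [← hw0']; ring
    · refine ⟨w1, ?_⟩
      show (q : ℚ) ^ k * (castQ γ * g).1 1 1 = _
      rw [sl2_mul_11, castQ_apply, castQ_apply]
      have hw1' : ((γ.1 1 0 : ℤ) : ℚ) * z01 + ((γ.1 1 1 : ℤ) : ℚ) * z11 = q * w1 := by
        exact_mod_cast hw1
      rw [← e01, ← e11] at hw1'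
      apply mul_left_cancel₀ hq0
      rw [← hw1']; ring

/-- Step B: multiply by `γ' ∈ Γ'` to gain a factor `q` in the top row. -/
lemma step_B (hNq : Nat.Coprime N q) (k : ℕ) (g : SL(2, ℚ)) (h0 : RowInt q (k + 1) g 0)
    (h1 : RowInt q k g 1) :
    ∃ γ ∈ Gamma0 N, RowInt q k (twistMat q (q_ne_zero q) (castQ γ) * g) 0 ∧
      RowInt q k (twistMat q (q_ne_zero q) (castQ γ) * g) 1 := by
  have hq0 := q_ne_zero q
  obtain ⟨z00, e00⟩ := h0 0
  obtain ⟨z01, e01⟩ := h0 1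
  obtain ⟨z10, e10⟩ := h1 0
  obtain ⟨z11, e11⟩ := h1 1
  have hdetQ : ((z00 * z11 - z01 * z10 : ℤ) : ℚ) = ((q : ℤ) ^ (2 * k) * q : ℤ) := by
    push_cast
    rw [← e00, ← e01, ← e10, ← e11]
    linear_combination ((q : ℚ) ^ (k + 1) * (q : ℚ) ^ k) * sl2_det_eq g
  have hdet : (q : ℤ) ∣ z00 * z11 - z01 * z10 := by
    have : z00 * z11 - z01 * z10 = (q : ℤ) ^ (2 * k) * q := by exact_mod_cast hdetQ
    rw [this]
    exact dvd_mul_left _ _
  obtain ⟨γ, hγ, ⟨w0, hw0⟩, ⟨w1, hw1⟩⟩ := rowKill_top hNq z00 z01 z10 z11 hdet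
  refine ⟨γ, hγ, ?_, ?_⟩
  · intro j
    fin_cases j
    · refine ⟨w0, ?_⟩
      show (q : ℚ) ^ k * (twistMat q (q_ne_zero q) (castQ γ) * g).1 0 0 = _
      rw [sl2_mul_00, twistMat_00, twistMat_01, castQ_apply, castQ_apply]
      have hw0' : ((γ.1 0 0 : ℤ) : ℚ) * z00 + ((γ.1 0 1 : ℤ) : ℚ) * z10 = q * w0 := by
        exact_mod_cast hw0
      rw [← e00, ← e10] at hw0'
      apply mul_left_cancel₀ hq0
      rw [← hw0']; field_simp; ring
    · refine ⟨w1, ?_⟩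
      show (q : ℚ) ^ k * (twistMat q (q_ne_zero q) (castQ γ) * g).1 0 1 = _
      rw [sl2_mul_01, twistMat_00, twistMat_01, castQ_apply, castQ_apply]
      have hw1' : ((γ.1 0 0 : ℤ) : ℚ) * z01 + ((γ.1 0 1 : ℤ) : ℚ) * z11 = q * w1 := by
        exact_mod_cast hw1
      rw [← e01, ← e11] at hw1'
      apply mul_left_cancel₀ hq0
      rw [← hw1']; field_simp; ring
  · intro j
    fin_cases j
    · refine ⟨γ.1 1 0 * z00 + γ.1 1 1 * z10, ?_⟩
      show (q : ℚ) ^ k * (twistMat q (q_ne_zero q) (castQ γ) * g).1 1 0 = _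
      rw [sl2_mul_10, twistMat_10, twistMat_11, castQ_apply, castQ_apply]
      push_cast
      rw [← e00, ← e10]; ring
    · refine ⟨γ.1 1 0 * z01 + γ.1 1 1 * z11, ?_⟩
      show (q : ℚ) ^ k * (twistMat q (q_ne_zero q) (castQ γ) * g).1 1 1 = _
      rw [sl2_mul_11, twistMat_10, twistMat_11, castQ_apply, castQ_apply]
      push_cast
      rw [← e01, ← e11]; ring

variable (N) in
/-- The descent: every `g` with `q ^ k • g` integral can be made integral by an element of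
`Delta N q`. -/
lemma exists_Delta_mul_int (hNq : Nat.Coprime N q) :
    ∀ (k : ℕ) (g : SL(2, ℚ)), RowInt q k g 0 → RowInt q k g 1 →
      ∃ h ∈ Delta N q, RowInt q 0 (h * g) 0 ∧ RowInt q 0 (h * g) 1 := by
  intro k
  induction k with
  | zero =>
    intro g h0 h1
    exact ⟨1, one_mem _, by rwa [one_mul], by rwa [one_mul]⟩
  | succ k ih =>
    intro g h0 h1
    obtain ⟨γ, hγ, hA0, hA1⟩ := step_A hNq k g h0 h1
    obtain ⟨γ₂, hγ₂, hB0, hB1⟩ := step_B hNq k _ hA0 hA1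
    obtain ⟨h, hh, hC0, hC1⟩ := ih _ hB0 hB1
    refine ⟨h * (twistMat q (q_ne_zero q) (castQ γ₂) * castQ γ), ?_, ?_, ?_⟩
    · refine mul_mem hh (mul_mem ?_ ?_)
      · exact Subgroup.mem_sup_right ((mem_gammaQ'_iff N q).mpr ⟨γ₂, hγ₂, rfl⟩)
      · exact Subgroup.mem_sup_left ⟨γ, hγ, rfl⟩
    · rwa [mul_assoc, mul_assoc]
    · rwa [mul_assoc, mul_assoc]

omit hq in
/-- An integral element of the arithmetic group lies in `Γ`. -/
lemma mem_gammaQ_of_int (hNq : Nat.Coprime N q) {g : SL(2, ℚ)} (hg : g ∈ DeltaArith N q)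
    (h0 : RowInt q 0 g 0) (h1 : RowInt q 0 g 1) : g ∈ gammaQ N := by
  obtain ⟨z00, e00⟩ := h0 0
  obtain ⟨z01, e01⟩ := h0 1
  obtain ⟨z10, e10⟩ := h1 0
  obtain ⟨z11, e11⟩ := h1 1
  simp only [pow_zero, one_mul] at e00 e01 e10 e11
  have hdet : z00 * z11 - z01 * z10 = 1 := by
    have := sl2_det_eq g
    rw [e00, e01, e10, e11] at this
    exact_mod_cast this
  obtain ⟨_, y, ⟨k, w, hw⟩, hy⟩ := hg
  -- `N ∣ z10`
  have hN : (N : ℤ) ∣ z10 := by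
    have h2 : (z10 : ℚ) * (q : ℚ) ^ k = ((N : ℤ) * w : ℤ) := by
      push_cast
      rw [← e10, hy, ← hw]; ring
    have h3 : z10 * (q : ℤ) ^ k = (N : ℤ) * w := by exact_mod_cast h2
    have hcop : IsCoprime (N : ℤ) ((q : ℤ) ^ k) :=
      (Int.isCoprime_iff_gcd_eq_one.mpr (by exact_mod_cast hNq)).pow_right
    exact hcop.dvd_of_dvd_mul_right ⟨w, h3⟩
  refine ⟨⟨!![z00, z01; z10, z11], by rw [Matrix.det_fin_two_of]; exact hdet⟩,
    Gamma0_mem_iff_dvd.mpr hN, ?_⟩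
  apply sl2_ext <;> simp [castQ_mk, e00, e01, e10, e11]

omit hq in
lemma exists_rowInt_of_mem_DeltaArith {g : SL(2, ℚ)} (hg : g ∈ DeltaArith N q) :
    ∃ k, RowInt q k g 0 ∧ RowInt q k g 1 := by
  obtain ⟨hg, _⟩ := hg
  rw [forall_fin2] at hg
  obtain ⟨⟨k00, z00, e00⟩, ⟨k01, z01, e01⟩, ⟨k10, z10, e10⟩, ⟨k11, z11, e11⟩⟩ := hg
  refine ⟨k00 + k01 + k10 + k11, ?_, ?_⟩
  · intro j
    fin_cases j
    · refine ⟨z00 * q ^ (k01 + k10 + k11), ?_⟩
      show (q : ℚ) ^ (k00 + k01 + k10 + k11) * g.1 0 0 = _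
      push_cast; rw [← e00]; ring
    · refine ⟨z01 * q ^ (k00 + k10 + k11), ?_⟩
      show (q : ℚ) ^ (k00 + k01 + k10 + k11) * g.1 0 1 = _
      push_cast; rw [← e01]; ring
  · intro j
    fin_cases j
    · refine ⟨z10 * q ^ (k00 + k01 + k11), ?_⟩
      show (q : ℚ) ^ (k00 + k01 + k10 + k11) * g.1 1 0 = _
      push_cast; rw [← e10]; ring
    · refine ⟨z11 * q ^ (k00 + k01 + k10), ?_⟩
      show (q : ℚ) ^ (k00 + k01 + k10 + k11) * g.1 1 1 = _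
      push_cast; rw [← e11]; ring

/-- **Generation**: `⟨Γ₀(N), δ⁻¹ Γ₀(N) δ⟩` is the full `S`-arithmetic group `Γ₀(N)[1/q]`. -/
theorem Delta_eq_DeltaArith (hNq : Nat.Coprime N q) : Delta N q = DeltaArith N q := by
  apply le_antisymm (Delta_le_DeltaArith N q)
  intro g hg
  obtain ⟨k, h0, h1⟩ := exists_rowInt_of_mem_DeltaArith hg
  obtain ⟨h, hh, hi0, hi1⟩ := exists_Delta_mul_int N hNq k g h0 h1
  have hhg : h * g ∈ gammaQ N :=
    mem_gammaQ_of_int hNq (mul_mem (Delta_le_DeltaArith N q hh) hg) hi0 hi1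
  have : g = h⁻¹ * (h * g) := by group
  rw [this]
  exact mul_mem (inv_mem hh) (Subgroup.mem_sup_left hhg)

/-- Membership in `Γ₀(N)[1/q]`, spelled out. -/
theorem mem_Delta_iff (hNq : Nat.Coprime N q) {g : SL(2, ℚ)} :
    g ∈ Delta N q ↔ (∀ i j, g.1 i j ∈ Zq q) ∧ ∃ y ∈ Zq q, g.1 1 0 = N * y := by
  rw [Delta_eq_DeltaArith hNq]
  exact Iff.rfl

/-- `Γ₀(N)[1/q]` is normalised by `δ = diag(q, 1)`. -/
theorem twist_mem_Delta_iff (hNq : Nat.Coprime N q) {g : SL(2, ℚ)} :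
    twistMat q (q_ne_zero q) g ∈ Delta N q ↔ g ∈ Delta N q := by
  have hq0 := q_ne_zero q
  have hqm : (q : ℚ) ∈ Zq q := by exact_mod_cast intCast_mem_Zq q q
  rw [mem_Delta_iff hNq, mem_Delta_iff hNq, forall_fin2, forall_fin2]
  simp only [twistMat_00, twistMat_01, twistMat_10, twistMat_11]
  constructor
  · rintro ⟨⟨h00, h01, h10, h11⟩, y, hy, hc⟩
    refine ⟨⟨h00, ?_, ?_, h11⟩, y * (q : ℚ)⁻¹, mul_mem hy (q_inv_mem_Zq q), ?_⟩
    · have := mul_mem h01 hqm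
      rwa [div_mul_cancel₀ _ hq0] at this
    · have := mul_mem (q_inv_mem_Zq q) h10
      rwa [inv_mul_cancel_left₀ hq0] at this
    · field_simp
      linear_combination hc
  · rintro ⟨⟨h00, h01, h10, h11⟩, y, hy, hc⟩
    refine ⟨⟨h00, ?_, mul_mem hqm h10, h11⟩, q * y, mul_mem hqm hy, ?_⟩
    · rw [div_eq_mul_inv]
      exact mul_mem h01 (q_inv_mem_Zq q)
    · rw [hc]; ring

omit hq in
lemma map_Zq_apply (h : SL(2, ↥(Zq q))) (i j : Fin 2) :
    (Matrix.SpecialLinearGroup.map (Zq q).subtype h).1 i j = ((h.1 i j : ↥(Zq q)) : ℚ) := by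
  simp

/-- `SL(2, ℤ[1/q])` is generated by `SL(2, ℤ)` and its `diag(q, 1)`-conjugate: the image of
`SL(2, ℤ[1/q])` in `SL(2, ℚ)` is `Delta 1 q`. -/
theorem range_map_Zq_eq_Delta_one :
    (Matrix.SpecialLinearGroup.map (Zq q).subtype).range = Delta 1 q := by
  rw [Delta_eq_DeltaArith (Nat.coprime_one_left q)]
  ext g
  constructor
  · rintro ⟨h, rfl⟩
    refine ⟨fun i j => ?_, (Matrix.SpecialLinearGroup.map (Zq q).subtype h).1 1 0, ?_, by simp⟩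
    · rw [map_Zq_apply]; exact (h.1 i j).2
    · rw [map_Zq_apply]; exact (h.1 1 0).2
  · rintro ⟨hg, _⟩
    have hdet : (Matrix.of fun i j => (⟨g.1 i j, hg i j⟩ : ↥(Zq q))).det = 1 := by
      apply Subtype.ext
      have h := g.det_coe
      rw [Matrix.det_fin_two] at h ⊢
      simpa using h
    let h : SL(2, ↥(Zq q)) := ⟨Matrix.of fun i j => (⟨g.1 i j, hg i j⟩ : ↥(Zq q)), hdet⟩
    refine ⟨h, ?_⟩
    apply Matrix.SpecialLinearGroup.ext
    intro i j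
    rw [map_Zq_apply]
    rfl

end Fermat.Agent.S41.H58
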