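import Mathlib
import Fermat.Agent.S41.H58_Generation
import Fermat.Agent.S41.H2_CSPDefs

/-!
# S41 / D-GLUE (helper38): the consumed shape `csp_ab` of the congruence subgroup property
from centrality (Theorem I) and the finite-group Theorem T

`A = ℤ[1/q] = H58.Zq q ⊆ ℚ`, `toQ : SL(2, A) →* SL(2, ℚ)`, `intA : SL(2, ℤ) →* SL(2, A)`.
`elemNormal m` is the normal closure in `SL(2, A)` of the upper elementary matrices of level `m`.

* `kills_elemNormal` : a character `Φ : Γ₀(N)[1/q] →* Multiplicative (ZMod p)` kills (the image of)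
  `elemNormal (p * N)`.
* `isInv_of_centrality` : centrality `[SL(2, ℤ), Γ(m)] ⊆ E(m)` makes `Φ|Γ(m)` invariant under
  `SL(2, ℤ)`-conjugation.
* `csp_ab_of` : with Theorem I and Theorem T as hypotheses, `Φ` kills `Γ(p N)`.
-/

set_option autoImplicit false
set_option linter.unusedSectionVars false

open Matrix CongruenceSubgroup
open scoped MatrixGroups

namespace Fermat.Agent.S41.H38

open Fermat.Agent.S41

section Elementary

variable {R : Type*} [CommRing R]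

/-- The upper elementary matrix `[[1, t], [0, 1]]`. -/
def x12 (t : R) : SL(2, R) := ⟨!![1, t; 0, 1], by simp [Matrix.det_fin_two_of]⟩

@[simp] lemma x12_00 (t : R) : (x12 t).1 0 0 = 1 := rfl
@[simp] lemma x12_01 (t : R) : (x12 t).1 0 1 = t := rfl
@[simp] lemma x12_10 (t : R) : (x12 t).1 1 0 = 0 := rfl
@[simp] lemma x12_11 (t : R) : (x12 t).1 1 1 = 1 := rfl

lemma x12_zero : x12 (0 : R) = 1 := by
  apply Subtype.ext
  ext i j
  fin_cases i <;> fin_cases j <;> simp [x12]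

lemma x12_add (s t : R) : x12 (s + t) = x12 s * x12 t := by
  apply Matrix.SpecialLinearGroup.ext
  intro i j
  rw [Matrix.SpecialLinearGroup.coe_mul, Matrix.mul_apply, Fin.sum_univ_two]
  fin_cases i <;> fin_cases j <;> simp [add_comm]

lemma x12_nsmul (n : ℕ) (t : R) : x12 (n • t) = x12 t ^ n := by
  induction n with
  | zero => simp [x12_zero]
  | succ n ih => rw [succ_nsmul, x12_add, ih, pow_succ]

/-- Lower-left entry of a conjugate of an upper elementary matrix. -/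
lemma conj_x12_10 (γ : SL(2, R)) (s : R) :
    (γ * x12 s * γ⁻¹).1 1 0 = -(s * γ.1 1 0 ^ 2) := by
  simp only [Matrix.SpecialLinearGroup.coe_mul, Matrix.SpecialLinearGroup.coe_inv,
    Matrix.adjugate_fin_two, Matrix.mul_apply, Fin.sum_univ_two, x12_00, x12_01, x12_10, x12_11,
    Matrix.of_apply, Matrix.cons_val', Matrix.cons_val_zero, Matrix.cons_val_one,
    Matrix.empty_val', Matrix.cons_val_fin_one]
  ring

/-- `E(m)`: the normal closure of the level-`m` upper elementary matrices. -/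
def elemNormal (m : R) : Subgroup SL(2, R) :=
  Subgroup.normalClosure {x | ∃ t : R, x = x12 (m * t)}

instance (m : R) : (elemNormal m).Normal := Subgroup.normalClosure_normal

end Elementary

section Glue

variable {N q p : ℕ} [hq : Fact q.Prime] [hp : Fact p.Prime]

/-- `SL(2, ℤ[1/q]) → SL(2, ℚ)`. -/
def toQ (q : ℕ) : SL(2, ↥(H58.Zq q)) →* SL(2, ℚ) :=
  Matrix.SpecialLinearGroup.map (H58.Zq q).subtype

/-- `SL(2, ℤ) → SL(2, ℤ[1/q])`. -/
def intA (q : ℕ) : SL(2, ℤ) →* SL(2, ↥(H58.Zq q)) :=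
  Matrix.SpecialLinearGroup.map (Int.castRingHom ↥(H58.Zq q))

lemma toQ_apply (h : SL(2, ↥(H58.Zq q))) (i j : Fin 2) :
    (toQ q h).1 i j = ((h.1 i j : ↥(H58.Zq q)) : ℚ) := H58.map_Zq_apply h i j

lemma toQ_intA (γ : SL(2, ℤ)) : toQ q (intA q γ) = H58.castQ γ := by
  apply Subtype.ext
  ext i j
  rw [toQ_apply]
  simp [intA, H58.castQ]

/-- Conjugates of level-`N` elementary matrices lie in `Γ₀(N)[1/q]`. -/
lemma conj_x12_mem_Delta (hNq : Nat.Coprime N q) (γ : SL(2, ↥(H58.Zq q))) (t : ↥(H58.Zq q)) :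
    toQ q (γ * x12 ((N : ↥(H58.Zq q)) * t) * γ⁻¹) ∈ H58.Delta N q := by
  rw [H58.mem_Delta_iff hNq]
  refine ⟨fun i j => ?_, ((-(t * γ.1 1 0 ^ 2) : ↥(H58.Zq q)) : ℚ), Subtype.property _, ?_⟩
  · rw [toQ_apply]
    exact Subtype.property _
  · rw [toQ_apply, conj_x12_10]
    push_cast
    ring

/-- The subgroup of `SL(2, ℤ[1/q])` of elements lying in `Γ₀(N)[1/q]` and killed by `Φ`. -/
def killed (Φ : ↥(H58.Delta N q) →* Multiplicative (ZMod p)) : Subgroup SL(2, ↥(H58.Zq q)) :=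
  (Φ.ker.map (H58.Delta N q).subtype).comap (toQ q)

lemma mem_killed_iff (Φ : ↥(H58.Delta N q) →* Multiplicative (ZMod p))
    (g : SL(2, ↥(H58.Zq q))) :
    g ∈ killed Φ ↔ ∃ h : toQ q g ∈ H58.Delta N q, Φ ⟨toQ q g, h⟩ = 1 := by
  unfold killed
  rw [Subgroup.mem_comap, Subgroup.mem_map]
  constructor
  · rintro ⟨x, hx, hxg⟩
    have hmem : toQ q g ∈ H58.Delta N q := by rw [← hxg]; exact x.2
    refine ⟨hmem, ?_⟩
    have : x = ⟨toQ q g, hmem⟩ := Subtype.ext hxg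
    rw [← this]
    exact hx
  · rintro ⟨h, hΦ⟩
    exact ⟨⟨toQ q g, h⟩, hΦ, rfl⟩

lemma pow_p_eq_one (x : Multiplicative (ZMod p)) : x ^ p = 1 := by
  have : (p : ℕ) • (Multiplicative.toAdd x) = 0 := by
    rw [nsmul_eq_mul]
    simp
  calc x ^ p = Multiplicative.ofAdd (p • Multiplicative.toAdd x) := by
        rw [ofAdd_nsmul]; rfl
    _ = 1 := by rw [this]; rfl

/-- `Φ` kills all conjugates of level-`pN` elementary matrices. -/
lemma conj_x12_mem_killed (hNq : Nat.Coprime N q)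
    (Φ : ↥(H58.Delta N q) →* Multiplicative (ZMod p))
    (γ : SL(2, ↥(H58.Zq q))) (t : ↥(H58.Zq q)) :
    γ * x12 (((p * N : ℕ) : ↥(H58.Zq q)) * t) * γ⁻¹ ∈ killed Φ := by
  rw [mem_killed_iff]
  have hpow : γ * x12 (((p * N : ℕ) : ↥(H58.Zq q)) * t) * γ⁻¹
      = (γ * x12 ((N : ↥(H58.Zq q)) * t) * γ⁻¹) ^ p := by
    rw [conj_pow, ← x12_nsmul]
    congr 3
    rw [nsmul_eq_mul]
    push_cast
    ring
  have hmem := conj_x12_mem_Delta hNq γ t
  have hmem' : toQ q (γ * x12 (((p * N : ℕ) : ↥(H58.Zq q)) * t) * γ⁻¹) ∈ H58.Delta N q := by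
    rw [hpow, map_pow]
    exact pow_mem hmem p
  refine ⟨hmem', ?_⟩
  have : (⟨toQ q (γ * x12 (((p * N : ℕ) : ↥(H58.Zq q)) * t) * γ⁻¹), hmem'⟩ : ↥(H58.Delta N q))
      = ⟨toQ q (γ * x12 ((N : ↥(H58.Zq q)) * t) * γ⁻¹), hmem⟩ ^ p := by
    apply Subtype.ext
    rw [Subgroup.coe_pow]
    show toQ q _ = (toQ q _) ^ p
    rw [hpow, map_pow]
  rw [this, map_pow, pow_p_eq_one]

/-- **(G1)** `Φ` kills the normal closure `E(pN)` of the level-`pN` elementary matrices. -/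
theorem elemNormal_le_killed (hNq : Nat.Coprime N q)
    (Φ : ↥(H58.Delta N q) →* Multiplicative (ZMod p)) :
    elemNormal (((p * N : ℕ) : ↥(H58.Zq q))) ≤ killed Φ := by
  unfold elemNormal Subgroup.normalClosure
  rw [Subgroup.closure_le]
  intro x hx
  rw [Group.mem_conjugatesOfSet_iff] at hx
  obtain ⟨a, ⟨t, rfl⟩, hconj⟩ := hx
  rw [isConj_iff] at hconj
  obtain ⟨c, rfl⟩ := hconj
  exact conj_x12_mem_killed hNq Φ c t

/-! ## (G2)-(G4): restriction to `Γ(m)`, invariance, conclusion -/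

lemma Gamma_le_Gamma0_of_dvd {m : ℕ} (hNm : N ∣ m) : Gamma m ≤ Gamma0 N := by
  intro γ hγ
  rw [Gamma_mem] at hγ
  have h10 : ((γ.1 1 0 : ℤ) : ZMod m) = 0 := hγ.2.2.1
  rw [ZMod.intCast_zmod_eq_zero_iff_dvd] at h10
  rw [H58.Gamma0_mem_iff_dvd]
  exact dvd_trans (Int.natCast_dvd_natCast.mpr hNm) h10

/-- The restriction of `Φ` to `Γ(m)` (for `N ∣ m`). -/
def resGamma {m : ℕ} (hNm : N ∣ m) (Φ : ↥(H58.Delta N q) →* Multiplicative (ZMod p)) :
    ↥(Gamma m) →* Multiplicative (ZMod p) :=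
  Φ.comp ((H58.iota N q).comp (Subgroup.inclusion (Gamma_le_Gamma0_of_dvd hNm)))

lemma resGamma_apply {m : ℕ} (hNm : N ∣ m) (Φ : ↥(H58.Delta N q) →* Multiplicative (ZMod p))
    (g : ↥(Gamma m)) (h : H58.castQ (g : SL(2, ℤ)) ∈ H58.Delta N q) :
    resGamma hNm Φ g = Φ ⟨H58.castQ (g : SL(2, ℤ)), h⟩ := rfl

/-- **(G3)** If `Φ` kills a subgroup `E` of `SL(2, ℤ[1/q])` containing all commutators
`[s, g]`, `s ∈ SL(2, ℤ)`, `g ∈ Γ(m)` (centrality), then `Φ|Γ(m)` is `SL(2, ℤ)`-invariant. -/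
theorem resGamma_conj {m : ℕ} (hNm : N ∣ m) (Φ : ↥(H58.Delta N q) →* Multiplicative (ZMod p))
    (E : Subgroup SL(2, ↥(H58.Zq q))) (hE : E ≤ killed Φ)
    (hI : ∀ s g : SL(2, ℤ), g ∈ Gamma m → intA q (s * g * s⁻¹ * g⁻¹) ∈ E)
    (s : SL(2, ℤ)) (g : ↥(Gamma m)) (h : s * (g : SL(2, ℤ)) * s⁻¹ ∈ Gamma m) :
    resGamma hNm Φ ⟨s * (g : SL(2, ℤ)) * s⁻¹, h⟩ = resGamma hNm Φ g := by
  have hc : s * (g : SL(2, ℤ)) * s⁻¹ * (g : SL(2, ℤ))⁻¹ ∈ Gamma m :=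
    mul_mem h (inv_mem g.2)
  have hk := hE (hI s g g.2)
  rw [mem_killed_iff, toQ_intA] at hk
  obtain ⟨hmem, hΦ⟩ := hk
  have hk' : resGamma hNm Φ ⟨_, hc⟩ = 1 := hΦ
  have hmul : (⟨s * (g : SL(2, ℤ)) * s⁻¹, h⟩ : ↥(Gamma m))
      = ⟨s * (g : SL(2, ℤ)) * s⁻¹ * (g : SL(2, ℤ))⁻¹, hc⟩ * g := by
    apply Subtype.ext
    simp
  rw [hmul, map_mul, hk', one_mul]

/-- **D-GLUE, abstract form**: Theorem I (centrality, `hI`) and Theorem T (`hT`) as hypotheses. -/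
theorem csp_ab_of (hNq : Nat.Coprime N q)
    (Φ : ↥(H58.Delta N q) →* Multiplicative (ZMod p))
    (hI : ∀ s g : SL(2, ℤ), g ∈ Gamma (p * N) →
      intA q (s * g * s⁻¹ * g⁻¹) ∈ elemNormal (((p * N : ℕ) : ↥(H58.Zq q))))
    (hT : ∀ φ : ↥(Gamma (p * N)) →* Multiplicative (ZMod p),
      (∀ (s : SL(2, ℤ)) (g : ↥(Gamma (p * N))) (h : s * (g : SL(2, ℤ)) * s⁻¹ ∈ Gamma (p * N)),
        φ ⟨s * (g : SL(2, ℤ)) * s⁻¹, h⟩ = φ g) → φ = 1)
    (γ : SL(2, ℤ)) (hγ : γ ∈ Gamma (p * N)) (hγ' : H58.castQ γ ∈ H58.Delta N q) :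
    Φ ⟨H58.castQ γ, hγ'⟩ = 1 := by
  have hNm : N ∣ p * N := Dvd.intro_left p rfl
  have h1 : resGamma hNm Φ = 1 :=
    hT (resGamma hNm Φ)
      (resGamma_conj hNm Φ _ (elemNormal_le_killed hNq Φ) hI)
  have := congrArg (fun f : ↥(Gamma (p * N)) →* Multiplicative (ZMod p) => f ⟨γ, hγ⟩) h1
  exact this

/-- `SL(2, ℤ)`-invariance in helper2's vocabulary (`H2.IsInvChar`). -/
theorem isInvChar_resGamma {m : ℕ} (hNm : N ∣ m) (Φ : ↥(H58.Delta N q) →* Multiplicative (ZMod p))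
    (E : Subgroup SL(2, ↥(H58.Zq q))) (hE : E ≤ killed Φ)
    (hI : ∀ s g : SL(2, ℤ), g ∈ Gamma m → intA q (s * g * s⁻¹ * g⁻¹) ∈ E) :
    H2.IsInvChar m p (resGamma hNm Φ) := by
  intro s g
  exact resGamma_conj hNm Φ E hE hI s g _

/-- **D-GLUE** with Theorem I as a hypothesis and Theorem T in helper2's form `H2.TheoremT p`. -/
theorem csp_ab_of_theoremT (hN : 0 < N) (hNq : Nat.Coprime N q)
    (Φ : ↥(H58.Delta N q) →* Multiplicative (ZMod p))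
    (hI : ∀ s g : SL(2, ℤ), g ∈ Gamma (p * N) →
      intA q (s * g * s⁻¹ * g⁻¹) ∈ elemNormal (((p * N : ℕ) : ↥(H58.Zq q))))
    (hT : H2.TheoremT p)
    (γ : SL(2, ℤ)) (hγ : γ ∈ Gamma (p * N)) (hγ' : H58.castQ γ ∈ H58.Delta N q) :
    Φ ⟨H58.castQ γ, hγ'⟩ = 1 := by
  have hNm : N ∣ p * N := Dvd.intro_left p rfl
  have hpos : 0 < p * N := Nat.mul_pos hp.out.pos hN
  have h1 : resGamma hNm Φ = 1 :=
    hT (p * N) (Dvd.intro _ rfl) hpos (resGamma hNm Φ)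
      (isInvChar_resGamma hNm Φ _ (elemNormal_le_killed hNq Φ) hI)
  have := congrArg (fun f : ↥(Gamma (p * N)) →* Multiplicative (ZMod p) => f ⟨γ, hγ⟩) h1
  exact this

/-- The same in the `∃ M` shape consumed by the Ihara assembly. -/
theorem csp_ab_exists_of_theoremT (hN : 0 < N) (hNq : Nat.Coprime N q)
    (Φ : ↥(H58.Delta N q) →* Multiplicative (ZMod p))
    (hI : ∀ s g : SL(2, ℤ), g ∈ Gamma (p * N) →
      intA q (s * g * s⁻¹ * g⁻¹) ∈ elemNormal (((p * N : ℕ) : ↥(H58.Zq q))))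
    (hT : H2.TheoremT p) :
    ∃ M : ℕ, 0 < M ∧ ∀ γ : SL(2, ℤ), γ ∈ Gamma M →
      ∀ hγ' : H58.castQ γ ∈ H58.Delta N q, Φ ⟨H58.castQ γ, hγ'⟩ = 1 :=
  ⟨p * N, Nat.mul_pos hp.out.pos hN, fun γ hγ hγ' => csp_ab_of_theoremT hN hNq Φ hI hT γ hγ hγ'⟩

end Glue

end Fermat.Agent.S41.H38
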