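import Fermat.Agent.S41.H2_CSPCentral
import Fermat.Agent.S41.H38_CSPGlue

/-!
# Package D: Theorem I in the vocabulary of helper38's `H38_CSPGlue` (helper2)

`hI_H38` discharges the hypothesis `hI` of `H38.csp_ab_of_theoremT`; `csp_ab_of_theoremT'` is then
the congruence subgroup property in the consumed shape, conditional only on `H2.TheoremT p`.
-/

set_option autoImplicit false

open Matrix CongruenceSubgroup
open scoped MatrixGroups

namespace Fermat.Agent.S41.H2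

lemma Elev_eq_elemNormal {R : Type*} [CommRing R] (m : ℕ) :
    Elev R m = H38.elemNormal ((m : ℕ) : R) := by
  unfold Elev H38.elemNormal
  congr 1
  ext x
  constructor
  · rintro ⟨t, rfl⟩; exact ⟨t, rfl⟩
  · rintro ⟨t, rfl⟩; exact ⟨t, rfl⟩

lemma isUnit_q_Zq (q : ℕ) [hqp : Fact q.Prime] (hq : q ≠ 0) : IsUnit ((q : ℕ) : ↥(H58.Zq q)) := by
  refine ⟨⟨(q : ↥(H58.Zq q)), ⟨((q : ℚ))⁻¹, H58.q_inv_mem_Zq q⟩, ?_, ?_⟩, rfl⟩
  · apply Subtype.ext
    have : (q : ℚ) ≠ 0 := by exact_mod_cast hq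
    simp [this]
  · apply Subtype.ext
    have : (q : ℚ) ≠ 0 := by exact_mod_cast hq
    simp [this]

/-- **Theorem I** in helper38's shape. -/
theorem hI_H38 (q m : ℕ) [hqp : Fact q.Prime] (hq2 : 2 ≤ q) (hm : 0 < m) (hqm : q.Coprime m) :
    ∀ s g : SL(2, ℤ), g ∈ Gamma m →
      H38.intA q (s * g * s⁻¹ * g⁻¹) ∈ H38.elemNormal (((m : ℕ) : ↥(H58.Zq q))) := by
  intro s g hg
  have h := comm_mem_Elev (A := ↥(H58.Zq q)) q m hq2 hm hqm (isUnit_q_Zq q (by omega)) s g hg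
  rw [Elev_eq_elemNormal] at h
  have e : H38.intA q (s * g * s⁻¹ * g⁻¹)
      = intMap ↥(H58.Zq q) s * intMap ↥(H58.Zq q) g * (intMap ↥(H58.Zq q) s)⁻¹
        * (intMap ↥(H58.Zq q) g)⁻¹ := by
    simp only [map_mul, map_inv]
    rfl
  rw [e]
  exact h

/-- **CSP in the consumed shape**, conditional only on Theorem T. -/
theorem csp_ab_of_theoremT' {N q p : ℕ} [hq : Fact q.Prime] [hp : Fact p.Prime]
    (hN : 0 < N) (hNq : Nat.Coprime N q) (hqp : q ≠ p)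
    (Φ : ↥(H58.Delta N q) →* Multiplicative (ZMod p)) (hT : TheoremT p)
    (γ : SL(2, ℤ)) (hγ : γ ∈ Gamma (p * N)) (hγ' : H58.castQ γ ∈ H58.Delta N q) :
    Φ ⟨H58.castQ γ, hγ'⟩ = 1 := by
  have hqm : q.Coprime (p * N) :=
    Nat.Coprime.mul_right ((Nat.coprime_primes hq.out hp.out).mpr hqp) hNq.symm
  exact H38.csp_ab_of_theoremT hN hNq Φ
    (hI_H38 q (p * N) hq.out.two_le (Nat.mul_pos hp.out.pos hN) hqm) hT γ hγ hγ'

end Fermat.Agent.S41.H2
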