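import Mathlib

/-!
# S41 / package D-GEN (helper66): generation of `Γ(m₁)` modulo `Γ(l m₁)`

For a prime `l` and any `m₁` (`x12 t = [[1,t],[0,1]] = T ^ t`, `x21 t = [[1,0],[t,1]]`):

* `gamma_le_of_unipotents`, `gamma_le_of_normal` : a normal subgroup `H` of `SL(2,ℤ)` containing
  `Γ(l m₁)` and `T ^ m₁` contains `Γ(m₁)`;
* `gamma_le_sup_normalClosure` : `Γ(m₁) ≤ Γ(l m₁) ⊔ normalClosure {T ^ m₁}`;
  `exists_mul_of_mem_gamma` : elementwise form;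
* `gamma_inf_gamma` : `Γ(m₁) ⊓ Γ(l) = Γ(l m₁)` if `l`, `m₁` are coprime; `redGamma`, `ker_redGamma` :
  `Γ(m₁)/Γ(l m₁)` embeds into `SL(2, ZMod l)`;
* `pow_mem_gamma_of_dvd`, `commutator_mem_gamma_of_dvd` : if `l ∣ m₁` then `Γ(m₁)/Γ(l m₁)` is
  abelian of exponent `l`.
-/

set_option autoImplicit false

open Matrix CongruenceSubgroup
open scoped MatrixGroups ModularGroup

namespace Fermat.Agent.S41.H66

/-- the upper unipotent matrix `[[1, t], [0, 1]]` -/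
def x12 (t : ℤ) : SL(2, ℤ) := ⟨!![1, t; 0, 1], by simp [Matrix.det_fin_two_of]⟩

/-- the lower unipotent matrix `[[1, 0], [t, 1]]` -/
def x21 (t : ℤ) : SL(2, ℤ) := ⟨!![1, 0; t, 1], by simp [Matrix.det_fin_two_of]⟩

@[simp] theorem coe_x12 (t : ℤ) : (x12 t : Matrix (Fin 2) (Fin 2) ℤ) = !![1, t; 0, 1] := rfl
@[simp] theorem coe_x21 (t : ℤ) : (x21 t : Matrix (Fin 2) (Fin 2) ℤ) = !![1, 0; t, 1] := rfl

theorem x12_eq_T_zpow (t : ℤ) : x12 t = ModularGroup.T ^ t := by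
  apply Subtype.ext
  rw [ModularGroup.coe_T_zpow]
  rfl

theorem x12_add (s t : ℤ) : x12 (s + t) = x12 s * x12 t := by
  rw [x12_eq_T_zpow, x12_eq_T_zpow, x12_eq_T_zpow, _root_.zpow_add]

theorem x21_eq_conj (t : ℤ) : x21 t = ModularGroup.S * x12 (-t) * ModularGroup.S⁻¹ := by
  ext i j
  fin_cases i <;> fin_cases j <;>
    simp [ModularGroup.coe_S, Matrix.mul_apply, Fin.sum_univ_two, Matrix.adjugate_fin_two]

theorem x21_add (s t : ℤ) : x21 (s + t) = x21 s * x21 t := by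
  rw [x21_eq_conj, x21_eq_conj, x21_eq_conj, neg_add, x12_add]
  group



theorem x12_zero : x12 0 = 1 := by
  ext i j; fin_cases i <;> fin_cases j <;> simp

theorem x21_zero : x21 0 = 1 := by
  ext i j; fin_cases i <;> fin_cases j <;> simp

theorem x12_neg (t : ℤ) : x12 (-t) = (x12 t)⁻¹ := by
  rw [eq_inv_iff_mul_eq_one, ← x12_add, neg_add_cancel, x12_zero]

theorem x21_neg (t : ℤ) : x21 (-t) = (x21 t)⁻¹ := by
  rw [eq_inv_iff_mul_eq_one, ← x21_add, neg_add_cancel, x21_zero]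

section Main

variable {m1 : ℕ} (H : Subgroup SL(2, ℤ)) [hH : H.Normal]

theorem mk_eq_one_iff {x : SL(2, ℤ)} : QuotientGroup.mk' H x = 1 ↔ x ∈ H := by
  rw [← MonoidHom.mem_ker, QuotientGroup.ker_mk']

theorem mk_x12_eq (hT : ∀ t : ℤ, x12 (m1 * t) ∈ H) {s s' : ℤ} (h : (m1 : ℤ) ∣ s - s') :
    (QuotientGroup.mk' H) (x12 s) = QuotientGroup.mk' H (x12 s') := by
  obtain ⟨t, ht⟩ := h
  have : s = s' + m1 * t := by linarith
  rw [this, x12_add, map_mul, (mk_eq_one_iff H).mpr (hT t), mul_one]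

theorem mk_x21_eq (hT : ∀ t : ℤ, x21 (m1 * t) ∈ H) {s s' : ℤ} (h : (m1 : ℤ) ∣ s - s') :
    (QuotientGroup.mk' H) (x21 s) = QuotientGroup.mk' H (x21 s') := by
  obtain ⟨t, ht⟩ := h
  have : s = s' + m1 * t := by linarith
  rw [this, x21_add, map_mul, (mk_eq_one_iff H).mpr (hT t), mul_one]

/-- the explicit matrix `x12 a * x21 (-d) * x12 a * (x12 (-1) * x21 1 * x12 (-1))` -/
theorem coe_diagWord (a d : ℤ) :
    ((x12 a * x21 (-d) * x12 a * (x12 (-1) * x21 1 * x12 (-1)) : SL(2, ℤ)) :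
      Matrix (Fin 2) (Fin 2) ℤ) = !![a * (2 - a * d), -(1 - a * d); 1 - a * d, d] := by
  ext i j
  fin_cases i <;> fin_cases j <;>
    simp [Matrix.mul_apply, Fin.sum_univ_two] <;> ring

/-- **diagonal case**: an element of `Γ(m₁)` which is diagonal mod `M` lies in `H`. -/
theorem mem_of_diag_mod {M : ℕ} (hΓ : Gamma M ≤ H) (hT12 : ∀ t : ℤ, x12 (m1 * t) ∈ H)
    (hT21 : ∀ t : ℤ, x21 (m1 * t) ∈ H) {g : SL(2, ℤ)} (hg : g ∈ Gamma m1)
    (h01 : ((g 0 1 : ℤ) : ZMod M) = 0) (h10 : ((g 1 0 : ℤ) : ZMod M) = 0) : g ∈ H := by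
  rw [Gamma_mem] at hg
  obtain ⟨ha, -, -, hd⟩ := hg
  set a : ℤ := g 0 0 with ha'
  set d : ℤ := g 1 1 with hd'
  set h : SL(2, ℤ) := x12 a * x21 (-d) * x12 a * (x12 (-1) * x21 1 * x12 (-1)) with hh
  -- `h ∈ H`
  have hhH : h ∈ H := by
    rw [← mk_eq_one_iff, hh]
    have h1 : (QuotientGroup.mk' H) (x12 a) = QuotientGroup.mk' H (x12 1) :=
      mk_x12_eq H hT12 ((ZMod.intCast_eq_intCast_iff_dvd_sub 1 a m1).mp (by
        rw [ha]; simp))
    have h2 : (QuotientGroup.mk' H) (x21 (-d)) = QuotientGroup.mk' H (x21 (-1)) :=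
      mk_x21_eq H hT21 ((ZMod.intCast_eq_intCast_iff_dvd_sub (-1) (-d) m1).mp (by
        push_cast; rw [hd]))
    have e1 : (QuotientGroup.mk' H) (x12 (-1)) = ((QuotientGroup.mk' H) (x12 1))⁻¹ := by
      rw [x12_neg, map_inv]
    have e2 : (QuotientGroup.mk' H) (x21 (-1)) = ((QuotientGroup.mk' H) (x21 1))⁻¹ := by
      rw [x21_neg, map_inv]
    simp only [map_mul, h1, h2, e1, e2]
    group
  -- `g * h⁻¹ ∈ Γ(M)`
  have hdet : a * d - g 0 1 * g 1 0 = 1 := by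
    have := g.det_coe
    rw [Matrix.det_fin_two] at this
    exact this
  have had : ((a : ℤ) : ZMod M) * ((d : ℤ) : ZMod M) = 1 := by
    have := congrArg (Int.cast : ℤ → ZMod M) hdet
    push_cast at this
    rw [h01, zero_mul, sub_zero] at this
    exact this
  have hgh : g * h⁻¹ ∈ Gamma M := by
    rw [Gamma_mem', map_mul, map_inv, mul_inv_eq_one]
    ext i j
    rw [SL_reduction_mod_hom_val, SL_reduction_mod_hom_val, hh, coe_diagWord]
    fin_cases i <;> fin_cases j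
    · show ((g 0 0 : ℤ) : ZMod M) = ((a * (2 - a * d) : ℤ) : ZMod M)
      push_cast
      rw [had]
      ring
    · show ((g 0 1 : ℤ) : ZMod M) = ((-(1 - a * d) : ℤ) : ZMod M)
      push_cast
      rw [had, h01]
      ring
    · show ((g 1 0 : ℤ) : ZMod M) = ((1 - a * d : ℤ) : ZMod M)
      push_cast
      rw [had, h10]
      ring
    · rfl
  have := H.mul_mem (hΓ hgh) hhH
  rwa [inv_mul_cancel_right] at this

end Main



theorem mul_x21_apply (g : SL(2, ℤ)) (t : ℤ) :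
    (g * x21 t) 0 0 = g 0 0 + g 0 1 * t ∧ (g * x21 t) 0 1 = g 0 1 ∧
      (g * x21 t) 1 0 = g 1 0 + g 1 1 * t ∧ (g * x21 t) 1 1 = g 1 1 := by
  simp [Matrix.mul_apply, Fin.sum_univ_two]

theorem mul_x12_apply (g : SL(2, ℤ)) (t : ℤ) :
    (g * x12 t) 0 0 = g 0 0 ∧ (g * x12 t) 0 1 = g 0 0 * t + g 0 1 ∧
      (g * x12 t) 1 0 = g 1 0 ∧ (g * x12 t) 1 1 = g 1 0 * t + g 1 1 := by
  simp [Matrix.mul_apply, Fin.sum_univ_two]

theorem x21_mul_apply (g : SL(2, ℤ)) (t : ℤ) :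
    (x21 t * g) 0 0 = g 0 0 ∧ (x21 t * g) 0 1 = g 0 1 ∧
      (x21 t * g) 1 0 = t * g 0 0 + g 1 0 ∧ (x21 t * g) 1 1 = t * g 0 1 + g 1 1 := by
  simp [Matrix.mul_apply, Fin.sum_univ_two]

theorem x12_mem_Gamma (m1 : ℕ) (t : ℤ) : x12 (m1 * t) ∈ Gamma m1 := by
  rw [Gamma_mem]
  simp

theorem x21_mem_Gamma (m1 : ℕ) (t : ℤ) : x21 (m1 * t) ∈ Gamma m1 := by
  rw [Gamma_mem]
  simp

theorem exists_dvd_add_mul {l : ℕ} (hl : l.Prime) {x : ℤ} (hx : ¬ (l : ℤ) ∣ x) (y : ℤ) :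
    ∃ v : ℤ, (l : ℤ) ∣ y + x * v := by
  have hp : Prime (l : ℤ) := Nat.prime_iff_prime_int.mp hl
  have hcop : IsCoprime (l : ℤ) x := (hp.irreducible.coprime_iff_not_dvd).mpr hx
  obtain ⟨s, t, hst⟩ := hcop
  refine ⟨-y * t, ⟨y * s, ?_⟩⟩
  have : y = y * (s * l + t * x) := by rw [hst, mul_one]
  linear_combination this



section Main

variable {l m1 : ℕ} (H : Subgroup SL(2, ℤ)) [hH : H.Normal]

/-- **D-GEN (i)**: a normal subgroup containing `Γ(l m₁)` and the unipotents of level `m₁`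
contains `Γ(m₁)`. -/
theorem gamma_le_of_unipotents (hl : l.Prime) (hΓ : Gamma (l * m1) ≤ H)
    (hT12 : ∀ t : ℤ, x12 (m1 * t) ∈ H) (hT21 : ∀ t : ℤ, x21 (m1 * t) ∈ H) :
    Gamma m1 ≤ H := by
  intro g hg
  have hg' := hg
  rw [Gamma_mem] at hg'
  obtain ⟨ha, hb, hc, hd⟩ := hg'
  have hdet : g 0 0 * g 1 1 - g 0 1 * g 1 0 = 1 := by
    have := g.det_coe
    rw [Matrix.det_fin_two] at this
    exact this
  have hm1a : (m1 : ℤ) ∣ g 0 0 - 1 :=
    (ZMod.intCast_eq_intCast_iff_dvd_sub 1 (g 0 0) m1).mp (by rw [ha]; simp)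
  have hm1b : (m1 : ℤ) ∣ g 0 1 := (ZMod.intCast_zmod_eq_zero_iff_dvd _ _).mp hb
  have hm1c : (m1 : ℤ) ∣ g 1 0 := (ZMod.intCast_zmod_eq_zero_iff_dvd _ _).mp hc
  -- Step 1: make the upper left entry prime to `l`
  obtain ⟨u, hu⟩ : ∃ u : ℤ, ¬ (l : ℤ) ∣ g 0 0 + g 0 1 * (m1 * u) := by
    by_cases hla : (l : ℤ) ∣ g 0 0
    · refine ⟨1, fun h => ?_⟩
      have h1 : (l : ℤ) ∣ g 0 1 * (m1 * 1) := (dvd_add_right hla).mp h
      have hp : Prime (l : ℤ) := Nat.prime_iff_prime_int.mp hl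
      rw [mul_one] at h1
      rcases hp.dvd_or_dvd h1 with h2 | h2
      · -- `l ∣ a` and `l ∣ b` contradict `det = 1`
        have : (l : ℤ) ∣ 1 := by
          rw [← hdet]
          exact dvd_sub (hla.mul_right _) (h2.mul_right _)
        exact hp.not_dvd_one this
      · -- `l ∣ m₁ ∣ a - 1` and `l ∣ a`
        have h3 : (l : ℤ) ∣ g 0 0 - 1 := h2.trans hm1a
        have : (l : ℤ) ∣ 1 := by
          have := dvd_sub hla h3
          simpa using this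
        exact hp.not_dvd_one this
    · exact ⟨0, by simpa using hla⟩
  set g1 : SL(2, ℤ) := g * x21 (m1 * u) with hg1
  obtain ⟨e00, e01, e10, e11⟩ := mul_x21_apply g (m1 * u)
  rw [← hg1] at e00 e01 e10 e11
  have hu' : ¬ (l : ℤ) ∣ g1 0 0 := by rw [e00]; exact hu
  -- Step 2: kill the upper right entry mod `l m₁`
  obtain ⟨b1, hb1⟩ := hm1b
  obtain ⟨v, hv⟩ := exists_dvd_add_mul hl hu' b1
  set g2 : SL(2, ℤ) := g1 * x12 (m1 * v) with hg2
  obtain ⟨f00, f01, f10, f11⟩ := mul_x12_apply g1 (m1 * v)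
  rw [← hg2] at f00 f01 f10 f11
  have h2b : ((l * m1 : ℕ) : ℤ) ∣ g2 0 1 := by
    rw [f01, e01, hb1]
    obtain ⟨k, hk⟩ := hv
    refine ⟨k, ?_⟩
    push_cast
    linear_combination (m1 : ℤ) * hk
  -- Step 3: kill the lower left entry mod `l m₁`
  have hm1c1 : (m1 : ℤ) ∣ g2 1 0 := by
    rw [f10, e10]
    exact dvd_add hm1c ((dvd_mul_right _ _).mul_left _)
  obtain ⟨c2, hc2⟩ := hm1c1
  have hu'' : ¬ (l : ℤ) ∣ g2 0 0 := by rw [f00]; exact hu'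
  obtain ⟨w, hw⟩ := exists_dvd_add_mul hl hu'' c2
  set g3 : SL(2, ℤ) := x21 (m1 * w) * g2 with hg3
  obtain ⟨k00, k01, k10, k11⟩ := x21_mul_apply g2 (m1 * w)
  rw [← hg3] at k00 k01 k10 k11
  have h3c : ((l * m1 : ℕ) : ℤ) ∣ g3 1 0 := by
    rw [k10, hc2]
    obtain ⟨k, hk⟩ := hw
    refine ⟨k, ?_⟩
    push_cast
    linear_combination (m1 : ℤ) * hk
  have h3b : ((l * m1 : ℕ) : ℤ) ∣ g3 0 1 := by rw [k01]; exact h2b
  -- conclude
  have hg3Γ : g3 ∈ Gamma m1 :=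
    (Gamma m1).mul_mem (x21_mem_Gamma m1 w)
      ((Gamma m1).mul_mem ((Gamma m1).mul_mem hg (x21_mem_Gamma m1 u)) (x12_mem_Gamma m1 v))
  have hg3H : g3 ∈ H := mem_of_diag_mod H hΓ hT12 hT21 hg3Γ
    ((ZMod.intCast_zmod_eq_zero_iff_dvd _ _).mpr h3b)
    ((ZMod.intCast_zmod_eq_zero_iff_dvd _ _).mpr h3c)
  have : g = (x21 (m1 * w))⁻¹ * g3 * (x12 (m1 * v))⁻¹ * (x21 (m1 * u))⁻¹ := by
    rw [hg3, hg2, hg1]; group
  rw [this]
  exact H.mul_mem (H.mul_mem (H.mul_mem (H.inv_mem (hT21 w)) hg3H) (H.inv_mem (hT12 v)))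
    (H.inv_mem (hT21 u))

end Main



section Main

variable {l m1 : ℕ} (H : Subgroup SL(2, ℤ)) [hH : H.Normal]

omit hH in
theorem x12_mem_of_T_pow_mem (hT : ModularGroup.T ^ m1 ∈ H) (t : ℤ) : x12 (m1 * t) ∈ H := by
  rw [x12_eq_T_zpow, _root_.zpow_mul, zpow_natCast]
  exact H.zpow_mem hT t

theorem x21_mem_of_T_pow_mem (hT : ModularGroup.T ^ m1 ∈ H) (t : ℤ) : x21 (m1 * t) ∈ H := by
  rw [x21_eq_conj, ← mul_neg]
  exact hH.conj_mem _ (x12_mem_of_T_pow_mem H hT (-t)) _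

/-- **D-GEN (i)**: a normal subgroup of `SL(2,ℤ)` containing `Γ(l m₁)` and `T ^ m₁` contains
`Γ(m₁)`. -/
theorem gamma_le_of_normal (hl : l.Prime) (hΓ : Gamma (l * m1) ≤ H)
    (hT : ModularGroup.T ^ m1 ∈ H) : Gamma m1 ≤ H :=
  gamma_le_of_unipotents H hl hΓ (x12_mem_of_T_pow_mem H hT) (x21_mem_of_T_pow_mem H hT)

end Main

/-- **D-GEN (i)**: `Γ(m₁) ≤ Γ(l m₁) ⊔ normalClosure {T ^ m₁}`. -/
theorem gamma_le_sup_normalClosure {l : ℕ} (hl : l.Prime) (m1 : ℕ) :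
    Gamma m1 ≤ Gamma (l * m1) ⊔ Subgroup.normalClosure {ModularGroup.T ^ m1} := by
  have : (Gamma (l * m1)).Normal := Gamma_normal _
  exact gamma_le_of_normal _ hl le_sup_left
    (le_sup_right (a := Gamma (l * m1)) (Subgroup.subset_normalClosure (Set.mem_singleton _)))

/-- the form consumed by `H70.theoremT_of_base_wild_gen` (integer exponent). -/
theorem gamma_le_sup_normalClosure_zpow (l m1 : ℕ) (hl : l.Prime) :
    Gamma m1 ≤ Gamma (l * m1) ⊔ Subgroup.normalClosure {ModularGroup.T ^ (m1 : ℤ)} := by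
  rw [zpow_natCast]
  exact gamma_le_sup_normalClosure hl m1


/-- every element of `Γ(m₁)` is a product of an element of `Γ(l m₁)` and an element of the normal
closure of `T ^ m₁`. -/
theorem exists_mul_of_mem_gamma {l : ℕ} (hl : l.Prime) {m1 : ℕ} {g : SL(2, ℤ)}
    (hg : g ∈ Gamma m1) :
    ∃ γ ∈ Gamma (l * m1), ∃ n ∈ Subgroup.normalClosure {ModularGroup.T ^ m1}, g = γ * n := by
  have : (Gamma (l * m1)).Normal := Gamma_normal _
  have := gamma_le_sup_normalClosure hl m1 hg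
  rw [← SetLike.mem_coe, Subgroup.normal_mul] at this
  obtain ⟨γ, hγ, n, hn, rfl⟩ := this
  exact ⟨γ, hγ, n, hn, rfl⟩



/-- `Γ(a b) ≤ Γ(b)`. -/
theorem gamma_mul_le_right (a b : ℕ) : Gamma (a * b) ≤ Gamma b := by
  intro g hg
  rw [Gamma_mem] at hg ⊢
  have key : ∀ x y : ℤ, ((x : ℤ) : ZMod (a * b)) = (y : ZMod (a * b)) →
      ((x : ℤ) : ZMod b) = (y : ZMod b) := by
    intro x y h
    rw [ZMod.intCast_eq_intCast_iff_dvd_sub] at h ⊢
    exact (Dvd.intro_left (a : ℤ) (by push_cast; ring)).trans h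
  obtain ⟨h1, h2, h3, h4⟩ := hg
  refine ⟨?_, ?_, ?_, ?_⟩
  · have := key (g 0 0) 1 (by rw [h1]; simp); simpa using this
  · have := key (g 0 1) 0 (by rw [h2]; simp); simpa using this
  · have := key (g 1 0) 0 (by rw [h3]; simp); simpa using this
  · have := key (g 1 1) 1 (by rw [h4]; simp); simpa using this

theorem gamma_mul_le_left (a b : ℕ) : Gamma (a * b) ≤ Gamma a := by
  rw [mul_comm]; exact gamma_mul_le_right b a

/-- **D-GEN (ii), tame case**: if `l` and `m₁` are coprime, `Γ(m₁) ⊓ Γ(l) = Γ(l m₁)`; hence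
`Γ(m₁)/Γ(l m₁)` embeds into `SL(2, ZMod l)` by reduction mod `l`. -/
theorem gamma_inf_gamma {l m1 : ℕ} (hcop : Nat.Coprime l m1) :
    Gamma m1 ⊓ Gamma l = Gamma (l * m1) := by
  apply le_antisymm
  · rintro g ⟨hg1, hg2⟩
    have hg1' : g ∈ Gamma m1 := hg1
    have hg2' : g ∈ Gamma l := hg2
    clear hg1 hg2
    rw [Gamma_mem] at hg1' hg2' ⊢
    have key : ∀ x y : ℤ, ((x : ℤ) : ZMod m1) = (y : ZMod m1) →
        ((x : ℤ) : ZMod l) = (y : ZMod l) → ((x : ℤ) : ZMod (l * m1)) = (y : ZMod (l * m1)) := by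
      intro x y h1 h2
      rw [ZMod.intCast_eq_intCast_iff_dvd_sub] at h1 h2 ⊢
      have hc : IsCoprime (l : ℤ) (m1 : ℤ) := Nat.isCoprime_iff_coprime.mpr hcop
      push_cast
      exact hc.mul_dvd h2 h1
    obtain ⟨a1, a2, a3, a4⟩ := hg1'
    obtain ⟨b1, b2, b3, b4⟩ := hg2'
    refine ⟨?_, ?_, ?_, ?_⟩
    · have := key (g 0 0) 1 (by rw [a1]; simp) (by rw [b1]; simp); simpa using this
    · have := key (g 0 1) 0 (by rw [a2]; simp) (by rw [b2]; simp); simpa using this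
    · have := key (g 1 0) 0 (by rw [a3]; simp) (by rw [b3]; simp); simpa using this
    · have := key (g 1 1) 1 (by rw [a4]; simp) (by rw [b4]; simp); simpa using this
  · exact le_inf (gamma_mul_le_right l m1) (gamma_mul_le_left l m1)



section Abelian

variable {R : Type*} [CommRing R]

theorem one_add_smul_mul {a b : R} (hab : a * b = 0) (X Y : Matrix (Fin 2) (Fin 2) R) :
    (1 + a • X) * (1 + b • Y) = 1 + a • X + b • Y := by
  rw [mul_add, mul_one, add_mul, one_mul, Matrix.smul_mul, Matrix.mul_smul, smul_smul, hab,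
    zero_smul, add_zero]

theorem one_add_smul_pow {c : R} (hc : c * c = 0) (X : Matrix (Fin 2) (Fin 2) R) (k : ℕ) :
    (1 + c • X) ^ k = 1 + ((k : R) * c) • X := by
  induction k with
  | zero => simp
  | succ k ih =>
    rw [pow_succ, ih, one_add_smul_mul (by rw [mul_assoc, hc, mul_zero]), add_assoc, ← add_smul]
    congr 2
    push_cast
    ring

end Abelian

/-- an element of `Γ(m₁)` is `1 + m₁ X`. -/
theorem exists_eq_one_add_smul {m1 : ℕ} {g : SL(2, ℤ)} (hg : g ∈ Gamma m1) :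
    ∃ X : Matrix (Fin 2) (Fin 2) ℤ, (g : Matrix (Fin 2) (Fin 2) ℤ) = 1 + (m1 : ℤ) • X := by
  rw [Gamma_mem] at hg
  obtain ⟨ha, hb, hc, hd⟩ := hg
  obtain ⟨x00, h00⟩ : (m1 : ℤ) ∣ g 0 0 - 1 :=
    (ZMod.intCast_eq_intCast_iff_dvd_sub 1 (g 0 0) m1).mp (by rw [ha]; simp)
  obtain ⟨x01, h01⟩ : (m1 : ℤ) ∣ g 0 1 := (ZMod.intCast_zmod_eq_zero_iff_dvd _ _).mp hb
  obtain ⟨x10, h10⟩ : (m1 : ℤ) ∣ g 1 0 := (ZMod.intCast_zmod_eq_zero_iff_dvd _ _).mp hc
  obtain ⟨x11, h11⟩ : (m1 : ℤ) ∣ g 1 1 - 1 :=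
    (ZMod.intCast_eq_intCast_iff_dvd_sub 1 (g 1 1) m1).mp (by rw [hd]; simp)
  refine ⟨!![x00, x01; x10, x11], ?_⟩
  ext i j
  fin_cases i <;> fin_cases j <;> simp <;> linarith

/-- reduction of `g ∈ Γ(m₁)` modulo `M`. -/
theorem exists_map_eq_one_add_smul {m1 : ℕ} (M : ℕ) {g : SL(2, ℤ)} (hg : g ∈ Gamma m1) :
    ∃ X : Matrix (Fin 2) (Fin 2) (ZMod M),
      ((SpecialLinearGroup.map (Int.castRingHom (ZMod M)) g : SL(2, ZMod M)) :
        Matrix (Fin 2) (Fin 2) (ZMod M)) = 1 + (m1 : ZMod M) • X := by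
  obtain ⟨X, hX⟩ := exists_eq_one_add_smul hg
  refine ⟨X.map (Int.castRingHom (ZMod M)), ?_⟩
  rw [SpecialLinearGroup.map_apply_coe, hX, map_add, map_one]
  congr 1
  ext i j
  simp only [RingHom.mapMatrix_apply, Matrix.map_apply, Matrix.smul_apply, smul_eq_mul,
    Int.coe_castRingHom]
  push_cast
  rfl



section General

variable {R : Type*} [CommRing R]

theorem SL_pow_eq_one_of_eq_one_add_smul {c : R} (hc : c * c = 0) (A : SL(2, R))
    (X : Matrix (Fin 2) (Fin 2) R) (hA : (A : Matrix (Fin 2) (Fin 2) R) = 1 + c • X) (k : ℕ)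
    (hk : (k : R) * c = 0) : A ^ k = 1 := by
  apply Subtype.coe_injective
  show ((A ^ k : SL(2, R)) : Matrix (Fin 2) (Fin 2) R) = 1
  rw [Matrix.SpecialLinearGroup.coe_pow, hA, one_add_smul_pow hc, hk, zero_smul, add_zero]

theorem SL_mul_comm_of_eq_one_add_smul {c : R} (hc : c * c = 0) (A B : SL(2, R))
    (X Y : Matrix (Fin 2) (Fin 2) R) (hA : (A : Matrix (Fin 2) (Fin 2) R) = 1 + c • X)
    (hB : (B : Matrix (Fin 2) (Fin 2) R) = 1 + c • Y) : A * B = B * A := by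
  apply Subtype.coe_injective
  show ((A * B : SL(2, R)) : Matrix (Fin 2) (Fin 2) R) = ((B * A : SL(2, R)) : Matrix _ _ R)
  rw [Matrix.SpecialLinearGroup.coe_mul, Matrix.SpecialLinearGroup.coe_mul, hA, hB,
    one_add_smul_mul hc, one_add_smul_mul hc]
  abel

end General

theorem natCast_mul_self_eq_zero {l m1 : ℕ} (hlm : l ∣ m1) :
    ((m1 : ℕ) : ZMod (l * m1)) * ((m1 : ℕ) : ZMod (l * m1)) = 0 := by
  obtain ⟨k, hk⟩ := hlm
  rw [← Nat.cast_mul, ZMod.natCast_eq_zero_iff]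
  exact ⟨k, by rw [hk]; ring⟩

/-- **D-GEN (ii), case `l ∣ m₁`**: `Γ(m₁)/Γ(l m₁)` has exponent `l`. -/
theorem pow_mem_gamma_of_dvd {l m1 : ℕ} (hlm : l ∣ m1) {g : SL(2, ℤ)} (hg : g ∈ Gamma m1) :
    g ^ l ∈ Gamma (l * m1) := by
  rw [Gamma_mem', map_pow]
  obtain ⟨X, hX⟩ := exists_map_eq_one_add_smul (l * m1) hg
  exact SL_pow_eq_one_of_eq_one_add_smul (natCast_mul_self_eq_zero hlm) _ X hX l
    (by rw [← Nat.cast_mul, ZMod.natCast_self])

/-- **D-GEN (ii), case `l ∣ m₁`**: `Γ(m₁)/Γ(l m₁)` is abelian. -/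
theorem commutator_mem_gamma_of_dvd {l m1 : ℕ} (hlm : l ∣ m1) {g h : SL(2, ℤ)}
    (hg : g ∈ Gamma m1) (hh : h ∈ Gamma m1) : g * h * g⁻¹ * h⁻¹ ∈ Gamma (l * m1) := by
  rw [Gamma_mem']
  obtain ⟨X, hX⟩ := exists_map_eq_one_add_smul (l * m1) hg
  obtain ⟨Y, hY⟩ := exists_map_eq_one_add_smul (l * m1) hh
  have hcomm := SL_mul_comm_of_eq_one_add_smul (natCast_mul_self_eq_zero hlm) _ _ X Y hX hY
  rw [map_mul, map_mul, map_mul, map_inv, map_inv, hcomm, mul_inv_cancel_right,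
    mul_inv_cancel]


/-- reduction mod `l` on `Γ(m₁)`. -/
def redGamma (l m1 : ℕ) : Gamma m1 →* SL(2, ZMod l) :=
  (SpecialLinearGroup.map (Int.castRingHom (ZMod l))).comp (Gamma m1).subtype

/-- **D-GEN (ii), tame case, hom form**: for `l`, `m₁` coprime the kernel of reduction mod `l` on
`Γ(m₁)` is `Γ(l m₁)`, so `Γ(m₁)/Γ(l m₁)` embeds into `SL(2, ZMod l)`. -/
theorem ker_redGamma {l m1 : ℕ} (hcop : Nat.Coprime l m1) :
    (redGamma l m1).ker = (Gamma (l * m1)).subgroupOf (Gamma m1) := by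
  ext ⟨g, hg⟩
  rw [MonoidHom.mem_ker, Subgroup.mem_subgroupOf, ← gamma_inf_gamma hcop]
  show SpecialLinearGroup.map (Int.castRingHom (ZMod l)) g = 1 ↔ g ∈ Gamma m1 ⊓ Gamma l
  rw [Subgroup.mem_inf, ← Gamma_mem']
  exact ⟨fun h => ⟨hg, h⟩, fun h => h.2⟩

end Fermat.Agent.S41.H66
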