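import Mathlib

/-!
# Lemma S: finite `p`-subgroups of `SL(2, F)` are cyclic (`p` odd, `p ≠ char F`)

Route without counting: a nontrivial `p`-group has a central element `c ≠ 1`, which is a
non-scalar matrix; the centraliser of a non-scalar `2 × 2` matrix is `F[c] = {a + b c}`; over an
algebraically closed field an eigenvector of `c` is a common eigenvector, and the eigenvalue
character is injective on `p`-elements of determinant one.
-/

namespace Fermat.Agent.S41.H1

open Matrix

section TwoByTwo

variable {K : Type*} [Field K]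

/-- A `2 × 2` matrix which is not a scalar multiple of the identity. -/
def IsNonScalar2 (c : Matrix (Fin 2) (Fin 2) K) : Prop :=
  c 0 1 ≠ 0 ∨ c 1 0 ≠ 0 ∨ c 0 0 ≠ c 1 1

/-- The centraliser of a non-scalar `2 × 2` matrix `c` is `K[c] = {a + b c}`. -/
theorem exists_eq_add_smul_of_commute {c g : Matrix (Fin 2) (Fin 2) K} (hc : IsNonScalar2 c)
    (h : g * c = c * g) : ∃ a b : K, g = a • (1 : Matrix (Fin 2) (Fin 2) K) + b • c := by
  have h00 := congrFun (congrFun h 0) 0
  have h01 := congrFun (congrFun h 0) 1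
  have h10 := congrFun (congrFun h 1) 0
  have h11 := congrFun (congrFun h 1) 1
  simp only [Matrix.mul_apply, Fin.sum_univ_two] at h00 h01 h10 h11
  by_cases h1 : c 0 1 = 0
  · by_cases h2 : c 1 0 = 0
    · have hc' : c 0 0 ≠ c 1 1 := by
        rcases hc with hc | hc | hc
        · exact absurd h1 hc
        · exact absurd h2 hc
        · exact hc
      have hne : c 0 0 - c 1 1 ≠ 0 := sub_ne_zero.mpr hc'
      simp only [h1, h2, mul_zero, zero_mul, add_zero, zero_add] at h00 h01 h10 h11
      have e01 : g 0 1 = 0 := by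
        have : g 0 1 * (c 0 0 - c 1 1) = 0 := by linear_combination -h01
        rcases mul_eq_zero.mp this with h | h
        · exact h
        · exact absurd h hne
      have e10 : g 1 0 = 0 := by
        have : g 1 0 * (c 0 0 - c 1 1) = 0 := by linear_combination h10
        rcases mul_eq_zero.mp this with h | h
        · exact h
        · exact absurd h hne
      refine ⟨g 0 0 - (g 0 0 - g 1 1) / (c 0 0 - c 1 1) * c 0 0,
        (g 0 0 - g 1 1) / (c 0 0 - c 1 1), ?_⟩
      ext i j
      fin_cases i <;> fin_cases j <;> simp [h1, h2, e01, e10]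
      field_simp
      ring
    · refine ⟨g 0 0 - g 1 0 / c 1 0 * c 0 0, g 1 0 / c 1 0, ?_⟩
      ext i j
      fin_cases i <;> fin_cases j <;> simp <;> field_simp
      · linear_combination h00
      · linear_combination h10
  · refine ⟨g 0 0 - g 0 1 / c 0 1 * c 0 0, g 0 1 / c 0 1, ?_⟩
    ext i j
    fin_cases i <;> fin_cases j <;> simp <;> field_simp
    · linear_combination -h00
    · linear_combination -h01

/-- Two matrices commuting with a non-scalar `2 × 2` matrix commute with each other. -/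
theorem commute_of_commute_nonScalar {c g h : Matrix (Fin 2) (Fin 2) K} (hc : IsNonScalar2 c)
    (hg : g * c = c * g) (hh : h * c = c * h) : g * h = h * g := by
  obtain ⟨a, b, rfl⟩ := exists_eq_add_smul_of_commute hc hg
  obtain ⟨a', b', rfl⟩ := exists_eq_add_smul_of_commute hc hh
  simp only [add_mul, mul_add, smul_mul_assoc, mul_smul_comm, one_mul, mul_one]
  module

/-- A determinant-one `2 × 2` matrix of trace `2` satisfies `(g - 1)² = 0`. -/
theorem sub_one_mul_sub_one_eq_zero {g : Matrix (Fin 2) (Fin 2) K} (hdet : g.det = 1)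
    (htr : g 0 0 + g 1 1 = 2) : (g - 1) * (g - 1) = 0 := by
  rw [Matrix.det_fin_two] at hdet
  have e : g 1 1 = 2 - g 0 0 := by linear_combination htr
  ext i j
  fin_cases i <;> fin_cases j <;>
    simp [Matrix.mul_apply, Fin.sum_univ_two, e] at hdet ⊢ <;>
    first
    | ring1
    | linear_combination -hdet

theorem one_add_pow_of_sq_zero {N : Matrix (Fin 2) (Fin 2) K} (hsq : N * N = 0) (n : ℕ) :
    (1 + N) ^ n = 1 + (n : K) • N := by
  induction n with
  | zero => simp
  | succ n ih =>
    rw [pow_succ, ih]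
    simp only [add_mul, mul_add, one_mul, mul_one, smul_mul_assoc, hsq, smul_zero, add_zero,
      Nat.cast_succ, add_smul, one_smul]
    abel

theorem pow_eq_one_add_smul {g : Matrix (Fin 2) (Fin 2) K} (hdet : g.det = 1)
    (htr : g 0 0 + g 1 1 = 2) (n : ℕ) : g ^ n = 1 + (n : K) • (g - 1) := by
  have hsq := sub_one_mul_sub_one_eq_zero hdet htr
  have := one_add_pow_of_sq_zero hsq n
  rwa [add_sub_cancel] at this

end TwoByTwo

section Main

variable {K : Type*} [Field K]

local notation "SL2" => Matrix.SpecialLinearGroup (Fin 2)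

/-- A determinant-one `2 × 2` matrix of `p`-power order fixing a nonzero vector is the identity,
if `p` is invertible in `K`. -/
theorem eq_one_of_mulVec_eq_self {p : ℕ} (hpK : (p : K) ≠ 0) (g : SL2 K) {k : ℕ}
    (hk : g ^ (p ^ k) = 1) {v : Fin 2 → K} (hv : v ≠ 0) (hgv : g.1 *ᵥ v = v) : g = 1 := by
  have hdet : g.1.det = 1 := g.2
  have hdet0 : (g.1 - 1).det = 0 := by
    rw [← Matrix.exists_mulVec_eq_zero_iff]
    exact ⟨v, hv, by rw [Matrix.sub_mulVec, hgv, Matrix.one_mulVec, sub_self]⟩
  have htr : g.1 0 0 + g.1 1 1 = 2 := by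
    rw [Matrix.det_fin_two] at hdet hdet0
    simp only [Matrix.sub_apply, Matrix.one_apply_eq, Matrix.one_apply_ne, ne_eq,
      Fin.reduceEq, not_false_eq_true, sub_zero] at hdet0
    linear_combination hdet - hdet0
  have hpow := pow_eq_one_add_smul hdet htr (p ^ k)
  have h1 : g.1 ^ (p ^ k) = 1 := by
    have := congrArg (fun x : SL2 K => x.1) hk
    simpa using this
  rw [h1] at hpow
  have h2 : ((p ^ k : ℕ) : K) • (g.1 - 1) = 0 := by
    have := hpow
    rwa [left_eq_add] at this
  have hpk : ((p ^ k : ℕ) : K) ≠ 0 := by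
    rw [Nat.cast_pow]
    exact pow_ne_zero _ hpK
  have h3 : g.1 - 1 = 0 := (smul_eq_zero.mp h2).resolve_left hpk
  apply Subtype.ext
  rw [sub_eq_zero] at h3
  exact h3

/-- **Lemma S, algebraically closed case.** -/
theorem isCyclic_of_isPGroup_of_isAlgClosed [IsAlgClosed K] {p : ℕ} [Fact p.Prime] (hp2 : p ≠ 2)
    (hpK : (p : K) ≠ 0) (P : Subgroup (SL2 K)) [Finite P] (hP : IsPGroup p P) : IsCyclic P := by
  by_cases hsub : Subsingleton P
  · exact isCyclic_of_subsingleton
  rw [not_subsingleton_iff_nontrivial] at hsub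
  -- a central element `c ≠ 1`
  have : Nontrivial (Subgroup.center P) := hP.center_nontrivial
  obtain ⟨⟨c, hcZ⟩, hc1⟩ := exists_ne (1 : Subgroup.center P)
  have hc1' : c ≠ 1 := fun h => hc1 (Subtype.ext h)
  set C : Matrix (Fin 2) (Fin 2) K := c.1.1 with hC
  have hCdet : C.det = 1 := c.1.2
  -- `c` is non-scalar
  have hCns : IsNonScalar2 C := by
    by_contra hns
    simp only [IsNonScalar2, not_or, not_not] at hns
    obtain ⟨h01, h10, h00⟩ := hns
    rw [Matrix.det_fin_two, h01, h10, ← h00] at hCdet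
    have hsq : C 0 0 * C 0 0 = 1 := by linear_combination hCdet
    have hCeq : ∀ s : K, C 0 0 = s → C = s • (1 : Matrix (Fin 2) (Fin 2) K) := by
      intro s hs
      ext i j
      fin_cases i <;> fin_cases j <;> simp [h01, h10, ← h00, hs]
    rcases mul_self_eq_one_iff.mp hsq with h | h
    · apply hc1'
      apply Subtype.ext
      apply Subtype.ext
      show C = 1
      rw [hCeq 1 h, one_smul]
    · -- `c = -1`, so `c ^ 2 = 1`
      have hc2 : c ^ 2 = 1 := by
        apply Subtype.ext
        apply Subtype.ext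
        show (c.1.1) ^ 2 = 1
        rw [← hC, hCeq (-1) h]
        simp [pow_two]
      obtain ⟨k, hk⟩ := hP c
      have hcop : Nat.Coprime 2 (p ^ k) := by
        apply Nat.Coprime.pow_right
        rw [Nat.coprime_primes Nat.prime_two (Fact.out : p.Prime)]
        exact fun h => hp2 h.symm
      have h1 : orderOf c ∣ 2 := orderOf_dvd_of_pow_eq_one hc2
      have h2 : orderOf c ∣ p ^ k := orderOf_dvd_of_pow_eq_one hk
      have h3 : orderOf c = 1 := Nat.eq_one_of_dvd_coprimes hcop h1 h2
      exact hc1' (orderOf_eq_one_iff.mp h3)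
  -- every element of `P` commutes with `C`
  have hcomm : ∀ g : P, g.1.1 * C = C * g.1.1 := by
    intro g
    have := Subgroup.mem_center_iff.mp hcZ g
    have h2 := congrArg (fun x : P => x.1.1) this
    simpa using h2
  -- an eigenvector of `C`
  obtain ⟨θ, hθ⟩ := Module.End.exists_eigenvalue (Matrix.toLin' C)
  obtain ⟨v, hv⟩ := hθ.exists_hasEigenvector
  have hv0 : v ≠ 0 := hv.2
  have hCv : C *ᵥ v = θ • v := by
    have := hv.apply_eq_smul
    rwa [Matrix.toLin'_apply] at this
  -- every element of `P` has `v` as an eigenvector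
  have heig : ∀ g : P, ∃ lam : K, g.1.1 *ᵥ v = lam • v := by
    intro g
    obtain ⟨a, b, hab⟩ := exists_eq_add_smul_of_commute hCns (hcomm g)
    refine ⟨a + b * θ, ?_⟩
    rw [hab, Matrix.add_mulVec, Matrix.smul_mulVec, Matrix.smul_mulVec, Matrix.one_mulVec, hCv,
      smul_smul, add_smul]
  obtain ⟨i, hi⟩ : ∃ i, v i ≠ 0 := by
    by_contra h
    exact hv0 (funext fun i => not_not.mp fun hi => h ⟨i, hi⟩)
  have hkey : ∀ g : P, g.1.1 *ᵥ v = ((g.1.1 *ᵥ v) i / v i) • v := by
    intro g
    obtain ⟨lam, hlam⟩ := heig g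
    have : (g.1.1 *ᵥ v) i / v i = lam := by
      rw [hlam, Pi.smul_apply, smul_eq_mul, mul_div_assoc, div_self hi, mul_one]
    rw [this, hlam]
  let f : P →* K :=
    { toFun := fun g => (g.1.1 *ᵥ v) i / v i
      map_one' := by
        show ((1 : Matrix (Fin 2) (Fin 2) K) *ᵥ v) i / v i = 1
        rw [Matrix.one_mulVec, div_self hi]
      map_mul' := by
        intro g h
        show ((g.1.1 * h.1.1) *ᵥ v) i / v i = _
        rw [← Matrix.mulVec_mulVec, hkey h, Matrix.mulVec_smul, hkey g]
        simp only [Pi.smul_apply, smul_eq_mul]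
        field_simp }
  have hf : Function.Injective f := by
    rw [injective_iff_map_eq_one]
    intro g hg
    have hgv : g.1.1 *ᵥ v = v := by
      have h1 := hkey g
      have h2 : (g.1.1 *ᵥ v) i / v i = 1 := hg
      rw [h2, one_smul] at h1
      exact h1
    obtain ⟨k, hk⟩ := hP g
    have hk' : g.1 ^ (p ^ k) = 1 := by
      have := congrArg (fun x : P => x.1) hk
      simpa using this
    have := eq_one_of_mulVec_eq_self hpK g.1 hk' hv0 hgv
    exact Subtype.ext this
  exact isCyclic_of_injective_ringHom f hf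

/-- **Lemma S.** Every finite `p`-subgroup of `SL(2, F)` is cyclic, for `p` an odd prime which is
invertible in the field `F`. -/
theorem isCyclic_of_isPGroup_SL2 {F : Type*} [Field F] {p : ℕ} [Fact p.Prime] (hp2 : p ≠ 2)
    (hpF : (p : F) ≠ 0) (P : Subgroup (SL2 F)) [Finite P] (hP : IsPGroup p P) : IsCyclic P := by
  let φ : SL2 F →* SL2 (AlgebraicClosure F) :=
    Matrix.SpecialLinearGroup.map (algebraMap F (AlgebraicClosure F))
  have hφ : Function.Injective φ := by
    intro a b hab
    apply Subtype.ext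
    ext i j
    have h1 := congrArg (fun x : SL2 (AlgebraicClosure F) => x.1 i j) hab
    simp only [φ, Matrix.SpecialLinearGroup.map_apply_coe, RingHom.mapMatrix_apply,
      Matrix.map_apply] at h1
    exact (algebraMap F (AlgebraicClosure F)).injective h1
  have hpK : ((p : ℕ) : AlgebraicClosure F) ≠ 0 := by
    rw [← map_natCast (algebraMap F (AlgebraicClosure F))]
    exact (map_ne_zero_iff _ (algebraMap F (AlgebraicClosure F)).injective).mpr hpF
  have e : P ≃* P.map φ := P.equivMapOfInjective φ hφ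
  have : Finite (P.map φ) := Finite.of_equiv P e.toEquiv
  have hP' : IsPGroup p (P.map φ) := hP.map φ
  have hcyc := isCyclic_of_isPGroup_of_isAlgClosed hp2 hpK (P.map φ) hP'
  exact isCyclic_of_surjective e.symm e.symm.surjective

/-- Lemma S for any group admitting an injective homomorphism into `SL(2, F)`: its finite
`p`-subgroups are cyclic. -/
theorem isCyclic_of_isPGroup_of_injective_SL2 {F : Type*} [Field F] {p : ℕ} [Fact p.Prime]
    (hp2 : p ≠ 2) (hpF : (p : F) ≠ 0) {Q : Type*} [Group Q] (ρ : Q →* SL2 F)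
    (hρ : Function.Injective ρ) (P : Subgroup Q) [Finite P] (hP : IsPGroup p P) : IsCyclic P := by
  have e : P ≃* P.map ρ := P.equivMapOfInjective ρ hρ
  have : Finite (P.map ρ) := Finite.of_equiv P e.toEquiv
  have hcyc := isCyclic_of_isPGroup_SL2 hp2 hpF (P.map ρ) (hP.map ρ)
  exact isCyclic_of_surjective e.symm e.symm.surjective

/-- Lemma S, Sylow form: if a finite group `Q` embeds into `SL(2, F)`, its Sylow `p`-subgroups
are cyclic (`p` odd, invertible in `F`). -/
theorem isCyclic_sylow_of_injective_SL2 {F : Type*} [Field F] {p : ℕ} [Fact p.Prime]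
    (hp2 : p ≠ 2) (hpF : (p : F) ≠ 0) {Q : Type*} [Group Q] [Finite Q] (ρ : Q →* SL2 F)
    (hρ : Function.Injective ρ) (S : Sylow p Q) : IsCyclic S :=
  isCyclic_of_isPGroup_of_injective_SL2 hp2 hpF ρ hρ S.1 S.2

theorem natCast_zmod_ne_zero_of_primes_ne {l p : ℕ} [Fact l.Prime] [Fact p.Prime] (hlp : p ≠ l) :
    ((p : ℕ) : ZMod l) ≠ 0 := by
  rw [Ne, ZMod.natCast_eq_zero_iff]
  intro h
  exact hlp ((Nat.prime_dvd_prime_iff_eq (Fact.out : l.Prime) (Fact.out : p.Prime)).mp h).symm

/-- **Lemma S over `𝔽_l`.** Every `p`-subgroup of `SL(2, ZMod l)` is cyclic (`l` prime, `p` an odd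
prime different from `l`). -/
theorem isCyclic_of_isPGroup_SL2_zmod {l p : ℕ} [Fact l.Prime] [Fact p.Prime] (hp2 : p ≠ 2)
    (hlp : p ≠ l) (P : Subgroup (SL2 (ZMod l))) (hP : IsPGroup p P) : IsCyclic P :=
  isCyclic_of_isPGroup_SL2 hp2 (natCast_zmod_ne_zero_of_primes_ne hlp) P hP

/-- Lemma S over `𝔽_l`, for a group embedding into `SL(2, ZMod l)`. -/
theorem isCyclic_of_isPGroup_of_injective_SL2_zmod {l p : ℕ} [Fact l.Prime] [Fact p.Prime]
    (hp2 : p ≠ 2) (hlp : p ≠ l) {Q : Type*} [Group Q] (ρ : Q →* SL2 (ZMod l))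
    (hρ : Function.Injective ρ) (P : Subgroup Q) (hP : IsPGroup p P) : IsCyclic P := by
  have : Finite Q := Finite.of_injective ρ hρ
  exact isCyclic_of_isPGroup_of_injective_SL2 hp2 (natCast_zmod_ne_zero_of_primes_ne hlp) ρ hρ P hP

/-- Lemma S over `𝔽_l`, Sylow form. -/
theorem isCyclic_sylow_of_injective_SL2_zmod {l p : ℕ} [Fact l.Prime] [Fact p.Prime]
    (hp2 : p ≠ 2) (hlp : p ≠ l) {Q : Type*} [Group Q] (ρ : Q →* SL2 (ZMod l))
    (hρ : Function.Injective ρ) (S : Sylow p Q) : IsCyclic S :=
  isCyclic_of_isPGroup_of_injective_SL2_zmod hp2 hlp ρ hρ S.1 S.2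

end Main

end Fermat.Agent.S41.H1
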