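import Mathlib

/-!
# S41 / package D-B (helper39): Lemma B of the CSP proof (helper2, board #1456)

`K` a finite group, `Z ≤ center K` of exponent `p`, `π : K →* H` with `π.ker ≤ Z` where every
`p`-subgroup of `H` is cyclic.  Then the subgroup generated by the elements of order prime to `p`
meets `Z` trivially (transfer into an abelian Sylow `p`-subgroup).

Consequence (extension lemma, "tame step"): a conjugation-invariant character `φ : N →* C`
(`C` finite of exponent `p`) of a normal subgroup of finite index `N ◁ Γ` extends to `Γ`,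
invariantly under every automorphism of `Γ` preserving `(N, φ)`, as soon as `Γ` is generated by `N`
and elements having a power prime to `p` in `N`, and `Γ ⧸ N` embeds in a group whose `p`-subgroups
are cyclic.
-/

set_option autoImplicit false

namespace Fermat.Agent.S41.H39

open Subgroup

section Abstract

variable {K : Type*} [Group K]

/-- The subgroup generated by the elements of order prime to `p`. -/
def primeToP (p : ℕ) (K : Type*) [Group K] : Subgroup K :=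
  Subgroup.closure {k : K | (orderOf k).Coprime p}

lemma mem_primeToP_of_coprime {p : ℕ} {k : K} (hk : (orderOf k).Coprime p) :
    k ∈ primeToP p K :=
  Subgroup.subset_closure hk

lemma mem_primeToP_of_pow_eq_one {p : ℕ} {k : K} {j : ℕ} (hj : j.Coprime p)
    (hk : k ^ j = 1) : k ∈ primeToP p K :=
  mem_primeToP_of_coprime (Nat.Coprime.coprime_dvd_left (orderOf_dvd_of_pow_eq_one hk) hj)

instance primeToP_characteristic (p : ℕ) : (primeToP p K).Characteristic := by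
  refine Subgroup.characteristic_iff_map_le.mpr fun ϕ => ?_
  rw [primeToP, MonoidHom.map_closure, Subgroup.closure_le]
  rintro _ ⟨k, hk, rfl⟩
  refine mem_primeToP_of_coprime ?_
  have : orderOf (ϕ.toMonoidHom k) = orderOf k := orderOf_injective _ ϕ.injective k
  rw [this]
  exact hk

open scoped IsMulCommutative in
/-- **Lemma B** (abstract form). -/
theorem primeToP_inf_eq_bot [Finite K] {p : ℕ} [hp : Fact p.Prime] (Z : Subgroup K)
    (hZc : Z ≤ Subgroup.center K) (hZp : ∀ z ∈ Z, z ^ p = 1)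
    {H : Type*} [Group H] (π : K →* H) (hπ : π.ker ≤ Z)
    (hH : ∀ Q : Subgroup H, IsPGroup p Q → IsCyclic Q) :
    primeToP p K ⊓ Z = ⊥ := by
  -- a Sylow subgroup containing `Z`
  have hZpg : IsPGroup p Z := fun z => ⟨1, by
    rw [pow_one]; exact Subtype.ext (by simpa using hZp z z.2)⟩
  obtain ⟨P, hZP⟩ := hZpg.exists_le_sylow
  -- `P` is abelian
  have : IsMulCommutative P := by
    let f : P →* (π.comp (P : Subgroup K).subtype).range :=
      (π.comp (P : Subgroup K).subtype).rangeRestrict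
    have hcyc : IsCyclic (π.comp (P : Subgroup K).subtype).range := by
      apply hH
      exact P.2.of_surjective f (MonoidHom.rangeRestrict_surjective _)
    have hker : f.ker ≤ Subgroup.center P := by
      intro x hx
      rw [MonoidHom.mem_ker] at hx
      have hx' : π (x : K) = 1 := by
        have := congrArg Subtype.val hx
        simpa [f] using this
      have hxZ : (x : K) ∈ Z := hπ hx'
      rw [Subgroup.mem_center_iff]
      intro y
      apply Subtype.ext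
      have := (Subgroup.mem_center_iff.mp (hZc hxZ)) (y : K)
      simpa using this
    exact MonoidHom.isMulCommutative_of_isCyclic_of_ker_le_center f hker
  have : (P : Subgroup K).FiniteIndex := inferInstance
  let V : K →* P := MonoidHom.transfer (MonoidHom.id P)
  -- `V` kills the elements of order prime to `p`
  have hV1 : primeToP p K ≤ V.ker := by
    rw [primeToP, Subgroup.closure_le]
    intro k hk
    rw [SetLike.mem_coe, MonoidHom.mem_ker]
    have hk' : p.Coprime (orderOf k) := Nat.Coprime.symm hk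
    apply (P.2.powEquiv hk').injective
    rw [IsPGroup.powEquiv_apply, IsPGroup.powEquiv_apply, one_pow, ← map_pow, pow_orderOf_eq_one,
      map_one]
  -- on `Z` it is the `index`-th power map
  have hV2 : ∀ z ∈ Z, ((V z : P) : K) = z ^ (P : Subgroup K).index := by
    intro z hz
    have key : ∀ (k : ℕ) (g₀ : K), g₀⁻¹ * z ^ k * g₀ ∈ (P : Subgroup K) →
        g₀⁻¹ * z ^ k * g₀ = z ^ k := by
      intro k g₀ _
      have hc : z ^ k ∈ Subgroup.center K := Subgroup.pow_mem _ (hZc hz) k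
      rw [mul_assoc, ← (Subgroup.mem_center_iff.mp hc g₀), inv_mul_cancel_left]
    have := MonoidHom.transfer_eq_pow (MonoidHom.id P) z key
    change V z = _ at this
    rw [this]
    rfl
  rw [eq_bot_iff]
  intro z hz
  obtain ⟨hz1, hz2⟩ := Subgroup.mem_inf.mp hz
  rw [Subgroup.mem_bot]
  have h1 : z ^ (P : Subgroup K).index = 1 := by
    rw [← hV2 z hz2, (MonoidHom.mem_ker).mp (hV1 hz1)]
    rfl
  have h2 : z ^ p = 1 := hZp z hz2
  have hcop : ((P : Subgroup K).index).Coprime p :=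
    (Nat.Coprime.symm ((Nat.Prime.coprime_iff_not_dvd hp.1).mpr P.not_dvd_index))
  have : orderOf z ∣ Nat.gcd (P : Subgroup K).index p :=
    Nat.dvd_gcd (orderOf_dvd_of_pow_eq_one h1) (orderOf_dvd_of_pow_eq_one h2)
  rw [hcop.gcd_eq_one, Nat.dvd_one, orderOf_eq_one_iff] at this
  exact this

end Abstract

section Extension

variable {Γ : Type*} [Group Γ] {C : Type*} [Group C]

/-- The kernel of a character of a subgroup, as a subgroup of the ambient group. -/
def kerG {N : Subgroup Γ} (φ : N →* C) : Subgroup Γ := φ.ker.map N.subtype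

lemma mem_kerG {N : Subgroup Γ} (φ : N →* C) {g : Γ} :
    g ∈ kerG φ ↔ ∃ h : g ∈ N, φ ⟨g, h⟩ = 1 := by
  constructor
  · rintro ⟨x, hx, rfl⟩
    exact ⟨x.2, by simpa using (MonoidHom.mem_ker).mp hx⟩
  · rintro ⟨h, hg⟩
    exact ⟨⟨g, h⟩, (MonoidHom.mem_ker).mpr hg, rfl⟩

lemma kerG_le {N : Subgroup Γ} (φ : N →* C) : kerG φ ≤ N := fun _ hg =>
  ((mem_kerG φ).mp hg).1

/-- The subgroup generated by the elements having a power prime to `p` inside `M`. -/
def primeToPOver (p : ℕ) (M : Subgroup Γ) : Subgroup Γ :=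
  Subgroup.closure {g : Γ | ∃ j : ℕ, j.Coprime p ∧ g ^ j ∈ M}

lemma le_primeToPOver (p : ℕ) (M : Subgroup Γ) : M ≤ primeToPOver p M := fun g hg =>
  Subgroup.subset_closure ⟨1, Nat.coprime_one_left p, by simpa using hg⟩

lemma map_primeToPOver_le {p : ℕ} {M : Subgroup Γ} (α : Γ →* Γ) (hα : ∀ g ∈ M, α g ∈ M) :
    (primeToPOver p M).map α ≤ primeToPOver p M := by
  rw [primeToPOver, MonoidHom.map_closure, Subgroup.closure_le]
  rintro _ ⟨g, ⟨j, hj, hg⟩, rfl⟩
  exact Subgroup.subset_closure ⟨j, hj, by rw [← map_pow]; exact hα _ hg⟩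

variable {p : ℕ} [hp : Fact p.Prime] (N : Subgroup Γ) [hN : N.Normal]

lemma kerG_normal (φ : N →* C)
    (hinv : ∀ (g : Γ) (n : N), φ ⟨g * n * g⁻¹, hN.conj_mem n n.2 g⟩ = φ n) :
    (kerG φ).Normal := by
  refine ⟨fun n hn g => ?_⟩
  obtain ⟨h, hφ⟩ := (mem_kerG φ).mp hn
  exact (mem_kerG φ).mpr ⟨hN.conj_mem n h g, by rw [hinv g ⟨n, h⟩, hφ]⟩

/-- Key consequence of Lemma B in the ambient group. -/
theorem primeToPOver_inf_le [N.FiniteIndex] [Finite C] (hC : ∀ c : C, c ^ p = 1)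
    (φ : N →* C)
    (hinv : ∀ (g : Γ) (n : N), φ ⟨g * n * g⁻¹, hN.conj_mem n n.2 g⟩ = φ n)
    {H : Type*} [Group H] (f : Γ →* H) (hf : f.ker = N)
    (hH : ∀ Q : Subgroup H, IsPGroup p Q → IsCyclic Q) :
    primeToPOver p (kerG φ) ⊓ N ≤ kerG φ := by
  have hMn : (kerG φ).Normal := kerG_normal N φ hinv
  -- finiteness of the quotient
  have : (kerG φ).FiniteIndex := by
    refine ⟨?_⟩
    rw [kerG, Subgroup.index_map_subtype, Subgroup.index_ker]
    exact Nat.mul_ne_zero Nat.card_pos.ne' Subgroup.FiniteIndex.index_ne_zero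
  let q : Γ →* Γ ⧸ kerG φ := QuotientGroup.mk' (kerG φ)
  have hq : Function.Surjective q := QuotientGroup.mk'_surjective _
  let Z : Subgroup (Γ ⧸ kerG φ) := N.map q
  have hZc : Z ≤ Subgroup.center (Γ ⧸ kerG φ) := by
    rintro _ ⟨n, hn, rfl⟩
    rw [Subgroup.mem_center_iff]
    intro k
    obtain ⟨g, rfl⟩ := hq k
    rw [← map_mul, ← map_mul]
    change ((g * n : Γ) : Γ ⧸ kerG φ) = ((n * g : Γ) : Γ ⧸ kerG φ)
    rw [QuotientGroup.eq]
    have h1 : g⁻¹ * n * g⁻¹⁻¹ ∈ N := hN.conj_mem n hn g⁻¹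
    have h2 : (g * n)⁻¹ * (n * g) = n⁻¹ * (g⁻¹ * n * g⁻¹⁻¹) := by group
    rw [h2]
    refine (mem_kerG φ).mpr ⟨N.mul_mem (N.inv_mem hn) h1, ?_⟩
    have h3 : (⟨n⁻¹ * (g⁻¹ * n * g⁻¹⁻¹), N.mul_mem (N.inv_mem hn) h1⟩ : N) =
        (⟨n, hn⟩ : N)⁻¹ * ⟨g⁻¹ * n * g⁻¹⁻¹, h1⟩ := rfl
    rw [h3, map_mul, map_inv, hinv g⁻¹ ⟨n, hn⟩, inv_mul_cancel]
  have hZp : ∀ z ∈ Z, z ^ p = 1 := by
    rintro _ ⟨n, hn, rfl⟩
    rw [← map_pow]
    change ((n ^ p : Γ) : Γ ⧸ kerG φ) = 1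
    rw [QuotientGroup.eq_one_iff]
    refine (mem_kerG φ).mpr ⟨N.pow_mem hn p, ?_⟩
    have h3 : (⟨n ^ p, N.pow_mem hn p⟩ : N) = (⟨n, hn⟩ : N) ^ p := rfl
    rw [h3, map_pow, hC]
  have hMf : kerG φ ≤ f.ker := by rw [hf]; exact kerG_le φ
  let π : Γ ⧸ kerG φ →* H := QuotientGroup.lift (kerG φ) f hMf
  have hπ : π.ker ≤ Z := by
    intro k hk
    obtain ⟨g, rfl⟩ := hq k
    have hg : f g = 1 := by
      have := (MonoidHom.mem_ker).mp hk
      simpa [π, q] using this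
    have hgN : g ∈ N := by rw [← hf]; exact (MonoidHom.mem_ker).mpr hg
    exact ⟨g, hgN, rfl⟩
  have hB := primeToP_inf_eq_bot (p := p) Z hZc hZp π hπ hH
  have hmap : (primeToPOver p (kerG φ)).map q ≤ primeToP p (Γ ⧸ kerG φ) := by
    rw [primeToPOver, MonoidHom.map_closure, Subgroup.closure_le]
    rintro _ ⟨g, ⟨j, hj, hg⟩, rfl⟩
    refine mem_primeToP_of_pow_eq_one hj ?_
    rw [← map_pow]
    change ((g ^ j : Γ) : Γ ⧸ kerG φ) = 1
    rw [QuotientGroup.eq_one_iff]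
    exact hg
  intro g hg
  obtain ⟨hg1, hg2⟩ := Subgroup.mem_inf.mp hg
  have : q g ∈ primeToP p (Γ ⧸ kerG φ) ⊓ Z :=
    Subgroup.mem_inf.mpr ⟨hmap ⟨g, hg1, rfl⟩, ⟨g, hg2, rfl⟩⟩
  rw [hB, Subgroup.mem_bot] at this
  change ((g : Γ) : Γ ⧸ kerG φ) = 1 at this
  rwa [QuotientGroup.eq_one_iff] at this

omit hp hN in
/-- Generation hypothesis (i) in the convenient form. -/
theorem primeToPOver_sup_eq_top (hC : ∀ c : C, c ^ p = 1) (φ : N →* C)
    (S : Set Γ) (hS : ∀ s ∈ S, ∃ j : ℕ, j.Coprime p ∧ s ^ j ∈ N)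
    (hgen : N ⊔ Subgroup.closure S = ⊤) :
    primeToPOver p (kerG φ) ⊔ N = ⊤ := by
  rw [eq_top_iff, ← hgen, sup_le_iff]
  refine ⟨le_sup_right, ?_⟩
  rw [Subgroup.closure_le]
  intro s hs
  obtain ⟨j, hj, hsj⟩ := hS s hs
  -- `s ^ p` has its `j`-th power in the kernel
  have h1 : s ^ p ∈ primeToPOver p (kerG φ) := by
    refine Subgroup.subset_closure ⟨j, hj, ?_⟩
    rw [← pow_mul, mul_comm, pow_mul]
    refine (mem_kerG φ).mpr ⟨N.pow_mem hsj p, ?_⟩
    have h3 : (⟨(s ^ j) ^ p, N.pow_mem hsj p⟩ : N) = (⟨s ^ j, hsj⟩ : N) ^ p := rfl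
    rw [h3, map_pow, hC]
  -- Bezout
  have hb : (1 : ℤ) = (p : ℤ) * Nat.gcdA p j + (j : ℤ) * Nat.gcdB p j := by
    have := Nat.gcd_eq_gcd_ab p j
    rw [Nat.Coprime.gcd_eq_one hj.symm] at this
    exact_mod_cast this
  have hs' : s = (s ^ p) ^ (Nat.gcdA p j) * (s ^ j) ^ (Nat.gcdB p j) := by
    rw [← zpow_natCast s p, ← zpow_natCast s j, ← zpow_mul, ← zpow_mul, ← zpow_add, ← hb,
      zpow_one]
  rw [SetLike.mem_coe, hs']
  exact Subgroup.mul_mem _ (Subgroup.mem_sup_left (Subgroup.zpow_mem _ h1 _))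
    (Subgroup.mem_sup_right (Subgroup.zpow_mem _ hsj _))

/-- **Extension lemma (tame step), intrinsic form.** -/
theorem exists_extension [N.FiniteIndex] [Finite C] (hC : ∀ c : C, c ^ p = 1)
    (φ : N →* C)
    (hinv : ∀ (g : Γ) (n : N), φ ⟨g * n * g⁻¹, hN.conj_mem n n.2 g⟩ = φ n)
    {H : Type*} [Group H] (f : Γ →* H) (hf : f.ker = N)
    (hH : ∀ Q : Subgroup H, IsPGroup p Q → IsCyclic Q)
    (S : Set Γ) (hS : ∀ s ∈ S, ∃ j : ℕ, j.Coprime p ∧ s ^ j ∈ N)
    (hgen : N ⊔ Subgroup.closure S = ⊤) :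
    ∃ φ1 : Γ →* C, (∀ n : N, φ1 n = φ n) ∧
      ∀ (α : Γ ≃* Γ) (hαN : ∀ n ∈ N, α n ∈ N),
        (∀ n : N, φ ⟨α n, hαN n n.2⟩ = φ n) → ∀ g, φ1 (α g) = φ1 g := by
  set T : Subgroup Γ := primeToPOver p (kerG φ) with hT
  have hTN : T ⊓ N ≤ kerG φ := primeToPOver_inf_le N hC φ hinv f hf hH
  have htop : T ⊔ N = ⊤ := primeToPOver_sup_eq_top N hC φ S hS hgen
  -- decomposition
  have hdec : ∀ g : Γ, ∃ t ∈ T, ∃ n : N, g = t * n := by
    intro g
    have hg : g ∈ ((T ⊔ N : Subgroup Γ) : Set Γ) := by rw [htop]; trivial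
    rw [Subgroup.mul_normal, Set.mem_mul] at hg
    obtain ⟨t, ht, n, hn, rfl⟩ := hg
    exact ⟨t, ht, ⟨n, hn⟩, rfl⟩
  -- well-definedness
  have hwd : ∀ t ∈ T, ∀ t' ∈ T, ∀ n n' : N, t * n = t' * n' → φ n = φ n' := by
    intro t ht t' ht' n n' h
    have h1 : t'⁻¹ * t = (n' : Γ) * (n : Γ)⁻¹ := by
      have : t = t' * n' * (n : Γ)⁻¹ := by rw [← h]; group
      rw [this]; group
    have h2 : (n' : Γ) * (n : Γ)⁻¹ ∈ T ⊓ N :=
      Subgroup.mem_inf.mpr ⟨h1 ▸ T.mul_mem (T.inv_mem ht') ht, N.mul_mem n'.2 (N.inv_mem n.2)⟩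
    obtain ⟨h3, h4⟩ := (mem_kerG φ).mp (hTN h2)
    have h5 : (⟨(n' : Γ) * (n : Γ)⁻¹, h3⟩ : N) = n' * n⁻¹ := rfl
    rw [h5, map_mul, map_inv, mul_inv_eq_one] at h4
    exact h4.symm
  choose tt htt nn hnn using hdec
  have hF : ∀ t ∈ T, ∀ n : N, φ (nn (t * n)) = φ n := fun t ht n =>
    (hwd t ht (tt (t * n)) (htt _) n (nn (t * n)) (hnn (t * n))).symm
  have hmul : ∀ a b : Γ, φ (nn (a * b)) = φ (nn a) * φ (nn b) := by
    intro a b
    have hc : (tt b)⁻¹ * (nn a : Γ) * (tt b)⁻¹⁻¹ ∈ N := hN.conj_mem _ (nn a).2 _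
    have h1 : a * b = (tt a * tt b) *
        (((⟨(tt b)⁻¹ * (nn a : Γ) * (tt b)⁻¹⁻¹, hc⟩ : N) * nn b : N) : Γ) := by
      conv_lhs => rw [hnn a, hnn b]
      simp only [Subgroup.coe_mul]
      group
    rw [h1, hF _ (T.mul_mem (htt a) (htt b)), map_mul, hinv (tt b)⁻¹ (nn a)]
  let φ1 : Γ →* C := MonoidHom.mk' (fun g => φ (nn g)) hmul
  have hφ1 : ∀ t ∈ T, ∀ n : N, φ1 (t * n) = φ n := hF
  refine ⟨φ1, fun n => ?_, fun α hαN hαφ g => ?_⟩
  · have := hφ1 1 T.one_mem n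
    rwa [one_mul] at this
  · have hαM : ∀ x ∈ kerG φ, α x ∈ kerG φ := by
      intro x hx
      obtain ⟨h, hx1⟩ := (mem_kerG φ).mp hx
      exact (mem_kerG φ).mpr ⟨hαN x h, by rw [hαφ ⟨x, h⟩, hx1]⟩
    have hαT : ∀ t ∈ T, α t ∈ T := fun t ht =>
      map_primeToPOver_le α.toMonoidHom hαM ⟨t, ht, rfl⟩
    rw [hnn g, map_mul]
    have := hφ1 (α (tt g)) (hαT _ (htt g)) ⟨α (nn g), hαN _ (nn g).2⟩
    rw [this, hφ1 _ (htt g), hαφ]

end Extension

section Wrapper

variable {G : Type*} [Group G] {C : Type*} [Group C] {p : ℕ} [hp : Fact p.Prime]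

/-- **Extension lemma (tame step)** in the language of two normal subgroups `N ≤ N1` of an
ambient group `G`: a `G`-invariant character of `N` extends to a `G`-invariant character of
`N1`. -/
theorem exists_invariant_extension (N N1 : Subgroup G) [hN : N.Normal] [hN1 : N1.Normal]
    (hle : N ≤ N1) (hfin : N.relIndex N1 ≠ 0) [Finite C] (hC : ∀ c : C, c ^ p = 1)
    (φ : N →* C)
    (hinv : ∀ (g : G) (n : N), φ ⟨g * n * g⁻¹, hN.conj_mem n n.2 g⟩ = φ n)
    {H : Type*} [Group H] (f : N1 →* H) (hf : f.ker = N.subgroupOf N1)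
    (hH : ∀ Q : Subgroup H, IsPGroup p Q → IsCyclic Q)
    (S : Set G) (hS1 : S ⊆ N1) (hS : ∀ s ∈ S, ∃ j : ℕ, j.Coprime p ∧ s ^ j ∈ N)
    (hgen : N1 ≤ N ⊔ Subgroup.closure S) :
    ∃ φ1 : N1 →* C,
      (∀ (g : G) (x : N1), φ1 ⟨g * x * g⁻¹, hN1.conj_mem x x.2 g⟩ = φ1 x) ∧
      ∀ n : N, φ1 ⟨n, hle n.2⟩ = φ n := by
  have : (N.subgroupOf N1).FiniteIndex := ⟨hfin⟩
  let e : N.subgroupOf N1 ≃* N := Subgroup.subgroupOfEquivOfLe hle
  let φ' : N.subgroupOf N1 →* C := φ.comp e.toMonoidHom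
  have hφ' : ∀ (x : N1) (hx : x ∈ N.subgroupOf N1), φ' ⟨x, hx⟩ = φ ⟨x, hx⟩ := fun _ _ => rfl
  have hinv' : ∀ (g : N1) (n : N.subgroupOf N1),
      φ' ⟨g * n * g⁻¹, (inferInstance : (N.subgroupOf N1).Normal).conj_mem n n.2 g⟩ = φ' n := by
    intro g n
    exact hinv (g : G) ⟨n, n.2⟩
  let S' : Set N1 := {s : N1 | (s : G) ∈ S}
  have hS' : ∀ s ∈ S', ∃ j : ℕ, j.Coprime p ∧ s ^ j ∈ N.subgroupOf N1 := by
    intro s hs
    obtain ⟨j, hj, h⟩ := hS s hs
    exact ⟨j, hj, by rw [Subgroup.mem_subgroupOf]; simpa using h⟩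
  have hgen' : N.subgroupOf N1 ⊔ Subgroup.closure S' = ⊤ := by
    rw [eq_top_iff]
    intro x _
    have hx : (x : G) ∈ (N.subgroupOf N1 ⊔ Subgroup.closure S').map N1.subtype := by
      rw [Subgroup.map_sup, Subgroup.subgroupOf_map_subtype, inf_of_le_left hle,
        MonoidHom.map_closure]
      have : (N1.subtype '' S') = S := by
        ext y
        constructor
        · rintro ⟨s, hs, rfl⟩
          exact hs
        · intro hy
          exact ⟨⟨y, hS1 hy⟩, hy, rfl⟩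
      rw [this]
      exact hgen x.2
    obtain ⟨y, hy, hyx⟩ := hx
    have : y = x := Subtype.ext hyx
    rwa [this] at hy
  obtain ⟨φ1, hext, hα⟩ := exists_extension (N.subgroupOf N1) hC φ' hinv' f hf hH S' hS' hgen'
  refine ⟨φ1, fun g x => ?_, fun n => ?_⟩
  · have hαN : ∀ n ∈ N.subgroupOf N1, (MulAut.conjNormal g : N1 ≃* N1) n ∈ N.subgroupOf N1 := by
      intro n hn
      rw [Subgroup.mem_subgroupOf, MulAut.conjNormal_apply]
      exact hN.conj_mem _ hn g
    have := hα (MulAut.conjNormal g : N1 ≃* N1) hαN ?_ x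
    · rw [← this]
      congr 1
    · intro n
      have := hinv g ⟨n, n.2⟩
      rw [← hφ' n.1 n.2] at this
      rw [← this]
      apply congrArg φ
      apply Subtype.ext
      exact MulAut.conjNormal_apply g (n : N1)
  · exact hext ⟨⟨n, hle n.2⟩, n.2⟩

omit hp in
/-- In a group of exponent `l` prime to `p` every `p`-subgroup is trivial, hence cyclic. -/
theorem isCyclic_of_isPGroup_of_exponent {H : Type*} [Group H] {l : ℕ} (hl : l.Coprime p)
    (hexp : ∀ h : H, h ^ l = 1) (Q : Subgroup H) (hQ : IsPGroup p Q) : IsCyclic Q := by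
  have : Subsingleton Q := by
    refine ⟨fun a b => ?_⟩
    have key : ∀ x : Q, x = 1 := by
      intro x
      obtain ⟨k, hk⟩ := hQ x
      have h1 : x ^ l = 1 := Subtype.ext (by simpa using hexp (x : H))
      have : orderOf x ∣ Nat.gcd l (p ^ k) :=
        Nat.dvd_gcd (orderOf_dvd_of_pow_eq_one h1) (orderOf_dvd_of_pow_eq_one hk)
      rw [(Nat.Coprime.pow_right k hl).gcd_eq_one, Nat.dvd_one, orderOf_eq_one_iff] at this
      exact this
    rw [key a, key b]
  exact isCyclic_of_subsingleton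

/-- **Extension lemma, exponent case**: if `N1 ⧸ N` has exponent `l` prime to `p`, every
`G`-invariant character `N →* C` (`C` of exponent `p`) extends `G`-invariantly to `N1`. -/
theorem exists_invariant_extension_of_exponent (N N1 : Subgroup G) [hN : N.Normal]
    [hN1 : N1.Normal] (hle : N ≤ N1) (hfin : N.relIndex N1 ≠ 0) [Finite C]
    (hC : ∀ c : C, c ^ p = 1) (φ : N →* C)
    (hinv : ∀ (g : G) (n : N), φ ⟨g * n * g⁻¹, hN.conj_mem n n.2 g⟩ = φ n)
    {l : ℕ} (hl : l.Coprime p) (hexp : ∀ x ∈ N1, x ^ l ∈ N) :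
    ∃ φ1 : N1 →* C,
      (∀ (g : G) (x : N1), φ1 ⟨g * x * g⁻¹, hN1.conj_mem x x.2 g⟩ = φ1 x) ∧
      ∀ n : N, φ1 ⟨n, hle n.2⟩ = φ n := by
  refine exists_invariant_extension N N1 hle hfin hC φ hinv
    (QuotientGroup.mk' (N.subgroupOf N1)) (QuotientGroup.ker_mk' _)
    (isCyclic_of_isPGroup_of_exponent hl ?_) (N1 : Set G) subset_rfl
    (fun s hs => ⟨l, hl, hexp s hs⟩) ?_
  · intro h
    obtain ⟨x, rfl⟩ := QuotientGroup.mk'_surjective _ h
    rw [← map_pow]
    change ((x ^ l : N1) : N1 ⧸ N.subgroupOf N1) = 1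
    rw [QuotientGroup.eq_one_iff, Subgroup.mem_subgroupOf]
    simpa using hexp x x.2
  · intro x hx
    exact Subgroup.mem_sup_right (Subgroup.subset_closure hx)

end Wrapper

end Fermat.Agent.S41.H39
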