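/-
S41 / package D-T (helper70): auxiliary facts on principal congruence subgroups used by the
tame extension step (T1) of helper2's Theorem T (#1456). Mathlib only.
-/
import Mathlib

set_option autoImplicit false

namespace Fermat.Agent.S41.H70

open CongruenceSubgroup Matrix MatrixGroups

/-- Membership in `Γ(N)` by divisibility of the integer entries. -/
theorem mem_Gamma_iff_dvd {N : ℕ} {γ : SL(2, ℤ)} :
    γ ∈ Gamma N ↔ (N : ℤ) ∣ γ 0 0 - 1 ∧ (N : ℤ) ∣ γ 0 1 ∧ (N : ℤ) ∣ γ 1 0 ∧ (N : ℤ) ∣ γ 1 1 - 1 := by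
  rw [Gamma_mem]
  have h1 : ∀ a : ℤ, ((a : ZMod N) = 1) ↔ (N : ℤ) ∣ a - 1 := by
    intro a
    rw [← ZMod.intCast_zmod_eq_zero_iff_dvd]
    push_cast
    exact sub_eq_zero.symm
  have h0 : ∀ a : ℤ, ((a : ZMod N) = 0) ↔ (N : ℤ) ∣ a := fun a =>
    ZMod.intCast_zmod_eq_zero_iff_dvd a N
  rw [h1, h0, h0, h1]

/-- `Γ(a) ⊓ Γ(b) = Γ(ab)` for coprime `a`, `b`. -/
theorem Gamma_inf_of_coprime {a b : ℕ} (h : a.Coprime b) : Gamma a ⊓ Gamma b = Gamma (a * b) := by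
  ext γ
  simp only [Subgroup.mem_inf, mem_Gamma_iff_dvd]
  have hc : IsCoprime (a : ℤ) (b : ℤ) := Nat.isCoprime_iff_coprime.mpr h
  have key : ∀ x : ℤ, ((a : ℤ) ∣ x ∧ (b : ℤ) ∣ x) ↔ ((a * b : ℕ) : ℤ) ∣ x := by
    intro x
    constructor
    · rintro ⟨h1, h2⟩
      push_cast
      exact hc.mul_dvd h1 h2
    · intro hx
      push_cast at hx
      exact ⟨dvd_trans (Dvd.intro _ rfl) hx, dvd_trans (Dvd.intro_left _ rfl) hx⟩
  constructor
  · rintro ⟨⟨p1, p2, p3, p4⟩, ⟨q1, q2, q3, q4⟩⟩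
    exact ⟨(key _).mp ⟨p1, q1⟩, (key _).mp ⟨p2, q2⟩, (key _).mp ⟨p3, q3⟩, (key _).mp ⟨p4, q4⟩⟩
  · rintro ⟨r1, r2, r3, r4⟩
    exact ⟨⟨((key _).mpr r1).1, ((key _).mpr r2).1, ((key _).mpr r3).1, ((key _).mpr r4).1⟩,
      ⟨((key _).mpr r1).2, ((key _).mpr r2).2, ((key _).mpr r3).2, ((key _).mpr r4).2⟩⟩

/-- Reduction mod `l`, restricted to `Γ(m1)`. -/
noncomputable def redHom (l m1 : ℕ) : Gamma m1 →* SL(2, ZMod l) :=
  (SpecialLinearGroup.map (Int.castRingHom (ZMod l))).comp (Gamma m1).subtype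

theorem ker_redHom {l m1 : ℕ} (h : l.Coprime m1) :
    (redHom l m1).ker = (Gamma (l * m1)).subgroupOf (Gamma m1) := by
  ext x
  rw [MonoidHom.mem_ker, Subgroup.mem_subgroupOf, ← Gamma_inf_of_coprime h, Subgroup.mem_inf]
  simp only [redHom, MonoidHom.comp_apply, Subgroup.coe_subtype]
  rw [← Gamma_mem']
  exact ⟨fun hx => ⟨hx, x.2⟩, fun hx => hx.1⟩

/-- In a ring, `(1 + y)^n = 1 + n • y` when `y * y = 0`. -/
theorem one_add_pow_of_sq_zero {R : Type*} [Ring R] (y : R) (hy : y * y = 0) (n : ℕ) :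
    (1 + y) ^ n = 1 + n • y := by
  induction n with
  | zero => simp
  | succ n ih =>
    have h0 : (n • y) * y = 0 := by rw [smul_mul_assoc, hy, smul_zero]
    calc (1 + y) ^ (n + 1) = (1 + n • y) * (1 + y) := by rw [pow_succ, ih]
      _ = 1 + n • y + y + (n • y) * y := by rw [mul_add, mul_one, add_mul, one_mul]; abel
      _ = 1 + (n + 1) • y := by rw [h0, add_zero, succ_nsmul]; abel

/-- If `l ∣ m1` and `g ∈ Γ(m1)` then `g ^ l ∈ Γ(l m1)`. -/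
theorem pow_mem_Gamma_mul_of_dvd {l m1 : ℕ} (hl : l ∣ m1) {g : SL(2, ℤ)} (hg : g ∈ Gamma m1) :
    g ^ l ∈ Gamma (l * m1) := by
  rw [Gamma_mem']
  rw [map_pow]
  obtain ⟨A, hA⟩ : ∃ A : SL(2, ZMod (l * m1)),
      A = SpecialLinearGroup.map (Int.castRingHom (ZMod (l * m1))) g := ⟨_, rfl⟩
  rw [← hA]
  -- matrix of A is 1 + y with y = m1 • X
  rw [mem_Gamma_iff_dvd] at hg
  obtain ⟨⟨x00, h00⟩, ⟨x01, h01⟩, ⟨x10, h10⟩, ⟨x11, h11⟩⟩ := hg
  let X : Matrix (Fin 2) (Fin 2) (ZMod (l * m1)) := !![(x00 : ZMod (l*m1)), x01; x10, x11]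
  have hAX : (A : Matrix (Fin 2) (Fin 2) (ZMod (l * m1))) = 1 + ((m1 : ZMod (l * m1))) • X := by
    ext i j
    have hval : (A : Matrix (Fin 2) (Fin 2) (ZMod (l * m1))) i j = ((g i j : ℤ) : ZMod (l * m1)) := by
      rw [hA]; exact SL_reduction_mod_hom_val (l * m1) g i j
    rw [hval]
    fin_cases i <;> fin_cases j
    · have : (g 0 0 : ℤ) = 1 + m1 * x00 := by linarith
      simp [X, this]
    · have : (g 0 1 : ℤ) = m1 * x01 := by linarith
      simp [X, this]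
    · have : (g 1 0 : ℤ) = m1 * x10 := by linarith
      simp [X, this]
    · have : (g 1 1 : ℤ) = 1 + m1 * x11 := by linarith
      simp [X, this]
  have hm2 : ((m1 : ZMod (l * m1))) * (m1 : ZMod (l * m1)) = 0 := by
    obtain ⟨c, hc⟩ := hl
    have : ((m1 * m1 : ℕ) : ZMod (l * m1)) = 0 := by
      rw [ZMod.natCast_eq_zero_iff]
      exact ⟨c, by rw [hc]; ring⟩
    exact_mod_cast this
  have hlm : ((l : ZMod (l * m1))) * (m1 : ZMod (l * m1)) = 0 := by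
    have : ((l * m1 : ℕ) : ZMod (l * m1)) = 0 := ZMod.natCast_self _
    exact_mod_cast this
  set y : Matrix (Fin 2) (Fin 2) (ZMod (l * m1)) := ((m1 : ZMod (l * m1))) • X with hy
  have hyy : y * y = 0 := by
    rw [hy, smul_mul_smul_comm, hm2, zero_smul]
  have hly : l • y = 0 := by
    rw [hy, ← Nat.cast_smul_eq_nsmul (ZMod (l * m1)), smul_smul, hlm, zero_smul]
  have hfin : (↑(A ^ l) : Matrix (Fin 2) (Fin 2) (ZMod (l * m1))) =
      ↑(1 : SL(2, ZMod (l * m1))) :=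
    calc (↑(A ^ l) : Matrix (Fin 2) (Fin 2) (ZMod (l * m1)))
        = (↑A : Matrix (Fin 2) (Fin 2) (ZMod (l * m1))) ^ l := Matrix.SpecialLinearGroup.coe_pow A l
      _ = (1 + y) ^ l := by rw [hAX]
      _ = 1 := by rw [one_add_pow_of_sq_zero y hyy, hly, add_zero]
      _ = ↑(1 : SL(2, ZMod (l * m1))) := Matrix.SpecialLinearGroup.coe_one.symm
  exact Subtype.ext hfin

/-- Conjugates of `T ^ m1`, raised to the `l`-th power, lie in `Γ(l m1)`. -/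
theorem conj_T_pow_pow_mem (l m1 : ℕ) (s : SL(2, ℤ)) :
    (s * ModularGroup.T ^ (m1 : ℤ) * s⁻¹) ^ l ∈ Gamma (l * m1) := by
  rw [conj_pow]
  apply (Gamma_normal (l * m1)).conj_mem
  rw [← zpow_natCast, ← _root_.zpow_mul]
  have := ModularGroup_T_pow_mem_Gamma ((l * m1 : ℕ) : ℤ) ((m1 : ℤ) * (l : ℤ))
    (by push_cast; exact ⟨1, by ring⟩)
  simpa using this

end Fermat.Agent.S41.H70
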