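/-
S41 / package D-T (helper70): the TAME EXTENSION STEP (T1) of helper2's Theorem T (#1456),
assembled from helper39's Lemma B (extension lemma), helper1's Lemma S (`p`-subgroups of
`SL(2, 𝔽_l)` are cyclic) and a generation statement (D-GEN) which enters as a hypothesis here.
-/
import Fermat.Agent.S41.H2_CSPDefs
import Fermat.Agent.S41.H39_CSP_LemmaB
import Fermat.Agent.S41.H1_CSP_LemmaS
import Fermat.Agent.S41.H70_CSP_TameAux

set_option autoImplicit false

namespace Fermat.Agent.S41.H70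

open CongruenceSubgroup Matrix MatrixGroups

/-- Every element of `Multiplicative (ZMod p)` has exponent `p`. -/
theorem pow_eq_one_multiplicative_zmod (p : ℕ) (c : Multiplicative (ZMod p)) : c ^ p = 1 := by
  apply Multiplicative.toAdd.injective
  rw [toAdd_pow, toAdd_one, nsmul_eq_mul, ZMod.natCast_self, zero_mul]

/-- `Γ(l m1)` has nonzero relative index in `Γ(m1)`. -/
theorem relIndex_Gamma_ne_zero {l m1 : ℕ} (hl : 0 < l) (hm1 : 0 < m1) :
    (Gamma (l * m1)).relIndex (Gamma m1) ≠ 0 := by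
  have hle : Gamma (l * m1) ≤ Gamma m1 := H2.Gamma_le_of_dvd (Dvd.intro_left l rfl)
  have : NeZero (l * m1) := ⟨(Nat.mul_pos hl hm1).ne'⟩
  intro h0
  have h1 := Subgroup.relIndex_mul_index hle
  rw [h0, zero_mul] at h1
  exact (Subgroup.FiniteIndex.index_ne_zero (H := Gamma (l * m1))) h1.symm

/-- **Tame extension step (T1)**, with the generation statement (D-GEN) as a hypothesis:
for primes `l ≠ p` (`p` odd) an `SL(2, ℤ)`-invariant character `Γ(l m1) → 𝔽_p` extends to an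
`SL(2, ℤ)`-invariant character of `Γ(m1)`. The element `x` (in practice `T ^ m1`) has
`x ∈ Γ(m1)`, `x ^ l ∈ Γ(l m1)`, and (when `l ∤ m1`) its conjugates generate `Γ(m1)` modulo
`Γ(l m1)`. -/
theorem tameStep_of_gen {p l m1 : ℕ} (hp : p.Prime) (hp2 : p ≠ 2) (hl : l.Prime) (hlp : l ≠ p)
    (hm1 : 0 < m1) (x : SL(2, ℤ)) (hx : x ∈ Gamma m1) (hxl : x ^ l ∈ Gamma (l * m1))
    (hgen : ¬ l ∣ m1 → Gamma m1 ≤ Gamma (l * m1) ⊔ Subgroup.normalClosure {x}) :
    H2.ExtensionStep p l m1 := by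
  intro φ hφ
  have : Fact p.Prime := ⟨hp⟩
  have : Fact l.Prime := ⟨hl⟩
  have hN : (Gamma (l * m1)).Normal := Gamma_normal (l * m1)
  have hN1 : (Gamma m1).Normal := Gamma_normal m1
  have hle : Gamma (l * m1) ≤ Gamma m1 := H2.Gamma_le_of_dvd (Dvd.intro_left l rfl)
  have hfin : (Gamma (l * m1)).relIndex (Gamma m1) ≠ 0 := relIndex_Gamma_ne_zero hl.pos hm1
  have hC : ∀ c : Multiplicative (ZMod p), c ^ p = 1 := pow_eq_one_multiplicative_zmod p
  have hcop : l.Coprime p := (Nat.coprime_primes hl hp).mpr hlp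
  have hinv : ∀ (g : SL(2, ℤ)) (n : Gamma (l * m1)),
      φ ⟨g * n * g⁻¹, hN.conj_mem n n.2 g⟩ = φ n := fun g n => hφ g n
  have key : ∃ φ1 : Gamma m1 →* Multiplicative (ZMod p),
      (∀ (g : SL(2, ℤ)) (y : Gamma m1), φ1 ⟨g * y * g⁻¹, hN1.conj_mem y y.2 g⟩ = φ1 y) ∧
      ∀ n : Gamma (l * m1), φ1 ⟨n, hle n.2⟩ = φ n := by
    by_cases hlm : l ∣ m1
    · exact H39.exists_invariant_extension_of_exponent (Gamma (l * m1)) (Gamma m1) hle hfin hC φ
        hinv hcop (fun y hy => pow_mem_Gamma_mul_of_dvd hlm hy)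
    · have hlm' : l.Coprime m1 := (Nat.Prime.coprime_iff_not_dvd hl).mpr hlm
      refine H39.exists_invariant_extension (Gamma (l * m1)) (Gamma m1) hle hfin hC φ hinv
        (redHom l m1) (ker_redHom hlm')
        (fun Q hQ => H1.isCyclic_of_isPGroup_SL2_zmod hp2 hlp.symm Q hQ)
        (Group.conjugatesOfSet {x}) ?_ ?_ (hgen hlm)
      · intro s hs
        rw [Group.mem_conjugatesOfSet_iff] at hs
        obtain ⟨b, hb, hbs⟩ := hs
        rw [Set.mem_singleton_iff] at hb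
        subst hb
        obtain ⟨c, rfl⟩ := isConj_iff.mp hbs
        exact hN1.conj_mem _ hx c
      · intro s hs
        rw [Group.mem_conjugatesOfSet_iff] at hs
        obtain ⟨b, hb, hbs⟩ := hs
        rw [Set.mem_singleton_iff] at hb
        subst hb
        obtain ⟨c, rfl⟩ := isConj_iff.mp hbs
        refine ⟨l, hcop, ?_⟩
        rw [conj_pow]
        exact hN.conj_mem _ hxl c
  obtain ⟨φ1, h1, h2⟩ := key
  exact ⟨φ1, fun σ g => h1 σ g, fun g => h2 g⟩

/-- The tame step with the concrete generator `T ^ m1`. -/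
theorem tameStep_of_gen_T {p l m1 : ℕ} (hp : p.Prime) (hp2 : p ≠ 2) (hl : l.Prime) (hlp : l ≠ p)
    (hm1 : 0 < m1)
    (hgen : ¬ l ∣ m1 →
      Gamma m1 ≤ Gamma (l * m1) ⊔ Subgroup.normalClosure {ModularGroup.T ^ (m1 : ℤ)}) :
    H2.ExtensionStep p l m1 := by
  refine tameStep_of_gen hp hp2 hl hlp hm1 (ModularGroup.T ^ (m1 : ℤ))
    (ModularGroup_T_pow_mem_Gamma m1 m1 dvd_rfl) ?_ hgen
  have := conj_T_pow_pow_mem l m1 1
  simpa using this

/-- **Theorem T** from the base case, the wild step and the generation statement. -/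
theorem theoremT_of_base_wild_gen {p : ℕ} (hp : p.Prime) (hp2 : p ≠ 2) (hbase : H2.BaseStep p)
    (hwild : ∀ m1 : ℕ, 0 < m1 → p ∣ m1 → H2.ExtensionStep p p m1)
    (hgen : ∀ l m1 : ℕ, l.Prime → 0 < m1 → ¬ l ∣ m1 →
      Gamma m1 ≤ Gamma (l * m1) ⊔ Subgroup.normalClosure {ModularGroup.T ^ (m1 : ℤ)}) :
    H2.TheoremT p := by
  refine H2.theoremT_of_steps hp hbase (fun l m1 hl hm1 hpm1 => ?_)
  by_cases hlp : l = p
  · subst hlp
    exact hwild m1 hm1 hpm1
  · exact tameStep_of_gen_T hp hp2 hl hlp hm1 (hgen l m1 hl hm1)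

end Fermat.Agent.S41.H70
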