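import Mathlib

/-!
# S41 / package D-BASE (helper89), part 1: the generic transfer argument

`transfer_eq_pow_of_invariant` : a variant of `MonoidHom.transfer_eq_pow` where the invariance of
the element under fusion is only required after applying the homomorphism.

`eq_one_of_invariant_of_cyclic_quotient` : let `N ≤ H ≤ G`, `N` normal in `G`, `H` of finite index
prime to `p`, `H = N ⟨t⟩` with `t ^ p ∈ N`, and let `φ : N → C` be a `G`-invariant homomorphism
with `φ ^ p = 1`.  If every homomorphism from `G` to a commutative group of exponent dividing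
`p ^ 2` kills `N`, then `φ = 1`.
-/

set_option autoImplicit false

namespace Fermat.Agent.S41.H89

open Subgroup MonoidHom

universe u

section Transfer

variable {G : Type*} [Group G] {H : Subgroup G} {A : Type*} [CommGroup A]

/-- A variant of `MonoidHom.transfer_eq_pow`: the fusion-invariance is only required after
applying `ϕ`. -/
theorem transfer_eq_pow_of_invariant [H.FiniteIndex] (ϕ : H →* A) (g : G) (hg : g ∈ H)
    (key : ∀ (k : ℕ) (g₀ : G) (hk : g₀⁻¹ * g ^ k * g₀ ∈ H),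
      ϕ ⟨g₀⁻¹ * g ^ k * g₀, hk⟩ = ϕ ⟨g, hg⟩ ^ k) :
    transfer ϕ g = ϕ ⟨g, hg⟩ ^ H.index := by
  classical
  have : Fintype (Quotient (MulAction.orbitRel (zpowers g) (G ⧸ H))) := Fintype.ofFinite _
  rw [index_eq_sum_minimalPeriod H g, ← Finset.prod_pow_eq_pow_sum,
    transfer_eq_prod_quotient_orbitRel_zpowers_quot]
  refine Finset.prod_congr rfl fun q _ => ?_
  exact key _ _ _

end Transfer

section Main

variable {G : Type u} [Group G]

/-- The kernel of an invariant homomorphism on a normal subgroup, as a subgroup of `G`. -/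
def kerIn (N : Subgroup G) {C : Type*} [CommGroup C] (φ : N →* C) : Subgroup G :=
  φ.ker.map N.subtype

theorem mem_kerIn {N : Subgroup G} {C : Type*} [CommGroup C] {φ : N →* C} {x : G} :
    x ∈ kerIn N φ ↔ ∃ hx : x ∈ N, φ ⟨x, hx⟩ = 1 := by
  constructor
  · rintro ⟨y, hy, rfl⟩
    exact ⟨y.2, hy⟩
  · rintro ⟨hx, h⟩
    exact ⟨⟨x, hx⟩, h, rfl⟩

theorem kerIn_normal (N : Subgroup G) [hN : N.Normal] {C : Type*} [CommGroup C] (φ : N →* C)
    (hinv : ∀ (s : G) (n : N), φ ⟨s * n * s⁻¹, hN.conj_mem n n.2 s⟩ = φ n) :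
    (kerIn N φ).Normal := by
  constructor
  intro x hx s
  obtain ⟨hxN, h⟩ := mem_kerIn.mp hx
  exact mem_kerIn.mpr ⟨hN.conj_mem x hxN s, (hinv s ⟨x, hxN⟩).trans h⟩

/-- **The transfer argument.** -/
theorem eq_one_of_invariant_of_cyclic_quotient
    (N H : Subgroup G) [hN : N.Normal] [H.FiniteIndex] (hNH : N ≤ H)
    {p : ℕ} {C : Type*} [CommGroup C]
    (φ : N →* C) (hC : ∀ n, φ n ^ p = 1)
    (hinv : ∀ (s : G) (n : N), φ ⟨s * n * s⁻¹, hN.conj_mem n n.2 s⟩ = φ n)
    (t : G) (htp : t ^ p ∈ N)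
    (hgen : ∀ h ∈ H, ∃ k : ℤ, h * t ^ k ∈ N)
    (hidx : Nat.Coprime p H.index)
    (hkill : ∀ (A : Type u) [CommGroup A] (f : G →* A),
      (∀ g, f g ^ (p ^ 2) = 1) → ∀ n ∈ N, f n = 1) :
    φ = 1 := by
  classical
  have hK : (kerIn N φ).Normal := kerIn_normal N φ hinv
  set π : G →* G ⧸ kerIn N φ := QuotientGroup.mk' (kerIn N φ) with hπ
  have hπ1 : ∀ x : G, π x = 1 ↔ x ∈ kerIn N φ := fun x => QuotientGroup.eq_one_iff x
  -- `π N` is central
  have hcentral : ∀ n ∈ N, ∀ s : G, π s * π n = π n * π s := by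
    intro n hn s
    have h1 : π (s * n * s⁻¹ * n⁻¹) = 1 := by
      rw [hπ1]
      refine mem_kerIn.mpr ⟨N.mul_mem (hN.conj_mem n hn s) (N.inv_mem hn), ?_⟩
      have : (⟨s * n * s⁻¹ * n⁻¹, N.mul_mem (hN.conj_mem n hn s) (N.inv_mem hn)⟩ : N)
          = ⟨s * n * s⁻¹, hN.conj_mem n hn s⟩ * (⟨n, hn⟩ : N)⁻¹ := rfl
      rw [this, map_mul, map_inv, hinv s ⟨n, hn⟩, mul_inv_cancel]
    have h2 : π s * π n * (π s)⁻¹ * (π n)⁻¹ = 1 := by simpa using h1
    have h3 : π s * π n * (π s)⁻¹ = π n := by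
      rw [mul_inv_eq_one] at h2; exact h2
    rw [mul_inv_eq_iff_eq_mul] at h3
    exact h3
  -- elements of `π H`
  have hform : ∀ h ∈ H, ∃ n ∈ N, ∃ k : ℤ, π h = π n * π t ^ k := by
    intro h hh
    obtain ⟨k, hk⟩ := hgen h hh
    refine ⟨h * t ^ k, hk, -k, ?_⟩
    rw [map_mul, map_zpow, zpow_neg, mul_inv_cancel_right]
  -- commutativity of the image of `H`
  have hcomm : ∀ x ∈ H.map π, ∀ y ∈ H.map π, x * y = y * x := by
    rintro _ ⟨h, hh, rfl⟩ _ ⟨h', hh', rfl⟩
    obtain ⟨n, hn, k, e⟩ := hform h hh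
    obtain ⟨n', hn', k', e'⟩ := hform h' hh'
    have c1 : ∀ j : ℤ, π t ^ j * π n' = π n' * π t ^ j := by
      intro j
      have := hcentral n' hn' (t ^ j)
      rwa [map_zpow] at this
    have c2 : ∀ j : ℤ, π t ^ j * π n = π n * π t ^ j := by
      intro j
      have := hcentral n hn (t ^ j)
      rwa [map_zpow] at this
    have c3 : π n * π n' = π n' * π n := (hcentral n' hn' n)
    rw [e, e']
    calc π n * π t ^ k * (π n' * π t ^ k') = π n * (π t ^ k * π n') * π t ^ k' := by group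
      _ = π n * (π n' * π t ^ k) * π t ^ k' := by rw [c1]
      _ = (π n * π n') * (π t ^ k * π t ^ k') := by group
      _ = (π n' * π n) * (π t ^ k' * π t ^ k) := by
          rw [c3, ← zpow_add, ← zpow_add, add_comm]
      _ = π n' * (π n * π t ^ k') * π t ^ k := by group
      _ = π n' * (π t ^ k' * π n) * π t ^ k := by rw [c2]
      _ = π n' * π t ^ k' * (π n * π t ^ k) := by group
  -- exponent of the image of `H`
  have hpN : ∀ n ∈ N, π n ^ p = 1 := by
    intro n hn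
    rw [← map_pow, hπ1]
    refine mem_kerIn.mpr ⟨N.pow_mem hn p, ?_⟩
    have : (⟨n ^ p, N.pow_mem hn p⟩ : N) = (⟨n, hn⟩ : N) ^ p := rfl
    rw [this, map_pow, hC]
  have hexp : ∀ x ∈ H.map π, x ^ (p ^ 2) = 1 := by
    rintro _ ⟨h, hh, rfl⟩
    obtain ⟨n, hn, k, e⟩ := hform h hh
    have c2 : Commute (π n) (π t ^ k) := by
      have := hcentral n hn (t ^ k)
      rw [map_zpow] at this
      exact this.symm
    have h1 : (π h) ^ p = π (n ^ p * (t ^ p) ^ k) := by
      rw [e, c2.mul_pow, map_mul, map_pow, map_zpow, map_pow]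
      congr 1
      rw [← zpow_natCast (π t ^ k), ← zpow_mul, mul_comm, zpow_mul, zpow_natCast]
    rw [pow_two, pow_mul, h1]
    exact hpN _ (N.mul_mem (N.pow_mem hn p) (N.zpow_mem htp k))
  -- the commutative target
  let instA : CommGroup ↥(H.map π) :=
    { (inferInstance : Group ↥(H.map π)) with
      mul_comm := fun x y => Subtype.ext (hcomm x x.2 y y.2) }
  let ψ : H →* ↥(H.map π) := π.subgroupMap H
  have hψ : ∀ h : H, ((ψ h : ↥(H.map π)) : G ⧸ kerIn N φ) = π h := fun h => rfl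
  let V : G →* ↥(H.map π) := transfer ψ
  have hV : ∀ g, V g ^ (p ^ 2) = 1 := fun g => Subtype.ext (by
    rw [Subgroup.coe_pow]; exact hexp _ (V g).2)
  ext n
  have hn1 : V n = 1 := hkill _ V hV n n.2
  have hn2 : V n = ψ ⟨n, hNH n.2⟩ ^ H.index := by
    refine transfer_eq_pow_of_invariant ψ n (hNH n.2) ?_
    intro k g₀ hk
    apply Subtype.ext
    rw [Subgroup.coe_pow, hψ, hψ]
    change π (g₀⁻¹ * (n : G) ^ k * g₀) = π n ^ k
    have := hcentral _ (N.pow_mem n.2 k) g₀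
    rw [map_mul, map_mul, map_inv, map_pow, mul_assoc, ← map_pow, ← this, inv_mul_cancel_left]
  have h3 : (ψ ⟨n, hNH n.2⟩) ^ H.index = 1 := by rw [← hn2, hn1]
  have h4 : (ψ ⟨n, hNH n.2⟩) ^ p = 1 := by
    apply Subtype.ext
    rw [Subgroup.coe_pow, hψ]
    exact hpN n n.2
  have h5 : ψ ⟨n, hNH n.2⟩ = 1 := by
    have := pow_gcd_eq_one.mpr ⟨h4, h3⟩
    rwa [Nat.Coprime.gcd_eq_one hidx, pow_one] at this
  have h6 : π n = 1 := by
    have := congrArg Subtype.val h5
    rwa [hψ] at this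
  obtain ⟨_, h7⟩ := mem_kerIn.mp ((hπ1 n).mp h6)
  simpa using h7

end Main

end Fermat.Agent.S41.H89
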