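import Mathlib
import Fermat.Agent.S20.H78_Index
import Fermat.Agent.S41.H2_CSPDefs
import Fermat.Agent.S41.H89_CSP_Transfer

/-!
# S41 / package D-BASE (helper89): the base case `m = p` of Theorem T (helper2 #1456, (T0))

`baseStep hp hp2 : H2.BaseStep p` : for an odd prime `p`, every `SL(2, ℤ)`-invariant character
`Γ(p) → 𝔽_p` is trivial.

Route: transfer from `SL(2, ℤ)` to `Γ₁(p) / ker φ` (commutative, index prime to `p`), and the
abelianisation of `SL(2, ℤ)` (exponent `12`; for `p = 3` the explicit character `chi3`).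
-/

set_option autoImplicit false

open Matrix ModularGroup CongruenceSubgroup
open scoped MatrixGroups

namespace Fermat.Agent.S41.H89

section Abelianisation

variable {A : Type*} [CommGroup A] (f : SL(2, ℤ) →* A)

theorem map_S_pow_four : f S ^ 4 = 1 := by
  have h : (S : SL(2, ℤ)) * S * S * S = 1 := by
    ext i j
    fin_cases i <;> fin_cases j <;> rfl
  have := congrArg f h
  simp only [map_mul, map_one] at this
  rw [← this]; simp only [pow_succ, pow_zero, one_mul]

theorem map_S_mul_map_T_pow_three : f S * f T ^ 3 = 1 := by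
  have h : S * (S * (S * (T * (S * (T * S))))) = (T⁻¹ : SL(2, ℤ)) := ModularGroup.T_S_rel
  have := congrArg f h
  simp only [map_mul, map_inv] at this
  have h2 : f S ^ 5 * f T ^ 2 = (f T)⁻¹ := by
    rw [← this]
    simp only [pow_succ, pow_zero, one_mul]
    ac_rfl
  have h5 : f S ^ 5 = f S := by rw [pow_succ, map_S_pow_four, one_mul]
  calc f S * f T ^ 3 = (f S ^ 5 * f T ^ 2) * f T := by rw [h5, pow_succ (f T) 2, mul_assoc]
    _ = 1 := by rw [h2, inv_mul_cancel]

/-- Every homomorphism from `SL(2, ℤ)` to a commutative group has exponent dividing `12`. -/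
theorem map_pow_twelve (g : SL(2, ℤ)) : f g ^ 12 = 1 := by
  have hS4 := map_S_pow_four f
  have hS : f S = (f T ^ 3)⁻¹ := eq_inv_of_mul_eq_one_left (map_S_mul_map_T_pow_three f)
  have hT12 : f T ^ 12 = 1 := by
    have : (f T ^ 3)⁻¹ ^ 4 = 1 := by rw [← hS, hS4]
    rw [inv_pow, inv_eq_one, ← pow_mul] at this
    exact this
  have hS12 : f S ^ 12 = 1 := by
    rw [show 12 = 4 * 3 from rfl, pow_mul, hS4, one_pow]
  have hle : Subgroup.closure ({S, T} : Set SL(2, ℤ)) ≤
      ((powMonoidHom 12 : A →* A).comp f).ker := by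
    rw [Subgroup.closure_le]
    rintro x (rfl | rfl)
    · simpa [MonoidHom.mem_ker] using hS12
    · simpa [MonoidHom.mem_ker] using hT12
  have : g ∈ ((powMonoidHom 12 : A →* A).comp f).ker :=
    hle (by rw [SpecialLinearGroup.SL2Z_generators]; trivial)
  simpa [MonoidHom.mem_ker] using this

end Abelianisation

section Chi3

/-- The polynomial formula for the character of order `3` of `SL(2, 𝔽₃)`. -/
def chi3F (a b c d : ZMod 3) : ZMod 3 := (a + d) * c - b * d * (c ^ 2 - 1)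

theorem chi3F_T : ∀ a b c d : ZMod 3, a * d - b * c = 1 →
    chi3F a (a + b) c (c + d) = chi3F a b c d + 1 := by decide

theorem chi3F_T_inv : ∀ a b c d : ZMod 3, a * d - b * c = 1 →
    chi3F a (-a + b) c (-c + d) = chi3F a b c d + 2 := by decide

theorem chi3F_S : ∀ a b c d : ZMod 3, a * d - b * c = 1 →
    chi3F b (-a) d (-c) = chi3F a b c d := by decide

theorem chi3F_S_inv : ∀ a b c d : ZMod 3, a * d - b * c = 1 →
    chi3F (-b) a (-d) c = chi3F a b c d := by decide

/-- The character of order `3` of `SL(2, ℤ)` as a function. -/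
def chi3 (g : SL(2, ℤ)) : ZMod 3 :=
  chi3F ((g 0 0 : ℤ) : ZMod 3) ((g 0 1 : ℤ) : ZMod 3) ((g 1 0 : ℤ) : ZMod 3) ((g 1 1 : ℤ) : ZMod 3)

theorem det_cast (g : SL(2, ℤ)) :
    ((g 0 0 : ℤ) : ZMod 3) * ((g 1 1 : ℤ) : ZMod 3) - ((g 0 1 : ℤ) : ZMod 3) * ((g 1 0 : ℤ) : ZMod 3)
      = 1 := by
  have h := g.2
  rw [Matrix.det_fin_two] at h
  have := congrArg (Int.cast : ℤ → ZMod 3) h
  push_cast at this
  exact this

theorem chi3_mul_T (g : SL(2, ℤ)) : chi3 (g * T) = chi3 g + 1 := by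
  have h := chi3F_T _ _ _ _ (det_cast g)
  rw [chi3, chi3, ← h]
  simp [Matrix.mul_apply, Fin.sum_univ_two, coe_T]

theorem chi3_mul_T_inv (g : SL(2, ℤ)) : chi3 (g * T⁻¹) = chi3 g + 2 := by
  have h := chi3F_T_inv _ _ _ _ (det_cast g)
  rw [chi3, chi3, ← h]
  simp [Matrix.mul_apply, Fin.sum_univ_two]

theorem chi3_mul_S (g : SL(2, ℤ)) : chi3 (g * S) = chi3 g := by
  have h := chi3F_S _ _ _ _ (det_cast g)
  rw [chi3, chi3, ← h]
  simp [Matrix.mul_apply, Fin.sum_univ_two, coe_S]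

theorem chi3_mul_S_inv (g : SL(2, ℤ)) : chi3 (g * S⁻¹) = chi3 g := by
  have h := chi3F_S_inv _ _ _ _ (det_cast g)
  rw [chi3, chi3, ← h]
  have hS : ((S⁻¹ : SL(2, ℤ)) : Matrix (Fin 2) (Fin 2) ℤ) = !![0, 1; -1, 0] := by
    rw [Matrix.SpecialLinearGroup.coe_inv, coe_S, Matrix.adjugate_fin_two_of]
    simp
  simp [Matrix.mul_apply, Fin.sum_univ_two, hS]

theorem chi3_one : chi3 1 = 0 := by
  simp [chi3, chi3F]

theorem chi3_of_mem_Gamma {g : SL(2, ℤ)} (hg : g ∈ Gamma 3) : chi3 g = 0 := by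
  rw [Gamma_mem] at hg
  obtain ⟨h00, h01, h10, h11⟩ := hg
  rw [chi3, h00, h01, h10, h11]
  decide

variable {A : Type*} [CommGroup A] (f : SL(2, ℤ) →* A)

/-- A homomorphism from `SL(2, ℤ)` to a commutative group of exponent `3` kills `Γ(3)`. -/
theorem eq_one_of_mem_Gamma_three (h3 : ∀ g, f g ^ 3 = 1) {g : SL(2, ℤ)} (hg : g ∈ Gamma 3) :
    f g = 1 := by
  have hS : f S = 1 := by
    have h4 := map_S_pow_four f
    have := h3 S
    calc f S = f S ^ 4 * (f S ^ 3)⁻¹ := by group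
      _ = 1 := by rw [h4, this]; simp
  have hτ : f T ^ 3 = 1 := h3 T
  have hpow : ∀ (c e : ZMod 3), f T ^ (c + e).val = f T ^ c.val * f T ^ e.val := by
    intro c e
    rw [ZMod.val_add, ← pow_add, ← pow_eq_pow_mod _ hτ]
  have key : ∀ x : SL(2, ℤ), f x = f T ^ (chi3 x).val := by
    intro x
    have hx : x ∈ Subgroup.closure ({S, T} : Set SL(2, ℤ)) := by
      rw [SpecialLinearGroup.SL2Z_generators]; trivial
    induction hx using Subgroup.closure_induction_right with
    | one => simp [chi3_one]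
    | mul_right x _ y hy ih =>
      rcases hy with rfl | rfl
      · rw [map_mul, hS, mul_one, chi3_mul_S, ih]
      · rw [map_mul, chi3_mul_T, hpow, ih]
        congr 1
        have : (1 : ZMod 3).val = 1 := rfl
        rw [this, pow_one]
    | mul_inv_cancel x _ y hy ih =>
      rcases hy with rfl | rfl
      · rw [map_mul, map_inv, hS, inv_one, mul_one, chi3_mul_S_inv, ih]
      · rw [map_mul, map_inv, chi3_mul_T_inv, hpow, ih]
        congr 1
        have : (2 : ZMod 3).val = 2 := rfl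
        rw [this]
        calc (f T)⁻¹ = (f T)⁻¹ * f T ^ 3 := by rw [hτ, mul_one]
          _ = f T ^ 2 := by group
  rw [key, chi3_of_mem_Gamma hg]
  simp

end Chi3

section Index

/-- The diagonal character `Γ₀(p) → (ℤ/p)ˣ`. -/
noncomputable def diagChar (p : ℕ) : ↥(Gamma0 p) →* (ZMod p)ˣ := (Gamma0Map p).toHomUnits

theorem diagChar_ker (p : ℕ) : (diagChar p).ker = Gamma1' p := by
  ext γ
  rw [MonoidHom.mem_ker, Gamma1_mem', diagChar, Units.ext_iff]
  rfl

theorem Gamma1_subgroupOf (p : ℕ) : (Gamma1 p).subgroupOf (Gamma0 p) = Gamma1' p := by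
  ext γ
  rw [Subgroup.mem_subgroupOf, Gamma1_mem, Gamma1_to_Gamma0_mem]

theorem relIndex_Gamma1_dvd (p : ℕ) [NeZero p] :
    (Gamma1 p).relIndex (Gamma0 p) ∣ Nat.card (ZMod p)ˣ := by
  rw [Subgroup.relIndex, Gamma1_subgroupOf, ← diagChar_ker, Subgroup.index_ker]
  exact Subgroup.card_subgroup_dvd_card _

theorem index_Gamma1_coprime {p : ℕ} (hp : p.Prime) : Nat.Coprime p (Gamma1 p).index := by
  have : NeZero p := ⟨hp.ne_zero⟩
  have : Fact p.Prime := ⟨hp⟩
  rw [← Subgroup.relIndex_mul_index (Gamma1_in_Gamma0 p), Fermat.Agent.S20.H78.index_Gamma0]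
  have h1 : ModularCurve.dedekindPsi p = p + 1 := by
    have := Fermat.Agent.S20.H78.dedekindPsi_prime_pow hp (k := 1) one_pos
    simpa using this
  rw [h1]
  refine Nat.Coprime.mul_right ?_ (by simp)
  have hdvd := relIndex_Gamma1_dvd p
  rw [Nat.card_eq_fintype_card, ZMod.card_units_eq_totient, Nat.totient_prime hp] at hdvd
  rw [Nat.Prime.coprime_iff_not_dvd hp]
  intro h
  have h2 : p ∣ p - 1 := dvd_trans h hdvd
  have h3 : p ≤ p - 1 := Nat.le_of_dvd (by have := hp.two_le; omega) h2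
  have := hp.two_le
  omega

end Index

section Base

theorem exists_zpow_mem_Gamma {p : ℕ} {h : SL(2, ℤ)} (hh : h ∈ Gamma1 p) :
    ∃ k : ℤ, h * T ^ k ∈ Gamma p := by
  rw [Gamma1_mem] at hh
  obtain ⟨h00, h11, h10⟩ := hh
  refine ⟨-(h 0 1), ?_⟩
  rw [Gamma_mem]
  simp only [Matrix.SpecialLinearGroup.coe_mul, coe_T_zpow, Matrix.mul_apply, Fin.sum_univ_two,
    Matrix.of_apply, Matrix.cons_val', Matrix.cons_val_zero, Matrix.cons_val_one,
    Matrix.cons_val_fin_one]
  push_cast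
  rw [h00, h11, h10]
  refine ⟨by ring, by ring, by ring, by ring⟩

theorem T_pow_mem_Gamma (p : ℕ) : (T : SL(2, ℤ)) ^ p ∈ Gamma p := by
  have := ModularGroup_T_pow_mem_Gamma (p : ℤ) (p : ℤ) dvd_rfl
  simpa using this

theorem multiplicative_zmod_pow (p : ℕ) (x : Multiplicative (ZMod p)) : x ^ p = 1 := by
  apply Multiplicative.toAdd.injective
  rw [toAdd_pow, toAdd_one, nsmul_eq_mul, ZMod.natCast_self, zero_mul]

/-- Homomorphisms from `SL(2, ℤ)` to a commutative group of exponent dividing `p ^ 2`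
(`p` an odd prime) kill `Γ(p)`. -/
theorem eq_one_of_pow_sq {p : ℕ} (hp : p.Prime) (hp2 : p ≠ 2) {A : Type*} [CommGroup A]
    (f : SL(2, ℤ) →* A) (hf : ∀ g, f g ^ (p ^ 2) = 1) {g : SL(2, ℤ)} (hg : g ∈ Gamma p) :
    f g = 1 := by
  by_cases hp3 : p = 3
  · subst hp3
    refine eq_one_of_mem_Gamma_three f (fun x => ?_) hg
    have := pow_gcd_eq_one.mpr ⟨hf x, map_pow_twelve f x⟩
    simpa using this
  · have hcop : Nat.Coprime (p ^ 2) 12 := by
      apply Nat.Coprime.pow_left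
      rw [Nat.Prime.coprime_iff_not_dvd hp]
      intro h
      have h12 : (12 : ℕ) = 2 ^ 2 * 3 := by norm_num
      rw [h12] at h
      rcases (Nat.Prime.dvd_mul hp).mp h with h | h
      · exact hp2 ((Nat.prime_dvd_prime_iff_eq hp Nat.prime_two).mp (hp.dvd_of_dvd_pow h))
      · exact hp3 ((Nat.prime_dvd_prime_iff_eq hp Nat.prime_three).mp h)
    have := pow_gcd_eq_one.mpr ⟨hf g, map_pow_twelve f g⟩
    rwa [Nat.Coprime.gcd_eq_one hcop, pow_one] at this

/-- **(T0), the base case of Theorem T** (helper2 #1456): for an odd prime `p`, every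
`SL(2, ℤ)`-invariant character `Γ(p) → 𝔽_p` is trivial. -/
theorem baseStep {p : ℕ} (hp : p.Prime) (hp2 : p ≠ 2) : Fermat.Agent.S41.H2.BaseStep p := by
  intro φ hφ
  have : NeZero p := ⟨hp.ne_zero⟩
  have hN : (Gamma p).Normal := Gamma_normal p
  have hNH : Gamma p ≤ Gamma1 p := by
    intro γ hγ
    rw [Gamma_mem] at hγ
    rw [Gamma1_mem]
    exact ⟨hγ.1, hγ.2.2.2, hγ.2.2.1⟩
  exact eq_one_of_invariant_of_cyclic_quotient (Gamma p) (Gamma1 p) hNH φ
    (fun n => multiplicative_zmod_pow p _) (fun s n => hφ s n) T (T_pow_mem_Gamma p)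
    (fun h hh => exists_zpow_mem_Gamma hh) (index_Gamma1_coprime hp)
    (fun A _ f hf n hn => eq_one_of_pow_sq hp hp2 f hf hn)

end Base

end Fermat.Agent.S41.H89
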