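/-
S41 / package D-T (helper70): THEOREM T of helper2 (#1456) from the wild extension step alone.
Base case: helper89 (`H89.baseStep`); tame step: `H70.tameStep_of_gen` with helper66's
generation statement (`H66.gamma_le_sup_normalClosure`).
-/
import Fermat.Agent.S41.H70_CSP_Tame
import Fermat.Agent.S41.H66_CSP_Gen
import Fermat.Agent.S41.H89_CSP_Base

set_option autoImplicit false

namespace Fermat.Agent.S41.H70

open CongruenceSubgroup Matrix MatrixGroups

/-- **The tame extension step (T1)**, unconditional: `l ≠ p` primes, `p` odd. -/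
theorem tameStep {p l m1 : ℕ} (hp : p.Prime) (hp2 : p ≠ 2) (hl : l.Prime) (hlp : l ≠ p)
    (hm1 : 0 < m1) : H2.ExtensionStep p l m1 := by
  refine tameStep_of_gen hp hp2 hl hlp hm1 (ModularGroup.T ^ m1) ?_ ?_
    (fun _ => H66.gamma_le_sup_normalClosure hl m1)
  · have := ModularGroup_T_pow_mem_Gamma m1 m1 dvd_rfl
    simpa using this
  · have := conj_T_pow_pow_mem l m1 1
    simpa using this

/-- **Theorem T** (helper2 #1456) from the wild extension step (T2). -/
theorem theoremT_of_wild {p : ℕ} (hp : p.Prime) (hp2 : p ≠ 2)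
    (hwild : ∀ m1 : ℕ, 0 < m1 → p ∣ m1 → H2.ExtensionStep p p m1) : H2.TheoremT p := by
  refine H2.theoremT_of_steps hp (H89.baseStep hp hp2) (fun l m1 hl hm1 hpm1 => ?_)
  by_cases hlp : l = p
  · subst hlp
    exact hwild m1 hm1 hpm1
  · exact tameStep hp hp2 hl hlp hm1

end Fermat.Agent.S41.H70
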