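import Fermat.Agent.S41.H57_CSP_Wild
import Fermat.Agent.S41.H70_CSP_TheoremTWild

/-!
# Theorem T (helper2 #1456), unconditional (helper57)

`theoremT : p.Prime → p ≠ 2 → H2.TheoremT p`: for an odd prime `p`, every `SL(2, ℤ)`-invariant
character `Γ(m) → 𝔽_p` with `p ∣ m`, `0 < m`, is trivial.  Assembly of helper70's
`H70.theoremT_of_wild` (base: helper89, tame: helper70/helper39/helper1/helper66) with the wild
step `H57.wild_extension`.
-/

set_option autoImplicit false

namespace Fermat.Agent.S41.H57

/-- **Theorem T**, unconditional. -/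
theorem theoremT {p : ℕ} (hp : p.Prime) (hp2 : p ≠ 2) : H2.TheoremT p :=
  H70.theoremT_of_wild hp hp2 (fun _ hm₁ hpm₁ => wild_extension hp hp2 hm₁ hpm₁)

end Fermat.Agent.S41.H57
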