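/-
S41 / (P) Poincare duality, package PD-ND (helper18), after helper60's blueprint (#1458/#1459):
the abstract finite part of the non-degeneracy modulo `p` of the trace pairing.

* `exists_coboundary` (N1): on a finite set, a function orthogonal to the `σ`-invariant
  functions is `w ∘ σ - w`.
* `pairing_coboundary` (N2), `three_dvd_pairing`, `exists_dual_cocycle` (N3),
  `pairing_cusp_coboundary`: the finite model (a finite set `D` with permutations `s`, `r`,
  `s² = 1 = r³`), cocycles `IsZ1`, the pairing `pairing`.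
* `exists_path_vector` (N4): the path lemma, for an arbitrary group `G = ⟨S, T⟩` and `D = G ⧸ Γ`.
* `FareySetup`, `IsCuspPrimitive`, `FareySetup.manin`, `FareySetup.trForm`, `FareySetup.conn`,
  `FareySetup.exists_primitive_of_isZ1`, and **`FareySetup.nondeg`** (Theorem ND).

Mathlib only.
-/
import Mathlib

set_option autoImplicit false
set_option linter.unusedSectionVars false

namespace Fermat.Agent.S41.H18

open Finset

section Finite

variable {D : Type*} [Fintype D]

/-- A purely sequential shift identity. -/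
theorem seq_shift (b : ℕ → ℤ) (n : ℕ) (hb : b n = b 0) (hsum : ∑ k ∈ range n, b k = 0) :
    ∑ k ∈ range n, (k : ℤ) * b (k + 1) = ∑ k ∈ range n, (k : ℤ) * b k + n * b 0 := by
  have h1 : ∑ k ∈ range (n + 1), (k : ℤ) * b k
      = ∑ k ∈ range n, ((k + 1 : ℕ) : ℤ) * b (k + 1) + ((0 : ℕ) : ℤ) * b 0 :=
    Finset.sum_range_succ' (fun k => (k : ℤ) * b k) n
  have h2 : ∑ k ∈ range (n + 1), (k : ℤ) * b k = ∑ k ∈ range n, (k : ℤ) * b k + n * b n :=
    Finset.sum_range_succ (fun k => (k : ℤ) * b k) n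
  have h3 : ∑ k ∈ range (n + 1), b k = ∑ k ∈ range n, b (k + 1) + b 0 :=
    Finset.sum_range_succ' b n
  have h4 : ∑ k ∈ range (n + 1), b k = ∑ k ∈ range n, b k + b n :=
    Finset.sum_range_succ b n
  have h5 : ∑ k ∈ range n, ((k + 1 : ℕ) : ℤ) * b (k + 1)
      = ∑ k ∈ range n, (k : ℤ) * b (k + 1) + ∑ k ∈ range n, b (k + 1) := by
    rw [← Finset.sum_add_distrib]
    refine Finset.sum_congr rfl fun k _ => ?_
    push_cast
    ring
  rw [hb] at h2 h4
  simp only [Nat.cast_zero, zero_mul, add_zero] at h1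
  linarith

/-- Shift of a full-period sum. -/
theorem sum_range_pow_succ_apply (σ : Equiv.Perm D) (n : ℕ) (hn : σ ^ n = 1) (g : D → ℤ) (x : D) :
    ∑ k ∈ range n, g ((σ ^ (k + 1)) x) = ∑ k ∈ range n, g ((σ ^ k) x) := by
  have h3 : ∑ k ∈ range (n + 1), g ((σ ^ k) x)
      = ∑ k ∈ range n, g ((σ ^ (k + 1)) x) + g ((σ ^ 0) x) :=
    Finset.sum_range_succ' (fun k => g ((σ ^ k) x)) n
  have h4 : ∑ k ∈ range (n + 1), g ((σ ^ k) x)
      = ∑ k ∈ range n, g ((σ ^ k) x) + g ((σ ^ n) x) :=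
    Finset.sum_range_succ (fun k => g ((σ ^ k) x)) n
  rw [hn, pow_zero] at *
  linarith

/-- If `v` is orthogonal to all `σ`-invariant functions then all full-period sums of `v`
vanish. -/
theorem period_sum_eq_zero (σ : Equiv.Perm D) (v : D → ℤ)
    (hv : ∀ h : D → ℤ, (∀ x, h (σ x) = h x) → ∑ x, h x * v x = 0)
    (n : ℕ) (hn : σ ^ n = 1) (x : D) : ∑ k ∈ range n, v ((σ ^ k) x) = 0 := by
  classical
  have key := hv (fun y => ∑ k ∈ range n, if (σ ^ k) x = y then 1 else 0) ?_
  · rw [← key]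
    simp only [Finset.sum_mul]
    rw [Finset.sum_comm]
    refine Finset.sum_congr rfl fun k _ => ?_
    simp
  · intro y
    have := sum_range_pow_succ_apply σ n hn (fun z => if z = σ y then (1 : ℤ) else 0) x
    rw [← this]
    refine Finset.sum_congr rfl fun k _ => ?_
    rw [pow_succ', Equiv.Perm.mul_apply]
    simp only [σ.injective.eq_iff]

/-- **(N1) coboundary lemma.** -/
theorem exists_coboundary (σ : Equiv.Perm D) (v : D → ℤ)
    (hv : ∀ h : D → ℤ, (∀ x, h (σ x) = h x) → ∑ x, h x * v x = 0) :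
    ∃ w : D → ℤ, ∀ x, w (σ x) - w x = v x := by
  classical
  set n := orderOf σ with hn
  have hnpos : 0 < n := orderOf_pos σ
  have hσn : σ ^ n = 1 := pow_orderOf_eq_one σ
  have hper := period_sum_eq_zero σ v hv n hσn
  refine ⟨fun x => (∑ k ∈ range n, (k : ℤ) * v ((σ ^ k) x)) / (n : ℤ), fun x => ?_⟩
  have hshift : ∑ k ∈ range n, (k : ℤ) * v ((σ ^ k) (σ x))
      = ∑ k ∈ range n, (k : ℤ) * v ((σ ^ k) x) + n * v x := by
    have := seq_shift (fun k => v ((σ ^ k) x)) n (by simp [hσn]) (hper x)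
    simp only [pow_zero, Equiv.Perm.one_apply] at this
    rw [← this]
    refine Finset.sum_congr rfl fun k _ => ?_
    rw [pow_succ, Equiv.Perm.mul_apply]
  simp only
  rw [hshift, Int.add_mul_ediv_left _ _ (by exact_mod_cast hnpos.ne')]
  ring

variable (s r : Equiv.Perm D)

/-- Manin-symbol cocycles on the finite set `D`: antisymmetric under `s`, with vanishing sums
over the orbits of `r` (`r` of order dividing `3`). -/
structure IsZ1 (f : D → ℤ) : Prop where
  anti : ∀ x, f (s x) = - f x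
  tri : ∀ x, f x + f (r x) + f (r (r x)) = 0

/-- The trace pairing on the finite model. -/
def pairing (f f' : D → ℤ) : ℤ :=
  ∑ x, (f (r (r x)) * f' (r x) - f (r x) * f' (r (r x)))

variable {s r}

theorem pairing_add_left (f₁ f₂ f' : D → ℤ) :
    pairing r (f₁ + f₂) f' = pairing r f₁ f' + pairing r f₂ f' := by
  simp only [pairing, Pi.add_apply, ← Finset.sum_add_distrib]
  exact Finset.sum_congr rfl fun x _ => by ring

theorem pairing_add_right (f f₁ f₂ : D → ℤ) :
    pairing r f (f₁ + f₂) = pairing r f f₁ + pairing r f f₂ := by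
  simp only [pairing, Pi.add_apply, ← Finset.sum_add_distrib]
  exact Finset.sum_congr rfl fun x _ => by ring

theorem pairing_smul_left (c : ℤ) (f f' : D → ℤ) :
    pairing r (c • f) f' = c * pairing r f f' := by
  simp only [pairing, Pi.smul_apply, smul_eq_mul, Finset.mul_sum]
  exact Finset.sum_congr rfl fun x _ => by ring

theorem pairing_smul_right (c : ℤ) (f f' : D → ℤ) :
    pairing r f (c • f') = c * pairing r f f' := by
  simp only [pairing, Pi.smul_apply, smul_eq_mul, Finset.mul_sum]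
  exact Finset.sum_congr rfl fun x _ => by ring

theorem pairing_antisymm (f f' : D → ℤ) : pairing r f f' = - pairing r f' f := by
  simp only [pairing, ← Finset.sum_neg_distrib]
  exact Finset.sum_congr rfl fun x _ => by ring

/-- A function with vanishing `r`-orbit sums is orthogonal to `r`-invariant functions. -/
theorem sum_mul_eq_zero_of_tri {f : D → ℤ} (hf : ∀ x, f x + f (r x) + f (r (r x)) = 0)
    (h : D → ℤ) (hh : ∀ x, h (r x) = h x) : ∑ x, f x * h x = 0 := by
  have h1 : ∑ x, f (r x) * h (r x) = ∑ x, f x * h x :=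
    Equiv.sum_comp r (fun x => f x * h x)
  have h2 : ∑ x, f (r (r x)) * h (r (r x)) = ∑ x, f x * h x :=
    (Equiv.sum_comp r (fun x => f (r x) * h (r x))).trans h1
  have h3 : ∑ x, (f x + f (r x) + f (r (r x))) * h x = 0 :=
    Finset.sum_eq_zero fun x _ => by rw [hf x, zero_mul]
  have h4 : ∑ x, (f x + f (r x) + f (r (r x))) * h x
      = ∑ x, f x * h x + ∑ x, f (r x) * h (r x) + ∑ x, f (r (r x)) * h (r (r x)) := by
    simp only [← Finset.sum_add_distrib]
    exact Finset.sum_congr rfl fun x _ => by rw [hh (r x), hh x]; ring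
  rw [h4, h1, h2] at h3
  linarith

/-- **(N2) key identity.** -/
theorem pairing_coboundary (hr3 : ∀ x, r (r (r x)) = x) (hs2 : ∀ x, s (s x) = x)
    {f : D → ℤ} (hf : IsZ1 s r f) (w : D → ℤ) :
    pairing r f (fun x => w x - w (r x)) = 3 * ∑ x, f x * (w (s x) - w (r x)) := by
  -- the three basic sums
  have hA : ∑ x, f (r (r x)) * w (r (r x)) = ∑ x, f x * w x :=
    (Equiv.sum_comp r (fun x => f (r x) * w (r x))).trans
      (Equiv.sum_comp r (fun x => f x * w x))
  have hB : ∑ x, f (r x) * w (r (r x)) = ∑ x, f x * w (r x) :=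
    Equiv.sum_comp r (fun x => f x * w (r x))
  have hC1 : ∑ x, f (r (r x)) * w (r x) = ∑ x, f (r x) * w x :=
    Equiv.sum_comp r (fun x => f (r x) * w x)
  have hC2 : ∑ x, f (r x) * w x = ∑ x, f x * w (r (r x)) := by
    have := Equiv.sum_comp r (fun x => f (r x) * w x)
    have h2 := Equiv.sum_comp r (fun x => f (r (r x)) * w (r x))
    simp only [hr3] at h2
    rw [← this, ← h2]
  have hS : ∑ x, f x * w (s x) = - ∑ x, f x * w x := by
    have := Equiv.sum_comp s (fun x => f x * w (s x))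
    simp only [hs2, hf.anti] at this
    rw [← this, ← Finset.sum_neg_distrib]
    exact Finset.sum_congr rfl fun x _ => by ring
  have hO : ∑ x, f x * (w x + w (r x) + w (r (r x))) = 0 :=
    sum_mul_eq_zero_of_tri hf.tri _ fun x => by rw [hr3]; ring
  have hO' : ∑ x, f x * w x + ∑ x, f x * w (r x) + ∑ x, f x * w (r (r x)) = 0 := by
    rw [← hO]
    simp only [← Finset.sum_add_distrib]
    exact Finset.sum_congr rfl fun x _ => by ring
  have hL : pairing r f (fun x => w x - w (r x))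
      = ∑ x, f (r (r x)) * w (r x) - ∑ x, f (r (r x)) * w (r (r x))
        - ∑ x, f (r x) * w (r (r x)) + ∑ x, f (r x) * w x := by
    simp only [pairing, hr3, ← Finset.sum_sub_distrib, ← Finset.sum_add_distrib]
    exact Finset.sum_congr rfl fun x _ => by ring
  have hR : ∑ x, f x * (w (s x) - w (r x)) = ∑ x, f x * w (s x) - ∑ x, f x * w (r x) := by
    simp only [← Finset.sum_sub_distrib]
    exact Finset.sum_congr rfl fun x _ => by ring
  rw [hL, hR, hA, hB, hC1, hC2, hS]
  linarith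

/-- The pairing of two cocycles is divisible by `3`. -/
theorem three_dvd_pairing (hr3 : ∀ x, r (r (r x)) = x) (hs2 : ∀ x, s (s x) = x)
    {f f' : D → ℤ} (hf : IsZ1 s r f) (hf' : IsZ1 s r f') : (3 : ℤ) ∣ pairing r f f' := by
  obtain ⟨w, hw⟩ := exists_coboundary r (fun x => - f' x) (fun h hh => by
    have := sum_mul_eq_zero_of_tri hf'.tri h hh
    rw [← neg_eq_zero, ← this, ← Finset.sum_neg_distrib]
    exact Finset.sum_congr rfl fun x _ => by ring)
  have hfw : f' = fun x => w x - w (r x) := by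
    funext x
    have := hw x
    linarith
  rw [hfw, pairing_coboundary hr3 hs2 hf w]
  exact dvd_mul_right _ _

/-- **(N3), finite form.** An `s`-antisymmetric function `u` which is orthogonal to the
functions invariant under `t = r⁻¹ s` is dual to a cocycle `f'`. -/
theorem exists_dual_cocycle (hr3 : ∀ x, r (r (r x)) = x) (hs2 : ∀ x, s (s x) = x)
    (u : D → ℤ) (hus : ∀ x, u (s x) = - u x)
    (hut : ∀ h : D → ℤ, (∀ x, h (r.symm (s x)) = h x) → ∑ x, h x * u x = 0) :
    ∃ f' : D → ℤ, IsZ1 s r f' ∧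
      ∀ f : D → ℤ, IsZ1 s r f → pairing r f f' = 3 * ∑ x, f x * u x := by
  -- orbit sums of `u` under `r * s` vanish
  obtain ⟨w, hw⟩ := exists_coboundary (s.trans r) u (fun h hh => by
    have hh' : ∀ x, h (r (s x)) = h x := hh
    have h1 := hut (fun y => h (s y)) (fun x => by
      have := hh' (s (r.symm (s x)))
      rw [hs2, Equiv.apply_symm_apply] at this
      exact this.symm)
    have h2 := Equiv.sum_comp s (fun x => h x * u (s x))
    simp only [hs2] at h2
    rw [h2] at h1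
    rw [← neg_eq_zero, ← h1, ← Finset.sum_neg_distrib]
    exact Finset.sum_congr rfl fun x _ => by rw [hus]; ring)
  have hw' : ∀ y, w (r (s y)) - w y = u y := hw
  have hu1 : ∀ x, u x = w (s x) - w (r x) := by
    intro x
    have h1 := hw' (s x)
    rw [hs2, hus] at h1
    linarith
  refine ⟨fun x => w x - w (r x), ⟨fun x => ?_, fun x => ?_⟩, fun f hf => ?_⟩
  · have h1 := hu1 x
    have h2 := hw' x
    linarith
  · simp only [hr3]
    ring
  · rw [pairing_coboundary hr3 hs2 hf w]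
    congr 1
    exact Finset.sum_congr rfl fun x _ => by rw [hu1 x]

/-- Coboundaries `h - h ∘ s` with `h` invariant under `t = r⁻¹ s` pair trivially with
cocycles. -/
theorem pairing_cusp_coboundary (hr3 : ∀ x, r (r (r x)) = x) (hs2 : ∀ x, s (s x) = x)
    {f : D → ℤ} (hf : IsZ1 s r f) (h : D → ℤ) (hh : ∀ x, h (r.symm (s x)) = h x) :
    pairing r f (fun x => h x - h (s x)) = 0 := by
  have hsymm : ∀ y, r.symm y = r (r y) := fun y => by
    rw [Equiv.symm_apply_eq, hr3]
  have hsr : ∀ y, h (s y) = h (r (r y)) := by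
    intro y
    have := hh (s y)
    rw [hs2, hsymm] at this
    exact this.symm
  have hfw : (fun x => h x - h (s x))
      = fun x => (fun y => h y + h (r y)) x - (fun y => h y + h (r y)) (r x) := by
    funext x
    simp only [hsr]
    ring
  rw [hfw, pairing_coboundary hr3 hs2 hf]
  have hO : ∑ x, f x * (h x + h (r x) + h (r (r x))) = 0 :=
    sum_mul_eq_zero_of_tri hf.tri _ fun x => by rw [hr3]; ring
  have hS : ∑ x, f x * h (s x) = - ∑ x, f x * h x := by
    have := Equiv.sum_comp s (fun x => f x * h (s x))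
    simp only [hs2, hf.anti] at this
    rw [← this, ← Finset.sum_neg_distrib]
    exact Finset.sum_congr rfl fun x _ => by ring
  have hS' : ∑ x, f x * h (r (s x)) = - ∑ x, f x * h (r x) := by
    have := Equiv.sum_comp s (fun x => f x * h (r (s x)))
    simp only [hs2, hf.anti] at this
    rw [← this, ← Finset.sum_neg_distrib]
    exact Finset.sum_congr rfl fun x _ => by ring
  have hsplit : ∑ x, f x * ((h (s x) + h (r (s x))) - (h (r x) + h (r (r x))))
      = ∑ x, f x * h (s x) + ∑ x, f x * h (r (s x)) - ∑ x, f x * h (r x)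
        - ∑ x, f x * h (r (r x)) := by
    simp only [← Finset.sum_add_distrib, ← Finset.sum_sub_distrib]
    exact Finset.sum_congr rfl fun x _ => by ring
  have hO' : ∑ x, f x * h x + ∑ x, f x * h (r x) + ∑ x, f x * h (r (r x)) = 0 := by
    rw [← hO]
    simp only [← Finset.sum_add_distrib]
    exact Finset.sum_congr rfl fun x _ => by ring
  have hc : ∑ x, f x * h (r (r x)) = ∑ x, f x * h (s x) :=
    Finset.sum_congr rfl fun x _ => by rw [hsr]
  rw [hsplit, hS, hS']
  rw [hc, hS] at hO' ⊢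
  linarith

end Finite

section Path

variable {G : Type*} [Group G] (Γ : Subgroup G) [Fintype (G ⧸ Γ)]

/-- **(N4) path lemma**, in a form which does not mention the set of cusps: `Φ` plays the role
of `g ↦ F (g • ∞)` and `f` of the Manin symbol of `F`. -/
theorem exists_path_vector (S T : G) (hgen : Subgroup.closure {S, T} = ⊤)
    (hSD : ∀ x : G ⧸ Γ, S • S • x = x) (g : G) :
    ∀ a : G, ∃ U : G ⧸ Γ → ℤ, (∀ x, U (S • x) = - U x) ∧
      ∀ (Φ : G → ℤ) (f : G ⧸ Γ → ℤ), (∀ g, Φ (g * T) = Φ g) → (∀ g, Φ (g * S * S) = Φ g) →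
        (∀ g : G, f ((g⁻¹ : G) : G ⧸ Γ) = Φ g - Φ (g * S)) →
        ∑ x, f x * U x = 2 * (Φ (a * g) - Φ a) := by
  classical
  have hg : g ∈ Subgroup.closure {S, T} := by rw [hgen]; trivial
  induction hg using Subgroup.closure_induction with
  | mem y hy =>
    intro a
    rcases hy with rfl | hy
    · -- the generator `S`
      set x : G ⧸ Γ := ((a⁻¹ : G) : G ⧸ Γ) with hx
      refine ⟨fun z => (if z = y • x then 1 else 0) - (if z = x then 1 else 0), fun z => ?_,
        fun Φ f hT hSS hf => ?_⟩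
      · have h1 : (y • z = y • x) ↔ z = x := (MulAction.injective y).eq_iff
        have h2 : (y • z = x) ↔ z = y • x := by
          constructor
          · intro h; rw [← h, hSD]
          · intro h; rw [h, hSD]
        simp only [h1, h2]
        ring
      · have e1 : f x = Φ a - Φ (a * y) := hf a
        have e2 : f (y • x) = Φ (a * y) - Φ a := by
          have h3 : y • x = (((a * y)⁻¹ : G) : G ⧸ Γ) := by
            rw [← hSD (((a * y)⁻¹ : G) : G ⧸ Γ), hx]
            congr 1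
            rw [MulAction.Quotient.smul_coe, smul_eq_mul, mul_inv_rev, mul_inv_cancel_left]
          rw [h3, hf (a * y), hSS]
        simp only [mul_sub, Finset.sum_sub_distrib, mul_ite, mul_one, mul_zero,
          Finset.sum_ite_eq', Finset.mem_univ, if_true, e1, e2]
        ring
    · -- the generator `T`
      rw [Set.mem_singleton_iff] at hy
      subst hy
      exact ⟨0, fun _ => by simp, fun Φ f hT _ _ => by simp [hT]⟩
  | one =>
    intro a
    exact ⟨0, fun _ => by simp, fun Φ f _ _ _ => by simp⟩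
  | mul g h _ _ ihg ihh =>
    intro a
    obtain ⟨U₁, hU₁, h₁⟩ := ihg a
    obtain ⟨U₂, hU₂, h₂⟩ := ihh (a * g)
    refine ⟨U₁ + U₂, fun x => ?_, fun Φ f hT hSS hf => ?_⟩
    · simp only [Pi.add_apply, hU₁, hU₂]; ring
    · simp only [Pi.add_apply, mul_add, Finset.sum_add_distrib, h₁ Φ f hT hSS hf,
        h₂ Φ f hT hSS hf, mul_assoc]
      ring
  | inv g _ ihg =>
    intro a
    obtain ⟨U, hU, h⟩ := ihg (a * g⁻¹)
    refine ⟨-U, fun x => ?_, fun Φ f hT hSS hf => ?_⟩
    · simp only [Pi.neg_apply, hU]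
    · simp only [Pi.neg_apply, mul_neg, Finset.sum_neg_distrib, h Φ f hT hSS hf,
        inv_mul_cancel_right]
      ring

end Path

section Cusps

variable {G : Type*} [Group G] {X : Type*} [MulAction G X] (Γ : Subgroup G)

/-- Cusp primitives: functions on the set of cusps whose `Γ`-translates differ from them by
constants (`Q_Γ(ℤ)`). -/
def IsCuspPrimitive (F : X → ℤ) : Prop :=
  ∀ γ ∈ Γ, ∃ c : ℤ, ∀ s : X, F (γ • s) = F s + c

theorem IsCuspPrimitive.add {F F' : X → ℤ} (hF : IsCuspPrimitive Γ F)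
    (hF' : IsCuspPrimitive Γ F') : IsCuspPrimitive Γ (F + F') := by
  intro γ hγ
  obtain ⟨c, hc⟩ := hF γ hγ
  obtain ⟨c', hc'⟩ := hF' γ hγ
  exact ⟨c + c', fun s => by simp only [Pi.add_apply, hc, hc']; ring⟩

theorem IsCuspPrimitive.smul {F : X → ℤ} (hF : IsCuspPrimitive Γ F) (n : ℤ) :
    IsCuspPrimitive Γ (n • F) := by
  intro γ hγ
  obtain ⟨c, hc⟩ := hF γ hγ
  exact ⟨n * c, fun s => by simp only [Pi.smul_apply, smul_eq_mul, hc]; ring⟩

theorem IsCuspPrimitive.sub_eq {F : X → ℤ} (hF : IsCuspPrimitive Γ F) {γ : G} (hγ : γ ∈ Γ)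
    (s s' : X) : F (γ • s) - F (γ • s') = F s - F s' := by
  obtain ⟨c, hc⟩ := hF γ hγ
  rw [hc, hc]; ring

variable (G X) in
/-- The combinatorial data of the Farey tessellation that the non-degeneracy argument uses:
`i = ∞`, `o = 0`, `e = 1`, `S` swaps `0` and `∞`, `R` rotates `∞ → 0 → 1 → ∞`. -/
structure FareySetup where
  S : G
  R : G
  i : X
  o : X
  e : X
  S_i : S • i = o
  S_o : S • o = i
  R_i : R • i = o
  R_o : R • o = e
  R_e : R • e = i
  gen : Subgroup.closure {S, R} = ⊤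
  trans : ∀ s : X, ∃ g : G, g • i = s

namespace FareySetup

variable {Γ} (Y : FareySetup G X)

/-- The translation `T = R⁻¹ S`. -/
def T : G := Y.R⁻¹ * Y.S

theorem T_i : Y.T • Y.i = Y.i := by
  rw [T, mul_smul, Y.S_i, inv_smul_eq_iff, Y.R_i]

theorem gen' : Subgroup.closure {Y.S, Y.T} = ⊤ := by
  rw [eq_top_iff, ← Y.gen, Subgroup.closure_le]
  have hS : Y.S ∈ Subgroup.closure {Y.S, Y.T} := Subgroup.subset_closure (Set.mem_insert _ _)
  have hT : Y.T ∈ Subgroup.closure {Y.S, Y.T} :=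
    Subgroup.subset_closure (Set.mem_insert_of_mem _ rfl)
  intro x hx
  rcases hx with rfl | hx
  · exact hS
  · rw [Set.mem_singleton_iff] at hx
    subst hx
    have : Y.R = Y.S * Y.T⁻¹ := by rw [T]; group
    rw [this]
    exact Subgroup.mul_mem _ hS (Subgroup.inv_mem _ hT)

/-- **(CONN)**: a function on cusps taking equal values at the two ends of every Farey edge
is constant. -/
theorem conn (k : X → ℤ) (hk : ∀ g : G, k (g • Y.i) = k (g • Y.o)) (s s' : X) : k s = k s' := by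
  have key : ∀ g : G, k (g • Y.i) = k Y.i := by
    intro g
    have hg : g ∈ Subgroup.closure {Y.S, Y.R} := by rw [Y.gen]; trivial
    induction hg using Subgroup.closure_induction_right with
    | one => rw [one_smul]
    | mul_right g _ y hy ih =>
      rcases hy with rfl | hy
      · rw [mul_smul, Y.S_i, ← hk, ih]
      · rw [Set.mem_singleton_iff] at hy
        subst hy
        rw [mul_smul, Y.R_i, ← hk, ih]
    | mul_inv_cancel g _ y hy ih =>
      rcases hy with rfl | hy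
      · have : Y.S⁻¹ • Y.i = Y.o := by rw [inv_smul_eq_iff, Y.S_o]
        rw [mul_smul, this, ← hk, ih]
      · rw [Set.mem_singleton_iff] at hy
        subst hy
        have h1 : Y.R⁻¹ • Y.i = Y.e := by rw [inv_smul_eq_iff, Y.R_e]
        have h2 : k (g • Y.e) = k (g • Y.i) := by
          have := hk (g * Y.R)
          rw [mul_smul, mul_smul, Y.R_i, Y.R_o] at this
          rw [← this, ← hk]
        rw [mul_smul, h1, h2, ih]
  obtain ⟨g, rfl⟩ := Y.trans s
  obtain ⟨g', rfl⟩ := Y.trans s'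
  rw [key, key]

section Manin

variable (Γ) [Fintype (G ⧸ Γ)]

/-- The Manin symbol of a function on cusps: `manin F (g Γ) = F (g⁻¹ ∞) - F (g⁻¹ 0)`. -/
noncomputable def manin (F : X → ℤ) (x : G ⧸ Γ) : ℤ :=
  F ((Quotient.out x)⁻¹ • Y.i) - F ((Quotient.out x)⁻¹ • Y.o)

variable {Γ}

theorem manin_mk {F : X → ℤ} (hF : IsCuspPrimitive Γ F) (g : G) :
    Y.manin Γ F (g : G ⧸ Γ) = F (g⁻¹ • Y.i) - F (g⁻¹ • Y.o) := by
  obtain ⟨γ, hγ⟩ := QuotientGroup.mk_out_eq_mul Γ g
  rw [manin, hγ, mul_inv_rev, mul_smul, mul_smul]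
  exact hF.sub_eq Γ (Γ.inv_mem γ.2) _ _

theorem manin_add (F F' : X → ℤ) : Y.manin Γ (F + F') = Y.manin Γ F + Y.manin Γ F' := by
  funext x
  simp only [manin, Pi.add_apply]
  ring

theorem manin_smul (n : ℤ) (F : X → ℤ) : Y.manin Γ (n • F) = n • Y.manin Γ F := by
  funext x
  simp only [manin, Pi.smul_apply, smul_eq_mul]
  ring

theorem S_inv_i : Y.S⁻¹ • Y.i = Y.o := by rw [inv_smul_eq_iff, Y.S_o]
theorem S_inv_o : Y.S⁻¹ • Y.o = Y.i := by rw [inv_smul_eq_iff, Y.S_i]
theorem R_inv_i : Y.R⁻¹ • Y.i = Y.e := by rw [inv_smul_eq_iff, Y.R_e]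
theorem R_inv_o : Y.R⁻¹ • Y.o = Y.i := by rw [inv_smul_eq_iff, Y.R_i]
theorem R_inv_e : Y.R⁻¹ • Y.e = Y.o := by rw [inv_smul_eq_iff, Y.R_o]

theorem manin_isZ1 {F : X → ℤ} (hF : IsCuspPrimitive Γ F) :
    IsZ1 (MulAction.toPerm Y.S) (MulAction.toPerm Y.R) (Y.manin Γ F) := by
  refine ⟨fun x => ?_, fun x => ?_⟩
  · induction x using QuotientGroup.induction_on with
    | H g =>
      rw [MulAction.toPerm_apply, MulAction.Quotient.smul_coe, smul_eq_mul, Y.manin_mk hF,
        Y.manin_mk hF, mul_inv_rev, mul_smul, mul_smul, Y.S_inv_i, Y.S_inv_o]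
      ring
  · induction x using QuotientGroup.induction_on with
    | H g =>
      simp only [MulAction.toPerm_apply, MulAction.Quotient.smul_coe, smul_eq_mul, Y.manin_mk hF,
        mul_inv_rev, mul_smul, Y.R_inv_i, Y.R_inv_o, Y.R_inv_e]
      ring

variable (Γ) in
/-- The trace form `tr_Γ(D[F,F'])` (three times the intersection pairing), computed on Manin
symbols. -/
noncomputable def trForm (F F' : X → ℤ) : ℤ :=
  pairing (MulAction.toPerm Y.R) (Y.manin Γ F) (Y.manin Γ F')

/-- **(FAREY)** `PSL₂(ℤ) = C₂ * C₃` in function form. -/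
def Farey : Prop :=
  ∀ w : G → ℤ, (∀ g, w (g * Y.S) = - w g) → (∀ g, w g + w (g * Y.R) + w (g * Y.R * Y.R) = 0) →
    ∃ F : X → ℤ, ∀ g, w g = F (g • Y.i) - F (g • Y.o)

/-- Every finite cocycle is the Manin symbol of a cusp primitive. -/
theorem exists_primitive_of_isZ1 (hFarey : Y.Farey) (hSD : ∀ x : G ⧸ Γ, Y.S • Y.S • x = x)
    {f : G ⧸ Γ → ℤ} (hf : IsZ1 (MulAction.toPerm Y.S) (MulAction.toPerm Y.R) f) :
    ∃ F : X → ℤ, IsCuspPrimitive Γ F ∧ Y.manin Γ F = f := by
  have hSinv : ∀ x : G ⧸ Γ, Y.S⁻¹ • x = Y.S • x := fun x => by rw [inv_smul_eq_iff, hSD]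
  obtain ⟨F, hFw⟩ := hFarey (fun g => f ((g⁻¹ : G) : G ⧸ Γ)) (fun g => by
      have := hf.anti ((g⁻¹ : G) : G ⧸ Γ)
      rw [MulAction.toPerm_apply] at this
      rw [← this, mul_inv_rev, ← hSinv, MulAction.Quotient.smul_coe, smul_eq_mul]) (fun g => by
      have := hf.tri (Y.R⁻¹ • Y.R⁻¹ • ((g⁻¹ : G) : G ⧸ Γ))
      simp only [MulAction.toPerm_apply, smul_inv_smul] at this
      simp only [mul_inv_rev, mul_assoc]
      simp only [MulAction.Quotient.smul_coe, smul_eq_mul] at this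
      linarith)
  have hFw' : ∀ g : G, f ((g⁻¹ : G) : G ⧸ Γ) = F (g • Y.i) - F (g • Y.o) := hFw
  have hprim : IsCuspPrimitive Γ F := by
    intro γ hγ
    have hconst := Y.conn (fun s => F (γ • s) - F s) (fun g => by
      have h1 := hFw' (γ * g)
      have h2 := hFw' g
      have h3 : (((γ * g)⁻¹ : G) : G ⧸ Γ) = ((g⁻¹ : G) : G ⧸ Γ) := by
        rw [QuotientGroup.eq]
        simpa using hγ
      rw [h3, h2, mul_smul, mul_smul] at h1
      linarith)
    refine ⟨F (γ • Y.i) - F Y.i, fun s => ?_⟩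
    have := hconst s Y.i
    linarith
  refine ⟨F, hprim, ?_⟩
  funext x
  induction x using QuotientGroup.induction_on with
  | H g =>
    rw [Y.manin_mk hprim, ← hFw' g⁻¹, inv_inv]

/-- **Theorem ND** (non-degeneracy modulo an odd prime `p` of `B = trForm / 3`). -/
theorem nondeg (hFarey : Y.Farey) (hSD : ∀ x : G ⧸ Γ, Y.S • Y.S • x = x)
    (hRD : ∀ x : G ⧸ Γ, Y.R • Y.R • Y.R • x = x) {p : ℕ} (hp : p.Prime) (hp2 : p ≠ 2)
    {F : X → ℤ} (hF : IsCuspPrimitive Γ F)
    (h : ∀ F' : X → ℤ, IsCuspPrimitive Γ F' → (3 * (p : ℤ)) ∣ Y.trForm Γ F F') :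
    ∃ F₁ : X → ℤ, IsCuspPrimitive Γ F₁ ∧
      ∀ γ ∈ Γ, ∀ s : X, F (γ • s) - F s = p * (F₁ (γ • s) - F₁ s) := by
  classical
  have hSinv : ∀ x : G ⧸ Γ, Y.S⁻¹ • x = Y.S • x := fun x => by rw [inv_smul_eq_iff, hSD]
  -- Step 1: all periods are divisible by `p`.
  have hdiv : ∀ γ ∈ Γ, (p : ℤ) ∣ F (γ • Y.i) - F Y.i := by
    intro γ hγ
    obtain ⟨U, hUS, hU⟩ := exists_path_vector Γ Y.S Y.T Y.gen' hSD γ 1
    -- `U` is orthogonal to the `T`-invariant functions
    have hUT : ∀ k : G ⧸ Γ → ℤ,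
        (∀ x, k ((MulAction.toPerm Y.R).symm ((MulAction.toPerm Y.S) x)) = k x) →
        ∑ x, k x * U x = 0 := by
      intro k hk
      have hk' : ∀ x : G ⧸ Γ, k (Y.T • x) = k x := fun x => by
        have := hk x
        rwa [MulAction.toPerm_symm_apply, MulAction.toPerm_apply, ← mul_smul] at this
      have hk'' : ∀ x : G ⧸ Γ, k (Y.T⁻¹ • x) = k x := fun x => by
        rw [← hk' (Y.T⁻¹ • x), smul_inv_smul]
      have key := hU (fun g => k ((g⁻¹ : G) : G ⧸ Γ)) (fun x => k x - k (Y.S • x))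
        (fun g => by
          have e : (((g * Y.T)⁻¹ : G) : G ⧸ Γ) = Y.T⁻¹ • ((g⁻¹ : G) : G ⧸ Γ) := by
            rw [mul_inv_rev]; rfl
          rw [e, hk''])
        (fun g => by
          have e : (((g * Y.S * Y.S)⁻¹ : G) : G ⧸ Γ) = Y.S⁻¹ • Y.S⁻¹ • ((g⁻¹ : G) : G ⧸ Γ) := by
            rw [mul_inv_rev, mul_inv_rev]; rfl
          rw [e, hSinv, hSinv, hSD])
        (fun g => by
          have e : (((g * Y.S)⁻¹ : G) : G ⧸ Γ) = Y.S⁻¹ • ((g⁻¹ : G) : G ⧸ Γ) := by
            rw [mul_inv_rev]; rfl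
          rw [e, hSinv])
      have h1 : ((((1 : G) * γ)⁻¹ : G) : G ⧸ Γ) = (((1 : G)⁻¹ : G) : G ⧸ Γ) := by
        rw [QuotientGroup.eq]
        simpa using hγ
      simp only [h1, sub_self, mul_zero] at key
      have h2 : ∑ x, k (Y.S • x) * U x = - ∑ x, k x * U x := by
        have := Equiv.sum_comp (MulAction.toPerm Y.S) (fun x : G ⧸ Γ => k (Y.S • x) * U x)
        simp only [MulAction.toPerm_apply, hSD, hUS] at this
        rw [← this, ← Finset.sum_neg_distrib]
        exact Finset.sum_congr rfl fun x _ => by ring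
      have h3 : ∑ x, (k x - k (Y.S • x)) * U x = ∑ x, k x * U x - ∑ x, k (Y.S • x) * U x := by
        rw [← Finset.sum_sub_distrib]
        exact Finset.sum_congr rfl fun x _ => by ring
      rw [h3, h2] at key
      linarith
    obtain ⟨f', hf', hpair⟩ := exists_dual_cocycle
      (s := MulAction.toPerm Y.S) (r := MulAction.toPerm Y.R)
      (fun x => by simpa using hRD x) (fun x => by simpa using hSD x) U
      (fun x => by simpa using hUS x) hUT
    obtain ⟨F', hF', hmF'⟩ := Y.exists_primitive_of_isZ1 hFarey hSD hf'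
    have h1 := h F' hF'
    rw [trForm, hmF', hpair _ (Y.manin_isZ1 hF)] at h1
    have h2 := hU (fun g => F (g • Y.i)) (Y.manin Γ F)
      (fun g => by rw [mul_smul, Y.T_i])
      (fun g => by rw [mul_smul, mul_smul, Y.S_i, Y.S_o])
      (fun g => by rw [Y.manin_mk hF, inv_inv, mul_smul, Y.S_i])
    rw [h2, one_mul, one_smul] at h1
    have h3 : (p : ℤ) ∣ 2 * (F (γ • Y.i) - F Y.i) := (mul_dvd_mul_iff_left (by norm_num)).mp h1
    have hcop : IsCoprime (p : ℤ) 2 := by
      rw [Int.isCoprime_iff_gcd_eq_one]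
      have : Nat.Coprime p 2 := (Nat.coprime_primes hp Nat.prime_two).mpr hp2
      simpa [Int.gcd] using this
    exact hcop.dvd_of_dvd_mul_left h3
  -- Step 2: divide.
  have hp0 : (p : ℤ) ≠ 0 := by exact_mod_cast hp.ne_zero
  have hper : ∀ γ ∈ Γ, ∃ c : ℤ, ∀ s : X, F (γ • s) = F s + p * c := by
    intro γ hγ
    obtain ⟨c, hc⟩ := hF γ hγ
    obtain ⟨c', hc'⟩ := hdiv γ hγ
    refine ⟨c', fun s => ?_⟩
    have := hc Y.i
    rw [hc s]
    linarith
  refine ⟨fun s => F s / p, fun γ hγ => ?_, fun γ hγ s => ?_⟩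
  · obtain ⟨c, hc⟩ := hper γ hγ
    exact ⟨c, fun s => by beta_reduce; rw [hc s, Int.add_mul_ediv_left _ _ hp0]⟩
  · obtain ⟨c, hc⟩ := hper γ hγ
    beta_reduce
    rw [hc s, Int.add_mul_ediv_left _ _ hp0]
    ring

/-! ### Further properties of the trace form (for the glue) -/

theorem trForm_add_left (F₁ F₂ F' : X → ℤ) :
    Y.trForm Γ (F₁ + F₂) F' = Y.trForm Γ F₁ F' + Y.trForm Γ F₂ F' := by
  rw [trForm, manin_add, pairing_add_left]; rfl

theorem trForm_add_right (F F₁ F₂ : X → ℤ) :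
    Y.trForm Γ F (F₁ + F₂) = Y.trForm Γ F F₁ + Y.trForm Γ F F₂ := by
  rw [trForm, manin_add, pairing_add_right]; rfl

theorem trForm_smul_left (n : ℤ) (F F' : X → ℤ) :
    Y.trForm Γ (n • F) F' = n * Y.trForm Γ F F' := by
  rw [trForm, manin_smul, pairing_smul_left]; rfl

theorem trForm_smul_right (n : ℤ) (F F' : X → ℤ) :
    Y.trForm Γ F (n • F') = n * Y.trForm Γ F F' := by
  rw [trForm, manin_smul, pairing_smul_right]; rfl

theorem trForm_antisymm (F F' : X → ℤ) : Y.trForm Γ F F' = - Y.trForm Γ F' F :=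
  pairing_antisymm _ _

theorem three_dvd_trForm (hSD : ∀ x : G ⧸ Γ, Y.S • Y.S • x = x)
    (hRD : ∀ x : G ⧸ Γ, Y.R • Y.R • Y.R • x = x) {F F' : X → ℤ}
    (hF : IsCuspPrimitive Γ F) (hF' : IsCuspPrimitive Γ F') : (3 : ℤ) ∣ Y.trForm Γ F F' :=
  three_dvd_pairing (s := MulAction.toPerm Y.S) (r := MulAction.toPerm Y.R)
    (fun x => by simpa using hRD x) (fun x => by simpa using hSD x)
    (Y.manin_isZ1 hF) (Y.manin_isZ1 hF')

/-- `Γ`-invariant functions on the cusps lie in the kernel of the trace form: the form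
descends to periods. -/
theorem trForm_invariant_right (hSD : ∀ x : G ⧸ Γ, Y.S • Y.S • x = x)
    (hRD : ∀ x : G ⧸ Γ, Y.R • Y.R • Y.R • x = x) {F : X → ℤ} (hF : IsCuspPrimitive Γ F)
    {k : X → ℤ} (hk : ∀ γ ∈ Γ, ∀ s : X, k (γ • s) = k s) : Y.trForm Γ F k = 0 := by
  have hkP : IsCuspPrimitive Γ k := fun γ hγ => ⟨0, fun s => by rw [hk γ hγ, add_zero]⟩
  have hSinv : ∀ x : G ⧸ Γ, Y.S⁻¹ • x = Y.S • x := fun x => by rw [inv_smul_eq_iff, hSD]
  -- the function `g Γ ↦ k (g⁻¹ ∞)` on `D`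
  let kt : G ⧸ Γ → ℤ := fun x => k ((Quotient.out x)⁻¹ • Y.i)
  have hkt : ∀ g : G, kt (g : G ⧸ Γ) = k (g⁻¹ • Y.i) := by
    intro g
    obtain ⟨γ, hγ⟩ := QuotientGroup.mk_out_eq_mul Γ g
    show k ((Quotient.out (g : G ⧸ Γ))⁻¹ • Y.i) = _
    rw [hγ, mul_inv_rev, mul_smul, hk _ (Γ.inv_mem γ.2)]
  have hm : Y.manin Γ k = fun x => kt x - kt ((MulAction.toPerm Y.S) x) := by
    funext x
    induction x using QuotientGroup.induction_on with
    | H g =>
      rw [Y.manin_mk hkP, MulAction.toPerm_apply, ← hSinv]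
      have e : Y.S⁻¹ • ((g : G) : G ⧸ Γ) = ((Y.S⁻¹ * g : G) : G ⧸ Γ) := rfl
      rw [e, hkt, hkt, mul_inv_rev, inv_inv, mul_smul, Y.S_i]
  rw [trForm, hm]
  refine pairing_cusp_coboundary (s := MulAction.toPerm Y.S) (r := MulAction.toPerm Y.R)
    (fun x => by simpa using hRD x) (fun x => by simpa using hSD x) (Y.manin_isZ1 hF) kt
    (fun x => ?_)
  induction x using QuotientGroup.induction_on with
  | H g =>
    rw [MulAction.toPerm_symm_apply, MulAction.toPerm_apply]
    have e : Y.R⁻¹ • Y.S • ((g : G) : G ⧸ Γ) = ((Y.T * g : G) : G ⧸ Γ) := by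
      rw [T, mul_assoc]; rfl
    have hTi : Y.T⁻¹ • Y.i = Y.i := by rw [inv_smul_eq_iff, Y.T_i]
    rw [e, hkt, hkt, mul_inv_rev, mul_smul, hTi]

theorem trForm_invariant_left (hSD : ∀ x : G ⧸ Γ, Y.S • Y.S • x = x)
    (hRD : ∀ x : G ⧸ Γ, Y.R • Y.R • Y.R • x = x) {F : X → ℤ} (hF : IsCuspPrimitive Γ F)
    {k : X → ℤ} (hk : ∀ γ ∈ Γ, ∀ s : X, k (γ • s) = k s) : Y.trForm Γ k F = 0 := by
  rw [trForm_antisymm, Y.trForm_invariant_right hSD hRD hF hk, neg_zero]

/-- The "area" 2-cocycle `D[F,F']` of helper60's blueprint. -/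
def area (F F' : X → ℤ) (a b c : X) : ℤ :=
  (F b - F a) * (F' c - F' b) - (F c - F b) * (F' b - F' a)

/-- The trace form is the trace `∑_{x = gΓ} D[F,F'](g⁻¹ 0, g⁻¹ 1, g⁻¹ ∞)`. -/
theorem trForm_eq_sum_area {F F' : X → ℤ} (hF : IsCuspPrimitive Γ F)
    (hF' : IsCuspPrimitive Γ F') :
    Y.trForm Γ F F' = ∑ x : G ⧸ Γ,
      area F F' ((Quotient.out x)⁻¹ • Y.o) ((Quotient.out x)⁻¹ • Y.e)
        ((Quotient.out x)⁻¹ • Y.i) := by
  rw [trForm, pairing]
  refine Finset.sum_congr rfl fun x _ => ?_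
  have hx : ((Quotient.out x : G) : G ⧸ Γ) = x := QuotientGroup.out_eq' x
  set g : G := Quotient.out x with hg
  have e1 : (MulAction.toPerm Y.R) x = ((Y.R * g : G) : G ⧸ Γ) := by
    rw [MulAction.toPerm_apply, ← hx]; rfl
  have e2 : (MulAction.toPerm Y.R) ((MulAction.toPerm Y.R) x)
      = ((Y.R * (Y.R * g) : G) : G ⧸ Γ) := by
    rw [e1, MulAction.toPerm_apply]; rfl
  rw [e2, e1, Y.manin_mk hF, Y.manin_mk hF, Y.manin_mk hF', Y.manin_mk hF']
  simp only [mul_inv_rev, mul_smul, Y.R_inv_i, Y.R_inv_o, Y.R_inv_e, area]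
  ring

end Manin

end FareySetup

end Cusps

end Fermat.Agent.S41.H18
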