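import Mathlib

/-!
S41 / PD-OR (helper41): the orientation cocycle on `P^1(ℚ) = OnePoint ℚ`.

`orientation a b c = sign (det(a,b) det(b,c) det(c,a))` (determinants of representing vectors) is an
alternating `ℤ`-valued 2-cocycle, invariant under `GL (Fin 2) ℚ`-elements of positive determinant
(negated by those of negative determinant), with `orientation 0 1 ∞ = 1`.
-/

set_option autoImplicit false

namespace Fermat.Agent.S41.H41

open OnePoint

/-- The sign of a rational number, as an integer. -/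
def sgn (x : ℚ) : ℤ := if 0 < x then 1 else if x < 0 then -1 else 0

theorem sgn_of_pos {x : ℚ} (h : 0 < x) : sgn x = 1 := by simp [sgn, h]

theorem sgn_of_neg {x : ℚ} (h : x < 0) : sgn x = -1 := by
  simp [sgn, h, not_lt.mpr h.le]

@[simp] theorem sgn_zero : sgn 0 = 0 := by simp [sgn]

theorem sgn_eq_one_iff {x : ℚ} : sgn x = 1 ↔ 0 < x := by
  unfold sgn
  split_ifs with h1 h2 <;> simp [h1]

theorem sgn_eq_neg_one_iff {x : ℚ} : sgn x = -1 ↔ x < 0 := by
  unfold sgn
  split_ifs with h1 h2
  · simp [not_lt.mpr h1.le]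
  · simp [h2]
  · simp [h2]

theorem sgn_eq_zero_iff {x : ℚ} : sgn x = 0 ↔ x = 0 := by
  unfold sgn
  split_ifs with h1 h2
  · simp [h1.ne']
  · simp [h2.ne]
  · simp only [true_iff]
    exact le_antisymm (not_lt.mp h1) (not_lt.mp h2)

theorem sgn_cases_of_ne {x : ℚ} (h : x ≠ 0) : sgn x = 1 ∨ sgn x = -1 := by
  rcases lt_or_gt_of_ne h with h1 | h1
  · exact Or.inr (sgn_of_neg h1)
  · exact Or.inl (sgn_of_pos h1)

theorem sgn_neg (x : ℚ) : sgn (-x) = -sgn x := by
  rcases lt_trichotomy x 0 with h | h | h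
  · rw [sgn_of_neg h, sgn_of_pos (neg_pos.mpr h)]; simp
  · subst h; simp
  · rw [sgn_of_pos h, sgn_of_neg (neg_neg_of_pos h)]

theorem sgn_mul (x y : ℚ) : sgn (x * y) = sgn x * sgn y := by
  rcases lt_trichotomy x 0 with hx | hx | hx <;> rcases lt_trichotomy y 0 with hy | hy | hy
  · rw [sgn_of_neg hx, sgn_of_neg hy, sgn_of_pos (mul_pos_of_neg_of_neg hx hy)]; simp
  · subst hy; simp
  · rw [sgn_of_neg hx, sgn_of_pos hy, sgn_of_neg (mul_neg_of_neg_of_pos hx hy)]; simp
  · subst hx; simp
  · subst hx; simp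
  · subst hx; simp
  · rw [sgn_of_pos hx, sgn_of_neg hy, sgn_of_neg (mul_neg_of_pos_of_neg hx hy)]; simp
  · subst hy; simp
  · rw [sgn_of_pos hx, sgn_of_pos hy, sgn_of_pos (mul_pos hx hy)]; simp

theorem sgn_mul_self_of_ne {x : ℚ} (h : x ≠ 0) : sgn x * sgn x = 1 := by
  rcases sgn_cases_of_ne h with h1 | h1 <;> rw [h1] <;> norm_num

/-- The determinant of two vectors of `ℚ²`. -/
def det2 (v w : ℚ × ℚ) : ℚ := v.1 * w.2 - v.2 * w.1

/-- The standard vector representing a point of `P^1(ℚ)`: `∞ ↦ (1,0)`, `x ↦ (x,1)`. -/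
def rep (a : OnePoint ℚ) : ℚ × ℚ :=
  match a with
  | Option.none => (1, 0)
  | Option.some x => (x, 1)

@[simp] theorem rep_infty : rep (∞ : OnePoint ℚ) = (1, 0) := rfl

@[simp] theorem rep_coe (x : ℚ) : rep (x : OnePoint ℚ) = (x, 1) := rfl

theorem rep_ne_zero (a : OnePoint ℚ) : rep a ≠ 0 := by
  induction a using OnePoint.rec with
  | infty => simp [Prod.ext_iff]
  | coe x => simp [Prod.ext_iff]

/-- The determinant of the standard representatives. -/
def dd (a b : OnePoint ℚ) : ℚ := det2 (rep a) (rep b)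

theorem dd_swap (a b : OnePoint ℚ) : dd b a = -dd a b := by
  unfold dd det2; ring

theorem dd_eq_zero_iff {a b : OnePoint ℚ} : dd a b = 0 ↔ a = b := by
  induction a using OnePoint.rec with
  | infty =>
    induction b using OnePoint.rec with
    | infty => simp [dd, det2]
    | coe y => simp [dd, det2]
  | coe x =>
    induction b using OnePoint.rec with
    | infty => simp [dd, det2]
    | coe y =>
      simp only [dd, det2, rep_coe, mul_one, one_mul, OnePoint.coe_eq_coe]
      exact sub_eq_zero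

theorem dd_plucker (a b c d : OnePoint ℚ) :
    dd a b * dd c d - dd a c * dd b d + dd a d * dd b c = 0 := by
  unfold dd det2; ring

/-- The orientation cocycle on `P^1(ℚ)`. -/
def orientation (a b c : OnePoint ℚ) : ℤ := sgn (dd a b) * sgn (dd b c) * sgn (dd c a)

theorem orientation_swap₁₂ (a b c : OnePoint ℚ) : orientation b a c = -orientation a b c := by
  unfold orientation
  rw [dd_swap a b, dd_swap c a, dd_swap b c, sgn_neg, sgn_neg, sgn_neg]
  ring

theorem orientation_cyclic (a b c : OnePoint ℚ) : orientation b c a = orientation a b c := by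
  unfold orientation
  ring

theorem orientation_swap₂₃ (a b c : OnePoint ℚ) : orientation a c b = -orientation a b c := by
  rw [← orientation_cyclic a c b, orientation_swap₁₂, orientation_cyclic]

theorem orientation_swap₁₃ (a b c : OnePoint ℚ) : orientation c b a = -orientation a b c := by
  rw [← orientation_cyclic c b a, orientation_swap₂₃ , orientation_cyclic]

theorem orientation_self_left (a c : OnePoint ℚ) : orientation a a c = 0 := by
  unfold orientation
  rw [dd_eq_zero_iff.mpr rfl]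
  simp

theorem orientation_self_right (a c : OnePoint ℚ) : orientation c a a = 0 := by
  rw [← orientation_cyclic, orientation_self_left]

theorem orientation_self_outer (a c : OnePoint ℚ) : orientation a c a = 0 := by
  rw [orientation_cyclic, orientation_self_left]

theorem orientation_zero_one_infty : orientation (0 : ℚ) (1 : ℚ) ∞ = 1 := by
  unfold orientation dd det2
  simp only [rep_coe, rep_infty]
  norm_num
  rw [sgn_of_neg (by norm_num : (-1 : ℚ) < 0), sgn_of_pos (by norm_num : (0 : ℚ) < 1)]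
  norm_num


/-- The combinatorial core of the cocycle identity: a finite check on sign patterns. -/
theorem sign_cocycle_aux (s12 s13 s14 s23 s24 s34 : ℤ)
    (h12 : s12 = 1 ∨ s12 = -1) (h13 : s13 = 1 ∨ s13 = -1) (h14 : s14 = 1 ∨ s14 = -1)
    (h23 : s23 = 1 ∨ s23 = -1) (h24 : s24 = 1 ∨ s24 = -1) (h34 : s34 = 1 ∨ s34 = -1)
    (hA : ¬ (s12 * s34 = 1 ∧ s13 * s24 = -1 ∧ s14 * s23 = 1))
    (hB : ¬ (s12 * s34 = -1 ∧ s13 * s24 = 1 ∧ s14 * s23 = -1)) :
    -(s23 * s34 * s24) + s13 * s34 * s14 - s12 * s24 * s14 + s12 * s23 * s13 = 0 := by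
  rcases h12 with rfl | rfl <;> rcases h13 with rfl | rfl <;> rcases h14 with rfl | rfl <;>
    rcases h23 with rfl | rfl <;> rcases h24 with rfl | rfl <;> rcases h34 with rfl | rfl <;>
    first
      | rfl
      | (exfalso; apply hA; decide)
      | (exfalso; apply hB; decide)

theorem orientation_cocycle_of_ne {a b c d : OnePoint ℚ} (hab : a ≠ b) (hac : a ≠ c)
    (had : a ≠ d) (hbc : b ≠ c) (hbd : b ≠ d) (hcd : c ≠ d) :
    orientation b c d - orientation a c d + orientation a b d - orientation a b c = 0 := by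
  have n12 : dd a b ≠ 0 := fun h => hab (dd_eq_zero_iff.mp h)
  have n13 : dd a c ≠ 0 := fun h => hac (dd_eq_zero_iff.mp h)
  have n14 : dd a d ≠ 0 := fun h => had (dd_eq_zero_iff.mp h)
  have n23 : dd b c ≠ 0 := fun h => hbc (dd_eq_zero_iff.mp h)
  have n24 : dd b d ≠ 0 := fun h => hbd (dd_eq_zero_iff.mp h)
  have n34 : dd c d ≠ 0 := fun h => hcd (dd_eq_zero_iff.mp h)
  have hP := dd_plucker a b c d
  have hA : ¬ (sgn (dd a b) * sgn (dd c d) = 1 ∧ sgn (dd a c) * sgn (dd b d) = -1 ∧
      sgn (dd a d) * sgn (dd b c) = 1) := by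
    rintro ⟨h1, h2, h3⟩
    rw [← sgn_mul, sgn_eq_one_iff] at h1 h3
    rw [← sgn_mul, sgn_eq_neg_one_iff] at h2
    linarith
  have hB : ¬ (sgn (dd a b) * sgn (dd c d) = -1 ∧ sgn (dd a c) * sgn (dd b d) = 1 ∧
      sgn (dd a d) * sgn (dd b c) = -1) := by
    rintro ⟨h1, h2, h3⟩
    rw [← sgn_mul, sgn_eq_neg_one_iff] at h1 h3
    rw [← sgn_mul, sgn_eq_one_iff] at h2
    linarith
  have key := sign_cocycle_aux _ _ _ _ _ _ (sgn_cases_of_ne n12) (sgn_cases_of_ne n13)
    (sgn_cases_of_ne n14) (sgn_cases_of_ne n23) (sgn_cases_of_ne n24) (sgn_cases_of_ne n34) hA hB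
  unfold orientation
  rw [dd_swap b d, dd_swap a d, dd_swap a c, sgn_neg, sgn_neg, sgn_neg]
  linear_combination key

/-- **The cocycle identity** for the orientation. -/
theorem orientation_cocycle (a b c d : OnePoint ℚ) :
    orientation b c d - orientation a c d + orientation a b d - orientation a b c = 0 := by
  by_cases hab : a = b
  · subst hab
    rw [orientation_self_left, orientation_self_left]; ring
  by_cases hac : a = c
  · subst hac
    rw [orientation_self_left, orientation_self_outer, orientation_swap₁₂ b a d]; ring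
  by_cases had : a = d
  · subst had
    rw [orientation_self_outer, orientation_self_outer, orientation_cyclic a b c]; ring
  by_cases hbc : b = c
  · subst hbc
    rw [orientation_self_left, orientation_self_right]; ring
  by_cases hbd : b = d
  · subst hbd
    rw [orientation_self_outer, orientation_self_right, orientation_swap₂₃ a b c]; ring
  by_cases hcd : c = d
  · subst hcd
    rw [orientation_self_right, orientation_self_right]; ring
  exact orientation_cocycle_of_ne hab hac had hbc hbd hcd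


/-- The point of `P^1(ℚ)` represented by a (nonzero) vector. -/
def ofVec (w : ℚ × ℚ) : OnePoint ℚ := if w.2 = 0 then ∞ else ((w.1 / w.2 : ℚ) : OnePoint ℚ)

theorem rep_ofVec {w : ℚ × ℚ} (hw : w ≠ 0) :
    ∃ μ : ℚ, μ ≠ 0 ∧ rep (ofVec w) = (μ * w.1, μ * w.2) := by
  unfold ofVec
  by_cases h2 : w.2 = 0
  · have h1 : w.1 ≠ 0 := fun h1 => hw (Prod.ext h1 h2)
    refine ⟨w.1⁻¹, inv_ne_zero h1, ?_⟩
    rw [if_pos h2, rep_infty, h2, mul_zero, inv_mul_cancel₀ h1]
  · refine ⟨w.2⁻¹, inv_ne_zero h2, ?_⟩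
    rw [if_neg h2, rep_coe, inv_mul_cancel₀ h2, div_eq_inv_mul]

/-- The linear action of `GL (Fin 2) ℚ` on vectors, in coordinates. -/
def mulV (g : GL (Fin 2) ℚ) (v : ℚ × ℚ) : ℚ × ℚ :=
  (g 0 0 * v.1 + g 0 1 * v.2, g 1 0 * v.1 + g 1 1 * v.2)

theorem det2_mulV (g : GL (Fin 2) ℚ) (v w : ℚ × ℚ) :
    det2 (mulV g v) (mulV g w) = (g : Matrix (Fin 2) (Fin 2) ℚ).det * det2 v w := by
  rw [Matrix.det_fin_two]
  unfold det2 mulV
  ring

theorem det_ne_zero' (g : GL (Fin 2) ℚ) : (g : Matrix (Fin 2) (Fin 2) ℚ).det ≠ 0 := by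
  have := g.det_ne_zero
  exact this

theorem mulV_ne_zero (g : GL (Fin 2) ℚ) {v : ℚ × ℚ} (hv : v ≠ 0) : mulV g v ≠ 0 := by
  intro h
  -- a nonzero vector `w` with `det2 v w ≠ 0`
  have key : ∀ w : ℚ × ℚ, det2 (mulV g v) (mulV g w) = 0 := by
    intro w
    rw [h]
    simp [det2]
  by_cases h1 : v.1 = 0
  · have h2 : v.2 ≠ 0 := fun h2 => hv (Prod.ext h1 h2)
    have := key (1, 0)
    rw [det2_mulV] at this
    rcases mul_eq_zero.mp this with h3 | h3
    · exact det_ne_zero' g h3
    · simp [det2, h1] at h3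
      exact h2 h3
  · have := key (0, 1)
    rw [det2_mulV] at this
    rcases mul_eq_zero.mp this with h3 | h3
    · exact det_ne_zero' g h3
    · simp [det2] at h3
      exact h1 h3

theorem smul_eq_ofVec (g : GL (Fin 2) ℚ) (a : OnePoint ℚ) : g • a = ofVec (mulV g (rep a)) := by
  induction a using OnePoint.rec with
  | infty =>
    rw [OnePoint.smul_infty_eq_ite]
    simp [ofVec, mulV]
  | coe x =>
    rw [OnePoint.smul_some_eq_ite]
    simp [ofVec, mulV]

theorem dd_smul (g : GL (Fin 2) ℚ) :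
    ∃ μ : OnePoint ℚ → ℚ, (∀ a, μ a ≠ 0) ∧ ∀ a b : OnePoint ℚ,
      dd (g • a) (g • b) = μ a * μ b * ((g : Matrix (Fin 2) (Fin 2) ℚ).det * dd a b) := by
  choose μ hμ eμ using fun a : OnePoint ℚ => rep_ofVec (mulV_ne_zero g (rep_ne_zero a))
  refine ⟨μ, hμ, fun a b => ?_⟩
  rw [smul_eq_ofVec, smul_eq_ofVec]
  unfold dd
  rw [eμ a, eμ b, ← det2_mulV]
  unfold det2
  ring

/-- The orientation is multiplied by the sign of the determinant under `GL (Fin 2) ℚ`. -/
theorem orientation_smul (g : GL (Fin 2) ℚ) (a b c : OnePoint ℚ) :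
    orientation (g • a) (g • b) (g • c) =
      sgn (g : Matrix (Fin 2) (Fin 2) ℚ).det * orientation a b c := by
  obtain ⟨μ, hμ, e⟩ := dd_smul g
  have hd := sgn_mul_self_of_ne (det_ne_zero' g)
  have ha := sgn_mul_self_of_ne (hμ a)
  have hb := sgn_mul_self_of_ne (hμ b)
  have hc := sgn_mul_self_of_ne (hμ c)
  unfold orientation
  rw [e a b, e b c, e c a]
  simp only [sgn_mul]
  generalize sgn (μ a) = x at *
  generalize sgn (μ b) = y at *
  generalize sgn (μ c) = z at *
  generalize sgn (g : Matrix (Fin 2) (Fin 2) ℚ).det = t at *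
  have e1 : x * y * (t * sgn (dd a b)) * (y * z * (t * sgn (dd b c))) * (z * x * (t * sgn (dd c a)))
      = (x * x) * (y * y) * (z * z) * (t * t) * (t * (sgn (dd a b) * sgn (dd b c) * sgn (dd c a))) := by
    ring
  rw [e1, ha, hb, hc, hd]
  ring

/-- **Invariance** of the orientation under elements of positive determinant. -/
theorem orientation_smul_of_det_pos (g : GL (Fin 2) ℚ)
    (hg : 0 < (g : Matrix (Fin 2) (Fin 2) ℚ).det) (a b c : OnePoint ℚ) :
    orientation (g • a) (g • b) (g • c) = orientation a b c := by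
  rw [orientation_smul, sgn_of_pos hg, one_mul]

/-- The orientation is reversed by elements of negative determinant. -/
theorem orientation_smul_of_det_neg (g : GL (Fin 2) ℚ)
    (hg : (g : Matrix (Fin 2) (Fin 2) ℚ).det < 0) (a b c : OnePoint ℚ) :
    orientation (g • a) (g • b) (g • c) = -orientation a b c := by
  rw [orientation_smul, sgn_of_neg hg, neg_one_mul]

open Matrix.SpecialLinearGroup in
/-- Invariance under the modular group (acting through `mapGL ℚ`). -/
theorem orientation_mapGL_smul (γ : Matrix.SpecialLinearGroup (Fin 2) ℤ) (a b c : OnePoint ℚ) :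
    orientation (mapGL ℚ γ • a) (mapGL ℚ γ • b) (mapGL ℚ γ • c) = orientation a b c := by
  apply orientation_smul_of_det_pos
  have : ((mapGL ℚ γ : GL (Fin 2) ℚ) : Matrix (Fin 2) (Fin 2) ℚ).det = 1 := by
    rw [Matrix.SpecialLinearGroup.mapGL_coe_matrix]
    exact (Matrix.SpecialLinearGroup.map (algebraMap ℤ ℚ) γ).det_coe
  rw [this]
  exact one_pos

/-- values of the orientation -/
theorem orientation_mem (a b c : OnePoint ℚ) :
    orientation a b c = 0 ∨ orientation a b c = 1 ∨ orientation a b c = -1 := by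
  unfold orientation
  have h : ∀ x : ℚ, sgn x = 0 ∨ sgn x = 1 ∨ sgn x = -1 := by
    intro x
    rcases lt_trichotomy x 0 with h | h | h
    · exact Or.inr (Or.inr (sgn_of_neg h))
    · subst h; exact Or.inl sgn_zero
    · exact Or.inr (Or.inl (sgn_of_pos h))
  rcases h (dd a b) with h1 | h1 | h1 <;> rcases h (dd b c) with h2 | h2 | h2 <;>
    rcases h (dd c a) with h3 | h3 | h3 <;> rw [h1, h2, h3] <;> norm_num

/-- The orientation of three pairwise distinct points is `±1`. -/
theorem orientation_ne_zero {a b c : OnePoint ℚ} (hab : a ≠ b) (hbc : b ≠ c) (hca : c ≠ a) :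
    orientation a b c ≠ 0 := by
  unfold orientation
  have n1 : sgn (dd a b) ≠ 0 := fun h => hab (dd_eq_zero_iff.mp (sgn_eq_zero_iff.mp h))
  have n2 : sgn (dd b c) ≠ 0 := fun h => hbc (dd_eq_zero_iff.mp (sgn_eq_zero_iff.mp h))
  have n3 : sgn (dd c a) ≠ 0 := fun h => hca (dd_eq_zero_iff.mp (sgn_eq_zero_iff.mp h))
  exact mul_ne_zero (mul_ne_zero n1 n2) n3

/-- For finite points, the orientation of `(∞, x, y)` is the sign of `y - x`. -/
theorem orientation_infty_coe_coe (x y : ℚ) :
    orientation ∞ (x : OnePoint ℚ) (y : OnePoint ℚ) = sgn (y - x) := by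
  unfold orientation dd det2
  simp only [rep_infty, rep_coe, mul_one, one_mul, mul_zero, zero_mul, sub_zero, zero_sub]
  rw [sgn_of_pos (by norm_num : (0 : ℚ) < 1), sgn_of_neg (by norm_num : (-1 : ℚ) < 0),
    ← neg_sub y x, sgn_neg]
  ring

end Fermat.Agent.S41.H41
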