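/-
S41 / package PD-FAREY (helper46): the Farey primitive lemma for `SL(2, ℤ)`.

`G = SL(2, ℤ)`, `S`, `T` as in Mathlib, `R := S * T⁻¹` (`R : ∞ ↦ 0 ↦ 1 ↦ ∞`, `R ^ 3 = -1`).
For `w : G → A` with `w (g * S) = - w g` and `w g + w (g * R) + w (g * R * R) = 0`
there is `Φ : G → A`, depending only on the first column of `g` up to sign (i.e. on the cusp
`g • ∞`), with `w g = Φ g - Φ (g * S)` (`= F (g • ∞) - F (g • 0)`).
-/
import Mathlib

set_option autoImplicit false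

open scoped MatrixGroups
open Matrix ModularGroup

namespace Fermat.Agent.S41.H46

/-- `R = S * T⁻¹ = !![0, -1; 1, -1]`. -/
def R : SL(2, ℤ) := S * T⁻¹

section Entries

variable (g : SL(2, ℤ))

lemma det_eq : g 0 0 * g 1 1 - g 0 1 * g 1 0 = 1 := by
  have := g.det_coe
  rwa [Matrix.det_fin_two] at this

@[simp] lemma mul_S_00 : (g * S) 0 0 = g 0 1 := by
  simp [coe_S, Matrix.mul_apply, Fin.sum_univ_two]
@[simp] lemma mul_S_01 : (g * S) 0 1 = - g 0 0 := by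
  simp [coe_S, Matrix.mul_apply, Fin.sum_univ_two]
@[simp] lemma mul_S_10 : (g * S) 1 0 = g 1 1 := by
  simp [coe_S, Matrix.mul_apply, Fin.sum_univ_two]
@[simp] lemma mul_S_11 : (g * S) 1 1 = - g 1 0 := by
  simp [coe_S, Matrix.mul_apply, Fin.sum_univ_two]

@[simp] lemma mul_T_00 : (g * T) 0 0 = g 0 0 := by
  simp [coe_T, Matrix.mul_apply, Fin.sum_univ_two]
@[simp] lemma mul_T_01 : (g * T) 0 1 = g 0 0 + g 0 1 := by
  simp [coe_T, Matrix.mul_apply, Fin.sum_univ_two]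
@[simp] lemma mul_T_10 : (g * T) 1 0 = g 1 0 := by
  simp [coe_T, Matrix.mul_apply, Fin.sum_univ_two]
@[simp] lemma mul_T_11 : (g * T) 1 1 = g 1 0 + g 1 1 := by
  simp [coe_T, Matrix.mul_apply, Fin.sum_univ_two]

lemma coe_R : (R : Matrix (Fin 2) (Fin 2) ℤ) = !![0, -1; 1, -1] := by
  simp [R, coe_S]

@[simp] lemma mul_R_00 : (g * R) 0 0 = g 0 1 := by
  simp [coe_R, Matrix.mul_apply, Fin.sum_univ_two]
@[simp] lemma mul_R_01 : (g * R) 0 1 = - g 0 0 - g 0 1 := by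
  simp [coe_R, Matrix.mul_apply, Fin.sum_univ_two]; ring
@[simp] lemma mul_R_10 : (g * R) 1 0 = g 1 1 := by
  simp [coe_R, Matrix.mul_apply, Fin.sum_univ_two]
@[simp] lemma mul_R_11 : (g * R) 1 1 = - g 1 0 - g 1 1 := by
  simp [coe_R, Matrix.mul_apply, Fin.sum_univ_two]; ring

@[simp] lemma neg_apply' (i j : Fin 2) : (-g) i j = - g i j := by
  simp [SpecialLinearGroup.coe_neg]

end Entries

/-- Two elements of `SL(2, ℤ)` with the same entries are equal. -/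
lemma ext_entries {g h : SL(2, ℤ)} (h00 : g 0 0 = h 0 0) (h01 : g 0 1 = h 0 1)
    (h10 : g 1 0 = h 1 0) (h11 : g 1 1 = h 1 1) : g = h := by
  ext i j
  fin_cases i <;> fin_cases j <;> assumption

/-! ## Uniqueness of the canonical matrix with a given first column -/

/-- An element of `SL(2, ℤ)` with positive lower-left entry `c` is determined by its first
column and the residue class `0 ≤ d < c` of its lower-right entry. -/
lemma eq_of_col_eq {g h : SL(2, ℤ)} (h00 : g 0 0 = h 0 0) (h10 : g 1 0 = h 1 0)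
    (hc : 0 < g 1 0) (hg0 : 0 ≤ g 1 1) (hg1 : g 1 1 < g 1 0)
    (hh0 : 0 ≤ h 1 1) (hh1 : h 1 1 < h 1 0) : g = h := by
  have dg := det_eq g
  have dh := det_eq h
  rw [← h00, ← h10] at dh
  -- `c ∣ a * (d - d')`
  have hdvd : g 1 0 ∣ g 0 0 * (g 1 1 - h 1 1) := by
    refine ⟨g 0 1 - h 0 1, ?_⟩
    linear_combination dg - dh
  have hcop : IsCoprime (g 1 0) (g 0 0) := by
    refine ⟨- g 0 1, g 1 1, ?_⟩
    linear_combination dg
  have hdvd' : g 1 0 ∣ g 1 1 - h 1 1 := hcop.dvd_of_dvd_mul_left hdvd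
  have habs : |g 1 1 - h 1 1| < g 1 0 := by
    rw [abs_lt]
    rw [← h10] at hh1
    constructor <;> linarith
  have h11 : g 1 1 = h 1 1 := by
    have := Int.eq_zero_of_abs_lt_dvd hdvd' habs
    linarith
  have h01 : g 0 1 = h 0 1 := by
    have hne : g 1 0 ≠ 0 := ne_of_gt hc
    have : g 0 1 * g 1 0 = h 0 1 * g 1 0 := by
      rw [← h11] at dh
      linear_combination dh - dg
    exact mul_right_cancel₀ hne this
  exact ext_entries h00 h01 h10 h11

/-! ## The cusp primitive -/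

section Primitive

variable {A : Type*} [AddCommGroup A] (w : SL(2, ℤ) → A)

open Classical in
/-- The value of the primitive at the cusp `a / c` (`c ≥ 0`), defined by recursion on the
denominator through the canonical Farey parent. -/
noncomputable def cuspVal : ℕ → ℤ → A
  | 0, _ => 0
  | (c + 1), a =>
    if h : ∃ g : SL(2, ℤ), g 0 0 = a ∧ g 1 0 = ((c + 1 : ℕ) : ℤ) ∧ 0 ≤ g 1 1 ∧
        g 1 1 < ((c + 1 : ℕ) : ℤ) then
      cuspVal (Classical.choose h 1 1).toNat (Classical.choose h 0 1) + w (Classical.choose h)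
    else 0
  termination_by c => c
  decreasing_by
    have h2 := (Classical.choose_spec h).2.2
    omega

@[simp] lemma cuspVal_zero (a : ℤ) : cuspVal w 0 a = 0 := by
  rw [cuspVal]

/-- Unfolding `cuspVal` along the canonical matrix. -/
lemma cuspVal_eq (g : SL(2, ℤ)) (hc : 0 < g 1 0) (hd0 : 0 ≤ g 1 1) (hd1 : g 1 1 < g 1 0) :
    cuspVal w (g 1 0).toNat (g 0 0) = cuspVal w (g 1 1).toNat (g 0 1) + w g := by
  obtain ⟨c, hcn⟩ : ∃ c : ℕ, (g 1 0).toNat = c + 1 := ⟨(g 1 0).toNat - 1, by omega⟩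
  have hcast : ((c + 1 : ℕ) : ℤ) = g 1 0 := by omega
  have h : ∃ g' : SL(2, ℤ), g' 0 0 = g 0 0 ∧ g' 1 0 = ((c + 1 : ℕ) : ℤ) ∧ 0 ≤ g' 1 1 ∧
      g' 1 1 < ((c + 1 : ℕ) : ℤ) := ⟨g, rfl, hcast.symm, hd0, by rw [hcast]; exact hd1⟩
  rw [hcn, cuspVal, dif_pos h]
  have hspec := Classical.choose_spec h
  have hgg : Classical.choose h = g := by
    apply eq_of_col_eq hspec.1 (by rw [hspec.2.1, hcast])
    · rw [hspec.2.1]; positivity
    · exact hspec.2.2.1
    · rw [hspec.2.1]; exact hspec.2.2.2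
    · exact hd0
    · exact hd1
  rw [hgg]

/-- The primitive as a function of the first column, made even. -/
noncomputable def colVal (a c : ℤ) : A :=
  if 0 ≤ c then cuspVal w c.toNat a else cuspVal w (-c).toNat (-a)

lemma colVal_neg (a c : ℤ) : colVal w (-a) (-c) = colVal w a c := by
  unfold colVal
  rcases lt_trichotomy c 0 with hc | hc | hc
  · rw [if_pos (by omega), if_neg (by omega)]
  · subst hc
    simp
  · rw [if_neg (by omega), if_pos (by omega)]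
    simp

lemma colVal_zero (a : ℤ) : colVal w a 0 = 0 := by
  simp [colVal]

/-- The cusp primitive `Φ g = F (g • ∞)`. -/
noncomputable def cuspPrim (g : SL(2, ℤ)) : A := colVal w (g 0 0) (g 1 0)

lemma cuspPrim_mul_T (g : SL(2, ℤ)) : cuspPrim w (g * T) = cuspPrim w g := by
  simp [cuspPrim]

lemma cuspPrim_neg (g : SL(2, ℤ)) : cuspPrim w (-g) = cuspPrim w g := by
  simp [cuspPrim, colVal_neg]

lemma cuspPrim_mul_S (g : SL(2, ℤ)) : cuspPrim w (g * S) = colVal w (g 0 1) (g 1 1) := by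
  simp [cuspPrim]

/-! ## The main induction -/

lemma S_mul_S : (S * S : SL(2, ℤ)) = -1 := by
  ext i j
  fin_cases i <;> fin_cases j <;> simp [coe_S]

lemma mul_S_mul_S (g : SL(2, ℤ)) : g * S * S = -g := by
  rw [mul_assoc, S_mul_S]
  simp

lemma mul_R_mul_R (g : SL(2, ℤ)) : g * R * R = -(g * T * S) := by
  apply ext_entries <;> simp <;> ring

section Main

variable (hS : ∀ g, w (g * S) = - w g) (hR : ∀ g, w g + w (g * R) + w (g * R * R) = 0)

include hS in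
lemma w_neg (g : SL(2, ℤ)) : w (-g) = w g := by
  rw [← mul_S_mul_S, hS, hS, neg_neg]

/-- The statement `w g = F (g • ∞) - F (g • 0)` in column form. -/
def IsPrim (g : SL(2, ℤ)) : Prop :=
  w g = colVal w (g 0 0) (g 1 0) - colVal w (g 0 1) (g 1 1)

include hS in
lemma isPrim_neg_iff (g : SL(2, ℤ)) : IsPrim w (-g) ↔ IsPrim w g := by
  unfold IsPrim
  rw [w_neg w hS]
  simp [colVal_neg]

include hS in
lemma isPrim_mul_S_iff (g : SL(2, ℤ)) : IsPrim w (g * S) ↔ IsPrim w g := by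
  unfold IsPrim
  rw [hS]
  simp only [mul_S_00, mul_S_01, mul_S_10, mul_S_11, colVal_neg]
  constructor
  · intro h
    rw [neg_eq_iff_eq_neg] at h
    rw [h]; abel
  · intro h
    rw [h]; abel

/-- The measure for the induction. -/
def meas (g : SL(2, ℤ)) : ℕ := (g 1 0).natAbs + (g 1 1).natAbs

@[simp] lemma meas_neg (g : SL(2, ℤ)) : meas (-g) = meas g := by
  simp [meas]

@[simp] lemma meas_mul_S (g : SL(2, ℤ)) : meas (g * S) = meas g := by
  simp [meas, add_comm]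

/-- The direct case: the canonical matrix. -/
lemma isPrim_of_canonical (g : SL(2, ℤ)) (hc : 0 < g 1 0) (hd0 : 0 ≤ g 1 1)
    (hd1 : g 1 1 < g 1 0) : IsPrim w g := by
  unfold IsPrim colVal
  rw [if_pos hc.le, if_pos hd0, cuspVal_eq w g hc hd0 hd1]
  abel

include hS hR in
/-- The region `c > 0`, `-c ≤ d < c`. -/
lemma isPrim_of_region (n : ℕ) (IH : ∀ g, meas g < n → IsPrim w g) (g : SL(2, ℤ))
    (hn : meas g = n) (hc : 0 < g 1 0) (hd0 : - g 1 0 ≤ g 1 1) (hd1 : g 1 1 < g 1 0) :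
    IsPrim w g := by
  by_cases hd : 0 ≤ g 1 1
  · exact isPrim_of_canonical w g hc hd hd1
  · rw [not_le] at hd
    -- `g * T` is canonical
    have h1 : IsPrim w (g * T) := by
      apply isPrim_of_canonical <;> simp <;> omega
    -- `g * R` has smaller measure
    have h2 : IsPrim w (g * R) := by
      apply IH
      rw [← hn]
      simp only [meas, mul_R_10, mul_R_11]
      omega
    have h3 := hR g
    rw [mul_R_mul_R, w_neg w hS, hS] at h3
    unfold IsPrim at h1 h2 ⊢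
    simp only [mul_T_00, mul_T_01, mul_T_10, mul_T_11, mul_R_00, mul_R_01, mul_R_10,
      mul_R_11] at h1 h2
    have e : colVal w (-g 0 0 - g 0 1) (-g 1 0 - g 1 1) =
        colVal w (g 0 0 + g 0 1) (g 1 0 + g 1 1) := by
      rw [← colVal_neg]; congr 1 <;> ring
    rw [e] at h2
    rw [h1, h2] at h3
    have : w g = -(colVal w (g 0 1) (g 1 1) - colVal w (g 0 0 + g 0 1) (g 1 0 + g 1 1)
        + -(colVal w (g 0 0) (g 1 0) - colVal w (g 0 0 + g 0 1) (g 1 0 + g 1 1))) :=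
      eq_neg_of_add_eq_zero_left (by rw [← h3]; abel)
    rw [this]; abel

include hS hR in
theorem isPrim_all (g : SL(2, ℤ)) : IsPrim w g := by
  induction' hn : meas g using Nat.strong_induction_on with n IH generalizing g
  have IH' : ∀ g, meas g < n → IsPrim w g := fun g hg => IH _ hg g rfl
  have hne : g 1 0 ≠ 0 ∨ g 1 1 ≠ 0 := by
    by_contra hcon
    rw [not_or, not_not, not_not] at hcon
    have := det_eq g
    rw [hcon.1, hcon.2] at this
    simp at this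
  -- the four regions
  by_cases hA : 0 < g 1 0 ∧ - g 1 0 ≤ g 1 1 ∧ g 1 1 < g 1 0
  · exact isPrim_of_region w hS hR n IH' g hn hA.1 hA.2.1 hA.2.2
  by_cases hB : 0 < g 1 1 ∧ - g 1 1 < g 1 0 ∧ g 1 0 ≤ g 1 1
  · -- `g * S` has `(c, d) = (d, -c)`
    rw [← isPrim_mul_S_iff w hS]
    apply isPrim_of_region w hS hR n IH' (g * S) (by simpa using hn) <;> simp <;> omega
  by_cases hC : g 1 0 < 0 ∧ g 1 0 < g 1 1 ∧ g 1 1 ≤ - g 1 0
  · rw [← isPrim_neg_iff w hS]
    apply isPrim_of_region w hS hR n IH' (-g) (by simpa using hn) <;> simp <;> omega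
  · -- `-(g * S)`
    rw [← isPrim_mul_S_iff w hS, ← isPrim_neg_iff w hS]
    apply isPrim_of_region w hS hR n IH' (-(g * S)) (by simpa using hn) <;> simp <;> omega

include hS hR in
/-- **(FAREY-G)**: the Farey primitive of a cocycle `w` on the Farey tessellation, as a function
on `SL(2, ℤ)` which only depends on the cusp `g • ∞`. -/
theorem exists_cuspPrimitive :
    ∃ Φ : SL(2, ℤ) → A, (∀ g, Φ (g * T) = Φ g) ∧ (∀ g, Φ (-g) = Φ g) ∧
      ∀ g, w g = Φ g - Φ (g * S) :=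
  ⟨cuspPrim w, cuspPrim_mul_T w, cuspPrim_neg w, fun g => by
    rw [cuspPrim_mul_S]; exact isPrim_all w hS hR g⟩

end Main

end Primitive

/-! ## Connectedness -/

/-- The subgroup of elements `x` with `Φ (g * x) = Φ g` for all `g`. -/
def rightStab {B : Type*} (Φ : SL(2, ℤ) → B) : Subgroup SL(2, ℤ) where
  carrier := {x | ∀ g, Φ (g * x) = Φ g}
  one_mem' := fun g => by simp
  mul_mem' := fun {x y} hx hy g => by rw [← mul_assoc, hy, hx]
  inv_mem' := fun {x} hx g => by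
    have := hx (g * x⁻¹)
    rw [inv_mul_cancel_right] at this
    exact this.symm

lemma mem_rightStab {B : Type*} {Φ : SL(2, ℤ) → B} {x : SL(2, ℤ)} :
    x ∈ rightStab Φ ↔ ∀ g, Φ (g * x) = Φ g := Iff.rfl

/-- **(CONN-G)**: a function on `SL(2, ℤ)` which is invariant under right multiplication by `S`
and `T` is constant. -/
theorem const_of_mul_S_mul_T {B : Type*} (Φ : SL(2, ℤ) → B) (hT : ∀ g, Φ (g * T) = Φ g)
    (hS : ∀ g, Φ (g * S) = Φ g) (g h : SL(2, ℤ)) : Φ g = Φ h := by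
  have hH : rightStab Φ = ⊤ := by
    rw [eq_top_iff, ← SpecialLinearGroup.SL2Z_generators, Subgroup.closure_le]
    rintro x (rfl | rfl)
    · exact hS
    · exact hT
  have key : ∀ x, Φ x = Φ 1 := fun x => by
    have hx : x ∈ rightStab Φ := hH ▸ Subgroup.mem_top x
    simpa using hx 1
  rw [key g, key h]

/-! ## The `X`-form: `X = ℙ¹(ℚ) = OnePoint ℚ`, with `g • x := mapGL ℚ g • x` -/

section XForm

open OnePoint SpecialLinearGroup

@[simp] lemma mapGL_apply (g : SL(2, ℤ)) (i j : Fin 2) : (mapGL ℚ g) i j = (g i j : ℚ) := by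
  simp [mapGL_coe_matrix]

lemma smul_infty (g : SL(2, ℤ)) : mapGL ℚ g • (∞ : OnePoint ℚ) =
    if g 1 0 = 0 then ∞ else (((g 0 0 : ℚ) / (g 1 0 : ℚ) : ℚ) : OnePoint ℚ) := by
  rw [smul_infty_eq_ite]; simp

lemma smul_coe (g : SL(2, ℤ)) (k : ℚ) : mapGL ℚ g • (k : OnePoint ℚ) =
    if (g 1 0 : ℚ) * k + g 1 1 = 0 then ∞ else
      ((((g 0 0 : ℚ) * k + g 0 1) / ((g 1 0 : ℚ) * k + g 1 1) : ℚ) : OnePoint ℚ) := by
  rw [smul_some_eq_ite]; simp

lemma smul_infty_eq_infty_iff (g : SL(2, ℤ)) :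
    mapGL ℚ g • (∞ : OnePoint ℚ) = ∞ ↔ g 1 0 = 0 := by
  rw [smul_infty_eq_self_iff]; simp

/-- The upper triangular elements of `SL(2, ℤ)` are `± T ^ n`. -/
lemma eq_T_zpow_of_c_eq_zero (g : SL(2, ℤ)) (hc : g 1 0 = 0) :
    ∃ n : ℤ, g = T ^ n ∨ g = -T ^ n := by
  have had := det_eq g
  replace had : g 0 0 * g 1 1 = 1 := by rw [hc] at had; linarith
  rcases Int.eq_one_or_neg_one_of_mul_eq_one' had with (⟨ha, hd⟩ | ⟨ha, hd⟩)
  · refine ⟨g 0 1, Or.inl ?_⟩
    apply ext_entries <;> simp [ha, hc, hd, coe_T_zpow]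
  · refine ⟨-(g 0 1), Or.inr ?_⟩
    apply ext_entries <;> simp [ha, hc, hd, coe_T_zpow]

/-- **Stabiliser of `∞`**: `Stab(∞) = {± T ^ n}`. -/
lemma smul_infty_eq_infty_iff_exists (g : SL(2, ℤ)) :
    mapGL ℚ g • (∞ : OnePoint ℚ) = ∞ ↔ ∃ n : ℤ, g = T ^ n ∨ g = -T ^ n := by
  rw [smul_infty_eq_infty_iff]
  refine ⟨eq_T_zpow_of_c_eq_zero g, ?_⟩
  rintro ⟨n, rfl | rfl⟩ <;> simp [coe_T_zpow]

lemma S_smul_infty : mapGL ℚ S • (∞ : OnePoint ℚ) = ((0 : ℚ) : OnePoint ℚ) := by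
  rw [smul_infty]; simp [coe_S]

lemma S_smul_zero : mapGL ℚ S • ((0 : ℚ) : OnePoint ℚ) = ∞ := by
  rw [smul_coe]; simp [coe_S]

lemma T_smul_infty : mapGL ℚ T • (∞ : OnePoint ℚ) = ∞ := by
  rw [smul_infty]; simp [coe_T]

lemma R_smul_infty : mapGL ℚ R • (∞ : OnePoint ℚ) = ((0 : ℚ) : OnePoint ℚ) := by
  rw [smul_infty]; simp [coe_R]

lemma R_smul_zero : mapGL ℚ R • ((0 : ℚ) : OnePoint ℚ) = ((1 : ℚ) : OnePoint ℚ) := by
  rw [smul_coe]; simp [coe_R]

lemma R_smul_one : mapGL ℚ R • ((1 : ℚ) : OnePoint ℚ) = ∞ := by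
  rw [smul_coe]; simp [coe_R]

lemma neg_smul' (g : SL(2, ℤ)) (x : OnePoint ℚ) : mapGL ℚ (-g) • x = mapGL ℚ g • x := by
  cases x with
  | infty =>
    rw [smul_infty, smul_infty]
    simp only [neg_apply', neg_eq_zero, Int.cast_neg, neg_div_neg_eq]
  | coe k =>
    rw [smul_coe, smul_coe]
    simp only [neg_apply', Int.cast_neg]
    have e1 : (-(g 1 0 : ℚ)) * k + -(g 1 1 : ℚ) = -((g 1 0 : ℚ) * k + g 1 1) := by ring
    have e2 : (-(g 0 0 : ℚ)) * k + -(g 0 1 : ℚ) = -((g 0 0 : ℚ) * k + g 0 1) := by ring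
    simp only [e1, e2, neg_eq_zero, neg_div_neg_eq]

/-- `g • 0 = (g * S) • ∞`. -/
lemma smul_zero_eq (g : SL(2, ℤ)) :
    mapGL ℚ g • ((0 : ℚ) : OnePoint ℚ) = mapGL ℚ (g * S) • ∞ := by
  rw [map_mul, mul_smul, S_smul_infty]

/-- `g • 0 = (g * R) • ∞`. -/
lemma smul_zero_eq' (g : SL(2, ℤ)) :
    mapGL ℚ g • ((0 : ℚ) : OnePoint ℚ) = mapGL ℚ (g * R) • ∞ := by
  rw [map_mul, mul_smul, R_smul_infty]

/-- `g • 1 = (g * R * R) • ∞`. -/
lemma smul_one_eq (g : SL(2, ℤ)) :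
    mapGL ℚ g • ((1 : ℚ) : OnePoint ℚ) = mapGL ℚ (g * R * R) • ∞ := by
  rw [map_mul, map_mul, mul_smul, mul_smul, R_smul_infty, R_smul_zero]

/-- **Transitivity** (Mathlib's `OnePoint.exists_mem_SL2`). -/
lemma exists_smul_infty_eq (x : OnePoint ℚ) : ∃ g : SL(2, ℤ), mapGL ℚ g • ∞ = x :=
  OnePoint.exists_mem_SL2 ℤ x

/-- Two elements have the same cusp `g • ∞` iff they differ by `± T ^ n` on the right. -/
lemma smul_infty_eq_smul_infty_iff (g h : SL(2, ℤ)) :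
    mapGL ℚ g • (∞ : OnePoint ℚ) = mapGL ℚ h • ∞ ↔
      ∃ n : ℤ, h = g * T ^ n ∨ h = -(g * T ^ n) := by
  have e : mapGL ℚ g • (∞ : OnePoint ℚ) = mapGL ℚ h • ∞ ↔
      mapGL ℚ (g⁻¹ * h) • (∞ : OnePoint ℚ) = ∞ := by
    rw [map_mul, mul_smul, map_inv, inv_smul_eq_iff, eq_comm]
  rw [e, smul_infty_eq_infty_iff_exists]
  refine exists_congr fun n => or_congr ?_ ?_
  · rw [inv_mul_eq_iff_eq_mul]
  · rw [inv_mul_eq_iff_eq_mul, mul_neg]

/-- A function on `SL(2, ℤ)` which is invariant under `g ↦ g * T` and `g ↦ -g` is a function of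
the cusp `g • ∞`. -/
lemma exists_descend {B : Type*} (Φ : SL(2, ℤ) → B) (hT : ∀ g, Φ (g * T) = Φ g)
    (hneg : ∀ g, Φ (-g) = Φ g) :
    ∃ F : OnePoint ℚ → B, ∀ g, F (mapGL ℚ g • ∞) = Φ g := by
  have hTn : ∀ (n : ℤ) g, Φ (g * T ^ n) = Φ g := fun n =>
    mem_rightStab.1 (zpow_mem (mem_rightStab.2 hT) n)
  refine ⟨fun x => Φ (Classical.choose (exists_smul_infty_eq x)), fun g => ?_⟩
  have h := Classical.choose_spec (exists_smul_infty_eq (mapGL ℚ g • ∞))
  show Φ (Classical.choose (exists_smul_infty_eq (mapGL ℚ g • ∞))) = Φ g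
  generalize Classical.choose (exists_smul_infty_eq (mapGL ℚ g • ∞)) = g' at h ⊢
  obtain ⟨n, hn | hn⟩ := (smul_infty_eq_smul_infty_iff _ _).1 h
  · rw [hn, hTn]
  · rw [hn, hneg, hTn]

variable {A : Type*} [AddCommGroup A]

/-- **(FAREY)**: a function `w` on the oriented edges `(g • 0, g • ∞)` of the Farey tessellation
which is antisymmetric and satisfies the triangle relation is the coboundary of a function
on the cusps `ℙ¹(ℚ)`. -/
theorem exists_farey_primitive (w : SL(2, ℤ) → A) (hS : ∀ g, w (g * S) = - w g)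
    (hR : ∀ g, w g + w (g * R) + w (g * R * R) = 0) :
    ∃ F : OnePoint ℚ → A,
      ∀ g, w g = F (mapGL ℚ g • ∞) - F (mapGL ℚ g • ((0 : ℚ) : OnePoint ℚ)) := by
  obtain ⟨Φ, hΦT, hΦneg, hΦ⟩ := exists_cuspPrimitive w hS hR
  obtain ⟨F, hF⟩ := exists_descend Φ hΦT hΦneg
  exact ⟨F, fun g => by rw [smul_zero_eq, hF, hF, hΦ]⟩

/-- **(CONN)**: a function on `ℙ¹(ℚ)` which takes the same value at the two ends of every Farey
edge is constant. -/
theorem const_of_forall_edge {B : Type*} (F : OnePoint ℚ → B)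
    (h : ∀ g : SL(2, ℤ), F (mapGL ℚ g • ∞) = F (mapGL ℚ g • ((0 : ℚ) : OnePoint ℚ)))
    (x y : OnePoint ℚ) : F x = F y := by
  obtain ⟨g, rfl⟩ := exists_smul_infty_eq x
  obtain ⟨g', rfl⟩ := exists_smul_infty_eq y
  refine const_of_mul_S_mul_T (fun g => F (mapGL ℚ g • ∞)) (fun g => ?_) (fun g => ?_) g g'
  · simp only [map_mul, mul_smul, T_smul_infty]
  · show F (mapGL ℚ (g * S) • ∞) = F (mapGL ℚ g • ∞)
    rw [← smul_zero_eq, h]

/-- Conversely, every coboundary satisfies the two relations. -/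
lemma coboundary_mul_S (F : OnePoint ℚ → A) (g : SL(2, ℤ)) :
    F (mapGL ℚ (g * S) • ∞) - F (mapGL ℚ (g * S) • ((0 : ℚ) : OnePoint ℚ)) =
      -(F (mapGL ℚ g • ∞) - F (mapGL ℚ g • ((0 : ℚ) : OnePoint ℚ))) := by
  rw [← smul_zero_eq, map_mul, mul_smul, S_smul_zero]
  abel

lemma coboundary_triangle (F : OnePoint ℚ → A) (g : SL(2, ℤ)) :
    (F (mapGL ℚ g • ∞) - F (mapGL ℚ g • ((0 : ℚ) : OnePoint ℚ))) +
      (F (mapGL ℚ (g * R) • ∞) - F (mapGL ℚ (g * R) • ((0 : ℚ) : OnePoint ℚ))) +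
      (F (mapGL ℚ (g * R * R) • ∞) - F (mapGL ℚ (g * R * R) • ((0 : ℚ) : OnePoint ℚ))) = 0 := by
  have e1 : mapGL ℚ (g * R) • ((0 : ℚ) : OnePoint ℚ) = mapGL ℚ g • ((1 : ℚ) : OnePoint ℚ) := by
    rw [map_mul, mul_smul, R_smul_zero]
  have e2 : mapGL ℚ (g * R * R) • ((0 : ℚ) : OnePoint ℚ) = mapGL ℚ g • ∞ := by
    rw [map_mul, map_mul, mul_smul, mul_smul, R_smul_zero, R_smul_one]
  rw [e1, e2, ← smul_zero_eq', ← smul_one_eq]
  abel

end XForm

end Fermat.Agent.S41.H46
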