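/-
S41 / package P (helper46): the concrete Farey setting.

Instantiates helper60's abstract `FareyData G X` (`H60_PDDefs`) for `G = SL(2, ℤ)`,
`X = ℙ¹(ℚ) = OnePoint ℚ` (action through `mapGL ℚ`), `S`, `R = S * T⁻¹`, `oo = ∞`, `z = -1`, and
discharges its three inputs: `HasPrim` (FAREY, from `H46_PDFarey`), generation by `S`, `R`,
transitivity, and the orientation cocycle (helper41's `H41_PDOr`).
-/
import Fermat.Agent.S41.H46_PDFarey
import Fermat.Agent.S41.H60_PDCore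
import Fermat.Agent.S41.H41_PDOr

set_option autoImplicit false

open scoped MatrixGroups
open Matrix ModularGroup OnePoint SpecialLinearGroup

namespace Fermat.Agent.S41.H46

/-- The action of `SL(2, ℤ)` on `ℙ¹(ℚ) = OnePoint ℚ` through `mapGL ℚ` and Mathlib's Möbius action
of `GL (Fin 2) ℚ`. -/
noncomputable instance cuspAction : MulAction SL(2, ℤ) (OnePoint ℚ) :=
  MulAction.compHom (OnePoint ℚ) (mapGL ℚ : SL(2, ℤ) →* GL (Fin 2) ℚ)

lemma smul_def (g : SL(2, ℤ)) (x : OnePoint ℚ) : g • x = mapGL ℚ g • x := rfl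

lemma R_mul_R_mul_R : (R * R * R : SL(2, ℤ)) = 1 := by
  apply ext_entries <;> simp [coe_R]

/-- `T = R⁻¹ * S`. -/
lemma T_eq : (T : SL(2, ℤ)) = R⁻¹ * S := by
  rw [R, _root_.mul_inv_rev, inv_inv, mul_assoc, inv_mul_cancel, mul_one]

/-- `SL(2, ℤ)` is generated by `S` and `R`. -/
theorem closure_S_R : Subgroup.closure ({S, R} : Set SL(2, ℤ)) = ⊤ := by
  rw [eq_top_iff, ← SL2Z_generators, Subgroup.closure_le]
  rintro x (rfl | rfl)
  · exact Subgroup.subset_closure (by simp)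
  · rw [T_eq]
    exact mul_mem (inv_mem (Subgroup.subset_closure (by simp)))
      (Subgroup.subset_closure (by simp))

/-- The concrete Farey setting: `SL(2, ℤ)` acting on `ℙ¹(ℚ)`. -/
noncomputable def fareyData : H60.FareyData SL(2, ℤ) (OnePoint ℚ) where
  S := S
  R := R
  oo := ∞
  z := -1
  S_sq := S_mul_S
  R_cube := R_mul_R_mul_R
  z_comm := fun g => by simp
  z_smul := fun x => by rw [smul_def, neg_smul', map_one, one_smul]
  R_oo := by rw [smul_def, smul_def, R_smul_infty, S_smul_infty]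

@[simp] lemma fareyData_S : fareyData.S = S := rfl
@[simp] lemma fareyData_R : fareyData.R = R := rfl
@[simp] lemma fareyData_oo : fareyData.oo = ∞ := rfl
@[simp] lemma fareyData_z : fareyData.z = -1 := rfl

lemma fareyData_zero : fareyData.zero = ((0 : ℚ) : OnePoint ℚ) := by
  rw [H60.FareyData.zero, fareyData_S, fareyData_oo, smul_def, S_smul_infty]

lemma fareyData_one : fareyData.one = ((1 : ℚ) : OnePoint ℚ) := by
  rw [← H60.FareyData.R_zero, fareyData_zero, fareyData_R, smul_def, R_smul_zero]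

/-- **(FAREY)** in helper60's shape. -/
theorem fareyData_hasPrim (A : Type) [AddCommGroup A] : fareyData.HasPrim A := by
  intro ω hS hR
  obtain ⟨F, hF⟩ := exists_farey_primitive ω hS hR
  exact ⟨F, fun g => by rw [hF g, fareyData_zero]; rfl⟩

theorem fareyData_closure :
    Subgroup.closure ({fareyData.S, fareyData.R} : Set SL(2, ℤ)) = ⊤ := closure_S_R

theorem fareyData_trans (x : OnePoint ℚ) : ∃ g : SL(2, ℤ), g • fareyData.oo = x :=
  exists_smul_infty_eq x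

/-- `-1 ∈ Γ` is the only thing `H60` needs about `z`. -/
lemma fareyData_z_mem {Γ : Subgroup SL(2, ℤ)} (h : (-1 : SL(2, ℤ)) ∈ Γ) : fareyData.z ∈ Γ := h

/-- helper41's orientation cocycle, `ℚ`-valued. -/
def orQ (a b c : OnePoint ℚ) : ℚ := (H41.orientation a b c : ℚ)

theorem fareyData_isOrientation : fareyData.IsOrientation orQ where
  alt := by
    refine ⟨fun x y z => ?_, fun x y z => ?_⟩
    · unfold orQ
      rw [H41.orientation_swap₁₂ y x z]; push_cast; ring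
    · unfold orQ
      rw [H41.orientation_swap₂₃ x z y]; push_cast; ring
  coc := fun x y z w => by
    unfold orQ
    exact_mod_cast H41.orientation_cocycle x y z w
  inv := fun g x y z => by
    unfold orQ
    rw [smul_def, smul_def, smul_def, H41.orientation_mapGL_smul]
  norm := by
    unfold orQ
    rw [fareyData_zero, fareyData_one, fareyData_oo, H41.orientation_zero_one_infty]
    norm_num

/-- invariance of `orQ` under `GL (Fin 2) ℚ`-elements of positive determinant (for Theorem T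
with `e = (δ • ·)`). -/
theorem orQ_smul_of_det_pos (δ : GL (Fin 2) ℚ)
    (hδ : 0 < (δ : Matrix (Fin 2) (Fin 2) ℚ).det) (x y z : OnePoint ℚ) :
    orQ (δ • x) (δ • y) (δ • z) = orQ x y z := by
  unfold orQ
  rw [H41.orientation_smul_of_det_pos δ hδ]

/-! ### The core theorems of `H60_PDCore`, instantiated -/

/-- **Theorem A** for `SL(2, ℤ)` acting on `ℙ¹(ℚ)`. -/
theorem exists_cobd_of_tr_eq_zero (Γ : Subgroup SL(2, ℤ)) [Fintype (SL(2, ℤ) ⧸ Γ)]
    (hz : (-1 : SL(2, ℤ)) ∈ Γ)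
    {c : OnePoint ℚ → OnePoint ℚ → OnePoint ℚ → ℚ} (hc : H60.IsInv3 Γ c) (hc' : H60.IsAlt3 c)
    (hcoc : H60.IsCocycle3 c) (htr : fareyData.tr Γ c = 0) :
    ∃ b : OnePoint ℚ → OnePoint ℚ → ℚ, H60.IsAlt2 b ∧ H60.IsInv2 Γ b ∧ c = H60.cobd b :=
  fareyData.exists_cobd_of_tr_eq_zero Γ (fareyData_hasPrim ℚ) fareyData_closure fareyData_trans
    hz hc hc' hcoc htr

/-- **Theorem T** for `SL(2, ℤ)` acting on `ℙ¹(ℚ)`, with `e = (δ • ·)`, `δ ∈ GL₂⁺(ℚ)`. -/
theorem tr_pullback_gl (Γ' Γ₁ : Subgroup SL(2, ℤ)) [Fintype (SL(2, ℤ) ⧸ Γ')]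
    [Fintype (SL(2, ℤ) ⧸ Γ₁)] (hz₁ : (-1 : SL(2, ℤ)) ∈ Γ₁)
    (δ : GL (Fin 2) ℚ) (hδ : 0 < (δ : Matrix (Fin 2) (Fin 2) ℚ).det)
    (hconj : ∀ γ' ∈ Γ', ∃ γ₁ ∈ Γ₁, δ * mapGL ℚ γ' = mapGL ℚ γ₁ * δ)
    {c : OnePoint ℚ → OnePoint ℚ → OnePoint ℚ → ℚ} (hc : H60.IsInv3 Γ₁ c) (hc' : H60.IsAlt3 c)
    (hcoc : H60.IsCocycle3 c) :
    fareyData.tr Γ' (fun x y z => c (δ • x) (δ • y) (δ • z)) * Fintype.card (SL(2, ℤ) ⧸ Γ₁)
      = fareyData.tr Γ₁ c * Fintype.card (SL(2, ℤ) ⧸ Γ') :=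
  fareyData.tr_pullback Γ' Γ₁ (fareyData_hasPrim ℚ) fareyData_closure fareyData_trans hz₁
    fareyData_isOrientation (fun x => δ • x) (orQ_smul_of_det_pos δ hδ)
    (fun γ' hγ' => by
      obtain ⟨γ₁, hγ₁, h⟩ := hconj γ' hγ'
      refine ⟨γ₁, hγ₁, fun x => ?_⟩
      rw [smul_def, smul_def, ← mul_smul, ← mul_smul, h])
    hc hc' hcoc

end Fermat.Agent.S41.H46
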