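/-
S41 / package P (helper46): the concrete Farey setting for helper18's `H18_PDND`.

Instantiates `H18.FareySetup G X` for `G = SL(2, ℤ)`, `X = ℙ¹(ℚ) = OnePoint ℚ` (the action
`cuspAction` of `H46_PDFareyData`), discharges `(FAREY)` and the hypotheses `hSD`, `hRD` of
Theorem ND, and identifies helper18's trace form with helper60's trace of the area cocycle.
-/
import Fermat.Agent.S41.H46_PDFareyData
import Fermat.Agent.S41.H18_PDND

set_option autoImplicit false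

open scoped MatrixGroups
open Matrix ModularGroup OnePoint SpecialLinearGroup

namespace Fermat.Agent.S41.H46

/-- The concrete Farey setup of `H18_PDND`: `i = ∞`, `o = 0`, `e = 1`. -/
noncomputable def fareySetup : H18.FareySetup SL(2, ℤ) (OnePoint ℚ) where
  S := S
  R := R
  i := ∞
  o := ((0 : ℚ) : OnePoint ℚ)
  e := ((1 : ℚ) : OnePoint ℚ)
  S_i := by rw [smul_def, S_smul_infty]
  S_o := by rw [smul_def, S_smul_zero]
  R_i := by rw [smul_def, R_smul_infty]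
  R_o := by rw [smul_def, R_smul_zero]
  R_e := by rw [smul_def, R_smul_one]
  gen := closure_S_R
  trans := exists_smul_infty_eq

@[simp] lemma fareySetup_S : fareySetup.S = S := rfl
@[simp] lemma fareySetup_R : fareySetup.R = R := rfl
@[simp] lemma fareySetup_i : fareySetup.i = ∞ := rfl
@[simp] lemma fareySetup_o : fareySetup.o = ((0 : ℚ) : OnePoint ℚ) := rfl
@[simp] lemma fareySetup_e : fareySetup.e = ((1 : ℚ) : OnePoint ℚ) := rfl

/-- **(FAREY)** in helper18's shape. -/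
theorem fareySetup_farey : fareySetup.Farey := fun w hS hR =>
  exists_farey_primitive w hS hR

section Coset

variable (Γ : Subgroup SL(2, ℤ))

/-- `S² = -1 ∈ Γ` acts trivially on `SL(2, ℤ) ⧸ Γ`. -/
lemma S_smul_S_smul_coset (hz : (-1 : SL(2, ℤ)) ∈ Γ) (x : SL(2, ℤ) ⧸ Γ) :
    (S : SL(2, ℤ)) • (S : SL(2, ℤ)) • x = x :=
  fareyData.S_S_coset Γ hz x

/-- `R³ = 1` acts trivially on `SL(2, ℤ) ⧸ Γ`. -/
lemma R_smul_R_smul_R_smul_coset (x : SL(2, ℤ) ⧸ Γ) : R • R • R • x = x :=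
  fareyData.R_R_R_coset Γ x

variable [Fintype (SL(2, ℤ) ⧸ Γ)]

/-- **Theorem ND** for `SL(2, ℤ)` acting on `ℙ¹(ℚ)`: no abstract hypotheses left. -/
theorem nondeg (hz : (-1 : SL(2, ℤ)) ∈ Γ) {p : ℕ} (hp : p.Prime) (hp2 : p ≠ 2)
    {F : OnePoint ℚ → ℤ} (hF : H18.IsCuspPrimitive Γ F)
    (h : ∀ F' : OnePoint ℚ → ℤ, H18.IsCuspPrimitive Γ F' →
      (3 * (p : ℤ)) ∣ fareySetup.trForm Γ F F') :
    ∃ F₁ : OnePoint ℚ → ℤ, H18.IsCuspPrimitive Γ F₁ ∧
      ∀ γ ∈ Γ, ∀ s : OnePoint ℚ, F (γ • s) - F s = p * (F₁ (γ • s) - F₁ s) :=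
  fareySetup.nondeg fareySetup_farey (S_smul_S_smul_coset Γ hz)
    (R_smul_R_smul_R_smul_coset Γ) hp hp2 hF h

/-- `3 ∣ trForm`. -/
theorem three_dvd_trForm (hz : (-1 : SL(2, ℤ)) ∈ Γ) {F F' : OnePoint ℚ → ℤ}
    (hF : H18.IsCuspPrimitive Γ F) (hF' : H18.IsCuspPrimitive Γ F') :
    (3 : ℤ) ∣ fareySetup.trForm Γ F F' :=
  fareySetup.three_dvd_trForm (S_smul_S_smul_coset Γ hz) (R_smul_R_smul_R_smul_coset Γ) hF hF'

/-- helper18's trace form is helper60's trace of the (rational) area cocycle. -/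
theorem trForm_eq_tr {F F' : OnePoint ℚ → ℤ} (hF : H18.IsCuspPrimitive Γ F)
    (hF' : H18.IsCuspPrimitive Γ F') :
    (fareySetup.trForm Γ F F' : ℚ) =
      fareyData.tr Γ (fun a b c => (H18.FareySetup.area F F' a b c : ℚ)) := by
  rw [fareySetup.trForm_eq_sum_area hF hF', H60.FareyData.tr]
  push_cast
  refine Finset.sum_congr rfl fun x _ => ?_
  rw [H60.FareyData.cF, fareyData_zero, fareyData_one, fareyData_oo]
  rfl

end Coset

end Fermat.Agent.S41.H46
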