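/-
S41 (PD-GLUE, abstract part): primitives of homomorphisms on a `G`-set.
For `ι : Γ →* G`, `G` acting on `X`, a function `F : X → A` is a primitive of `φ : Γ → A` if
`F (γ x) = F x + φ γ`. Existence when `φ` kills all stabilisers (e.g. parabolic classes and
`X = ℙ¹(ℚ)`), and the primitive `∑ i, F ∘ α i` of the coset operator `D.op φ`.
-/
import Mathlib
import Fermat.Agent.S41.H85_CosetDatum

set_option autoImplicit false

namespace Fermat.Agent.S41.H85

variable {G Γ Γ₁ Γ₂ : Type*} [Group G] [Group Γ] [Group Γ₁] [Group Γ₂]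
  {X : Type*} [MulAction G X] {A : Type*} [AddCommGroup A]

/-- `F` is a primitive of `φ` on the `Γ`-set `X` (`Γ` acting through `ι : Γ →* G`). -/
def IsPrimitive (ι : Γ →* G) (φ : Additive Γ →+ A) (F : X → A) : Prop :=
  ∀ (γ : Γ) (x : X), F (ι γ • x) = F x + φ (Additive.ofMul γ)

namespace IsPrimitive

variable {ι : Γ →* G} {φ ψ : Additive Γ →+ A} {F F' : X → A}

theorem period (hF : IsPrimitive ι φ F) (γ : Γ) (x : X) :
    φ (Additive.ofMul γ) = F (ι γ • x) - F x := by
  rw [hF γ x]; abel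

theorem add (hF : IsPrimitive ι φ F) (hF' : IsPrimitive ι ψ F') :
    IsPrimitive ι (φ + ψ) (F + F') := fun γ x => by
  simp only [Pi.add_apply, AddMonoidHom.add_apply, hF γ x, hF' γ x]; abel

theorem neg (hF : IsPrimitive ι φ F) : IsPrimitive ι (-φ) (-F) := fun γ x => by
  simp only [Pi.neg_apply, AddMonoidHom.neg_apply, hF γ x]; abel

theorem sub (hF : IsPrimitive ι φ F) (hF' : IsPrimitive ι ψ F') :
    IsPrimitive ι (φ - ψ) (F - F') := fun γ x => by
  simp only [Pi.sub_apply, AddMonoidHom.sub_apply, hF γ x, hF' γ x]; abel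

theorem zsmul (hF : IsPrimitive ι φ F) (n : ℤ) : IsPrimitive ι (n • φ) (n • F) := fun γ x => by
  simp only [Pi.smul_apply, AddMonoidHom.smul_apply, hF γ x, smul_add]

theorem zero_iff {F : X → A} :
    IsPrimitive ι (0 : Additive Γ →+ A) F ↔ ∀ (γ : Γ) (x : X), F (ι γ • x) = F x := by
  simp [IsPrimitive]

/-- Two primitives of the same homomorphism differ by an invariant function. -/
theorem sub_invariant (hF : IsPrimitive ι φ F) (hF' : IsPrimitive ι φ F') (γ : Γ) (x : X) :
    (F - F') (ι γ • x) = (F - F') x := by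
  simp only [Pi.sub_apply, hF γ x, hF' γ x]; abel

theorem add_invariant (hF : IsPrimitive ι φ F) {h : X → A} (hh : ∀ (γ : Γ) (x : X), h (ι γ • x) = h x) :
    IsPrimitive ι φ (F + h) := fun γ x => by
  simp only [Pi.add_apply, hF γ x, hh γ x]; abel

/-- Post-composition with a homomorphism of coefficient groups. -/
theorem comp_hom {B : Type*} [AddCommGroup B] (hF : IsPrimitive ι φ F) (u : A →+ B) :
    IsPrimitive ι (u.comp φ) (u ∘ F) := fun γ x => by
  simp only [Function.comp_apply, hF γ x, map_add, AddMonoidHom.comp_apply]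

/-- A homomorphism having a primitive kills all stabilisers. -/
theorem apply_eq_zero_of_fixed (hF : IsPrimitive ι φ F) {γ : Γ} {x : X} (hx : ι γ • x = x) :
    φ (Additive.ofMul γ) = 0 := by
  rw [hF.period γ x, hx, sub_self]

/-- Restriction along a homomorphism `f : Γ' → Γ`. -/
theorem comp {Γ' : Type*} [Group Γ'] (hF : IsPrimitive ι φ F) (f : Γ' →* Γ) :
    IsPrimitive (ι.comp f) (φ.comp (MonoidHom.toAdditive f)) F := fun γ x => hF (f γ) x

end IsPrimitive

/-- **Existence of primitives**: a homomorphism killing all stabilisers has a primitive. -/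
theorem exists_isPrimitive (ι : Γ →* G) (φ : Additive Γ →+ A)
    (hφ : ∀ (γ : Γ) (x : X), ι γ • x = x → φ (Additive.ofMul γ) = 0) :
    ∃ F : X → A, IsPrimitive ι φ F := by
  classical
  let r : Setoid X :=
    { r := fun x y => ∃ g : Γ, ι g • x = y
      iseqv :=
        { refl := fun x => ⟨1, by rw [map_one, one_smul]⟩
          symm := fun {x y} ⟨g, hg⟩ => ⟨g⁻¹, by rw [← hg, map_inv, inv_smul_smul]⟩
          trans := fun {x y z} ⟨g, hg⟩ ⟨h, hh⟩ => ⟨h * g, by rw [map_mul, mul_smul, hg, hh]⟩ } }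
  let rep : X → X := fun x => (Quotient.out (Quotient.mk r x))
  have hrep : ∀ x, ∃ g : Γ, ι g • rep x = x := fun x => Quotient.exact (Quotient.out_eq (Quotient.mk r x))
  have hrep_eq : ∀ (γ : Γ) (x : X), rep (ι γ • x) = rep x := by
    intro γ x
    have : Quotient.mk r (ι γ • x) = Quotient.mk r x :=
      Quotient.sound (r.iseqv.symm ⟨γ, rfl⟩)
    simp only [rep, this]
  refine ⟨fun x => φ (Additive.ofMul (hrep x).choose), fun γ x => ?_⟩
  have h1 := (hrep (ι γ • x)).choose_spec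
  have h2 := (hrep x).choose_spec
  set g' := (hrep (ι γ • x)).choose
  set g := (hrep x).choose
  rw [hrep_eq] at h1
  have hfix : ι (g'⁻¹ * γ * g) • rep x = rep x := by
    rw [map_mul, map_mul, mul_smul, mul_smul, h2, ← h1, map_inv, inv_smul_smul]
  have h0 := hφ _ _ hfix
  rw [ofMul_mul, ofMul_mul, ofMul_inv, map_add, map_add, map_neg] at h0
  show φ (Additive.ofMul g') = φ (Additive.ofMul g) + φ (Additive.ofMul γ)
  calc φ (Additive.ofMul g') = φ (Additive.ofMul g') + 0 := (add_zero _).symm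
    _ = φ (Additive.ofMul g') + (-φ (Additive.ofMul g') + φ (Additive.ofMul γ)
          + φ (Additive.ofMul g)) := by rw [h0]
    _ = φ (Additive.ofMul g) + φ (Additive.ofMul γ) := by abel

/-- **Primitive of a coset operator**: if `F` is a primitive of `φ`, then `∑ i, F ∘ α i` is a
primitive of `D.op φ`. -/
theorem IsPrimitive.op {ι₁ : Γ₁ →* G} {ι₂ : Γ₂ →* G} {I : Type*} [Fintype I]
    (D : CosetDatum ι₁ ι₂ I) {φ : Additive Γ₁ →+ A} {F : X → A} (hF : IsPrimitive ι₁ φ F) :
    IsPrimitive ι₂ (D.op φ) (fun x => ∑ i, F (D.α i • x)) := by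
  intro γ x
  have hstep : ∀ i, F (D.α i • ι₂ γ • x)
      = F (D.α (D.perm γ i) • x) + φ (Additive.ofMul (D.coc γ i)) := by
    intro i
    rw [← mul_smul, D.eq, mul_smul, hF]
  have hperm : ∑ i, F (D.α (D.perm γ i) • x) = ∑ i, F (D.α i • x) :=
    Equiv.sum_comp (D.permEquiv γ) (fun i => F (D.α i • x))
  simp only [hstep, Finset.sum_add_distrib, hperm, CosetDatum.op_apply]

/-- Descent of a coset datum along an injective homomorphism `j : G' → G` of ambient groups
(e.g. `GL₂(ℚ) → GL₂(ℝ)`): same permutation and cocycle, hence the same operator. -/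
def CosetDatum.descend {G' : Type*} [Group G'] {ι₁ : Γ₁ →* G} {ι₂ : Γ₂ →* G} {I : Type*}
    (D : CosetDatum ι₁ ι₂ I) (j : G' →* G) (hj : Function.Injective j)
    (ι₁' : Γ₁ →* G') (ι₂' : Γ₂ →* G') (h₁ : ∀ g, j (ι₁' g) = ι₁ g) (h₂ : ∀ g, j (ι₂' g) = ι₂ g)
    (α' : I → G') (hα : ∀ i, j (α' i) = D.α i) : CosetDatum ι₁' ι₂' I where
  α := α'
  perm := D.perm
  coc := D.coc
  eq γ i := by
    apply hj
    rw [map_mul, map_mul, hα, hα, h₁, h₂, D.eq]
  perm_one := D.perm_one
  perm_mul := D.perm_mul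
  coc_mul := D.coc_mul

@[simp] theorem CosetDatum.descend_op {G' : Type*} [Group G'] {ι₁ : Γ₁ →* G} {ι₂ : Γ₂ →* G}
    {I : Type*} [Fintype I]
    (D : CosetDatum ι₁ ι₂ I) (j : G' →* G) (hj : Function.Injective j)
    (ι₁' : Γ₁ →* G') (ι₂' : Γ₂ →* G') (h₁ : ∀ g, j (ι₁' g) = ι₁ g) (h₂ : ∀ g, j (ι₂' g) = ι₂ g)
    (α' : I → G') (hα : ∀ i, j (α' i) = D.α i) :
    ((D.descend j hj ι₁' ι₂' h₁ h₂ α' hα).op : (Additive Γ₁ →+ A) →+ _) = D.op := rfl

end Fermat.Agent.S41.H85
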