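/-
S41 (PD-GLUE, concrete part): cusp primitives on `ℙ¹(ℚ) = OnePoint ℚ` (Mathlib's `GL₂(ℚ)`-action)
for parabolic classes on `Γ₀(N)`, and the rational models of the Hecke coset data.
-/
import Mathlib
import Fermat.Agent.S41.H85_HeckeGamma0
import Fermat.Agent.S41.H85_Primitive

set_option autoImplicit false

open CongruenceSubgroup Matrix.SpecialLinearGroup ModularForm ModularCurve.Period
open scoped MatrixGroups
open P2MW.S_ModularForm_heckeT_slash_eq_self_of_mem_Gamma0.ModularForm.HeckeSlashInvariance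

namespace Fermat.Agent.S41.H85

/-- The embedding `Γ₀(N) → GL₂(ℚ)`. -/
noncomputable def glQ (N : ℕ) : Gamma0 N →* GL (Fin 2) ℚ := (mapGL ℚ).comp (Gamma0 N).subtype

theorem glQ_apply (N : ℕ) (g : Gamma0 N) : glQ N g = mapGL ℚ (g : SL(2, ℤ)) := rfl

/-- `GL₂(ℚ) → GL₂(ℝ)`. -/
noncomputable def castGL : GL (Fin 2) ℚ →* GL (Fin 2) ℝ :=
  Matrix.GeneralLinearGroup.map (Rat.castHom ℝ)

theorem castGL_injective : Function.Injective castGL := by
  intro a b h
  ext i j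
  have := congrArg (fun M : GL (Fin 2) ℝ => (M : Matrix (Fin 2) (Fin 2) ℝ) i j) h
  simpa [castGL] using this

theorem castGL_mapGL (g : SL(2, ℤ)) : castGL (mapGL ℚ g) = mapGL ℝ g := by
  ext i j
  simp [castGL]

theorem castGL_glQ (N : ℕ) (g : Gamma0 N) : castGL (glQ N g) = gl N g := castGL_mapGL _

section stabiliser

theorem int_sq_eq_four_of_sub_isSquare (t k : ℤ) (h : t ^ 2 - 4 = k * k) : t ^ 2 = 4 := by
  have hk : k = 0 := by
    by_contra hk0
    have h1 : 1 ≤ |k| := Int.one_le_abs hk0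
    have h2 : |k| < |t| := by
      apply lt_of_pow_lt_pow_left₀ 2 (abs_nonneg t)
      rw [sq_abs, sq_abs]; nlinarith
    have h3 : |k| + 1 ≤ |t| := h2
    have h4 : t ^ 2 = |t| ^ 2 := (sq_abs t).symm
    have h5 : k * k = |k| ^ 2 := by rw [sq_abs]; ring
    have h6 : (|k| + 1) * (|k| + 1) ≤ |t| * |t| :=
      mul_self_le_mul_self (by positivity) h3
    have h7 : |t| ^ 2 = |k| ^ 2 + 4 := by rw [← h4, ← h5]; linarith
    have h8 : |k| = 1 := by nlinarith
    rw [h8] at h7 h3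
    have h9 : |t| < 3 := by nlinarith
    have h10 : |t| = 2 := by omega
    rw [h10] at h7; norm_num at h7
  rw [hk] at h; linarith

/-- An element of `SL₂(ℤ)` fixing a point of `ℙ¹(ℚ)` has `tr² = 4`. -/
theorem trace_sq_eq_four_of_smul_eq (g : SL(2, ℤ)) (x : OnePoint ℚ)
    (h : mapGL ℚ g • x = x) : (g : Matrix (Fin 2) (Fin 2) ℤ).trace ^ 2 = 4 := by
  have hdet : g 0 0 * g 1 1 - g 0 1 * g 1 0 = 1 := by
    have := g.det_coe
    rwa [Matrix.det_fin_two] at this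
  rw [Matrix.trace_fin_two]
  induction x using OnePoint.rec with
  | infty =>
    rw [OnePoint.smul_infty_eq_self_iff] at h
    have hc : g 1 0 = 0 := by
      have : ((g 1 0 : ℤ) : ℚ) = 0 := by simpa using h
      exact_mod_cast this
    rw [hc, mul_zero, sub_zero] at hdet
    rcases Int.eq_one_or_neg_one_of_mul_eq_one' hdet with ⟨h1, h2⟩ | ⟨h1, h2⟩ <;>
      rw [h1, h2] <;> norm_num
  | coe r =>
    rw [OnePoint.smul_some_eq_ite] at h
    split_ifs at h with hden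
    · exact absurd h (by simp)
    · have h' := OnePoint.coe_injective h
      have ha : ((mapGL ℚ g : GL (Fin 2) ℚ) 0 0 : ℚ) = (g 0 0 : ℤ) := by simp
      have hb : ((mapGL ℚ g : GL (Fin 2) ℚ) 0 1 : ℚ) = (g 0 1 : ℤ) := by simp
      have hc : ((mapGL ℚ g : GL (Fin 2) ℚ) 1 0 : ℚ) = (g 1 0 : ℤ) := by simp
      have hd : ((mapGL ℚ g : GL (Fin 2) ℚ) 1 1 : ℚ) = (g 1 1 : ℤ) := by simp
      simp only [ha, hb, hc, hd] at h' hden
      rw [div_eq_iff hden] at h'
      have hdetQ : ((g 0 0 : ℤ) : ℚ) * (g 1 1 : ℤ) - (g 0 1 : ℤ) * (g 1 0 : ℤ) = 1 := by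
        exact_mod_cast hdet
      have hsq : (((g 0 0 + g 1 1) ^ 2 - 4 : ℤ) : ℚ)
          = (2 * (g 1 0 : ℤ) * r + ((g 1 1 : ℤ) - (g 0 0 : ℤ)))
            * (2 * (g 1 0 : ℤ) * r + ((g 1 1 : ℤ) - (g 0 0 : ℤ))) := by
        push_cast
        linear_combination (4 : ℚ) * hdetQ + 4 * (g 1 0 : ℤ) * h'
      have hsquare : IsSquare (((g 0 0 + g 1 1) ^ 2 - 4 : ℤ) : ℚ) := ⟨_, hsq⟩
      obtain ⟨k, hk⟩ := Rat.isSquare_intCast_iff.mp hsquare
      exact int_sq_eq_four_of_sub_isSquare _ k hk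

/-- Conversely, an element of `SL₂(ℤ)` with `tr² = 4` fixes a point of `ℙ¹(ℚ)`. -/
theorem exists_smul_eq_of_trace_sq_eq_four (g : SL(2, ℤ))
    (h : (g : Matrix (Fin 2) (Fin 2) ℤ).trace ^ 2 = 4) : ∃ x : OnePoint ℚ, mapGL ℚ g • x = x := by
  have hdet : g 0 0 * g 1 1 - g 0 1 * g 1 0 = 1 := by
    have := g.det_coe
    rwa [Matrix.det_fin_two] at this
  rw [Matrix.trace_fin_two] at h
  by_cases hc : g 1 0 = 0
  · refine ⟨OnePoint.infty, ?_⟩
    rw [OnePoint.smul_infty_eq_self_iff]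
    simp [hc]
  · have hcQ : ((g 1 0 : ℤ) : ℚ) ≠ 0 := by exact_mod_cast hc
    refine ⟨((((g 0 0 : ℤ) : ℚ) - (g 1 1 : ℤ)) / (2 * (g 1 0 : ℤ)) : ℚ), ?_⟩
    have hdetQ : ((g 0 0 : ℤ) : ℚ) * (g 1 1 : ℤ) - (g 0 1 : ℤ) * (g 1 0 : ℤ) = 1 := by
      exact_mod_cast hdet
    have hQ : (((g 0 0 : ℤ) : ℚ) + (g 1 1 : ℤ)) ^ 2 = 4 := by exact_mod_cast h
    have hden : ((g 1 0 : ℤ) : ℚ) * ((((g 0 0 : ℤ) : ℚ) - (g 1 1 : ℤ)) / (2 * (g 1 0 : ℤ)))
        + (g 1 1 : ℤ) ≠ 0 := by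
      intro h0
      have h1 : ((g 0 0 : ℤ) : ℚ) + (g 1 1 : ℤ) = 0 := by
        field_simp at h0
        linarith
      rw [h1] at hQ; norm_num at hQ
    rw [OnePoint.smul_some_eq_ite]
    have ha : ((mapGL ℚ g : GL (Fin 2) ℚ) 0 0 : ℚ) = (g 0 0 : ℤ) := by simp
    have hb : ((mapGL ℚ g : GL (Fin 2) ℚ) 0 1 : ℚ) = (g 0 1 : ℤ) := by simp
    have hc' : ((mapGL ℚ g : GL (Fin 2) ℚ) 1 0 : ℚ) = (g 1 0 : ℤ) := by simp
    have hd : ((mapGL ℚ g : GL (Fin 2) ℚ) 1 1 : ℚ) = (g 1 1 : ℤ) := by simp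
    simp only [ha, hb, hc', hd]
    rw [if_neg hden]
    congr 1
    rw [div_eq_iff hden]
    field_simp
    linear_combination (1 : ℚ) * hQ - 4 * hdetQ

end stabiliser

section primitives

variable {N : ℕ} {A : Type*} [AddCommGroup A]

/-- Parabolic classes have cusp primitives on `ℙ¹(ℚ)`. -/
theorem exists_isPrimitive_of_isParabolicHom {φ : Additive (Gamma0 N) →+ A}
    (hφ : IsParabolicHom (Gamma0 N) φ) :
    ∃ F : OnePoint ℚ → A, IsPrimitive (glQ N) φ F :=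
  exists_isPrimitive (glQ N) φ fun γ x hx =>
    hφ γ (trace_sq_eq_four_of_smul_eq (γ : SL(2, ℤ)) x hx)

/-- A homomorphism with a cusp primitive is parabolic. -/
theorem isParabolicHom_of_isPrimitive {φ : Additive (Gamma0 N) →+ A} {F : OnePoint ℚ → A}
    (hF : IsPrimitive (glQ N) φ F) : IsParabolicHom (Gamma0 N) φ := by
  intro γ hγ
  obtain ⟨x, hx⟩ := exists_smul_eq_of_trace_sq_eq_four (γ : SL(2, ℤ)) hγ
  exact hF.apply_eq_zero_of_fixed (γ := γ) hx

theorem isParabolicHom_iff_exists_isPrimitive {φ : Additive (Gamma0 N) →+ A} :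
    IsParabolicHom (Gamma0 N) φ ↔ ∃ F : OnePoint ℚ → A, IsPrimitive (glQ N) φ F :=
  ⟨exists_isPrimitive_of_isParabolicHom, fun ⟨_, hF⟩ => isParabolicHom_of_isPrimitive hF⟩

end primitives

section rationalData

variable (N p : ℕ)

/-- Rational upper triangular matrix `[[a, b], [0, d]]`. -/
noncomputable def upperQ (a b d : ℚ) (had : a * d ≠ 0) : GL (Fin 2) ℚ :=
  Matrix.GeneralLinearGroup.mkOfDetNeZero !![a, b; 0, d]
    (by rwa [Matrix.det_fin_two_of, mul_zero, sub_zero])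

/-- The rational model of the prelude `heckeRep p x`. -/
noncomputable def heckeRepQ (x : OnePoint (ZMod p)) : GL (Fin 2) ℚ :=
  if hp : p = 0 then 1 else
    x.elim (upperQ p 0 1 (by rw [mul_one]; exact_mod_cast hp))
      (fun j => upperQ 1 j.val p (by rw [one_mul]; exact_mod_cast hp))

theorem castGL_heckeRepQ [NeZero p] (x : OnePoint (ZMod p)) :
    castGL (heckeRepQ p x) = heckeRep p x := by
  have hp : p ≠ 0 := NeZero.ne p
  induction x using OnePoint.rec with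
  | infty =>
    ext i j
    rw [heckeRep_infty]
    fin_cases i <;> fin_cases j <;> simp [castGL, heckeRepQ, hp, upperQ]
  | coe k =>
    ext i j
    rw [heckeRep_coe]
    fin_cases i <;> fin_cases j <;> simp [castGL, heckeRepQ, hp, upperQ, -ZMod.natCast_val]

/-- The rational model of `heckeTDatum`: same permutation and cocycle, representatives in
`GL₂(ℚ)` (so that they act on `ℙ¹(ℚ)`). -/
noncomputable def heckeTDatumQ [Fact p.Prime] (hpN : ¬ p ∣ N) :
    CosetDatum (glQ N) (glQ N) (OnePoint (ZMod p)) :=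
  haveI : NeZero p := ⟨(Fact.out : p.Prime).ne_zero⟩
  (heckeTDatum N p hpN).descend castGL castGL_injective (glQ N) (glQ N) (castGL_glQ N)
    (castGL_glQ N) (heckeRepQ p) (castGL_heckeRepQ p)

/-- The rational model of `heckeUDatum`. -/
noncomputable def heckeUDatumQ [NeZero p] (hpN : p ∣ N) :
    CosetDatum (glQ N) (glQ N) (ZMod p) :=
  (heckeUDatum N p hpN).descend castGL castGL_injective (glQ N) (glQ N) (castGL_glQ N)
    (castGL_glQ N) (fun j => heckeRepQ p (j : OnePoint (ZMod p)))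
    (fun j => castGL_heckeRepQ p (j : OnePoint (ZMod p)))

variable {N p} {A : Type*} [AddCommGroup A]

theorem heckeTDatumQ_op (hp : p.Prime) (hpN : ¬ p ∣ N) :
    haveI : Fact p.Prime := ⟨hp⟩
    ((heckeTDatumQ N p hpN).op : (Additive (Gamma0 N) →+ A) →+ _) = heckeTHom A hp hpN := rfl

theorem heckeUDatumQ_op [NeZero p] (hpN : p ∣ N) :
    ((heckeUDatumQ N p hpN).op : (Additive (Gamma0 N) →+ A) →+ _) = heckeUHom A hpN := rfl

/-- Cusp primitive of `T_p φ`: `∑ x, F ∘ heckeRepQ p x`. -/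
theorem IsPrimitive.heckeT [NeZero p] (hp : p.Prime) (hpN : ¬ p ∣ N)
    {φ : Additive (Gamma0 N) →+ A}
    {F : OnePoint ℚ → A} (hF : IsPrimitive (glQ N) φ F) :
    IsPrimitive (glQ N) (heckeTHom A hp hpN φ) (fun s => ∑ x, F (heckeRepQ p x • s)) := by
  have : Fact p.Prime := ⟨hp⟩
  exact hF.op (heckeTDatumQ N p hpN)

/-- Cusp primitive of `U_p φ`. -/
theorem IsPrimitive.heckeU [NeZero p] (hpN : p ∣ N) {φ : Additive (Gamma0 N) →+ A}
    {F : OnePoint ℚ → A} (hF : IsPrimitive (glQ N) φ F) :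
    IsPrimitive (glQ N) (heckeUHom A hpN φ)
      (fun s => ∑ j : ZMod p, F (heckeRepQ p (j : OnePoint (ZMod p)) • s)) :=
  hF.op (heckeUDatumQ N p hpN)

end rationalData

end Fermat.Agent.S41.H85
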