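/-
S41 / (P) Poincare duality, route P-tr (helper60): the integral intersection form on
`L_N = parabolicHoms ℤ (Gamma0 N) ℤ` and its non-degeneracy modulo odd primes (helper18).

* `FareySetup.ofFareyData` : helper60's `H60.FareyData` (+ generation, transitivity) gives a
  `FareySetup` of `H18_PDND` (abstract bridge; the concrete setup used below is helper46's
  `H46.fareySetup`).
* `IsCuspPrimitive.per` : the period homomorphism of a cusp primitive.
* `pd N : L_N →ₗ[ℤ] L_N →ₗ[ℤ] ℤ` (`= H46.fareySetup.trForm / 3` on any primitives),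
  `three_mul_pd_eq_of_isPrimitive`, `three_mul_pd_eq_tr`, `pd_antisymm`, `pd_nondeg`,
  `pd_nondeg_pSub`.
-/
import Fermat.Agent.S41.H46_PDFareySetup
import Fermat.Agent.S41.H85_PrimitiveGamma0
import Fermat.Agent.S41.H66_LevelRaisingAlgebra

set_option autoImplicit false
set_option linter.unusedSectionVars false

open scoped MatrixGroups
open Matrix ModularGroup OnePoint SpecialLinearGroup CongruenceSubgroup ModularCurve.Period

namespace Fermat.Agent.S41.H18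

section Bridge

variable {G : Type*} [Group G] {X : Type*} [MulAction G X]

/-- helper60's abstract Farey data, together with generation and transitivity, in the shape
used by `H18_PDND`. -/
def FareySetup.ofFareyData (F : H60.FareyData G X)
    (hgen : Subgroup.closure {F.S, F.R} = ⊤) (htrans : ∀ x : X, ∃ g : G, g • F.oo = x) :
    FareySetup G X where
  S := F.S
  R := F.R
  i := F.oo
  o := F.zero
  e := F.one
  S_i := rfl
  S_o := F.S_zero
  R_i := F.R_oo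
  R_o := F.R_zero
  R_e := F.R_one
  gen := hgen
  trans := htrans

variable (F : H60.FareyData G X) (hgen : Subgroup.closure {F.S, F.R} = ⊤)
  (htrans : ∀ x : X, ∃ g : G, g • F.oo = x)

theorem FareySetup.ofFareyData_farey (h : F.HasPrim ℤ) :
    (FareySetup.ofFareyData F hgen htrans).Farey := h

/-- The integral trace form is helper60's trace of the (rational) area cocycle. -/
theorem FareySetup.trForm_eq_tr (Γ : Subgroup G) [Fintype (G ⧸ Γ)] {φ φ' : X → ℤ}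
    (hφ : IsCuspPrimitive Γ φ) (hφ' : IsCuspPrimitive Γ φ') :
    (((FareySetup.ofFareyData F hgen htrans).trForm Γ φ φ' : ℤ) : ℚ)
      = F.tr Γ (fun a b c => ((FareySetup.area φ φ' a b c : ℤ) : ℚ)) := by
  rw [FareySetup.trForm_eq_sum_area _ hφ hφ', H60.FareyData.tr]
  push_cast
  rfl

/-- The period homomorphism of a cusp primitive (with respect to a base point). -/
noncomputable def IsCuspPrimitive.per {Γ : Subgroup G} {φ : X → ℤ} (hφ : IsCuspPrimitive Γ φ)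
    (x₀ : X) : Additive Γ →+ ℤ where
  toFun γ := φ (((Additive.toMul γ : Γ) : G) • x₀) - φ x₀
  map_zero' := by simp
  map_add' γ δ := by
    have h := hφ.sub_eq Γ (Additive.toMul γ).2 (((Additive.toMul δ : Γ) : G) • x₀) x₀
    simp only [toMul_add, Subgroup.coe_mul, mul_smul]
    linarith

theorem IsCuspPrimitive.per_spec {Γ : Subgroup G} {φ : X → ℤ} (hφ : IsCuspPrimitive Γ φ)
    (x₀ : X) (γ : Γ) (s : X) : φ ((γ : G) • s) = φ s + hφ.per x₀ (Additive.ofMul γ) := by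
  have h := hφ.sub_eq Γ γ.2 s x₀
  show φ ((γ : G) • s) = φ s + (φ ((γ : G) • x₀) - φ x₀)
  linarith


end Bridge

section Form

variable (N : ℕ) [NeZero N]

/-- The `Fintype` structure used to define `pd`; only a LOCAL instance of this file (all
exported statements are independent of the instance). -/
@[instance_reducible]
noncomputable def fintypeQuotGamma0 : Fintype (SL(2, ℤ) ⧸ Gamma0 N) := Fintype.ofFinite _

attribute [local instance] fintypeQuotGamma0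

theorem neg_one_mem_Gamma0 : (-1 : SL(2, ℤ)) ∈ Gamma0 N := by
  rw [Gamma0_mem]
  simp

variable {N}

theorem isCuspPrimitive_of_isPrimitive {φ : Additive (Gamma0 N) →+ ℤ} {F : OnePoint ℚ → ℤ}
    (hF : H85.IsPrimitive (H85.glQ N) φ F) : IsCuspPrimitive (Gamma0 N) F :=
  fun γ hγ => ⟨φ (Additive.ofMul ⟨γ, hγ⟩), fun s => hF ⟨γ, hγ⟩ s⟩

/-- A chosen cusp primitive of a parabolic class. -/
noncomputable def prim (φ : parabolicHoms ℤ (Gamma0 N) ℤ) : OnePoint ℚ → ℤ :=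
  Classical.choose (H85.exists_isPrimitive_of_isParabolicHom (N := N) φ.2)

theorem prim_spec (φ : parabolicHoms ℤ (Gamma0 N) ℤ) :
    H85.IsPrimitive (H85.glQ N) (φ : Additive (Gamma0 N) →+ ℤ) (prim φ) :=
  Classical.choose_spec (H85.exists_isPrimitive_of_isParabolicHom (N := N) φ.2)

variable (N) in
/-- Three times the intersection form. -/
noncomputable def pd3 (φ ψ : parabolicHoms ℤ (Gamma0 N) ℤ) : ℤ :=
  H46.fareySetup.trForm (Gamma0 N) (prim φ) (prim ψ)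

/-- Independence of the primitives. -/
theorem pd3_eq_of_isPrimitive {φ ψ : parabolicHoms ℤ (Gamma0 N) ℤ} {F F' : OnePoint ℚ → ℤ}
    (hF : H85.IsPrimitive (H85.glQ N) (φ : Additive (Gamma0 N) →+ ℤ) F)
    (hF' : H85.IsPrimitive (H85.glQ N) (ψ : Additive (Gamma0 N) →+ ℤ) F') :
    pd3 N φ ψ = H46.fareySetup.trForm (Gamma0 N) F F' := by
  have hSD := H46.S_smul_S_smul_coset (Gamma0 N) (neg_one_mem_Gamma0 N)
  have hRD := H46.R_smul_R_smul_R_smul_coset (Gamma0 N)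
  have h1 : prim φ = F + (prim φ - F) := by abel
  have h2 : prim ψ = F' + (prim ψ - F') := by abel
  have hk1 : ∀ γ ∈ Gamma0 N, ∀ s : OnePoint ℚ, (prim φ - F) (γ • s) = (prim φ - F) s :=
    fun γ hγ s => (prim_spec φ).sub_invariant hF ⟨γ, hγ⟩ s
  have hk2 : ∀ γ ∈ Gamma0 N, ∀ s : OnePoint ℚ, (prim ψ - F') (γ • s) = (prim ψ - F') s :=
    fun γ hγ s => (prim_spec ψ).sub_invariant hF' ⟨γ, hγ⟩ s
  rw [pd3, h2, FareySetup.trForm_add_right,
    H46.fareySetup.trForm_invariant_right hSD hRD (isCuspPrimitive_of_isPrimitive (prim_spec φ)) hk2,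
    add_zero, h1, FareySetup.trForm_add_left,
    H46.fareySetup.trForm_invariant_left hSD hRD (isCuspPrimitive_of_isPrimitive hF') hk1, add_zero]

theorem three_dvd_pd3 (φ ψ : parabolicHoms ℤ (Gamma0 N) ℤ) : (3 : ℤ) ∣ pd3 N φ ψ :=
  H46.three_dvd_trForm (Gamma0 N) (neg_one_mem_Gamma0 N) (isCuspPrimitive_of_isPrimitive (prim_spec φ))
    (isCuspPrimitive_of_isPrimitive (prim_spec ψ))

theorem pd3_add_left (φ₁ φ₂ ψ : parabolicHoms ℤ (Gamma0 N) ℤ) :
    pd3 N (φ₁ + φ₂) ψ = pd3 N φ₁ ψ + pd3 N φ₂ ψ := by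
  rw [pd3_eq_of_isPrimitive (φ := φ₁ + φ₂) ((prim_spec φ₁).add (prim_spec φ₂)) (prim_spec ψ),
    FareySetup.trForm_add_left]
  rfl

theorem pd3_add_right (φ ψ₁ ψ₂ : parabolicHoms ℤ (Gamma0 N) ℤ) :
    pd3 N φ (ψ₁ + ψ₂) = pd3 N φ ψ₁ + pd3 N φ ψ₂ := by
  rw [pd3_eq_of_isPrimitive (ψ := ψ₁ + ψ₂) (prim_spec φ) ((prim_spec ψ₁).add (prim_spec ψ₂)),
    FareySetup.trForm_add_right]
  rfl

theorem pd3_smul_left (n : ℤ) (φ ψ : parabolicHoms ℤ (Gamma0 N) ℤ) :
    pd3 N (n • φ) ψ = n * pd3 N φ ψ := by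
  rw [pd3_eq_of_isPrimitive (φ := n • φ) ((prim_spec φ).zsmul n) (prim_spec ψ),
    FareySetup.trForm_smul_left]
  rfl

theorem pd3_smul_right (n : ℤ) (φ ψ : parabolicHoms ℤ (Gamma0 N) ℤ) :
    pd3 N φ (n • ψ) = n * pd3 N φ ψ := by
  rw [pd3_eq_of_isPrimitive (ψ := n • ψ) (prim_spec φ) ((prim_spec ψ).zsmul n),
    FareySetup.trForm_smul_right]
  rfl

variable (N) in
/-- **The intersection form** on `L_N = parabolicHoms ℤ (Gamma0 N) ℤ` (route P-tr):
`pd N φ ψ = (1/3) tr_Γ (D[F_φ, F_ψ])`. -/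
noncomputable def pd : parabolicHoms ℤ (Gamma0 N) ℤ →ₗ[ℤ] parabolicHoms ℤ (Gamma0 N) ℤ →ₗ[ℤ] ℤ :=
  LinearMap.mk₂ ℤ (fun φ ψ => pd3 N φ ψ / 3)
    (fun φ₁ φ₂ ψ => by
      rw [pd3_add_left, Int.add_ediv_of_dvd_left (three_dvd_pd3 φ₁ ψ)])
    (fun n φ ψ => by
      rw [pd3_smul_left, smul_eq_mul, Int.mul_ediv_assoc _ (three_dvd_pd3 φ ψ)])
    (fun φ ψ₁ ψ₂ => by
      rw [pd3_add_right, Int.add_ediv_of_dvd_left (three_dvd_pd3 φ ψ₁)])
    (fun n φ ψ => by
      rw [pd3_smul_right, smul_eq_mul, Int.mul_ediv_assoc _ (three_dvd_pd3 φ ψ)])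

theorem pd_apply (φ ψ : parabolicHoms ℤ (Gamma0 N) ℤ) : pd N φ ψ = pd3 N φ ψ / 3 := rfl

theorem three_mul_pd (φ ψ : parabolicHoms ℤ (Gamma0 N) ℤ) : 3 * pd N φ ψ = pd3 N φ ψ := by
  rw [pd_apply, Int.mul_ediv_cancel' (three_dvd_pd3 φ ψ)]

/-- `3 · pd N φ ψ` is the trace form of ANY pair of primitives. -/
theorem three_mul_pd_eq_of_isPrimitive {φ ψ : parabolicHoms ℤ (Gamma0 N) ℤ}
    {F F' : OnePoint ℚ → ℤ}
    (hF : H85.IsPrimitive (H85.glQ N) (φ : Additive (Gamma0 N) →+ ℤ) F)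
    (hF' : H85.IsPrimitive (H85.glQ N) (ψ : Additive (Gamma0 N) →+ ℤ) F') :
    3 * pd N φ ψ = H46.fareySetup.trForm (Gamma0 N) F F' := by
  rw [three_mul_pd, pd3_eq_of_isPrimitive hF hF']

/-- `3 · pd N φ ψ` as helper60's trace of the area cocycle of ANY pair of primitives (for any
`Fintype` instance on the coset space). -/
theorem three_mul_pd_eq_tr (inst : Fintype (SL(2, ℤ) ⧸ Gamma0 N))
    {φ ψ : parabolicHoms ℤ (Gamma0 N) ℤ} {F F' : OnePoint ℚ → ℤ}
    (hF : H85.IsPrimitive (H85.glQ N) (φ : Additive (Gamma0 N) →+ ℤ) F)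
    (hF' : H85.IsPrimitive (H85.glQ N) (ψ : Additive (Gamma0 N) →+ ℤ) F') :
    (3 : ℚ) * (pd N φ ψ : ℚ)
      = @H60.FareyData.tr _ _ _ _ H46.fareyData (Gamma0 N) inst
          (fun a b c => ((FareySetup.area F F' a b c : ℤ) : ℚ)) := by
  obtain rfl : inst = fintypeQuotGamma0 N := Subsingleton.elim _ _
  have h := three_mul_pd_eq_of_isPrimitive hF hF'
  rw [← H46.trForm_eq_tr (Gamma0 N) (isCuspPrimitive_of_isPrimitive hF)
    (isCuspPrimitive_of_isPrimitive hF')]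
  have : ((3 * pd N φ ψ : ℤ) : ℚ) = ((H46.fareySetup.trForm (Gamma0 N) F F' : ℤ) : ℚ) := by
    rw [h]
  push_cast at this
  exact this

theorem pd_antisymm (φ ψ : parabolicHoms ℤ (Gamma0 N) ℤ) : pd N φ ψ = - pd N ψ φ := by
  have h1 := three_mul_pd φ ψ
  have h2 := three_mul_pd ψ φ
  have h3 : pd3 N φ ψ = - pd3 N ψ φ := FareySetup.trForm_antisymm _ _ _
  linarith

/-- **Non-degeneracy of `pd N` modulo an odd prime `p`** (`p = 3` included). -/
theorem pd_nondeg {p : ℕ} (hp : p.Prime) (hp2 : p ≠ 2) (x : parabolicHoms ℤ (Gamma0 N) ℤ)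
    (h : ∀ y : parabolicHoms ℤ (Gamma0 N) ℤ, (p : ℤ) ∣ pd N x y) :
    ∃ x' : parabolicHoms ℤ (Gamma0 N) ℤ, (p : ℤ) • x' = x := by
  have hprim : ∀ {F : OnePoint ℚ → ℤ} (hF : IsCuspPrimitive (Gamma0 N) F),
      H85.IsPrimitive (H85.glQ N) (hF.per ∞) F := fun hF γ s => hF.per_spec ∞ γ s
  obtain ⟨F₁, hF₁, hper⟩ := H46.nondeg (Gamma0 N) (neg_one_mem_Gamma0 N) hp hp2
    (isCuspPrimitive_of_isPrimitive (prim_spec x)) (fun F' hF' => by
      have hψ : hF'.per ∞ ∈ parabolicHoms ℤ (Gamma0 N) ℤ :=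
        H85.isParabolicHom_of_isPrimitive (hprim hF')
      have h1 := three_mul_pd_eq_of_isPrimitive (φ := x) (ψ := ⟨_, hψ⟩) (prim_spec x) (hprim hF')
      rw [← h1]
      exact mul_dvd_mul_left 3 (h ⟨_, hψ⟩))
  have hx' : hF₁.per ∞ ∈ parabolicHoms ℤ (Gamma0 N) ℤ :=
    H85.isParabolicHom_of_isPrimitive (hprim hF₁)
  refine ⟨⟨_, hx'⟩, ?_⟩
  apply Subtype.ext
  refine AddMonoidHom.ext fun γ => ?_
  have h1 := (prim_spec x).period (Additive.toMul γ) ∞
  have h2 := hper (Additive.toMul γ : Gamma0 N) (Additive.toMul γ).2 ∞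
  have h3 : ((x : Additive (Gamma0 N) →+ ℤ)) γ
      = (p : ℤ) * (F₁ (((Additive.toMul γ : Gamma0 N) : SL(2, ℤ)) • ∞) - F₁ ∞) := by
    rw [← h2]
    exact h1
  rw [h3]
  rfl

/-- `pd_nondeg` in helper66's vocabulary. -/
theorem pd_nondeg_pSub {p : ℕ} (hp : p.Prime) (hp2 : p ≠ 2) (x : parabolicHoms ℤ (Gamma0 N) ℤ)
    (h : ∀ y : parabolicHoms ℤ (Gamma0 N) ℤ, (p : ℤ) ∣ pd N x y) :
    x ∈ H66.pSub p (parabolicHoms ℤ (Gamma0 N) ℤ) :=
  H66.mem_pSub.mpr (pd_nondeg hp hp2 x h)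

end Form

end Fermat.Agent.S41.H18
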