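import Mathlib

/-!
# S41 / package P (Poincaré duality): abstract Farey setting, alternating cochains, the trace

`G` (think `SL(2,ℤ)`) acts on `X` (think `P¹(ℚ)`).  A `FareyData G X` consists of two elements
`S`, `R` of `G` and a base point `oo : X` such that `S² = z` is central and acts trivially,
`R³ = 1` and `R • oo = S • oo`.  We write `zero = S • oo`, `one = R • zero`; then
`R : oo ↦ zero ↦ one ↦ oo` and `S : oo ↔ zero`.

For a subgroup `Γ ≤ G` of finite index the *trace* of an alternating `Γ`-invariant `2`-cochain `c`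
on `X` is `tr Γ c = ∑_{gΓ ∈ G/Γ} c (g⁻¹ zero, g⁻¹ one, g⁻¹ oo)` (sum over the Farey triangles
modulo `Γ`).
-/

set_option autoImplicit false

namespace Fermat.Agent.S41.H60

open scoped BigOperators

variable {G : Type*} [Group G] {X : Type*} [MulAction G X]

/-- alternating `1`-cochains on `X` -/
def IsAlt2 (b : X → X → ℚ) : Prop := ∀ x y, b x y = - b y x

/-- alternating `2`-cochains on `X` -/
def IsAlt3 (c : X → X → X → ℚ) : Prop :=
  (∀ x y z, c x y z = - c y x z) ∧ (∀ x y z, c x y z = - c x z y)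

/-- the `2`-cocycle condition -/
def IsCocycle3 (c : X → X → X → ℚ) : Prop :=
  ∀ x y z w, c y z w - c x z w + c x y w - c x y z = 0

/-- `Γ`-invariance of a `1`-cochain -/
def IsInv2 (Γ : Subgroup G) (b : X → X → ℚ) : Prop :=
  ∀ γ ∈ Γ, ∀ x y, b (γ • x) (γ • y) = b x y

/-- `Γ`-invariance of a `2`-cochain -/
def IsInv3 (Γ : Subgroup G) (c : X → X → X → ℚ) : Prop :=
  ∀ γ ∈ Γ, ∀ x y z, c (γ • x) (γ • y) (γ • z) = c x y z

/-- coboundary of an (alternating) `1`-cochain -/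
def cobd (b : X → X → ℚ) : X → X → X → ℚ := fun x y z => b x y + b y z + b z x

/-- The abstract Farey setting. -/
structure FareyData (G : Type*) [Group G] (X : Type*) [MulAction G X] where
  S : G
  R : G
  oo : X
  z : G
  S_sq : S * S = z
  R_cube : R * R * R = 1
  z_comm : ∀ g : G, z * g = g * z
  z_smul : ∀ x : X, z • x = x
  R_oo : R • oo = S • oo

namespace FareyData

variable (F : FareyData G X)

/-- the point `0 = S ∞` -/
def zero : X := F.S • F.oo

/-- the point `1 = R 0` -/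
def one : X := F.R • F.S • F.oo

lemma S_zero : F.S • F.zero = F.oo := by
  rw [zero, ← mul_smul, F.S_sq, F.z_smul]

lemma R_zero : F.R • F.zero = F.one := rfl

lemma R_one : F.R • F.one = F.oo := by
  rw [one, ← F.R_oo, ← mul_smul, ← mul_smul, F.R_cube, one_smul]

lemma Sinv_oo : F.S⁻¹ • F.oo = F.zero := by
  rw [inv_smul_eq_iff, F.S_zero]

lemma Sinv_zero : F.S⁻¹ • F.zero = F.oo := by
  rw [inv_smul_eq_iff]; rfl

lemma Rinv_zero : F.R⁻¹ • F.zero = F.oo := by
  rw [inv_smul_eq_iff, F.R_oo]; rfl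

lemma Rinv_one : F.R⁻¹ • F.one = F.zero := by
  rw [inv_smul_eq_iff]; rfl

lemma Rinv_oo : F.R⁻¹ • F.oo = F.one := by
  rw [inv_smul_eq_iff, F.R_one]

/-- `z ∈ Γ` acts trivially on `G ⧸ Γ`. -/
lemma z_smul_coset (Γ : Subgroup G) (hz : F.z ∈ Γ) (y : G ⧸ Γ) : F.z • y = y := by
  induction y using QuotientGroup.induction_on with
  | H g =>
    rw [MulAction.Quotient.smul_mk, smul_eq_mul, F.z_comm]
    exact (QuotientGroup.mk_mul_of_mem g hz)

lemma S_S_coset (Γ : Subgroup G) (hz : F.z ∈ Γ) (y : G ⧸ Γ) : F.S • F.S • y = y := by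
  rw [← mul_smul, F.S_sq, F.z_smul_coset Γ hz]

lemma R_R_R_coset (Γ : Subgroup G) (y : G ⧸ Γ) : F.R • F.R • F.R • y = y := by
  rw [← mul_smul, ← mul_smul, F.R_cube, one_smul]

/-- **(FAREY)**: the function form of `PSL₂(ℤ) = C₂ * C₃`, with values in `A`. -/
def HasPrim (A : Type) [AddCommGroup A] : Prop :=
  ∀ ω : G → A, (∀ g, ω (g * F.S) = - ω g) → (∀ g, ω g + ω (g * F.R) + ω (g * F.R * F.R) = 0) →
    ∃ f : X → A, ∀ g, ω g = f (g • F.oo) - f (g • F.zero)

/-- the Farey triangle function of a `2`-cochain on `G ⧸ Γ` -/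
noncomputable def cF (Γ : Subgroup G) (c : X → X → X → ℚ) (y : G ⧸ Γ) : ℚ :=
  c (y.out⁻¹ • F.zero) (y.out⁻¹ • F.one) (y.out⁻¹ • F.oo)

/-- the trace of a `2`-cochain -/
noncomputable def tr (Γ : Subgroup G) [Fintype (G ⧸ Γ)] (c : X → X → X → ℚ) : ℚ :=
  ∑ y : G ⧸ Γ, F.cF Γ c y

/-- the Farey edge function of a `1`-cochain on `G ⧸ Γ` -/
noncomputable def bF (Γ : Subgroup G) (b : X → X → ℚ) (y : G ⧸ Γ) : ℚ :=
  b (y.out⁻¹ • F.zero) (y.out⁻¹ • F.oo)

end FareyData

end Fermat.Agent.S41.H60
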