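import Mathlib
import Fermat.Agent.S21.H58_PermLinAlg
import Fermat.Agent.S41.H60_PDDefs

/-!
# S41 / package P: uniqueness of the trace (Theorems B, A, T and TRANSFER of the blueprint)
-/

set_option autoImplicit false

namespace Fermat.Agent.S41.H60

open scoped BigOperators

variable {G : Type*} [Group G] {X : Type*} [MulAction G X]

namespace FareyData

variable (F : FareyData G X)

section mk

variable (Γ : Subgroup G)

lemma out_inv_eq (g : G) : ∃ γ ∈ Γ, ((g : G ⧸ Γ).out)⁻¹ = γ * g⁻¹ := by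
  obtain ⟨h, hh⟩ := QuotientGroup.mk_out_eq_mul Γ g
  exact ⟨(h : G)⁻¹, Γ.inv_mem h.2, by rw [hh, mul_inv_rev]⟩

lemma cF_mk {c : X → X → X → ℚ} (hc : IsInv3 Γ c) (g : G) :
    F.cF Γ c (g : G ⧸ Γ) = c (g⁻¹ • F.zero) (g⁻¹ • F.one) (g⁻¹ • F.oo) := by
  obtain ⟨γ, hγ, he⟩ := out_inv_eq Γ g
  rw [cF, he, mul_smul, mul_smul, mul_smul, hc γ hγ]

lemma bF_mk {b : X → X → ℚ} (hb : IsInv2 Γ b) (g : G) :
    F.bF Γ b (g : G ⧸ Γ) = b (g⁻¹ • F.zero) (g⁻¹ • F.oo) := by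
  obtain ⟨γ, hγ, he⟩ := out_inv_eq Γ g
  rw [bF, he, mul_smul, mul_smul, hb γ hγ]

lemma bF_S {b : X → X → ℚ} (hb : IsInv2 Γ b) (hb' : IsAlt2 b) (y : G ⧸ Γ) :
    F.bF Γ b (F.S • y) = - F.bF Γ b y := by
  induction y using QuotientGroup.induction_on with
  | H g =>
    rw [MulAction.Quotient.smul_mk, smul_eq_mul, F.bF_mk Γ hb, F.bF_mk Γ hb, mul_inv_rev,
      mul_smul, mul_smul, F.Sinv_zero, F.Sinv_oo, hb']

lemma bF_R {b : X → X → ℚ} (hb : IsInv2 Γ b) (g : G) :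
    F.bF Γ b (F.R • (g : G ⧸ Γ)) = b (g⁻¹ • F.oo) (g⁻¹ • F.one) := by
  rw [MulAction.Quotient.smul_mk, smul_eq_mul, F.bF_mk Γ hb, mul_inv_rev,
      mul_smul, mul_smul, F.Rinv_zero, F.Rinv_oo]

lemma bF_R_R {b : X → X → ℚ} (hb : IsInv2 Γ b) (g : G) :
    F.bF Γ b (F.R • F.R • (g : G ⧸ Γ)) = b (g⁻¹ • F.one) (g⁻¹ • F.zero) := by
  rw [MulAction.Quotient.smul_mk, MulAction.Quotient.smul_mk, smul_eq_mul, smul_eq_mul,
    F.bF_mk Γ hb, mul_inv_rev, mul_inv_rev, mul_smul, mul_smul, mul_smul, mul_smul,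
    F.Rinv_zero, F.Rinv_oo, F.Rinv_one]

lemma cF_R {c : X → X → X → ℚ} (hc : IsInv3 Γ c) (hc' : IsAlt3 c) (y : G ⧸ Γ) :
    F.cF Γ c (F.R • y) = F.cF Γ c y := by
  induction y using QuotientGroup.induction_on with
  | H g =>
    rw [MulAction.Quotient.smul_mk, smul_eq_mul, F.cF_mk Γ hc, F.cF_mk Γ hc, mul_inv_rev,
      mul_smul, mul_smul, mul_smul, F.Rinv_zero, F.Rinv_oo, F.Rinv_one,
      hc'.1, hc'.2, neg_neg]

lemma cF_cobd {b : X → X → ℚ} (hb : IsInv2 Γ b) (hb' : IsAlt2 b) (y : G ⧸ Γ) :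
    F.cF Γ (cobd b) y = - (F.bF Γ b y + F.bF Γ b (F.R • y) + F.bF Γ b (F.R • F.R • y)) := by
  have hinv : IsInv3 Γ (cobd b) := by
    intro γ hγ x y z
    simp only [cobd, hb γ hγ]
  induction y using QuotientGroup.induction_on with
  | H g =>
    rw [F.cF_mk Γ hinv, F.bF_R Γ hb, F.bF_R_R Γ hb, F.bF_mk Γ hb, cobd]
    rw [hb' (g⁻¹ • F.zero) (g⁻¹ • F.one), hb' (g⁻¹ • F.one) (g⁻¹ • F.oo),
      hb' (g⁻¹ • F.oo) (g⁻¹ • F.zero)]
    ring

end mk

section thmB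

variable (Γ : Subgroup G) [Fintype (G ⧸ Γ)]

lemma sum_smul_coset (g : G) (m : G ⧸ Γ → ℚ) : ∑ y, m (g • y) = ∑ y, m y :=
  Fintype.sum_equiv (MulAction.toPerm g) _ _ (fun _ => rfl)

/-- **Theorem B**: the trace of the coboundary of an invariant alternating cochain vanishes. -/
theorem tr_cobd {b : X → X → ℚ} (hb : IsInv2 Γ b) (hb' : IsAlt2 b) :
    F.tr Γ (cobd b) = 0 := by
  have h0 : ∑ y, F.bF Γ b y = 0 := by
    have h1 := sum_smul_coset Γ F.S (F.bF Γ b)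
    simp only [F.bF_S Γ hb hb', Finset.sum_neg_distrib] at h1
    linarith
  rw [tr]
  simp only [F.cF_cobd Γ hb hb', Finset.sum_neg_distrib, Finset.sum_add_distrib]
  rw [sum_smul_coset Γ F.R (F.bF Γ b),
    sum_smul_coset Γ F.R (fun y => F.bF Γ b (F.R • y)), sum_smul_coset Γ F.R (F.bF Γ b), h0]
  simp

end thmB

section thmA

open Fermat.Agent.S21.H58 in
/-- Step (1) of Theorem A: finite linear algebra on `G ⧸ Γ`. -/
lemma exists_beta (Γ : Subgroup G) [Fintype (G ⧸ Γ)] [DecidableEq (G ⧸ Γ)]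
    (hgen : Subgroup.closure {F.S, F.R} = ⊤) (hz : F.z ∈ Γ)
    {c : X → X → X → ℚ} (hc : IsInv3 Γ c) (hc' : IsAlt3 c) (htr : F.tr Γ c = 0) :
    ∃ β : G ⧸ Γ → ℚ, (∀ y, β (F.S • y) = - β y) ∧
      ∀ y, - (β y + β (F.R • y) + β (F.R • F.R • y)) = F.cF Γ c y := by
  have hker : F.cF Γ c ∈ LinearMap.ker (sumL ℚ : ((G ⧸ Γ) → ℚ) →ₗ[ℚ] ℚ) := by
    rw [LinearMap.mem_ker]
    exact htr
  have hmem := ker_sumL_le_Rsub ℚ F.S F.R hgen hker
  rw [Rsub, Submodule.mem_sup] at hmem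
  obtain ⟨a, ⟨m₁, rfl⟩, b, ⟨m₂, rfl⟩, hab⟩ := hmem
  have hab' : ∀ y, F.cF Γ c y = (m₁ (F.S • y) - m₁ y) + (m₂ (F.R • y) - m₂ y) := by
    intro y
    have := congrFun hab y
    simp only [Pi.add_apply, LinearMap.sub_apply, pull_apply, Module.End.one_apply,
      Pi.sub_apply] at this
    linarith
  refine ⟨fun y => - (m₁ (F.S • y) - m₁ y) / 3, ?_, ?_⟩
  · intro y
    simp only [F.S_S_coset Γ hz]
    ring
  · intro y
    have h1 := hab' y
    have h2 := hab' (F.R • y)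
    have h3 := hab' (F.R • F.R • y)
    rw [F.cF_R Γ hc hc'] at h2
    rw [F.cF_R Γ hc hc', F.cF_R Γ hc hc', F.R_R_R_coset] at h3
    simp only []
    linarith

/-- **(CONN)** from generation and transitivity. -/
lemma const_of_edge_eq (hgen : Subgroup.closure {F.S, F.R} = ⊤) (htrans : ∀ x : X, ∃ g : G, g • F.oo = x)
    {A : Type*} (f : X → A) (hf : ∀ g : G, f (g • F.oo) = f (g • F.zero)) (x y : X) : f x = f y := by
  have key : ∀ h : G, ∀ g : G, f ((g * h) • F.oo) = f (g • F.oo) := by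
    intro h
    have hh : h ∈ Subgroup.closure {F.S, F.R} := by rw [hgen]; trivial
    induction hh using Subgroup.closure_induction with
    | mem y hy =>
      intro g
      rcases hy with rfl | hy
      · rw [mul_smul]; exact (hf g).symm
      · rw [Set.mem_singleton_iff] at hy
        subst hy
        rw [mul_smul, F.R_oo]; exact (hf g).symm
    | one => intro g; rw [mul_one]
    | mul a b _ _ ha hb =>
      intro g
      rw [← mul_assoc, hb, ha]
    | inv a _ ha =>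
      intro g
      have := ha (g * a⁻¹)
      rw [inv_mul_cancel_right] at this
      exact this.symm
  obtain ⟨g, rfl⟩ := htrans x
  obtain ⟨g', rfl⟩ := htrans y
  have h1 := key g 1
  have h2 := key g' 1
  rw [one_mul, one_smul] at h1 h2
  rw [h1, h2]

/-- **Theorem A** (uniqueness of the trace): an alternating `Γ`-invariant `2`-cocycle of trace
zero is the coboundary of an alternating `Γ`-invariant `1`-cochain. -/
theorem exists_cobd_of_tr_eq_zero (Γ : Subgroup G) [Fintype (G ⧸ Γ)]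
    (hprim : F.HasPrim ℚ)
    (hgen : Subgroup.closure {F.S, F.R} = ⊤) (htrans : ∀ x : X, ∃ g : G, g • F.oo = x)
    (hz : F.z ∈ Γ)
    {c : X → X → X → ℚ} (hc : IsInv3 Γ c) (hc' : IsAlt3 c) (hcoc : IsCocycle3 c)
    (htr : F.tr Γ c = 0) :
    ∃ b : X → X → ℚ, IsAlt2 b ∧ IsInv2 Γ b ∧ c = cobd b := by
  classical
  obtain ⟨β, hβS, hβR⟩ := F.exists_beta Γ hgen hz hc hc' htr
  -- the non-invariant primitive `b₀`
  set b₀ : X → X → ℚ := fun x y => c F.oo x y with hb₀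
  have hb₀alt : IsAlt2 b₀ := fun x y => hc'.2 _ _ _
  have hb₀c : ∀ x y z, c x y z = b₀ x y + b₀ y z + b₀ z x := by
    intro x y z
    have h := hcoc F.oo x y z
    have h2 := hc'.2 F.oo z x
    simp only [hb₀]
    linarith
  -- the correction
  set ω : G → ℚ := fun g => β ((g⁻¹ : G) : G ⧸ Γ) - b₀ (g • F.zero) (g • F.oo) with hω
  have hβS' : ∀ y, β (F.S⁻¹ • y) = - β y := by
    intro y
    have := hβS (F.S⁻¹ • y)
    rw [smul_inv_smul] at this
    linarith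
  have hRinv : ∀ y : G ⧸ Γ, F.R⁻¹ • y = F.R • F.R • y := by
    intro y
    rw [inv_smul_eq_iff, F.R_R_R_coset]
  have hω1 : ∀ g, ω (g * F.S) = - ω g := by
    intro g
    simp only [hω]
    have e1 : (((g * F.S)⁻¹ : G) : G ⧸ Γ) = F.S⁻¹ • ((g⁻¹ : G) : G ⧸ Γ) := by
      rw [mul_inv_rev]; rfl
    rw [e1, hβS', mul_smul, mul_smul, F.S_zero]
    rw [show F.S • F.oo = F.zero from rfl, hb₀alt (g • F.oo) (g • F.zero)]
    ring
  have hω2 : ∀ g, ω g + ω (g * F.R) + ω (g * F.R * F.R) = 0 := by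
    intro g
    simp only [hω]
    have e1 : (((g * F.R)⁻¹ : G) : G ⧸ Γ) = F.R • F.R • ((g⁻¹ : G) : G ⧸ Γ) := by
      rw [← hRinv, mul_inv_rev]; rfl
    have e2 : (((g * F.R * F.R)⁻¹ : G) : G ⧸ Γ) = F.R • ((g⁻¹ : G) : G ⧸ Γ) := by
      have : (((g * F.R * F.R)⁻¹ : G) : G ⧸ Γ) = F.R⁻¹ • F.R⁻¹ • ((g⁻¹ : G) : G ⧸ Γ) := by
        rw [mul_inv_rev, mul_inv_rev]; rfl
      rw [this, hRinv ((g⁻¹ : G) : G ⧸ Γ), inv_smul_smul]
    rw [e1, e2]
    have h1 := hβR ((g⁻¹ : G) : G ⧸ Γ)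
    rw [F.cF_mk Γ hc, inv_inv] at h1
    have h2 := hb₀c (g • F.zero) (g • F.one) (g • F.oo)
    rw [mul_smul, mul_smul, mul_smul, mul_smul, mul_smul, mul_smul, F.R_zero, F.R_oo, F.R_one,
      show F.S • F.oo = F.zero from rfl, F.R_zero]
    have h3 := hb₀alt (g • F.one) (g • F.zero)
    have h4 := hb₀alt (g • F.oo) (g • F.one)
    have h5 := hb₀alt (g • F.oo) (g • F.zero)
    linarith
  obtain ⟨f, hf⟩ := hprim ω hω1 hω2
  -- the invariant primitive
  set b : X → X → ℚ := fun x y => b₀ x y + (f y - f x) with hb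
  have hbalt : IsAlt2 b := by
    intro x y
    simp only [hb]
    rw [hb₀alt x y]
    ring
  have hbc : ∀ x y z, c x y z = b x y + b y z + b z x := by
    intro x y z
    simp only [hb]
    rw [hb₀c x y z]
    ring
  have hbedge : ∀ g : G, b (g • F.zero) (g • F.oo) = β ((g⁻¹ : G) : G ⧸ Γ) := by
    intro g
    simp only [hb]
    rw [← hf g]
    simp only [hω]
    ring
  refine ⟨b, hbalt, ?_, funext fun x => funext fun y => funext fun z => hbc x y z⟩
  intro γ hγ x y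
  set k : X → ℚ := fun x => b (γ • F.oo) (γ • x) - b F.oo x with hk
  have hk1 : ∀ x y, b (γ • x) (γ • y) - b x y = k y - k x := by
    intro x y
    have h1 := hbc (γ • x) (γ • y) (γ • F.oo)
    have h2 := hbc x y F.oo
    rw [hc γ hγ] at h1
    simp only [hk]
    have h3 := hbalt (γ • y) (γ • F.oo)
    have h4 := hbalt y F.oo
    linarith
  have hk2 : ∀ g : G, k (g • F.oo) = k (g • F.zero) := by
    intro g
    have h1 := hk1 (g • F.zero) (g • F.oo)
    rw [← mul_smul, ← mul_smul, hbedge, hbedge] at h1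
    have e : (((γ * g)⁻¹ : G) : G ⧸ Γ) = ((g⁻¹ : G) : G ⧸ Γ) := by
      rw [mul_inv_rev]
      exact QuotientGroup.mk_mul_of_mem _ (Γ.inv_mem hγ)
    rw [e, sub_self] at h1
    linarith
  have hk3 := F.const_of_edge_eq hgen htrans k hk2 x y
  have := hk1 x y
  linarith

end thmA

section thmT

/-- An orientation cocycle for the Farey setting. -/
structure IsOrientation (o : X → X → X → ℚ) : Prop where
  alt : IsAlt3 o
  coc : IsCocycle3 o
  inv : ∀ (g : G) (x y z : X), o (g • x) (g • y) (g • z) = o x y z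
  norm : o F.zero F.one F.oo = 1

lemma tr_sub_mul (Γ : Subgroup G) [Fintype (G ⧸ Γ)] (c o : X → X → X → ℚ) (lam : ℚ) :
    F.tr Γ (fun x y z => c x y z - lam * o x y z) = F.tr Γ c - lam * F.tr Γ o := by
  simp only [tr, cF, Finset.sum_sub_distrib, Finset.mul_sum]

lemma tr_orientation (Γ : Subgroup G) [Fintype (G ⧸ Γ)] {o : X → X → X → ℚ}
    (ho : F.IsOrientation o) : F.tr Γ o = Fintype.card (G ⧸ Γ) := by
  simp only [tr, cF, ho.inv, ho.norm, Finset.sum_const, Finset.card_univ, nsmul_eq_mul, mul_one]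

/-- **Theorem T** (transport of the trace along a map `e : X → X` conjugating `Γ'` into `Γ₁`
and preserving the orientation cocycle). -/
theorem tr_pullback (Γ' Γ₁ : Subgroup G) [Fintype (G ⧸ Γ')] [Fintype (G ⧸ Γ₁)]
    (hprim : F.HasPrim ℚ)
    (hgen : Subgroup.closure {F.S, F.R} = ⊤) (htrans : ∀ x : X, ∃ g : G, g • F.oo = x)
    (hz₁ : F.z ∈ Γ₁) {o : X → X → X → ℚ} (ho : F.IsOrientation o)
    (e : X → X) (heo : ∀ x y z, o (e x) (e y) (e z) = o x y z)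
    (hconj : ∀ γ' ∈ Γ', ∃ γ₁ ∈ Γ₁, ∀ x, e (γ' • x) = γ₁ • e x)
    {c : X → X → X → ℚ} (hc : IsInv3 Γ₁ c) (hc' : IsAlt3 c) (hcoc : IsCocycle3 c) :
    F.tr Γ' (fun x y z => c (e x) (e y) (e z)) * Fintype.card (G ⧸ Γ₁)
      = F.tr Γ₁ c * Fintype.card (G ⧸ Γ') := by
  have hn₁ : (Fintype.card (G ⧸ Γ₁) : ℚ) ≠ 0 := by
    have : 0 < Fintype.card (G ⧸ Γ₁) := Fintype.card_pos
    exact_mod_cast this.ne'
  set lam : ℚ := F.tr Γ₁ c / Fintype.card (G ⧸ Γ₁) with hlam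
  set c' : X → X → X → ℚ := fun x y z => c x y z - lam * o x y z with hc'def
  have h1 : IsInv3 Γ₁ c' := by
    intro γ hγ x y z
    simp only [hc'def, hc γ hγ, ho.inv]
  have h2 : IsAlt3 c' := by
    refine ⟨fun x y z => ?_, fun x y z => ?_⟩
    · simp only [hc'def]
      rw [hc'.1 x y z, ho.alt.1 x y z]; ring
    · simp only [hc'def]
      rw [hc'.2 x y z, ho.alt.2 x y z]; ring
  have h3 : IsCocycle3 c' := by
    intro x y z w
    have a := hcoc x y z w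
    have b := ho.coc x y z w
    simp only [hc'def]
    linear_combination a - lam * b
  have h4 : F.tr Γ₁ c' = 0 := by
    rw [hc'def, F.tr_sub_mul, F.tr_orientation Γ₁ ho, hlam]
    field_simp
    ring
  obtain ⟨b, hbalt, hbinv, hbc⟩ := F.exists_cobd_of_tr_eq_zero Γ₁ hprim hgen htrans hz₁ h1 h2 h3 h4
  set b' : X → X → ℚ := fun x y => b (e x) (e y) with hb'
  have hb'alt : IsAlt2 b' := fun x y => hbalt _ _
  have hb'inv : IsInv2 Γ' b' := by
    intro γ' hγ' x y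
    obtain ⟨γ₁, hγ₁, h⟩ := hconj γ' hγ'
    simp only [hb', h, hbinv γ₁ hγ₁]
  have h5 : (fun x y z => c' (e x) (e y) (e z)) = cobd b' := by
    funext x y z
    rw [hbc]
    rfl
  have h6 := F.tr_cobd Γ' hb'inv hb'alt
  rw [← h5] at h6
  have h7 : F.tr Γ' (fun x y z => c' (e x) (e y) (e z))
      = F.tr Γ' (fun x y z => c (e x) (e y) (e z)) - lam * F.tr Γ' o := by
    have := F.tr_sub_mul Γ' (fun x y z => c (e x) (e y) (e z)) (fun x y z => o (e x) (e y) (e z)) lam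
    have ho' : (fun x y z => o (e x) (e y) (e z)) = o := by
      funext x y z; exact heo x y z
    rw [ho'] at this
    simp only [hc'def]
    exact this
  rw [h7, F.tr_orientation Γ' ho] at h6
  rw [hlam] at h6
  field_simp at h6
  linarith

end thmT

section transfer

/-- **TRANSFER**: if `Γ = ⊔ⱼ Γ₁ gⱼ` then `tr_Γ (∑ⱼ gⱼ^* c) = tr_{Γ₁} c`. -/
theorem tr_transfer (Γ₁ Γ : Subgroup G) [Fintype (G ⧸ Γ₁)] [Fintype (G ⧸ Γ)] (hle : Γ₁ ≤ Γ)
    {J : Type*} [Fintype J] (g : J → G) (hg : ∀ j, g j ∈ Γ)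
    (hrep : ∀ γ ∈ Γ, ∃! j, γ * (g j)⁻¹ ∈ Γ₁)
    {c : X → X → X → ℚ} (hc : IsInv3 Γ₁ c) :
    F.tr Γ (fun x y z => ∑ j, c (g j • x) (g j • y) (g j • z)) = F.tr Γ₁ c := by
  classical
  set Φ : (G ⧸ Γ) × J → G ⧸ Γ₁ := fun p => ((p.1.out * (g p.2)⁻¹ : G) : G ⧸ Γ₁) with hΦ
  have hΦbij : Function.Bijective Φ := by
    constructor
    · rintro ⟨y, j⟩ ⟨y', j'⟩ h
      simp only [hΦ] at h
      rw [QuotientGroup.eq] at h
      have hmem : (y.out * (g j)⁻¹)⁻¹ * (y'.out * (g j')⁻¹) ∈ Γ := hle h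
      have hyy : y.out⁻¹ * y'.out ∈ Γ := by
        have := Γ.mul_mem (Γ.mul_mem (Γ.inv_mem (hg j)) hmem) (hg j')
        convert this using 1
        group
      have hy : y = y' := by
        rw [← QuotientGroup.out_eq' y, ← QuotientGroup.out_eq' y', QuotientGroup.eq]
        exact hyy
      subst hy
      have hjj : g j * (g j')⁻¹ ∈ Γ₁ := by
        convert h using 1
        group
      obtain ⟨j₀, _, huniq⟩ := hrep (g j) (hg j)
      have e1 : j = j₀ := huniq j (by simp only [mul_inv_cancel]; exact Γ₁.one_mem)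
      have e2 : j' = j₀ := huniq j' hjj
      rw [e1, e2]
    · intro y₁
      induction y₁ using QuotientGroup.induction_on with
      | H h =>
        obtain ⟨γ, hγ⟩ := QuotientGroup.mk_out_eq_mul Γ h
        obtain ⟨j, hj, _⟩ := hrep (γ : G) γ.2
        refine ⟨((h : G ⧸ Γ), j), ?_⟩
        simp only [hΦ]
        rw [QuotientGroup.eq, hγ]
        have : (h * (γ : G) * (g j)⁻¹)⁻¹ * h = ((γ : G) * (g j)⁻¹)⁻¹ := by group
        rw [this]
        exact Γ₁.inv_mem hj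
  have hterm : ∀ p : (G ⧸ Γ) × J, F.cF Γ₁ c (Φ p)
      = c (g p.2 • p.1.out⁻¹ • F.zero) (g p.2 • p.1.out⁻¹ • F.one) (g p.2 • p.1.out⁻¹ • F.oo) := by
    intro p
    simp only [hΦ]
    rw [F.cF_mk Γ₁ hc, mul_inv_rev, inv_inv, mul_smul, mul_smul, mul_smul]
  rw [tr, tr, ← Fintype.sum_bijective Φ hΦbij (fun p => F.cF Γ₁ c (Φ p)) (F.cF Γ₁ c) (fun _ => rfl),
    Fintype.sum_prod_type]
  refine Finset.sum_congr rfl fun y _ => ?_
  rw [cF]
  refine Finset.sum_congr rfl fun j _ => ?_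
  rw [hterm]

end transfer

end FareyData

end Fermat.Agent.S41.H60
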