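import Mathlib
import Fermat.Agent.S41.H60_PDCore

/-!
# S41 / package P: the pairing at the level of cusp primitives

For quasi-invariant functions `F F' : X → ℤ` (cusp primitives of parabolic classes) the *area
cocycle* `Dcoc F F'` is an alternating invariant `2`-cocycle and `pairQ Γ F F' := tr Γ (Dcoc F F')`.
We prove bilinearity, independence of the primitives and the two adjointness statements
(pull-back along a conjugating map, transfer along coset representatives).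
-/

set_option autoImplicit false

namespace Fermat.Agent.S41.H60

open scoped BigOperators

variable {G : Type*} [Group G] {X : Type*} [MulAction G X]

/-- quasi-invariant functions (cusp primitives) -/
def IsQI (Γ : Subgroup G) (F : X → ℤ) : Prop := ∀ γ ∈ Γ, ∃ c : ℤ, ∀ x, F (γ • x) = F x + c

/-- invariant functions -/
def IsInv1 (Γ : Subgroup G) (h : X → ℤ) : Prop := ∀ γ ∈ Γ, ∀ x, h (γ • x) = h x

lemma IsInv1.isQI {Γ : Subgroup G} {h : X → ℤ} (hh : IsInv1 Γ h) : IsQI Γ h :=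
  fun γ hγ => ⟨0, fun x => by rw [hh γ hγ, add_zero]⟩

lemma IsQI.mono {Γ₁ Γ : Subgroup G} (hle : Γ₁ ≤ Γ) {F : X → ℤ} (hF : IsQI Γ F) : IsQI Γ₁ F :=
  fun γ hγ => hF γ (hle hγ)

lemma IsQI.add {Γ : Subgroup G} {F F' : X → ℤ} (hF : IsQI Γ F) (hF' : IsQI Γ F') :
    IsQI Γ (F + F') := by
  intro γ hγ
  obtain ⟨c, hc⟩ := hF γ hγ
  obtain ⟨c', hc'⟩ := hF' γ hγ
  exact ⟨c + c', fun x => by simp only [Pi.add_apply, hc, hc']; ring⟩

lemma IsQI.neg {Γ : Subgroup G} {F : X → ℤ} (hF : IsQI Γ F) : IsQI Γ (-F) := by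
  intro γ hγ
  obtain ⟨c, hc⟩ := hF γ hγ
  exact ⟨-c, fun x => by simp only [Pi.neg_apply, hc]; ring⟩

lemma IsQI.smul {Γ : Subgroup G} {F : X → ℤ} (hF : IsQI Γ F) (n : ℤ) : IsQI Γ (n • F) := by
  intro γ hγ
  obtain ⟨c, hc⟩ := hF γ hγ
  exact ⟨n * c, fun x => by simp only [Pi.smul_apply, hc, smul_eq_mul]; ring⟩

/-- the area cocycle -/
def Dcoc (F F' : X → ℤ) : X → X → X → ℚ := fun x y z =>
  (((F y - F x) * (F' z - F' y) - (F z - F y) * (F' y - F' x) : ℤ) : ℚ)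

lemma Dcoc_alt (F F' : X → ℤ) : IsAlt3 (Dcoc F F') := by
  refine ⟨fun x y z => ?_, fun x y z => ?_⟩ <;> simp only [Dcoc] <;> push_cast <;> ring

lemma Dcoc_cocycle (F F' : X → ℤ) : IsCocycle3 (Dcoc F F') := by
  intro x y z w
  simp only [Dcoc]
  push_cast
  ring

lemma Dcoc_inv {Γ : Subgroup G} {F F' : X → ℤ} (hF : IsQI Γ F) (hF' : IsQI Γ F') :
    IsInv3 Γ (Dcoc F F') := by
  intro γ hγ x y z
  obtain ⟨c, hc⟩ := hF γ hγ
  obtain ⟨c', hc'⟩ := hF' γ hγ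
  simp only [Dcoc, hc, hc']
  push_cast
  ring

lemma Dcoc_swap (F F' : X → ℤ) (x y z : X) : Dcoc F' F x y z = - Dcoc F F' x y z := by
  simp only [Dcoc]; push_cast; ring

lemma Dcoc_add_left (F₁ F₂ F' : X → ℤ) (x y z : X) :
    Dcoc (F₁ + F₂) F' x y z = Dcoc F₁ F' x y z + Dcoc F₂ F' x y z := by
  simp only [Dcoc, Pi.add_apply]; push_cast; ring

lemma Dcoc_add_right (F F₁ F₂ : X → ℤ) (x y z : X) :
    Dcoc F (F₁ + F₂) x y z = Dcoc F F₁ x y z + Dcoc F F₂ x y z := by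
  simp only [Dcoc, Pi.add_apply]; push_cast; ring

lemma Dcoc_smul_left (n : ℤ) (F F' : X → ℤ) (x y z : X) :
    Dcoc (n • F) F' x y z = n * Dcoc F F' x y z := by
  simp only [Dcoc, Pi.smul_apply, smul_eq_mul]; push_cast; ring

lemma Dcoc_smul_right (n : ℤ) (F F' : X → ℤ) (x y z : X) :
    Dcoc F (n • F') x y z = n * Dcoc F F' x y z := by
  simp only [Dcoc, Pi.smul_apply, smul_eq_mul]; push_cast; ring

lemma Dcoc_zero_right (F : X → ℤ) (x y z : X) : Dcoc F 0 x y z = 0 := by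
  simp [Dcoc]

lemma Dcoc_sum_right {J : Type*} (s : Finset J) (F : X → ℤ) (F' : J → X → ℤ) (x y z : X) :
    Dcoc F (fun t => ∑ j ∈ s, F' j t) x y z = ∑ j ∈ s, Dcoc F (F' j) x y z := by
  classical
  induction s using Finset.induction_on with
  | empty => simp [Dcoc]
  | insert a s ha ih =>
    rw [Finset.sum_insert ha, ← ih]
    have : (fun t => ∑ j ∈ insert a s, F' j t) = F' a + fun t => ∑ j ∈ s, F' j t := by
      funext t
      rw [Finset.sum_insert ha]; rfl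
    rw [this, Dcoc_add_right]

/-- `Dcoc` only sees `F` up to an additive constant (left slot). -/
lemma Dcoc_congr_left {F₁ F₂ : X → ℤ} (c : ℤ) (h : ∀ x, F₁ x = F₂ x + c) (F' : X → ℤ) (x y z : X) :
    Dcoc F₁ F' x y z = Dcoc F₂ F' x y z := by
  simp only [Dcoc, h]; push_cast; ring

/-- If `h` is invariant, `Dcoc h F'` is a coboundary of an invariant cochain. -/
lemma Dcoc_inv_left_eq_cobd (h F' : X → ℤ) :
    Dcoc h F' = cobd (fun x y => (((h x + h y) * (F' y - F' x) : ℤ) : ℚ)) := by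
  funext x y z
  simp only [Dcoc, cobd]; push_cast; ring

namespace FareyData

variable (F : FareyData G X)

/-- the `ℚ`-valued pairing of two cusp primitives (`= 3 ×` the integral pairing) -/
noncomputable def pairQ (Γ : Subgroup G) [Fintype (G ⧸ Γ)] (Fφ Fψ : X → ℤ) : ℚ :=
  F.tr Γ (Dcoc Fφ Fψ)

section basic

variable (Γ : Subgroup G) [Fintype (G ⧸ Γ)]

lemma tr_congr {c c' : X → X → X → ℚ} (h : ∀ x y z, c x y z = c' x y z) : F.tr Γ c = F.tr Γ c' := by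
  have : c = c' := funext fun x => funext fun y => funext fun z => h x y z
  rw [this]

lemma tr_add (c c' : X → X → X → ℚ) :
    F.tr Γ (fun x y z => c x y z + c' x y z) = F.tr Γ c + F.tr Γ c' := by
  simp only [tr, cF, Finset.sum_add_distrib]

lemma tr_const_mul (a : ℚ) (c : X → X → X → ℚ) :
    F.tr Γ (fun x y z => a * c x y z) = a * F.tr Γ c := by
  simp only [tr, cF, Finset.mul_sum]

lemma tr_neg (c : X → X → X → ℚ) : F.tr Γ (fun x y z => - c x y z) = - F.tr Γ c := by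
  simp only [tr, cF, Finset.sum_neg_distrib]

lemma pairQ_add_left (F₁ F₂ F' : X → ℤ) :
    F.pairQ Γ (F₁ + F₂) F' = F.pairQ Γ F₁ F' + F.pairQ Γ F₂ F' := by
  rw [pairQ, pairQ, pairQ, ← F.tr_add]
  exact F.tr_congr Γ (Dcoc_add_left F₁ F₂ F')

lemma pairQ_add_right (F₀ F₁ F₂ : X → ℤ) :
    F.pairQ Γ F₀ (F₁ + F₂) = F.pairQ Γ F₀ F₁ + F.pairQ Γ F₀ F₂ := by
  rw [pairQ, pairQ, pairQ, ← F.tr_add]
  exact F.tr_congr Γ (Dcoc_add_right F₀ F₁ F₂)

lemma pairQ_smul_left (n : ℤ) (F₁ F' : X → ℤ) :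
    F.pairQ Γ (n • F₁) F' = n * F.pairQ Γ F₁ F' := by
  rw [pairQ, pairQ, ← F.tr_const_mul]
  exact F.tr_congr Γ (Dcoc_smul_left n F₁ F')

lemma pairQ_smul_right (n : ℤ) (F₁ F' : X → ℤ) :
    F.pairQ Γ F₁ (n • F') = n * F.pairQ Γ F₁ F' := by
  rw [pairQ, pairQ, ← F.tr_const_mul]
  exact F.tr_congr Γ (Dcoc_smul_right n F₁ F')

lemma pairQ_swap (F₁ F₂ : X → ℤ) : F.pairQ Γ F₂ F₁ = - F.pairQ Γ F₁ F₂ := by
  rw [pairQ, pairQ, ← F.tr_neg]
  exact F.tr_congr Γ (Dcoc_swap F₁ F₂)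

/-- **WELL-DEFINED** (left slot): an invariant function pairs to zero with every primitive. -/
lemma pairQ_inv_left {h F' : X → ℤ} (hh : IsInv1 Γ h) (hF' : IsQI Γ F') :
    F.pairQ Γ h F' = 0 := by
  rw [pairQ, Dcoc_inv_left_eq_cobd]
  refine F.tr_cobd Γ ?_ ?_
  · intro γ hγ x y
    obtain ⟨c, hc⟩ := hF' γ hγ
    simp only [hh γ hγ, hc]
    push_cast
    ring
  · intro x y
    push_cast
    ring

/-- **WELL-DEFINED** (right slot). -/
lemma pairQ_inv_right {h F' : X → ℤ} (hh : IsInv1 Γ h) (hF' : IsQI Γ F') :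
    F.pairQ Γ F' h = 0 := by
  rw [F.pairQ_swap, F.pairQ_inv_left Γ hh hF', neg_zero]

end basic

section adjoint

/-- **Adjointness, part 1 (Theorem T at the level of primitives).** -/
theorem pairQ_pullback (Γ' Γ₁ : Subgroup G) [Fintype (G ⧸ Γ')] [Fintype (G ⧸ Γ₁)]
    (hprim : F.HasPrim ℚ)
    (hgen : Subgroup.closure {F.S, F.R} = ⊤) (htrans : ∀ x : X, ∃ g : G, g • F.oo = x)
    (hz₁ : F.z ∈ Γ₁) {o : X → X → X → ℚ} (ho : F.IsOrientation o)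
    (e : X → X) (heo : ∀ x y z, o (e x) (e y) (e z) = o x y z)
    (hconj : ∀ γ' ∈ Γ', ∃ γ₁ ∈ Γ₁, ∀ x, e (γ' • x) = γ₁ • e x)
    {F₁ F₂ : X → ℤ} (hF₁ : IsQI Γ₁ F₁) (hF₂ : IsQI Γ₁ F₂) :
    F.pairQ Γ' (F₁ ∘ e) (F₂ ∘ e) * Fintype.card (G ⧸ Γ₁)
      = F.pairQ Γ₁ F₁ F₂ * Fintype.card (G ⧸ Γ') :=
  F.tr_pullback Γ' Γ₁ hprim hgen htrans hz₁ ho e heo hconj (Dcoc_inv hF₁ hF₂) (Dcoc_alt F₁ F₂)
    (Dcoc_cocycle F₁ F₂)

/-- **Adjointness, part 2 (TRANSFER at the level of primitives).** -/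
theorem pairQ_transfer (Γ₁ Γ : Subgroup G) [Fintype (G ⧸ Γ₁)] [Fintype (G ⧸ Γ)] (hle : Γ₁ ≤ Γ)
    {J : Type*} [Fintype J] (g : J → G) (hg : ∀ j, g j ∈ Γ)
    (hrep : ∀ γ ∈ Γ, ∃! j, γ * (g j)⁻¹ ∈ Γ₁)
    {F₁ F₂ : X → ℤ} (hF₁ : IsQI Γ F₁) (hF₂ : IsQI Γ₁ F₂) :
    F.pairQ Γ F₁ (fun x => ∑ j, F₂ (g j • x)) = F.pairQ Γ₁ F₁ F₂ := by
  rw [pairQ, pairQ, ← F.tr_transfer Γ₁ Γ hle g hg hrep (Dcoc_inv (hF₁.mono hle) hF₂)]
  refine F.tr_congr Γ fun x y z => ?_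
  rw [Dcoc_sum_right]
  refine Finset.sum_congr rfl fun j _ => ?_
  obtain ⟨c, hc⟩ := hF₁ (g j) (hg j)
  have h1 : Dcoc F₁ F₂ (g j • x) (g j • y) (g j • z)
      = Dcoc (fun t => F₁ (g j • t)) (fun t => F₂ (g j • t)) x y z := rfl
  rw [h1, Dcoc_congr_left c hc]

end adjoint

end FareyData

end Fermat.Agent.S41.H60
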