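/-
S41 (a), analytic part: the period map of weight two cusp forms intertwines the classical
Hecke operators `T_p`, `U_p` (prelude `heckeTLin`, `heckeULin`) with the coset operators
`heckeTHom`, `heckeUHom` on `Hom(Γ₀(N), ℂ)`; consequently so does the Eichler–Shimura pairing
`periodHomPair`.
-/
import Mathlib
import Fermat.Prelude.Def_ModularForm_HeckeOperatorForms
import Fermat.Agent.S21.PeriodLinear
import Fermat.Agent.S41.H85_HeckeGamma0

set_option autoImplicit false

open UpperHalfPlane hiding I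
open Filter Topology Function Complex
open scoped MatrixGroups ModularForm Real Manifold
open CongruenceSubgroup ModularCurve ModularCurve.Period Matrix.SpecialLinearGroup ModularForm
open P2MW.S_ModularForm_heckeT_slash_eq_self_of_mem_Gamma0.ModularForm.HeckeSlashInvariance
open Fermat.Agent.S21

namespace Fermat.Agent.S41.H85

/-- If `F` is a primitive of `f` on the upper half plane and `g ∈ GL₂(ℝ)⁺`, then `F ∘ g` is a
primitive of the weight two slash `f ∣[2] g`. -/
theorem hasDerivAt_comp_smul_GL {F f : ℍ → ℂ}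
    (hF : ∀ τ : ℍ, HasDerivAt (F ∘ ofComplex) (f τ) τ)
    (g : GL (Fin 2) ℝ) (hg : 0 < g.val.det) (τ : ℍ) :
    HasDerivAt ((fun w : ℍ => F (g • w)) ∘ ofComplex) ((f ∣[(2:ℤ)] g) τ) τ := by
  have h1 := (hasStrictDerivAt_smul (g := g) hg τ).hasDerivAt
  have h2 := hF (g • τ)
  have h3 : HasDerivAt ((F ∘ ofComplex) ∘ (fun z : ℂ => ((g • ofComplex z : ℍ) : ℂ)))
      (f (g • τ) * (g.val.det / denom g τ ^ 2)) τ := by
    apply HasDerivAt.comp
    · have : ((g • ofComplex (τ : ℂ) : ℍ) : ℂ) = ((g • τ : ℍ) : ℂ) := by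
        rw [ofComplex_apply]
      rw [this]; exact h2
    · exact h1
  have heq : ((fun w : ℍ => F (g • w)) ∘ ofComplex) =
      ((F ∘ ofComplex) ∘ (fun z : ℂ => ((g • ofComplex z : ℍ) : ℂ))) := by
    funext z
    simp only [comp_apply, ofComplex_apply]
  rw [heq]
  refine h3.congr_deriv ?_
  have hg' : 0 < (g.det : ℝ) := by rw [Matrix.GeneralLinearGroup.val_det_apply]; exact hg
  have hσ : UpperHalfPlane.σ g = .refl ℝ ℂ := by rw [UpperHalfPlane.σ, if_pos hg']
  rw [ModularForm.slash_apply, hσ]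
  simp only [ContinuousAlgEquiv.refl_apply]
  have habs : |(g.det : ℝ)| = g.val.det := by
    rw [Matrix.GeneralLinearGroup.val_det_apply, abs_of_pos hg]
  rw [habs]
  have hden : denom g τ ≠ 0 := denom_ne_zero g τ
  simp only [show (2:ℤ) - 1 = 1 by norm_num, zpow_one, zpow_neg]
  rw [show denom g τ ^ (2:ℤ) = denom g τ ^ 2 by norm_cast]
  field_simp

/-- **General equivariance of the period map.** If the weight two cusp form `f'` of level `M`
is the sum of the slashes of `f` (of level `N`) by the representatives of a coset datum `D`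
(all of positive determinant), then the period homomorphism of `f'` is `D.op` of that of `f`. -/
theorem periodMap_eq_op {N M : ℕ} [NeZero N] [NeZero M] {I : Type*} [Fintype I]
    (D : CosetDatum (gl N) (gl M) I) (hdet : ∀ i, 0 < (D.α i).val.det)
    (f : CuspForm (Gamma0 N) 2) (f' : CuspForm (Gamma0 M) 2)
    (hff' : (⇑f' : ℍ → ℂ) = ∑ i, (⇑f : ℍ → ℂ) ∣[(2:ℤ)] D.α i) :
    periodMap M f' = D.op (periodMap N f) := by
  obtain ⟨F, hF⟩ := exists_hasEquivariantPrimitive N f
  obtain ⟨F', hF'⟩ := exists_hasEquivariantPrimitive M f'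
  set G : ℍ → ℂ := fun z => ∑ i, F (D.α i • z) with hGdef
  have hG : ∀ τ : ℍ, HasDerivAt (G ∘ ofComplex) (f' τ) τ := by
    intro τ
    have hsum : HasDerivAt (fun z : ℂ => ∑ i, ((fun w : ℍ => F (D.α i • w)) ∘ ofComplex) z)
        (∑ i, ((⇑f : ℍ → ℂ) ∣[(2:ℤ)] D.α i) τ) τ :=
      HasDerivAt.fun_sum fun i _ => hasDerivAt_comp_smul_GL hF.1 (D.α i) (hdet i) τ
    have hfun : (G ∘ ofComplex) = fun z : ℂ => ∑ i, ((fun w : ℍ => F (D.α i • w)) ∘ ofComplex) z := by
      funext z; simp [hGdef]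
    rw [hfun, hff', Finset.sum_apply]
    exact hsum
  obtain ⟨c, hc⟩ := exists_const_of_hasDerivAt_eq hF'.1 hG
  refine AddMonoidHom.ext fun γ => ?_
  obtain ⟨γ, rfl⟩ := Additive.ofMul.surjective γ
  rw [periodMap_apply M f' hF' γ UpperHalfPlane.I, hc, hc, CosetDatum.op_apply]
  have hstep : ∀ i, F (D.α i • ((γ : SL(2, ℤ)) • UpperHalfPlane.I))
      = periodMap N f (Additive.ofMul (D.coc γ i)) + F (D.α (D.perm γ i) • UpperHalfPlane.I) := by
    intro i
    have h1 : D.α i • ((γ : SL(2, ℤ)) • UpperHalfPlane.I)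
        = ((D.coc γ i : Gamma0 N) : SL(2, ℤ)) • (D.α (D.perm γ i) • UpperHalfPlane.I) := by
      show D.α i • (mapGL ℝ (γ : SL(2, ℤ)) • UpperHalfPlane.I)
        = mapGL ℝ ((D.coc γ i : Gamma0 N) : SL(2, ℤ)) • (D.α (D.perm γ i) • UpperHalfPlane.I)
      rw [← mul_smul, ← mul_smul]
      have := D.eq γ i
      rw [gl_apply, gl_apply] at this
      rw [this]
    rw [h1, periodMap_apply N f hF (D.coc γ i) (D.α (D.perm γ i) • UpperHalfPlane.I)]
    ring
  have hperm : ∑ i, F (D.α (D.perm γ i) • UpperHalfPlane.I) = ∑ i, F (D.α i • UpperHalfPlane.I) :=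
    Equiv.sum_comp (D.permEquiv γ) (fun i => F (D.α i • UpperHalfPlane.I))
  simp only [hGdef, hstep, Finset.sum_add_distrib, hperm]
  ring

section hecke

variable {N p : ℕ} [NeZero N]

theorem det_heckeRep_pos (p : ℕ) (x : OnePoint (ZMod p)) : 0 < (heckeRep p x).val.det := by
  induction x using OnePoint.rec with
  | infty =>
    rw [heckeRep_infty, ← Matrix.GeneralLinearGroup.val_det_apply]
    exact det_heckeDiagMatrix_pos p
  | coe j =>
    rw [heckeRep_coe, ← Matrix.GeneralLinearGroup.val_det_apply]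
    exact det_heckeMatrix_pos p _

/-- The period map intertwines `T_p` on cusp forms with `T_p` on `Hom(Γ₀(N), ℂ)`. -/
theorem periodMap_heckeTLin (hp : p.Prime) (hpN : ¬ p ∣ N) (f : CuspForm (Gamma0 N) 2) :
    periodMap N (CuspForm.heckeTLin 2 hp hpN f) = heckeTHom ℂ hp hpN (periodMap N f) := by
  have : Fact p.Prime := ⟨hp⟩
  have : NeZero p := ⟨hp.ne_zero⟩
  refine periodMap_eq_op (heckeTDatum N p hpN) (fun x => det_heckeRep_pos p x) f _ ?_
  rw [CuspForm.coe_heckeTLin_apply, heckeT_eq_sum_onePoint]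
  rfl

/-- The period map intertwines `U_p` on cusp forms with `U_p` on `Hom(Γ₀(N), ℂ)`. -/
theorem periodMap_heckeULin [NeZero p] (hpN : p ∣ N) (f : CuspForm (Gamma0 N) 2) :
    periodMap N (CuspForm.heckeULin 2 hpN f) = heckeUHom ℂ hpN (periodMap N f) := by
  refine periodMap_eq_op (heckeUDatum N p hpN) (fun x => ?_) f _ ?_
  · rw [← Matrix.GeneralLinearGroup.val_det_apply]
    exact det_heckeMatrix_pos p _
  · rw [CuspForm.coe_heckeULin_apply, heckeU_eq_sum_zmod]
    rfl

/-- The Eichler–Shimura pairing intertwines `T_p × T_p` with `T_p`. -/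
theorem periodHomPair_heckeTLin (hp : p.Prime) (hpN : ¬ p ∣ N)
    (f g : CuspForm (Gamma0 N) 2) :
    periodHomPair N (CuspForm.heckeTLin 2 hp hpN f, CuspForm.heckeTLin 2 hp hpN g)
      = heckeTHom ℂ hp hpN (periodHomPair N (f, g)) := by
  rw [periodHomPair_eq]
  simp only [LinearMap.coprod_apply, LinearMap.comp_apply, LinearMap.add_apply,
    LinearMap.sub_apply, LinearMap.id_apply, periodMapₗ_apply, periodMap_heckeTLin, map_add,
    map_sub, heckeTHom_charInvolution]

/-- The Eichler–Shimura pairing intertwines `U_p × U_p` with `U_p`. -/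
theorem periodHomPair_heckeULin [NeZero p] (hpN : p ∣ N) (f g : CuspForm (Gamma0 N) 2) :
    periodHomPair N (CuspForm.heckeULin 2 hpN f, CuspForm.heckeULin 2 hpN g)
      = heckeUHom ℂ hpN (periodHomPair N (f, g)) := by
  rw [periodHomPair_eq]
  simp only [LinearMap.coprod_apply, LinearMap.comp_apply, LinearMap.add_apply,
    LinearMap.sub_apply, LinearMap.id_apply, periodMapₗ_apply, periodMap_heckeULin, map_add,
    map_sub, heckeUHom_charInvolution]

/-- Linear-map form: `periodHomPair ∘ (T_p × T_p) = T_p ∘ periodHomPair`. -/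
theorem periodHomPair_comp_heckeTLin (hp : p.Prime) (hpN : ¬ p ∣ N) :
    periodHomPair N ∘ₗ (CuspForm.heckeTLin 2 hp hpN).prodMap (CuspForm.heckeTLin 2 hp hpN)
      = heckeTₗ ℂ ℂ hp hpN ∘ₗ periodHomPair N := by
  refine LinearMap.ext fun x => ?_
  obtain ⟨f, g⟩ := x
  exact periodHomPair_heckeTLin hp hpN f g

/-- Linear-map form: `periodHomPair ∘ (U_p × U_p) = U_p ∘ periodHomPair`. -/
theorem periodHomPair_comp_heckeULin [NeZero p] (hpN : p ∣ N) :
    periodHomPair N ∘ₗ (CuspForm.heckeULin 2 hpN).prodMap (CuspForm.heckeULin 2 hpN)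
      = heckeUₗ ℂ ℂ hpN ∘ₗ periodHomPair N := by
  refine LinearMap.ext fun x => ?_
  obtain ⟨f, g⟩ := x
  exact periodHomPair_heckeULin hpN f g

end hecke

end Fermat.Agent.S41.H85
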