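/-
S41 package B (degeneracy calculus), part 4: the degeneracy operators preserve parabolic
homomorphisms, commute with the prelude `charInvolution`, and are compatible with the period
map / the Eichler–Shimura pairing `periodHomPair`.
-/
import Mathlib
import Fermat.Agent.S41.H85_HeckeES
import Fermat.Agent.S41.H65_DegHecke

set_option autoImplicit false

open UpperHalfPlane hiding I
open CongruenceSubgroup Matrix.SpecialLinearGroup ModularForm ModularCurve ModularCurve.Period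
open scoped MatrixGroups ModularForm
open P2MW.S_ModularForm_heckeT_slash_eq_self_of_mem_Gamma0.ModularForm.HeckeSlashInvariance
open Fermat.Agent.S21

namespace Fermat.Agent.S41.H65

open Fermat.Agent.S41.H85 Fermat.Agent.S41.H72

variable {N q : ℕ} {A : Type*} [AddCommGroup A]

/-! ### Parabolic homomorphisms -/

section parabolic

variable (R : Type*) [Semiring R] [Module R A]

theorem res_mem_parabolicHoms {φ : Additive (Gamma0 N) →+ A}
    (hφ : φ ∈ parabolicHoms R (Gamma0 N) A) :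
    res A N q φ ∈ parabolicHoms R (Gamma0 (N * q)) A :=
  op_mem_parabolicHoms (resDatum N q) R hφ

theorem cst_mem_parabolicHoms (hq : q ≠ 0) {φ : Additive (Gamma0 N) →+ A}
    (hφ : φ ∈ parabolicHoms R (Gamma0 N) A) :
    cst A N hq φ ∈ parabolicHoms R (Gamma0 (N * q)) A :=
  op_mem_parabolicHoms (cstDatum N hq) R hφ

theorem atkinLehner_mem_parabolicHoms (D : ALData N q) (hq : q ≠ 0)
    {ψ : Additive (Gamma0 (N * q)) →+ A} (hψ : ψ ∈ parabolicHoms R (Gamma0 (N * q)) A) :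
    atkinLehner A D hq ψ ∈ parabolicHoms R (Gamma0 (N * q)) A :=
  op_mem_parabolicHoms (alDatum D hq) R hψ

theorem cor_mem_parabolicHoms (D : ALData N q) (hq : q.Prime) (hqN : ¬ q ∣ N) (hN : N ≠ 0)
    {ψ : Additive (Gamma0 (N * q)) →+ A} (hψ : ψ ∈ parabolicHoms R (Gamma0 (N * q)) A) :
    cor A D hq hqN hN ψ ∈ parabolicHoms R (Gamma0 N) A :=
  haveI : NeZero q := ⟨hq.ne_zero⟩
  op_mem_parabolicHoms (corDatum D hq hqN hN) R hψ

theorem corc_mem_parabolicHoms (D : ALData N q) (hq : q.Prime) (hqN : ¬ q ∣ N) (hN : N ≠ 0)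
    {ψ : Additive (Gamma0 (N * q)) →+ A} (hψ : ψ ∈ parabolicHoms R (Gamma0 (N * q)) A) :
    corc A D hq hqN hN ψ ∈ parabolicHoms R (Gamma0 N) A :=
  haveI : NeZero q := ⟨hq.ne_zero⟩
  op_mem_parabolicHoms (corcDatum D hq hqN hN) R hψ

end parabolic

/-! ### The involution `charInvolution` -/

section involution

theorem inclHom_jConj (γ : Gamma0 (N * q)) :
    inclHom N q (jConjGamma0 (N * q) γ) = jConjGamma0 N (inclHom N q γ) := rfl

theorem res_comp_jConj (φ : Additive (Gamma0 N) →+ A) :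
    res A N q (φ.comp (MonoidHom.toAdditive (jConjGamma0 N)))
      = (res A N q φ).comp (MonoidHom.toAdditive (jConjGamma0 (N * q))) := by
  refine AddMonoidHom.ext fun γ => ?_
  obtain ⟨γ, rfl⟩ := Additive.ofMul.surjective γ
  rw [res_apply_apply]
  show φ (Additive.ofMul (jConjGamma0 N (inclHom N q γ)))
    = res A N q φ (Additive.ofMul (jConjGamma0 (N * q) γ))
  rw [res_apply_apply, inclHom_jConj]

theorem cHom_jConj (hq : q ≠ 0) (γ : Gamma0 (N * q)) :
    cHom hq (jConjGamma0 (N * q) γ) = jConjGamma0 N (cHom hq γ) := by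
  apply Subtype.ext
  apply Subtype.ext
  have h := q_dvd_lower_left N q γ
  have e1 := cHom_coe_apply hq (jConjGamma0 (N * q) γ)
  have e2 : (((jConjGamma0 N (cHom hq γ) : Gamma0 N) : SL(2, ℤ)) : Matrix (Fin 2) (Fin 2) ℤ)
      = jConjMat (((cHom hq γ : Gamma0 N) : SL(2, ℤ)) : Matrix (Fin 2) (Fin 2) ℤ) := rfl
  rw [e1, e2, cHom_coe_apply]
  ext a b
  fin_cases a <;> fin_cases b <;>
    simp [jConjMat, Int.neg_ediv_of_dvd h]

theorem cst_comp_jConj (hq : q ≠ 0) (φ : Additive (Gamma0 N) →+ A) :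
    cst A N hq (φ.comp (MonoidHom.toAdditive (jConjGamma0 N)))
      = (cst A N hq φ).comp (MonoidHom.toAdditive (jConjGamma0 (N * q))) := by
  refine AddMonoidHom.ext fun γ => ?_
  obtain ⟨γ, rfl⟩ := Additive.ofMul.surjective γ
  rw [cst_apply_apply]
  show φ (Additive.ofMul (jConjGamma0 N (cHom hq γ)))
    = cst A N hq φ (Additive.ofMul (jConjGamma0 (N * q) γ))
  rw [cst_apply_apply, cHom_jConj]

/-- `J * J = 1` for `J = diag(1,-1)`. -/
theorem Jmat_mul_Jmat : Jmat * Jmat = 1 := by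
  ext a b
  fin_cases a <;> fin_cases b <;> simp [Matrix.mul_apply, Fin.sum_univ_two]

theorem gl_jConj_eq (M : ℕ) (g : Gamma0 M) :
    gl M (jConjGamma0 M g) = Jmat * gl M g * Jmat := by
  have h := gl_jConj_mul_Jmat M g
  calc gl M (jConjGamma0 M g) = gl M (jConjGamma0 M g) * (Jmat * Jmat) := by
        rw [Jmat_mul_Jmat, mul_one]
    _ = Jmat * gl M g * Jmat := by rw [← mul_assoc, h]

/-- The element `g₁ ∈ Γ₀(N q)` with `J W J = g₁ W`. -/
def g1 (D : ALData N q) : Gamma0 (N * q) :=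
  ⟨sl2 (q * D.x + N * D.y) (-(2 * D.x * D.y)) (-(2 * N * q)) (q * D.x + N * D.y)
      (by linear_combination ((q : ℤ) * D.x - N * D.y + 1) * D.h), by
    rw [H72.mem_Gamma0_iff_dvd, sl2_apply_one_zero]
    exact ⟨-2, by push_cast; ring⟩⟩

theorem g1_coe (D : ALData N q) :
    ((g1 D : Gamma0 (N * q)) : SL(2, ℤ)) = sl2 (q * D.x + N * D.y) (-(2 * D.x * D.y))
      (-(2 * N * q)) (q * D.x + N * D.y)
      (by linear_combination ((q : ℤ) * D.x - N * D.y + 1) * D.h) := rfl

theorem Jmat_alGL_Jmat (D : ALData N q) (hq : q ≠ 0) :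
    Jmat * alGL D hq * Jmat = gl (N * q) (g1 D) * alGL D hq := by
  have h := congrArg (Int.cast : ℤ → ℝ) D.h
  push_cast at h
  ext a b
  rw [gl_apply, g1_coe]
  fin_cases a <;> fin_cases b <;>
    simp [Matrix.mul_apply, Fin.sum_univ_two]
  · linear_combination (-(q : ℝ) * D.x) * h
  · linear_combination ((D.y : ℝ)) * h
  · linear_combination ((N : ℝ) * q) * h
  · linear_combination (-(q : ℝ)) * h

theorem alHom_jConj (D : ALData N q) (hq : q ≠ 0) (γ : Gamma0 (N * q)) :
    jConjGamma0 (N * q) (alHom D hq γ)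
      = g1 D * alHom D hq (jConjGamma0 (N * q) γ) * (g1 D)⁻¹ := by
  apply gl_injective (N * q)
  have h1 := alGL_mul_gl_alHom D hq γ
  have h2 := alGL_mul_gl_alHom D hq (jConjGamma0 (N * q) γ)
  have h3 := Jmat_alGL_Jmat D hq
  -- `gl (j (al γ)) * (J W J) = (J W J) * gl (j γ)`
  have h4 : gl (N * q) (jConjGamma0 (N * q) (alHom D hq γ)) * (Jmat * alGL D hq * Jmat)
      = (Jmat * alGL D hq * Jmat) * gl (N * q) (jConjGamma0 (N * q) γ) := by
    rw [gl_jConj_eq, gl_jConj_eq]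
    calc Jmat * gl (N * q) (alHom D hq γ) * Jmat * (Jmat * alGL D hq * Jmat)
        = Jmat * (gl (N * q) (alHom D hq γ) * ((Jmat * Jmat) * alGL D hq)) * Jmat := by
          simp only [mul_assoc]
      _ = Jmat * (alGL D hq * gl (N * q) γ) * Jmat := by
          rw [Jmat_mul_Jmat, one_mul, ← h1]
      _ = Jmat * alGL D hq * ((Jmat * Jmat) * gl (N * q) γ) * Jmat := by
          rw [Jmat_mul_Jmat, one_mul]; simp only [mul_assoc]
      _ = Jmat * alGL D hq * Jmat * (Jmat * gl (N * q) γ * Jmat) := by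
          simp only [mul_assoc]
  rw [h3] at h4
  have h5 : gl (N * q) (jConjGamma0 (N * q) (alHom D hq γ)) * gl (N * q) (g1 D)
      = gl (N * q) (g1 D) * gl (N * q) (alHom D hq (jConjGamma0 (N * q) γ)) := by
    apply mul_right_cancel (b := alGL D hq)
    rw [mul_assoc, h4, mul_assoc, h2, ← mul_assoc]
  rw [map_mul, map_mul, map_inv, ← h5, mul_inv_cancel_right]

theorem atkinLehner_comp_jConj (D : ALData N q) (hq : q ≠ 0)
    (ψ : Additive (Gamma0 (N * q)) →+ A) :
    atkinLehner A D hq (ψ.comp (MonoidHom.toAdditive (jConjGamma0 (N * q))))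
      = (atkinLehner A D hq ψ).comp (MonoidHom.toAdditive (jConjGamma0 (N * q))) := by
  refine AddMonoidHom.ext fun γ => ?_
  obtain ⟨γ, rfl⟩ := Additive.ofMul.surjective γ
  rw [atkinLehner_apply_apply]
  show ψ (Additive.ofMul (jConjGamma0 (N * q) (alHom D hq γ)))
    = atkinLehner A D hq ψ (Additive.ofMul (jConjGamma0 (N * q) γ))
  rw [atkinLehner_apply_apply, alHom_jConj, hom_conj_eq]

/-- The correction element for the `J`-conjugate of the coset `Γ₀(N q) r_j`. -/
theorem corRep_neg_mul_mem (D : ALData N q) [NeZero q] (j : ZMod q) :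
    (rj D ((-j).val : ℤ) * (jConjSL (rj D (j.val : ℤ)))⁻¹ : SL(2, ℤ)) ∈ Gamma0 (N * q) := by
  rw [H72.mem_Gamma0_iff_dvd]
  have hs := negShift_spec j
  have h10 : (rj D ((-j).val : ℤ) * (jConjSL (rj D (j.val : ℤ)))⁻¹ : SL(2, ℤ)) 1 0
      = (N : ℤ) * ((N : ℤ) * ((j.val : ℤ) + ((-j).val : ℤ)) + 2 * q) := by
    rw [Matrix.SpecialLinearGroup.coe_mul, Matrix.SpecialLinearGroup.coe_inv,
      Matrix.adjugate_fin_two, jConjSL_coe]
    simp [rj, jConjMat, Matrix.mul_apply, Fin.sum_univ_two, -ZMod.natCast_val]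
    ring
  rw [h10, ← hs]
  exact ⟨(N : ℤ) * negShift j + 2, by push_cast; ring⟩

/-- The correction elements `c_x ∈ Γ₀(N q)` for `cor` and `J`-conjugation. -/
def corConjElt (D : ALData N q) [NeZero q] (x : OnePoint (ZMod q)) : Gamma0 (N * q) :=
  x.elim 1 (fun j => ⟨_, corRep_neg_mul_mem D j⟩)

theorem cor_comp_jConj (D : ALData N q) (hq : q.Prime) (hqN : ¬ q ∣ N) (hN : N ≠ 0)
    (ψ : Additive (Gamma0 (N * q)) →+ A) :
    cor A D hq hqN hN (ψ.comp (MonoidHom.toAdditive (jConjGamma0 (N * q))))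
      = (cor A D hq hqN hN ψ).comp (MonoidHom.toAdditive (jConjGamma0 N)) := by
  have : NeZero q := ⟨hq.ne_zero⟩
  refine CosetDatum.op_comp_conj_of_equiv (corDatum D hq hqN hN) (corDatum D hq hqN hN)
    (corDatum_isReduced D hq hqN hN) Jmat (jConjGamma0 (N * q)) (jConjGamma0 N)
    (gl_jConj_mul_Jmat (N * q)) (gl_jConj_mul_Jmat N) (negOnePoint q) (corConjElt D)
    (fun x => ?_) ψ
  induction x using OnePoint.rec with
  | infty =>
    show gl N (corRep D OnePoint.infty) * Jmat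
      = gl (N * q) 1 * Jmat * gl N (corRep D OnePoint.infty)
    rw [corRep_infty, map_one, map_one]
    simp
  | coe j =>
    show gl N (corRep D ((-j : ZMod q) : OnePoint (ZMod q))) * Jmat
      = gl (N * q) ⟨_, corRep_neg_mul_mem D j⟩ * Jmat * gl N (corRep D (j : OnePoint (ZMod q)))
    have h1 := gl_jConj_mul_Jmat N (corRep D (j : OnePoint (ZMod q)))
    rw [mul_assoc, ← h1]
    rw [gl_apply, gl_apply, gl_apply, corRep_coe_coe, jConjGamma0_coe, corRep_coe_coe]
    show _ = mapGL ℝ (rj D ((-j).val : ℤ) * (jConjSL (rj D (j.val : ℤ)))⁻¹)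
      * (mapGL ℝ (jConjSL (rj D (j.val : ℤ))) * Jmat)
    rw [map_mul, map_inv, mul_assoc, inv_mul_cancel_left]

theorem corc_comp_jConj (D : ALData N q) (hq : q.Prime) (hqN : ¬ q ∣ N) (hN : N ≠ 0)
    (ψ : Additive (Gamma0 (N * q)) →+ A) :
    corc A D hq hqN hN (ψ.comp (MonoidHom.toAdditive (jConjGamma0 (N * q))))
      = (corc A D hq hqN hN ψ).comp (MonoidHom.toAdditive (jConjGamma0 N)) := by
  rw [corc_eq, corc_eq, atkinLehner_comp_jConj, cor_comp_jConj]

variable (R : Type*) [Semiring R] [Module R A]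

theorem res_charInvolution (φ : Additive (Gamma0 N) →+ A) :
    res A N q (charInvolution N R A φ) = charInvolution (N * q) R A (res A N q φ) :=
  res_comp_jConj φ

theorem cst_charInvolution (hq : q ≠ 0) (φ : Additive (Gamma0 N) →+ A) :
    cst A N hq (charInvolution N R A φ) = charInvolution (N * q) R A (cst A N hq φ) :=
  cst_comp_jConj hq φ

theorem atkinLehner_charInvolution (D : ALData N q) (hq : q ≠ 0)
    (ψ : Additive (Gamma0 (N * q)) →+ A) :
    atkinLehner A D hq (charInvolution (N * q) R A ψ)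
      = charInvolution (N * q) R A (atkinLehner A D hq ψ) :=
  atkinLehner_comp_jConj D hq ψ

theorem cor_charInvolution (D : ALData N q) (hq : q.Prime) (hqN : ¬ q ∣ N) (hN : N ≠ 0)
    (ψ : Additive (Gamma0 (N * q)) →+ A) :
    cor A D hq hqN hN (charInvolution (N * q) R A ψ)
      = charInvolution N R A (cor A D hq hqN hN ψ) :=
  cor_comp_jConj D hq hqN hN ψ

theorem corc_charInvolution (D : ALData N q) (hq : q.Prime) (hqN : ¬ q ∣ N) (hN : N ≠ 0)
    (ψ : Additive (Gamma0 (N * q)) →+ A) :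
    corc A D hq hqN hN (charInvolution (N * q) R A ψ)
      = charInvolution N R A (corc A D hq hqN hN ψ) :=
  corc_comp_jConj D hq hqN hN ψ

end involution

/-! ### Compatibility with the period map and the Eichler–Shimura pairing -/

section periods

theorem det_one_pos : 0 < ((1 : GL (Fin 2) ℝ) : Matrix (Fin 2) (Fin 2) ℝ).det := by simp

theorem det_mapGL_pos (g : SL(2, ℤ)) :
    0 < ((mapGL ℝ g : GL (Fin 2) ℝ) : Matrix (Fin 2) (Fin 2) ℝ).det := by
  have h : ((g.1 : Matrix (Fin 2) (Fin 2) ℤ).map (Int.cast : ℤ → ℝ)).det = ((g.1.det : ℤ) : ℝ) := by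
    have := (RingHom.map_det (Int.castRingHom ℝ) g.1).symm
    simpa using this
  have h2 : ((mapGL ℝ g : GL (Fin 2) ℝ) : Matrix (Fin 2) (Fin 2) ℝ)
      = (g.1 : Matrix (Fin 2) (Fin 2) ℤ).map (Int.cast : ℤ → ℝ) := by
    ext i j
    simp
  rw [h2, h, g.2]
  simp

theorem det_heckeDiagMatrix_pos' (q : ℕ) :
    0 < ((heckeDiagMatrix q : GL (Fin 2) ℝ) : Matrix (Fin 2) (Fin 2) ℝ).det := by
  rw [← Matrix.GeneralLinearGroup.val_det_apply]
  exact det_heckeDiagMatrix_pos q

theorem det_alGL_pos' (D : ALData N q) (hq : q ≠ 0) :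
    0 < ((alGL D hq : GL (Fin 2) ℝ) : Matrix (Fin 2) (Fin 2) ℝ).det := by
  rw [← Matrix.GeneralLinearGroup.val_det_apply]
  exact det_alGL_pos D hq

variable [NeZero N]

/-- **(B3, res)** the period map of `f` viewed at level `N q` is the restriction. -/
theorem periodMap_res [NeZero (N * q)] (f : CuspForm (Gamma0 N) 2)
    (f' : CuspForm (Gamma0 (N * q)) 2) (h : (⇑f' : ℍ → ℂ) = ⇑f) :
    periodMap (N * q) f' = res ℂ N q (periodMap N f) := by
  refine periodMap_eq_op (resDatum N q) (fun _ => det_one_pos) f f' ?_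
  rw [h, Fintype.sum_unique]
  show (⇑f : ℍ → ℂ) = (⇑f : ℍ → ℂ) ∣[(2 : ℤ)] (1 : GL (Fin 2) ℝ)
  rw [SlashAction.slash_one]

/-- **(B3, cst)** the period map of `f ∣ diag(q,1)` (`= q f(q z)`) at level `N q`. -/
theorem periodMap_cst [NeZero (N * q)] (hq : q ≠ 0) (f : CuspForm (Gamma0 N) 2)
    (f' : CuspForm (Gamma0 (N * q)) 2)
    (h : (⇑f' : ℍ → ℂ) = (⇑f : ℍ → ℂ) ∣[(2 : ℤ)] heckeDiagMatrix q) :
    periodMap (N * q) f' = cst ℂ N hq (periodMap N f) := by
  refine periodMap_eq_op (cstDatum N hq) (fun _ => det_heckeDiagMatrix_pos' q) f f' ?_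
  rw [h, Fintype.sum_unique]
  rfl

omit [NeZero N] in
/-- **(B3, Atkin–Lehner)**. -/
theorem periodMap_alOp [NeZero (N * q)] (D : ALData N q) (hq : q ≠ 0)
    (g : CuspForm (Gamma0 (N * q)) 2) :
    periodMap (N * q) (alOp D hq g) = atkinLehner ℂ D hq (periodMap (N * q) g) := by
  refine periodMap_eq_op (alDatum D hq) (fun _ => det_alGL_pos' D hq) g _ ?_
  rw [coe_alOp, Fintype.sum_unique]
  rfl

/-- **(B3, cor)** the period map of the trace is the transfer of the period map. -/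
theorem periodMap_traceDown [NeZero (N * q)] (D : ALData N q) (hq : q.Prime) (hqN : ¬ q ∣ N)
    (hN : N ≠ 0) (g : CuspForm (Gamma0 (N * q)) 2) :
    periodMap N (traceDown D hq hqN hN g) = cor ℂ D hq hqN hN (periodMap (N * q) g) := by
  have : NeZero q := ⟨hq.ne_zero⟩
  refine periodMap_eq_op (corDatum D hq hqN hN) (fun x => ?_) g _ ?_
  · rw [corDatum_α, corAlpha, gl_apply]
    exact det_mapGL_pos _
  · rw [coe_traceDown, traceFun_eq_sum, corDatum_α]
    have h1 : ∑ x : OnePoint (ZMod q), (⇑g : ℍ → ℂ) ∣[(2 : ℤ)] corAlpha D x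
        = (⇑g : ℍ → ℂ) ∣[(2 : ℤ)] corAlpha D OnePoint.infty
          + ∑ z : ZMod q, (⇑g : ℍ → ℂ) ∣[(2 : ℤ)] corAlpha D (z : OnePoint (ZMod q)) :=
      Fintype.sum_option (fun x : OnePoint (ZMod q) => (⇑g : ℍ → ℂ) ∣[(2 : ℤ)] corAlpha D x)
    rw [h1]
    congr 1
    · show (⇑g : ℍ → ℂ) = (⇑g : ℍ → ℂ) ∣[(2 : ℤ)] gl N (corRep D OnePoint.infty)
      rw [corRep_infty, map_one, SlashAction.slash_one]
    · rw [sum_range_eq_sum_zmod (p := q)
        (fun j => (⇑g : ℍ → ℂ) ∣[(2 : ℤ)] (mapGL ℝ (rj D (j : ℤ)) : GL (Fin 2) ℝ))]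
      rfl

/-- **(B3, corc)**. -/
theorem periodMap_traceDown_alOp [NeZero (N * q)] (D : ALData N q) (hq : q.Prime)
    (hqN : ¬ q ∣ N) (hN : N ≠ 0) (g : CuspForm (Gamma0 (N * q)) 2) :
    periodMap N (traceDown D hq hqN hN (alOp D hq.ne_zero g))
      = corc ℂ D hq hqN hN (periodMap (N * q) g) := by
  rw [periodMap_traceDown, periodMap_alOp, corc_eq]

/-! #### The pairing `periodHomPair` -/

theorem periodHomPair_res [NeZero (N * q)] (f g : CuspForm (Gamma0 N) 2)
    (f' g' : CuspForm (Gamma0 (N * q)) 2) (hf : (⇑f' : ℍ → ℂ) = ⇑f) (hg : (⇑g' : ℍ → ℂ) = ⇑g) :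
    periodHomPair (N * q) (f', g') = res ℂ N q (periodHomPair N (f, g)) := by
  rw [periodHomPair_eq, periodHomPair_eq]
  simp only [LinearMap.coprod_apply, LinearMap.comp_apply, LinearMap.add_apply,
    LinearMap.sub_apply, LinearMap.id_apply, periodMapₗ_apply, periodMap_res f f' hf,
    periodMap_res g g' hg, map_add, map_sub, res_charInvolution]

theorem periodHomPair_cst [NeZero (N * q)] (hq : q ≠ 0) (f g : CuspForm (Gamma0 N) 2)
    (f' g' : CuspForm (Gamma0 (N * q)) 2)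
    (hf : (⇑f' : ℍ → ℂ) = (⇑f : ℍ → ℂ) ∣[(2 : ℤ)] heckeDiagMatrix q)
    (hg : (⇑g' : ℍ → ℂ) = (⇑g : ℍ → ℂ) ∣[(2 : ℤ)] heckeDiagMatrix q) :
    periodHomPair (N * q) (f', g') = cst ℂ N hq (periodHomPair N (f, g)) := by
  rw [periodHomPair_eq, periodHomPair_eq]
  simp only [LinearMap.coprod_apply, LinearMap.comp_apply, LinearMap.add_apply,
    LinearMap.sub_apply, LinearMap.id_apply, periodMapₗ_apply, periodMap_cst hq f f' hf,
    periodMap_cst hq g g' hg, map_add, map_sub, cst_charInvolution]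

omit [NeZero N] in
theorem periodHomPair_alOp [NeZero (N * q)] (D : ALData N q) (hq : q ≠ 0)
    (g₁ g₂ : CuspForm (Gamma0 (N * q)) 2) :
    periodHomPair (N * q) (alOp D hq g₁, alOp D hq g₂)
      = atkinLehner ℂ D hq (periodHomPair (N * q) (g₁, g₂)) := by
  rw [periodHomPair_eq]
  simp only [LinearMap.coprod_apply, LinearMap.comp_apply, LinearMap.add_apply,
    LinearMap.sub_apply, LinearMap.id_apply, periodMapₗ_apply, periodMap_alOp, map_add,
    map_sub, atkinLehner_charInvolution]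

theorem periodHomPair_traceDown [NeZero (N * q)] (D : ALData N q) (hq : q.Prime)
    (hqN : ¬ q ∣ N) (hN : N ≠ 0) (g₁ g₂ : CuspForm (Gamma0 (N * q)) 2) :
    periodHomPair N (traceDown D hq hqN hN g₁, traceDown D hq hqN hN g₂)
      = cor ℂ D hq hqN hN (periodHomPair (N * q) (g₁, g₂)) := by
  rw [periodHomPair_eq, periodHomPair_eq]
  simp only [LinearMap.coprod_apply, LinearMap.comp_apply, LinearMap.add_apply,
    LinearMap.sub_apply, LinearMap.id_apply, periodMapₗ_apply, periodMap_traceDown, map_add,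
    map_sub, cor_charInvolution]

theorem periodHomPair_traceDown_alOp [NeZero (N * q)] (D : ALData N q) (hq : q.Prime)
    (hqN : ¬ q ∣ N) (hN : N ≠ 0) (g₁ g₂ : CuspForm (Gamma0 (N * q)) 2) :
    periodHomPair N (traceDown D hq hqN hN (alOp D hq.ne_zero g₁),
        traceDown D hq hqN hN (alOp D hq.ne_zero g₂))
      = corc ℂ D hq hqN hN (periodHomPair (N * q) (g₁, g₂)) := by
  rw [periodHomPair_traceDown, periodHomPair_alOp, corc_eq]

end periods

end Fermat.Agent.S41.H65
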