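/-
S41 package B (degeneracy calculus), part 5: the degeneracy operators as `R`-linear maps between
the modules of parabolic homomorphisms (the lattices `L_M = parabolicHoms ℤ (Γ₀(M)) ℤ` of the
blueprint), with the identities `β ∘ α = [[q+1, T_q],[T_q, q+1]]` and the commutation with `T_ℓ`.
-/
import Mathlib
import Fermat.Agent.S41.H65_DegES

set_option autoImplicit false

open CongruenceSubgroup Matrix.SpecialLinearGroup ModularForm ModularCurve ModularCurve.Period
open scoped MatrixGroups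
open P2MW.S_ModularForm_heckeT_slash_eq_self_of_mem_Gamma0.ModularForm.HeckeSlashInvariance

namespace Fermat.Agent.S41.H65

open Fermat.Agent.S41.H85 Fermat.Agent.S41.H72

variable {N q ℓ : ℕ} (A : Type*) [AddCommGroup A] (R : Type*) [Semiring R] [Module R A]

/-- `res` on parabolic classes. -/
noncomputable def resPar (N q : ℕ) :
    parabolicHoms R (Gamma0 N) A →ₗ[R] parabolicHoms R (Gamma0 (N * q)) A :=
  ((resDatum N q).opₗ R).restrict fun _ hφ => res_mem_parabolicHoms R hφ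

/-- `cst` on parabolic classes. -/
noncomputable def cstPar (N : ℕ) {q : ℕ} (hq : q ≠ 0) :
    parabolicHoms R (Gamma0 N) A →ₗ[R] parabolicHoms R (Gamma0 (N * q)) A :=
  ((cstDatum N hq).opₗ R).restrict fun _ hφ => cst_mem_parabolicHoms R hq hφ

/-- The Atkin–Lehner involution on parabolic classes. -/
noncomputable def atkinLehnerPar (D : ALData N q) (hq : q ≠ 0) :
    parabolicHoms R (Gamma0 (N * q)) A →ₗ[R] parabolicHoms R (Gamma0 (N * q)) A :=
  ((alDatum D hq).opₗ R).restrict fun _ hψ => atkinLehner_mem_parabolicHoms R D hq hψ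

/-- `cor` on parabolic classes. -/
noncomputable def corPar (D : ALData N q) (hq : q.Prime) (hqN : ¬ q ∣ N) (hN : N ≠ 0) :
    parabolicHoms R (Gamma0 (N * q)) A →ₗ[R] parabolicHoms R (Gamma0 N) A :=
  haveI : NeZero q := ⟨hq.ne_zero⟩
  ((corDatum D hq hqN hN).opₗ R).restrict fun _ hψ => cor_mem_parabolicHoms R D hq hqN hN hψ

/-- `corc` on parabolic classes. -/
noncomputable def corcPar (D : ALData N q) (hq : q.Prime) (hqN : ¬ q ∣ N) (hN : N ≠ 0) :
    parabolicHoms R (Gamma0 (N * q)) A →ₗ[R] parabolicHoms R (Gamma0 N) A :=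
  haveI : NeZero q := ⟨hq.ne_zero⟩
  ((corcDatum D hq hqN hN).opₗ R).restrict fun _ hψ => corc_mem_parabolicHoms R D hq hqN hN hψ

variable {A R}

@[simp] theorem coe_resPar (φ : parabolicHoms R (Gamma0 N) A) :
    (resPar A R N q φ : Additive (Gamma0 (N * q)) →+ A) = res A N q φ := rfl

@[simp] theorem coe_cstPar (hq : q ≠ 0) (φ : parabolicHoms R (Gamma0 N) A) :
    (cstPar A R N hq φ : Additive (Gamma0 (N * q)) →+ A) = cst A N hq φ := rfl

@[simp] theorem coe_atkinLehnerPar (D : ALData N q) (hq : q ≠ 0)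
    (ψ : parabolicHoms R (Gamma0 (N * q)) A) :
    (atkinLehnerPar A R D hq ψ : Additive (Gamma0 (N * q)) →+ A) = atkinLehner A D hq ψ := rfl

@[simp] theorem coe_corPar (D : ALData N q) (hq : q.Prime) (hqN : ¬ q ∣ N) (hN : N ≠ 0)
    (ψ : parabolicHoms R (Gamma0 (N * q)) A) :
    (corPar A R D hq hqN hN ψ : Additive (Gamma0 N) →+ A) = cor A D hq hqN hN ψ := rfl

@[simp] theorem coe_corcPar (D : ALData N q) (hq : q.Prime) (hqN : ¬ q ∣ N) (hN : N ≠ 0)
    (ψ : parabolicHoms R (Gamma0 (N * q)) A) :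
    (corcPar A R D hq hqN hN ψ : Additive (Gamma0 N) →+ A) = corc A D hq hqN hN ψ := rfl

variable (A R)

/-- `α (φ, ψ) = res φ + cst ψ` on parabolic classes. -/
noncomputable def degAlphaPar (N : ℕ) {q : ℕ} (hq : q ≠ 0) :
    (parabolicHoms R (Gamma0 N) A × parabolicHoms R (Gamma0 N) A) →ₗ[R]
      parabolicHoms R (Gamma0 (N * q)) A :=
  (resPar A R N q).coprod (cstPar A R N hq)

/-- `β y = (cor y, corc y)` on parabolic classes. -/
noncomputable def degBetaPar (D : ALData N q) (hq : q.Prime) (hqN : ¬ q ∣ N) (hN : N ≠ 0) :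
    parabolicHoms R (Gamma0 (N * q)) A →ₗ[R]
      (parabolicHoms R (Gamma0 N) A × parabolicHoms R (Gamma0 N) A) :=
  (corPar A R D hq hqN hN).prod (corcPar A R D hq hqN hN)

variable {A R}

theorem degAlphaPar_apply (hq : q ≠ 0)
    (x : parabolicHoms R (Gamma0 N) A × parabolicHoms R (Gamma0 N) A) :
    degAlphaPar A R N hq x = resPar A R N q x.1 + cstPar A R N hq x.2 := rfl

theorem degBetaPar_apply (D : ALData N q) (hq : q.Prime) (hqN : ¬ q ∣ N) (hN : N ≠ 0)
    (y : parabolicHoms R (Gamma0 (N * q)) A) :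
    degBetaPar A R D hq hqN hN y = (corPar A R D hq hqN hN y, corcPar A R D hq hqN hN y) := rfl

/-- **`β ∘ α = [[q+1, T_q],[T_q, q+1]]`** on parabolic classes. -/
theorem degBetaPar_degAlphaPar (D : ALData N q) (hq : q.Prime) (hqN : ¬ q ∣ N) (hN : N ≠ 0)
    (x : parabolicHoms R (Gamma0 N) A × parabolicHoms R (Gamma0 N) A) :
    degBetaPar A R D hq hqN hN (degAlphaPar A R N hq.ne_zero x)
      = ((q + 1) • x.1 + heckeTPar A R hq hqN x.2, heckeTPar A R hq hqN x.1 + (q + 1) • x.2) := by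
  rw [degAlphaPar_apply, degBetaPar_apply, map_add, map_add]
  refine Prod.ext (Subtype.ext ?_) (Subtype.ext ?_)
  · show cor A D hq hqN hN (res A N q x.1) + cor A D hq hqN hN (cst A N hq.ne_zero x.2) = _
    rw [cor_res, cor_cst]
    rfl
  · show corc A D hq hqN hN (res A N q x.1) + corc A D hq hqN hN (cst A N hq.ne_zero x.2) = _
    rw [corc_res, corc_cst]
    rfl

/-- `α` commutes with `T_ℓ` on parabolic classes. -/
theorem heckeTPar_degAlphaPar (hq : q.Prime) (hqN : ¬ q ∣ N) (hℓ : ℓ.Prime) (hℓM : ¬ ℓ ∣ N * q)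
    (x : parabolicHoms R (Gamma0 N) A × parabolicHoms R (Gamma0 N) A) :
    heckeTPar A R hℓ hℓM (degAlphaPar A R N hq.ne_zero x)
      = degAlphaPar A R N hq.ne_zero
          (heckeTPar A R hℓ (not_dvd_left_of_not_dvd_mul hℓM) x.1,
           heckeTPar A R hℓ (not_dvd_left_of_not_dvd_mul hℓM) x.2) := by
  apply Subtype.ext
  show heckeTHom A hℓ hℓM (res A N q x.1 + cst A N hq.ne_zero x.2)
    = res A N q (heckeTHom A hℓ _ x.1) + cst A N hq.ne_zero (heckeTHom A hℓ _ x.2)
  rw [map_add, heckeTHom_res, heckeTHom_cst hq hqN]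

/-- `β` commutes with `T_ℓ` on parabolic classes. -/
theorem heckeTPar_degBetaPar (D : ALData N q) (hq : q.Prime) (hqN : ¬ q ∣ N) (hN : N ≠ 0)
    (hℓ : ℓ.Prime) (hℓM : ¬ ℓ ∣ N * q) (y : parabolicHoms R (Gamma0 (N * q)) A) :
    degBetaPar A R D hq hqN hN (heckeTPar A R hℓ hℓM y)
      = (heckeTPar A R hℓ (not_dvd_left_of_not_dvd_mul hℓM) (degBetaPar A R D hq hqN hN y).1,
         heckeTPar A R hℓ (not_dvd_left_of_not_dvd_mul hℓM) (degBetaPar A R D hq hqN hN y).2) := by
  rw [degBetaPar_apply, degBetaPar_apply]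
  refine Prod.ext (Subtype.ext ?_) (Subtype.ext ?_)
  · show cor A D hq hqN hN (heckeTHom A hℓ hℓM y) = heckeTHom A hℓ _ (cor A D hq hqN hN y)
    rw [heckeTHom_cor]
  · show corc A D hq hqN hN (heckeTHom A hℓ hℓM y) = heckeTHom A hℓ _ (corc A D hq hqN hN y)
    rw [heckeTHom_corc]

/-- Kernel of `α` in terms of the two restrictions: `α (φ, ψ) = 0 ↔ res φ = - cst ψ`, i.e.
`φ γ = - ψ (cHom γ)` for all `γ ∈ Γ₀(N q)` (the gluing condition of the amalgam). -/
theorem degAlpha_eq_zero_iff (hq : q ≠ 0)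
    (x : (Additive (Gamma0 N) →+ A) × (Additive (Gamma0 N) →+ A)) :
    degAlpha A N hq x = 0 ↔
      ∀ γ : Gamma0 (N * q), x.1 (Additive.ofMul (inclHom N q γ))
        = - x.2 (Additive.ofMul (cHom hq γ)) := by
  rw [degAlpha_apply]
  constructor
  · intro h γ
    have := congrArg (fun f : Additive (Gamma0 (N * q)) →+ A => f (Additive.ofMul γ)) h
    simp only [AddMonoidHom.add_apply, AddMonoidHom.zero_apply, res_apply_apply,
      cst_apply_apply] at this
    exact eq_neg_of_add_eq_zero_left this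
  · intro h
    refine AddMonoidHom.ext fun γ => ?_
    obtain ⟨γ, rfl⟩ := Additive.ofMul.surjective γ
    rw [AddMonoidHom.add_apply, res_apply_apply, cst_apply_apply, h γ]
    simp

end Fermat.Agent.S41.H65
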