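import Fermat.Agent.S41.H66_LevelRaisingAlgebra

/-!
# S41 / step (5) (helper66): Poincare duality turns Ihara's lemma into its dual

`α : L₁ → L₂`, `β : L₂ → L₁` equivariant, `B₁`, `B₂` integral bilinear forms on `L₁`, `L₂` with
`B₂ (α x) y = B₁ x (β y)`, `t₁` self-adjoint for `B₁`.

* `exists_stable_exponent` : `L₁` Noetherian; a uniform bound for the `p`-power torsion of
  `coker β`.
* `dualIhara_of_cokernel_modp` : if `s` kills `coker (β mod p)` then `s ^ e` kills the `p`-torsion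
  of `coker β` (this is the hypothesis `hD` of `exists_eigen_in_ker`).
* `exists_functional_separating` : separation by functionals `L →ₗ[ℤ] ZMod p`.
* `redForm p B` : reduction mod `p` of an integral form; `exists_eq_of_nondeg` : a
  `ZMod p`-valued form on a finite free `ℤ`-module which is non-degenerate mod `p` is perfect
  mod `p` (Gram matrix).
* `cokernel_modp_of_duality_of_perfect` : Ihara's lemma for `α` + duality ⇒ `t₁` kills
  `coker (β mod p)`.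
* `dualIhara_of_duality_zmod`, `dualIhara_of_duality` : the combination, for `ZMod p`-valued and
  for integral forms.
-/

set_option autoImplicit false

namespace Fermat.Agent.S41.H66

open Module

section Stable

variable (p : ℕ) {L₁ L₂ : Type*} [AddCommGroup L₁] [AddCommGroup L₂]

/-- a uniform exponent for the `p`-power torsion of `coker β`. -/
theorem exists_stable_exponent [IsNoetherian ℤ L₁] (β : L₂ →ₗ[ℤ] L₁) :
    ∃ k₀ : ℕ, ∀ (k : ℕ) (z : L₁), ((p : ℤ) ^ k) • z ∈ LinearMap.range β →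
      ((p : ℤ) ^ k₀) • z ∈ LinearMap.range β := by
  let T : ℕ →o Submodule ℤ L₁ :=
    ⟨fun k => (LinearMap.range β).comap (LinearMap.lsmul ℤ L₁ ((p : ℤ) ^ k)),
      monotone_nat_of_le_succ fun k z hz => by
        rw [Submodule.mem_comap, LinearMap.lsmul_apply] at hz ⊢
        rw [pow_succ', mul_smul]
        exact (LinearMap.range β).smul_mem _ hz⟩
  obtain ⟨k₀, hk₀⟩ := monotone_stabilizes_iff_noetherian.mpr inferInstance T
  refine ⟨k₀, fun k z hz => ?_⟩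
  have h0 : z ∈ T k := hz
  have h1 : z ∈ T (max k k₀) := T.monotone (le_max_left k k₀) h0
  rw [← hk₀ _ (le_max_right k k₀)] at h1
  exact h1

end Stable

section Cokernel

variable {p : ℕ} {R : Type*} [CommRing R]
  {L₁ L₂ : Type*} [AddCommGroup L₁] [AddCommGroup L₂]
  (ρ₁ : R →+* Module.End ℤ L₁) (ρ₂ : R →+* Module.End ℤ L₂) (β : L₂ →ₗ[ℤ] L₁)

theorem pow_apply_decomp (hβ : ∀ t y, β (ρ₂ t y) = ρ₁ t (β y)) (s : R)
    (hs : ∀ x : L₁, ∃ y x', ρ₁ s x = β y + (p : ℤ) • x') (k : ℕ) :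
    ∀ x : L₁, ∃ y x', ρ₁ (s ^ k) x = β y + ((p : ℤ) ^ k) • x' := by
  induction k with
  | zero => intro x; exact ⟨0, x, by simp⟩
  | succ k ih =>
    intro x
    obtain ⟨y, x', h⟩ := ih x
    obtain ⟨y', x'', h'⟩ := hs x'
    refine ⟨ρ₂ s y + ((p : ℤ) ^ k) • y', x'', ?_⟩
    rw [pow_succ', map_mul, Module.End.mul_apply, h, map_add, map_zsmul, h', map_add, hβ,
      smul_add, map_zsmul, smul_smul, ← pow_succ, add_assoc]

/-- if `s` kills the cokernel of `β mod p`, a power of `s` kills the `p`-torsion of the cokernel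
of `β`. -/
theorem dualIhara_of_cokernel_modp [IsNoetherian ℤ L₁]
    (hβ : ∀ t y, β (ρ₂ t y) = ρ₁ t (β y)) (s : R)
    (hs : ∀ x : L₁, ∃ y x', ρ₁ s x = β y + (p : ℤ) • x') :
    ∃ e : ℕ, ∀ z : L₁, (p : ℤ) • z ∈ LinearMap.range β →
      ρ₁ (s ^ e) z ∈ LinearMap.range β := by
  obtain ⟨k₀, hk₀⟩ := exists_stable_exponent p β
  refine ⟨k₀, fun z hz => ?_⟩
  obtain ⟨y, x', h⟩ := pow_apply_decomp ρ₁ ρ₂ β hβ s hs k₀ z
  have h1 : ((p : ℤ) ^ (k₀ + 1)) • x' ∈ LinearMap.range β := by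
    obtain ⟨w, hw⟩ := hz
    refine ⟨ρ₂ (s ^ k₀) w - (p : ℤ) • y, ?_⟩
    rw [map_sub, hβ, hw, map_zsmul, map_zsmul, h, smul_add, add_sub_cancel_left, pow_succ',
      mul_smul]
  have h2 := hk₀ (k₀ + 1) x' h1
  rw [h]
  exact (LinearMap.range β).add_mem ⟨y, rfl⟩ h2

end Cokernel

section Separation

variable {p : ℕ} [Fact p.Prime] {L : Type*} [AddCommGroup L]

theorem exists_addHom_apply_ne_zero {Q : Type*} [AddCommGroup Q] [Module (ZMod p) Q] {v : Q}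
    (hv : v ≠ 0) : ∃ f : Q →+ ZMod p, f v ≠ 0 := by
  by_contra hcon
  push Not at hcon
  refine hv ((Module.forall_dual_apply_eq_zero_iff (ZMod p) v).mp fun φ => ?_)
  exact hcon φ.toAddMonoidHom

/-- a vector outside a subgroup `U ⊇ p L` is separated from `U` by a functional to `ZMod p`. -/
theorem exists_functional_separating (U : Submodule ℤ L) (hU : pSub p L ≤ U) {v : L}
    (hv : v ∉ U) : ∃ φ : L →ₗ[ℤ] ZMod p, (∀ u ∈ U, φ u = 0) ∧ φ v ≠ 0 := by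
  have hkill : ∀ q : L ⧸ U, p • q = 0 := by
    intro q
    induction q using Submodule.Quotient.induction_on with
    | _ x =>
    rw [← Submodule.Quotient.mk_smul, Submodule.Quotient.mk_eq_zero]
    apply hU
    rw [← natCast_zsmul]
    exact smul_mem_pSub x
  have hne : (Submodule.Quotient.mk v : L ⧸ U) ≠ 0 := fun h =>
    hv ((Submodule.Quotient.mk_eq_zero U).mp h)
  obtain ⟨f, hf⟩ :=
    @exists_addHom_apply_ne_zero p _ (L ⧸ U) _ (AddCommGroup.zmodModule hkill) _ hne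
  refine ⟨(f.comp U.mkQ.toAddMonoidHom).toIntLinearMap, fun u hu => ?_, hf⟩
  show f (Submodule.Quotient.mk u) = 0
  rw [(Submodule.Quotient.mk_eq_zero U).mpr hu, map_zero]

end Separation

section Perfect

variable {p : ℕ} {L : Type*} [AddCommGroup L]

/-- reduction mod `p` of an integral bilinear form -/
def redForm (p : ℕ) (B : L →ₗ[ℤ] L →ₗ[ℤ] ℤ) : L →ₗ[ℤ] L →ₗ[ℤ] ZMod p :=
  B.compr₂ (Int.castAddHom (ZMod p)).toIntLinearMap

@[simp]
theorem redForm_apply (B : L →ₗ[ℤ] L →ₗ[ℤ] ℤ) (z x : L) :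
    redForm p B z x = ((B z x : ℤ) : ZMod p) := rfl

variable [Fact p.Prime]

/-- a `ZMod p`-valued bilinear form on a finite free `ℤ`-module which is (left) non-degenerate
mod `p` is (left) perfect mod `p`. -/
theorem exists_eq_of_nondeg [Module.Free ℤ L] [Module.Finite ℤ L]
    (B : L →ₗ[ℤ] L →ₗ[ℤ] ZMod p)
    (hB : ∀ x : L, (∀ x', B x x' = 0) → x ∈ pSub p L) (φ : L →ₗ[ℤ] ZMod p) :
    ∃ z, φ = B z := by
  classical
  let b := Module.Free.chooseBasis ℤ L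
  let G : Matrix (Module.Free.ChooseBasisIndex ℤ L) (Module.Free.ChooseBasisIndex ℤ L) (ZMod p) :=
    fun i j => B (b i) (b j)
  let zv : (Module.Free.ChooseBasisIndex ℤ L → ZMod p) → L :=
    fun v => ∑ i, ((v i).val : ℤ) • b i
  have G1 : ∀ v j, B (zv v) (b j) = Matrix.vecMul v G j := by
    intro v j
    simp only [zv, map_sum, map_zsmul, LinearMap.sum_apply, LinearMap.smul_apply,
      Matrix.vecMul, dotProduct, G, zsmul_eq_mul]
    refine Finset.sum_congr rfl fun i _ => ?_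
    push_cast
    rw [ZMod.natCast_zmod_val]
  have hinj : Function.Injective G.vecMul := by
    rw [← Matrix.coe_vecMulLinear]
    rw [injective_iff_map_eq_zero]
    intro v hv
    have hv' : Matrix.vecMul v G = 0 := hv
    have h0 : B (zv v) = 0 := by
      apply b.ext
      intro j
      rw [G1, hv']
      rfl
    have h1 : zv v ∈ pSub p L := by
      apply hB
      intro x'
      rw [h0, LinearMap.zero_apply]
    obtain ⟨w, hw⟩ := mem_pSub.mp h1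
    funext i
    have h2 : b.repr (zv v) i = ((v i).val : ℤ) := by
      simp only [zv]
      rw [b.repr_sum_self]
    rw [← hw, map_zsmul, Finsupp.smul_apply, smul_eq_mul] at h2
    have h3 : (((v i).val : ℤ) : ZMod p) = 0 := by
      rw [← h2]
      push_cast
      simp
    push_cast at h3
    rw [ZMod.natCast_zmod_val] at h3
    exact h3
  have hsurj : Function.Surjective G.vecMul :=
    Matrix.vecMul_surjective_iff_isUnit.mpr (Matrix.vecMul_injective_iff_isUnit.mp hinj)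
  obtain ⟨v, hv⟩ := hsurj (fun j => φ (b j))
  refine ⟨zv v, ?_⟩
  apply b.ext
  intro j
  rw [G1]
  exact (congrFun hv j).symm

end Perfect

section Duality

variable {p : ℕ} [Fact p.Prime] {R : Type*} [CommRing R]
  {L₁ L₂ : Type*} [AddCommGroup L₁] [AddCommGroup L₂]
  (ρ₁ : R →+* Module.End ℤ L₁) (ρ₂ : R →+* Module.End ℤ L₂)
  (α : L₁ →ₗ[ℤ] L₂) (β : L₂ →ₗ[ℤ] L₁)

/-- **Ihara + duality ⇒ `t₁` kills `coker (β mod p)`** (`ZMod p`-valued forms, `b₁` perfect). -/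
theorem cokernel_modp_of_duality_of_perfect
    (b₁ : L₁ →ₗ[ℤ] L₁ →ₗ[ℤ] ZMod p) (b₂ : L₂ →ₗ[ℤ] L₂ →ₗ[ℤ] ZMod p)
    (hb₁ : ∀ φ : L₁ →ₗ[ℤ] ZMod p, ∃ z, φ = b₁ z)
    (hb₂ : ∀ y : L₂, (∀ y', b₂ y y' = 0) → y ∈ pSub p L₂)
    (hadj : ∀ x y, b₂ (α x) y = b₁ x (β y))
    (t₁ : R) (hself : ∀ x x', b₁ (ρ₁ t₁ x) x' = b₁ x (ρ₁ t₁ x'))
    (hI : ∀ x, α x ∈ pSub p L₂ → ρ₁ t₁ x ∈ pSub p L₁) :
    ∀ x : L₁, ∃ y x', ρ₁ t₁ x = β y + (p : ℤ) • x' := by
  intro x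
  by_contra hcon
  have hv : ρ₁ t₁ x ∉ LinearMap.range β ⊔ pSub p L₁ := by
    intro h
    obtain ⟨u, ⟨y, rfl⟩, w, hw, huw⟩ := Submodule.mem_sup.mp h
    obtain ⟨x', rfl⟩ := mem_pSub.mp hw
    exact hcon ⟨y, x', huw.symm⟩
  obtain ⟨φ, hφU, hφv⟩ := exists_functional_separating _ le_sup_right hv
  obtain ⟨z, rfl⟩ := hb₁ φ
  have hαz : α z ∈ pSub p L₂ := by
    apply hb₂
    intro y'
    rw [hadj]
    exact hφU _ (Submodule.mem_sup_left ⟨y', rfl⟩)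
  obtain ⟨w, hw⟩ := mem_pSub.mp (hI z hαz)
  apply hφv
  rw [← hself, ← hw, map_zsmul, LinearMap.smul_apply, zsmul_eq_mul]
  simp

/-- **Poincare duality ⇒ dual Ihara** (`ZMod p`-valued forms): this produces the hypothesis `hD`
of `exists_eigen_in_ker` with `t₂ = t₁ ^ e`. -/
theorem dualIhara_of_duality_zmod [Module.Free ℤ L₁] [Module.Finite ℤ L₁]
    (hβ : ∀ t y, β (ρ₂ t y) = ρ₁ t (β y))
    (b₁ : L₁ →ₗ[ℤ] L₁ →ₗ[ℤ] ZMod p) (b₂ : L₂ →ₗ[ℤ] L₂ →ₗ[ℤ] ZMod p)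
    (hb₁ : ∀ x : L₁, (∀ x', b₁ x x' = 0) → x ∈ pSub p L₁)
    (hb₂ : ∀ y : L₂, (∀ y', b₂ y y' = 0) → y ∈ pSub p L₂)
    (hadj : ∀ x y, b₂ (α x) y = b₁ x (β y))
    (t₁ : R) (hself : ∀ x x', b₁ (ρ₁ t₁ x) x' = b₁ x (ρ₁ t₁ x'))
    (hI : ∀ x, α x ∈ pSub p L₂ → ρ₁ t₁ x ∈ pSub p L₁) :
    ∃ e : ℕ, ∀ z : L₁, (p : ℤ) • z ∈ LinearMap.range β →
      ρ₁ (t₁ ^ e) z ∈ LinearMap.range β :=
  dualIhara_of_cokernel_modp ρ₁ ρ₂ β hβ t₁
    (cokernel_modp_of_duality_of_perfect ρ₁ α β b₁ b₂ (exists_eq_of_nondeg b₁ hb₁) hb₂ hadj t₁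
      hself hI)

/-- **Poincare duality ⇒ dual Ihara** (integral forms, non-degenerate mod `p`). -/
theorem dualIhara_of_duality [Module.Free ℤ L₁] [Module.Finite ℤ L₁]
    (hβ : ∀ t y, β (ρ₂ t y) = ρ₁ t (β y))
    (B₁ : L₁ →ₗ[ℤ] L₁ →ₗ[ℤ] ℤ) (B₂ : L₂ →ₗ[ℤ] L₂ →ₗ[ℤ] ℤ)
    (hB₁ : ∀ x : L₁, (∀ x', (p : ℤ) ∣ B₁ x x') → x ∈ pSub p L₁)
    (hB₂ : ∀ y : L₂, (∀ y', (p : ℤ) ∣ B₂ y y') → y ∈ pSub p L₂)
    (hadj : ∀ x y, B₂ (α x) y = B₁ x (β y))
    (t₁ : R) (hself : ∀ x x', B₁ (ρ₁ t₁ x) x' = B₁ x (ρ₁ t₁ x'))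
    (hI : ∀ x, α x ∈ pSub p L₂ → ρ₁ t₁ x ∈ pSub p L₁) :
    ∃ e : ℕ, ∀ z : L₁, (p : ℤ) • z ∈ LinearMap.range β →
      ρ₁ (t₁ ^ e) z ∈ LinearMap.range β := by
  refine dualIhara_of_duality_zmod ρ₁ ρ₂ α β hβ (redForm p B₁) (redForm p B₂) ?_ ?_ ?_ t₁ ?_ hI
  · intro x hx
    exact hB₁ x fun x' => (ZMod.intCast_zmod_eq_zero_iff_dvd _ p).mp (hx x')
  · intro y hy
    exact hB₂ y fun y' => (ZMod.intCast_zmod_eq_zero_iff_dvd _ p).mp (hy y')
  · intro x y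
    rw [redForm_apply, redForm_apply, hadj]
  · intro x x'
    rw [redForm_apply, redForm_apply, hself]

end Duality

end Fermat.Agent.S41.H66
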