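import Fermat.Agent.S41.H66_ThetaKernel
import Fermat.Agent.S41.H66_DualIhara

/-!
# S41 / step (5) (helper66): the algebra lemma `ALR` of level raising, assembled

Conclusion of every theorem: `∀ t, (t kills ker β) → χ t = 0`, which is the hypothesis `hker` of
the landed `Fermat.Agent.S49.H70.exists_lift` (`𝔪 = ker χ` is in the support of the `q`-new
lattice `ker β`).

* `annihilator_le_ker_of_duality` : abstract `L₁`, `L₂`; Ihara for `t₁` + integral forms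
  non-degenerate mod `p` + adjointness + an eigenvector `x` mod `p` with `β (α x) ∈ p L₁`.
* `levelRaising_support` : `L₁ = L × L` with the diagonal action of the bigger ring `R'`
  (containing `T_q`), `β ∘ α = [[m, T_q], [T_q, m]]`, `χ' tq ^ 2 = m ^ 2`, `ker ρ_N ≤ ker χ'`,
  Ihara (`t₁`), dual Ihara (`t₂`).
* `levelRaising_support_of_duality` : the same with the dual Ihara hypothesis replaced by
  Poincare duality.
-/

set_option autoImplicit false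

namespace Fermat.Agent.S41.H66

open Module

section Abstract

variable {p : ℕ} [Fact p.Prime] {R : Type*} [CommRing R] (χ : R →+* ZMod p)
  {L₁ L₂ : Type*} [AddCommGroup L₁] [AddCommGroup L₂]
  (ρ₁ : R →+* Module.End ℤ L₁) (ρ₂ : R →+* Module.End ℤ L₂)
  (α : L₁ →ₗ[ℤ] L₂) (β : L₂ →ₗ[ℤ] L₁)

/-- **ALR, abstract form with duality.** -/
theorem annihilator_le_ker_of_duality [Module.Free ℤ L₁] [Module.Finite ℤ L₁]
    (hα : ∀ t x, α (ρ₁ t x) = ρ₂ t (α x)) (hβ : ∀ t y, β (ρ₂ t y) = ρ₁ t (β y))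
    (B₁ : L₁ →ₗ[ℤ] L₁ →ₗ[ℤ] ℤ) (B₂ : L₂ →ₗ[ℤ] L₂ →ₗ[ℤ] ℤ)
    (hB₁ : ∀ x : L₁, (∀ x', (p : ℤ) ∣ B₁ x x') → x ∈ pSub p L₁)
    (hB₂ : ∀ y : L₂, (∀ y', (p : ℤ) ∣ B₂ y y') → y ∈ pSub p L₂)
    (hadj : ∀ x y, B₂ (α x) y = B₁ x (β y))
    (t₁ : R) (hself : ∀ x x', B₁ (ρ₁ t₁ x) x' = B₁ x (ρ₁ t₁ x'))
    (h1 : χ t₁ ≠ 0) (hI : ∀ x, α x ∈ pSub p L₂ → ρ₁ t₁ x ∈ pSub p L₁)
    (x : L₁) (hx : IsEigenMod χ ρ₁ x) (hdet : β (α x) ∈ pSub p L₁)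
    (t : R) (ht : ∀ y : L₂, β y = 0 → ρ₂ t y = 0) : χ t = 0 := by
  obtain ⟨e, he⟩ := dualIhara_of_duality ρ₁ ρ₂ α β hβ B₁ B₂ hB₁ hB₂ hadj t₁ hself hI
  exact annihilator_le_ker χ ρ₁ ρ₂ α β hα hβ t₁ (t₁ ^ e) h1 hI
    (by rw [map_pow]; exact pow_ne_zero e h1) he x hx hdet t ht

end Abstract

section Concrete

variable {p : ℕ} [Fact p.Prime] {R R' : Type*} [CommRing R] [CommRing R'] (ι : R →+* R')
  (χ' : R' →+* ZMod p) {L L₂ : Type*} [AddCommGroup L] [AddCommGroup L₂]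
  (ρN : R' →+* Module.End ℤ L) (ρ₂ : R →+* Module.End ℤ L₂)
  (α : L × L →ₗ[ℤ] L₂) (β : L₂ →ₗ[ℤ] L × L)

/-- **ALR, concrete form.**  `R'` (the Hecke ring containing `T_q`) acts on `L = L_N`, `R` (the
Hecke ring away from `q`) acts on `L₂ = L_{Nq}` and, through `ι : R → R'`, diagonally on `L × L`;
`β ∘ α = [[m, T_q], [T_q, m]]` with `χ' (T_q) ^ 2 = m ^ 2`; `ker ρN ≤ ker χ'`; Ihara (`t₁`) and
dual Ihara (`t₂`).  Then every `t : R` killing `ker β` has `χ' (ι t) = 0`. -/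
theorem levelRaising_support [Module.Finite ℤ L]
    (hα : ∀ t x, α (diagAction ρN (ι t) x) = ρ₂ t (α x))
    (hβ : ∀ t y, β (ρ₂ t y) = diagAction ρN (ι t) (β y))
    (tq : R') (m : ℤ) (hβα : ∀ x, β (α x) = thetaMap m (ρN tq) x)
    (hsq : χ' tq ^ 2 = (m : ZMod p) ^ 2) (hker : ∀ t', ρN t' = 0 → χ' t' = 0)
    (t₁ t₂ : R) (h1 : χ' (ι t₁) ≠ 0)
    (hI : ∀ x, α x ∈ pSub p L₂ → diagAction ρN (ι t₁) x ∈ pSub p (L × L))
    (h2 : χ' (ι t₂) ≠ 0)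
    (hD : ∀ z : L × L, (p : ℤ) • z ∈ LinearMap.range β →
      diagAction ρN (ι t₂) z ∈ LinearMap.range β)
    (t : R) (ht : ∀ y : L₂, β y = 0 → ρ₂ t y = 0) : χ' (ι t) = 0 := by
  obtain ⟨y, hy, hθ⟩ := exists_isEigenMod_thetaMap_of_ker_le hker tq m hsq
  exact annihilator_le_ker (χ'.comp ι) ((diagAction ρN).comp ι) ρ₂ α β hα hβ t₁ t₂ h1 hI h2 hD y
    (hy.comap ι) (by rw [hβα]; exact hθ) t ht

/-- **ALR, concrete form with Poincare duality.** -/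
theorem levelRaising_support_of_duality [Module.Free ℤ L] [Module.Finite ℤ L]
    (hα : ∀ t x, α (diagAction ρN (ι t) x) = ρ₂ t (α x))
    (hβ : ∀ t y, β (ρ₂ t y) = diagAction ρN (ι t) (β y))
    (tq : R') (m : ℤ) (hβα : ∀ x, β (α x) = thetaMap m (ρN tq) x)
    (hsq : χ' tq ^ 2 = (m : ZMod p) ^ 2) (hker : ∀ t', ρN t' = 0 → χ' t' = 0)
    (B₁ : (L × L) →ₗ[ℤ] (L × L) →ₗ[ℤ] ℤ) (B₂ : L₂ →ₗ[ℤ] L₂ →ₗ[ℤ] ℤ)
    (hB₁ : ∀ x : L × L, (∀ x', (p : ℤ) ∣ B₁ x x') → x ∈ pSub p (L × L))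
    (hB₂ : ∀ y : L₂, (∀ y', (p : ℤ) ∣ B₂ y y') → y ∈ pSub p L₂)
    (hadj : ∀ x y, B₂ (α x) y = B₁ x (β y))
    (t₁ : R) (hself : ∀ x x', B₁ (diagAction ρN (ι t₁) x) x' = B₁ x (diagAction ρN (ι t₁) x'))
    (h1 : χ' (ι t₁) ≠ 0)
    (hI : ∀ x, α x ∈ pSub p L₂ → diagAction ρN (ι t₁) x ∈ pSub p (L × L))
    (t : R) (ht : ∀ y : L₂, β y = 0 → ρ₂ t y = 0) : χ' (ι t) = 0 := by
  obtain ⟨y, hy, hθ⟩ := exists_isEigenMod_thetaMap_of_ker_le hker tq m hsq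
  exact annihilator_le_ker_of_duality (χ'.comp ι) ((diagAction ρN).comp ι) ρ₂ α β hα hβ B₁ B₂
    hB₁ hB₂ hadj t₁ hself h1 hI y (hy.comap ι) (by rw [hβα]; exact hθ) t ht

end Concrete

end Fermat.Agent.S41.H66
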