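import Mathlib
import Fermat.Agent.S41.H98_PermPD2

/-!
# S41 / P-int P3a : pull-back and push-forward on permutation modules, adjointness of the pairing

Abstract part: a pair of linear maps `pull : V → V'`, `push : V' → V` between two `PDData`
which are adjoint for the inner products and commute with `σ`, `μ` (`PDMap`).  Then
`B'(pull v, v') = B(v, push v')` on parabolic vectors and on `H = Par / Triv`.

Concrete part: `π : D' → D` a map of finite sets commuting with the permutations; `pull = (∘ π)`,
`push =` sum over the fibres.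
-/

set_option autoImplicit false
set_option linter.unusedSectionVars false

namespace Fermat.Agent.S41.H72

open Fermat.Agent.S41.H98

section Abstract

variable {A V V' : Type*} [CommRing A] [AddCommGroup V] [Module A V] [AddCommGroup V']
  [Module A V']

/-- An adjoint pair of equivariant maps between two `PDData`. -/
structure PDMap (P : PDData A V) (P' : PDData A V') where
  pull : V →ₗ[A] V'
  push : V' →ₗ[A] V
  adj : ∀ v v', P'.ip (pull v) v' = P.ip v (push v')
  pull_σ : ∀ v, pull (P.σ v) = P'.σ (pull v)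
  pull_μ : ∀ v, pull (P.μ v) = P'.μ (pull v)
  push_σ : ∀ v', push (P'.σ v') = P.σ (push v')
  push_μ : ∀ v', push (P'.μ v') = P.μ (push v')

namespace PDMap

variable {P : PDData A V} {P' : PDData A V'} (f : PDMap P P')

theorem isWit_pull {v w : V} (h : P.IsWit v w) : P'.IsWit (f.pull v) (f.pull w) := by
  unfold PDData.IsWit at *
  rw [← f.pull_σ, ← f.pull_μ, ← f.pull_μ, ← map_sub, ← map_sub, h]

theorem isWit_push {v' w' : V'} (h : P'.IsWit v' w') : P.IsWit (f.push v') (f.push w') := by
  unfold PDData.IsWit at *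
  rw [← f.push_σ, ← f.push_μ, ← f.push_μ, ← map_sub, ← map_sub, h]

theorem pull_mem_Par {v : V} (h : v ∈ P.Par) : f.pull v ∈ P'.Par := by
  obtain ⟨w, hw⟩ := h
  exact ⟨f.pull w, f.isWit_pull hw⟩

theorem push_mem_Par {v' : V'} (h : v' ∈ P'.Par) : f.push v' ∈ P.Par := by
  obtain ⟨w, hw⟩ := h
  exact ⟨f.push w, f.isWit_push hw⟩

theorem pull_mem_Triv {v : V} (h : v ∈ P.Triv) : f.pull v ∈ P'.Triv := by
  unfold PDData.Triv at *
  obtain ⟨a, ha, b, hb, rfl⟩ := Submodule.mem_sup.mp h
  rw [map_add]
  refine Submodule.add_mem_sup ?_ ?_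
  · rw [P'.mem_fixσ, ← f.pull_σ, P.mem_fixσ.mp ha]
  · rw [P'.mem_fixμ, ← f.pull_μ, P.mem_fixμ.mp hb]

theorem push_mem_Triv {v' : V'} (h : v' ∈ P'.Triv) : f.push v' ∈ P.Triv := by
  unfold PDData.Triv at *
  obtain ⟨a, ha, b, hb, rfl⟩ := Submodule.mem_sup.mp h
  rw [map_add]
  refine Submodule.add_mem_sup ?_ ?_
  · rw [P.mem_fixσ, ← f.push_σ, P'.mem_fixσ.mp ha]
  · rw [P.mem_fixμ, ← f.push_μ, P'.mem_fixμ.mp hb]

/-- adjointness of the raw pairing -/
theorem Bw_pull (w : V) (v' : V') : P'.Bw (f.pull w) v' = P.Bw w (f.push v') := by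
  unfold PDData.Bw
  rw [← f.pull_σ, ← map_sub, f.adj]

/-- `pull` on parabolic vectors -/
def pullPar : P.Par →ₗ[A] P'.Par :=
  (f.pull.comp P.Par.subtype).codRestrict P'.Par fun v => f.pull_mem_Par v.2

/-- `push` on parabolic vectors -/
def pushPar : P'.Par →ₗ[A] P.Par :=
  (f.push.comp P'.Par.subtype).codRestrict P.Par fun v => f.push_mem_Par v.2

@[simp] theorem coe_pullPar (v : P.Par) : ((f.pullPar v : P'.Par) : V') = f.pull v := rfl

@[simp] theorem coe_pushPar (v : P'.Par) : ((f.pushPar v : P.Par) : V) = f.push v := rfl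

/-- **Adjointness of the Poincaré pairing**: `B'(pull v, v') = B(v, push v')`. -/
theorem form_pullPar (v : P.Par) (v' : P'.Par) :
    P'.form (f.pullPar v) v' = P.form v (f.pushPar v') := by
  have hw := P.isWit_wit v
  rw [P'.form_apply (f.pullPar v) v' (f.isWit_pull hw), P.form_apply v (f.pushPar v') hw,
    coe_pushPar, f.Bw_pull]

/-- adjointness in the other order -/
theorem form_pushPar (v' : P'.Par) (v : P.Par) :
    P.form (f.pushPar v') v = P'.form v' (f.pullPar v) := by
  rw [P.form_antisymm, ← f.form_pullPar, ← P'.form_antisymm]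

theorem pullPar_mem_TrivP {v : P.Par} (h : v ∈ P.TrivP) : f.pullPar v ∈ P'.TrivP :=
  f.pull_mem_Triv h

theorem pushPar_mem_TrivP {v : P'.Par} (h : v ∈ P'.TrivP) : f.pushPar v ∈ P.TrivP :=
  f.push_mem_Triv h

/-- `pull` on `H = Par / Triv` -/
def pullH : P.H →ₗ[A] P'.H :=
  P.TrivP.mapQ P'.TrivP f.pullPar fun _ h => f.pullPar_mem_TrivP h

/-- `push` on `H = Par / Triv` -/
def pushH : P'.H →ₗ[A] P.H :=
  P'.TrivP.mapQ P.TrivP f.pushPar fun _ h => f.pushPar_mem_TrivP h

@[simp] theorem pullH_mk (v : P.Par) :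
    f.pullH (Submodule.Quotient.mk v) = Submodule.Quotient.mk (f.pullPar v) := rfl

@[simp] theorem pushH_mk (v : P'.Par) :
    f.pushH (Submodule.Quotient.mk v) = Submodule.Quotient.mk (f.pushPar v) := rfl

/-- **Adjointness on `H`.** -/
theorem formQ_pullH (x : P.H) (y : P'.H) : P'.formQ (f.pullH x) y = P.formQ x (f.pushH y) := by
  induction x using Submodule.Quotient.induction_on with
  | H v =>
    induction y using Submodule.Quotient.induction_on with
    | H v' => rw [pullH_mk, pushH_mk, PDData.formQ_mk, PDData.formQ_mk, f.form_pullPar]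

theorem formQ_pushH (y : P'.H) (x : P.H) : P.formQ (f.pushH y) x = P'.formQ y (f.pullH x) := by
  rw [P.formQ_antisymm, ← f.formQ_pullH, ← P'.formQ_antisymm]

/-- If `push ∘ pull = n • id` (all fibres of cardinality `n`), then `pull` multiplies the pairing
by `n`; for `n = 1` (isomorphisms, relabellings) `pull` is an isometry. -/
theorem form_pullPar_pullPar (n : A) (hn : ∀ v, f.push (f.pull v) = n • v) (v v' : P.Par) :
    P'.form (f.pullPar v) (f.pullPar v') = n * P.form v v' := by
  rw [f.form_pullPar]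
  have : f.pushPar (f.pullPar v') = n • v' := by
    apply Subtype.ext
    rw [coe_pushPar, coe_pullPar, hn]
    rfl
  rw [this, map_smul, smul_eq_mul]

theorem formQ_pullH_pullH (n : A) (hn : ∀ v, f.push (f.pull v) = n • v) (x y : P.H) :
    P'.formQ (f.pullH x) (f.pullH y) = n * P.formQ x y := by
  induction x using Submodule.Quotient.induction_on with
  | H v =>
    induction y using Submodule.Quotient.induction_on with
    | H v' =>
      rw [pullH_mk, pullH_mk, PDData.formQ_mk, PDData.formQ_mk, f.form_pullPar_pullPar n hn]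

end PDMap

end Abstract

section Concrete

variable {D D' : Type*} [Fintype D] [DecidableEq D] [Fintype D'] [DecidableEq D']
  (A : Type*) [CommRing A]

/-- pull-back of functions along `π : D' → D` -/
def pullFun (π : D' → D) : (D → A) →ₗ[A] (D' → A) := LinearMap.funLeft A A π

/-- push-forward (sum over the fibres) of functions along `π : D' → D` -/
def pushFun (π : D' → D) : (D' → A) →ₗ[A] (D → A) where
  toFun v' x := ∑ y ∈ Finset.univ.filter (fun y => π y = x), v' y
  map_add' v w := by
    funext x
    simp [Finset.sum_add_distrib]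
  map_smul' a v := by
    funext x
    simp [Finset.mul_sum]

theorem pullFun_apply (π : D' → D) (v : D → A) (y : D') : pullFun A π v y = v (π y) := rfl

theorem pushFun_apply (π : D' → D) (v' : D' → A) (x : D) :
    pushFun A π v' x = ∑ y ∈ Finset.univ.filter (fun y => π y = x), v' y := rfl

theorem dot_pullFun (π : D' → D) (v : D → A) (v' : D' → A) :
    dot A (pullFun A π v) v' = dot A v (pushFun A π v') := by
  rw [dot_apply, dot_apply]
  simp only [pullFun_apply, pushFun_apply, Finset.mul_sum]
  rw [← Finset.sum_fiberwise (s := Finset.univ) (g := π) (f := fun y => v (π y) * v' y)]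
  refine Finset.sum_congr rfl fun x _ => ?_
  refine Finset.sum_congr rfl fun y hy => ?_
  rw [(Finset.mem_filter.mp hy).2]

theorem pullFun_act (π : D' → D) (g : Equiv.Perm D) (g' : Equiv.Perm D')
    (h : ∀ y, π (g' y) = g (π y)) (v : D → A) :
    pullFun A π (act A g v) = act A g' (pullFun A π v) := by
  funext y
  rw [pullFun_apply, act_apply, act_apply, pullFun_apply]
  congr 1
  rw [Equiv.symm_apply_eq, ← h, Equiv.apply_symm_apply]

theorem pushFun_act (π : D' → D) (g : Equiv.Perm D) (g' : Equiv.Perm D')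
    (h : ∀ y, π (g' y) = g (π y)) (v' : D' → A) :
    pushFun A π (act A g' v') = act A g (pushFun A π v') := by
  funext x
  rw [pushFun_apply, act_apply, pushFun_apply]
  refine Finset.sum_bij' (fun y _ => g'.symm y) (fun z _ => g' z) ?_ ?_ ?_ ?_ ?_
  · intro y hy
    rw [Finset.mem_filter] at hy ⊢
    refine ⟨Finset.mem_univ _, ?_⟩
    rw [Equiv.eq_symm_apply, ← h, Equiv.apply_symm_apply, hy.2]
  · intro z hz
    rw [Finset.mem_filter] at hz ⊢
    refine ⟨Finset.mem_univ _, ?_⟩
    rw [h, hz.2, Equiv.apply_symm_apply]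
  · intro y _
    exact Equiv.apply_symm_apply _ _
  · intro z _
    exact Equiv.symm_apply_apply _ _
  · intro y _
    rw [act_apply]

/-- The `PDMap` attached to a map of finite sets commuting with the permutations. -/
def permMap (σ μ : Equiv.Perm D) (hσ : ∀ x, σ (σ x) = x) (σ' μ' : Equiv.Perm D')
    (hσ' : ∀ y, σ' (σ' y) = y) (π : D' → D) (hπσ : ∀ y, π (σ' y) = σ (π y))
    (hπμ : ∀ y, π (μ' y) = μ (π y)) :
    PDMap (permData A σ μ hσ) (permData A σ' μ' hσ') where
  pull := pullFun A π
  push := pushFun A π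
  adj := dot_pullFun A π
  pull_σ := pullFun_act A π σ σ' hπσ
  pull_μ := pullFun_act A π μ μ' hπμ
  push_σ := fun v' => pushFun_act A π σ σ' hπσ v'
  push_μ := fun v' => pushFun_act A π μ μ' hπμ v'

theorem pushFun_pullFun_of_bijective (π : D' → D) (hπ : Function.Bijective π) (v : D → A) :
    pushFun A π (pullFun A π v) = v := by
  funext x
  obtain ⟨y, rfl⟩ := hπ.2 x
  rw [pushFun_apply, Finset.sum_eq_single y]
  · rfl
  · intro z hz hzy
    exact absurd (hπ.1 (Finset.mem_filter.mp hz).2) hzy
  · intro h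
    exact absurd (by simp) h

theorem pushFun_pullFun_of_card (π : D' → D) (n : ℕ)
    (hn : ∀ x, (Finset.univ.filter (fun y => π y = x)).card = n) (v : D → A) :
    pushFun A π (pullFun A π v) = (n : A) • v := by
  funext x
  rw [pushFun_apply, Pi.smul_apply, smul_eq_mul]
  rw [Finset.sum_congr rfl (g := fun _ => v x) (fun y hy => by
    rw [pullFun_apply, (Finset.mem_filter.mp hy).2]), Finset.sum_const, hn, nsmul_eq_mul]

end Concrete

end Fermat.Agent.S41.H72
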