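import Mathlib
import Fermat.Agent.S41.H65_DegPar
import Fermat.Agent.S41.H66_ALR
import Fermat.Agent.S41.H72_PermPullPush

/-!
# S41 / P5a : formal glue for the Poincaré duality package

From a pair of integral bilinear forms `pdN` on `L_N` and `pdNq` on `L_{Nq}` with
* `(rc)`  `pdNq (res x) y = pdN x (cor y)`,
* `(al)`  `pdNq (w a) (w b) = pdNq a b` (Atkin–Lehner invariance),
we derive `(cst, corc)`-adjointness, the self-adjointness of `T_q` and the hypotheses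
`hB₁`, `hB₂`, `hadj`, `hself` of `H66.levelRaising_support_of_duality`.
-/

set_option autoImplicit false

open CongruenceSubgroup ModularCurve ModularCurve.Period
open scoped MatrixGroups
open Fermat.Agent.S41.H85 Fermat.Agent.S41.H65 Fermat.Agent.S41.H66

namespace Fermat.Agent.S41.H72

variable {N q : ℕ}

/-- abbreviation: the lattice `L_M = H¹_par(Γ₀(M), ℤ)` -/
abbrev Lat (M : ℕ) : Type := parabolicHoms ℤ (Gamma0 M) ℤ

section Identities

variable (D : ALData N q) (hq : q.Prime) (hqN : ¬ q ∣ N) (hN : N ≠ 0)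

theorem cstPar_eq (x : Lat N) :
    cstPar ℤ ℤ N hq.ne_zero x = atkinLehnerPar ℤ ℤ D hq.ne_zero (resPar ℤ ℤ N q x) :=
  Subtype.ext (cst_eq_atkinLehner_res D hq.ne_zero x.1)

theorem atkinLehnerPar_atkinLehnerPar (y : Lat (N * q)) :
    atkinLehnerPar ℤ ℤ D hq.ne_zero (atkinLehnerPar ℤ ℤ D hq.ne_zero y) = y :=
  Subtype.ext (atkinLehner_atkinLehner D hq.ne_zero y.1)

theorem corcPar_eq (y : Lat (N * q)) :
    corcPar ℤ ℤ D hq hqN hN y = corPar ℤ ℤ D hq hqN hN (atkinLehnerPar ℤ ℤ D hq.ne_zero y) :=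
  Subtype.ext (corc_eq D hq hqN hN y.1)

theorem corcPar_resPar (x : Lat N) :
    corcPar ℤ ℤ D hq hqN hN (resPar ℤ ℤ N q x) = heckeTPar ℤ ℤ hq hqN x :=
  Subtype.ext (corc_res D hq hqN hN x.1)

theorem corPar_cstPar (x : Lat N) :
    corPar ℤ ℤ D hq hqN hN (cstPar ℤ ℤ N hq.ne_zero x) = heckeTPar ℤ ℤ hq hqN x :=
  Subtype.ext (cor_cst D hq hqN hN x.1)

end Identities

section Glue

variable (D : ALData N q) (hq : q.Prime) (hqN : ¬ q ∣ N) (hN : N ≠ 0)
  (pdN : Lat N →ₗ[ℤ] Lat N →ₗ[ℤ] ℤ) (pdNq : Lat (N * q) →ₗ[ℤ] Lat (N * q) →ₗ[ℤ] ℤ)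

/-- **`(cst, corc)`-adjointness** from `(res, cor)`-adjointness and Atkin–Lehner invariance. -/
theorem pd_cst_corc
    (hrc : ∀ x y, pdNq (resPar ℤ ℤ N q x) y = pdN x (corPar ℤ ℤ D hq hqN hN y))
    (hal : ∀ a b, pdNq (atkinLehnerPar ℤ ℤ D hq.ne_zero a) (atkinLehnerPar ℤ ℤ D hq.ne_zero b)
      = pdNq a b) (x : Lat N) (y : Lat (N * q)) :
    pdNq (cstPar ℤ ℤ N hq.ne_zero x) y = pdN x (corcPar ℤ ℤ D hq hqN hN y) := by
  rw [cstPar_eq D hq, corcPar_eq D hq hqN hN, ← hrc,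
    ← hal (resPar ℤ ℤ N q x), atkinLehnerPar_atkinLehnerPar D hq]

/-- **Self-adjointness of `T_q` on `L_N`**, from the two adjointness relations at the level pair
`(N, N q)` and antisymmetry. -/
theorem pd_heckeT_self
    (hrc : ∀ x y, pdNq (resPar ℤ ℤ N q x) y = pdN x (corPar ℤ ℤ D hq hqN hN y))
    (hal : ∀ a b, pdNq (atkinLehnerPar ℤ ℤ D hq.ne_zero a) (atkinLehnerPar ℤ ℤ D hq.ne_zero b)
      = pdNq a b)
    (hanti : ∀ x x', pdN x x' = - pdN x' x) (hanti' : ∀ y y', pdNq y y' = - pdNq y' y)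
    (x x' : Lat N) :
    pdN (heckeTPar ℤ ℤ hq hqN x) x' = pdN x (heckeTPar ℤ ℤ hq hqN x') := by
  rw [← corcPar_resPar D hq hqN hN x, hanti, ← pd_cst_corc D hq hqN hN pdN pdNq hrc hal,
    ← hanti', hrc, corPar_cstPar]

/-- The product form on `L_N × L_N`. -/
noncomputable def prodForm : (Lat N × Lat N) →ₗ[ℤ] (Lat N × Lat N) →ₗ[ℤ] ℤ :=
  (pdN.compl₁₂ (LinearMap.fst ℤ (Lat N) (Lat N)) (LinearMap.fst ℤ (Lat N) (Lat N))) +
    (pdN.compl₁₂ (LinearMap.snd ℤ (Lat N) (Lat N)) (LinearMap.snd ℤ (Lat N) (Lat N)))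

@[simp] theorem prodForm_apply (x x' : Lat N × Lat N) :
    prodForm pdN x x' = pdN x.1 x'.1 + pdN x.2 x'.2 := rfl

/-- `hB₁` of `H66.levelRaising_support_of_duality`. -/
theorem prodForm_nondeg {p : ℕ}
    (hnd : ∀ x : Lat N, (∀ x', (p : ℤ) ∣ pdN x x') → x ∈ pSub p (Lat N))
    (x : Lat N × Lat N) (h : ∀ x', (p : ℤ) ∣ prodForm pdN x x') :
    x ∈ pSub p (Lat N × Lat N) := by
  have h1 : x.1 ∈ pSub p (Lat N) := hnd x.1 fun a => by
    simpa using h (a, 0)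
  have h2 : x.2 ∈ pSub p (Lat N) := hnd x.2 fun a => by
    simpa using h (0, a)
  obtain ⟨y1, hy1⟩ := mem_pSub.mp h1
  obtain ⟨y2, hy2⟩ := mem_pSub.mp h2
  exact mem_pSub.mpr ⟨(y1, y2), by rw [Prod.smul_mk, hy1, hy2]⟩

/-- `hadj` of `H66.levelRaising_support_of_duality`. -/
theorem prodForm_adj
    (hrc : ∀ x y, pdNq (resPar ℤ ℤ N q x) y = pdN x (corPar ℤ ℤ D hq hqN hN y))
    (hal : ∀ a b, pdNq (atkinLehnerPar ℤ ℤ D hq.ne_zero a) (atkinLehnerPar ℤ ℤ D hq.ne_zero b)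
      = pdNq a b) (x : Lat N × Lat N) (y : Lat (N * q)) :
    pdNq (degAlphaPar ℤ ℤ N hq.ne_zero x) y
      = prodForm pdN x (degBetaPar ℤ ℤ D hq hqN hN y) := by
  rw [degAlphaPar_apply, degBetaPar_apply, map_add, LinearMap.add_apply, hrc,
    pd_cst_corc D hq hqN hN pdN pdNq hrc hal, prodForm_apply]

/-- `hself` of `H66.levelRaising_support_of_duality` for an endomorphism `T` of `L_N` which is
self-adjoint for `pdN`, acting diagonally. -/
theorem prodForm_self (T : Module.End ℤ (Lat N)) (hT : ∀ x x', pdN (T x) x' = pdN x (T x'))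
    (x x' : Lat N × Lat N) :
    prodForm pdN (T x.1, T x.2) x' = prodForm pdN x (T x'.1, T x'.2) := by
  simp only [prodForm_apply, hT]

end Glue

/-! ### Forms transported from the permutation model through a dictionary `Θ` -/

section Theta

open Fermat.Agent.S41.H98

variable {D : Type*} [Fintype D] [DecidableEq D] (σ μ : Equiv.Perm D) (hσ : ∀ x, σ (σ x) = x)
  {L : Type*} [AddCommGroup L] (Θ : L ≃ₗ[ℤ] (permData ℤ σ μ hσ).H)

/-- The form on a lattice `L` identified with `H = Par / Triv` of a permutation model. -/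
noncomputable def pdOf : L →ₗ[ℤ] L →ₗ[ℤ] ℤ :=
  ((permData ℤ σ μ hσ).formQ).compl₁₂ (Θ : L →ₗ[ℤ] _) (Θ : L →ₗ[ℤ] _)

@[simp] theorem pdOf_apply (x y : L) :
    pdOf σ μ hσ Θ x y = (permData ℤ σ μ hσ).formQ (Θ x) (Θ y) := rfl

theorem pdOf_anti (x y : L) : pdOf σ μ hσ Θ x y = - pdOf σ μ hσ Θ y x := by
  rw [pdOf_apply, pdOf_apply, PDData.formQ_antisymm]

/-- **Non-degeneracy modulo every prime.** -/
theorem pdOf_nondeg {p : ℕ} [Fact p.Prime] (x : L)
    (h : ∀ y, (p : ℤ) ∣ pdOf σ μ hσ Θ x y) : x ∈ pSub p L := by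
  obtain ⟨x₁, hx₁⟩ := formQ_nondeg_mod_p σ μ hσ p (Θ x) fun y => by
    have := h (Θ.symm y)
    rwa [pdOf_apply, LinearEquiv.apply_symm_apply] at this
  refine mem_pSub.mpr ⟨Θ.symm x₁, ?_⟩
  apply Θ.injective
  rw [map_smul, LinearEquiv.apply_symm_apply, hx₁]

variable {D' : Type*} [Fintype D'] [DecidableEq D'] (σ' μ' : Equiv.Perm D')
  (hσ' : ∀ x, σ' (σ' x) = x) {L' : Type*} [AddCommGroup L']
  (Θ' : L' ≃ₗ[ℤ] (permData ℤ σ' μ' hσ').H)

/-- **Adjointness transported through the dictionaries**: if `res`/`cor` correspond to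
`pullH`/`pushH` of a `PDMap`, they are adjoint for the transported forms. -/
theorem pdOf_adj (f : PDMap (permData ℤ σ μ hσ) (permData ℤ σ' μ' hσ'))
    (res : L → L') (cor : L' → L)
    (hres : ∀ x, Θ' (res x) = f.pullH (Θ x)) (hcor : ∀ y, Θ (cor y) = f.pushH (Θ' y))
    (x : L) (y : L') :
    pdOf σ' μ' hσ' Θ' (res x) y = pdOf σ μ hσ Θ x (cor y) := by
  rw [pdOf_apply, pdOf_apply, hres, hcor, f.formQ_pullH]

/-- **Invariance under a relabelling**: an operator `w` on `L` corresponding to `pullH` of a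
`PDMap` of the model to itself with `push ∘ pull = id` preserves the transported form. -/
theorem pdOf_invariant (f : PDMap (permData ℤ σ μ hσ) (permData ℤ σ μ hσ))
    (hf : ∀ v, f.push (f.pull v) = v) (w : L → L) (hw : ∀ x, Θ (w x) = f.pullH (Θ x))
    (a b : L) : pdOf σ μ hσ Θ (w a) (w b) = pdOf σ μ hσ Θ a b := by
  rw [pdOf_apply, pdOf_apply, hw, hw,
    f.formQ_pullH_pullH 1 (fun v => by rw [hf, one_smul]), one_mul]

end Theta

end Fermat.Agent.S41.H72
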