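import Mathlib
import Fermat.Agent.S41.H18_PDForm
import Fermat.Agent.S41.H60_PDPair
import Fermat.Agent.S41.H72_PDGlueInt

/-!
# S41 / (P) Poincare duality, route P-tr, PD-GLUE (helper48): the final package

For helper18's intersection form `H18.pd M` on `L_M = parabolicHoms ℤ (Gamma0 M) ℤ`:

* `pd_res_cor`      : `pd (N q) (res x) y = pd N x (cor y)`         (TRANSFER),
* `pd_atkinLehner`  : `pd (N q) (w a) (w b) = pd (N q) a b`         (Theorem T with `δ = W_q`),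
* `pd_cst_corc`     : `pd (N q) (cst x) y = pd N x (corc y)`        (helper72's formal glue),
* `pd_heckeT_self`  : `pd N (T_q x) x' = pd N x (T_q x')`,
* `pd_nondeg`       : non-degeneracy modulo odd `p`, in helper66's `pSub` shape,
* `prodForm_nondeg'`, `prodForm_adj'`, `prodForm_heckeT_self` : the hypotheses `hB₁`, `hadj`,
  `hself` of `H66.levelRaising_support_of_duality` for `B₁ := H72.prodForm (pd N)`,
  `B₂ := pd (N q)`.
-/

set_option autoImplicit false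

open Matrix SpecialLinearGroup OnePoint CongruenceSubgroup ModularForm ModularCurve
  ModularCurve.Period
open scoped MatrixGroups

namespace Fermat.Agent.S41.H48G

open Fermat.Agent.S41 Fermat.Agent.S41.H85 Fermat.Agent.S41.H72 Fermat.Agent.S41.H65

/-! ### Rational lift of the Atkin–Lehner matrix -/

section lifts

variable {N q : ℕ}

/-- The Atkin–Lehner matrix `[[q x, y], [N q, q]]` as an element of `GL(2, ℚ)`. -/
noncomputable def alQ (D : ALData N q) (hq : q ≠ 0) : GL (Fin 2) ℚ :=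
  Matrix.GeneralLinearGroup.mkOfDetNeZero !![((q : ℚ) * D.x), (D.y : ℚ); ((N : ℚ) * q), (q : ℚ)]
    (by
      rw [Matrix.det_fin_two_of]
      have h := congrArg (Int.cast : ℤ → ℚ) D.h
      push_cast at h
      have hq' : (q : ℚ) ≠ 0 := by exact_mod_cast hq
      have : (q : ℚ) * D.x * q - D.y * (N * q) = q := by linear_combination (q : ℚ) * h
      rw [this]
      exact hq')

@[simp] theorem val_alQ (D : ALData N q) (hq : q ≠ 0) :
    ((alQ D hq : GL (Fin 2) ℚ) : Matrix (Fin 2) (Fin 2) ℚ) =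
      !![((q : ℚ) * D.x), (D.y : ℚ); ((N : ℚ) * q), (q : ℚ)] := rfl

theorem det_alQ_pos (D : ALData N q) (hq : q ≠ 0) :
    0 < ((alQ D hq : GL (Fin 2) ℚ) : Matrix (Fin 2) (Fin 2) ℚ).det := by
  rw [val_alQ, Matrix.det_fin_two_of]
  have h := congrArg (Int.cast : ℤ → ℚ) D.h
  push_cast at h
  have : (q : ℚ) * D.x * q - D.y * (N * q) = q := by linear_combination (q : ℚ) * h
  rw [this]
  exact_mod_cast Nat.pos_of_ne_zero hq

theorem castGL_alQ (D : ALData N q) (hq : q ≠ 0) : castGL (alQ D hq) = alGL D hq := by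
  ext i j
  fin_cases i <;> fin_cases j <;> simp [castGL]

/-- `W γ = (W γ W⁻¹) W` in `GL(2, ℚ)`. -/
theorem alQ_mul_glQ (D : ALData N q) (hq : q ≠ 0) (γ : Gamma0 (N * q)) :
    alQ D hq * glQ (N * q) γ = glQ (N * q) (alHom D hq γ) * alQ D hq := by
  apply castGL_injective
  rw [map_mul, map_mul, castGL_alQ, castGL_glQ, castGL_glQ]
  exact alGL_mul_gl_alHom D hq γ

end lifts

/-! ### Primitives of `res`, `w_q`, `cor` -/

section prims

variable {N q : ℕ} {A : Type*} [AddCommGroup A]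

theorem isPrimitive_res {φ : Additive (Gamma0 N) →+ A} {F : OnePoint ℚ → A}
    (h : IsPrimitive (glQ N) φ F) : IsPrimitive (glQ (N * q)) (res A N q φ) F := by
  intro γ s
  rw [res_apply_apply]
  exact h (inclHom N q γ) s

theorem isPrimitive_atkinLehner (D : ALData N q) (hq : q ≠ 0)
    {ψ : Additive (Gamma0 (N * q)) →+ A} {F : OnePoint ℚ → A}
    (h : IsPrimitive (glQ (N * q)) ψ F) :
    IsPrimitive (glQ (N * q)) (atkinLehner A D hq ψ) (fun s => F (alQ D hq • s)) := by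
  intro γ s
  rw [atkinLehner_apply_apply]
  show F (alQ D hq • (glQ (N * q) γ • s)) = _
  rw [← mul_smul, alQ_mul_glQ, mul_smul]
  exact h (alHom D hq γ) (alQ D hq • s)

theorem isPrimitive_cor (D : ALData N q) (hq : q.Prime) (hqN : ¬ q ∣ N) (hN : N ≠ 0)
    {ψ : Additive (Gamma0 (N * q)) →+ A} {F : OnePoint ℚ → A}
    (h : IsPrimitive (glQ (N * q)) ψ F) :
    haveI : NeZero q := ⟨hq.ne_zero⟩
    IsPrimitive (glQ N) (cor A D hq hqN hN ψ)
      (fun s => ∑ x : OnePoint (ZMod q), F (mapGL ℚ ((corRep D x : Gamma0 N) : SL(2, ℤ)) • s)) := by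
  haveI : NeZero q := ⟨hq.ne_zero⟩
  exact h.op ((corDatum D hq hqN hN).descend castGL castGL_injective (glQ (N * q)) (glQ N)
    (castGL_glQ (N * q)) (castGL_glQ N)
    (fun x => mapGL ℚ ((corRep D x : Gamma0 N) : SL(2, ℤ))) (fun x => castGL_mapGL _))

end prims

/-! ### Coset representatives of `Γ₀(N q) \ Γ₀(N)` -/

section reps

variable {N q : ℕ}

theorem existsUnique_corRep (D : ALData N q) (hq : q.Prime) (hqN : ¬ q ∣ N) (hN : N ≠ 0)
    (γ : SL(2, ℤ)) (hγ : γ ∈ Gamma0 N) :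
    haveI : NeZero q := ⟨hq.ne_zero⟩
    ∃! x : OnePoint (ZMod q), γ * ((corRep D x : Gamma0 N) : SL(2, ℤ))⁻¹ ∈ Gamma0 (N * q) := by
  haveI : NeZero q := ⟨hq.ne_zero⟩
  have hred := isReduced_corAlpha D hq hqN hN
  obtain ⟨y, g, hy⟩ := stable_corAlpha D hq hqN ⟨γ, hγ⟩ OnePoint.infty
  have h1 : γ = (g : SL(2, ℤ)) * ((corRep D y : Gamma0 N) : SL(2, ℤ)) := by
    simp only [corAlpha, corRep_infty, map_one, one_mul] at hy
    rw [gl_apply, gl_apply, gl_apply, ← map_mul] at hy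
    exact mapGL_injective hy
  refine ⟨y, ?_, fun y' hy' => ?_⟩
  · show γ * ((corRep D y : Gamma0 N) : SL(2, ℤ))⁻¹ ∈ Gamma0 (N * q)
    rw [h1, mul_inv_cancel_right]
    exact g.2
  · have hy'' : γ * ((corRep D y' : Gamma0 N) : SL(2, ℤ))⁻¹ ∈ Gamma0 (N * q) := hy'
    set g' : Gamma0 (N * q) := ⟨_, hy''⟩ with hg'
    have h2 : γ = (g' : SL(2, ℤ)) * ((corRep D y' : Gamma0 N) : SL(2, ℤ)) := by
      rw [hg']
      simp
    -- `g⁻¹ g' r_{y'} = r_y`
    have h3 : gl (N * q) (g⁻¹ * g') * corAlpha D y' = corAlpha D y := by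
      simp only [corAlpha]
      rw [gl_apply, gl_apply, gl_apply, ← map_mul]
      congr 1
      have : ((g⁻¹ * g' : Gamma0 (N * q)) : SL(2, ℤ))
          = (g : SL(2, ℤ))⁻¹ * (g' : SL(2, ℤ)) := rfl
      rw [this, mul_assoc, ← h2, h1, inv_mul_cancel_left]
    exact hred.distinct y' y _ h3

end reps

/-! ### The two adjointness relations -/

section adjoint

variable {N q : ℕ} [NeZero N] [NeZero (N * q)]

attribute [local instance] H18.fintypeQuotGamma0

/-- **`(res, cor)`-adjointness** of the intersection forms. -/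
theorem pd_res_cor (D : ALData N q) (hq : q.Prime) (hqN : ¬ q ∣ N) (hN : N ≠ 0)
    (x : Lat N) (y : Lat (N * q)) :
    H18.pd (N * q) (resPar ℤ ℤ N q x) y = H18.pd N x (corPar ℤ ℤ D hq hqN hN y) := by
  haveI : NeZero q := ⟨hq.ne_zero⟩
  have hFx := H18.prim_spec x
  have hFy := H18.prim_spec y
  have hL := H18.three_mul_pd_eq_tr (H18.fintypeQuotGamma0 (N * q))
    (φ := resPar ℤ ℤ N q x) (ψ := y) (isPrimitive_res (q := q) hFx) hFy
  have hR := H18.three_mul_pd_eq_tr (H18.fintypeQuotGamma0 N)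
    (φ := x) (ψ := corPar ℤ ℤ D hq hqN hN y) hFx (isPrimitive_cor D hq hqN hN hFy)
  have hT := H46.fareyData.pairQ_transfer (Gamma0 (N * q)) (Gamma0 N) (gamma0_mul_le N q)
    (fun x : OnePoint (ZMod q) => ((corRep D x : Gamma0 N) : SL(2, ℤ)))
    (fun x => (corRep D x).2)
    (fun γ hγ => existsUnique_corRep D hq hqN hN γ hγ)
    (H18.isCuspPrimitive_of_isPrimitive hFx) (H18.isCuspPrimitive_of_isPrimitive hFy)
  have h3 : (3 : ℚ) * (H18.pd (N * q) (resPar ℤ ℤ N q x) y : ℚ)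
      = (3 : ℚ) * (H18.pd N x (corPar ℤ ℤ D hq hqN hN y) : ℚ) := by
    rw [hL, hR]
    exact hT.symm
  have h4 : ((H18.pd (N * q) (resPar ℤ ℤ N q x) y : ℤ) : ℚ)
      = ((H18.pd N x (corPar ℤ ℤ D hq hqN hN y) : ℤ) : ℚ) :=
    mul_left_cancel₀ (by norm_num) h3
  exact_mod_cast h4

omit [NeZero N] in
/-- **Atkin–Lehner invariance** of the intersection form at level `N q`. -/
theorem pd_atkinLehner (D : ALData N q) (hq : q ≠ 0) (a b : Lat (N * q)) :
    H18.pd (N * q) (atkinLehnerPar ℤ ℤ D hq a) (atkinLehnerPar ℤ ℤ D hq b)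
      = H18.pd (N * q) a b := by
  have hFa := H18.prim_spec a
  have hFb := H18.prim_spec b
  have hL := H18.three_mul_pd_eq_tr (H18.fintypeQuotGamma0 (N * q))
    (φ := atkinLehnerPar ℤ ℤ D hq a) (ψ := atkinLehnerPar ℤ ℤ D hq b)
    (isPrimitive_atkinLehner D hq hFa) (isPrimitive_atkinLehner D hq hFb)
  have hR := H18.three_mul_pd_eq_tr (H18.fintypeQuotGamma0 (N * q)) (φ := a) (ψ := b) hFa hFb
  have hT := H46.fareyData.pairQ_pullback (Gamma0 (N * q)) (Gamma0 (N * q))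
    (H46.fareyData_hasPrim ℚ) H46.fareyData_closure H46.fareyData_trans
    (H18.neg_one_mem_Gamma0 (N * q)) H46.fareyData_isOrientation
    (fun s => alQ D hq • s) (H46.orQ_smul_of_det_pos (alQ D hq) (det_alQ_pos D hq))
    (fun γ' hγ' => by
      refine ⟨((alHom D hq ⟨γ', hγ'⟩ : Gamma0 (N * q)) : SL(2, ℤ)), (alHom D hq ⟨γ', hγ'⟩).2,
        fun s => ?_⟩
      show alQ D hq • (glQ (N * q) ⟨γ', hγ'⟩ • s)
        = glQ (N * q) (alHom D hq ⟨γ', hγ'⟩) • (alQ D hq • s)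
      rw [← mul_smul, alQ_mul_glQ, mul_smul])
    (H18.isCuspPrimitive_of_isPrimitive hFa) (H18.isCuspPrimitive_of_isPrimitive hFb)
  have hne : (Fintype.card (SL(2, ℤ) ⧸ Gamma0 (N * q)) : ℚ) ≠ 0 := by
    have : 0 < Fintype.card (SL(2, ℤ) ⧸ Gamma0 (N * q)) := Fintype.card_pos
    exact_mod_cast this.ne'
  have hT' := mul_right_cancel₀ hne hT
  have h3 : (3 : ℚ) * (H18.pd (N * q) (atkinLehnerPar ℤ ℤ D hq a)
      (atkinLehnerPar ℤ ℤ D hq b) : ℚ) = (3 : ℚ) * (H18.pd (N * q) a b : ℚ) := by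
    rw [hL, hR]
    exact hT'
  have h4 := mul_left_cancel₀ (by norm_num : (3 : ℚ) ≠ 0) h3
  exact_mod_cast h4

/-- **`(cst, corc)`-adjointness** of the intersection forms. -/
theorem pd_cst_corc (D : ALData N q) (hq : q.Prime) (hqN : ¬ q ∣ N) (hN : N ≠ 0)
    (x : Lat N) (y : Lat (N * q)) :
    H18.pd (N * q) (cstPar ℤ ℤ N hq.ne_zero x) y = H18.pd N x (corcPar ℤ ℤ D hq hqN hN y) :=
  H72.pd_cst_corc D hq hqN hN (H18.pd N) (H18.pd (N * q)) (pd_res_cor D hq hqN hN)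
    (pd_atkinLehner D hq.ne_zero) x y

omit [NeZero (N * q)] in
/-- **Non-degeneracy modulo an odd prime**, in helper66's shape. -/
theorem pd_nondeg {p : ℕ} (hp : p.Prime) (hp2 : p ≠ 2) (x : Lat N)
    (h : ∀ y : Lat N, (p : ℤ) ∣ H18.pd N x y) : x ∈ H66.pSub p (Lat N) :=
  H66.mem_pSub.mpr (H18.pd_nondeg hp hp2 x h)

omit [NeZero (N * q)] in
/-- `hB₁` of `H66.levelRaising_support_of_duality` for `B₁ := H72.prodForm (H18.pd N)`. -/
theorem prodForm_nondeg' {p : ℕ} (hp : p.Prime) (hp2 : p ≠ 2) (x : Lat N × Lat N)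
    (h : ∀ x', (p : ℤ) ∣ H72.prodForm (H18.pd N) x x') : x ∈ H66.pSub p (Lat N × Lat N) :=
  H72.prodForm_nondeg (H18.pd N) (fun x hx => pd_nondeg hp hp2 x hx) x h

/-- `hadj` of `H66.levelRaising_support_of_duality` for `B₁ := H72.prodForm (H18.pd N)`,
`B₂ := H18.pd (N q)`, `α := degAlphaPar`, `β := degBetaPar`. -/
theorem prodForm_adj' (D : ALData N q) (hq : q.Prime) (hqN : ¬ q ∣ N) (hN : N ≠ 0)
    (x : Lat N × Lat N) (y : Lat (N * q)) :
    H18.pd (N * q) (degAlphaPar ℤ ℤ N hq.ne_zero x) y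
      = H72.prodForm (H18.pd N) x (degBetaPar ℤ ℤ D hq hqN hN y) :=
  H72.prodForm_adj D hq hqN hN (H18.pd N) (H18.pd (N * q)) (pd_res_cor D hq hqN hN)
    (pd_atkinLehner D hq.ne_zero) x y

end adjoint

/-- **Self-adjointness of `T_q` on `L_N`** (`q` any prime not dividing `N`). -/
theorem pd_heckeT_self {N q : ℕ} [NeZero N] (hq : q.Prime) (hqN : ¬ q ∣ N) (x x' : Lat N) :
    H18.pd N (heckeTPar ℤ ℤ hq hqN x) x' = H18.pd N x (heckeTPar ℤ ℤ hq hqN x') := by
  haveI : NeZero (N * q) := ⟨Nat.mul_ne_zero (NeZero.ne N) hq.ne_zero⟩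
  obtain ⟨D⟩ := nonempty_alData (N := N) (q := q)
    ((Nat.Prime.coprime_iff_not_dvd hq).mpr hqN)
  exact H72.pd_heckeT_self D hq hqN (NeZero.ne N) (H18.pd N) (H18.pd (N * q))
    (pd_res_cor D hq hqN (NeZero.ne N)) (pd_atkinLehner D hq.ne_zero) H18.pd_antisymm
    H18.pd_antisymm x x'

/-- `hself` of `H66.levelRaising_support_of_duality` for the diagonal action of `T_ℓ` on
`L_N × L_N` (`ℓ` any prime not dividing `N`). -/
theorem prodForm_heckeT_self {N ℓ : ℕ} [NeZero N] (hℓ : ℓ.Prime) (hℓN : ¬ ℓ ∣ N)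
    (x x' : Lat N × Lat N) :
    H72.prodForm (H18.pd N) (heckeTPar ℤ ℤ hℓ hℓN x.1, heckeTPar ℤ ℤ hℓ hℓN x.2) x'
      = H72.prodForm (H18.pd N) x (heckeTPar ℤ ℤ hℓ hℓN x'.1, heckeTPar ℤ ℤ hℓ hℓN x'.2) := by
  exact H72.prodForm_self (H18.pd N) (heckeTPar ℤ ℤ hℓ hℓN)
    (pd_heckeT_self hℓ hℓN) x x'

end Fermat.Agent.S41.H48G
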