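/-
S41 / I-IHARA-assembly (helper49).

**Ihara's lemma (integral form, modulo the congruence subgroup property).**

Let `q` be a prime not dividing `N`, `p` a prime.  Assume the congruence subgroup property
in the abelianised form `CspAb N q p`: every homomorphism
`Γ₀(N)[1/q] → ℤ/p` kills (the image of) `Γ(p N)`.  Let `φ₁ φ₂ : Γ₀(N) → ℤ` be homomorphisms with
`res φ₁ + cst φ₂ ≡ 0 mod p` on `Γ₀(N q)`.  Then for every prime `ℓ ∤ p N`
`T_ℓ φᵢ - (ℓ + 1) φᵢ ≡ 0 mod p` (`i = 1, 2`).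

Route: the reductions `φ̄₁`, `-φ̄₂` glue to `Φ : Γ₀(N)[1/q] → ℤ/p` (helper58's amalgam,
`H58.glue_gamma_add`); `Φ` and its `diag(q,1)`-twist kill `Γ(p N)` by `CspAb`; hence `φ̄₁`, `φ̄₂`
are congruence characters of level `p N`, which are Eisenstein (`H49_EisGamma0`).

* `CspAb N q p` : the consumed shape of (D) (= helper38's `csp_ab`).
* `ihara_hom` : the statement on `Hom(Γ₀(N), ℤ)`.
* `exists_smul_eq_of_forall_dvd`, `mem_pSub_parabolicHoms_of_forall_dvd` : pointwise divisible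
  (parabolic) homs are divisible.
* `ihara_parabolic` : the statement on `L_N = parabolicHoms ℤ (Gamma0 N) ℤ`, in helper66's
  `pSub` vocabulary.
-/
import Mathlib
import Fermat.Agent.S41.H49_EisGamma0
import Fermat.Agent.S41.H58_Generation
import Fermat.Agent.S41.H65_DegIdentities
import Fermat.Agent.S41.H66_LevelRaisingAlgebra

set_option autoImplicit false

open CongruenceSubgroup Matrix.SpecialLinearGroup ModularForm
open scoped MatrixGroups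
open P2MW.S_ModularForm_heckeT_slash_eq_self_of_mem_Gamma0.ModularForm.HeckeSlashInvariance
open ModularCurve.Period

namespace Fermat.Agent.S41.H49

open Fermat.Agent.S41

/-- The congruence subgroup property for `Γ₀(N)[1/q]`, abelianised and with `ℤ/p`
coefficients: every character `Γ₀(N)[1/q] → ℤ/p` kills `Γ(p N)`.  (Shape of helper38's
`csp_ab`.) -/
def CspAb (N q p : ℕ) [Fact q.Prime] : Prop :=
  ∀ (Φ : ↥(H58.Delta N q) →* Multiplicative (ZMod p)) (γ : SL(2, ℤ)), γ ∈ Gamma (p * N) →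
    ∀ hγ : H58.castQ γ ∈ H58.Delta N q, Φ ⟨H58.castQ γ, hγ⟩ = 1

section twist

variable {N q : ℕ} [hq : Fact q.Prime]

/-- Conjugation by `diag(1, q)` as an endomorphism of `Γ₀(N)[1/q]`. -/
def twistDelta (hNq : Nat.Coprime N q) : ↥(H58.Delta N q) →* ↥(H58.Delta N q) where
  toFun g := ⟨H58.twistMat q (H58.q_ne_zero q) g.1, (H58.twist_mem_Delta_iff hNq).mpr g.2⟩
  map_one' := Subtype.ext (map_one (H58.twistEquiv q (H58.q_ne_zero q)))
  map_mul' a b := Subtype.ext (map_mul (H58.twistEquiv q (H58.q_ne_zero q)) a.1 b.1)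

theorem twistDelta_iota (hNq : Nat.Coprime N q) (γ : Gamma0 N) :
    twistDelta hNq (H58.iota N q γ) = H58.iota' N q γ := rfl

end twist

section gamma

theorem Gamma_le_Gamma0_of_dvd {N M : ℕ} (h : N ∣ M) : Gamma M ≤ Gamma0 N := by
  intro γ hγ
  rw [Gamma_mem] at hγ
  rw [Gamma0_mem]
  obtain ⟨k, rfl⟩ := h
  have h10 := hγ.2.2.1
  rw [ZMod.intCast_zmod_eq_zero_iff_dvd] at h10 ⊢
  exact dvd_trans ⟨(k : ℤ), by push_cast; ring⟩ h10

end gamma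

section divisible

variable {Γ : Type*} [Group Γ]

/-- A pointwise `p`-divisible homomorphism to `ℤ` is `p` times a homomorphism. -/
theorem exists_smul_eq_of_forall_dvd {p : ℕ} (hp : p ≠ 0) (y : Additive Γ →+ ℤ)
    (h : ∀ γ : Γ, (p : ℤ) ∣ y (Additive.ofMul γ)) :
    ∃ y' : Additive Γ →+ ℤ, (p : ℤ) • y' = y ∧ ∀ γ : Γ, (p : ℤ) * y' (Additive.ofMul γ) =
      y (Additive.ofMul γ) := by
  have hp' : (p : ℤ) ≠ 0 := by exact_mod_cast hp
  have hdiv : ∀ a : Additive Γ, (p : ℤ) * (y a / (p : ℤ)) = y a := fun a =>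
    Int.mul_ediv_cancel' (h (Additive.toMul a))
  refine ⟨{ toFun := fun a => y a / (p : ℤ), map_zero' := by simp, map_add' := ?_ }, ?_, ?_⟩
  · intro a b
    apply mul_left_cancel₀ hp'
    rw [mul_add, hdiv, hdiv, hdiv, map_add]
  · refine AddMonoidHom.ext fun a => ?_
    show (p : ℤ) • (y a / (p : ℤ)) = y a
    rw [smul_eq_mul, hdiv]
  · intro γ
    exact hdiv _

end divisible

section parabolicDiv

variable {Γ : Subgroup SL(2, ℤ)}

/-- A pointwise `p`-divisible parabolic homomorphism lies in `p L`. -/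
theorem mem_pSub_parabolicHoms_of_forall_dvd {p : ℕ} (hp : p ≠ 0)
    (y : parabolicHoms ℤ Γ ℤ)
    (h : ∀ γ : Γ, (p : ℤ) ∣ (y : Additive Γ →+ ℤ) (Additive.ofMul γ)) :
    y ∈ H66.pSub p (parabolicHoms ℤ Γ ℤ) := by
  obtain ⟨y', hy', hval⟩ := exists_smul_eq_of_forall_dvd hp (y : Additive Γ →+ ℤ) h
  have hp' : (p : ℤ) ≠ 0 := by exact_mod_cast hp
  have hpar : y' ∈ parabolicHoms ℤ Γ ℤ := by
    rw [mem_parabolicHoms_iff]
    intro γ hγ
    have h1 := (mem_parabolicHoms_iff.mp y.2) γ hγ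
    have h2 := hval γ
    rw [h1] at h2
    exact (mul_eq_zero.mp h2).resolve_left hp'
  rw [H66.mem_pSub]
  refine ⟨⟨y', hpar⟩, ?_⟩
  apply Subtype.ext
  exact hy'

/-- Conversely, elements of `p L` are pointwise divisible. -/
theorem forall_dvd_of_mem_pSub {p : ℕ} {y : parabolicHoms ℤ Γ ℤ}
    (h : y ∈ H66.pSub p (parabolicHoms ℤ Γ ℤ)) (γ : Γ) :
    (p : ℤ) ∣ (y : Additive Γ →+ ℤ) (Additive.ofMul γ) := by
  obtain ⟨y', rfl⟩ := H66.mem_pSub.mp h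
  refine ⟨(y' : Additive Γ →+ ℤ) (Additive.ofMul γ), ?_⟩
  show ((p : ℤ) • (y' : Additive Γ →+ ℤ)) (Additive.ofMul γ) = _
  rw [AddMonoidHom.smul_apply, smul_eq_mul]

end parabolicDiv

section ihara

variable {N q p ℓ : ℕ} [hq : Fact q.Prime] [hp : Fact p.Prime]

/-- Reduction mod `p` of an integral homomorphism. -/
noncomputable def redHom {Γ : Type*} [Group Γ] (p : ℕ) (φ : Additive Γ →+ ℤ) :
    Additive Γ →+ ZMod p :=
  (Int.castAddHom (ZMod p)).comp φ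

@[simp] theorem redHom_apply {Γ : Type*} [Group Γ] (p : ℕ) (φ : Additive Γ →+ ℤ)
    (a : Additive Γ) : redHom p φ a = ((φ a : ℤ) : ZMod p) := rfl

/-- The glued character on `Γ₀(N)[1/q]`. -/
theorem exists_glued (hNq : Nat.Coprime N q) (φ₁ φ₂ : Additive (Gamma0 N) →+ ℤ)
    (h : ∀ γ : Gamma0 (N * q), (p : ℤ) ∣
      (H65.res ℤ N q φ₁ + H65.cst ℤ N hq.out.ne_zero φ₂) (Additive.ofMul γ)) :
    ∃ Φ : Additive ↥(H58.Delta N q) →+ ZMod p,
      (∀ γ : Gamma0 N, Φ (Additive.ofMul (H58.iota N q γ)) = redHom p φ₁ (Additive.ofMul γ)) ∧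
      (∀ γ : Gamma0 N, Φ (Additive.ofMul (H58.iota' N q γ)) =
        - redHom p φ₂ (Additive.ofMul γ)) := by
  have hq0 : q ≠ 0 := hq.out.ne_zero
  have hq0' : (q : ℤ) ≠ 0 := by exact_mod_cast hq0
  obtain ⟨Φ, ⟨h1, h2⟩, -⟩ := H58.glue_gamma_add (N := N) (q := q) hNq (redHom p φ₁)
    (- redHom p φ₂) (by
      intro γ₁ γ₂ hγ
      obtain ⟨h00, h01, h10, h11⟩ := H58.castQ_eq_twist_iff.mp hγ
      -- `γ₁ ∈ Γ₀(N q)` and `γ₂ = cHom γ₁`
      have hmem : (γ₁ : SL(2, ℤ)) ∈ Gamma0 (N * q) := by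
        rw [H72.mem_Gamma0_iff_dvd]
        obtain ⟨c, hc⟩ := H72.mem_Gamma0_iff_dvd.mp γ₂.2
        refine ⟨c, ?_⟩
        have h10' : (γ₁ : SL(2, ℤ)).1 1 0 = (q : ℤ) * (γ₂ : SL(2, ℤ)).1 1 0 := h10
        have hc' : (γ₂ : SL(2, ℤ)).1 1 0 = (N : ℤ) * c := hc
        show (γ₁ : SL(2, ℤ)).1 1 0 = ((N * q : ℕ) : ℤ) * c
        rw [h10', hc']
        push_cast
        ring
      have hc : H65.cHom hq0 ⟨(γ₁ : SL(2, ℤ)), hmem⟩ = γ₂ := by
        apply Subtype.ext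
        apply Matrix.SpecialLinearGroup.ext
        intro i j
        have hM := H65.cHom_coe_apply (N := N) hq0 ⟨(γ₁ : SL(2, ℤ)), hmem⟩
        have hdiv : (γ₁ : SL(2, ℤ)).1 1 0 / (q : ℤ) = (γ₂ : SL(2, ℤ)).1 1 0 := by
          have h10' : (γ₁ : SL(2, ℤ)).1 1 0 = (q : ℤ) * (γ₂ : SL(2, ℤ)).1 1 0 := h10
          rw [h10', Int.mul_ediv_cancel_left _ hq0']
        show (((H65.cHom hq0 ⟨(γ₁ : SL(2, ℤ)), hmem⟩ : Gamma0 N) : SL(2, ℤ)) :
          Matrix (Fin 2) (Fin 2) ℤ) i j = _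
        rw [hM]
        fin_cases i <;> fin_cases j
        · exact h00
        · exact h01
        · exact hdiv
        · exact h11
      have hγ' := h ⟨(γ₁ : SL(2, ℤ)), hmem⟩
      rw [AddMonoidHom.add_apply, H65.res_apply_apply, H65.cst_apply_apply, hc] at hγ'
      have hincl : H65.inclHom N q ⟨(γ₁ : SL(2, ℤ)), hmem⟩ = γ₁ := Subtype.ext rfl
      rw [hincl] at hγ'
      have hz : ((φ₁ (Additive.ofMul γ₁) + φ₂ (Additive.ofMul γ₂) : ℤ) : ZMod p) = 0 :=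
        (ZMod.intCast_zmod_eq_zero_iff_dvd _ p).mpr hγ'
      push_cast at hz
      show ((φ₁ (Additive.ofMul γ₁) : ℤ) : ZMod p) = - ((φ₂ (Additive.ofMul γ₂) : ℤ) : ZMod p)
      exact eq_neg_of_add_eq_zero_left hz)
  exact ⟨Φ, h1, fun γ => by rw [h2]; rfl⟩

/-- Both reductions are congruence characters of level `p N`. -/
theorem redHom_kills_Gamma (hNq : Nat.Coprime N q) (hcsp : CspAb N q p)
    (φ₁ φ₂ : Additive (Gamma0 N) →+ ℤ)
    (h : ∀ γ : Gamma0 (N * q), (p : ℤ) ∣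
      (H65.res ℤ N q φ₁ + H65.cst ℤ N hq.out.ne_zero φ₂) (Additive.ofMul γ)) :
    (∀ γ : Gamma0 N, (γ : SL(2, ℤ)) ∈ Gamma (p * N) → redHom p φ₁ (Additive.ofMul γ) = 0) ∧
    (∀ γ : Gamma0 N, (γ : SL(2, ℤ)) ∈ Gamma (p * N) → redHom p φ₂ (Additive.ofMul γ) = 0) := by
  obtain ⟨Φ, h1, h2⟩ := exists_glued hNq φ₁ φ₂ h
  let Φm : ↥(H58.Delta N q) →* Multiplicative (ZMod p) := AddMonoidHom.toMultiplicativeRight Φ
  have hΦm : ∀ g, Φm g = Multiplicative.ofAdd (Φ (Additive.ofMul g)) := fun g => rfl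
  constructor
  · intro γ hγ
    have := hcsp Φm (γ : SL(2, ℤ)) hγ (H58.iota N q γ).2
    rw [hΦm] at this
    have h3 : Φ (Additive.ofMul (H58.iota N q γ)) = 0 := by
      have h4 := congrArg Multiplicative.toAdd this
      exact h4
    rw [← h1, h3]
  · intro γ hγ
    have := hcsp (Φm.comp (twistDelta hNq)) (γ : SL(2, ℤ)) hγ (H58.iota N q γ).2
    have h3 : Φ (Additive.ofMul (H58.iota' N q γ)) = 0 := by
      have h4 := congrArg Multiplicative.toAdd this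
      exact h4
    have h5 := h2 γ
    rw [h3] at h5
    exact neg_eq_zero.mp h5.symm

/-- **Ihara's lemma, integral form on `Hom(Γ₀(N), ℤ)`** (modulo `CspAb`). -/
theorem ihara_hom [NeZero N] (hNq : Nat.Coprime N q) (hcsp : CspAb N q p)
    (hℓ : ℓ.Prime) (hℓN : ¬ ℓ ∣ N) (hℓp : ℓ ≠ p)
    (φ₁ φ₂ : Additive (Gamma0 N) →+ ℤ)
    (h : ∀ γ : Gamma0 (N * q), (p : ℤ) ∣
      (H65.res ℤ N q φ₁ + H65.cst ℤ N hq.out.ne_zero φ₂) (Additive.ofMul γ)) :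
    (∀ γ : Gamma0 N, (p : ℤ) ∣
      (H85.heckeTHom ℤ hℓ hℓN φ₁ - (ℓ + 1) • φ₁) (Additive.ofMul γ)) ∧
    (∀ γ : Gamma0 N, (p : ℤ) ∣
      (H85.heckeTHom ℤ hℓ hℓN φ₂ - (ℓ + 1) • φ₂) (Additive.ofMul γ)) := by
  have : NeZero (p * N) := ⟨Nat.mul_ne_zero hp.out.ne_zero (NeZero.ne N)⟩
  have hℓM : ℓ.Coprime (p * N) := by
    apply Nat.Coprime.mul_right
    · exact (Nat.coprime_primes hℓ hp.out).mpr hℓp
    · exact (Nat.Prime.coprime_iff_not_dvd hℓ).mpr hℓN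
  obtain ⟨k1, k2⟩ := redHom_kills_Gamma hNq hcsp φ₁ φ₂ h
  have key : ∀ φ : Additive (Gamma0 N) →+ ℤ,
      (∀ γ : Gamma0 N, (γ : SL(2, ℤ)) ∈ Gamma (p * N) → redHom p φ (Additive.ofMul γ) = 0) →
      ∀ γ : Gamma0 N, (p : ℤ) ∣
        (H85.heckeTHom ℤ hℓ hℓN φ - (ℓ + 1) • φ) (Additive.ofMul γ) := by
    intro φ hφ γ
    have hE := heckeTHom_eq_nsmul_of_kills_Gamma (N := N) (M := p * N) hℓ hℓN hℓM
      (redHom p φ) hφ
    have : Fact ℓ.Prime := ⟨hℓ⟩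
    have hnat : H85.heckeTHom (ZMod p) hℓ hℓN (redHom p φ)
        = (Int.castAddHom (ZMod p)).comp (H85.heckeTHom ℤ hℓ hℓN φ) :=
      H65.op_comp_coeff (H85.heckeTDatum N ℓ hℓN) (Int.castAddHom (ZMod p)) φ
    rw [hnat] at hE
    have hE' := DFunLike.congr_fun hE (Additive.ofMul γ)
    rw [← ZMod.intCast_zmod_eq_zero_iff_dvd]
    rw [AddMonoidHom.sub_apply, AddMonoidHom.smul_apply]
    push_cast
    rw [sub_eq_zero]
    simpa using hE'
  exact ⟨key φ₁ k1, key φ₂ k2⟩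

/-- **Ihara's lemma on `L_N × L_N`** (`L_N = parabolicHoms ℤ (Gamma0 N) ℤ`), in helper66's `pSub`
vocabulary: if `res x₁ + cst x₂ ∈ p L_{Nq}` then `(T_ℓ - (ℓ+1)) xᵢ ∈ p L_N`. -/
theorem ihara_parabolic [NeZero N] (hNq : Nat.Coprime N q) (hcsp : CspAb N q p)
    (hℓ : ℓ.Prime) (hℓN : ¬ ℓ ∣ N) (hℓp : ℓ ≠ p)
    (x₁ x₂ : parabolicHoms ℤ (Gamma0 N) ℤ)
    (h : ∀ γ : Gamma0 (N * q), (p : ℤ) ∣
      (H65.res ℤ N q (x₁ : Additive (Gamma0 N) →+ ℤ) +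
        H65.cst ℤ N hq.out.ne_zero (x₂ : Additive (Gamma0 N) →+ ℤ)) (Additive.ofMul γ)) :
    H85.heckeTPar ℤ ℤ hℓ hℓN x₁ - ((ℓ : ℤ) + 1) • x₁ ∈ H66.pSub p (parabolicHoms ℤ (Gamma0 N) ℤ) ∧
    H85.heckeTPar ℤ ℤ hℓ hℓN x₂ - ((ℓ : ℤ) + 1) • x₂ ∈
      H66.pSub p (parabolicHoms ℤ (Gamma0 N) ℤ) := by
  obtain ⟨k1, k2⟩ := ihara_hom hNq hcsp hℓ hℓN hℓp (x₁ : Additive (Gamma0 N) →+ ℤ)
    (x₂ : Additive (Gamma0 N) →+ ℤ) h
  have conv : ∀ x : parabolicHoms ℤ (Gamma0 N) ℤ,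
      ((H85.heckeTPar ℤ ℤ hℓ hℓN x - ((ℓ : ℤ) + 1) • x : parabolicHoms ℤ (Gamma0 N) ℤ) :
        Additive (Gamma0 N) →+ ℤ)
      = H85.heckeTHom ℤ hℓ hℓN (x : Additive (Gamma0 N) →+ ℤ) -
          (ℓ + 1) • (x : Additive (Gamma0 N) →+ ℤ) := by
    intro x
    rw [Submodule.coe_sub, Submodule.coe_smul, H85.coe_heckeTPar_apply]
    congr 1
  constructor
  · apply mem_pSub_parabolicHoms_of_forall_dvd hp.out.ne_zero
    intro γ
    rw [conv]
    exact k1 γ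
  · apply mem_pSub_parabolicHoms_of_forall_dvd hp.out.ne_zero
    intro γ
    rw [conv]
    exact k2 γ

end ihara

end Fermat.Agent.S41.H49
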