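import Mathlib
import Fermat.Prelude.Def_CuspForm_HeckeAlgebra
import Fermat.Prelude.Def_CuspForm_HeckeEvalForms
import Fermat.Prelude.Def_FLTPrelim_Modularity
import Fermat.Agent.S22.Final
import Fermat.Agent.S23.H70_FiniteDim
import Fermat.Agent.S49.H70_Algebra
import Fermat.Agent.S49.H90_Normalize
import Fermat.Agent.S41.H72_AtkinLehnerHecke

/-!
# S41 endgame (package G): from a character supported on the `q`-new space to the conclusion

* `exists_lift_over`: abstract lying-over + eigenvector lemma.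
* `exists_newAt_eigenform_of_character`: if a character `χ : 𝕋 → k` of a commutative ring `𝕋`
  acting through the full Hecke algebra of level `N*q` is "supported on the `q`-new space"
  (every `t` killing `qNew` has `χ t = 0`), then there is a normalised eigenform `g` of level
  `N*q`, new at `q`, whose eigencharacter reduces to `χ` modulo a maximal ideal of `ℤ̄`.
* `exists_levelRaised_eigenform`: the same in the literal vocabulary of the conclusion of S41.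
-/

set_option autoImplicit false

open CongruenceSubgroup ModularFormClass UpperHalfPlane

namespace Fermat.Agent.S41.H72

section Algebra

variable {V : Type*} [AddCommGroup V] [Module ℂ V] [FiniteDimensional ℂ V]
  {A : Type*} [CommRing A] {𝕋 : Type*} [CommRing 𝕋]

/-- Lying-over form of `S49.H70.exists_lift`: the character `χ` lives on a ring `𝕋` mapping to
the (bigger) commutative ring `A` acting on `V`; the eigenvector is an eigenvector for all of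
`A`. -/
theorem exists_lift_over (ρ : A →+* Module.End ℂ V) (hint : ∀ a, IsIntegral ℤ (ρ a))
    (φ : 𝕋 →+* A) {k : Type*} [Field k] (χ : 𝕋 →+* k) (hχ : Function.Surjective χ)
    (hker : ∀ t, ρ (φ t) = 0 → χ t = 0) :
    ∃ (v : V) (lam : A →+* integralClosure ℤ ℂ) (𝔪 : Ideal (integralClosure ℤ ℂ)),
      v ≠ 0 ∧ (∀ a, ρ a v = (lam a : ℂ) • v) ∧ 𝔪.IsMaximal ∧
        𝔪.comap (lam.comp φ) = RingHom.ker χ := by
  have hmaxχ : (RingHom.ker χ).IsMaximal := RingHom.ker_isMaximal_of_surjective χ hχ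
  let ρB : A ⧸ RingHom.ker ρ →+* Module.End ℂ V := RingHom.kerLift ρ
  have hρB : Function.Injective ρB := RingHom.kerLift_injective ρ
  have hρBmk : ∀ a, ρB (Ideal.Quotient.mk _ a) = ρ a := fun a => RingHom.kerLift_mk ρ a
  let ψ : 𝕋 →+* A ⧸ RingHom.ker ρ := (Ideal.Quotient.mk _).comp φ
  let _ : Algebra 𝕋 (A ⧸ RingHom.ker ρ) := ψ.toAlgebra
  have hintB : ∀ b : A ⧸ RingHom.ker ρ, IsIntegral ℤ b := by
    intro b
    obtain ⟨a, rfl⟩ := Ideal.Quotient.mk_surjective b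
    have h1 : IsIntegral ℤ (ρB (Ideal.Quotient.mk _ a)) := by rw [hρBmk]; exact hint a
    exact (isIntegral_algHom_iff (ρB.toIntAlgHom) hρB).mp h1
  have : Algebra.IsIntegral 𝕋 (A ⧸ RingHom.ker ρ) := ⟨fun b => (hintB b).tower_top⟩
  have hker' : RingHom.ker (algebraMap 𝕋 (A ⧸ RingHom.ker ρ)) ≤ RingHom.ker χ := by
    intro t ht
    rw [RingHom.mem_ker] at ht ⊢
    apply hker
    have h2 : Ideal.Quotient.mk (RingHom.ker ρ) (φ t) = 0 := ht
    rw [← hρBmk, h2, map_zero]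
  obtain ⟨Q, hQmax, hQ⟩ := Ideal.exists_ideal_over_maximal_of_isIntegral
    (S := A ⧸ RingHom.ker ρ) (RingHom.ker χ) hker'
  let _ : Field ((A ⧸ RingHom.ker ρ) ⧸ Q) := Ideal.Quotient.field Q
  obtain ⟨v, lamB, 𝔪, hv, heig, h𝔪max, h𝔪⟩ :=
    Fermat.Agent.S49.H70.exists_lift ρB (fun b => by
        obtain ⟨a, rfl⟩ := Ideal.Quotient.mk_surjective b
        rw [hρBmk]; exact hint a)
      (Ideal.Quotient.mk Q) Ideal.Quotient.mk_surjective (by
        intro b hb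
        rw [RingHom.mem_ker] at hb
        have : b = 0 := hρB (by rw [hb, map_zero])
        rw [this]; exact Ideal.zero_mem _)
  rw [Ideal.mk_ker] at h𝔪
  refine ⟨v, lamB.comp (Ideal.Quotient.mk _), 𝔪, hv, fun a => ?_, h𝔪max, ?_⟩
  · rw [← hρBmk, heig]; rfl
  · rw [← hQ, ← h𝔪]
    rfl

end Algebra

section Forms

variable {N q : ℕ}

/-- The `q`-new space is stable under the full Hecke algebra of level `N*q`. -/
theorem mem_qNew_of_mem_heckeAlgebra (D : ALData N q) (hq : q.Prime) (hqN : ¬ q ∣ N)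
    (hN : N ≠ 0) [NeZero (N * q)]
    {T : Module.End ℂ (CuspForm (Gamma0 (N * q)) 2)}
    (hT : T ∈ CuspForm.heckeAlgebra (N * q) 2 ∅) :
    ∀ g ∈ qNew D hq hqN hN, T g ∈ qNew D hq hqN hN := by
  have : NeZero N := ⟨hN⟩
  induction hT using Algebra.adjoin_induction with
  | mem x hx =>
    intro g hg
    rcases hx with ⟨ℓ, hℓ, hℓN, -, rfl⟩ | ⟨r, hrN, hr, -, rfl⟩
    · exact heckeTLin_mem_qNew D hq hqN hN hℓ hℓN hg
    · rcases (Nat.Prime.dvd_mul hr).mp hrN with h | h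
      · exact heckeULin_mem_qNew D hq hqN hN hr h hg
      · have hrq : r = q := (Nat.prime_dvd_prime_iff_eq hr hq).mp h
        subst hrq
        exact heckeULin_q_mem_qNew D hq hqN hN hg
  | algebraMap r =>
    intro g hg
    have : (algebraMap ℤ (Module.End ℂ (CuspForm (Gamma0 (N * q)) 2)) r) g = r • g := by
      simp
    rw [this]
    exact Submodule.smul_of_tower_mem _ r hg
  | add x y _ _ hx hy =>
    intro g hg
    exact Submodule.add_mem _ (hx g hg) (hy g hg)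
  | mul x y _ _ hx hy =>
    intro g hg
    exact hx _ (hy g hg)

/-- The action of the full Hecke algebra on the `q`-new space. -/
noncomputable def qNewRep (D : ALData N q) (hq : q.Prime) (hqN : ¬ q ∣ N) (hN : N ≠ 0)
    [NeZero (N * q)] :
    CuspForm.heckeAlgebra (N * q) 2 ∅ →+* Module.End ℂ (qNew D hq hqN hN) where
  toFun T := (T : Module.End ℂ (CuspForm (Gamma0 (N * q)) 2)).restrict
    (mem_qNew_of_mem_heckeAlgebra D hq hqN hN T.2)
  map_one' := by ext; rfl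
  map_mul' _ _ := by ext; rfl
  map_zero' := by ext; rfl
  map_add' _ _ := by ext; rfl

theorem coe_qNewRep_apply (D : ALData N q) (hq : q.Prime) (hqN : ¬ q ∣ N) (hN : N ≠ 0)
    [NeZero (N * q)] (T : CuspForm.heckeAlgebra (N * q) 2 ∅) (v : qNew D hq hqN hN) :
    ((qNewRep D hq hqN hN T v : qNew D hq hqN hN) : CuspForm (Gamma0 (N * q)) 2) =
      (T : Module.End ℂ (CuspForm (Gamma0 (N * q)) 2)) v := rfl


/-- **Package G, abstract form.**  A character of a commutative ring `𝕋` acting through the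
full Hecke algebra of level `N*q` which is supported on the `q`-new space is the reduction of
the eigencharacter of a normalised eigenform of level `N*q` which is new at `q`. -/
theorem exists_newAt_eigenform_of_character (D : ALData N q) (hq : q.Prime) (hqN : ¬ q ∣ N)
    (hN : N ≠ 0) [NeZero (N * q)] {𝕋 : Type*} [CommRing 𝕋]
    (φ : 𝕋 →+* CuspForm.heckeAlgebra (N * q) 2 ∅)
    {k : Type*} [Field k] (χ : 𝕋 →+* k) (hχ : Function.Surjective χ)
    (hsupp : ∀ t : 𝕋, (∀ g ∈ qNew D hq hqN hN,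
      ((φ t : CuspForm.heckeAlgebra (N * q) 2 ∅) :
        Module.End ℂ (CuspForm (Gamma0 (N * q)) 2)) g = 0) → χ t = 0) :
    ∃ (g : CuspForm (Gamma0 (N * q)) 2)
      (lam : CuspForm.heckeAlgebra (N * q) 2 ∅ →+* integralClosure ℤ ℂ)
      (𝔪' : Ideal (integralClosure ℤ ℂ)),
      g.IsNormalizedEigenform ∧ g.IsNewAt q ∧ g ∈ qNew D hq hqN hN ∧ 𝔪'.IsMaximal ∧
        𝔪'.comap (lam.comp φ) = RingHom.ker χ ∧
        ∀ ℓ : Nat.Primes,
          ((lam (CuspForm.heckeFormsGen (N * q) 2 ℓ) : integralClosure ℤ ℂ) : ℂ) =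
            qCoeff g ℓ := by
  have hfd : FiniteDimensional ℂ (CuspForm (Gamma0 (N * q)) 2) :=
    Fermat.Agent.S23.H70.finiteDimensional_cuspForm (N * q) 2
  have hfin : Module.Finite ℤ (CuspForm.heckeAlgebra (N * q) 2 ∅) :=
    Fermat.Agent.S22.finite_heckeAlgebra (N * q) 2 ∅
  have hintA : ∀ T : CuspForm.heckeAlgebra (N * q) 2 ∅, IsIntegral ℤ T :=
    fun T => Algebra.IsIntegral.isIntegral T
  have hint : ∀ T, IsIntegral ℤ (qNewRep D hq hqN hN T) := fun T =>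
    (hintA T).map (qNewRep D hq hqN hN).toIntAlgHom
  obtain ⟨v, lam, 𝔪', hv, heig, hmax, hcomap⟩ :=
    exists_lift_over (qNewRep D hq hqN hN) hint φ χ hχ (by
      intro t ht
      apply hsupp
      intro g hg
      have := congrArg (fun F : Module.End ℂ (qNew D hq hqN hN) =>
        ((F ⟨g, hg⟩ : qNew D hq hqN hN) : CuspForm (Gamma0 (N * q)) 2)) ht
      simpa [coe_qNewRep_apply] using this)
  -- the eigenvector as a cusp form
  set g0 : CuspForm (Gamma0 (N * q)) 2 := (v : CuspForm (Gamma0 (N * q)) 2) with hg0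
  have hg0mem : g0 ∈ qNew D hq hqN hN := v.2
  have hg0ne : g0 ≠ 0 := fun h => hv (Subtype.ext h)
  have heig' : ∀ T : CuspForm.heckeAlgebra (N * q) 2 ∅,
      (T : Module.End ℂ (CuspForm (Gamma0 (N * q)) 2)) g0 = (lam T : ℂ) • g0 := by
    intro T
    have := congrArg (fun w : qNew D hq hqN hN => (w : CuspForm (Gamma0 (N * q)) 2)) (heig T)
    simpa [coe_qNewRep_apply] using this
  -- eigenvalue function on ℕ
  let lam' : ℕ → ℂ := fun ℓ =>
    if h : ℓ.Prime then ((lam (CuspForm.heckeFormsGen (N * q) 2 ⟨ℓ, h⟩) :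
      integralClosure ℤ ℂ) : ℂ) else 0
  have hT : ∀ (l : ℕ) (hl : l.Prime) (hlN : ¬ l ∣ N * q),
      CuspForm.heckeTLin 2 hl hlN g0 = lam' l • g0 := by
    intro l hl hlN
    have h1 := heig' (CuspForm.heckeFormsGen (N * q) 2 ⟨l, hl⟩)
    rw [CuspForm.heckeFormsGen_of_not_dvd (ℓ := ⟨l, hl⟩) hlN, CuspForm.heckeAlgebra.coe_T] at h1
    rw [h1]
    simp only [lam', dif_pos hl]
    rw [CuspForm.heckeFormsGen_of_not_dvd (ℓ := ⟨l, hl⟩) hlN]
  have hU : ∀ (r : ℕ) (_ : r.Prime) (hrN : r ∣ N * q),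
      CuspForm.heckeULin 2 hrN g0 = lam' r • g0 := by
    intro r hr hrN
    have h1 := heig' (CuspForm.heckeFormsGen (N * q) 2 ⟨r, hr⟩)
    rw [CuspForm.heckeFormsGen_of_dvd (q := ⟨r, hr⟩) hrN, CuspForm.heckeAlgebra.coe_U] at h1
    rw [h1]
    simp only [lam', dif_pos hr]
    rw [CuspForm.heckeFormsGen_of_dvd (q := ⟨r, hr⟩) hrN]
  obtain ⟨hc, hnorm, hcoeff⟩ :=
    Fermat.Agent.S49.H90.isNormalizedEigenform_of_eigen g0 hg0ne lam' hT hU
  have hgmem : (qCoeff g0 1)⁻¹ • g0 ∈ qNew D hq hqN hN := Submodule.smul_mem _ _ hg0mem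
  refine ⟨(qCoeff g0 1)⁻¹ • g0, lam, 𝔪', hnorm, ?_, hgmem, hmax, hcomap, ?_⟩
  · rw [mem_qNew] at hgmem
    exact isNewAt_of_traceDown_eq_zero D hq hqN hN _ hnorm hgmem.1 hgmem.2
  · intro ℓ
    rw [hcoeff ℓ ℓ.2]
    simp only [lam', dif_pos ℓ.2]
    rfl

/-- **Package G in the vocabulary of the conclusion of S41.**  `S` is the set of primes at which
the congruence is wanted, `a ℓ` the target eigenvalues (`a ℓ = W.apOfModel ℓ`), `t ℓ hℓ ∈ 𝕋`
acts as `T_ℓ` and `χ (t ℓ) = a ℓ`, `char k = p`. -/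
theorem exists_levelRaised_eigenform (D : ALData N q) (hq : q.Prime) (hqN : ¬ q ∣ N)
    (hN : N ≠ 0) [NeZero (N * q)] {p : ℕ} (a : ℕ → ℤ) (S : Set ℕ)
    {𝕋 : Type*} [CommRing 𝕋] (φ : 𝕋 →+* CuspForm.heckeAlgebra (N * q) 2 ∅)
    {k : Type*} [Field k] (χ : 𝕋 →+* k) (hχ : Function.Surjective χ) (hpk : (p : k) = 0)
    (hsupp : ∀ t : 𝕋, (∀ g ∈ qNew D hq hqN hN,
      ((φ t : CuspForm.heckeAlgebra (N * q) 2 ∅) :
        Module.End ℂ (CuspForm (Gamma0 (N * q)) 2)) g = 0) → χ t = 0)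
    (hgen : ∀ ℓ ∈ S, ∃ (hℓ : ℓ.Prime) (hℓM : ¬ ℓ ∣ N * q) (t : 𝕋),
      φ t = CuspForm.heckeAlgebra.T hℓ hℓM (Set.notMem_empty _) ∧ χ t = (a ℓ : k)) :
    ∃ (g : CuspForm (Gamma0 (N * q)) 2) (𝔪' : Ideal (integralClosure ℤ ℂ)),
      g.IsNormalizedEigenform ∧ 𝔪'.IsMaximal ∧ (p : integralClosure ℤ ℂ) ∈ 𝔪' ∧
      (∀ ℓ ∈ S, ∃ a' : integralClosure ℤ ℂ, (a' : ℂ) = qCoeff g ℓ ∧
        a' - ((a ℓ : ℤ) : integralClosure ℤ ℂ) ∈ 𝔪') ∧
      g.IsNewAt q := by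
  obtain ⟨g, lam, 𝔪', hnorm, hnew, -, hmax, hcomap, hcoeff⟩ :=
    exists_newAt_eigenform_of_character D hq hqN hN φ χ hχ hsupp
  have hmem : ∀ t : 𝕋, χ t = 0 → lam (φ t) ∈ 𝔪' := by
    intro t ht
    have : t ∈ 𝔪'.comap (lam.comp φ) := by rw [hcomap]; exact ht
    exact this
  refine ⟨g, 𝔪', hnorm, hmax, ?_, ?_, hnew⟩
  · have := hmem (p : 𝕋) (by rw [map_natCast]; exact hpk)
    rwa [map_natCast, map_natCast] at this
  · intro ℓ hℓS
    obtain ⟨hℓ, hℓM, t, hφt, hχt⟩ := hgen ℓ hℓS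
    refine ⟨lam (φ t), ?_, ?_⟩
    · rw [← hcoeff ⟨ℓ, hℓ⟩, CuspForm.heckeFormsGen_of_not_dvd (ℓ := ⟨ℓ, hℓ⟩) hℓM, hφt]
    · have := hmem (t - (a ℓ : 𝕋)) (by rw [map_sub, map_intCast, hχt, sub_self])
      rwa [map_sub, map_sub, map_intCast, map_intCast] at this


/-- The polynomial Hecke ring on a set `S` of primes not dividing `N*q`, acting on forms of
level `N*q`. -/
noncomputable def polyHecke (N q : ℕ) [NeZero (N * q)] (S : Set ℕ)
    (hS : ∀ ℓ ∈ S, ℓ.Prime ∧ ¬ ℓ ∣ N * q) :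
    MvPolynomial S ℤ →+* CuspForm.heckeAlgebra (N * q) 2 ∅ :=
  (MvPolynomial.aeval (fun ℓ : S =>
    (CuspForm.heckeAlgebra.T (hS ℓ ℓ.2).1 (hS ℓ ℓ.2).2 (Set.notMem_empty _) :
      CuspForm.heckeAlgebra (N * q) 2 ∅))).toRingHom

theorem polyHecke_X (N q : ℕ) [NeZero (N * q)] (S : Set ℕ)
    (hS : ∀ ℓ ∈ S, ℓ.Prime ∧ ¬ ℓ ∣ N * q) (ℓ : S) :
    polyHecke N q S hS (MvPolynomial.X ℓ) =
      CuspForm.heckeAlgebra.T (hS ℓ ℓ.2).1 (hS ℓ ℓ.2).2 (Set.notMem_empty _) :=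
  MvPolynomial.aeval_X _ ℓ

/-- **Package G for the polynomial Hecke ring** `MvPolynomial S ℤ` and the `𝔽_p`-rational
character `t_ℓ ↦ a ℓ mod p`. -/
theorem exists_levelRaised_eigenform_of_mvPolynomial (D : ALData N q) (hq : q.Prime)
    (hqN : ¬ q ∣ N) (hN : N ≠ 0) [NeZero (N * q)] {p : ℕ} [Fact p.Prime] (a : ℕ → ℤ) (S : Set ℕ)
    (hS : ∀ ℓ ∈ S, ℓ.Prime ∧ ¬ ℓ ∣ N * q)
    (hsupp : ∀ t : MvPolynomial S ℤ, (∀ g ∈ qNew D hq hqN hN,
      ((polyHecke N q S hS t : CuspForm.heckeAlgebra (N * q) 2 ∅) :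
        Module.End ℂ (CuspForm (Gamma0 (N * q)) 2)) g = 0) →
      ((MvPolynomial.eval (fun ℓ : S => a ℓ) t : ℤ) : ZMod p) = 0) :
    ∃ (g : CuspForm (Gamma0 (N * q)) 2) (𝔪' : Ideal (integralClosure ℤ ℂ)),
      g.IsNormalizedEigenform ∧ 𝔪'.IsMaximal ∧ (p : integralClosure ℤ ℂ) ∈ 𝔪' ∧
      (∀ ℓ ∈ S, ∃ a' : integralClosure ℤ ℂ, (a' : ℂ) = qCoeff g ℓ ∧
        a' - ((a ℓ : ℤ) : integralClosure ℤ ℂ) ∈ 𝔪') ∧
      g.IsNewAt q := by
  let χ : MvPolynomial S ℤ →+* ZMod p :=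
    (Int.castRingHom (ZMod p)).comp (MvPolynomial.eval (fun ℓ : S => a ℓ))
  have hχ : Function.Surjective χ := by
    intro z
    obtain ⟨n, rfl⟩ := ZMod.intCast_surjective z
    exact ⟨MvPolynomial.C n, by simp [χ]⟩
  refine exists_levelRaised_eigenform D hq hqN hN a S (polyHecke N q S hS) χ hχ
    (by simp) hsupp ?_
  intro ℓ hℓ
  refine ⟨(hS ℓ hℓ).1, (hS ℓ hℓ).2, MvPolynomial.X ⟨ℓ, hℓ⟩, polyHecke_X N q S hS ⟨ℓ, hℓ⟩, ?_⟩
  simp [χ]


/-- The set of primes at which the conclusion of S41 asks for a congruence. -/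
def goodSet (W : WeierstrassCurve ℤ) (N q p : ℕ) : Set ℕ :=
  {ℓ | ℓ.Prime ∧ W.IsGoodPrimeFor ℓ ∧ ¬ ℓ ∣ N * q ∧ ℓ ≠ p}

theorem goodSet_spec (W : WeierstrassCurve ℤ) (N q p : ℕ) :
    ∀ ℓ ∈ goodSet W N q p, ℓ.Prime ∧ ¬ ℓ ∣ N * q :=
  fun _ h => ⟨h.1, h.2.2.1⟩

/-- **Package G, literal S41 conclusion.**  The only input is the support statement: every
polynomial in the `T_ℓ` (`ℓ` good for `W`, `ℓ ∤ N q p`) which kills the `q`-new space of
level `N*q` evaluates to `0 mod p` at `T_ℓ ↦ a_ℓ(W)`. -/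
theorem S41_conclusion_of_support (W : WeierstrassCurve ℤ) (D : ALData N q) (hq : q.Prime)
    (hqN : ¬ q ∣ N) (hN : N ≠ 0) [NeZero (N * q)] {p : ℕ} [Fact p.Prime]
    (hsupp : ∀ t : MvPolynomial (goodSet W N q p) ℤ, (∀ g ∈ qNew D hq hqN hN,
      ((polyHecke N q (goodSet W N q p) (goodSet_spec W N q p) t :
          CuspForm.heckeAlgebra (N * q) 2 ∅) :
        Module.End ℂ (CuspForm (Gamma0 (N * q)) 2)) g = 0) →
      ((MvPolynomial.eval (fun ℓ : goodSet W N q p => W.apOfModel ℓ) t : ℤ) : ZMod p) = 0) :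
    ∃ (g : CuspForm (CongruenceSubgroup.Gamma0 (N * q)) 2) (𝔪' : Ideal (integralClosure ℤ ℂ)),
      g.IsNormalizedEigenform ∧ 𝔪'.IsMaximal ∧ (p : integralClosure ℤ ℂ) ∈ 𝔪' ∧
      (∀ ℓ : ℕ, ℓ.Prime → W.IsGoodPrimeFor ℓ → ¬ ℓ ∣ N * q → ℓ ≠ p →
        ∃ a : integralClosure ℤ ℂ, (a : ℂ) = ModularFormClass.qCoeff g ℓ ∧
          a - ((W.apOfModel ℓ : ℤ) : integralClosure ℤ ℂ) ∈ 𝔪') ∧
      g.IsNewAt q := by
  obtain ⟨g, 𝔪', h1, h2, h3, h4, h5⟩ :=
    exists_levelRaised_eigenform_of_mvPolynomial D hq hqN hN (fun ℓ => W.apOfModel ℓ)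
      (goodSet W N q p) (goodSet_spec W N q p) hsupp
  exact ⟨g, 𝔪', h1, h2, h3, fun ℓ hℓ hg hℓM hℓp => h4 ℓ ⟨hℓ, hg, hℓM, hℓp⟩, h5⟩

end Forms

end Fermat.Agent.S41.H72
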