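import Mathlib
import Fermat.Agent.S41.H85_HeckeModule
import Fermat.Agent.S41.H72_AtkinLehnerHecke
import Fermat.Agent.S41.H72_LevelRaisingEndgame

/-!
# S41, form side of (B3): period maps of the trace and of the Atkin–Lehner operator

* `traceDatum` : the coset datum `Γ₀(Nq) \ Γ₀(N)` (representatives `1`, `r_j`), whose operator
  is the corestriction `cor : Hom(Γ₀(Nq), A) → Hom(Γ₀(N), A)`.
* `alDatum` : the single coset `Γ₀(Nq) W`, whose operator is the Atkin–Lehner involution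
  `φ ↦ φ ∘ (γ ↦ W γ W⁻¹)` of `Hom(Γ₀(Nq), A)`.
* `periodMap_traceDown`, `periodMap_alOp` and the versions for `periodHomPair`, `esEquiv`.
* `esEquiv_mem_qNewCoh_iff` : under Eichler–Shimura the `q`-new classes correspond to pairs of
  `q`-new forms.
-/

set_option autoImplicit false

open UpperHalfPlane hiding I
open scoped MatrixGroups ModularForm
open CongruenceSubgroup ModularCurve ModularCurve.Period Matrix.SpecialLinearGroup ModularForm
open Fermat.Agent.S21 Fermat.Agent.S41.H85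

namespace Fermat.Agent.S41.H72

variable {N q : ℕ}

/-! ### The coset datum of the trace -/

/-- the representatives `1, r_j` of `Γ₀(N q) \ Γ₀(N)` in `SL(2, ℤ)` -/
def repSL (D : ALData N q) : Option (Fin q) → SL(2, ℤ)
  | none => 1
  | some j => rj D ((j : ℕ) : ℤ)

theorem repSL_mem (D : ALData N q) (i : Option (Fin q)) : repSL D i ∈ Gamma0 N := by
  rcases i with _ | j
  · exact one_mem _
  · exact rj_mem_Gamma0 D _

/-- the representatives in `GL(2, ℝ)` -/
noncomputable def repGL (D : ALData N q) (i : Option (Fin q)) : GL (Fin 2) ℝ :=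
  mapGL ℝ (repSL D i)

theorem isReduced_repGL (D : ALData N q) (hq : q.Prime) (hqN : ¬ q ∣ N) (hN : N ≠ 0) :
    IsReduced (gl (N * q)) (repGL D) where
  inj := gl_injective _
  distinct := by
    intro i i' g h
    rw [gl_apply, repGL, repGL, ← map_mul] at h
    have h' : (g : SL(2, ℤ)) * repSL D i = repSL D i' := mapGL_injective h
    rcases i with _ | j <;> rcases i' with _ | j'
    · rfl
    · exfalso
      simp only [repSL, mul_one] at h'
      exact rj_notMem_Gamma0 D hq hN _ (h' ▸ g.2)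
    · exfalso
      simp only [repSL] at h'
      have h2 : rj D ((j : ℕ) : ℤ) = (g : SL(2, ℤ))⁻¹ := eq_inv_of_mul_eq_one_right h'
      exact rj_notMem_Gamma0 D hq hN _ (h2 ▸ inv_mem g.2)
    · simp only [repSL] at h'
      have h2 : rj D ((j' : ℕ) : ℤ) * (rj D ((j : ℕ) : ℤ))⁻¹ = (g : SL(2, ℤ)) := by
        rw [← h', mul_inv_cancel_right]
      have := eq_of_rj_mul_inv_mem D hq hqN j'.2 j.2 (h2 ▸ g.2)
      exact congrArg some (Fin.ext this.symm)

theorem stable_repSL (D : ALData N q) (hq : q.Prime) (hqN : ¬ q ∣ N) {h : SL(2, ℤ)}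
    (hh : h ∈ Gamma0 N) :
    ∃ (j : Option (Fin q)) (g : Gamma0 (N * q)), h = (g : SL(2, ℤ)) * repSL D j := by
  rcases mem_or_exists_rj_mul_mem D hq hqN (inv_mem hh) with h1 | ⟨j, hj, h1⟩
  · exact ⟨none, ⟨h, by simpa using inv_mem h1⟩, by simp [repSL]⟩
  · refine ⟨some ⟨j, hj⟩, ⟨(rj D (j : ℤ) * h⁻¹)⁻¹, inv_mem h1⟩, ?_⟩
    simp [repSL]

theorem stable_repGL (D : ALData N q) (hq : q.Prime) (hqN : ¬ q ∣ N) (γ : Gamma0 N)
    (i : Option (Fin q)) :
    ∃ (j : Option (Fin q)) (g : Gamma0 (N * q)),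
      repGL D i * gl N γ = gl (N * q) g * repGL D j := by
  obtain ⟨j, g, h⟩ := stable_repSL D hq hqN (h := repSL D i * γ)
    (mul_mem (repSL_mem D i) γ.2)
  refine ⟨j, g, ?_⟩
  rw [gl_apply, gl_apply, repGL, repGL, ← map_mul, ← map_mul, h]

/-- **The coset datum of the corestriction** `Hom(Γ₀(N q), A) → Hom(Γ₀(N), A)`. -/
noncomputable def traceDatum (D : ALData N q) (hq : q.Prime) (hqN : ¬ q ∣ N) (hN : N ≠ 0) :
    CosetDatum (gl (N * q)) (gl N) (Option (Fin q)) :=
  CosetDatum.ofReduced (isReduced_repGL D hq hqN hN) (stable_repGL D hq hqN)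

@[simp] theorem traceDatum_α (D : ALData N q) (hq : q.Prime) (hqN : ¬ q ∣ N) (hN : N ≠ 0) :
    (traceDatum D hq hqN hN).α = repGL D := rfl

theorem traceDatum_isReduced (D : ALData N q) (hq : q.Prime) (hqN : ¬ q ∣ N) (hN : N ≠ 0) :
    IsReduced (gl (N * q)) (traceDatum D hq hqN hN).α := isReduced_repGL D hq hqN hN

theorem coe_traceDown_eq_sum (D : ALData N q) (hq : q.Prime) (hqN : ¬ q ∣ N) (hN : N ≠ 0)
    (g : CuspForm (Gamma0 (N * q)) 2) :
    (⇑(traceDown D hq hqN hN g) : ℍ → ℂ) = ∑ i, (⇑g : ℍ → ℂ) ∣[(2 : ℤ)] repGL D i := by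
  rw [coe_traceDown, traceFun_eq_sum, Fintype.sum_option]
  congr 1
  · simp [repGL, repSL]
  · rw [← Fin.sum_univ_eq_sum_range (fun j => (⇑g : ℍ → ℂ) ∣[(2 : ℤ)]
      (mapGL ℝ (rj D (j : ℤ)) : GL (Fin 2) ℝ)) q]
    rfl

theorem det_repGL_pos (D : ALData N q) (i : Option (Fin q)) :
    0 < ((repGL D i : GL (Fin 2) ℝ) : Matrix (Fin 2) (Fin 2) ℝ).det := by
  rw [← Matrix.GeneralLinearGroup.val_det_apply, repGL, det_mapGL]
  simp

/-- **(B3), `cor`**: the period map intertwines the trace of forms with the corestriction. -/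
theorem periodMap_traceDown (D : ALData N q) (hq : q.Prime) (hqN : ¬ q ∣ N) (hN : N ≠ 0)
    [NeZero N] [NeZero (N * q)] (g : CuspForm (Gamma0 (N * q)) 2) :
    periodMap N (traceDown D hq hqN hN g)
      = (traceDatum D hq hqN hN).op (periodMap (N * q) g) :=
  periodMap_eq_op (traceDatum D hq hqN hN) (fun i => det_repGL_pos D i) g _
    (coe_traceDown_eq_sum D hq hqN hN g)

/-! ### The Atkin–Lehner coset datum -/

theorem exists_conjAL (D : ALData N q) (hq : q ≠ 0) (γ : Gamma0 (N * q)) :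
    ∃ g : Gamma0 (N * q), alGL D hq * gl (N * q) γ = gl (N * q) g * alGL D hq := by
  obtain ⟨c', hc'⟩ := exists_eq_mul_of_mem_Gamma0 γ.2
  have hc : (γ : SL(2, ℤ)) 1 0 = (N : ℤ) * q * c' := by rw [hc']; push_cast; ring
  exact ⟨⟨conjAL D hq γ c' hc, conjAL_mem_Gamma0 D hq γ c' hc⟩, alGL_mul_mapGL D hq γ c' hc⟩

/-- Conjugation by the Atkin–Lehner matrix, `γ ↦ W γ W⁻¹`, as an endomorphism of `Γ₀(N q)`. -/
noncomputable def conjALHom (D : ALData N q) (hq : q ≠ 0) : Gamma0 (N * q) →* Gamma0 (N * q) where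
  toFun γ := (exists_conjAL D hq γ).choose
  map_one' := by
    apply gl_injective
    apply mul_right_cancel (b := alGL D hq)
    rw [← (exists_conjAL D hq 1).choose_spec, map_one]
    simp
  map_mul' a b := by
    apply gl_injective
    apply mul_right_cancel (b := alGL D hq)
    have ha := (exists_conjAL D hq a).choose_spec
    have hb := (exists_conjAL D hq b).choose_spec
    have hab := (exists_conjAL D hq (a * b)).choose_spec
    show gl (N * q) (exists_conjAL D hq (a * b)).choose * alGL D hq =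
      gl (N * q) ((exists_conjAL D hq a).choose * (exists_conjAL D hq b).choose) * alGL D hq
    generalize (exists_conjAL D hq a).choose = ca at ha ⊢
    generalize (exists_conjAL D hq b).choose = cb at hb ⊢
    generalize (exists_conjAL D hq (a * b)).choose = cab at hab ⊢
    rw [← hab, map_mul, map_mul, mul_assoc (gl _ ca), ← hb, ← mul_assoc, ← mul_assoc, ha]

theorem alGL_mul_gl (D : ALData N q) (hq : q ≠ 0) (γ : Gamma0 (N * q)) :
    alGL D hq * gl (N * q) γ = gl (N * q) (conjALHom D hq γ) * alGL D hq :=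
  (exists_conjAL D hq γ).choose_spec

/-- **The Atkin–Lehner coset datum**: the single coset `Γ₀(N q) W`. -/
noncomputable def alDatum (D : ALData N q) (hq : q ≠ 0) :
    CosetDatum (gl (N * q)) (gl (N * q)) Unit :=
  CosetDatum.single (alGL D hq) (conjALHom D hq) (alGL_mul_gl D hq)

theorem alDatum_op_apply (D : ALData N q) (hq : q ≠ 0) {A : Type*} [AddCommGroup A]
    (φ : Additive (Gamma0 (N * q)) →+ A) :
    (alDatum D hq).op φ = φ.comp (MonoidHom.toAdditive (conjALHom D hq)) :=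
  CosetDatum.single_op_apply _ _ _ φ

theorem alDatum_isReduced (D : ALData N q) (hq : q ≠ 0) :
    IsReduced (gl (N * q)) (alDatum D hq).α where
  inj := gl_injective _
  distinct := fun _ _ _ _ => rfl

/-- **(B3), `w_q`**: the period map intertwines the Atkin–Lehner operator on forms with
`φ ↦ φ ∘ (γ ↦ W γ W⁻¹)`. -/
theorem periodMap_alOp (D : ALData N q) (hq : q ≠ 0) [NeZero (N * q)]
    (g : CuspForm (Gamma0 (N * q)) 2) :
    periodMap (N * q) (alOp D hq g) = (alDatum D hq).op (periodMap (N * q) g) := by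
  refine periodMap_eq_op (alDatum D hq) (fun _ => ?_) g _ ?_
  · have := det_alGL_pos D hq
    rwa [Matrix.GeneralLinearGroup.val_det_apply] at this
  · rw [coe_alOp]
    simp [alDatum, CosetDatum.single]

/-! ### Commutation with the involution `charInvolution` (conjugation by `diag(1,-1)`) -/

/-- `W J W⁻¹ J⁻¹ ∈ Γ₀(N q)` -/
def alJ (D : ALData N q) : SL(2, ℤ) :=
  sl2 (q * D.x + N * D.y) (2 * D.x * D.y) (2 * N * q) (q * D.x + N * D.y)
    (by linear_combination ((q : ℤ) * D.x - N * D.y + 1) * D.h)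

theorem alJ_mem_Gamma0 (D : ALData N q) : alJ D ∈ Gamma0 (N * q) := by
  rw [Gamma0_mem]
  simp only [alJ, sl2_apply_one_zero]
  have : ((2 : ℤ) * N * q : ℤ) = ((N * q : ℕ) : ℤ) * 2 := by push_cast; ring
  rw [this, Int.cast_mul, Int.cast_natCast, ZMod.natCast_self, zero_mul]

theorem alGL_mul_Jmat (D : ALData N q) (hq : q ≠ 0) :
    alGL D hq * Jmat = gl (N * q) ⟨alJ D, alJ_mem_Gamma0 D⟩ * Jmat * alGL D hq := by
  have h := congrArg (Int.cast : ℤ → ℝ) D.h
  push_cast at h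
  ext i k
  rw [gl_apply]
  fin_cases i <;> fin_cases k <;>
    simp [Matrix.mul_apply, Fin.sum_univ_two, alJ]
  · linear_combination (-(q : ℝ) * D.x) * h
  · linear_combination (D.y : ℝ) * h
  · linear_combination (-(N : ℝ) * q) * h
  · linear_combination (q : ℝ) * h

/-- The Atkin–Lehner involution on `Hom(Γ₀(N q), A)` commutes with `charInvolution`. -/
theorem alDatum_op_charInvolution (D : ALData N q) (hq : q ≠ 0) {A : Type*} [AddCommGroup A]
    (R : Type*) [Semiring R] [Module R A] (ψ : Additive (Gamma0 (N * q)) →+ A) :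
    (alDatum D hq).op (charInvolution (N * q) R A ψ)
      = charInvolution (N * q) R A ((alDatum D hq).op ψ) :=
  CosetDatum.op_comp_conj_of_equiv (alDatum D hq) (alDatum D hq) (alDatum_isReduced D hq) Jmat
    (jConjGamma0 (N * q)) (jConjGamma0 (N * q)) (gl_jConj_mul_Jmat (N * q))
    (gl_jConj_mul_Jmat (N * q)) (Equiv.refl Unit) (fun _ => ⟨alJ D, alJ_mem_Gamma0 D⟩)
    (fun _ => alGL_mul_Jmat D hq) ψ

/-- Abstract form of "the transfer commutes with automorphisms": a reduced coset datum whose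
family of cosets is stable under conjugation by `J` (which normalises `Γ₁`, `Γ₂`). -/
theorem op_comp_conj_of_cover {G Γ₁ Γ₂ : Type*} [Group G] [Group Γ₁] [Group Γ₂]
    {ι₁ : Γ₁ →* G} {ι₂ : Γ₂ →* G} {I : Type*} [Fintype I] {A : Type*} [AddCommGroup A]
    (E : CosetDatum ι₁ ι₂ I) (hr : IsReduced ι₁ E.α) (J : G)
    (j₁ : Γ₁ →* Γ₁) (j₂ : Γ₂ →* Γ₂) (hj₁s : Function.Surjective j₁)
    (hj₁ : ∀ g, ι₁ (j₁ g) * J = J * ι₁ g) (hj₂ : ∀ γ, ι₂ (j₂ γ) * J = J * ι₂ γ)
    (hcov : ∀ i, ∃ (j : I) (g : Γ₁), E.α j * J = ι₁ g * J * E.α i)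
    (ψ : Additive Γ₁ →+ A) :
    E.op (ψ.comp (MonoidHom.toAdditive j₁)) = (E.op ψ).comp (MonoidHom.toAdditive j₂) := by
  choose e c hec using hcov
  have hinj : Function.Injective e := by
    intro i i' h
    have h1 := hec i
    have h2 := hec i'
    rw [h] at h1
    have h3 : ι₁ (c i) * J * E.α i = ι₁ (c i') * J * E.α i' := h1.symm.trans h2
    obtain ⟨k, hk⟩ := hj₁s ((c i)⁻¹ * c i')
    have h4 : E.α i = ι₁ k * E.α i' := by
      apply mul_left_cancel (a := J)
      calc J * E.α i = (ι₁ (c i))⁻¹ * (ι₁ (c i) * J * E.α i) := by group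
        _ = (ι₁ (c i))⁻¹ * (ι₁ (c i') * J * E.α i') := by rw [h3]
        _ = ι₁ ((c i)⁻¹ * c i') * J * E.α i' := by rw [map_mul, map_inv]; group
        _ = ι₁ (j₁ k) * J * E.α i' := by rw [hk]
        _ = J * (ι₁ k * E.α i') := by rw [hj₁]; group
    exact (hr.distinct i' i k h4.symm).symm
  exact CosetDatum.op_comp_conj_of_equiv E E hr J j₁ j₂ hj₁ hj₂
    (Equiv.ofBijective e (Finite.injective_iff_bijective.mp hinj)) c (fun i => hec i) ψ

theorem jConjGamma0_surjective (M : ℕ) : Function.Surjective (jConjGamma0 M) :=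
  fun g => ⟨jConjGamma0 M g, jConjGamma0_jConjGamma0 M g⟩

/-- The corestriction `Hom(Γ₀(N q), A) → Hom(Γ₀(N), A)` commutes with `charInvolution`. -/
theorem traceDatum_op_charInvolution (D : ALData N q) (hq : q.Prime) (hqN : ¬ q ∣ N)
    (hN : N ≠ 0) {A : Type*} [AddCommGroup A] (R : Type*) [Semiring R] [Module R A]
    (ψ : Additive (Gamma0 (N * q)) →+ A) :
    (traceDatum D hq hqN hN).op (charInvolution (N * q) R A ψ)
      = charInvolution N R A ((traceDatum D hq hqN hN).op ψ) := by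
  refine op_comp_conj_of_cover (traceDatum D hq hqN hN) (traceDatum_isReduced D hq hqN hN) Jmat
    (jConjGamma0 (N * q)) (jConjGamma0 N) (jConjGamma0_surjective _)
    (gl_jConj_mul_Jmat (N * q)) (gl_jConj_mul_Jmat N) (fun i => ?_) ψ
  -- `J r_i J⁻¹ ∈ Γ₀(N)` lies in some coset `Γ₀(N q) r_j`
  obtain ⟨j, g, hg⟩ := stable_repSL D hq hqN
    (jConjGamma0 N ⟨repSL D i, repSL_mem D i⟩).2
  refine ⟨j, g⁻¹, ?_⟩
  have h1 := gl_jConj_mul_Jmat N ⟨repSL D i, repSL_mem D i⟩
  rw [gl_apply, hg, map_mul] at h1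
  simp only [traceDatum_α, repGL, gl_apply] at h1 ⊢
  rw [Subgroup.coe_inv, map_inv, mul_assoc, ← h1, mul_assoc, inv_mul_cancel_left]

/-! ### The Eichler–Shimura pairing -/

/-- **(B3) for the pairing, `cor`.** -/
theorem periodHomPair_traceDown (D : ALData N q) (hq : q.Prime) (hqN : ¬ q ∣ N) (hN : N ≠ 0)
    [NeZero N] [NeZero (N * q)] (g₁ g₂ : CuspForm (Gamma0 (N * q)) 2) :
    periodHomPair N (traceDown D hq hqN hN g₁, traceDown D hq hqN hN g₂)
      = (traceDatum D hq hqN hN).op (periodHomPair (N * q) (g₁, g₂)) := by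
  rw [periodHomPair_eq, periodHomPair_eq]
  simp only [LinearMap.coprod_apply, LinearMap.comp_apply, LinearMap.add_apply,
    LinearMap.sub_apply, LinearMap.id_apply, periodMapₗ_apply, periodMap_traceDown, map_add,
    map_sub, traceDatum_op_charInvolution]

/-- **(B3) for the pairing, `w_q`.** -/
theorem periodHomPair_alOp (D : ALData N q) (hq : q ≠ 0) [NeZero (N * q)]
    (g₁ g₂ : CuspForm (Gamma0 (N * q)) 2) :
    periodHomPair (N * q) (alOp D hq g₁, alOp D hq g₂)
      = (alDatum D hq).op (periodHomPair (N * q) (g₁, g₂)) := by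
  rw [periodHomPair_eq]
  simp only [LinearMap.coprod_apply, LinearMap.comp_apply, LinearMap.add_apply,
    LinearMap.sub_apply, LinearMap.id_apply, periodMapₗ_apply, periodMap_alOp, map_add,
    map_sub, alDatum_op_charInvolution]

/-- A class `φ ∈ Hom(Γ₀(N q), A)` is **`q`-new** if it is killed by both degeneracy maps
`cor` and `cor ∘ w_q` to level `N` (this is `ker β` of the S41 blueprint). -/
def IsQNewClass (D : ALData N q) (hq : q.Prime) (hqN : ¬ q ∣ N) (hN : N ≠ 0) {A : Type*}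
    [AddCommGroup A] (φ : Additive (Gamma0 (N * q)) →+ A) : Prop :=
  (traceDatum D hq hqN hN).op φ = 0 ∧
    (traceDatum D hq hqN hN).op ((alDatum D hq.ne_zero).op φ) = 0

/-- Naturality of `q`-newness in the coefficient group. -/
theorem IsQNewClass.comp_hom (D : ALData N q) (hq : q.Prime) (hqN : ¬ q ∣ N) (hN : N ≠ 0)
    {A B : Type*} [AddCommGroup A] [AddCommGroup B] (u : A →+ B)
    {φ : Additive (Gamma0 (N * q)) →+ A} (hφ : IsQNewClass D hq hqN hN φ) :
    IsQNewClass D hq hqN hN (u.comp φ) := by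
  refine ⟨?_, ?_⟩
  · rw [CosetDatum.op_comp_hom, hφ.1, AddMonoidHom.comp_zero]
  · rw [CosetDatum.op_comp_hom, CosetDatum.op_comp_hom, hφ.2, AddMonoidHom.comp_zero]

/-- **Eichler–Shimura identifies `q`-new classes with pairs of `q`-new forms.** -/
theorem isQNewClass_periodHomPair_iff (D : ALData N q) (hq : q.Prime) (hqN : ¬ q ∣ N)
    (hN : N ≠ 0) [NeZero N] [NeZero (N * q)] (g₁ g₂ : CuspForm (Gamma0 (N * q)) 2) :
    IsQNewClass D hq hqN hN (periodHomPair (N * q) (g₁, g₂)) ↔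
      g₁ ∈ qNew D hq hqN hN ∧ g₂ ∈ qNew D hq hqN hN := by
  have hinj := (Fermat.Agent.S21.result N).1
  have key : ∀ f₁ f₂ : CuspForm (Gamma0 (N * q)) 2,
      (traceDatum D hq hqN hN).op (periodHomPair (N * q) (f₁, f₂)) = 0 ↔
        traceDown D hq hqN hN f₁ = 0 ∧ traceDown D hq hqN hN f₂ = 0 := by
    intro f₁ f₂
    rw [← periodHomPair_traceDown, ← map_zero (periodHomPair N), hinj.eq_iff, Prod.mk_eq_zero]
  unfold IsQNewClass
  rw [← periodHomPair_alOp, key, key, mem_qNew, mem_qNew]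
  tauto

/-! ### Transfer of annihilators: forms ⇒ complex classes ⇒ integral classes -/

/-- If `t` kills the `q`-new forms then it kills the `q`-new complex parabolic classes. -/
theorem heckeEndC_apply_eq_zero_of_isQNewClass (D : ALData N q) (hq : q.Prime) (hqN : ¬ q ∣ N)
    (hN : N ≠ 0) [NeZero N] [NeZero (N * q)] (S : Set ℕ)
    (t : CuspForm.heckeAlgebra (N * q) 2 S)
    (ht : ∀ g ∈ qNew D hq hqN hN,
      (t : Module.End ℂ (CuspForm (Gamma0 (N * q)) 2)) g = 0)
    (b : parabolicHoms ℂ (Gamma0 (N * q)) ℂ) (hb : IsQNewClass D hq hqN hN b.1) :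
    heckeEndC (N * q) S t b = 0 := by
  obtain ⟨⟨g₁, g₂⟩, rfl⟩ := (esEquiv (N * q)).surjective b
  have hb' : IsQNewClass D hq hqN hN (periodHomPair (N * q) (g₁, g₂)) := hb
  rw [isQNewClass_periodHomPair_iff] at hb'
  rw [heckeEndC_apply, LinearEquiv.symm_apply_apply]
  have : (t : Module.End ℂ (CuspForm (Gamma0 (N * q)) 2)).prodMap
      (t : Module.End ℂ (CuspForm (Gamma0 (N * q)) 2)) (g₁, g₂) = 0 := by
    rw [LinearMap.prodMap_apply, ht g₁ hb'.1, ht g₂ hb'.2]
    rfl
  rw [this, map_zero]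

/-- If `t` kills the `q`-new forms then it kills the `q`-new **integral** parabolic classes
(`ker β ⊆ L_{Nq}` in the S41 blueprint). -/
theorem cohHeckeRep_apply_eq_zero_of_isQNewClass (D : ALData N q) (hq : q.Prime)
    (hqN : ¬ q ∣ N) (hN : N ≠ 0) [NeZero N] [NeZero (N * q)] (S : Set ℕ)
    (t : CuspForm.heckeAlgebra (N * q) 2 S)
    (ht : ∀ g ∈ qNew D hq hqN hN,
      (t : Module.End ℂ (CuspForm (Gamma0 (N * q)) 2)) g = 0)
    (x : parabolicHoms ℤ (Gamma0 (N * q)) ℤ) (hx : IsQNewClass D hq hqN hN x.1) :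
    cohHeckeRep (N * q) S t x = 0 := by
  apply parabolicBC_injective (N * q)
  rw [parabolicBC_cohHeckeRep, map_zero]
  exact heckeEndC_apply_eq_zero_of_isQNewClass D hq hqN hN S t ht _
    (IsQNewClass.comp_hom D hq hqN hN (Int.castAddHom ℂ) hx)

/-- **S41 from the lattice-level support statement (L).**  The only input: every polynomial `t`
in the `T_ℓ` (`ℓ` good for `W`, `ℓ ∤ N q p`) which kills the `q`-new sublattice
`ker β = {x ∈ H¹_par(Γ₀(N q), ℤ) | cor x = 0 = cor (w_q x)}` evaluates to `0 mod p` at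
`T_ℓ ↦ a_ℓ(W)`. -/
theorem S41_conclusion_of_lattice_support (W : WeierstrassCurve ℤ) (D : ALData N q)
    (hq : q.Prime) (hqN : ¬ q ∣ N) (hN : N ≠ 0) [NeZero N] [NeZero (N * q)] {p : ℕ}
    [Fact p.Prime]
    (hL : ∀ t : MvPolynomial (goodSet W N q p) ℤ,
      (∀ x : parabolicHoms ℤ (Gamma0 (N * q)) ℤ, IsQNewClass D hq hqN hN x.1 →
        cohHeckeRep (N * q) ∅ (polyHecke N q (goodSet W N q p) (goodSet_spec W N q p) t) x = 0) →
      ((MvPolynomial.eval (fun ℓ : goodSet W N q p => W.apOfModel ℓ) t : ℤ) : ZMod p) = 0) :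
    ∃ (g : CuspForm (CongruenceSubgroup.Gamma0 (N * q)) 2) (𝔪' : Ideal (integralClosure ℤ ℂ)),
      g.IsNormalizedEigenform ∧ 𝔪'.IsMaximal ∧ (p : integralClosure ℤ ℂ) ∈ 𝔪' ∧
      (∀ ℓ : ℕ, ℓ.Prime → W.IsGoodPrimeFor ℓ → ¬ ℓ ∣ N * q → ℓ ≠ p →
        ∃ a : integralClosure ℤ ℂ, (a : ℂ) = ModularFormClass.qCoeff g ℓ ∧
          a - ((W.apOfModel ℓ : ℤ) : integralClosure ℤ ℂ) ∈ 𝔪') ∧
      g.IsNewAt q :=
  S41_conclusion_of_support W D hq hqN hN fun t ht =>
    hL t fun x hx => cohHeckeRep_apply_eq_zero_of_isQNewClass D hq hqN hN ∅ _ ht x hx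

end Fermat.Agent.S41.H72
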