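import Mathlib
import Fermat.Agent.S41.H65_DegIdentities
import Fermat.Agent.S41.H72_PeriodTrace

/-!
# S41: bridge between helper65's degeneracy operators and the `q`-new classes

`H65.cor = (traceDatum).op`, `H65.atkinLehner = (alDatum).op`, hence
`degBeta y = 0 ↔ IsQNewClass y`; the final consumer statement
`S41_conclusion_of_degBeta_support`.
-/

set_option autoImplicit false

open scoped MatrixGroups
open CongruenceSubgroup ModularCurve ModularCurve.Period Matrix.SpecialLinearGroup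
open Fermat.Agent.S41.H85

namespace Fermat.Agent.S41.H72

variable {N q : ℕ} {A : Type*} [AddCommGroup A]

theorem alHom_eq_conjALHom (D : ALData N q) (hq : q ≠ 0) :
    H65.alHom D hq = conjALHom D hq := by
  refine MonoidHom.ext fun γ => ?_
  apply gl_injective
  apply mul_right_cancel (b := alGL D hq)
  rw [← H65.alGL_mul_gl_alHom, ← alGL_mul_gl]

theorem atkinLehner_eq_alDatum_op (D : ALData N q) (hq : q ≠ 0)
    (ψ : Additive (Gamma0 (N * q)) →+ A) :
    H65.atkinLehner A D hq ψ = (alDatum D hq).op ψ := by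
  rw [H65.atkinLehner_apply, alDatum_op_apply, alHom_eq_conjALHom]

theorem cor_eq_traceDatum_op (D : ALData N q) (hq : q.Prime) (hqN : ¬ q ∣ N) (hN : N ≠ 0)
    (ψ : Additive (Gamma0 (N * q)) →+ A) :
    H65.cor A D hq hqN hN ψ = (traceDatum D hq hqN hN).op ψ := by
  have : NeZero q := ⟨hq.ne_zero⟩
  have key : ((traceDatum D hq hqN hN).op : (Additive (Gamma0 (N * q)) →+ A) →+ _)
      = (H65.corDatum D hq hqN hN).op := by
    refine H65.op_eq_of_forall_exists _ _ (traceDatum_isReduced D hq hqN hN)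
      (H65.corDatum_isReduced D hq hqN hN) ?_ ?_
    · rw [H65.card_onePoint_zmod, Fintype.card_option, Fintype.card_fin]
    · intro i
      rcases i with _ | j
      · refine ⟨OnePoint.infty, 1, ?_⟩
        simp [H65.corDatum_α, H65.corAlpha, repGL, repSL]
      · refine ⟨(((j : ℕ) : ZMod q) : OnePoint (ZMod q)), 1, ?_⟩
        rw [map_one, one_mul, H65.corDatum_α, H65.corAlpha, gl_apply, H65.corRep_coe_coe,
          ZMod.val_natCast_of_lt j.2]
        rfl
  exact (DFunLike.congr_fun key ψ).symm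

/-- `ker β` of the blueprint is the set of `q`-new classes. -/
theorem degBeta_eq_zero_iff (D : ALData N q) (hq : q.Prime) (hqN : ¬ q ∣ N) (hN : N ≠ 0)
    (y : Additive (Gamma0 (N * q)) →+ A) :
    H65.degBeta A D hq hqN hN y = 0 ↔ IsQNewClass D hq hqN hN y := by
  rw [H65.degBeta_apply, Prod.mk_eq_zero, H65.corc_eq, cor_eq_traceDatum_op,
    cor_eq_traceDatum_op, atkinLehner_eq_alDatum_op]
  rfl

/-- **S41 from the support statement (L) in helper65's vocabulary**: every polynomial `t` in the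
`T_ℓ` (`ℓ ∈ goodSet`) killing `ker (degBeta ℤ)` inside `L_{Nq} = parabolicHoms ℤ Γ₀(N q) ℤ`
satisfies `χ t = 0` in `ZMod p`. -/
theorem S41_conclusion_of_degBeta_support (W : WeierstrassCurve ℤ) (D : ALData N q)
    (hq : q.Prime) (hqN : ¬ q ∣ N) (hN : N ≠ 0) [NeZero N] [NeZero (N * q)] {p : ℕ}
    [Fact p.Prime]
    (hL : ∀ t : MvPolynomial (goodSet W N q p) ℤ,
      (∀ x : parabolicHoms ℤ (Gamma0 (N * q)) ℤ, H65.degBeta ℤ D hq hqN hN x.1 = 0 →
        cohHeckeRep (N * q) ∅ (polyHecke N q (goodSet W N q p) (goodSet_spec W N q p) t) x = 0) →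
      ((MvPolynomial.eval (fun ℓ : goodSet W N q p => W.apOfModel ℓ) t : ℤ) : ZMod p) = 0) :
    ∃ (g : CuspForm (CongruenceSubgroup.Gamma0 (N * q)) 2) (𝔪' : Ideal (integralClosure ℤ ℂ)),
      g.IsNormalizedEigenform ∧ 𝔪'.IsMaximal ∧ (p : integralClosure ℤ ℂ) ∈ 𝔪' ∧
      (∀ ℓ : ℕ, ℓ.Prime → W.IsGoodPrimeFor ℓ → ¬ ℓ ∣ N * q → ℓ ≠ p →
        ∃ a : integralClosure ℤ ℂ, (a : ℂ) = ModularFormClass.qCoeff g ℓ ∧
          a - ((W.apOfModel ℓ : ℤ) : integralClosure ℤ ℂ) ∈ 𝔪') ∧
      g.IsNewAt q :=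
  S41_conclusion_of_lattice_support W D hq hqN hN fun t ht =>
    hL t fun x hx => ht x ((degBeta_eq_zero_iff D hq hqN hN x.1).mp hx)

end Fermat.Agent.S41.H72
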