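import Mathlib
import Fermat.Agent.S13.H84_Struct
import Fermat.Agent.S13.H59_CountGen

/-!
# Exact count `#E[p] = p ^ 2` (project S41, part (f), helper13)

For an algebraically closed field `F`, a Weierstrass curve `W` over `F` with `Δ ≠ 0` and
`n ≥ 2` with `(n : F) ≠ 0`, the ladder polynomials `(A_n, B_n) = H84.ladderPoly W n` satisfy:
the Wronskian `A' B - A B'` has top coefficient `n ^ 2 ≠ 0`, so for all but finitely many `c`
the polynomial `A - c B` has `n ^ 2` distinct roots `ξ`; each gives a point `P_ξ` with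
`n • P_ξ = R` (`R` a fixed point with abscissa `c`), and `ξ ↦ P_ξ - P_{ξ₀}` injects the roots
into `E[n]`.  Hence `n ^ 2 ≤ #E[n]`; with the landed upper bound, `#E[p] = p ^ 2` for odd primes
`p`, and the ladder polynomial `theta W (p / 2)` has `(p ^ 2 - 1) / 2` distinct simple roots.
-/

set_option autoImplicit false

namespace Fermat.Agent.S41.H13

open Polynomial WeierstrassCurve WeierstrassCurve.Affine
open Fermat.Agent.S13 Fermat.Agent.S05.H67

section Wronskian

variable {R : Type*} [CommRing R]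

lemma hasTop_derivative {p : R[X]} {m : ℕ} {a : R} (h : H46.HasTop p (m + 1) a) :
    H46.HasTop (derivative p) m (a * ((m : R) + 1)) := by
  refine ⟨?_, ?_⟩
  · have h1 := natDegree_derivative_le p
    have h2 := h.1
    omega
  · rw [coeff_derivative, h.2]

variable (W : WeierstrassCurve R)

/-- the Wronskian `A_n' B_n - A_n B_n'` of the ladder polynomials -/
noncomputable def wronskian (n : ℕ) : R[X] :=
  derivative (H84.ladderPoly W n).1 * (H84.ladderPoly W n).2
    - (H84.ladderPoly W n).1 * derivative (H84.ladderPoly W n).2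

theorem hasTop_wronskian {n : ℕ} (hn : 2 ≤ n) :
    H46.HasTop (wronskian W n) (2 * (n ^ 2 - 2) + 2) ((n : R) ^ 2) := by
  obtain ⟨s, hs⟩ : ∃ s, n ^ 2 = s + 2 := ⟨n ^ 2 - 2, by
    have : 4 ≤ n ^ 2 := by nlinarith
    omega⟩
  have hsR : (n : R) ^ 2 = (s : R) + 2 := by
    have := congrArg (Nat.cast (R := R)) hs
    push_cast at this
    exact this
  have hA : H46.HasTop (H84.ladderPoly W n).1 (s + 1 + 1) 1 := by
    have := H46.hasTop_polyLadder_fst W n
    rw [hs] at this
    exact this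
  have hB : H46.HasTop (H84.ladderPoly W n).2 (s + 1) ((n : R) ^ 2) := by
    have := H46.hasTop_polyLadder_snd W n (by omega)
    rw [hs] at this
    exact this
  have hA' := hasTop_derivative hA
  have hB' := hasTop_derivative hB
  have h1 := (hA'.mul hB)
  have h2 := (hA.mul hB')
  have h3 := (h1.congr (show s + 1 + (s + 1) = 2 * s + 2 by ring) rfl).sub
    (h2.congr (show s + 1 + 1 + s = 2 * s + 2 by ring) rfl)
  have e : n ^ 2 - 2 = s := by omega
  rw [e]
  refine h3.congr rfl ?_
  push_cast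
  rw [hsR]
  ring

theorem wronskian_ne_zero {n : ℕ} (hn : 2 ≤ n) (hnR : (n : R) ^ 2 ≠ 0) : wronskian W n ≠ 0 :=
  (hasTop_wronskian W hn).ne_zero hnR

end Wronskian

section Count

variable {F : Type*} [Field F] [DecidableEq F] (W : WeierstrassCurve F)

/-- the two ladder polynomials have no common root (at abscissae of points of the curve) -/
lemma eval_fst_ne_zero_of_eval_snd_eq_zero [IsAlgClosed F] (hΔ : W.Δ ≠ 0) (n : ℕ) (ξ : F)
    (h : (H84.ladderPoly W n).2.eval ξ = 0) : (H84.ladderPoly W n).1.eval ξ ≠ 0 := by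
  obtain ⟨y, hy⟩ := H59.exists_equation W ξ
  have hns : W.toAffine.Nonsingular ξ y := (equation_iff_nonsingular_of_Δ_ne_zero hΔ).mp hy
  have hP : (Point.some ξ y hns : W.toAffine.Point) ≠ 0 := Point.some_ne_zero hns
  have := H84.ladder_fst_ne_zero_of_snd_eq_zero hP n
  rw [xCoord_some] at this
  rw [H84.eval_ladderPoly_fst]
  apply this
  rw [← H84.eval_ladderPoly_snd]
  exact h

/-- a root `ξ` of `A_n - c B_n` is the abscissa of a point `P` with `n • P = ± R`, for any
nonzero `R` with abscissa `c` -/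
lemma exists_point_of_root [IsAlgClosed F] (hΔ : W.Δ ≠ 0) (n : ℕ) (c ξ : F)
    (hroot : (H84.ladderPoly W n).1.eval ξ = c * (H84.ladderPoly W n).2.eval ξ)
    {R₀ : W.toAffine.Point} (hR₀ : R₀ ≠ 0) (hc : xCoord W R₀ = c) :
    ∃ P : W.toAffine.Point, P ≠ 0 ∧ xCoord W P = ξ ∧ n • P = R₀ := by
  obtain ⟨y, hy⟩ := H59.exists_equation W ξ
  have hns : W.toAffine.Nonsingular ξ y := (equation_iff_nonsingular_of_Δ_ne_zero hΔ).mp hy
  set P : W.toAffine.Point := Point.some ξ y hns with hPdef
  have hP : P ≠ 0 := Point.some_ne_zero hns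
  have hxP : xCoord W P = ξ := xCoord_some W hns
  have hB : (H84.ladderPoly W n).2.eval ξ ≠ 0 := by
    intro hB
    apply eval_fst_ne_zero_of_eval_snd_eq_zero W hΔ n ξ hB
    rw [hroot, hB, mul_zero]
  have hnP : n • P ≠ 0 := by
    intro h0
    rw [H84.nsmul_eq_zero_iff_eval hP, hxP] at h0
    exact hB h0
  have hx := H84.xCoord_nsmul_mul_eval hP n hnP
  rw [hxP, hroot] at hx
  have hxc : xCoord W (n • P) = xCoord W R₀ := by
    rw [hc]
    exact mul_right_cancel₀ hB hx
  rcases (xCoord_eq_iff W hnP hR₀).mp hxc with h | h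
  · exact ⟨P, hP, hxP, h⟩
  · refine ⟨-P, neg_ne_zero.mpr hP, by rw [xCoord_neg, hxP], ?_⟩
    rw [smul_neg, h, neg_neg]

/-- **Lower bound**: `n ^ 2 ≤ #E[n]` over an algebraically closed field in which `n ≠ 0`. -/
theorem sq_le_ncard_torsion [IsAlgClosed F] (hΔ : W.Δ ≠ 0) {n : ℕ} (hn : 2 ≤ n)
    (hnF : (n : F) ≠ 0) (hfin : {T : W.toAffine.Point | n • T = 0}.Finite) :
    n ^ 2 ≤ {T : W.toAffine.Point | n • T = 0}.ncard := by
  classical
  set A := (H84.ladderPoly W n).1 with hA
  set B := (H84.ladderPoly W n).2 with hB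
  have hw : wronskian W n ≠ 0 := wronskian_ne_zero W hn (pow_ne_zero 2 hnF)
  -- choose a good `c`
  set bad : Finset F := (wronskian W n).roots.toFinset.image (fun ξ => A.eval ξ / B.eval ξ)
    with hbad
  obtain ⟨c, hcbad⟩ := Infinite.exists_notMem_finset bad
  -- the polynomial `G = A - c B`
  set G : F[X] := A - C c * B with hG
  have hAmonic : A.Monic := H46.monic_polyLadder_fst W n
  have hAdeg : A.natDegree = n ^ 2 := H46.natDegree_polyLadder_fst W n
  have hBdeg : B.natDegree ≤ n ^ 2 - 1 := H46.natDegree_polyLadder_snd_le W n (by omega)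
  have hn2 : 1 ≤ n ^ 2 := Nat.one_le_pow _ _ (by omega)
  have hcBdeg : (C c * B).degree < A.degree := by
    rw [degree_eq_natDegree hAmonic.ne_zero, hAdeg]
    refine lt_of_le_of_lt (degree_le_natDegree) ?_
    have : (C c * B).natDegree ≤ n ^ 2 - 1 := (natDegree_C_mul_le c B).trans hBdeg
    exact_mod_cast (by omega : (C c * B).natDegree < n ^ 2)
  have hGmonic : G.Monic := hAmonic.sub_of_left hcBdeg
  have hGdeg : G.natDegree = n ^ 2 := by
    rw [hG, natDegree_sub_eq_left_of_natDegree_lt, hAdeg]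
    rw [hAdeg]
    have : (C c * B).natDegree ≤ n ^ 2 - 1 := (natDegree_C_mul_le c B).trans hBdeg
    omega
  have hG0 : G ≠ 0 := hGmonic.ne_zero
  -- roots of `G` are simple
  have hsimple : ∀ ξ, G.IsRoot ξ → ¬ (derivative G).IsRoot ξ := by
    intro ξ h0 h1
    have e0 : A.eval ξ = c * B.eval ξ := by
      have : G.eval ξ = 0 := h0
      rw [hG, eval_sub, eval_mul, eval_C] at this
      exact sub_eq_zero.mp this
    have e1 : (derivative A).eval ξ = c * (derivative B).eval ξ := by
      have : (derivative G).eval ξ = 0 := h1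
      rw [hG, derivative_sub, derivative_C_mul, eval_sub, eval_mul, eval_C] at this
      exact sub_eq_zero.mp this
    have hwξ : (wronskian W n).eval ξ = 0 := by
      simp only [wronskian, eval_sub, eval_mul, ← hA, ← hB]
      rw [e0, e1]
      ring
    have hBξ : B.eval ξ ≠ 0 := by
      intro hB0
      apply eval_fst_ne_zero_of_eval_snd_eq_zero W hΔ n ξ hB0
      rw [← hA, e0, hB0, mul_zero]
    apply hcbad
    rw [hbad, Finset.mem_image]
    refine ⟨ξ, ?_, ?_⟩
    · rw [Multiset.mem_toFinset, mem_roots hw]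
      exact hwξ
    · rw [e0, mul_div_assoc, div_self hBξ, mul_one]
  have hnodup : G.roots.Nodup := by
    rw [Multiset.nodup_iff_count_le_one]
    intro ξ
    rw [count_roots]
    by_contra hlt
    have := (one_lt_rootMultiplicity_iff_isRoot hG0).mp (not_le.mp hlt)
    exact hsimple ξ this.1 this.2
  have hZcard : G.roots.toFinset.card = n ^ 2 := by
    rw [Multiset.toFinset_card_of_nodup hnodup, IsAlgClosed.card_roots_eq_natDegree, hGdeg]
  -- the target point
  obtain ⟨yc, hyc⟩ := H59.exists_equation W c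
  have hnsc : W.toAffine.Nonsingular c yc := (equation_iff_nonsingular_of_Δ_ne_zero hΔ).mp hyc
  set R₀ : W.toAffine.Point := Point.some c yc hnsc with hR₀def
  have hR₀ : R₀ ≠ 0 := Point.some_ne_zero hnsc
  have hxR₀ : xCoord W R₀ = c := xCoord_some W hnsc
  have hex : ∀ ξ ∈ G.roots.toFinset,
      ∃ P : W.toAffine.Point, P ≠ 0 ∧ xCoord W P = ξ ∧ n • P = R₀ := by
    intro ξ hξ
    rw [Multiset.mem_toFinset, mem_roots hG0] at hξ
    have e0 : A.eval ξ = c * B.eval ξ := by
      have : G.eval ξ = 0 := hξ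
      rw [hG, eval_sub, eval_mul, eval_C] at this
      exact sub_eq_zero.mp this
    exact exists_point_of_root W hΔ n c ξ e0 hR₀ hxR₀
  -- a nonempty set of roots
  have hZne : G.roots.toFinset.Nonempty := by
    rw [← Finset.card_pos, hZcard]
    exact hn2
  obtain ⟨ξ₀, hξ₀⟩ := hZne
  obtain ⟨P₀, -, -, hP₀⟩ := hex ξ₀ hξ₀
  -- the injection
  let g : F → W.toAffine.Point := fun ξ =>
    if h : ξ ∈ G.roots.toFinset then (hex ξ h).choose - P₀ else 0
  have hgmem : ∀ ξ ∈ G.roots.toFinset, g ξ ∈ hfin.toFinset := by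
    intro ξ hξ
    rw [Set.Finite.mem_toFinset]
    show n • g ξ = 0
    simp only [g, dif_pos hξ]
    rw [smul_sub, (hex ξ hξ).choose_spec.2.2, hP₀, sub_self]
  have hginj : Set.InjOn g (G.roots.toFinset : Set F) := by
    intro ξ hξ ξ' hξ' hgg
    have hξm : ξ ∈ G.roots.toFinset := hξ
    have hξ'm : ξ' ∈ G.roots.toFinset := hξ'
    simp only [g, dif_pos hξm, dif_pos hξ'm] at hgg
    have := sub_left_injective hgg
    rw [← (hex ξ hξm).choose_spec.2.1, ← (hex ξ' hξ'm).choose_spec.2.1, this]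
  have := Finset.card_le_card_of_injOn g hgmem hginj
  rw [hZcard] at this
  rw [Set.ncard_eq_toFinset_card _ hfin]
  exact this

/-- **Exact count**, set form. -/
theorem ncard_torsion_eq [IsAlgClosed F] (hΔ : W.Δ ≠ 0) {p : ℕ} (hp : p.Prime) (hp2 : p ≠ 2)
    (hpF : (p : F) ≠ 0) : {T : W.toAffine.Point | p • T = 0}.ncard = p ^ 2 := by
  obtain ⟨hfin, hle⟩ := H46.card_torsion_le W hp hp2 hpF
  exact le_antisymm hle (sq_le_ncard_torsion W hΔ hp.two_le hpF hfin)

/-- **Exact count**, `torsionBy` form. -/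
theorem card_torsionBy_eq_field [IsAlgClosed F] (hΔ : W.Δ ≠ 0) {p : ℕ} (hp : p.Prime)
    (hp2 : p ≠ 2) (hpF : (p : F) ≠ 0) :
    Nat.card (Submodule.torsionBy ℤ W.toAffine.Point (p : ℤ)) = p ^ 2 := by
  have h := ncard_torsion_eq W hΔ hp hp2 hpF
  rw [← H59.coe_torsionBy] at h
  exact h

/-- the ladder polynomial `theta W (p / 2)` satisfies the polynomial criterion -/
theorem polyCriterion_theta {p : ℕ} (hodd : Odd p) :
    H59.PolyCriterion W p (H84.theta W (p / 2)) :=
  fun x y h => H84.torsion_criterion_field W hodd x y h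

/-- `theta W (p / 2)` has `(p ^ 2 - 1) / 2` distinct roots, and this is its degree -/
theorem card_roots_theta [IsAlgClosed F] (hΔ : W.Δ ≠ 0) {p : ℕ} (hp : p.Prime) (hp2 : p ≠ 2)
    (hpF : (p : F) ≠ 0) :
    (H84.theta W (p / 2)).roots.toFinset.card = (p ^ 2 - 1) / 2 ∧
      (H84.theta W (p / 2)).natDegree = (p ^ 2 - 1) / 2 := by
  have hodd : Odd p := hp.odd_of_ne_two hp2
  obtain ⟨j, rfl⟩ := hodd
  have e : (2 * j + 1) / 2 = j := by omega
  have hj : (2 * (j : F) + 1) ≠ 0 := by
    intro h0; apply hpF; push_cast; exact h0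
  have hdeg : (H84.theta W j).natDegree ≤ ((2 * j + 1) ^ 2 - 1) / 2 := by
    rw [H84.natDegree_theta W hj]
    have h3 : (2 * j + 1) ^ 2 = 2 * (2 * j ^ 2 + 2 * j) + 1 := by ring
    omega
  have := H59.PolyCriterion.card_roots_toFinset_eq (W := W) (n := 2 * j + 1) ⟨j, rfl⟩
    (H84.theta_ne_zero W hj) hdeg
    (by have := polyCriterion_theta W (p := 2 * j + 1) ⟨j, rfl⟩; rwa [e] at this)
    (ncard_torsion_eq W hΔ hp hp2 hpF).ge
  rw [e]
  exact this

/-- all roots of `theta W (p / 2)` are simple -/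
theorem roots_theta_nodup [IsAlgClosed F] (hΔ : W.Δ ≠ 0) {p : ℕ} (hp : p.Prime) (hp2 : p ≠ 2)
    (hpF : (p : F) ≠ 0) : (H84.theta W (p / 2)).roots.Nodup := by
  classical
  obtain ⟨h1, h2⟩ := card_roots_theta W hΔ hp hp2 hpF
  have h3 : Multiset.card (H84.theta W (p / 2)).roots ≤ (H84.theta W (p / 2)).natDegree :=
    card_roots' _
  have h4 : (H84.theta W (p / 2)).roots.toFinset.card ≤
      Multiset.card (H84.theta W (p / 2)).roots := Multiset.toFinset_card_le _
  rw [← Multiset.toFinset_card_eq_card_iff_nodup]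
  omega

/-- `theta W (p / 2)` is separable -/
theorem separable_theta [IsAlgClosed F] (hΔ : W.Δ ≠ 0) {p : ℕ} (hp : p.Prime) (hp2 : p ≠ 2)
    (hpF : (p : F) ≠ 0) : (H84.theta W (p / 2)).Separable := by
  have hodd : Odd p := hp.odd_of_ne_two hp2
  have hne : H84.theta W (p / 2) ≠ 0 := by
    obtain ⟨j, rfl⟩ := hodd
    have e : (2 * j + 1) / 2 = j := by omega
    rw [e]
    refine H84.theta_ne_zero W ?_
    intro h0; apply hpF; push_cast; exact h0
  exact (nodup_roots_iff_of_splits hne (IsAlgClosed.splits _)).mp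
    (roots_theta_nodup W hΔ hp hp2 hpF)

end Count

section BaseChange

variable {R : Type*} [CommRing R] {K : Type*} [Field K] [DecidableEq K] [Algebra R K]
  (W' : Affine R)

/-- **Exact count** in the prelude's base-change vocabulary: `#E[p](K) = p ^ 2`. -/
theorem card_torsionBy_eq [IsAlgClosed K] (hΔ : (W'⁄K).Δ ≠ 0) {p : ℕ} (hp : p.Prime)
    (hp2 : p ≠ 2) (hpK : (p : K) ≠ 0) :
    Nat.card (Submodule.torsionBy ℤ (W'⁄K).Point p) = p ^ 2 :=
  card_torsionBy_eq_field (W'⁄K) hΔ hp hp2 hpK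

end BaseChange

end Fermat.Agent.S41.H13
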