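/-
S41 / F-GL2-stable-line (helper49).

A group acting linearly on a 2-dimensional vector space over an arbitrary field, such that
every group element has a nonzero fixed vector, stabilises a line.

Mathlib only.
-/
import Mathlib

set_option autoImplicit false

namespace Fermat.Agent.S41.H49

open Matrix

section MatrixLemmas

variable {R : Type*} [CommRing R]

/-- For a `2 × 2` matrix `n` with `tr n = 0` and `det n = 0` (i.e. `n ^ 2 = 0`) one has
`n A n = tr (n A) • n`. -/
theorem mul_mul_self_eq_trace_smul (n A : Matrix (Fin 2) (Fin 2) R) (ht : n.trace = 0)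
    (hd : n.det = 0) : n * A * n = (n * A).trace • n := by
  rw [Matrix.trace_fin_two] at ht
  rw [Matrix.det_fin_two] at hd
  have hw : n 1 1 = - n 0 0 := by linear_combination ht
  ext i j
  fin_cases i <;> fin_cases j <;>
    simp [Matrix.mul_apply, Fin.sum_univ_two, Matrix.trace_fin_two, hw] at hd ⊢
  · linear_combination (-A 1 1) * hd
  · linear_combination (A 0 1) * hd
  · linear_combination (A 1 0) * hd
  · linear_combination (-A 0 0) * hd

/-- Cayley–Hamilton for `2 × 2` matrices in the form `det A • A' = tr A • 1 - A` when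
`A * A' = 1`. -/
theorem det_smul_inv_eq (A A' : Matrix (Fin 2) (Fin 2) R) (h : A * A' = 1) :
    A.det • A' = A.trace • (1 : Matrix (Fin 2) (Fin 2) R) - A := by
  have h1 : A.adjugate * (A * A') = A.adjugate := by rw [h, mul_one]
  rw [← mul_assoc, Matrix.adjugate_mul, Matrix.smul_mul, one_mul] at h1
  rw [h1, Matrix.adjugate_fin_two]
  ext i j
  fin_cases i <;> fin_cases j <;> simp [Matrix.trace_fin_two]

theorem det_sub_one_fin_two (H : Matrix (Fin 2) (Fin 2) R) :
    (H - 1).det = H.det - H.trace + 1 := by
  simp [Matrix.det_fin_two, Matrix.trace_fin_two]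
  ring

/-- The key computation: if `H` is unipotent (`tr H = 2`, `det H = 1`), `A` is invertible and
the product `H * (A H A⁻¹)` again has trace `2`, then `A` preserves the fixed line of `H`, in the
form `(H - 1) A (H - 1) = 0`. -/
theorem sub_one_mul_mul_sub_one_eq_zero {F : Type*} [Field F] (H A A' : Matrix (Fin 2) (Fin 2) F)
    (htr : H.trace = 2) (hdet : H.det = 1) (hA : A * A' = 1)
    (hconj : (H * (A * H * A')).trace = 2) :
    (H - 1) * A * (H - 1) = 0 := by
  set n := H - 1 with hn
  have hH : H = 1 + n := by rw [hn]; abel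
  have htn : n.trace = 0 := by
    rw [hn, Matrix.trace_sub, htr, Matrix.trace_one]; simp
  have hdn : n.det = 0 := by
    rw [hn, det_sub_one_fin_two, htr, hdet]; ring
  have hA' : A' * A = 1 := by rwa [mul_eq_one_comm]
  have hkey := mul_mul_self_eq_trace_smul n A htn hdn
  have h1 : H * (A * H * A') = 1 + A * n * A' + n + n * A * n * A' := by
    rw [hH]
    have : A * (1 + n) * A' = 1 + A * n * A' := by
      rw [mul_add, mul_one, add_mul, hA]
    rw [this, add_mul, one_mul, mul_add, mul_one]
    simp only [mul_assoc]
    abel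
  have h2 : (A * n * A').trace = 0 := by
    rw [Matrix.trace_mul_cycle, hA', one_mul, htn]
  have h3 : (n * A * n * A').trace = 0 := by
    have := hconj
    rw [h1, Matrix.trace_add, Matrix.trace_add, Matrix.trace_add, h2, htn, Matrix.trace_one]
      at this
    simp at this
    linear_combination this
  rw [hkey, Matrix.smul_mul, Matrix.trace_smul, smul_eq_mul] at h3
  have h4 : A.det * (n * A').trace = - (n * A).trace := by
    have := congrArg (fun X => (n * X).trace) (det_smul_inv_eq A A' hA)
    simp only [Matrix.mul_smul, Matrix.trace_smul, smul_eq_mul, Matrix.mul_sub, Matrix.trace_sub,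
      mul_one, htn, mul_zero, zero_sub] at this
    exact this
  have h5 : (n * A).trace = 0 := by
    have : (n * A).trace ^ 2 = 0 := by
      have := congrArg (fun t => A.det * t) h3
      simp only [mul_zero] at this
      linear_combination -this + (n * A).trace * h4
    exact pow_eq_zero_iff (two_ne_zero) |>.mp this
  rw [hkey, h5, zero_smul]

end MatrixLemmas

section StableLine

variable {F V G : Type*} [Field F] [AddCommGroup V] [Module F V] [Group G]

/-- **Stable line lemma.** Let `V` be a two-dimensional vector space over a field `F` and let a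
group `G` act linearly on `V` in such a way that every element of `G` fixes a nonzero vector.
Then `G` stabilises a line, i.e. a submodule different from `⊥` and `⊤`. -/
theorem exists_stable_line (h2 : Module.finrank F V = 2) (ρ : G →* (V →ₗ[F] V))
    (hfix : ∀ g, ∃ v : V, v ≠ 0 ∧ ρ g v = v) :
    ∃ N : Submodule F V, N ≠ ⊥ ∧ N ≠ ⊤ ∧ ∀ g, ∀ x ∈ N, ρ g x ∈ N := by
  classical
  have : Module.Finite F V := Module.finite_of_finrank_pos (by omega)
  let b : Module.Basis (Fin 2) F V := Module.finBasisOfFinrankEq F V h2
  let Φ := LinearMap.toMatrix b b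
  let M : G → Matrix (Fin 2) (Fin 2) F := fun g => Φ (ρ g)
  have hMmul : ∀ g h, M (g * h) = M g * M h := fun g h => by
    simp only [M, Φ, map_mul]
    exact LinearMap.toMatrix_mul b (ρ g) (ρ h)
  have hMone : M 1 = 1 := by
    simp only [M, Φ, map_one]
    exact LinearMap.toMatrix_one b
  have hMinv : ∀ g, M g * M g⁻¹ = 1 := fun g => by rw [← hMmul, mul_inv_cancel, hMone]
  have hdetinv : ∀ g, (M g).det * (M g⁻¹).det = 1 := fun g => by
    rw [← Matrix.det_mul, hMinv, Matrix.det_one]
  -- every `M g` has `tr = 1 + det`
  have hfixM : ∀ g, (M g).trace = 1 + (M g).det := by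
    intro g
    obtain ⟨v, hv, hgv⟩ := hfix g
    have h0 : (M g - 1).det = 0 := by
      rw [← Matrix.exists_mulVec_eq_zero_iff]
      refine ⟨b.repr v, ?_, ?_⟩
      · intro h
        exact hv (b.repr.map_eq_zero_iff.mp (DFunLike.coe_injective h))
      · rw [Matrix.sub_mulVec, Matrix.one_mulVec]
        have : M g *ᵥ (b.repr v) = b.repr (ρ g v) := LinearMap.toMatrix_mulVec_repr b b (ρ g) v
        rw [this, hgv, sub_self]
    rw [det_sub_one_fin_two] at h0
    linear_combination -h0
  -- nontrivial fixed-kernel facts
  have hker_ne_bot : ∀ g, LinearMap.ker (ρ g - 1) ≠ ⊥ := by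
    intro g h
    obtain ⟨v, hv, hgv⟩ := hfix g
    have : v ∈ LinearMap.ker (ρ g - 1) := by
      simp [LinearMap.mem_ker, hgv]
    rw [h] at this
    exact hv ((Submodule.mem_bot F).mp this)
  have hker_ne_top : ∀ g, ρ g ≠ 1 → LinearMap.ker (ρ g - 1) ≠ ⊤ := by
    intro g hg h
    apply hg
    have := LinearMap.ker_eq_top.mp h
    exact sub_eq_zero.mp this
  by_cases hc : ∃ h₀, (M h₀).det = 1 ∧ ρ h₀ ≠ 1
  · -- Case 1: a nontrivial unipotent element
    obtain ⟨h₀, hdet, hne⟩ := hc
    have htr : (M h₀).trace = 2 := by rw [hfixM, hdet]; norm_num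
    set n₀ : V →ₗ[F] V := ρ h₀ - 1 with hn₀
    have hΦn : Φ n₀ = M h₀ - 1 := by
      simp only [hn₀, map_sub, M]
      congr 1
      exact LinearMap.toMatrix_one b
    have hzero : ∀ g, n₀ * ρ g * n₀ = 0 := by
      intro g
      have hconj : (M h₀ * (M g * M h₀ * M g⁻¹)).trace = 2 := by
        rw [← hMmul, ← hMmul, ← hMmul, hfixM]
        rw [hMmul, hMmul, hMmul, Matrix.det_mul, Matrix.det_mul, Matrix.det_mul, hdet]
        have := hdetinv g
        linear_combination this
      have := sub_one_mul_mul_sub_one_eq_zero (M h₀) (M g) (M g⁻¹) htr hdet (hMinv g) hconj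
      apply Φ.injective
      rw [map_zero]
      have e : Φ (n₀ * ρ g * n₀) = Φ n₀ * Φ (ρ g) * Φ n₀ := by
        simp only [Φ]
        rw [LinearMap.toMatrix_mul, LinearMap.toMatrix_mul]
      rw [e, hΦn]
      exact this
    have hsq : n₀ * n₀ = 0 := by
      have := hzero 1
      rwa [map_one, mul_one] at this
    have hn₀ne : n₀ ≠ 0 := fun h => hne (sub_eq_zero.mp h)
    -- range = ker
    have hle : LinearMap.range n₀ ≤ LinearMap.ker n₀ := by
      rintro x ⟨y, rfl⟩
      rw [LinearMap.mem_ker]
      have := congrArg (fun f : V →ₗ[F] V => f y) hsq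
      simpa using this
    have hrange_ne : LinearMap.range n₀ ≠ ⊥ := by
      intro h
      exact hn₀ne (LinearMap.range_eq_bot.mp h)
    have hkertop : LinearMap.ker n₀ ≠ ⊤ := hker_ne_top h₀ hne
    have hsum := LinearMap.finrank_range_add_finrank_ker n₀
    rw [h2] at hsum
    have hr1 : 1 ≤ Module.finrank F (LinearMap.range n₀) := by
      rw [Nat.one_le_iff_ne_zero]
      intro h
      exact hrange_ne (Submodule.finrank_eq_zero.mp h)
    have hrk : Module.finrank F (LinearMap.range n₀) ≤ Module.finrank F (LinearMap.ker n₀) :=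
      Submodule.finrank_mono hle
    have heq : LinearMap.range n₀ = LinearMap.ker n₀ :=
      Submodule.eq_of_le_of_finrank_eq hle (by omega)
    refine ⟨LinearMap.ker n₀, hker_ne_bot h₀, hkertop, ?_⟩
    intro g x hx
    rw [← heq] at hx
    obtain ⟨y, rfl⟩ := hx
    rw [LinearMap.mem_ker]
    have := congrArg (fun f : V →ₗ[F] V => f y) (hzero g)
    simpa using this
  · -- Case 2: all determinant one elements act trivially, so the image is commutative
    have hc' : ∀ h, (M h).det = 1 → ρ h = 1 := by
      intro h hd
      by_contra hne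
      exact hc ⟨h, hd, hne⟩
    have hcomm : ∀ g g', ρ g * ρ g' = ρ g' * ρ g := by
      intro g g'
      have hd : (M (g * g' * g⁻¹ * g'⁻¹)).det = 1 := by
        rw [hMmul, hMmul, hMmul, Matrix.det_mul, Matrix.det_mul, Matrix.det_mul]
        have h1 := hdetinv g
        have h2 := hdetinv g'
        linear_combination (M g').det * (M g'⁻¹).det * h1 + h2
      have h1 := hc' _ hd
      have h2 : ρ (g * g' * g⁻¹ * g'⁻¹) * ρ (g' * g) = ρ (g * g') := by
        rw [← map_mul]
        congr 1
        group
      rw [h1, one_mul] at h2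
      rw [← map_mul, ← map_mul, h2]
    by_cases ht : ∀ g, ρ g = 1
    · refine ⟨Submodule.span F {b 0}, ?_, ?_, ?_⟩
      · intro h
        have : b 0 ∈ Submodule.span F {b 0} := Submodule.mem_span_singleton_self _
        rw [h] at this
        exact b.ne_zero 0 ((Submodule.mem_bot F).mp this)
      · intro h
        have h1 : Module.finrank F (Submodule.span F {b 0}) = 1 :=
          finrank_span_singleton (b.ne_zero 0)
        rw [h, finrank_top, h2] at h1
        omega
      · intro g x hx
        rw [ht g]
        exact hx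
    · push Not at ht
      obtain ⟨g₁, hg₁⟩ := ht
      refine ⟨LinearMap.ker (ρ g₁ - 1), hker_ne_bot g₁, hker_ne_top g₁ hg₁, ?_⟩
      intro g x hx
      rw [LinearMap.mem_ker] at hx ⊢
      have hx' : ρ g₁ x = x := by
        have := hx
        simp only [LinearMap.sub_apply, Module.End.one_apply] at this
        exact sub_eq_zero.mp this
      have hcm := congrArg (fun f : V →ₗ[F] V => f x) (hcomm g₁ g)
      simp only [Module.End.mul_apply] at hcm
      simp only [LinearMap.sub_apply, Module.End.one_apply]
      rw [hcm, hx', sub_self]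

/-- Consumer form: a group acting additively (`DistribMulAction`) on a two-dimensional
`ZMod p`-vector space such that every element fixes a nonzero vector stabilises a line.
This is the shape of `IsGaloisStable` / `GaloisRepIsIrreducible` in the prelude. -/
theorem exists_stable_submodule_of_distribMulAction {p : ℕ} [Fact p.Prime] {V G : Type*}
    [AddCommGroup V] [Module (ZMod p) V] [Group G] [DistribMulAction G V]
    (h2 : Module.finrank (ZMod p) V = 2) (hfix : ∀ g : G, ∃ v : V, v ≠ 0 ∧ g • v = v) :
    ∃ N : Submodule (ZMod p) V, N ≠ ⊥ ∧ N ≠ ⊤ ∧ ∀ g : G, ∀ x ∈ N, g • x ∈ N := by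
  let ρ : G →* (V →ₗ[ZMod p] V) :=
    { toFun := fun g => (DistribSMul.toAddMonoidHom V g).toZModLinearMap p
      map_one' := by
        ext x
        simp
      map_mul' := by
        intro g h
        ext x
        simp [mul_smul] }
  have hρ : ∀ g x, ρ g x = g • x := fun g x => rfl
  obtain ⟨N, h1, h3, h4⟩ := exists_stable_line h2 ρ (fun g => by
    obtain ⟨v, hv, hgv⟩ := hfix g
    exact ⟨v, hv, by rw [hρ, hgv]⟩)
  exact ⟨N, h1, h3, fun g x hx => by rw [← hρ]; exact h4 g x hx⟩

end StableLine

end Fermat.Agent.S41.H49
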