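import Mathlib
import Fermat.Prelude.Def_FLTPrelim_Modularity
import Fermat.Prelude.Def_EllipticCurve_FrobeniusTrace
import Fermat.Agent.S05.H38_Gal
import Fermat.Agent.S05.H79_VarChange
import Fermat.Agent.S13.H84_Struct
import Fermat.Agent.S13.H89_GF3

/-!
# A rational point of order `p` on the reduction gives a fixed `p`-torsion point (S41, part (f))

`W : WeierstrassCurve ℤ`, `l` a prime of good reduction, `p ≠ l` an odd prime dividing the number
of points of `W` over `ZMod l`.  Then for every place `A` of `Qbar` over `l` there is a nonzero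
`p`-torsion point of `W` over `Qbar` which is fixed by the whole decomposition group of `A`,
in particular by every Frobenius element at `A`.
-/

set_option autoImplicit false

namespace Fermat.Agent.S41.H84

open Polynomial WeierstrassCurve WeierstrassCurve.Affine

section Roots

variable {K : Type*} [Field K] [IsAlgClosed K] {Γ : Type*} [LinearOrderedCommGroupWithZero Γ]

/-- if the leading coefficient of `f` is a unit and `f x₀` lies in the maximal ideal, then `x₀`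
is congruent to a root of `f`. -/
lemma exists_root_close (v : Valuation K Γ) (f : K[X]) (hlead : v f.leadingCoeff = 1)
    (x₀ : K) (h : v (f.eval x₀) < 1) : ∃ r, f.eval r = 0 ∧ v (x₀ - r) < 1 := by
  have hf0 : f ≠ 0 := by
    rintro rfl
    simp at hlead
  have hf := C_leadingCoeff_mul_prod_multiset_X_sub_C
    (IsAlgClosed.card_roots_eq_natDegree (p := f))
  by_contra hcon
  push Not at hcon
  have hall : ∀ r ∈ f.roots, 1 ≤ v (x₀ - r) := fun r hr =>
    hcon r ((mem_roots hf0).mp hr)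
  have hev : f.eval x₀ = f.leadingCoeff * (f.roots.map (fun r => x₀ - r)).prod := by
    conv_lhs => rw [← hf]
    rw [eval_mul, eval_C, eval_multiset_prod, Multiset.map_map]
    refine congrArg _ (congrArg _ (Multiset.map_congr rfl fun r _ => ?_))
    simp
  rw [hev, map_mul, hlead, one_mul, map_multiset_prod, Multiset.map_map] at h
  have h1 : 1 ≤ (f.roots.map ((v : K → Γ) ∘ fun r => x₀ - r)).prod := by
    apply Multiset.one_le_prod_of_one_le
    intro z hz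
    obtain ⟨r, hr, rfl⟩ := Multiset.mem_map.mp hz
    exact hall r hr
  exact absurd h (not_lt.mpr h1)

end Roots

section Sing

variable {K : Type*} [Field K] {Γ : Type*} [LinearOrderedCommGroupWithZero Γ]
  (v : Valuation K Γ)

/-- the discriminant lies in the ideal generated by the equation and the two partial
derivatives -/
lemma Δ_eq_comb (W : WeierstrassCurve K) (x y : K) :
    W.Δ =
      -(y ^ 2 + W.a₁ * x * y + W.a₃ * y - (x ^ 3 + W.a₂ * x ^ 2 + W.a₄ * x + W.a₆)) *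
        (-W.a₁ ^ 6 - 12 * W.a₁ ^ 4 * (W.a₂ + 3 * x) + 36 * W.a₁ ^ 3 * (2 * y + W.a₁ * x + W.a₃)
          - 48 * W.a₁ ^ 2 * (W.a₂ + 3 * x) ^ 2
          + 72 * W.a₁ ^ 2 * (3 * x ^ 2 + 2 * W.a₂ * x + W.a₄ - W.a₁ * y)
          + 144 * W.a₁ * (W.a₂ + 3 * x) * (2 * y + W.a₁ * x + W.a₃) - 64 * (W.a₂ + 3 * x) ^ 3
          + 288 * (W.a₂ + 3 * x) * (3 * x ^ 2 + 2 * W.a₂ * x + W.a₄ - W.a₁ * y)
          - 216 * (2 * y + W.a₁ * x + W.a₃) ^ 2
          - 432 * -(y ^ 2 + W.a₁ * x * y + W.a₃ * y - (x ^ 3 + W.a₂ * x ^ 2 + W.a₄ * x + W.a₆)))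
      + (3 * x ^ 2 + 2 * W.a₂ * x + W.a₄ - W.a₁ * y) *
        (W.a₁ ^ 5 * (2 * y + W.a₁ * x + W.a₃)
          + W.a₁ ^ 4 * (3 * x ^ 2 + 2 * W.a₂ * x + W.a₄ - W.a₁ * y)
          + 8 * W.a₁ ^ 3 * (W.a₂ + 3 * x) * (2 * y + W.a₁ * x + W.a₃)
          + 8 * W.a₁ ^ 2 * (W.a₂ + 3 * x) * (3 * x ^ 2 + 2 * W.a₂ * x + W.a₄ - W.a₁ * y)
          - 30 * W.a₁ ^ 2 * (2 * y + W.a₁ * x + W.a₃) ^ 2
          + 16 * W.a₁ * (W.a₂ + 3 * x) ^ 2 * (2 * y + W.a₁ * x + W.a₃)
          - 96 * W.a₁ * (2 * y + W.a₁ * x + W.a₃) * (3 * x ^ 2 + 2 * W.a₂ * x + W.a₄ - W.a₁ * y)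
          + 16 * (W.a₂ + 3 * x) ^ 2 * (3 * x ^ 2 + 2 * W.a₂ * x + W.a₄ - W.a₁ * y)
          + 72 * (W.a₂ + 3 * x) * (2 * y + W.a₁ * x + W.a₃) ^ 2
          - 64 * (3 * x ^ 2 + 2 * W.a₂ * x + W.a₄ - W.a₁ * y) ^ 2)
      + (2 * y + W.a₁ * x + W.a₃) *
        (-W.a₁ ^ 4 * (W.a₂ + 3 * x) * (2 * y + W.a₁ * x + W.a₃)
          + W.a₁ ^ 3 * (2 * y + W.a₁ * x + W.a₃) ^ 2
          - 8 * W.a₁ ^ 2 * (W.a₂ + 3 * x) ^ 2 * (2 * y + W.a₁ * x + W.a₃)
          + 36 * W.a₁ * (W.a₂ + 3 * x) * (2 * y + W.a₁ * x + W.a₃) ^ 2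
          - 16 * (W.a₂ + 3 * x) ^ 3 * (2 * y + W.a₁ * x + W.a₃)
          - 27 * (2 * y + W.a₁ * x + W.a₃) ^ 3) := by
  simp only [WeierstrassCurve.Δ, WeierstrassCurve.b₂, WeierstrassCurve.b₄, WeierstrassCurve.b₆,
    WeierstrassCurve.b₈]
  ring


/-- integrality of the equation, the discriminant being a unit: one of the two partial derivatives
is a unit at every integral point of the curve. -/
lemma unit_of_good (W : WeierstrassCurve K) (h₁ : v W.a₁ ≤ 1) (h₂ : v W.a₂ ≤ 1)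
    (h₃ : v W.a₃ ≤ 1) (h₄ : v W.a₄ ≤ 1) (hΔ : v W.Δ = 1) {x y : K}
    (heq : W.toAffine.Equation x y) (hx : v x ≤ 1) (hy : v y ≤ 1) :
    v (2 * y + W.a₁ * x + W.a₃) = 1 ∨
      v (3 * x ^ 2 + 2 * W.a₂ * x + W.a₄ - W.a₁ * y) = 1 := by
  have key : ∀ z : v.valuationSubring, v (z : K) ≤ 1 := fun z =>
    (Valuation.mem_valuationSubring_iff v _).mp z.2
  let a1 : v.valuationSubring := ⟨W.a₁, (Valuation.mem_valuationSubring_iff v _).mpr h₁⟩
  let a2 : v.valuationSubring := ⟨W.a₂, (Valuation.mem_valuationSubring_iff v _).mpr h₂⟩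
  let a3 : v.valuationSubring := ⟨W.a₃, (Valuation.mem_valuationSubring_iff v _).mpr h₃⟩
  let a4 : v.valuationSubring := ⟨W.a₄, (Valuation.mem_valuationSubring_iff v _).mpr h₄⟩
  let x' : v.valuationSubring := ⟨x, (Valuation.mem_valuationSubring_iff v _).mpr hx⟩
  let y' : v.valuationSubring := ⟨y, (Valuation.mem_valuationSubring_iff v _).mpr hy⟩
  have e1 : W.a₁ = (a1 : K) := rfl
  have e2 : W.a₂ = (a2 : K) := rfl
  have e3 : W.a₃ = (a3 : K) := rfl
  have e4 : W.a₄ = (a4 : K) := rfl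
  have ex : x = (x' : K) := rfl
  have ey : y = (y' : K) := rfl
  rw [Affine.equation_iff] at heq
  have hE : y ^ 2 + W.a₁ * x * y + W.a₃ * y - (x ^ 3 + W.a₂ * x ^ 2 + W.a₄ * x + W.a₆) = 0 := by
    linear_combination heq
  have hcomb := Δ_eq_comb W x y
  rw [hE] at hcomb
  set ψ : v.valuationSubring := 2 * y' + a1 * x' + a3 with hψ
  set g : v.valuationSubring := 3 * x' ^ 2 + 2 * a2 * x' + a4 - a1 * y' with hg
  set A2 : v.valuationSubring := a2 + 3 * x' with hA2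
  have eψ : 2 * y + W.a₁ * x + W.a₃ = (ψ : K) := rfl
  have eg : 3 * x ^ 2 + 2 * W.a₂ * x + W.a₄ - W.a₁ * y = (g : K) := rfl
  have eA : W.a₂ + 3 * x = (A2 : K) := rfl
  rw [eψ, eg, eA, e1] at hcomb
  rw [eψ, eg]
  have hcomb' : W.Δ = (g : K) * ((a1 ^ 5 * ψ + a1 ^ 4 * g
          + 8 * a1 ^ 3 * A2 * ψ + 8 * a1 ^ 2 * A2 * g - 30 * a1 ^ 2 * ψ ^ 2
          + 16 * a1 * A2 ^ 2 * ψ - 96 * a1 * ψ * g + 16 * A2 ^ 2 * g + 72 * A2 * ψ ^ 2
          - 64 * g ^ 2 : v.valuationSubring) : K)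
        + (ψ : K) * ((-a1 ^ 4 * A2 * ψ + a1 ^ 3 * ψ ^ 2
          - 8 * a1 ^ 2 * A2 ^ 2 * ψ + 36 * a1 * A2 * ψ ^ 2 - 16 * A2 ^ 3 * ψ
          - 27 * ψ ^ 3 : v.valuationSubring) : K) := by
    rw [hcomb, neg_zero, zero_mul, zero_add]
    rfl
  by_contra hcon
  push Not at hcon
  obtain ⟨hψ1, hg1⟩ := hcon
  have hψlt : v (ψ : K) < 1 := lt_of_le_of_ne (key ψ) hψ1
  have hglt : v (g : K) < 1 := lt_of_le_of_ne (key g) hg1
  have hlt : v W.Δ < 1 := by
    rw [hcomb']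
    refine v.map_add_lt ?_ ?_
    · rw [map_mul]
      refine lt_of_le_of_lt (mul_le_mul_right (key _) _) ?_
      rw [mul_one]; exact hglt
    · rw [map_mul]
      refine lt_of_le_of_lt (mul_le_mul_right (key _) _) ?_
      rw [mul_one]; exact hψlt
  exact absurd hΔ hlt.ne

end Sing

section Lift

variable {K : Type*} [Field K] [IsAlgClosed K] [DecidableEq K] {Γ : Type*}
  [LinearOrderedCommGroupWithZero Γ] (v : Valuation K Γ)

open Fermat.Agent.S13.H84 Fermat.Agent.S13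

/-- **Hensel-type lifting over an algebraically closed valued field**: an approximate solution of
the system (Weierstrass equation, ladder polynomial) lifts to an honest `p`-torsion point in the
same residue class. -/
theorem exists_torsion_close (W : WeierstrassCurve K) (h₁ : v W.a₁ ≤ 1) (h₂ : v W.a₂ ≤ 1)
    (h₄ : v W.a₄ ≤ 1) (hΔ : v W.Δ = 1) {p : ℕ}
    (hodd : Odd p) (hpv : v (p : K) = 1) (x₀ y₀ : K) (hx₀ : v x₀ ≤ 1) (hy₀ : v y₀ ≤ 1)
    (hE : v (y₀ ^ 2 + W.a₁ * x₀ * y₀ + W.a₃ * y₀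
      - (x₀ ^ 3 + W.a₂ * x₀ ^ 2 + W.a₄ * x₀ + W.a₆)) < 1)
    (hΘ : v ((theta W (p / 2)).eval x₀) < 1) :
    ∃ (x y : K) (h : W.toAffine.Nonsingular x y),
      p • (Point.some x y h : W.toAffine.Point) = 0 ∧ v (x₀ - x) < 1 ∧ v (y₀ - y) < 1 ∧
        v x ≤ 1 ∧ v y ≤ 1 := by
  obtain ⟨j, rfl⟩ := hodd
  have e : (2 * j + 1) / 2 = j := by omega
  rw [e] at hΘ
  have hj : (2 * (j : K) + 1) ≠ 0 := by
    intro h0
    have : ((2 * j + 1 : ℕ) : K) = 0 := by push_cast; exact h0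
    rw [this, map_zero] at hpv
    exact zero_ne_one hpv
  have hlead : v (theta W j).leadingCoeff = 1 := by
    rw [leadingCoeff_theta W hj, Valuation.map_neg]
    have : (2 * (j : K) + 1) = ((2 * j + 1 : ℕ) : K) := by push_cast; ring
    rw [this]; exact hpv
  obtain ⟨x, hx0, hxx⟩ := exists_root_close v (theta W j) hlead x₀ hΘ
  have hx : v x ≤ 1 := by
    have : x = x₀ - (x₀ - x) := by ring
    rw [this]
    exact v.map_sub_le hx₀ hxx.le
  -- the fibre quadratic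
  set q : K[X] := C 1 * X ^ 2 + C (W.a₁ * x + W.a₃) * X
    + C (-(x ^ 3 + W.a₂ * x ^ 2 + W.a₄ * x + W.a₆)) with hq
  have hqlead : q.leadingCoeff = 1 := leadingCoeff_quadratic one_ne_zero
  have hqev : ∀ t, q.eval t =
      t ^ 2 + W.a₁ * x * t + W.a₃ * t - (x ^ 3 + W.a₂ * x ^ 2 + W.a₄ * x + W.a₆) := by
    intro t; rw [hq]; simp; ring
  have hqy₀ : v (q.eval y₀) < 1 := by
    have : q.eval y₀ = (y₀ ^ 2 + W.a₁ * x₀ * y₀ + W.a₃ * y₀
        - (x₀ ^ 3 + W.a₂ * x₀ ^ 2 + W.a₄ * x₀ + W.a₆))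
        + (x₀ - x) * (x ^ 2 + x * x₀ + x₀ ^ 2 + W.a₂ * (x + x₀) + W.a₄ - W.a₁ * y₀) := by
      rw [hqev]; ring
    rw [this]
    refine v.map_add_lt hE (H89.val_mul_lt_one_of_left v hxx ?_)
    refine v.map_sub_le (v.map_add_le (v.map_add_le (v.map_add_le (v.map_add_le ?_ ?_) ?_) ?_) h₄)
      (H89.val_mul_le_one v h₁ hy₀)
    · exact H89.val_pow_le_one v hx 2
    · exact H89.val_mul_le_one v hx hx₀
    · exact H89.val_pow_le_one v hx₀ 2
    · exact H89.val_mul_le_one v h₂ (v.map_add_le hx hx₀)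
  obtain ⟨y, hy0, hyy⟩ := exists_root_close v q (by rw [hqlead, map_one]) y₀ hqy₀
  have hy : v y ≤ 1 := by
    have : y = y₀ - (y₀ - y) := by ring
    rw [this]
    exact v.map_sub_le hy₀ hyy.le
  have heq : W.toAffine.Equation x y := by
    rw [Affine.equation_iff]
    rw [hqev] at hy0
    linear_combination hy0
  have hΔ0 : W.Δ ≠ 0 := by
    intro h0; rw [h0, map_zero] at hΔ; exact zero_ne_one hΔ
  have hns : W.toAffine.Nonsingular x y := (equation_iff_nonsingular_of_Δ_ne_zero hΔ0).mp heq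
  refine ⟨x, y, hns, ?_, hxx, hyy, hx, hy⟩
  rw [torsion_criterion_field W ⟨j, rfl⟩ x y hns, e]
  exact hx0

end Lift

section ModL

open Fermat.Agent.S13.H84 Fermat.Agent.S13 Fermat.Agent.S05

/-- a point of order `p` on the reduction modulo `l`, in terms of integers -/
theorem exists_int_approx (W : WeierstrassCurve ℤ) {p l : ℕ} (hp : p.Prime) (hodd : Odd p)
    (hl : l.Prime) (hdvd : p ∣ Nat.card (W.reductionMod l).toAffine.Point) :
    ∃ X Y : ℤ, (l : ℤ) ∣ (Y ^ 2 + W.a₁ * X * Y + W.a₃ * Y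
        - (X ^ 3 + W.a₂ * X ^ 2 + W.a₄ * X + W.a₆)) ∧
      (l : ℤ) ∣ (theta W (p / 2)).eval X := by
  haveI : Fact l.Prime := ⟨hl⟩
  haveI : Fact p.Prime := ⟨hp⟩
  obtain ⟨P, hP⟩ := exists_prime_addOrderOf_dvd_card' (G := (W.reductionMod l).toAffine.Point)
    p hdvd
  have hP0 : P ≠ 0 := by
    rintro rfl
    rw [addOrderOf_zero] at hP
    exact hp.one_lt.ne hP
  have hpP : p • P = 0 := by rw [← hP]; exact addOrderOf_nsmul_eq_zero P
  obtain ⟨x, y, h, rfl⟩ := H67.exists_of_ne_zero _ hP0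
  rw [torsion_criterion_field (W.reductionMod l) hodd x y h] at hpP
  obtain ⟨X, rfl⟩ := ZMod.intCast_surjective x
  obtain ⟨Y, rfl⟩ := ZMod.intCast_surjective y
  refine ⟨X, Y, ?_, ?_⟩
  · rw [← ZMod.intCast_zmod_eq_zero_iff_dvd]
    have heq := h.1
    rw [Affine.equation_iff] at heq
    simp only [WeierstrassCurve.reductionMod, WeierstrassCurve.map_a₁, WeierstrassCurve.map_a₂,
      WeierstrassCurve.map_a₃, WeierstrassCurve.map_a₄, WeierstrassCurve.map_a₆,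
      eq_intCast] at heq
    push_cast
    linear_combination heq
  · rw [← ZMod.intCast_zmod_eq_zero_iff_dvd]
    rw [WeierstrassCurve.reductionMod, ← map_theta] at hpP
    have := Polynomial.eval_map_apply (p := theta W (p / 2)) (f := Int.castRingHom (ZMod l)) X
    rw [eq_intCast, eq_intCast] at this
    rw [← this]
    exact hpP

end ModL

section Main

local notation "Qb" => AlgebraicClosure ℚ

attribute [local instance 10000] AlgebraicClosure.instAlgebra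

open Fermat.Agent.S13.H84 Fermat.Agent.S13 Fermat.Agent.S05 WeierstrassCurve.Affine.Point

lemma valuation_intCast_lt_one_of_dvd {A : ValuationSubring Qb} {l : ℕ}
    (hA : A.LiesOverPrime l) {n : ℤ} (h : (l : ℤ) ∣ n) : A.valuation (n : Qb) < 1 := by
  obtain ⟨k, rfl⟩ := h
  push_cast
  rw [map_mul]
  calc A.valuation (l : Qb) * A.valuation (k : Qb)
      ≤ A.valuation (l : Qb) * 1 := by
        gcongr; exact H38.valuation_intCast_le_one A k
    _ < 1 := by rw [mul_one]; exact H38.valuation_natCast_lt_one hA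

/-- the ladder polynomial of the base change to `Qb` of an integral model -/
lemma theta_baseChange_int (W : WeierstrassCurve ℤ) (j : ℕ) :
    theta ((W.map (Int.castRingHom ℚ) : Affine ℚ)⁄Qb) j =
      (theta W j).map (Int.castRingHom Qb) := by
  have h1 : Int.castRingHom Qb = (algebraMap ℚ Qb).comp (Int.castRingHom ℚ) :=
    RingHom.ext_int _ _
  rw [h1, ← Polynomial.map_map, map_theta, map_theta]
  rfl

/-- **A point of order `p` on the reduction at a good prime `l ≠ p` lifts to a `p`-torsion point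
fixed by the whole decomposition group** of any place of `Qb` over `l`. -/
theorem exists_torsion_fixed_by_decomposition (W : WeierstrassCurve ℤ) {p l : ℕ} (hp : p.Prime)
    (hp2 : p ≠ 2) (hl : l.Prime) (hlp : l ≠ p) (hgood : W.IsGoodPrimeFor l)
    (hdvd : p ∣ Nat.card (W.reductionMod l).toAffine.Point)
    (A : ValuationSubring Qb) (hA : A.LiesOverPrime l) :
    ∃ x : Submodule.torsionBy ℤ ((W.map (Int.castRingHom ℚ) : Affine ℚ)⁄Qb).Point p, x ≠ 0 ∧
      ∀ φ ∈ A.decompositionSubgroup ℚ, φ • x = x := by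
  have hodd : Odd p := hp.odd_of_ne_two hp2
  obtain ⟨X, Y, hXY, hΘX⟩ := exists_int_approx W hp hodd hl hdvd
  set WQ : WeierstrassCurve ℚ := W.map (Int.castRingHom ℚ) with hWQ
  have ha₁ : ((WQ : Affine ℚ)⁄Qb).a₁ = ((W.a₁ : ℤ) : Qb) := by
    simp [hWQ, WeierstrassCurve.baseChange]
  have ha₂ : ((WQ : Affine ℚ)⁄Qb).a₂ = ((W.a₂ : ℤ) : Qb) := by
    simp [hWQ, WeierstrassCurve.baseChange]
  have ha₃ : ((WQ : Affine ℚ)⁄Qb).a₃ = ((W.a₃ : ℤ) : Qb) := by
    simp [hWQ, WeierstrassCurve.baseChange]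
  have ha₄ : ((WQ : Affine ℚ)⁄Qb).a₄ = ((W.a₄ : ℤ) : Qb) := by
    simp [hWQ, WeierstrassCurve.baseChange]
  have ha₆ : ((WQ : Affine ℚ)⁄Qb).a₆ = ((W.a₆ : ℤ) : Qb) := by
    simp [hWQ, WeierstrassCurve.baseChange]
  have hΔ' : ((WQ : Affine ℚ)⁄Qb).Δ = ((W.Δ : ℤ) : Qb) := by
    simp [hWQ, WeierstrassCurve.baseChange]
  have h₁ : A.valuation ((WQ : Affine ℚ)⁄Qb).a₁ ≤ 1 := by
    rw [ha₁]; exact H38.valuation_intCast_le_one A _
  have h₂ : A.valuation ((WQ : Affine ℚ)⁄Qb).a₂ ≤ 1 := by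
    rw [ha₂]; exact H38.valuation_intCast_le_one A _
  have h₃ : A.valuation ((WQ : Affine ℚ)⁄Qb).a₃ ≤ 1 := by
    rw [ha₃]; exact H38.valuation_intCast_le_one A _
  have h₄ : A.valuation ((WQ : Affine ℚ)⁄Qb).a₄ ≤ 1 := by
    rw [ha₄]; exact H38.valuation_intCast_le_one A _
  have h₆ : A.valuation ((WQ : Affine ℚ)⁄Qb).a₆ ≤ 1 := by
    rw [ha₆]; exact H38.valuation_intCast_le_one A _
  have hΔ : A.valuation ((WQ : Affine ℚ)⁄Qb).Δ = 1 := by
    rw [hΔ']; exact H38.valuation_intCast_eq_one hl hA hgood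
  have hpv : A.valuation ((p : ℕ) : Qb) = 1 := by
    have hnd : ¬ (l : ℤ) ∣ (p : ℤ) := by
      intro h
      exact hlp ((Nat.prime_dvd_prime_iff_eq hl hp).mp (Int.natCast_dvd_natCast.mp h))
    have := H38.valuation_intCast_eq_one hl hA hnd
    simpa using this
  have hE : A.valuation (((Y : ℤ) : Qb) ^ 2 + ((WQ : Affine ℚ)⁄Qb).a₁ * (X : Qb) * (Y : Qb)
      + ((WQ : Affine ℚ)⁄Qb).a₃ * (Y : Qb)
      - (((X : ℤ) : Qb) ^ 3 + ((WQ : Affine ℚ)⁄Qb).a₂ * (X : Qb) ^ 2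
        + ((WQ : Affine ℚ)⁄Qb).a₄ * (X : Qb) + ((WQ : Affine ℚ)⁄Qb).a₆)) < 1 := by
    have := valuation_intCast_lt_one_of_dvd hA hXY
    rw [ha₁, ha₂, ha₃, ha₄, ha₆]
    push_cast at this
    exact this
  have hΘ : A.valuation ((theta ((WQ : Affine ℚ)⁄Qb) (p / 2)).eval ((X : ℤ) : Qb)) < 1 := by
    have := valuation_intCast_lt_one_of_dvd hA hΘX
    rw [theta_baseChange_int]
    have e := Polynomial.eval_map_apply (p := theta W (p / 2)) (f := Int.castRingHom Qb) X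
    rw [eq_intCast, eq_intCast] at e
    rw [e]
    exact this
  obtain ⟨x, y, h, hT, hxx, hyy, hx, hy⟩ := exists_torsion_close A.valuation
    ((WQ : Affine ℚ)⁄Qb) h₁ h₂ h₄ hΔ hodd hpv (X : Qb) (Y : Qb)
    (H38.valuation_intCast_le_one A X) (H38.valuation_intCast_le_one A Y) hE hΘ
  refine ⟨⟨Point.some x y h, (H59.mem_torsionBy_iff_nsmul _).mpr hT⟩, ?_, ?_⟩
  · intro h0
    exact Point.some_ne_zero h (congrArg Subtype.val h0)
  · intro φ hφ
    apply Subtype.ext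
    rw [H38.coe_smul_torsion]
    have hclose : ∀ (z : Qb) (Z : ℤ), A.valuation ((Z : Qb) - z) < 1 →
        A.valuation (z - φ z) < 1 := by
      intro z Z hz
      have e : z - φ z = φ ((Z : Qb) - z) - ((Z : Qb) - z) := by
        rw [map_sub, H38.apply_intCast]; ring
      rw [e]
      refine A.valuation.map_sub_lt ?_ hz
      rw [← ValuationSubring.mem_nonunits_iff, H38.apply_mem_nonunits_iff_of_mem_decomposition hφ,
        ValuationSubring.mem_nonunits_iff]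
      exact hz
    obtain ⟨hb₂, hb₄, hb₆, hb₈⟩ := H89.val_b_le_one A.valuation _ h₁ h₂ h₃ h₄ h₆
    have hF1 := H89.noTorsionInE1 A.valuation ((WQ : Affine ℚ)⁄Qb) hb₂ hb₄ hb₆ hb₈ hpv
    obtain ⟨ex, ey⟩ := H89.coords_fixed_of_close A.valuation ((WQ : Affine ℚ)⁄Qb) h₁ h₂ h₃ hF1
      (DistribSMul.toAddMonoidHom ((WQ : Affine ℚ)⁄Qb).Point φ) φ
      (fun x y h => ⟨H38.nonsingular_apply WQ φ h, rfl⟩) h hT hx hy (hclose x X hxx)
      (hclose y Y hyy) (unit_of_good A.valuation _ h₁ h₂ h₃ h₄ hΔ h.1 hx hy)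
    exact H38.smul_some_eq_self WQ φ h ex ey


/-- the same for any curve `E` over `ℚ` of which `W` is an integral model -/
theorem exists_torsion_fixed_of_integralModel (E : WeierstrassCurve ℚ) {W : WeierstrassCurve ℤ}
    (hW : W.IsIntegralModelOf E) {p l : ℕ} (hp : p.Prime)
    (hp2 : p ≠ 2) (hl : l.Prime) (hlp : l ≠ p) (hgood : W.IsGoodPrimeFor l)
    (hdvd : p ∣ Nat.card (W.reductionMod l).toAffine.Point)
    (A : ValuationSubring Qb) (hA : A.LiesOverPrime l) :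
    ∃ x : Submodule.torsionBy ℤ ((E : Affine ℚ)⁄Qb).Point p, x ≠ 0 ∧
      ∀ φ ∈ A.decompositionSubgroup ℚ, φ • x = x := by
  obtain ⟨C, hC⟩ := hW
  have key : ∀ WQ : WeierstrassCurve ℚ, WQ = W.map (Int.castRingHom ℚ) →
      ∃ x : Submodule.torsionBy ℤ ((WQ : Affine ℚ)⁄Qb).Point p, x ≠ 0 ∧
        ∀ φ ∈ A.decompositionSubgroup ℚ, φ • x = x := by
    rintro _ rfl
    exact exists_torsion_fixed_by_decomposition W hp hp2 hl hlp hgood hdvd A hA
  obtain ⟨x, hx0, hx⟩ := key (C • E) hC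
  have hxt : ((p : ℕ) : ℤ) • (x : ((C • E : Affine ℚ)⁄Qb).Point) = 0 := by
    have := x.2
    rwa [Submodule.mem_torsionBy_iff] at this
  have hmem : H79.bcEquiv (K := Qb) E C (x : ((C • E : Affine ℚ)⁄Qb).Point) ∈
      Submodule.torsionBy ℤ ((E : Affine ℚ)⁄Qb).Point p := by
    rw [Submodule.mem_torsionBy_iff]
    exact (H79.zsmul_eq_zero_iff E C _ _).mp hxt
  refine ⟨⟨_, hmem⟩, ?_, ?_⟩
  · intro h0
    apply hx0
    apply Subtype.ext
    have h1 : H79.bcEquiv (K := Qb) E C (x : ((C • E : Affine ℚ)⁄Qb).Point) = 0 :=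
      congrArg Subtype.val h0
    exact (map_eq_zero_iff _ (H79.bcEquiv (K := Qb) E C).injective).mp h1
  · intro φ hφ
    apply Subtype.ext
    rw [H38.coe_smul_torsion]
    exact (H79.smul_eq_iff E C φ _).mp (congrArg Subtype.val (hx φ hφ))

/-- the number of points of the reduction in terms of `apOfModel` -/
lemma natCast_card_reductionMod (W : WeierstrassCurve ℤ) (l : ℕ) :
    ((Nat.card (W.reductionMod l).toAffine.Point : ℕ) : ℤ) = (l : ℤ) + 1 - W.apOfModel l := by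
  simp only [WeierstrassCurve.apOfModel, WeierstrassCurve.traceOfFrobenius,
    WeierstrassCurve.card, Nat.card_zmod]
  ring

lemma dvd_card_iff_apOfModel (W : WeierstrassCurve ℤ) (p l : ℕ) :
    p ∣ Nat.card (W.reductionMod l).toAffine.Point ↔
      (p : ℤ) ∣ (l : ℤ) + 1 - W.apOfModel l := by
  rw [← natCast_card_reductionMod, Int.natCast_dvd_natCast]

/-- **Frobenius form**: if `a_l(W) ≡ l + 1 mod p` at a good prime `l ≠ p`, then every Frobenius
element at `l` has a nonzero fixed vector in `E[p]`, i.e. the eigenvalue `1`. -/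
theorem exists_fixed_torsion_of_apOfModel (E : WeierstrassCurve ℚ) {W : WeierstrassCurve ℤ}
    (hW : W.IsIntegralModelOf E) {p l : ℕ} (hp : p.Prime)
    (hp2 : p ≠ 2) (hl : l.Prime) (hlp : l ≠ p) (hgood : W.IsGoodPrimeFor l)
    (hap : (p : ℤ) ∣ (l : ℤ) + 1 - W.apOfModel l)
    (A : ValuationSubring Qb) (hA : A.LiesOverPrime l) (φ : Qb ≃ₐ[ℚ] Qb)
    (hφ : A.IsFrobeniusAt φ l) :
    ∃ x : Submodule.torsionBy ℤ ((E : Affine ℚ)⁄Qb).Point p, x ≠ 0 ∧
      galoisRepModuleEnd ℚ (E : Affine ℚ) p φ x = x := by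
  obtain ⟨x, hx0, hx⟩ := exists_torsion_fixed_of_integralModel E hW hp hp2 hl hlp hgood
    ((dvd_card_iff_apOfModel W p l).mpr hap) A hA
  exact ⟨x, hx0, hx φ hφ.mem_decompositionSubgroup⟩

end Main

end Fermat.Agent.S41.H84
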