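import Mathlib
import Fermat.Agent.S41.H84_FrobFix
import Fermat.Agent.S41.H13_Count
import Fermat.Agent.S41.H49_StableLine
import Fermat.Agent.S14.H31_FrobPrelude

/-!
# Irreducible `E[p]` is not Eisenstein (S41, part (f), assembly)

`E` an elliptic curve over `ℚ` with integral model `W`, `p` an odd prime with `E[p]` irreducible.
Then outside every finite set of primes there is a good prime `l ≠ p` with
`a_l(W) ≢ l + 1 mod p`.

Ingredients: the fixed torsion point at a prime with `p ∣ #E~(F_l)` (`H84_FrobFix`), the Frobenius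
density theorem in the prelude vocabulary (`H31_FrobPrelude`), the exact count `#E[p] = p ^ 2`
(`H13_Count`) and the stable line lemma for two-dimensional representations all of whose elements
have the eigenvalue `1`.
-/

set_option autoImplicit false

namespace Fermat.Agent.S41.H84

open WeierstrassCurve WeierstrassCurve.Affine WeierstrassCurve.Affine.Point

local notation "Qb" => AlgebraicClosure ℚ
local notation "GQ" => (AlgebraicClosure ℚ ≃ₐ[ℚ] AlgebraicClosure ℚ)

section Delta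

lemma Δ_ne_zero_of_isIntegralModelOf (E : WeierstrassCurve ℚ) [E.IsElliptic]
    {W : WeierstrassCurve ℤ} (hW : W.IsIntegralModelOf E) : W.Δ ≠ 0 := by
  obtain ⟨C, hC⟩ := hW
  intro h0
  have h1 : (C • E).Δ = 0 := by rw [hC, WeierstrassCurve.map_Δ, h0, _root_.map_zero]
  rw [variableChange_Δ] at h1
  have h2 : E.Δ ≠ 0 := E.isUnit_Δ.ne_zero
  have h3 : ((C.u⁻¹ : ℚˣ) : ℚ) ^ 12 ≠ 0 := pow_ne_zero _ (Units.ne_zero _)
  exact mul_ne_zero h3 h2 h1

/-- outside the divisors of the discriminant every prime is good -/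
lemma isGoodPrimeFor_of_notMem_divisors {W : WeierstrassCurve ℤ} {l : ℕ}
    (h : l ∉ W.Δ.natAbs.divisors) (hΔ : W.Δ ≠ 0) : W.IsGoodPrimeFor l := by
  intro hdvd
  apply h
  rw [Nat.mem_divisors]
  exact ⟨Int.natCast_dvd.mp hdvd, Int.natAbs_ne_zero.mpr hΔ⟩

end Delta

section Field

attribute [local instance 10000] AlgebraicClosure.instAlgebra

variable (E : WeierstrassCurve ℚ) (p : ℕ)

/-- the coordinates of a point -/
def coordSet : ((E : Affine ℚ)⁄Qb).Point → Set Qb
  | .zero => ∅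
  | .some x y _ => {x, y}

lemma coordSet_finite (P : ((E : Affine ℚ)⁄Qb).Point) : (coordSet E P).Finite := by
  cases P with
  | zero => exact Set.finite_empty
  | some x y h => exact Set.toFinite {x, y}

/-- the field generated by the coordinates of the `p`-torsion points -/
noncomputable def torsionField : IntermediateField ℚ Qb :=
  IntermediateField.adjoin ℚ
    (⋃ P : Submodule.torsionBy ℤ ((E : Affine ℚ)⁄Qb).Point p,
      coordSet E (P : ((E : Affine ℚ)⁄Qb).Point))

theorem finiteDimensional_torsionField {p : ℕ} (hp : p.Prime) (hp2 : p ≠ 2) :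
    FiniteDimensional ℚ (torsionField E p) := by
  have hpK : ((p : ℕ) : Qb) ≠ 0 := by exact_mod_cast hp.ne_zero
  haveI : Finite (Submodule.torsionBy ℤ ((E : Affine ℚ)⁄Qb).Point p) :=
    Fermat.Agent.S13.H84.finite_torsionBy (E : Affine ℚ) hp hp2 hpK
  have hfin : (⋃ P : Submodule.torsionBy ℤ ((E : Affine ℚ)⁄Qb).Point p,
      coordSet E (P : ((E : Affine ℚ)⁄Qb).Point)).Finite :=
    Set.finite_iUnion fun P => coordSet_finite E _
  haveI := hfin.to_subtype
  exact IntermediateField.finiteDimensional_adjoin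
    (fun x _ => (Algebra.IsAlgebraic.isAlgebraic x).isIntegral)

theorem smul_eq_self_of_mem_fixingSubgroup {σ : GQ}
    (hσ : σ ∈ (torsionField E p).fixingSubgroup)
    (P : Submodule.torsionBy ℤ ((E : Affine ℚ)⁄Qb).Point p) : σ • P = P := by
  rw [IntermediateField.mem_fixingSubgroup_iff] at hσ
  apply Subtype.ext
  rw [Fermat.Agent.S05.H38.coe_smul_torsion]
  have hsub : coordSet E (P : ((E : Affine ℚ)⁄Qb).Point) ⊆ (torsionField E p : Set Qb) :=
    fun z hz => IntermediateField.subset_adjoin ℚ _ (Set.mem_iUnion.mpr ⟨P, hz⟩)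
  obtain ⟨P, hP⟩ := P
  cases P with
  | zero => rfl
  | some x y h =>
    have hx : σ x = x := hσ x (hsub (by simp [coordSet]))
    have hy : σ y = y := hσ y (hsub (by simp [coordSet]))
    exact Fermat.Agent.S05.H38.smul_some_eq_self E σ h hx hy

end Field

section Assembly

attribute [local instance 10000] AlgebraicClosure.instAlgebra

/-- `E[p]` is two-dimensional over `ZMod p` -/
theorem finrank_torsionBy (E : WeierstrassCurve ℚ) [E.IsElliptic] {p : ℕ} (hp : p.Prime)
    (hp2 : p ≠ 2) [Fact p.Prime] :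
    Module.finrank (ZMod p) (Submodule.torsionBy ℤ ((E : Affine ℚ)⁄Qb).Point p) = 2 := by
  have hpK : ((p : ℕ) : Qb) ≠ 0 := by exact_mod_cast hp.ne_zero
  have hΔ : ((E : Affine ℚ)⁄Qb).Δ ≠ 0 := by
    rw [Affine.baseChange, WeierstrassCurve.baseChange, WeierstrassCurve.map_Δ]
    exact (map_ne_zero _).mpr E.isUnit_Δ.ne_zero
  have hcard := Fermat.Agent.S41.H13.card_torsionBy_eq (E : Affine ℚ) hΔ hp hp2 hpK
  haveI : Finite (Submodule.torsionBy ℤ ((E : Affine ℚ)⁄Qb).Point p) :=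
    Nat.finite_of_card_ne_zero (by rw [hcard]; exact pow_ne_zero _ hp.ne_zero)
  have h := Module.natCard_eq_pow_finrank (K := ZMod p)
    (V := Submodule.torsionBy ℤ ((E : Affine ℚ)⁄Qb).Point p)
  rw [hcard, Nat.card_zmod] at h
  exact (Nat.pow_right_injective hp.two_le h).symm

/-- **Irreducible `E[p]` is not Eisenstein**: outside every finite set of primes there is a good
prime `l ≠ p` with `a_l ≢ l + 1 mod p`. -/
theorem exists_good_prime_not_eisenstein (E : WeierstrassCurve ℚ) [E.IsElliptic]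
    {W : WeierstrassCurve ℤ} (hW : W.IsIntegralModelOf E) {p : ℕ} (hp : p.Prime) (hp2 : p ≠ 2)
    (hirr : GaloisRepIsIrreducible (K := Qb) ℚ (E : Affine ℚ) p) (T : Finset ℕ) :
    ∃ l : ℕ, l.Prime ∧ l ∉ T ∧ l ≠ p ∧ W.IsGoodPrimeFor l ∧
      ¬ (p : ℤ) ∣ (l : ℤ) + 1 - W.apOfModel l := by
  haveI : Fact p.Prime := ⟨hp⟩
  by_contra hcon
  push Not at hcon
  have hΔ := Δ_ne_zero_of_isIntegralModelOf E hW
  haveI := finiteDimensional_torsionField E hp hp2
  let ρ : GQ →* Equiv.Perm (Submodule.torsionBy ℤ ((E : Affine ℚ)⁄Qb).Point p) :=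
    MulAction.toPermHom GQ _
  have hF : (torsionField E p).fixingSubgroup ≤ ρ.ker := by
    intro σ hσ
    rw [MonoidHom.mem_ker]
    ext P : 1
    exact smul_eq_self_of_mem_fixingSubgroup E p hσ P
  have hfix : ∀ g : GQ, ∃ v : Submodule.torsionBy ℤ ((E : Affine ℚ)⁄Qb).Point p,
      v ≠ 0 ∧ g • v = v := by
    intro g
    obtain ⟨q, A, φ, j, k, hq, hqT, hA, hφ, -, h2⟩ :=
      Fermat.Agent.S14.H31.exists_isFrobeniusAt_map_eq_zpow (torsionField E p) ρ hF g
        (T ∪ {p} ∪ W.Δ.natAbs.divisors)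
    have hqT1 : q ∉ T := fun h => hqT (by simp [h])
    have hqp : q ≠ p := fun h => hqT (by simp [h])
    have hgood : W.IsGoodPrimeFor q :=
      isGoodPrimeFor_of_notMem_divisors (fun h => hqT (by simp [h])) hΔ
    have hap := hcon q hq hqT1 hqp hgood
    obtain ⟨x, hx0, hx⟩ := exists_torsion_fixed_of_integralModel E hW hp hp2 hq hqp hgood
      ((dvd_card_iff_apOfModel W p q).mpr hap) A hA
    refine ⟨x, hx0, ?_⟩
    have hφx : ρ φ ∈ MulAction.stabilizer (Equiv.Perm _) x := by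
      rw [MulAction.mem_stabilizer_iff]
      exact hx φ hφ.mem_decompositionSubgroup
    have h2' : ρ g = ρ φ ^ j := h2
    have hgx : ρ g ∈ MulAction.stabilizer (Equiv.Perm _) x := by
      rw [h2']; exact zpow_mem hφx j
    exact hgx
  obtain ⟨N, hN0, hN1, hN⟩ := Fermat.Agent.S41.H49.exists_stable_submodule_of_distribMulAction
    (finrank_torsionBy E hp hp2) hfix
  rcases hirr.2 N (fun σ x hx => hN σ x hx) with h | h
  · exact hN0 h
  · exact hN1 h

end Assembly

section Default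

/-- `exists_good_prime_not_eisenstein` with the instances found by default when all of Mathlib is
imported (the form of the hypothesis `hirr` in the frozen statement S41). -/
theorem exists_good_prime_not_eisenstein' (E : WeierstrassCurve ℚ) [E.IsElliptic]
    {W : WeierstrassCurve ℤ} (hW : W.IsIntegralModelOf E) {p : ℕ} (hp : p.Prime) (hp2 : p ≠ 2)
    (hirr : GaloisRepIsIrreducible (K := AlgebraicClosure ℚ) ℚ E p) (T : Finset ℕ) :
    ∃ l : ℕ, l.Prime ∧ l ∉ T ∧ l ≠ p ∧ W.IsGoodPrimeFor l ∧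
      ¬ (p : ℤ) ∣ (l : ℤ) + 1 - W.apOfModel l :=
  exists_good_prime_not_eisenstein E hW hp hp2 hirr T

/-- an integer prime to `p` is not in a maximal ideal containing `p` -/
lemma intCast_notMem_of_not_dvd {R : Type*} [CommRing R] {𝔪 : Ideal R} (hmax : 𝔪.IsMaximal)
    {p : ℕ} (hp : p.Prime) (hpm : (p : R) ∈ 𝔪) {n : ℤ} (hn : ¬ (p : ℤ) ∣ n) :
    ((n : ℤ) : R) ∉ 𝔪 := by
  intro hmem
  have hcop : IsCoprime (p : ℤ) n :=
    (Nat.prime_iff_prime_int.1 hp).coprime_iff_not_dvd.2 hn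
  obtain ⟨a, b, hab⟩ := hcop
  have h1 : ((a * p + b * n : ℤ) : R) ∈ 𝔪 := by
    push_cast
    exact 𝔪.add_mem (𝔪.mul_mem_left _ hpm) (𝔪.mul_mem_left _ hmem)
  rw [hab, Int.cast_one] at h1
  exact hmax.ne_top ((Ideal.eq_top_iff_one 𝔪).mpr h1)

/-- **Non-Eisenstein prime in the vocabulary of the frozen statement**: if the eigenvalues `a ℓ` of
some system are congruent to `a_ℓ(W)` modulo a maximal ideal `𝔪` over `p` at all good primes
outside a finite set `S`, then outside every finite set there is a good prime `l` with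
`a l - (l + 1) ∉ 𝔪`. -/
theorem exists_good_prime_sub_notMem (E : WeierstrassCurve ℚ) [E.IsElliptic]
    {W : WeierstrassCurve ℤ} (hW : W.IsIntegralModelOf E) {p : ℕ} (hp : p.Prime) (hp2 : p ≠ 2)
    (hirr : GaloisRepIsIrreducible (K := AlgebraicClosure ℚ) ℚ E p)
    {R : Type*} [CommRing R] {𝔪 : Ideal R} (hmax : 𝔪.IsMaximal) (hpm : (p : R) ∈ 𝔪)
    (a : ℕ → R) (S : Finset ℕ)
    (hcong : ∀ ℓ : ℕ, ℓ.Prime → W.IsGoodPrimeFor ℓ → ℓ ∉ S → ℓ ≠ p →
      a ℓ - ((W.apOfModel ℓ : ℤ) : R) ∈ 𝔪) (T : Finset ℕ) :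
    ∃ l : ℕ, l.Prime ∧ l ∉ T ∧ l ∉ S ∧ l ≠ p ∧ W.IsGoodPrimeFor l ∧
      a l - ((l : R) + 1) ∉ 𝔪 := by
  obtain ⟨l, hl, hlT, hlp, hgood, hnd⟩ :=
    exists_good_prime_not_eisenstein' E hW hp hp2 hirr (T ∪ S)
  have hlT1 : l ∉ T := fun h => hlT (by simp [h])
  have hlS : l ∉ S := fun h => hlT (by simp [h])
  refine ⟨l, hl, hlT1, hlS, hlp, hgood, fun hmem => ?_⟩
  have h1 := hcong l hl hgood hlS hlp
  have h2 : (((l : ℤ) + 1 - W.apOfModel l : ℤ) : R) ∈ 𝔪 := by
    have e : (((l : ℤ) + 1 - W.apOfModel l : ℤ) : R) =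
        (a l - ((W.apOfModel l : ℤ) : R)) - (a l - ((l : R) + 1)) := by
      push_cast; ring
    rw [e]
    exact 𝔪.sub_mem h1 hmem
  exact intCast_notMem_of_not_dvd hmax hp hpm hnd h2

end Default

end Fermat.Agent.S41.H84
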