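/-
S41 (assembly, part 2): from the two hard kernels, taken as NAMED HYPOTHESES,

* (P) Poincare duality: bilinear forms `pdN` on `L_N`, `pdNq` on `L_{Nq}`, non-degenerate modulo
  `p`, with `(res, cor)` and `(cst, corc)` adjoint and `T_l` self-adjoint;
* (I) Ihara's lemma: `res x₁ + cst x₂ ∈ p L_{Nq} ⟹ (T_l - (l+1)) x_i ∈ p L_N`,

to the literal conclusion of the frozen statement S41, via helper66's `ALR`
(`levelRaising_support_of_duality`), helper65's degeneracy calculus, helper84's non-Eisenstein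
prime and helper72's endgame (`S41_conclusion_of_degBeta_support`).
-/
import Mathlib
import Fermat.Agent.S41.H85_DegPar
import Fermat.Agent.S41.H85_ResidualChar
import Fermat.Agent.S41.H66_ALR
import Fermat.Agent.S41.H72_DegBridge
import Fermat.Agent.S41.H84_NonEisenstein

set_option autoImplicit false

open CongruenceSubgroup ModularFormClass ModularCurve ModularCurve.Period
open scoped MatrixGroups

namespace Fermat.Agent.S41.H85

open Fermat.Agent.S41.H72 Fermat.Agent.S41.H66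

section generators

variable {σ : Type*} {L₁ L₂ : Type*} [AddCommGroup L₁] [AddCommGroup L₂]

theorem ringHom_C_apply (ρ : MvPolynomial σ ℤ →+* Module.End ℤ L₁) (a : ℤ) (y : L₁) :
    ρ (MvPolynomial.C a) y = a • y := by
  have h : ρ (MvPolynomial.C a) = (a : Module.End ℤ L₁) := eq_intCast (ρ.comp MvPolynomial.C) a
  rw [h, Module.End.intCast_apply]

/-- A linear map intertwining the actions of the variables intertwines the actions of all
polynomials. -/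
theorem map_apply_eq_of_generators (ρ₁ : MvPolynomial σ ℤ →+* Module.End ℤ L₁)
    (ρ₂ : MvPolynomial σ ℤ →+* Module.End ℤ L₂) (f : L₁ →ₗ[ℤ] L₂)
    (h : ∀ i x, f (ρ₁ (MvPolynomial.X i) x) = ρ₂ (MvPolynomial.X i) (f x))
    (t : MvPolynomial σ ℤ) (x : L₁) : f (ρ₁ t x) = ρ₂ t (f x) := by
  induction t using MvPolynomial.induction_on generalizing x with
  | C a => rw [ringHom_C_apply, ringHom_C_apply, map_smul]
  | add s t hs ht =>
    rw [map_add, map_add, LinearMap.add_apply, LinearMap.add_apply, map_add, hs, ht]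
  | mul_X s i hs =>
    rw [map_mul, map_mul, Module.End.mul_apply, Module.End.mul_apply, hs, h]

theorem residualChar_rename {τ : Type*} (p : ℕ) (k : σ → τ) (a : τ → ℤ)
    (t : MvPolynomial σ ℤ) :
    residualChar p a (MvPolynomial.rename k t) = residualChar p (a ∘ k) t := by
  unfold residualChar
  rw [MvPolynomial.eval₂Hom_rename]
  rfl

end generators

section setup

variable {N q : ℕ} (hq : q.Prime) (hqN : ¬ q ∣ N)
  (G : Set ℕ) (hG : ∀ l ∈ G, l.Prime ∧ ¬ l ∣ N * q)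

/-- The Hecke generators at level `N`: `T_q` and the `T_l`, `l ∈ G`. -/
noncomputable def genN [NeZero N] : Option G → CuspForm.heckeAlgebra N 2 ∅ := fun i =>
  i.elim (CuspForm.heckeAlgebra.T hq hqN (Set.notMem_empty q))
    (fun l => CuspForm.heckeAlgebra.T (hG l l.2).1
      (H65.not_dvd_left_of_not_dvd_mul (hG l l.2).2) (Set.notMem_empty _))

/-- The action of `ℤ[T_q, T_l : l ∈ G]` on `L_N`. -/
noncomputable def rhoN [NeZero N] : MvPolynomial (Option G) ℤ →+* Module.End ℤ (Lat N) :=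
  (cohHeckeRep N ∅).comp (polyToHecke (genN hq hqN G hG))

/-- The action of `ℤ[T_l : l ∈ G]` on `L_{Nq}`. -/
noncomputable def rhoNq [NeZero (N * q)] : MvPolynomial G ℤ →+* Module.End ℤ (Lat (N * q)) :=
  (cohHeckeRep (N * q) ∅).comp (polyHecke N q G hG)

/-- The inclusion `ℤ[T_l : l ∈ G] → ℤ[T_q, T_l : l ∈ G]`. -/
noncomputable def iotaG : MvPolynomial G ℤ →+* MvPolynomial (Option G) ℤ :=
  (MvPolynomial.rename (some : G → Option G) : MvPolynomial G ℤ →ₐ[ℤ] _).toRingHom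

theorem iotaG_X (l : G) : iotaG G (MvPolynomial.X l) = MvPolynomial.X (some l) := by
  simp [iotaG]

theorem iotaG_apply (t : MvPolynomial G ℤ) :
    iotaG G t = MvPolynomial.rename (some : G → Option G) t := rfl

theorem rhoN_X_none [NeZero N] :
    rhoN hq hqN G hG (MvPolynomial.X none) = heckeTPar ℤ ℤ hq hqN := by
  rw [rhoN, RingHom.comp_apply, polyToHecke_X]
  exact cohHeckeRep_T hq hqN (Set.notMem_empty q)

theorem rhoN_X_some [NeZero N] (l : G) :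
    rhoN hq hqN G hG (MvPolynomial.X (some l))
      = heckeTPar ℤ ℤ (hG l l.2).1 (H65.not_dvd_left_of_not_dvd_mul (hG l l.2).2) := by
  rw [rhoN, RingHom.comp_apply, polyToHecke_X]
  exact cohHeckeRep_T _ _ (Set.notMem_empty _)

theorem rhoNq_X [NeZero (N * q)] (l : G) :
    rhoNq G hG (MvPolynomial.X l) = heckeTPar ℤ ℤ (hG l l.2).1 (hG l l.2).2 := by
  rw [rhoNq, RingHom.comp_apply, polyHecke_X]
  exact cohHeckeRep_T _ _ (Set.notMem_empty _)

/-- `t₁ = T_l - (l + 1)`. -/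
noncomputable def tOne (l : G) : MvPolynomial G ℤ :=
  MvPolynomial.X l - MvPolynomial.C ((l : ℤ) + 1)

theorem rhoN_iotaG_tOne_apply [NeZero N] (l : G) (x : Lat N) :
    rhoN hq hqN G hG (iotaG G (tOne G l)) x
      = heckeTPar ℤ ℤ (hG l l.2).1 (H65.not_dvd_left_of_not_dvd_mul (hG l l.2).2) x
        - ((l : ℤ) + 1) • x := by
  have h : iotaG G (tOne G l)
      = MvPolynomial.X (some l) - MvPolynomial.C ((l : ℤ) + 1) := by
    rw [tOne, map_sub, iotaG_X, iotaG_apply, MvPolynomial.rename_C]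
  rw [h, map_sub, LinearMap.sub_apply, rhoN_X_some, ringHom_C_apply]

end setup

section main

variable {N q p : ℕ} [NeZero N] [NeZero (N * q)] [Fact p.Prime]

/-- **The support statement (L) from (P) and (I).**  `G` is any set of primes not dividing
`N q`, `ap` the target eigenvalues; `f` a normalised eigenform of level `N` congruent to `ap`
on `G` modulo `𝔪 ∋ p` with `a_q(f)² ≡ (q+1)²`; `l ∈ G` a non-Eisenstein prime. -/
theorem lattice_support_of_PD_of_Ihara (D : ALData N q) (hq : q.Prime) (hqN : ¬ q ∣ N)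
    (hN : N ≠ 0) {f : CuspForm (Gamma0 N) 2} (hf : f.IsNormalizedEigenform)
    (𝔪 : Ideal (integralClosure ℤ ℂ)) (hmax : 𝔪.IsMaximal)
    (hpm : (p : integralClosure ℤ ℂ) ∈ 𝔪)
    (G : Set ℕ) (hG : ∀ l ∈ G, l.Prime ∧ ¬ l ∣ N * q) (ap : ℕ → ℤ)
    (hcong : ∀ l ∈ G, ∃ b : integralClosure ℤ ℂ, (b : ℂ) = qCoeff f l ∧
      b - ((ap l : ℤ) : integralClosure ℤ ℂ) ∈ 𝔪)
    (hLR : ∃ b : integralClosure ℤ ℂ, (b : ℂ) = qCoeff f q ∧
      b ^ 2 - ((q : integralClosure ℤ ℂ) + 1) ^ 2 ∈ 𝔪)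
    (l : G) (hl : ¬ (p : ℤ) ∣ (l : ℤ) + 1 - ap l)
    -- (P) Poincare duality
    (pdN : Lat N →ₗ[ℤ] Lat N →ₗ[ℤ] ℤ) (pdNq : Lat (N * q) →ₗ[ℤ] Lat (N * q) →ₗ[ℤ] ℤ)
    (hndN : ∀ x : Lat N, (∀ y, (p : ℤ) ∣ pdN x y) → x ∈ pSub p (Lat N))
    (hndNq : ∀ x : Lat (N * q), (∀ y, (p : ℤ) ∣ pdNq x y) → x ∈ pSub p (Lat (N * q)))
    (hrc : ∀ x y, pdNq (resPar N q x) y = pdN x (corPar D hq hqN hN y))
    (hcc : ∀ x y, pdNq (cstPar N hq.ne_zero x) y = pdN x (corcPar D hq hqN hN y))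
    (hself : ∀ x y,
      pdN (heckeTPar ℤ ℤ (hG l l.2).1 (H65.not_dvd_left_of_not_dvd_mul (hG l l.2).2) x) y
        = pdN x (heckeTPar ℤ ℤ (hG l l.2).1 (H65.not_dvd_left_of_not_dvd_mul (hG l l.2).2) y))
    -- (I) Ihara
    (hI : ∀ x₁ x₂ : Lat N, resPar N q x₁ + cstPar N hq.ne_zero x₂ ∈ pSub p (Lat (N * q)) →
      heckeTPar ℤ ℤ (hG l l.2).1 (H65.not_dvd_left_of_not_dvd_mul (hG l l.2).2) x₁
          - ((l : ℤ) + 1) • x₁ ∈ pSub p (Lat N) ∧
        heckeTPar ℤ ℤ (hG l l.2).1 (H65.not_dvd_left_of_not_dvd_mul (hG l l.2).2) x₂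
          - ((l : ℤ) + 1) • x₂ ∈ pSub p (Lat N))
    (t : MvPolynomial G ℤ)
    (ht : ∀ y : Lat (N * q), H65.degBeta ℤ D hq hqN hN y.1 = 0 →
      cohHeckeRep (N * q) ∅ (polyHecke N q G hG t) y = 0) :
    ((MvPolynomial.eval (fun ℓ : G => ap ℓ) t : ℤ) : ZMod p) = 0 := by
  have _inst : 𝔪.IsMaximal := hmax
  obtain ⟨b, hb, hb2⟩ := hLR
  obtain ⟨ε, hε, hεb⟩ := exists_sign_of_sq_sub_sq_mem 𝔪 hb2
  -- the residual character on `ℤ[T_q, T_l]`
  set a' : Option G → ℤ := fun i => i.elim (ε * ((q : ℤ) + 1)) (fun l => ap l) with ha'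
  set χ' : MvPolynomial (Option G) ℤ →+* ZMod p := residualChar p a' with hχ'
  -- `ker ρ_N ≤ ker χ'`
  have hker : ∀ t', rhoN hq hqN G hG t' = 0 → χ' t' = 0 := by
    intro t' ht'
    refine residualChar_eq_zero_of_cohHeckeRep_eq_zero hf 𝔪 hpm _ _ (fun i => ?_) t' ht'
    cases i with
    | none =>
      have h1 : eigenCharInt hf ∅ (CuspForm.heckeAlgebra.T hq hqN (Set.notMem_empty q)) = b := by
        apply Subtype.ext
        rw [coe_eigenCharInt, eigenChar_T, hb]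
      simp only [genN, ha', Option.elim_none]
      rw [h1]
      push_cast
      exact hεb
    | some l' =>
      obtain ⟨b', hb', hb'2⟩ := hcong l' l'.2
      have h1 : eigenCharInt hf ∅
          (CuspForm.heckeAlgebra.T (hG l' l'.2).1
            (H65.not_dvd_left_of_not_dvd_mul (hG l' l'.2).2) (Set.notMem_empty _)) = b' := by
        apply Subtype.ext
        rw [coe_eigenCharInt, eigenChar_T, hb']
      simp only [genN, ha', Option.elim_some]
      rw [h1]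
      exact hb'2
  -- the bilinear form on `L_N × L_N`
  set B₁ : (Lat N × Lat N) →ₗ[ℤ] (Lat N × Lat N) →ₗ[ℤ] ℤ :=
    pdN.compl₁₂ (LinearMap.fst ℤ (Lat N) (Lat N)) (LinearMap.fst ℤ (Lat N) (Lat N))
      + pdN.compl₁₂ (LinearMap.snd ℤ (Lat N) (Lat N)) (LinearMap.snd ℤ (Lat N) (Lat N)) with hB₁
  have hB₁apply : ∀ x x' : Lat N × Lat N, B₁ x x' = pdN x.1 x'.1 + pdN x.2 x'.2 := by
    intro x x'; rfl
  have key := levelRaising_support_of_duality (p := p) (iotaG G) χ' (rhoN hq hqN G hG)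
    (rhoNq G hG) (degAlphaPar N hq.ne_zero) (degBetaPar D hq hqN hN)
    (hα := ?_) (hβ := ?_) (tq := MvPolynomial.X none) (m := (q : ℤ) + 1) (hβα := ?_)
    (hsq := ?_) (hker := hker) (B₁ := B₁) (B₂ := pdNq) (hB₁ := ?_) (hB₂ := hndNq) (hadj := ?_)
    (t₁ := tOne G l) (hself := ?_) (h1 := ?_) (hI := ?_) (t := t) (ht := ?_)
  · -- conclusion
    rw [hχ', iotaG_apply, residualChar_rename, residualChar_eq_eval] at key
    exact key
  · -- hα
    intro t x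
    refine map_apply_eq_of_generators ((diagAction (rhoN hq hqN G hG)).comp (iotaG G))
      (rhoNq G hG) (degAlphaPar N hq.ne_zero) (fun i x => ?_) t x
    rw [RingHom.comp_apply, iotaG_X, diagAction_apply, rhoN_X_some, rhoNq_X]
    exact (heckeTPar_degAlphaPar hq hqN (hG i i.2).1 (hG i i.2).2 x).symm
  · -- hβ
    intro t y
    refine map_apply_eq_of_generators (rhoNq G hG)
      ((diagAction (rhoN hq hqN G hG)).comp (iotaG G)) (degBetaPar D hq hqN hN)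
      (fun i y => ?_) t y
    rw [RingHom.comp_apply, iotaG_X, diagAction_apply, rhoN_X_some, rhoNq_X]
    exact heckeTPar_degBetaPar D hq hqN hN (hG i i.2).1 (hG i i.2).2 y
  · -- hβα
    intro x
    rw [rhoN_X_none]
    exact degBetaPar_degAlphaPar D hq hqN hN x
  · -- hsq
    rw [hχ', residualChar_X]
    simp only [ha', Option.elim_none]
    rcases hε with rfl | rfl <;> push_cast <;> ring
  · -- hB₁
    intro x hx
    rw [mem_pSub_prod]
    refine ⟨hndN x.1 fun y => ?_, hndN x.2 fun y => ?_⟩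
    · have := hx (y, 0)
      rwa [hB₁apply, map_zero, add_zero] at this
    · have := hx (0, y)
      rwa [hB₁apply, map_zero, zero_add] at this
  · -- hadj
    intro x y
    rw [hB₁apply, degAlphaPar_apply, degBetaPar_apply, map_add, LinearMap.add_apply, hrc, hcc]
  · -- hself
    intro x x'
    rw [hB₁apply, hB₁apply, diagAction_apply, diagAction_apply]
    simp only [rhoN_iotaG_tOne_apply, map_sub, map_smul, LinearMap.sub_apply,
      LinearMap.smul_apply, hself]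
  · -- h1
    rw [hχ', tOne, map_sub, iotaG_X, iotaG_apply, MvPolynomial.rename_C, map_sub,
      residualChar_X]
    simp only [ha', Option.elim_some]
    have hC : residualChar p a' (MvPolynomial.C ((l : ℤ) + 1)) = (((l : ℤ) + 1 : ℤ) : ZMod p) := by
      simp [residualChar]
    rw [hC, ← Int.cast_sub, Ne, ZMod.intCast_zmod_eq_zero_iff_dvd]
    intro h
    apply hl
    have : (l : ℤ) + 1 - ap l = -(ap l - ((l : ℤ) + 1)) := by ring
    rw [this]
    exact (dvd_neg).mpr h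
  · -- hI
    intro x hx
    rw [mem_pSub_prod, diagAction_apply]
    simp only [rhoN_iotaG_tOne_apply]
    exact hI x.1 x.2 hx
  · -- ht
    intro y hy
    exact ht y ((degBetaPar_eq_zero_iff D hq hqN hN y).mp hy)

end main

section final

open WeierstrassCurve WeierstrassCurve.Affine WeierstrassCurve.Affine.Point

/-- **S41 from (P) and (I).**  The literal conclusion of the frozen statement S41 from its literal
hypotheses together with

* (P): bilinear forms `pdN` on `L_N` and `pdNq` on `L_{Nq}`, non-degenerate modulo `p`, for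
  which `(res, cor)` and `(cst, corc)` are adjoint and the `T_l` (`l ∤ N q p`) are self-adjoint;
* (I): Ihara's lemma modulo `p` for the `T_l - (l + 1)` (`l ∤ N q p`). -/
theorem S41_of_PD_of_Ihara
    (E : WeierstrassCurve ℚ) [E.IsElliptic] {W : WeierstrassCurve ℤ} (hW : W.IsIntegralModelOf E)
    {p N q : ℕ} (hp : p.Prime) (hp2 : p ≠ 2) (hN : 0 < N) (hq : q.Prime) (hqN : ¬ q ∣ N)
    (hirr : GaloisRepIsIrreducible (K := AlgebraicClosure ℚ) ℚ E p)
    (f : CuspForm (CongruenceSubgroup.Gamma0 N) 2) (𝔪 : Ideal (integralClosure ℤ ℂ))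
    (hf : f.IsNormalizedEigenform) (hmax : 𝔪.IsMaximal) (hpm : (p : integralClosure ℤ ℂ) ∈ 𝔪)
    (hcong : ∀ ℓ : ℕ, ℓ.Prime → W.IsGoodPrimeFor ℓ → ¬ ℓ ∣ N → ℓ ≠ p →
      ∃ a : integralClosure ℤ ℂ, (a : ℂ) = ModularFormClass.qCoeff f ℓ ∧
        a - ((W.apOfModel ℓ : ℤ) : integralClosure ℤ ℂ) ∈ 𝔪)
    (hLR : ∃ a : integralClosure ℤ ℂ, (a : ℂ) = ModularFormClass.qCoeff f q ∧
      a ^ 2 - ((q : integralClosure ℤ ℂ) + 1) ^ 2 ∈ 𝔪)
    (D : ALData N q)
    -- (P) Poincare duality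
    (pdN : Lat N →ₗ[ℤ] Lat N →ₗ[ℤ] ℤ) (pdNq : Lat (N * q) →ₗ[ℤ] Lat (N * q) →ₗ[ℤ] ℤ)
    (hndN : ∀ x : Lat N, (∀ y, (p : ℤ) ∣ pdN x y) → x ∈ pSub p (Lat N))
    (hndNq : ∀ x : Lat (N * q), (∀ y, (p : ℤ) ∣ pdNq x y) → x ∈ pSub p (Lat (N * q)))
    (hrc : ∀ x y, pdNq (resPar N q x) y = pdN x (corPar D hq hqN hN.ne' y))
    (hcc : ∀ x y, pdNq (cstPar N hq.ne_zero x) y = pdN x (corcPar D hq hqN hN.ne' y))
    (hself : ∀ (l : ℕ) (hl : l.Prime) (hlN : ¬ l ∣ N), l ≠ q → l ≠ p → ∀ x y,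
      pdN (heckeTPar ℤ ℤ hl hlN x) y = pdN x (heckeTPar ℤ ℤ hl hlN y))
    -- (I) Ihara
    (hI : ∀ (l : ℕ) (hl : l.Prime) (hlN : ¬ l ∣ N), l ≠ q → l ≠ p → ∀ x₁ x₂ : Lat N,
      resPar N q x₁ + cstPar N hq.ne_zero x₂ ∈ pSub p (Lat (N * q)) →
        heckeTPar ℤ ℤ hl hlN x₁ - ((l : ℤ) + 1) • x₁ ∈ pSub p (Lat N) ∧
        heckeTPar ℤ ℤ hl hlN x₂ - ((l : ℤ) + 1) • x₂ ∈ pSub p (Lat N)) :
    ∃ (g : CuspForm (CongruenceSubgroup.Gamma0 (N * q)) 2) (𝔪' : Ideal (integralClosure ℤ ℂ)),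
      g.IsNormalizedEigenform ∧ 𝔪'.IsMaximal ∧ (p : integralClosure ℤ ℂ) ∈ 𝔪' ∧
      (∀ ℓ : ℕ, ℓ.Prime → W.IsGoodPrimeFor ℓ → ¬ ℓ ∣ N * q → ℓ ≠ p →
        ∃ a : integralClosure ℤ ℂ, (a : ℂ) = ModularFormClass.qCoeff g ℓ ∧
          a - ((W.apOfModel ℓ : ℤ) : integralClosure ℤ ℂ) ∈ 𝔪') ∧
      g.IsNewAt q := by
  have hNq : N * q ≠ 0 := Nat.mul_ne_zero hN.ne' hq.ne_zero
  have _i1 : NeZero N := ⟨hN.ne'⟩
  have _i2 : NeZero (N * q) := ⟨hNq⟩
  have _i3 : Fact p.Prime := ⟨hp⟩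
  obtain ⟨l, hlprime, hlT, hlp, hlgood, hlne⟩ :=
    Fermat.Agent.S41.H84.exists_good_prime_not_eisenstein' E hW hp hp2 hirr (N * q).divisors
  have hlNq : ¬ l ∣ N * q := fun h => hlT (Nat.mem_divisors.mpr ⟨h, hNq⟩)
  have hlN : ¬ l ∣ N := H65.not_dvd_left_of_not_dvd_mul hlNq
  have hlq : l ≠ q := fun h => hlNq (h ▸ Dvd.intro_left N rfl)
  have hlG : l ∈ goodSet W N q p := ⟨hlprime, hlgood, hlNq, hlp⟩
  refine S41_conclusion_of_degBeta_support W D hq hqN hN.ne' fun t ht => ?_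
  exact lattice_support_of_PD_of_Ihara D hq hqN hN.ne' hf 𝔪 hmax hpm (goodSet W N q p)
    (goodSet_spec W N q p) (fun ℓ => W.apOfModel ℓ)
    (fun ℓ hℓ => hcong ℓ hℓ.1 hℓ.2.1 (H65.not_dvd_left_of_not_dvd_mul hℓ.2.2.1) hℓ.2.2.2)
    hLR ⟨l, hlG⟩ hlne pdN pdNq hndN hndNq hrc hcc (hself l hlprime hlN hlq hlp)
    (hI l hlprime hlN hlq hlp) t ht

/-- **S41 from a uniform Poincare duality package and (I).**  Here (P) is given for all levels
at once: forms `pd M` on `L_M`, all symmetric or all skew-symmetric, non-degenerate modulo `p`,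
with `(res, cor)` and `(cst, corc)` adjoint between the levels `M` and `M r` for every prime
`r ∤ M`; self-adjointness of the `T_l` is then automatic (`T_l = cor ∘ cst = corc ∘ res`). -/
theorem S41_of_uniformPD_of_Ihara
    (E : WeierstrassCurve ℚ) [E.IsElliptic] {W : WeierstrassCurve ℤ} (hW : W.IsIntegralModelOf E)
    {p N q : ℕ} (hp : p.Prime) (hp2 : p ≠ 2) (hN : 0 < N) (hq : q.Prime) (hqN : ¬ q ∣ N)
    (hirr : GaloisRepIsIrreducible (K := AlgebraicClosure ℚ) ℚ E p)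
    (f : CuspForm (CongruenceSubgroup.Gamma0 N) 2) (𝔪 : Ideal (integralClosure ℤ ℂ))
    (hf : f.IsNormalizedEigenform) (hmax : 𝔪.IsMaximal) (hpm : (p : integralClosure ℤ ℂ) ∈ 𝔪)
    (hcong : ∀ ℓ : ℕ, ℓ.Prime → W.IsGoodPrimeFor ℓ → ¬ ℓ ∣ N → ℓ ≠ p →
      ∃ a : integralClosure ℤ ℂ, (a : ℂ) = ModularFormClass.qCoeff f ℓ ∧
        a - ((W.apOfModel ℓ : ℤ) : integralClosure ℤ ℂ) ∈ 𝔪)
    (hLR : ∃ a : integralClosure ℤ ℂ, (a : ℂ) = ModularFormClass.qCoeff f q ∧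
      a ^ 2 - ((q : integralClosure ℤ ℂ) + 1) ^ 2 ∈ 𝔪)
    -- (P) Poincare duality, uniform in the level
    (pd : ∀ M : ℕ, Lat M →ₗ[ℤ] Lat M →ₗ[ℤ] ℤ)
    (hsymm : (∀ (M : ℕ) (x y : Lat M), pd M x y = pd M y x) ∨
      (∀ (M : ℕ) (x y : Lat M), pd M x y = - pd M y x))
    (hnd : ∀ M : ℕ, M ≠ 0 → ∀ x : Lat M, (∀ y, (p : ℤ) ∣ pd M x y) → x ∈ pSub p (Lat M))
    (hrc : ∀ (M r : ℕ) (D : ALData M r) (hr : r.Prime) (hrM : ¬ r ∣ M) (hM : M ≠ 0)
      (x : Lat M) (y : Lat (M * r)),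
      pd (M * r) (resPar M r x) y = pd M x (corPar D hr hrM hM y))
    (hcc : ∀ (M r : ℕ) (D : ALData M r) (hr : r.Prime) (hrM : ¬ r ∣ M) (hM : M ≠ 0)
      (x : Lat M) (y : Lat (M * r)),
      pd (M * r) (cstPar M hr.ne_zero x) y = pd M x (corcPar D hr hrM hM y))
    -- (I) Ihara
    (hI : ∀ (l : ℕ) (hl : l.Prime) (hlN : ¬ l ∣ N), l ≠ q → l ≠ p → ∀ x₁ x₂ : Lat N,
      resPar N q x₁ + cstPar N hq.ne_zero x₂ ∈ pSub p (Lat (N * q)) →
        heckeTPar ℤ ℤ hl hlN x₁ - ((l : ℤ) + 1) • x₁ ∈ pSub p (Lat N) ∧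
        heckeTPar ℤ ℤ hl hlN x₂ - ((l : ℤ) + 1) • x₂ ∈ pSub p (Lat N)) :
    ∃ (g : CuspForm (CongruenceSubgroup.Gamma0 (N * q)) 2) (𝔪' : Ideal (integralClosure ℤ ℂ)),
      g.IsNormalizedEigenform ∧ 𝔪'.IsMaximal ∧ (p : integralClosure ℤ ℂ) ∈ 𝔪' ∧
      (∀ ℓ : ℕ, ℓ.Prime → W.IsGoodPrimeFor ℓ → ¬ ℓ ∣ N * q → ℓ ≠ p →
        ∃ a : integralClosure ℤ ℂ, (a : ℂ) = ModularFormClass.qCoeff g ℓ ∧
          a - ((W.apOfModel ℓ : ℤ) : integralClosure ℤ ℂ) ∈ 𝔪') ∧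
      g.IsNewAt q := by
  obtain ⟨D⟩ := nonempty_alData (N := N) (q := q) ((Nat.Prime.coprime_iff_not_dvd hq).mpr hqN)
  refine S41_of_PD_of_Ihara E hW hp hp2 hN hq hqN hirr f 𝔪 hf hmax hpm hcong hLR D (pd N)
    (pd (N * q)) (hnd N hN.ne') (hnd (N * q) (Nat.mul_ne_zero hN.ne' hq.ne_zero))
    (hrc N q D hq hqN hN.ne') (hcc N q D hq hqN hN.ne') ?_ hI
  intro l hl hlN _ _ x y
  obtain ⟨D'⟩ := nonempty_alData (N := N) (q := l) ((Nat.Prime.coprime_iff_not_dvd hl).mpr hlN)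
  refine pd_heckeTPar_self_of_adjoint D' hl hlN hN.ne' (pd N) (pd (N * l)) ?_
    (hrc N l D' hl hlN hN.ne') (hcc N l D' hl hlN hN.ne') x y
  rcases hsymm with h | h
  · exact Or.inl ⟨h N, h (N * l)⟩
  · exact Or.inr ⟨h N, h (N * l)⟩

end final

end Fermat.Agent.S41.H85
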