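/-
S41 (assembly, part 3): (P) is discharged by the landed Poincare duality package of route P-tr
(`H18.pd`, `H48G.pd_res_cor`, `H48G.pd_cst_corc`, `H48G.pd_heckeT_self`, `H48G.pd_nondeg`) and (I)
by helper49's `H49.ihara_parabolic`; the literal conclusion of the frozen S41 follows from its
literal hypotheses and the single named hypothesis `H49.CspAb N q p` (the congruence subgroup
property of `Γ₀(N)[1/q]` with `ℤ/p` coefficients, kernel (D)).
-/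
import Mathlib
import Fermat.Agent.S41.H85_Assembly
import Fermat.Agent.S41.H48_PDGlue
import Fermat.Agent.S41.H49_Ihara

set_option autoImplicit false

open CongruenceSubgroup ModularFormClass ModularCurve ModularCurve.Period
open scoped MatrixGroups
open WeierstrassCurve WeierstrassCurve.Affine WeierstrassCurve.Affine.Point

namespace Fermat.Agent.S41.H85

/-- **S41 from the congruence subgroup property (D) alone.** -/
theorem S41_of_cspAb
    (E : WeierstrassCurve ℚ) [E.IsElliptic] {W : WeierstrassCurve ℤ} (hW : W.IsIntegralModelOf E)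
    {p N q : ℕ} (hp : p.Prime) (hp2 : p ≠ 2) (hN : 0 < N) (hq : q.Prime) (hqN : ¬ q ∣ N)
    (hirr : GaloisRepIsIrreducible (K := AlgebraicClosure ℚ) ℚ E p)
    (f : CuspForm (CongruenceSubgroup.Gamma0 N) 2) (𝔪 : Ideal (integralClosure ℤ ℂ))
    (hf : f.IsNormalizedEigenform) (hmax : 𝔪.IsMaximal) (hpm : (p : integralClosure ℤ ℂ) ∈ 𝔪)
    (hcong : ∀ ℓ : ℕ, ℓ.Prime → W.IsGoodPrimeFor ℓ → ¬ ℓ ∣ N → ℓ ≠ p →
      ∃ a : integralClosure ℤ ℂ, (a : ℂ) = ModularFormClass.qCoeff f ℓ ∧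
        a - ((W.apOfModel ℓ : ℤ) : integralClosure ℤ ℂ) ∈ 𝔪)
    (hLR : ∃ a : integralClosure ℤ ℂ, (a : ℂ) = ModularFormClass.qCoeff f q ∧
      a ^ 2 - ((q : integralClosure ℤ ℂ) + 1) ^ 2 ∈ 𝔪)
    (hcsp : @Fermat.Agent.S41.H49.CspAb N q p ⟨hq⟩) :
    ∃ (g : CuspForm (CongruenceSubgroup.Gamma0 (N * q)) 2) (𝔪' : Ideal (integralClosure ℤ ℂ)),
      g.IsNormalizedEigenform ∧ 𝔪'.IsMaximal ∧ (p : integralClosure ℤ ℂ) ∈ 𝔪' ∧
      (∀ ℓ : ℕ, ℓ.Prime → W.IsGoodPrimeFor ℓ → ¬ ℓ ∣ N * q → ℓ ≠ p →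
        ∃ a : integralClosure ℤ ℂ, (a : ℂ) = ModularFormClass.qCoeff g ℓ ∧
          a - ((W.apOfModel ℓ : ℤ) : integralClosure ℤ ℂ) ∈ 𝔪') ∧
      g.IsNewAt q := by
  have _i0 : Fact q.Prime := ⟨hq⟩
  have _i1 : Fact p.Prime := ⟨hp⟩
  have _i2 : NeZero N := ⟨hN.ne'⟩
  have _i3 : NeZero (N * q) := ⟨Nat.mul_ne_zero hN.ne' hq.ne_zero⟩
  have hNq : Nat.Coprime N q := ((Nat.Prime.coprime_iff_not_dvd hq).mpr hqN).symm
  obtain ⟨D⟩ := Fermat.Agent.S41.H72.nonempty_alData (N := N) (q := q)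
    ((Nat.Prime.coprime_iff_not_dvd hq).mpr hqN)
  refine S41_of_PD_of_Ihara E hW hp hp2 hN hq hqN hirr f 𝔪 hf hmax hpm hcong hLR D
    (Fermat.Agent.S41.H18.pd N) (Fermat.Agent.S41.H18.pd (N * q))
    (fun x hx => Fermat.Agent.S41.H48G.pd_nondeg hp hp2 x hx)
    (fun x hx => Fermat.Agent.S41.H48G.pd_nondeg hp hp2 x hx)
    (Fermat.Agent.S41.H48G.pd_res_cor D hq hqN hN.ne')
    (Fermat.Agent.S41.H48G.pd_cst_corc D hq hqN hN.ne')
    (fun l hl hlN _ _ => Fermat.Agent.S41.H48G.pd_heckeT_self hl hlN)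
    (fun l hl hlN _ hlp x₁ x₂ h =>
      Fermat.Agent.S41.H49.ihara_parabolic hNq hcsp hl hlN hlp x₁ x₂ fun γ => ?_)
  exact Fermat.Agent.S41.H49.forall_dvd_of_mem_pSub h γ

end Fermat.Agent.S41.H85
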