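import Mathlib

/-!
# S41 / F-ODD (helper11): real-polynomial lemmas for the Sturm-chain argument

* `exists_largest_root`: a real polynomial with positive leading coefficient which is negative
  at `r` has a largest root `r' > r`, and is positive beyond it.
* `nonneg_of_nonneg_off_roots`: a continuous inequality `0 ≤ h x` known on
  `{x > e | s.eval x ≠ 0}` (`s ≠ 0`) holds on all of `(e, ∞)`.
-/

set_option autoImplicit false

namespace Fermat.Agent.S41.H11

open Polynomial Filter Topology

/-- a real polynomial with positive leading coefficient is eventually positive, as soon as it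
takes a negative value somewhere (which rules out constants). -/
theorem eventually_pos_of_leadingCoeff_pos {p : ℝ[X]} (hlc : 0 < p.leadingCoeff) :
    ∃ N : ℝ, ∀ x, N ≤ x → 0 < p.eval x := by
  by_cases hdeg : 0 < p.degree
  · have ht := Polynomial.tendsto_atTop_of_leadingCoeff_nonneg p hdeg hlc.le
    have h1 := (tendsto_atTop.mp ht) 1
    obtain ⟨N, hN⟩ := eventually_atTop.mp h1
    exact ⟨N, fun x hx => lt_of_lt_of_le one_pos (hN x hx)⟩
  · have hp : p = C (p.coeff 0) := eq_C_of_degree_le_zero (not_lt.mp hdeg)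
    have hlc' : p.leadingCoeff = p.coeff 0 := by
      conv_lhs => rw [hp, leadingCoeff_C]
    refine ⟨0, fun x _ => ?_⟩
    rw [hp, eval_C, ← hlc']
    exact hlc

/-- **largest root**: if `p` has positive leading coefficient and `p(r) < 0`, then `p` has a
largest root `r' > r` and `p > 0` on `(r', ∞)`. -/
theorem exists_largest_root {p : ℝ[X]} (hlc : 0 < p.leadingCoeff) {r : ℝ}
    (hr : p.eval r < 0) :
    ∃ r' : ℝ, r < r' ∧ p.eval r' = 0 ∧ ∀ x, r' < x → 0 < p.eval x := by
  have hp0 : p ≠ 0 := by
    rintro rfl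
    simp at hlc
  obtain ⟨N, hN⟩ := eventually_pos_of_leadingCoeff_pos hlc
  have hcont : Continuous fun x => p.eval x := p.continuous
  -- the roots beyond `r`
  set S : Finset ℝ := p.roots.toFinset.filter (fun x => r < x) with hS
  have hmemS : ∀ x, x ∈ S ↔ (p.eval x = 0 ∧ r < x) := by
    intro x
    simp [hS, Polynomial.mem_roots hp0, IsRoot.def]
  -- IVT: a root in `(r, max r N + 1)`
  have hne : S.Nonempty := by
    set b := max r N + 1 with hb
    have hrb : r ≤ b := by
      have := le_max_left r N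
      linarith
    have hNb : N ≤ b := by
      have := le_max_right r N
      linarith
    have hbpos : 0 < p.eval b := hN b hNb
    have hivt := intermediate_value_Icc hrb hcont.continuousOn
    have h0 : (0 : ℝ) ∈ Set.Icc (p.eval r) (p.eval b) := ⟨hr.le, hbpos.le⟩
    obtain ⟨c, hc, hc0⟩ := hivt h0
    have hrc : r < c := by
      rcases eq_or_lt_of_le hc.1 with h | h
      · exfalso
        rw [← h] at hc0
        simp only at hc0
        linarith
      · exact h
    exact ⟨c, (hmemS c).mpr ⟨hc0, hrc⟩⟩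
  refine ⟨S.max' hne, ?_, ?_, ?_⟩
  · exact ((hmemS _).mp (S.max'_mem hne)).2
  · exact ((hmemS _).mp (S.max'_mem hne)).1
  · intro x hx
    have hrx : r < x := lt_trans ((hmemS _).mp (S.max'_mem hne)).2 hx
    by_contra hnot
    have hle : p.eval x ≤ 0 := not_lt.mp hnot
    -- a root in `[x, max x N + 1]`
    set b := max x N + 1 with hb
    have hxb : x ≤ b := by
      have := le_max_left x N
      linarith
    have hNb : N ≤ b := by
      have := le_max_right x N
      linarith
    have hbpos : 0 < p.eval b := hN b hNb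
    have hivt := intermediate_value_Icc hxb hcont.continuousOn
    have h0 : (0 : ℝ) ∈ Set.Icc (p.eval x) (p.eval b) := ⟨hle, hbpos.le⟩
    obtain ⟨c, hc, hc0⟩ := hivt h0
    have hcS : c ∈ S := (hmemS c).mpr ⟨hc0, lt_of_lt_of_le hrx hc.1⟩
    have := S.le_max' c hcS
    linarith [hc.1]

/-- a real polynomial of positive leading coefficient that is negative at `r` has a root
beyond `r`. -/
theorem exists_root_gt {p : ℝ[X]} (hlc : 0 < p.leadingCoeff) {r : ℝ}
    (hr : p.eval r < 0) : ∃ r' : ℝ, r < r' ∧ p.eval r' = 0 := by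
  obtain ⟨r', h1, h2, -⟩ := exists_largest_root hlc hr
  exact ⟨r', h1, h2⟩

/-- **density of non-roots**: if `h` is continuous, `s ≠ 0`, and `0 ≤ h x` for all `x > e` with
`s(x) ≠ 0`, then `0 ≤ h x` for all `x > e`. -/
theorem nonneg_of_nonneg_off_roots {h : ℝ → ℝ} (hcont : Continuous h) {s : ℝ[X]} (hs : s ≠ 0)
    {e : ℝ} (H : ∀ x, e < x → s.eval x ≠ 0 → 0 ≤ h x) : ∀ x, e < x → 0 ≤ h x := by
  intro x₀ hx₀
  by_contra hneg
  have hneg' : h x₀ < 0 := not_le.mp hneg
  -- an open neighbourhood of `x₀` inside `(e, ∞)` where `h < 0`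
  have hopen : IsOpen {x : ℝ | h x < 0 ∧ e < x} :=
    (isOpen_lt hcont continuous_const).inter (isOpen_lt continuous_const continuous_id)
  have hmem : x₀ ∈ {x : ℝ | h x < 0 ∧ e < x} := ⟨hneg', hx₀⟩
  obtain ⟨δ, hδ, hball⟩ := Metric.isOpen_iff.mp hopen x₀ hmem
  -- the interval `(x₀ - δ, x₀ + δ)` is infinite, the root set of `s` is finite
  have hinf : (Set.Ioo (x₀ - δ) (x₀ + δ)).Infinite := Set.Ioo_infinite (by linarith)
  have hfin : (s.roots.toFinset : Set ℝ).Finite := Finset.finite_toSet _
  obtain ⟨x, hxI, hxR⟩ := hinf.exists_notMem_finite hfin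
  have hxball : x ∈ Metric.ball x₀ δ := by
    rw [Metric.mem_ball, Real.dist_eq, abs_lt]
    constructor <;> linarith [hxI.1, hxI.2]
  obtain ⟨hx1, hx2⟩ := hball hxball
  have hsx : s.eval x ≠ 0 := by
    intro h0
    apply hxR
    simp [Polynomial.mem_roots hs, IsRoot.def, h0]
  have := H x hx2 hsx
  linarith

end Fermat.Agent.S41.H11
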