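import Mathlib
import Fermat.Agent.S13.H17_MultFinal
import Fermat.Agent.S41.H11_SturmPoly

/-!
# S41 / F-ODD (helper11): real torsion points by a Sturm chain of division polynomials

For a Weierstrass curve `W` over `ℝ` with `Δ ≠ 0` and every `n ≥ 3` there is a real affine point
`P = (x, y)` with `2y + a₁x + a₃ > 0` and `ψ_n`-criterion `ΨSq_n(x) = 0`, i.e. `n • P = 0`.

Method: on the unbounded branch `x > e` (`e` the largest real root of `g = Ψ₂Sq`) the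
polynomials `p_k = preΨ_k` form a Sturm-like chain:
`p_k(x₀) = 0 ⇒ p_{k-1}(x₀) p_{k+1}(x₀) < 0` (because `x(k • P) ≥ m` for real points), with
`p_1 = p_2 = 1`, `p_3(e) < 0` and all leading coefficients positive. Induction + IVT.
-/

set_option autoImplicit false

noncomputable section

namespace Fermat.Agent.S41.H11

open WeierstrassCurve Polynomial
open Fermat.Agent.S13 Fermat.Agent.S05

variable (W : WeierstrassCurve ℝ)

/-- the cubic `g = Ψ₂Sq` as a real function -/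
def gv (x : ℝ) : ℝ := 4 * x ^ 3 + W.b₂ * x ^ 2 + 2 * W.b₄ * x + W.b₆

lemma eval_Ψ₂Sq_eq (x : ℝ) : (W.Ψ₂Sq).eval x = gv W x := by
  rw [H17.eval_Ψ₂Sq]; rfl

/-- the derivative of `g` -/
def gd (x : ℝ) : ℝ := 12 * x ^ 2 + 2 * W.b₂ * x + 2 * W.b₄

/-- `16 Ψ₃ = 2 g g'' - g'²` -/
lemma sixteen_Ψ₃ (x : ℝ) :
    16 * (W.Ψ₃).eval x = 2 * gv W x * (24 * x + 2 * W.b₂) - gd W x ^ 2 := by
  have hb := W.b_relation
  simp only [Ψ₃, gv, gd, eval_add, eval_mul, eval_pow, eval_X, eval_C, eval_ofNat]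
  linear_combination 4 * hb

/-- on a real affine point, `g(x) = (2y + a₁x + a₃)² ≥ 0` -/
lemma gv_eq_sq {x y : ℝ} (h : W.toAffine.Equation x y) :
    gv W x = (2 * y + W.a₁ * x + W.a₃) ^ 2 := by
  have := H17.psi2Val_sq W h
  rw [H17.psi2Val] at this
  rw [this]; rfl

lemma gv_nonneg {x y : ℝ} (h : W.toAffine.Equation x y) : 0 ≤ gv W x := by
  rw [gv_eq_sq W h]; positivity

/-- the `y`-coordinate of the upper branch -/
def Yv (x : ℝ) : ℝ := (Real.sqrt (gv W x) - W.a₁ * x - W.a₃) / 2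

lemma two_Yv (x : ℝ) : 2 * Yv W x + W.a₁ * x + W.a₃ = Real.sqrt (gv W x) := by
  rw [Yv]; ring

lemma equation_Yv {x : ℝ} (hx : 0 ≤ gv W x) : W.toAffine.Equation x (Yv W x) := by
  rw [Affine.equation_iff]
  have hs : Real.sqrt (gv W x) ^ 2 = gv W x := Real.sq_sqrt hx
  have h2 := two_Yv W x
  have hg : gv W x = 4 * x ^ 3 + W.b₂ * x ^ 2 + 2 * W.b₄ * x + W.b₆ := rfl
  simp only [b₂, b₄, b₆] at hg
  have : (2 * Yv W x + W.a₁ * x + W.a₃) ^ 2 = gv W x := by rw [h2, hs]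
  rw [hg] at this
  linear_combination (1 / 4 : ℝ) * this

lemma nonsingular_Yv (hΔ : W.Δ ≠ 0) {x : ℝ} (hx : 0 ≤ gv W x) :
    W.toAffine.Nonsingular x (Yv W x) :=
  (Affine.equation_iff_nonsingular_of_Δ_ne_zero hΔ).mp (equation_Yv W hx)

/-- `g < 0` far to the left -/
lemma exists_lower_bound : ∃ m : ℝ, ∀ x, 0 ≤ gv W x → m ≤ x := by
  set B : ℝ := |W.b₂| + |2 * W.b₄| + |W.b₆| + 1 with hB
  refine ⟨-B, fun x hx => ?_⟩
  by_contra hlt
  have hxB : x < -B := not_le.mp hlt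
  have h1 : 0 ≤ |W.b₂| := abs_nonneg _
  have h2 : 0 ≤ |2 * W.b₄| := abs_nonneg _
  have h3 : 0 ≤ |W.b₆| := abs_nonneg _
  have hx1 : x < -1 := by linarith
  have hxsq : 1 ≤ x ^ 2 := by nlinarith
  have hxabs : -x ≤ x ^ 2 := by nlinarith
  -- termwise bounds
  have t1 : W.b₂ * x ^ 2 ≤ |W.b₂| * x ^ 2 :=
    mul_le_mul_of_nonneg_right (le_abs_self _) (by positivity)
  have t2 : 2 * W.b₄ * x ≤ |2 * W.b₄| * x ^ 2 := by
    have : 2 * W.b₄ * x ≤ |2 * W.b₄| * (-x) := by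
      have h := neg_abs_le (2 * W.b₄)
      nlinarith
    have h' : |2 * W.b₄| * (-x) ≤ |2 * W.b₄| * x ^ 2 := mul_le_mul_of_nonneg_left hxabs h2
    linarith
  have t3 : W.b₆ ≤ |W.b₆| * x ^ 2 := by
    have := le_abs_self W.b₆
    nlinarith
  have t4 : 4 * x ^ 3 < -4 * B * x ^ 2 := by
    have hx2 : 0 < x ^ 2 := by positivity
    nlinarith
  have : gv W x < 0 := by
    rw [gv]
    have hx2 : 0 < x ^ 2 := by positivity
    nlinarith
  linarith

/-- the largest real root `e` of `g` -/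
lemma exists_largest_root_gv :
    ∃ e : ℝ, gv W e = 0 ∧ ∀ x, e < x → 0 < gv W x := by
  obtain ⟨m, hm⟩ := exists_lower_bound W
  have hneg : (W.Ψ₂Sq).eval (m - 1) < 0 := by
    rw [eval_Ψ₂Sq_eq]
    by_contra h
    have := hm (m - 1) (not_lt.mp h)
    linarith
  have hlc : 0 < (W.Ψ₂Sq).leadingCoeff := by
    rw [W.leadingCoeff_Ψ₂Sq (by norm_num)]; norm_num
  obtain ⟨e, -, he0, hepos⟩ := exists_largest_root hlc hneg
  refine ⟨e, by rw [← eval_Ψ₂Sq_eq]; exact he0, fun x hx => ?_⟩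
  rw [← eval_Ψ₂Sq_eq]; exact hepos x hx

/-- `g'(e) ≠ 0` at a root `e` of `g` (simple root, from `Δ ≠ 0`). -/
lemma gd_ne_zero (hΔ : W.Δ ≠ 0) {e : ℝ} (he : gv W e = 0) : gd W e ≠ 0 := by
  have hns := nonsingular_Yv W hΔ (x := e) (by rw [he])
  rw [Affine.nonsingular_iff] at hns
  obtain ⟨-, hdisj⟩ := hns
  have h2 := two_Yv W e
  rw [he, Real.sqrt_zero] at h2
  rcases hdisj with h | h
  · intro h0
    have h' : W.a₁ * Yv W e ≠ 3 * e ^ 2 + 2 * W.a₂ * e + W.a₄ := h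
    apply h'
    simp only [gd, b₂, b₄] at h0
    linear_combination (W.a₁ / 2) * h2 - (1 / 4 : ℝ) * h0
  · exfalso; apply h; linarith

/-- `Ψ₃(e) < 0` at a root `e` of `g`. -/
lemma Ψ₃_neg (hΔ : W.Δ ≠ 0) {e : ℝ} (he : gv W e = 0) : (W.Ψ₃).eval e < 0 := by
  have h16 := sixteen_Ψ₃ W e
  rw [he] at h16
  have hpos : 0 < gd W e ^ 2 := by
    have := gd_ne_zero W hΔ he
    positivity
  nlinarith

/-! ## Evaluation of `ΨSq`, `Φ` in terms of `preΨ` -/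

lemma eval_ΨSq (k : ℤ) (x : ℝ) :
    (W.ΨSq k).eval x = (W.preΨ k).eval x ^ 2 * (if Even k then gv W x else 1) := by
  rw [ΨSq]
  split_ifs <;> simp [eval_Ψ₂Sq_eq]

lemma eval_Φ' (k : ℤ) (x : ℝ) :
    (W.Φ k).eval x = x * (W.ΨSq k).eval x -
      (W.preΨ (k + 1)).eval x * (W.preΨ (k - 1)).eval x * (if Even k then 1 else gv W x) := by
  rw [WeierstrassCurve.Φ]
  split_ifs <;> simp [eval_Ψ₂Sq_eq]

/-! ## Real points and the torsion criterion -/

section Points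

variable {W}
variable (hΔ : W.Δ ≠ 0) {e : ℝ} (hepos : ∀ x, e < x → 0 < gv W x)

/-- the real point on the upper branch above `x` -/
def upperPoint (hΔ : W.Δ ≠ 0) {x : ℝ} (hx : 0 ≤ gv W x) : W.toAffine.Point :=
  Affine.Point.some x (Yv W x) (nonsingular_Yv W hΔ hx)

include hepos in
lemma nsmul_upperPoint_eq_zero_iff {x : ℝ} (hx : e < x) (k : ℕ) :
    k • upperPoint hΔ (hepos x hx).le = 0 ↔ (W.preΨ (k : ℤ)).eval x = 0 := by
  rw [upperPoint, H17.torsionCriterion_ΨSq, eval_ΨSq]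
  have hg := hepos x hx
  split_ifs
  · rw [mul_eq_zero, pow_eq_zero_iff two_ne_zero]
    exact ⟨fun h => h.resolve_right hg.ne', Or.inl⟩
  · rw [mul_one, pow_eq_zero_iff two_ne_zero]

include hΔ hepos in
/-- two consecutive `preΨ`'s have no common root beyond `e`. -/
lemma not_consecutive_root {x : ℝ} (hx : e < x) (k : ℕ)
    (h0 : (W.preΨ (k : ℤ)).eval x = 0) (h1 : (W.preΨ ((k : ℤ) + 1)).eval x = 0) : False := by
  have e0 := (nsmul_upperPoint_eq_zero_iff hΔ hepos hx k).mpr h0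
  have e1 := (nsmul_upperPoint_eq_zero_iff hΔ hepos hx (k + 1)).mpr (by exact_mod_cast h1)
  rw [succ_nsmul, e0, zero_add] at e1
  exact Affine.Point.some_ne_zero _ e1

include hΔ hepos in
/-- **key inequality**: `Φ_k ≥ m ΨSq_k` on `(e, ∞)`. -/
lemma Φ_ge {m : ℝ} (hm : ∀ x, 0 ≤ gv W x → m ≤ x) (k : ℕ) (hk : 1 ≤ k) :
    ∀ x, e < x → 0 ≤ (W.Φ (k : ℤ)).eval x - m * (W.ΨSq (k : ℤ)).eval x := by
  have hkne : ((k : ℤ) : ℝ) ≠ 0 := by
    have : (1 : ℝ) ≤ ((k : ℤ) : ℝ) := by exact_mod_cast hk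
    linarith
  apply nonneg_of_nonneg_off_roots (s := W.ΨSq (k : ℤ)) ?_ (W.ΨSq_ne_zero hkne)
  · intro x hx hs
    have hg := hepos x hx
    have hns := nonsingular_Yv W hΔ hg.le
    have hne : k • Affine.Point.some x (Yv W x) hns ≠ 0 := by
      intro h
      exact hs ((H17.torsionCriterion_ΨSq W k x (Yv W x) hns).mp h)
    obtain ⟨-, hmul⟩ := H17.xCoord_nsmul_mul_ΨSq W hns k hne
    rcases hQ : k • Affine.Point.some x (Yv W x) hns with _ | ⟨x', y', h'⟩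
    · exact absurd hQ hne
    · rw [hQ] at hmul
      rw [H67.xCoord_some] at hmul
      have hx' : m ≤ x' := hm x' (gv_nonneg W h'.1)
      have hpsi : 0 ≤ (W.ΨSq (k : ℤ)).eval x := by
        rw [← H17.psiVal_sq W hns.1]; positivity
      rw [← hmul]
      nlinarith
  · exact ((W.Φ (k : ℤ)).continuous).sub (continuous_const.mul (W.ΨSq (k : ℤ)).continuous)

include hΔ hepos in
/-- **Sturm property**: at a root `x₀ > e` of `p_k`, `p_{k-1}(x₀) p_{k+1}(x₀) < 0`. -/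
theorem sturm (k : ℕ) (hk : 2 ≤ k) {x₀ : ℝ} (hx₀ : e < x₀)
    (h0 : (W.preΨ (k : ℤ)).eval x₀ = 0) :
    (W.preΨ ((k : ℤ) - 1)).eval x₀ * (W.preΨ ((k : ℤ) + 1)).eval x₀ < 0 := by
  obtain ⟨m, hm⟩ := exists_lower_bound W
  have hΦ := Φ_ge hΔ hepos hm k (by omega) x₀ hx₀
  have hΨ : (W.ΨSq (k : ℤ)).eval x₀ = 0 := by rw [eval_ΨSq, h0]; simp
  rw [eval_Φ', hΨ] at hΦ
  have hg := hepos x₀ hx₀
  have hle : (W.preΨ ((k : ℤ) - 1)).eval x₀ * (W.preΨ ((k : ℤ) + 1)).eval x₀ ≤ 0 := by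
    split_ifs at hΦ
    · nlinarith
    · by_contra hpos
      have hpos' : 0 < (W.preΨ ((k : ℤ) - 1)).eval x₀ * (W.preΨ ((k : ℤ) + 1)).eval x₀ :=
        not_le.mp hpos
      have := mul_pos hpos' hg
      nlinarith
  have hne1 : (W.preΨ ((k : ℤ) + 1)).eval x₀ ≠ 0 := fun h1 =>
    not_consecutive_root hΔ hepos hx₀ k h0 h1
  have hne0 : (W.preΨ ((k : ℤ) - 1)).eval x₀ ≠ 0 := by
    intro h1
    obtain ⟨j, rfl⟩ : ∃ j, k = j + 1 := ⟨k - 1, by omega⟩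
    have e1 : ((j + 1 : ℕ) : ℤ) - 1 = (j : ℤ) := by push_cast; ring
    rw [e1] at h1
    exact not_consecutive_root hΔ hepos hx₀ j h1 (by exact_mod_cast h0)
  exact lt_of_le_of_ne hle (mul_ne_zero hne0 hne1)

end Points

/-! ## The induction -/

lemma leadingCoeff_preΨ_pos (k : ℕ) (hk : 1 ≤ k) : 0 < (W.preΨ (k : ℤ)).leadingCoeff := by
  have hkne : ((k : ℤ) : ℝ) ≠ 0 := by
    have : (1 : ℝ) ≤ ((k : ℤ) : ℝ) := by exact_mod_cast hk
    linarith
  rw [W.leadingCoeff_preΨ hkne]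
  split_ifs with h
  · obtain ⟨j, hj⟩ := h
    have hj1 : 1 ≤ j := by omega
    have : (k : ℤ) / 2 = j := by omega
    rw [this]
    exact_mod_cast hj1
  · exact_mod_cast hk

/-- the inductive invariant -/
def ChainInv (e : ℝ) (k : ℕ) : Prop :=
  ∃ r : ℝ, e ≤ r ∧ (∀ x, r < x → 0 < (W.preΨ ((k : ℤ) - 1)).eval x) ∧
    (∀ x, r < x → 0 < (W.preΨ (k : ℤ)).eval x) ∧ (W.preΨ ((k : ℤ) + 1)).eval r < 0

variable {W}

theorem chainInv_all (hΔ : W.Δ ≠ 0) {e : ℝ} (he0 : gv W e = 0)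
    (hepos : ∀ x, e < x → 0 < gv W x) (k : ℕ) (hk : 2 ≤ k) : ChainInv W e k := by
  induction k, hk using Nat.le_induction with
  | base =>
    refine ⟨e, le_refl e, fun x _ => ?_, fun x _ => ?_, ?_⟩
    · norm_num
    · norm_num
    · have : ((2 : ℕ) : ℤ) + 1 = 3 := by norm_num
      rw [this, preΨ_three]
      exact Ψ₃_neg W hΔ he0
  | succ k hk ih =>
    obtain ⟨r, her, h1, h2, h3⟩ := ih
    obtain ⟨r', hrr', hr'0, hr'pos⟩ :=
      exists_largest_root (leadingCoeff_preΨ_pos W (k + 1) (by omega))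
        (by exact_mod_cast h3)
    have her' : e < r' := lt_of_le_of_lt her hrr'
    refine ⟨r', her'.le, fun x hx => ?_, fun x hx => hr'pos x hx, ?_⟩
    · have e1 : ((k + 1 : ℕ) : ℤ) - 1 = (k : ℤ) := by push_cast; ring
      rw [e1]
      exact h2 x (lt_trans hrr' hx)
    · have hs := sturm hΔ hepos (k + 1) (by omega) her' hr'0
      have e1 : ((k + 1 : ℕ) : ℤ) - 1 = (k : ℤ) := by push_cast; ring
      rw [e1] at hs
      have hkpos : 0 < (W.preΨ (k : ℤ)).eval r' := h2 r' hrr'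
      by_contra hnot
      have : 0 ≤ (W.preΨ (((k + 1 : ℕ) : ℤ) + 1)).eval r' := not_lt.mp hnot
      have := mul_nonneg hkpos.le this
      linarith

/-- **(CC)** every real Weierstrass curve with `Δ ≠ 0` has, for each `n ≥ 3`, a real affine
point `(x, y)` on the upper branch (`2y + a₁x + a₃ > 0`) with `preΨ_n(x) = 0`. -/
theorem exists_root_preΨ (hΔ : W.Δ ≠ 0) (n : ℕ) (h3 : 3 ≤ n) :
    ∃ x : ℝ, 0 < gv W x ∧ (W.preΨ (n : ℤ)).eval x = 0 := by
  obtain ⟨e, he0, hepos⟩ := exists_largest_root_gv W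
  obtain ⟨j, rfl⟩ : ∃ j, n = j + 1 := ⟨n - 1, by omega⟩
  obtain ⟨r, her, -, -, h3'⟩ := chainInv_all hΔ he0 hepos j (by omega)
  obtain ⟨x₀, hx₀, h0⟩ :=
    exists_root_gt (leadingCoeff_preΨ_pos W (j + 1) (by omega))
      (r := r) (by exact_mod_cast h3')
  exact ⟨x₀, hepos x₀ (lt_of_le_of_lt her hx₀), h0⟩

/-- **(CC)**, point form: for odd `n ≥ 3` there is a real affine point `P = (x, y)` with
`2y + a₁x + a₃ > 0` and `n • P = 0`. -/
theorem exists_real_torsion_point (hΔ : W.Δ ≠ 0) {n : ℕ} (hn : Odd n) (h3 : 3 ≤ n) :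
    ∃ (x y : ℝ) (h : W.toAffine.Nonsingular x y),
      0 < 2 * y + W.a₁ * x + W.a₃ ∧ n • (Affine.Point.some x y h) = 0 := by
  obtain ⟨x, hg, h0⟩ := exists_root_preΨ hΔ n h3
  refine ⟨x, Yv W x, nonsingular_Yv W hΔ hg.le, ?_, ?_⟩
  · rw [two_Yv]; exact Real.sqrt_pos.mpr hg
  · rw [H17.torsionCriterion W hn]
    exact h0

end Fermat.Agent.S41.H11
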