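import Mathlib
import Fermat.Agent.S05.H79_VarChange
import Fermat.Agent.S13.H17_MultFinal

/-!
# S41 / F-ODD (helper11): the quadratic twist by `-1`

`twist W := ⟨0, -b₂/4, 0, b₄/2, -b₆/4⟩`.  Over `ℂ` it is `C • W` for the variable change
`C = ⟨u = I, r = 0, s = -a₁/2, t = -a₃/2⟩`, so by `H79.pointEquiv` and the torsion criterion:
for odd `n`, a root `X` of `preΨ_n(twist W)` gives the root `-X` of `preΨ_n(W)`.
-/

set_option autoImplicit false

noncomputable section

namespace Fermat.Agent.S41.H11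

open WeierstrassCurve Polynomial
open Fermat.Agent.S13 Fermat.Agent.S05

section Defs

variable {F : Type*} [Field F]

/-- the quadratic twist by `-1`, in the form `y² = x³ - (b₂/4) x² + (b₄/2) x - b₆/4`. -/
def twist (W : WeierstrassCurve F) : WeierstrassCurve F :=
  ⟨0, -W.b₂ / 4, 0, W.b₄ / 2, -W.b₆ / 4⟩

@[simp] lemma twist_a₁ (W : WeierstrassCurve F) : (twist W).a₁ = 0 := rfl
@[simp] lemma twist_a₂ (W : WeierstrassCurve F) : (twist W).a₂ = -W.b₂ / 4 := rfl
@[simp] lemma twist_a₃ (W : WeierstrassCurve F) : (twist W).a₃ = 0 := rfl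
@[simp] lemma twist_a₄ (W : WeierstrassCurve F) : (twist W).a₄ = W.b₄ / 2 := rfl
@[simp] lemma twist_a₆ (W : WeierstrassCurve F) : (twist W).a₆ = -W.b₆ / 4 := rfl

lemma twist_map {K : Type*} [Field K] (f : F →+* K) (W : WeierstrassCurve F) :
    (twist W).map f = twist (W.map f) := by
  ext <;> simp [twist, map_b₂, map_b₄, map_b₆, map_ofNat]

variable (W : WeierstrassCurve F)

lemma twist_b₂ (h2 : (2 : F) ≠ 0) : (twist W).b₂ = -W.b₂ := by
  have h4 : (4 : F) ≠ 0 := by
    have : (4 : F) = 2 * 2 := by norm_num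
    rw [this]; exact mul_ne_zero h2 h2
  simp only [b₂, twist_a₁, twist_a₂]
  field_simp
  ring

lemma twist_b₄ (h2 : (2 : F) ≠ 0) : (twist W).b₄ = W.b₄ := by
  simp only [b₄, twist_a₁, twist_a₃, twist_a₄]
  field_simp
  ring

lemma twist_b₆ (h2 : (2 : F) ≠ 0) : (twist W).b₆ = -W.b₆ := by
  have h4 : (4 : F) ≠ 0 := by
    have : (4 : F) = 2 * 2 := by norm_num
    rw [this]; exact mul_ne_zero h2 h2
  simp only [b₆, twist_a₃, twist_a₆]
  field_simp
  ring

lemma twist_Δ (h2 : (2 : F) ≠ 0) : (twist W).Δ = W.Δ := by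
  have h4 : (4 : F) ≠ 0 := by
    have : (4 : F) = 2 * 2 := by norm_num
    rw [this]; exact mul_ne_zero h2 h2
  have hb8 : (twist W).b₈ = W.b₈ := by
    have hrel := W.b_relation
    have hrel' := (twist W).b_relation
    rw [twist_b₂ W h2, twist_b₄ W h2, twist_b₆ W h2] at hrel'
    apply mul_left_cancel₀ h4
    linear_combination hrel' - hrel
  rw [Δ, Δ, hb8, twist_b₂ W h2, twist_b₄ W h2, twist_b₆ W h2]
  ring

end Defs

section Complex

variable (W : WeierstrassCurve ℂ)

/-- the unit `I` of `ℂ` -/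
def unitI : ℂˣ := ⟨Complex.I, -Complex.I, by simp, by simp⟩

@[simp] lemma coe_unitI : ((unitI : ℂˣ) : ℂ) = Complex.I := rfl
@[simp] lemma coe_inv_unitI : ((unitI⁻¹ : ℂˣ) : ℂ) = -Complex.I := rfl

/-- the variable change `⟨I, 0, -a₁/2, -a₃/2⟩` realising the twist over `ℂ`. -/
def twistVC : VariableChange ℂ := ⟨unitI, 0, -W.a₁ / 2, -W.a₃ / 2⟩

lemma twistVC_smul : twistVC W • W = twist W := by
  have hI2 : Complex.I ^ 2 = -1 := Complex.I_sq
  have hI3 : Complex.I ^ 3 = -Complex.I := by rw [pow_succ, hI2]; ring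
  have hI4 : Complex.I ^ 4 = 1 := Complex.I_pow_four
  have hI6 : Complex.I ^ 6 = -1 := by
    have : Complex.I ^ 6 = Complex.I ^ 4 * Complex.I ^ 2 := by ring
    rw [this, hI4, hI2]; ring
  ext
  · simp only [variableChange_a₁, twistVC, coe_inv_unitI, twist_a₁]
    ring
  · simp only [variableChange_a₂, twistVC, coe_inv_unitI, twist_a₂, b₂]
    have : (-Complex.I) ^ 2 = -1 := by rw [neg_sq, hI2]
    rw [this]; ring
  · simp only [variableChange_a₃, twistVC, coe_inv_unitI, twist_a₃]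
    ring
  · simp only [variableChange_a₄, twistVC, coe_inv_unitI, twist_a₄, b₄]
    have : (-Complex.I) ^ 4 = 1 := by
      rw [show (-Complex.I) ^ 4 = Complex.I ^ 4 by ring, hI4]
    rw [this]; ring
  · simp only [variableChange_a₆, twistVC, coe_inv_unitI, twist_a₆, b₆]
    have : (-Complex.I) ^ 6 = -1 := by
      rw [show (-Complex.I) ^ 6 = Complex.I ^ 6 by ring, hI6]
    rw [this]; ring

/-- for odd `n`, a root `X` of `preΨ_n` of the twist gives the root `-X` of `preΨ_n(W)`. -/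
theorem eval_preΨ_neg_of_twist (hΔ : W.Δ ≠ 0) {n : ℕ} (hn : Odd n) {X : ℂ}
    (h : ((twist W).preΨ (n : ℤ)).eval X = 0) : (W.preΨ (n : ℤ)).eval (-X) = 0 := by
  classical
  have h2 : (2 : ℂ) ≠ 0 := two_ne_zero
  have hΔ' : (twist W).Δ ≠ 0 := by rw [twist_Δ W h2]; exact hΔ
  -- a point of the twist above `X`
  obtain ⟨Y, hY⟩ := IsAlgClosed.exists_pow_nat_eq
    (X ^ 3 + (twist W).a₂ * X ^ 2 + (twist W).a₄ * X + (twist W).a₆) (n := 2) two_pos
  have heq : (twist W).toAffine.Equation X Y := by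
    rw [Affine.equation_iff]
    simp only [twist_a₁, twist_a₃]
    linear_combination hY
  have hns : (twist W).toAffine.Nonsingular X Y :=
    (Affine.equation_iff_nonsingular_of_Δ_ne_zero hΔ').mp heq
  have htors : n • (Affine.Point.some X Y hns) = 0 :=
    (H17.torsionCriterion (twist W) hn X Y hns).mpr h
  -- transport to `W`
  have hW := twistVC_smul W
  set P'' := H79.pointCongr hW.symm (Affine.Point.some X Y hns) with hP''
  have h1 : n • P'' = 0 := by rw [hP'', ← map_nsmul, htors, map_zero]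
  have h2' : n • (H79.pointEquiv W (twistVC W) P'') = 0 := by
    rw [← map_nsmul, h1, map_zero]
  rw [hP'', H79.pointCongr_some, H79.pointEquiv_some] at h2'
  have h3 := (H17.torsionCriterion W hn _ _ _).mp h2'
  have hvc : H79.vcX (twistVC W) X = -X := by
    simp only [H79.vcX, twistVC, coe_unitI, Complex.I_sq]
    ring
  rwa [hvc] at h3

end Complex

end Fermat.Agent.S41.H11
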