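import Mathlib
import Fermat.Prelude.Def_FLTPrelim_GaloisRep
import Fermat.Prelude.Def_GaloisRep_ComplexConjugation
import Fermat.Agent.S41.H11_SturmChain
import Fermat.Agent.S41.H11_Twist

/-!
# S41 / F-ODD (helper11): complex conjugation is not scalar on `E[n]`, `n ≥ 3` odd

`exists_fixed_and_negated`: for `E : WeierstrassCurve ℚ` with `Δ ≠ 0` and odd `n ≥ 3` there are
nonzero `P₀ P₁ ∈ E[n](ℚ̄)` with `c • P₀ = P₀` and `c • P₁ = -P₁`, `c = complexConjugation`
(prelude).  `P₀` comes from a real `n`-torsion point of `E` (`exists_root_preΨ`), `P₁` from a real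
`n`-torsion point of the twist by `-1`.
-/

set_option autoImplicit false

noncomputable section

namespace Fermat.Agent.S41.H11

open WeierstrassCurve WeierstrassCurve.Affine WeierstrassCurve.Affine.Point Polynomial
open Fermat.Agent.S13 Fermat.Agent.S05

local notation "Qb" => AlgebraicClosure ℚ

/-! ## Lifting algebraic numbers along `complexEmbedding` -/

theorem exists_lift_of_aeval_eq_zero {p : ℚ[X]} (hp : p ≠ 0) {z : ℂ}
    (hz : aeval z p = 0) : ∃ Z : Qb, complexEmbedding Z = z := by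
  have hsplit : (p.map (algebraMap ℚ Qb)).Splits := IsAlgClosed.splits _
  have hne : p.map (algebraMap ℚ Qb) ≠ 0 :=
    (Polynomial.map_ne_zero_iff (algebraMap ℚ Qb).injective).mpr hp
  have hroot : ((p.map (algebraMap ℚ Qb)).map complexEmbedding.toRingHom).IsRoot z := by
    rw [Polynomial.map_map, IsRoot.def, eval_map]
    have hcomp : complexEmbedding.toRingHom.comp (algebraMap ℚ Qb) = algebraMap ℚ ℂ :=
      complexEmbedding.comp_algebraMap
    rw [hcomp, ← aeval_def]
    exact hz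
  obtain ⟨Z, hZ⟩ := hsplit.mem_range_of_isRoot hne hroot
  exact ⟨Z, hZ⟩

lemma complexEmbedding_injective : Function.Injective complexEmbedding :=
  complexEmbedding.toRingHom.injective

lemma complexEmbedding_algebraMap (a : ℚ) : complexEmbedding (algebraMap ℚ Qb a) = (a : ℂ) := by
  rw [AlgHom.commutes]; rfl

lemma complexConjugation_algebraMap (a : ℚ) :
    complexConjugation (algebraMap ℚ Qb a) = algebraMap ℚ Qb a :=
  complexConjugation.commutes a

/-- a complex number with real positive / negative square -/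
lemma conj_of_sq_eq {z : ℂ} {r : ℝ} (h : z ^ 2 = (r : ℂ)) :
    (0 < r → starRingEnd ℂ z = z) ∧ (r < 0 → starRingEnd ℂ z = -z) := by
  have hre : z.re * z.re - z.im * z.im = r := by
    have := congrArg Complex.re h
    simpa [sq, Complex.mul_re] using this
  have him : z.re * z.im = 0 := by
    have := congrArg Complex.im h
    simp only [sq, Complex.mul_im, Complex.ofReal_im] at this
    linarith
  constructor
  · intro hr
    have hz : z.im = 0 := by
      rcases mul_eq_zero.mp him with h0 | h0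
      · exfalso
        rw [h0] at hre
        nlinarith [mul_self_nonneg z.im]
      · exact h0
    apply Complex.ext <;> simp [hz]
  · intro hr
    have hz : z.re = 0 := by
      rcases mul_eq_zero.mp him with h0 | h0
      · exact h0
      · exfalso
        rw [h0] at hre
        nlinarith [mul_self_nonneg z.re]
    apply Complex.ext <;> simp [hz]

/-! ## Points of `E(ℚ̄)` above a real root of `preΨ_n` -/

section Core

variable (E : WeierstrassCurve ℚ)

/-- the real curve -/
abbrev ER : WeierstrassCurve ℝ := E.map (algebraMap ℚ ℝ)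

lemma ER_Δ (hΔ : E.Δ ≠ 0) : (ER E).Δ ≠ 0 := by
  rw [map_Δ]
  exact fun h => hΔ ((algebraMap ℚ ℝ).injective (by rw [h, _root_.map_zero]))

/-- `g(x)` in `ℂ`, rational coefficients. -/
lemma gv_ER_cast (x : ℝ) :
    ((gv (ER E) x : ℝ) : ℂ) =
      4 * (x : ℂ) ^ 3 + (E.b₂ : ℂ) * (x : ℂ) ^ 2 + 2 * (E.b₄ : ℂ) * (x : ℂ) + (E.b₆ : ℂ) := by
  simp only [gv, map_b₂, map_b₄, map_b₆, eq_ratCast]
  push_cast
  ring

/-- **core**: above a real `x` with `g(x) ≠ 0` which is a root of `preΨ_n` (rational polynomial),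
there is a nonzero point of `E[n](ℚ̄)` which is fixed (`g(x) > 0`) resp. negated (`g(x) < 0`)
by complex conjugation. -/
theorem exists_point_above (hΔ : E.Δ ≠ 0) {n : ℕ} (hn : Odd n) (hn0 : n ≠ 0) {x : ℝ}
    (hroot : aeval (x : ℂ) (E.preΨ (n : ℤ)) = 0) :
    ∃ P : ((E : Affine ℚ)⁄Qb).Point, P ≠ 0 ∧ n • P = 0 ∧
      (0 < gv (ER E) x → complexConjugation • P = P) ∧
      (gv (ER E) x < 0 → complexConjugation • P = -P) := by
  have hpne : E.preΨ (n : ℤ) ≠ 0 := by
    apply E.preΨ_ne_zero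
    exact_mod_cast hn0
  obtain ⟨X, hX⟩ := exists_lift_of_aeval_eq_zero hpne hroot
  -- `X` is fixed by `c`
  have hcX : complexConjugation X = X := by
    apply complexEmbedding_injective
    rw [complexEmbedding_complexConjugation, hX, Complex.conj_ofReal]
  -- a square root `w` of `g(X)`
  set a₁ : Qb := algebraMap ℚ Qb E.a₁ with ha₁
  set a₃ : Qb := algebraMap ℚ Qb E.a₃ with ha₃
  set gX : Qb := 4 * X ^ 3 + algebraMap ℚ Qb E.b₂ * X ^ 2 + 2 * algebraMap ℚ Qb E.b₄ * X +
    algebraMap ℚ Qb E.b₆ with hgX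
  obtain ⟨w, hw⟩ := IsAlgClosed.exists_pow_nat_eq gX (n := 2) two_pos
  set Y : Qb := (w - a₁ * X - a₃) / 2 with hY
  have h2Y : 2 * Y + a₁ * X + a₃ = w := by rw [hY]; ring
  -- the point
  have heq : ((E : Affine ℚ)⁄Qb).Equation X Y := by
    rw [Affine.equation_iff]
    simp only [Affine.baseChange, WeierstrassCurve.baseChange, map_a₁, map_a₂, map_a₃, map_a₄, map_a₆]
    have h1 : (2 * Y + a₁ * X + a₃) ^ 2 = gX := by rw [h2Y, hw]
    rw [hgX] at h1
    simp only [b₂, b₄, b₆, map_add, map_mul, map_pow, map_ofNat] at h1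
    linear_combination (1 / 4 : Qb) * h1
  have hΔ' : ((E : Affine ℚ)⁄Qb).Δ ≠ 0 := by
    simp only [Affine.baseChange, WeierstrassCurve.baseChange, map_Δ]
    exact fun h => hΔ ((algebraMap ℚ Qb).injective (by rw [h, _root_.map_zero]))
  have hns : ((E : Affine ℚ)⁄Qb).Nonsingular X Y :=
    (Affine.equation_iff_nonsingular_of_Δ_ne_zero hΔ').mp heq
  -- `n`-torsion
  have hrootX : ((E.baseChange Qb).preΨ (n : ℤ)).eval X = 0 := by
    rw [WeierstrassCurve.baseChange, map_preΨ, eval_map, ← aeval_def]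
    apply complexEmbedding_injective
    rw [_root_.map_zero, ← Polynomial.aeval_algHom_apply, hX]
    exact hroot
  have htors : n • (Point.some X Y hns : ((E : Affine ℚ)⁄Qb).Point) = 0 :=
    (H17.torsionCriterion (E.baseChange Qb) hn X Y hns).mpr hrootX
  -- `ι w` squares to `g(x)`
  have hιw : complexEmbedding w ^ 2 = ((gv (ER E) x : ℝ) : ℂ) := by
    rw [← map_pow, hw, hgX, gv_ER_cast]
    simp only [map_add, map_mul, map_pow, map_ofNat, hX, complexEmbedding_algebraMap]
  obtain ⟨hpos, hneg⟩ := conj_of_sq_eq hιw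
  have hcY_of (ε : Qb) (hε : complexConjugation w = ε * w) :
      complexConjugation Y = (ε * w - a₁ * X - a₃) / 2 := by
    rw [hY, map_div₀, map_sub, map_sub, map_mul, hcX, hε, ha₁, ha₃,
      complexConjugation_algebraMap, complexConjugation_algebraMap, map_ofNat]
  refine ⟨Point.some X Y hns, Point.some_ne_zero hns, htors, ?_, ?_⟩
  · intro hg
    have hcw : complexConjugation w = w := by
      apply complexEmbedding_injective
      rw [complexEmbedding_complexConjugation, hpos hg]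
    have hcY : complexConjugation Y = Y := by
      rw [hcY_of 1 (by rw [hcw, one_mul]), hY, one_mul]
    show Point.map (W' := (E : Affine ℚ)) complexConjugation.toAlgHom (Point.some X Y hns) = _
    rw [Point.map_some, Point.some.injEq]
    exact ⟨hcX, hcY⟩
  · intro hg
    have hcw : complexConjugation w = -w := by
      apply complexEmbedding_injective
      rw [complexEmbedding_complexConjugation, hneg hg, map_neg]
    have hcY : complexConjugation Y = ((E : Affine ℚ)⁄Qb).negY X Y := by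
      rw [hcY_of (-1) (by rw [hcw, neg_one_mul]), Affine.negY]
      simp only [Affine.baseChange, WeierstrassCurve.baseChange, map_a₁, map_a₃]
      rw [hY]
      ring
    show Point.map (W' := (E : Affine ℚ)) complexConjugation.toAlgHom (Point.some X Y hns) = _
    rw [Point.map_some, Point.neg_some, Point.some.injEq]
    exact ⟨hcX, hcY⟩

end Core

/-! ## The two real roots -/

section Roots

variable (E : WeierstrassCurve ℚ)

/-- real root with `g > 0` -/
theorem exists_real_root_pos (hΔ : E.Δ ≠ 0) (n : ℕ) (h3 : 3 ≤ n) :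
    ∃ x : ℝ, 0 < gv (ER E) x ∧ aeval (x : ℂ) (E.preΨ (n : ℤ)) = 0 := by
  obtain ⟨x, hg, h0⟩ := exists_root_preΨ (W := ER E) (ER_Δ E hΔ) n h3
  refine ⟨x, hg, ?_⟩
  rw [map_preΨ, eval_map, ← aeval_def] at h0
  have : aeval ((algebraMap ℝ ℂ) x) (E.preΨ (n : ℤ)) = algebraMap ℝ ℂ (aeval x (E.preΨ (n : ℤ))) :=
    Polynomial.aeval_algebraMap_apply ℂ x _
  rw [h0, _root_.map_zero] at this
  exact this

lemma gv_twist (W : WeierstrassCurve ℝ) (x : ℝ) : gv (twist W) x = - gv W (-x) := by
  rw [gv, gv, twist_b₂ W two_ne_zero, twist_b₄ W two_ne_zero, twist_b₆ W two_ne_zero]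
  ring

/-- real root with `g < 0` (from the twist) -/
theorem exists_real_root_neg (hΔ : E.Δ ≠ 0) {n : ℕ} (hn : Odd n) (h3 : 3 ≤ n) :
    ∃ x : ℝ, gv (ER E) x < 0 ∧ aeval (x : ℂ) (E.preΨ (n : ℤ)) = 0 := by
  -- real root for the twist
  have hΔt : (twist (ER E)).Δ ≠ 0 := by
    rw [twist_Δ _ two_ne_zero]; exact ER_Δ E hΔ
  obtain ⟨x', hg, h0⟩ := exists_root_preΨ (W := twist (ER E)) hΔt n h3
  refine ⟨-x', ?_, ?_⟩
  · have := gv_twist (ER E) x'
    rw [this] at hg
    linarith
  · -- pass to `ℂ`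
    set EC : WeierstrassCurve ℂ := E.map (algebraMap ℚ ℂ) with hEC
    have hECR : EC = (ER E).map (algebraMap ℝ ℂ) := by
      rw [hEC, ER, WeierstrassCurve.map_map]
      congr 1
    have hΔC : EC.Δ ≠ 0 := by
      rw [hEC, map_Δ]
      exact fun h => hΔ ((algebraMap ℚ ℂ).injective (by rw [h, _root_.map_zero]))
    have h1 : ((twist EC).preΨ (n : ℤ)).eval (x' : ℂ) = 0 := by
      rw [hECR, ← twist_map, map_preΨ, eval_map]
      have : eval₂ (algebraMap ℝ ℂ) (x' : ℂ) ((twist (ER E)).preΨ (n : ℤ)) =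
          algebraMap ℝ ℂ (eval x' ((twist (ER E)).preΨ (n : ℤ))) := by
        rw [← aeval_def]
        exact Polynomial.aeval_algebraMap_apply_eq_algebraMap_eval x' _
      rw [this, h0, _root_.map_zero]
    have h2 := eval_preΨ_neg_of_twist EC hΔC hn h1
    rw [hEC, map_preΨ, eval_map, ← aeval_def] at h2
    push_cast
    exact h2

end Roots

/-! ## Main theorem -/

/-- **ODD**: complex conjugation has a nonzero fixed vector and a nonzero negated vector on
`E[n](ℚ̄)`, for every `E/ℚ` with `Δ ≠ 0` and every odd `n ≥ 3`. -/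
theorem exists_fixed_and_negated (E : WeierstrassCurve ℚ) (hΔ : E.Δ ≠ 0) {n : ℕ} (hn : Odd n)
    (h3 : 3 ≤ n) :
    ∃ P₀ P₁ : Submodule.torsionBy ℤ ((E : Affine ℚ)⁄Qb).Point n,
      P₀ ≠ 0 ∧ P₁ ≠ 0 ∧ complexConjugation • P₀ = P₀ ∧ complexConjugation • P₁ = -P₁ := by
  have hn0 : n ≠ 0 := by omega
  obtain ⟨x₀, hg₀, hr₀⟩ := exists_real_root_pos E hΔ n h3
  obtain ⟨x₁, hg₁, hr₁⟩ := exists_real_root_neg E hΔ hn h3
  obtain ⟨Q₀, hQ₀ne, hQ₀t, hQ₀fix, -⟩ := exists_point_above E hΔ hn hn0 hr₀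
  obtain ⟨Q₁, hQ₁ne, hQ₁t, -, hQ₁neg⟩ := exists_point_above E hΔ hn hn0 hr₁
  have hmem : ∀ Q : ((E : Affine ℚ)⁄Qb).Point, n • Q = 0 →
      Q ∈ Submodule.torsionBy ℤ ((E : Affine ℚ)⁄Qb).Point n := by
    intro Q hQ
    rw [Submodule.mem_torsionBy_iff, natCast_zsmul]
    exact hQ
  refine ⟨⟨Q₀, hmem Q₀ hQ₀t⟩, ⟨Q₁, hmem Q₁ hQ₁t⟩, ?_, ?_, ?_, ?_⟩
  · intro h
    exact hQ₀ne (congrArg Subtype.val h)
  · intro h
    exact hQ₁ne (congrArg Subtype.val h)
  · apply Subtype.ext
    exact hQ₀fix hg₀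
  · apply Subtype.ext
    exact hQ₁neg hg₁

end Fermat.Agent.S41.H11
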