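import Mathlib
import Fermat.Prelude.Def_FLTPrelim_GaloisRep
import Fermat.Prelude.Def_GaloisRep_ComplexConjugation
import Fermat.Agent.S41.H11_Odd

/-!
# S41 / F-ODD (helper11): consumer corollary

If complex conjugation commutes with the whole Galois action on `E[p]` (`p` odd, `E/ℚ` elliptic) –
in particular if the image of `G_ℚ` on `E[p]` is abelian – then `E[p]` is reducible: the fixed
space of complex conjugation is a proper nonzero Galois-stable submodule.
-/

set_option autoImplicit false

noncomputable section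

namespace Fermat.Agent.S41.H11

open WeierstrassCurve WeierstrassCurve.Affine WeierstrassCurve.Affine.Point

local notation "Qb" => AlgebraicClosure ℚ

variable (E : WeierstrassCurve ℚ) (p : ℕ)

/-- the fixed space of complex conjugation on `E[p]`, as a `ZMod p`-submodule. -/
def conjFixed : Submodule (ZMod p) (Submodule.torsionBy ℤ ((E : Affine ℚ)⁄Qb).Point p) :=
  AddSubgroup.toZModSubmodule p
    { carrier := {x | complexConjugation • x = x}
      zero_mem' := smul_zero _
      add_mem' := by
        intro a b ha hb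
        simp only [Set.mem_setOf_eq] at ha hb ⊢
        rw [smul_add, ha, hb]
      neg_mem' := by
        intro a ha
        simp only [Set.mem_setOf_eq] at ha ⊢
        rw [smul_neg, ha] }

lemma mem_conjFixed (x : Submodule.torsionBy ℤ ((E : Affine ℚ)⁄Qb).Point p) :
    x ∈ conjFixed E p ↔ complexConjugation • x = x := Iff.rfl

/-- **consumer form of ODD**: if complex conjugation commutes with the Galois action on `E[p]`,
`p ≥ 3` odd, then `E[p]` is not irreducible. -/
theorem not_irreducible_of_commute_conj (hΔ : E.Δ ≠ 0) {p : ℕ} (hp : Odd p) (h3 : 3 ≤ p)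
    (hab : ∀ (σ : Qb ≃ₐ[ℚ] Qb) (x : Submodule.torsionBy ℤ ((E : Affine ℚ)⁄Qb).Point p),
      complexConjugation • σ • x = σ • complexConjugation • x) :
    ¬ GaloisRepIsIrreducible (K := Qb) ℚ (E : Affine ℚ) p := by
  rintro ⟨-, hirr⟩
  obtain ⟨P₀, P₁, hP₀, hP₁, hfix, hneg⟩ := exists_fixed_and_negated E hΔ hp h3
  have hstable : IsGaloisStable ℚ (conjFixed E p) := by
    intro σ x hx
    rw [mem_conjFixed] at hx ⊢
    rw [hab σ x, hx]
  rcases hirr (conjFixed E p) hstable with hbot | htop
  · have : P₀ ∈ conjFixed E p := (mem_conjFixed E p P₀).mpr hfix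
    rw [hbot, Submodule.mem_bot] at this
    exact hP₀ this
  · have hmem : P₁ ∈ conjFixed E p := by rw [htop]; exact Submodule.mem_top
    rw [mem_conjFixed, hneg] at hmem
    -- `-P₁ = P₁`, so `2 • P₁ = 0`; with `p • P₁ = 0`, `p` odd: `P₁ = 0`
    have h2 : (2 : ℤ) • P₁ = 0 := by
      rw [two_smul]
      nth_rewrite 1 [← hmem]
      exact neg_add_cancel P₁
    have hpP : (p : ℤ) • P₁ = 0 := by
      apply Subtype.ext
      have := P₁.2
      rw [Submodule.mem_torsionBy_iff] at this
      simpa using this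
    obtain ⟨k, hk⟩ := hp
    have h1 : (1 : ℤ) • P₁ = 0 := by
      have e : (1 : ℤ) = (p : ℤ) - k * 2 := by rw [hk]; push_cast; ring
      rw [e, sub_smul, hpP, mul_smul, h2, smul_zero, sub_zero]
    rw [one_smul] at h1
    exact hP₁ h1

/-- abelian image ⇒ reducible. -/
theorem not_irreducible_of_abelian (hΔ : E.Δ ≠ 0) {p : ℕ} (hp : Odd p) (h3 : 3 ≤ p)
    (hab : ∀ (σ τ : Qb ≃ₐ[ℚ] Qb) (x : Submodule.torsionBy ℤ ((E : Affine ℚ)⁄Qb).Point p),
      τ • σ • x = σ • τ • x) :
    ¬ GaloisRepIsIrreducible (K := Qb) ℚ (E : Affine ℚ) p :=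
  not_irreducible_of_commute_conj E hΔ hp h3 (fun σ x => hab σ complexConjugation x)

end Fermat.Agent.S41.H11
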