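import Mathlib

/-!
# Families of real polynomials: "some non-real root" is a clopen condition
(project S41, part (f) ODD, helper13)

`NonReal p` : the real polynomial `p` has a complex root with nonzero imaginary part.

For a family `P : T → ℝ[X]` of separable polynomials of constant degree `d` and constant
leading coefficient, with continuous coefficients, both `{τ | NonReal (P τ)}` and its complement
are open.  On a preconnected parameter space the property is therefore constant
(`nonReal_of_preconnected`).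
-/

set_option autoImplicit false

namespace Fermat.Agent.S41.H13

open Polynomial Filter Topology

/-- the real polynomial `p` has a non-real complex root -/
def NonReal (p : ℝ[X]) : Prop := ∃ z : ℂ, z.im ≠ 0 ∧ aeval z p = 0

section Lower

/-- product of distances from `z₀` to real points is at least `|Im z₀| ^ card` -/
lemma pow_le_norm_prod (z₀ : ℂ) (s : Multiset ℂ) (hs : ∀ r ∈ s, r.im = 0) :
    |z₀.im| ^ Multiset.card s ≤ ‖(s.map (fun r => z₀ - r)).prod‖ := by
  induction s using Multiset.induction_on with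
  | empty => simp
  | cons a s ih =>
    rw [Multiset.map_cons, Multiset.prod_cons, Multiset.card_cons, norm_mul, pow_succ, mul_comm]
    have ha : a.im = 0 := hs a (Multiset.mem_cons_self a s)
    have h1 : |z₀.im| ≤ ‖z₀ - a‖ := by
      have := Complex.abs_im_le_norm (z₀ - a)
      rwa [Complex.sub_im, ha, sub_zero] at this
    have h2 := ih (fun r hr => hs r (Multiset.mem_cons_of_mem hr))
    exact mul_le_mul h1 h2 (by positivity) (norm_nonneg _)

/-- if all complex roots of `p` are real, then `|p(z₀)| ≥ |lc| |Im z₀|^deg` -/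
lemma le_norm_aeval_of_not_nonReal {p : ℝ[X]} (hp : ¬ NonReal p) (z₀ : ℂ) :
    |p.leadingCoeff| * |z₀.im| ^ p.natDegree ≤ ‖aeval z₀ p‖ := by
  set q : ℂ[X] := p.map (algebraMap ℝ ℂ) with hq
  have hcard : Multiset.card q.roots = q.natDegree := IsAlgClosed.card_roots_eq_natDegree
  have hfac := C_leadingCoeff_mul_prod_multiset_X_sub_C hcard
  have hqdeg : q.natDegree = p.natDegree := natDegree_map _
  have hqlc : q.leadingCoeff = (p.leadingCoeff : ℂ) := by
    rw [hq, leadingCoeff_map]; rfl
  have hroots : ∀ r ∈ q.roots, r.im = 0 := by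
    intro r hr
    by_contra him
    apply hp
    refine ⟨r, him, ?_⟩
    have := (mem_roots'.mp hr).2
    rwa [hq, IsRoot.def, eval_map_algebraMap] at this
  have heval : aeval z₀ p = q.leadingCoeff * (q.roots.map (fun r => z₀ - r)).prod := by
    rw [← eval_map_algebraMap, ← hq]
    conv_lhs => rw [← hfac]
    rw [eval_mul, eval_C, eval_multiset_prod, Multiset.map_map]
    congr 2
    refine Multiset.map_congr rfl fun r _ => ?_
    simp
  rw [heval, norm_mul, hqlc, Complex.norm_real, Real.norm_eq_abs]
  refine mul_le_mul_of_nonneg_left ?_ (abs_nonneg _)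
  have := pow_le_norm_prod z₀ q.roots hroots
  rwa [hcard, hqdeg] at this

end Lower

section Roots

/-- a separable real polynomial all of whose complex roots are real has `natDegree` distinct
real roots -/
lemma card_roots_toFinset_of_not_nonReal {p : ℝ[X]} (hsep : p.Separable) (hp : ¬ NonReal p) :
    p.roots.toFinset.card = p.natDegree := by
  classical
  have hp0 : p ≠ 0 := hsep.ne_zero
  set q : ℂ[X] := p.map (algebraMap ℝ ℂ) with hq
  have hq0 : q ≠ 0 := (Polynomial.map_ne_zero_iff (algebraMap ℝ ℂ).injective).mpr hp0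
  have hcard : Multiset.card q.roots = q.natDegree := IsAlgClosed.card_roots_eq_natDegree
  have hqdeg : q.natDegree = p.natDegree := natDegree_map _
  have hnodup : q.roots.Nodup := nodup_roots ((separable_map (algebraMap ℝ ℂ)).mpr hsep)
  have hroots : ∀ r ∈ q.roots, r.im = 0 := by
    intro r hr
    by_contra him
    apply hp
    refine ⟨r, him, ?_⟩
    have := (mem_roots'.mp hr).2
    rwa [hq, IsRoot.def, eval_map_algebraMap] at this
  have hle : p.roots.toFinset.card ≤ p.natDegree :=
    (Multiset.toFinset_card_le _).trans (card_roots' p)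
  refine le_antisymm hle ?_
  have h1 : q.roots.toFinset.card = p.natDegree := by
    rw [Multiset.toFinset_card_of_nodup hnodup, hcard, hqdeg]
  rw [← h1]
  refine Finset.card_le_card_of_injOn Complex.re ?_ ?_
  · intro z hz
    have hz' : z ∈ q.roots := Multiset.mem_toFinset.mp hz
    have him := hroots z hz'
    have hzre : z = (z.re : ℂ) := Complex.ext rfl (by simp [him])
    have hroot := (mem_roots'.mp hz').2
    rw [hq, IsRoot.def, eval_map_algebraMap, hzre] at hroot
    have hreal : aeval ((z.re : ℝ) : ℂ) p = ((p.eval z.re : ℝ) : ℂ) := by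
      have := aeval_algebraMap_apply ℂ z.re p
      simpa using this
    rw [hreal, Complex.ofReal_eq_zero] at hroot
    exact Finset.mem_coe.mpr (Multiset.mem_toFinset.mpr ((mem_roots hp0).mpr hroot))
  · intro z hz w hw hzw
    have hz' : z ∈ q.roots := Multiset.mem_toFinset.mp hz
    have hw' : w ∈ q.roots := Multiset.mem_toFinset.mp hw
    exact Complex.ext hzw (by rw [hroots z hz', hroots w hw'])

/-- a real polynomial with `natDegree` distinct real roots has no non-real root -/
lemma not_nonReal_of_card_roots {p : ℝ[X]} (hp0 : p ≠ 0) (S : Finset ℝ)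
    (hS : ∀ r ∈ S, p.eval r = 0) (hcard : p.natDegree ≤ S.card) : ¬ NonReal p := by
  classical
  rintro ⟨z, him, hz⟩
  set q : ℂ[X] := p.map (algebraMap ℝ ℂ) with hq
  have hq0 : q ≠ 0 := (Polynomial.map_ne_zero_iff (algebraMap ℝ ℂ).injective).mpr hp0
  have hqdeg : q.natDegree = p.natDegree := natDegree_map _
  have hsub : S.image (fun r : ℝ => (r : ℂ)) ⊆ q.roots.toFinset := by
    intro w hw
    obtain ⟨r, hr, rfl⟩ := Finset.mem_image.mp hw
    rw [Multiset.mem_toFinset, mem_roots hq0, hq, IsRoot.def, eval_map_algebraMap]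
    have := aeval_algebraMap_apply ℂ r p
    rw [coe_aeval_eq_eval, hS r hr, map_zero] at this
    simpa using this
  have hcardS : (S.image (fun r : ℝ => (r : ℂ))).card = S.card :=
    Finset.card_image_of_injective _ Complex.ofReal_injective
  have hle : q.roots.toFinset.card ≤ (S.image (fun r : ℝ => (r : ℂ))).card := by
    rw [hcardS]
    calc q.roots.toFinset.card ≤ Multiset.card q.roots := Multiset.toFinset_card_le _
      _ ≤ q.natDegree := card_roots' q
      _ = p.natDegree := hqdeg
      _ ≤ S.card := hcard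
  have heq := Finset.eq_of_subset_of_card_le hsub hle
  have hzmem : z ∈ q.roots.toFinset := by
    rw [Multiset.mem_toFinset, mem_roots hq0, hq, IsRoot.def, eval_map_algebraMap]
    exact hz
  rw [← heq] at hzmem
  obtain ⟨r, -, rfl⟩ := Finset.mem_image.mp hzmem
  exact him (Complex.ofReal_im r)

end Roots

section Simple

/-- at a root of a separable polynomial, the cofactor does not vanish -/
lemma eval_divByMonic_ne_zero {p : ℝ[X]} (hsep : p.Separable) {r : ℝ} (hr : p.eval r = 0) :
    (p /ₘ (X - C r)).eval r ≠ 0 := by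
  intro h0
  have hfac : (X - C r) * (p /ₘ (X - C r)) = p := mul_divByMonic_eq_iff_isRoot.mpr hr
  obtain ⟨a, b, hab⟩ := hsep
  have hder : (derivative p).eval r = 0 := by
    rw [← hfac, derivative_mul, eval_add, eval_mul, eval_mul, h0]
    simp
  have := congrArg (eval r) hab
  rw [eval_add, eval_mul, eval_mul, hr, hder] at this
  simp at this

/-- near a simple root the polynomial changes sign -/
lemma eventually_sign_change {p : ℝ[X]} (hsep : p.Separable) {r : ℝ} (hr : p.eval r = 0) :
    ∀ᶠ ε in 𝓝[>] (0 : ℝ), p.eval (r - ε) * p.eval (r + ε) < 0 := by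
  set q := p /ₘ (X - C r) with hq
  have hfac : (X - C r) * q = p := mul_divByMonic_eq_iff_isRoot.mpr hr
  have hq0 : q.eval r ≠ 0 := eval_divByMonic_ne_zero hsep hr
  have hcont : Continuous fun ε : ℝ => q.eval (r - ε) * q.eval (r + ε) := by
    exact ((q.continuous.comp (continuous_const.sub continuous_id)).mul
      (q.continuous.comp (continuous_const.add continuous_id)))
  have hpos : 0 < q.eval (r - 0) * q.eval (r + 0) := by
    rw [sub_zero, add_zero]; exact mul_self_pos.mpr hq0
  have hev : ∀ᶠ ε in 𝓝 (0 : ℝ), 0 < q.eval (r - ε) * q.eval (r + ε) :=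
    hcont.continuousAt.eventually (lt_mem_nhds hpos)
  have hev' : ∀ᶠ ε in 𝓝[>] (0 : ℝ), 0 < q.eval (r - ε) * q.eval (r + ε) :=
    nhdsWithin_le_nhds hev
  filter_upwards [hev', self_mem_nhdsWithin] with ε hε hε0
  have hε0' : (0 : ℝ) < ε := hε0
  rw [← hfac]
  simp only [eval_mul, eval_sub, eval_X, eval_C]
  have : (r - ε - r) * eval (r - ε) q * ((r + ε - r) * eval (r + ε) q)
      = -(ε ^ 2 * (eval (r - ε) q * eval (r + ε) q)) := by ring
  rw [this]
  have : 0 < ε ^ 2 * (eval (r - ε) q * eval (r + ε) q) := by positivity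
  linarith

end Simple

section Family

variable {T : Type*} [TopologicalSpace T] (P : T → ℝ[X]) (d : ℕ)

lemma continuous_eval_family (hdeg : ∀ τ, (P τ).natDegree = d)
    (hcont : ∀ k, Continuous fun τ => (P τ).coeff k) (x : ℝ) :
    Continuous fun τ => (P τ).eval x := by
  have : (fun τ => (P τ).eval x) = fun τ => ∑ k ∈ Finset.range (d + 1), (P τ).coeff k * x ^ k := by
    funext τ
    exact eval_eq_sum_range' (by rw [hdeg τ]; omega) x
  rw [this]
  exact continuous_finsetSum _ fun k _ => (hcont k).mul continuous_const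

lemma continuous_aeval_family (hdeg : ∀ τ, (P τ).natDegree = d)
    (hcont : ∀ k, Continuous fun τ => (P τ).coeff k) (z : ℂ) :
    Continuous fun τ => aeval z (P τ) := by
  have : (fun τ => aeval z (P τ)) =
      fun τ => ∑ k ∈ Finset.range (d + 1), ((P τ).coeff k : ℂ) * z ^ k := by
    funext τ
    rw [aeval_eq_sum_range' (show (P τ).natDegree < d + 1 by rw [hdeg τ]; omega) z]
    refine Finset.sum_congr rfl fun k _ => ?_
    rw [Algebra.smul_def]; rfl
  rw [this]
  exact continuous_finsetSum _ fun k _ =>
    (Complex.continuous_ofReal.comp (hcont k)).mul continuous_const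

/-- "some non-real root" is an open condition -/
theorem isOpen_nonReal (hdeg : ∀ τ, (P τ).natDegree = d) {lc : ℝ} (hlc0 : lc ≠ 0)
    (hlc : ∀ τ, (P τ).leadingCoeff = lc) (hcont : ∀ k, Continuous fun τ => (P τ).coeff k) :
    IsOpen {τ | NonReal (P τ)} := by
  rw [isOpen_iff_forall_mem_open]
  rintro τ₀ ⟨z₀, him, hz₀⟩
  have hF := continuous_aeval_family P d hdeg hcont z₀
  refine ⟨{τ | ‖aeval z₀ (P τ)‖ < |lc| * |z₀.im| ^ d}, ?_, ?_, ?_⟩
  · intro τ hτ
    by_contra hnr
    have := le_norm_aeval_of_not_nonReal hnr z₀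
    rw [hlc τ, hdeg τ] at this
    exact absurd hτ (not_lt.mpr this)
  · exact isOpen_lt hF.norm continuous_const
  · show ‖aeval z₀ (P τ₀)‖ < |lc| * |z₀.im| ^ d
    rw [hz₀, norm_zero]
    positivity

/-- "all roots real" is an open condition for separable families -/
theorem isOpen_not_nonReal (hdeg : ∀ τ, (P τ).natDegree = d)
    (hsep : ∀ τ, (P τ).Separable) (hcont : ∀ k, Continuous fun τ => (P τ).coeff k) :
    IsOpen {τ | ¬ NonReal (P τ)} := by
  classical
  rw [isOpen_iff_forall_mem_open]
  intro τ₀ hτ₀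
  set S := (P τ₀).roots.toFinset with hS
  have hScard : S.card = d := by
    rw [hS, card_roots_toFinset_of_not_nonReal (hsep τ₀) hτ₀, hdeg τ₀]
  have hSroot : ∀ r ∈ S, (P τ₀).eval r = 0 := by
    intro r hr
    exact (mem_roots'.mp (Multiset.mem_toFinset.mp hr)).2
  -- choose ε
  have h1 : ∀ᶠ ε in 𝓝[>] (0 : ℝ), ∀ r ∈ S, (P τ₀).eval (r - ε) * (P τ₀).eval (r + ε) < 0 := by
    rw [eventually_all_finset]
    intro r hr
    exact eventually_sign_change (hsep τ₀) (hSroot r hr)
  have h2 : ∀ᶠ ε in 𝓝[>] (0 : ℝ), ∀ rr ∈ S.offDiag, 2 * ε < |rr.1 - rr.2| := by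
    rw [eventually_all_finset]
    intro rr hrr
    have hne : rr.1 ≠ rr.2 := (Finset.mem_offDiag.mp hrr).2.2
    have hpos : 2 * (0 : ℝ) < |rr.1 - rr.2| := by
      rw [mul_zero]; exact abs_pos.mpr (sub_ne_zero.mpr hne)
    have hc : Continuous fun ε : ℝ => 2 * ε := continuous_const.mul continuous_id
    exact nhdsWithin_le_nhds (hc.continuousAt.eventually (gt_mem_nhds hpos))
  obtain ⟨ε, ⟨hε1, hε2⟩, hε0⟩ := ((h1.and h2).and self_mem_nhdsWithin).exists
  have hε0' : (0 : ℝ) < ε := hε0
  refine ⟨⋂ r ∈ S, {τ | (P τ).eval (r - ε) * (P τ).eval (r + ε) < 0}, ?_, ?_, ?_⟩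
  · intro τ hτ
    simp only [Set.mem_iInter] at hτ
    -- roots of `P τ` near each `r`
    have hroot : ∀ r ∈ S, ∃ ρ ∈ Set.Icc (r - ε) (r + ε), (P τ).eval ρ = 0 := by
      intro r hr
      have hlt : (P τ).eval (r - ε) * (P τ).eval (r + ε) < 0 := hτ r hr
      have hab : r - ε ≤ r + ε := by linarith
      rcases mul_neg_iff.mp hlt with ⟨ha, hb⟩ | ⟨ha, hb⟩
      · exact intermediate_value_Icc' hab (P τ).continuous.continuousOn ⟨hb.le, ha.le⟩
      · exact intermediate_value_Icc hab (P τ).continuous.continuousOn ⟨ha.le, hb.le⟩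
    choose! ρ hρmem hρroot using hroot
    have hinj : Set.InjOn ρ (S : Set ℝ) := by
      intro r hr r' hr' hρ
      by_contra hne
      have hgap := hε2 (r, r') (Finset.mem_offDiag.mpr ⟨hr, hr', hne⟩)
      have m1 := hρmem r hr
      have m2 := hρmem r' hr'
      rw [hρ] at m1
      have : |r - r'| ≤ 2 * ε := by
        rw [abs_le]
        constructor <;> linarith [m1.1, m1.2, m2.1, m2.2]
      exact absurd hgap (not_lt.mpr this)
    refine not_nonReal_of_card_roots (hsep τ).ne_zero (S.image ρ) ?_ ?_
    · intro x hx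
      obtain ⟨r, hr, rfl⟩ := Finset.mem_image.mp hx
      exact hρroot r hr
    · rw [Finset.card_image_of_injOn hinj, hScard, hdeg τ]
  · refine isOpen_biInter_finset fun r _ => ?_
    exact isOpen_lt ((continuous_eval_family P d hdeg hcont _).mul
      (continuous_eval_family P d hdeg hcont _)) continuous_const
  · simp only [Set.mem_iInter]
    intro r hr
    exact hε1 r hr

/-- on a preconnected parameter space, "some non-real root" propagates -/
theorem nonReal_of_preconnected [PreconnectedSpace T] (hdeg : ∀ τ, (P τ).natDegree = d)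
    {lc : ℝ} (hlc0 : lc ≠ 0) (hlc : ∀ τ, (P τ).leadingCoeff = lc)
    (hsep : ∀ τ, (P τ).Separable) (hcont : ∀ k, Continuous fun τ => (P τ).coeff k)
    {τ₁ : T} (h₁ : NonReal (P τ₁)) (τ : T) : NonReal (P τ) := by
  have hclopen : IsClopen {τ | NonReal (P τ)} := by
    refine ⟨?_, isOpen_nonReal P d hdeg hlc0 hlc hcont⟩
    rw [← isOpen_compl_iff]
    exact isOpen_not_nonReal P d hdeg hsep hcont
  rcases isClopen_iff.mp hclopen with h | h
  · exact absurd (show τ₁ ∈ {τ | NonReal (P τ)} from h₁) (by rw [h]; exact Set.notMem_empty _)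
  · have : τ ∈ {τ | NonReal (P τ)} := by rw [h]; exact Set.mem_univ _
    exact this

end Family

end Fermat.Agent.S41.H13
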