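import Mathlib
import Fermat.Agent.S41.H13_Count
import Fermat.Agent.S41.H13_RealRoots

/-!
# The curves `y² = x³ + a x` over `ℝ`: the ladder polynomial has a non-real root
(project S41, part (f) ODD, helper13)

* `ladder_neg`: for `b₂ = b₆ = 0` the ladder is (anti)symmetric under `t ↦ -t`;
* `theta_comp_neg`: `theta W j` is an even polynomial when `b₂ = b₆ = 0`;
* `nonReal_theta_cm`: for `W : y² = x³ + a x` over `ℝ` (`a ≠ 0`) and `p = 2j+1` an odd prime,
  `theta W j` has a non-real complex root.  (If `x₀` is a real root, `P = (x₀, y₀)` and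
  `P' = (-x₀, i y₀)` are `p`-torsion and `x(P + P') = -i y₀² / (2 x₀²)` is not real.)
-/

set_option autoImplicit false

namespace Fermat.Agent.S41.H13

open Polynomial WeierstrassCurve WeierstrassCurve.Affine
open Fermat.Agent.S13 Fermat.Agent.S05.H67

section Even

variable {S : Type*} [CommRing S] (b₄ b₈ t : S)

/-- for `b₂ = b₆ = 0`: `A_n(-t) = (-1)^n A_n(t)` and `B_n(-t) = -(-1)^n B_n(t)` -/
theorem ladder_neg (n : ℕ) :
    (H84.ladder 0 b₄ 0 b₈ (-t) n).1 = (-1) ^ n * (H84.ladder 0 b₄ 0 b₈ t n).1 ∧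
      (H84.ladder 0 b₄ 0 b₈ (-t) n).2 = -((-1) ^ n * (H84.ladder 0 b₄ 0 b₈ t n).2) := by
  induction n using Nat.strong_induction_on with
  | _ n ih =>
    rcases Nat.even_or_odd' n with ⟨j, rfl | rfl⟩
    · rcases j with _ | j
      · simp
      · obtain ⟨h1, h2⟩ := ih (j + 1) (by omega)
        rw [H84.ladder_even, H84.ladder_even]
        have hε : ((-1 : S) ^ (2 * (j + 1))) = 1 := by
          rw [pow_mul, neg_one_sq, one_pow]
        rw [hε]
        simp only [H84.dblPair, h1, h2]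
        rcases neg_one_pow_eq_or S (j + 1) with h | h <;> rw [h] <;> constructor <;> ring
    · rcases j with _ | j
      · simp
      · obtain ⟨h1, h2⟩ := ih (j + 1) (by omega)
        obtain ⟨h3, h4⟩ := ih (j + 1 + 1) (by omega)
        rw [H84.ladder_odd, H84.ladder_odd]
        have hε : ((-1 : S) ^ (2 * (j + 1) + 1)) = -1 := by
          rw [pow_succ, pow_mul, neg_one_sq, one_pow, one_mul]
        rw [hε]
        simp only [H84.addPair, h1, h2, h3, h4]
        have hs : (-1 : S) ^ (j + 1 + 1) = -(-1) ^ (j + 1) := by rw [pow_succ]; ring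
        rw [hs]
        rcases neg_one_pow_eq_or S (j + 1) with h | h <;> rw [h] <;> constructor <;> ring

end Even

section EvenPoly

variable {R : Type*} [CommRing R] (W : WeierstrassCurve R)

/-- `theta W j` is an even polynomial when `b₂ = b₆ = 0` -/
theorem theta_comp_neg (hb₂ : W.b₂ = 0) (hb₆ : W.b₆ = 0) (j : ℕ) :
    (H84.theta W j).comp (-X) = H84.theta W j := by
  have key : ∀ n, (H84.ladderPoly W n).1.comp (-X) = (-1) ^ n * (H84.ladderPoly W n).1 ∧
      (H84.ladderPoly W n).2.comp (-X) = -((-1) ^ n * (H84.ladderPoly W n).2) := by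
    intro n
    have hmap := H84.map_ladder (compRingHom (-X : R[X])) (C W.b₂) (C W.b₄) (C W.b₆) (C W.b₈) X n
    simp only [coe_compRingHom, C_comp, X_comp] at hmap
    rw [hb₂, hb₆, C_0] at hmap
    have hl := ladder_neg (C W.b₄) (C W.b₈) (X : R[X]) n
    have e1 : (H84.ladderPoly W n).1.comp (-X) =
        (H84.ladder 0 (C W.b₄) 0 (C W.b₈) (-X : R[X]) n).1 := by
      rw [← hmap]; simp [H84.ladderPoly, hb₂, hb₆]
    have e2 : (H84.ladderPoly W n).2.comp (-X) =
        (H84.ladder 0 (C W.b₄) 0 (C W.b₈) (-X : R[X]) n).2 := by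
      rw [← hmap]; simp [H84.ladderPoly, hb₂, hb₆]
    have e3 : H84.ladderPoly W n = H84.ladder 0 (C W.b₄) 0 (C W.b₈) (X : R[X]) n := by
      simp [H84.ladderPoly, hb₂, hb₆]
    rw [e1, e2, e3]
    exact hl
  simp only [H84.theta, sub_comp, mul_comp, (key j).1, (key j).2, (key (j + 1)).1,
    (key (j + 1)).2]
  have hs : (-1 : R[X]) ^ (j + 1) = -(-1) ^ j := by rw [pow_succ]; ring
  rw [hs]
  rcases neg_one_pow_eq_or R[X] j with h | h <;> rw [h] <;> ring

theorem eval_theta_neg (hb₂ : W.b₂ = 0) (hb₆ : W.b₆ = 0) (j : ℕ) (x : R) :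
    (H84.theta W j).eval (-x) = (H84.theta W j).eval x := by
  conv_rhs => rw [← theta_comp_neg W hb₂ hb₆ j]
  rw [eval_comp, eval_neg, eval_X]

end EvenPoly

section CM

/-- the curve `y² = x³ + a x` -/
def cmCurve {F : Type*} [CommRing F] (a : F) : WeierstrassCurve F := ⟨0, 0, 0, a, 0⟩

variable {F : Type*} [CommRing F] (a : F)

@[simp] lemma cmCurve_a₁ : (cmCurve a).a₁ = 0 := rfl
@[simp] lemma cmCurve_a₂ : (cmCurve a).a₂ = 0 := rfl
@[simp] lemma cmCurve_a₃ : (cmCurve a).a₃ = 0 := rfl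
@[simp] lemma cmCurve_a₄ : (cmCurve a).a₄ = a := rfl
@[simp] lemma cmCurve_a₆ : (cmCurve a).a₆ = 0 := rfl

lemma cmCurve_b₂ : (cmCurve a).b₂ = 0 := by simp [WeierstrassCurve.b₂]

lemma cmCurve_b₆ : (cmCurve a).b₆ = 0 := by simp [WeierstrassCurve.b₆]

lemma cmCurve_Δ : (cmCurve a).Δ = -64 * a ^ 3 := by
  simp [WeierstrassCurve.Δ, WeierstrassCurve.b₂, WeierstrassCurve.b₄, WeierstrassCurve.b₆,
    WeierstrassCurve.b₈]
  ring

lemma map_cmCurve {F' : Type*} [CommRing F'] (f : F →+* F') :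
    (cmCurve a).map f = cmCurve (f a) := by
  ext <;> simp [cmCurve]

/-- **CM endpoint.** For `a ≠ 0` real and `p` an odd prime, the ladder polynomial of
`y² = x³ + a x` has a non-real root. -/
theorem nonReal_theta_cm (a : ℝ) (ha : a ≠ 0) {p : ℕ} (hp : p.Prime) (hp2 : p ≠ 2) :
    NonReal (H84.theta (cmCurve a) (p / 2)) := by
  classical
  by_contra hnr
  obtain ⟨j, rfl⟩ := hp.odd_of_ne_two hp2
  have e : (2 * j + 1) / 2 = j := by omega
  rw [e] at hnr
  have hj1 : 1 ≤ j := by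
    rcases j with _ | j
    · exact absurd hp (by norm_num)
    · omega
  set Wc : WeierstrassCurve ℂ := cmCurve (a : ℂ) with hWc
  have hmap : (H84.theta (cmCurve a) j).map (algebraMap ℝ ℂ) = H84.theta Wc j := by
    rw [H84.map_theta, map_cmCurve]; rfl
  have hreal : ∀ z : ℂ, (H84.theta Wc j).eval z = 0 → z.im = 0 := by
    intro z hz
    by_contra him
    apply hnr
    refine ⟨z, him, ?_⟩
    rw [← eval_map_algebraMap, hmap]
    exact hz
  have haC : (a : ℂ) ≠ 0 := Complex.ofReal_ne_zero.mpr ha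
  have hΔ : Wc.Δ ≠ 0 := by
    rw [hWc, cmCurve_Δ]
    exact mul_ne_zero (by norm_num) (pow_ne_zero 3 haC)
  have hjC : (2 * (j : ℂ) + 1) ≠ 0 := by
    have : (2 * (j : ℂ) + 1) = ((2 * j + 1 : ℕ) : ℂ) := by push_cast; ring
    rw [this]
    exact Nat.cast_ne_zero.mpr (by omega)
  have hdeg : (H84.theta Wc j).degree ≠ 0 := by
    rw [degree_eq_natDegree (H84.theta_ne_zero Wc hjC), H84.natDegree_theta Wc hjC]
    have : 0 < 2 * j ^ 2 + 2 * j := by positivity
    exact_mod_cast this.ne'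
  obtain ⟨x₀, hx₀root⟩ := IsAlgClosed.exists_root (H84.theta Wc j) hdeg
  have hx₀root' : (H84.theta Wc j).eval x₀ = 0 := hx₀root
  have hx₀im := hreal x₀ hx₀root'
  -- the point `P = (x₀, y₀)`
  obtain ⟨y₀, hy₀⟩ := H59.exists_equation Wc x₀
  have hns : Wc.toAffine.Nonsingular x₀ y₀ := (equation_iff_nonsingular_of_Δ_ne_zero hΔ).mp hy₀
  have heq : y₀ ^ 2 = x₀ ^ 3 + (a : ℂ) * x₀ := by
    have := (Affine.equation_iff x₀ y₀).mp hy₀
    simp only [hWc, cmCurve_a₁, cmCurve_a₂, cmCurve_a₃, cmCurve_a₄, cmCurve_a₆] at this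
    linear_combination this
  -- the point `P' = (-x₀, i y₀)`
  have hy₁ : Wc.toAffine.Equation (-x₀) (Complex.I * y₀) := by
    rw [Affine.equation_iff]
    simp only [hWc, cmCurve_a₁, cmCurve_a₂, cmCurve_a₃, cmCurve_a₄, cmCurve_a₆]
    linear_combination (-1 : ℂ) * heq + y₀ ^ 2 * Complex.I_sq
  have hns₁ : Wc.toAffine.Nonsingular (-x₀) (Complex.I * y₀) :=
    (equation_iff_nonsingular_of_Δ_ne_zero hΔ).mp hy₁
  set P : Wc.toAffine.Point := Point.some x₀ y₀ hns with hPdef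
  set P' : Wc.toAffine.Point := Point.some (-x₀) (Complex.I * y₀) hns₁ with hP'def
  have hP : (2 * j + 1) • P = 0 := by
    have := (H84.torsion_criterion_field Wc (p := 2 * j + 1) ⟨j, rfl⟩ x₀ y₀ hns)
    rw [e] at this
    exact this.mpr hx₀root'
  have hP' : (2 * j + 1) • P' = 0 := by
    have := (H84.torsion_criterion_field Wc (p := 2 * j + 1) ⟨j, rfl⟩ (-x₀) (Complex.I * y₀) hns₁)
    rw [e] at this
    refine this.mpr ?_
    rw [eval_theta_neg Wc (cmCurve_b₂ _) (cmCurve_b₆ _)]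
    exact hx₀root'
  -- `y₀ ≠ 0`
  have hy₀0 : y₀ ≠ 0 := by
    intro h0
    have h2 : 2 • P = 0 := by
      rw [two_nsmul, hPdef, some_add_self_eq_zero_iff]
      simp [Affine.negY, hWc, h0]
    have h := hP
    rw [add_nsmul, one_nsmul, mul_nsmul, h2, nsmul_zero, zero_add] at h
    exact Point.some_ne_zero hns h
  have hx₀0 : x₀ ≠ 0 := by
    intro h0
    apply hy₀0
    rw [h0] at heq
    have : y₀ ^ 2 = 0 := by rw [heq]; ring
    exact pow_eq_zero_iff (two_ne_zero) |>.mp this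
  have hxne : x₀ ≠ -x₀ := by
    intro h
    apply hx₀0
    have : (2 : ℂ) * x₀ = 0 := by linear_combination h
    rcases mul_eq_zero.mp this with h2 | h2
    · exact absurd h2 two_ne_zero
    · exact h2
  -- the sum `Q = P + P'`
  have hQ0 : P + P' ≠ 0 := some_add_some_ne_zero Wc hns hns₁ hxne
  have hQ : (2 * j + 1) • (P + P') = 0 := by rw [nsmul_add, hP, hP', add_zero]
  have hQroot : (H84.theta Wc j).eval (xCoord Wc (P + P')) = 0 :=
    (H84.nsmul_eq_zero_iff_theta hQ0 j).mp hQ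
  have hQim := hreal _ hQroot
  have hxQ : xCoord Wc (P + P') * (2 * x₀) = -Complex.I * (x₀ ^ 2 + (a : ℂ)) := by
    rw [hPdef, hP'def, xCoord_some_add_some Wc hns hns₁ hxne]
    simp only [Affine.addX, hWc, cmCurve_a₁, cmCurve_a₂]
    have h2x : x₀ - -x₀ = 2 * x₀ := by ring
    rw [h2x]
    have h2x0 : (2 : ℂ) * x₀ ≠ 0 := mul_ne_zero two_ne_zero hx₀0
    field_simp
    linear_combination (1 - Complex.I) ^ 2 * heq + (x₀ ^ 3 + (a : ℂ) * x₀) * Complex.I_sq
  -- take imaginary parts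
  have hx₀re : x₀ = ((x₀.re : ℝ) : ℂ) := Complex.ext rfl (by simp [hx₀im])
  set r : ℝ := x₀.re with hr
  have him := congrArg Complex.im hxQ
  rw [hx₀re] at him
  have hl : (xCoord Wc (P + P') * (2 * (r : ℂ))).im = 0 := by
    rw [Complex.mul_im, hQim]
    simp
  have hrr : (-Complex.I * ((r : ℂ) ^ 2 + (a : ℂ))).im = -(r ^ 2 + a) := by
    have : ((r : ℂ) ^ 2 + (a : ℂ)) = ((r ^ 2 + a : ℝ) : ℂ) := by push_cast; ring
    rw [this, Complex.mul_im, Complex.ofReal_re, Complex.ofReal_im]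
    simp
  rw [hl, hrr] at him
  have hra : r ^ 2 + a = 0 := by linarith
  apply hy₀0
  have : y₀ ^ 2 = 0 := by
    rw [heq, hx₀re]
    have : ((r : ℂ) ^ 3 + (a : ℂ) * (r : ℂ)) = ((r * (r ^ 2 + a) : ℝ) : ℂ) := by push_cast; ring
    rw [this, hra, mul_zero, Complex.ofReal_zero]
  exact pow_eq_zero_iff two_ne_zero |>.mp this

end CM

end Fermat.Agent.S41.H13
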