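import Mathlib
import Fermat.Agent.S41.H13_CM

/-!
# Every real Weierstrass curve with `Δ ≠ 0` has a non-real `p`-torsion abscissa
(project S41, part (f) ODD, helper13)

* `deform`: along a continuous path of real Weierstrass curves with `Δ ≠ 0`, the property
  `NonReal (theta W (p / 2))` propagates from the end point to the starting point;
* `nonReal_theta_short`: the curves `y² = x³ + A x + B`;
* `nonReal_theta`: every real Weierstrass curve with `Δ ≠ 0`.
-/

set_option autoImplicit false

namespace Fermat.Agent.S41.H13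

open Polynomial WeierstrassCurve
open Fermat.Agent.S13

section Universal

/-- the universal Weierstrass curve over `ℝ[a₁,a₂,a₃,a₄,a₆]` -/
noncomputable def univCurve : WeierstrassCurve (MvPolynomial (Fin 5) ℝ) :=
  ⟨MvPolynomial.X 0, MvPolynomial.X 1, MvPolynomial.X 2, MvPolynomial.X 3, MvPolynomial.X 4⟩

/-- the coefficient vector of a real Weierstrass curve -/
def coeffVec (W : WeierstrassCurve ℝ) : Fin 5 → ℝ := ![W.a₁, W.a₂, W.a₃, W.a₄, W.a₆]

lemma map_univCurve (W : WeierstrassCurve ℝ) :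
    univCurve.map (MvPolynomial.eval (coeffVec W)) = W := by
  ext <;> simp [univCurve, coeffVec]

lemma coeff_theta_eq (W : WeierstrassCurve ℝ) (j k : ℕ) :
    (H84.theta W j).coeff k =
      MvPolynomial.eval (coeffVec W) ((H84.theta univCurve j).coeff k) := by
  conv_lhs => rw [← map_univCurve W, ← H84.map_theta, coeff_map]

lemma separable_theta_real (W : WeierstrassCurve ℝ) (hΔ : W.Δ ≠ 0) {p : ℕ} (hp : p.Prime)
    (hp2 : p ≠ 2) : (H84.theta W (p / 2)).Separable := by
  classical
  have hΔ' : (W.map (algebraMap ℝ ℂ)).Δ ≠ 0 := by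
    rw [map_Δ]
    exact (map_ne_zero_iff _ (algebraMap ℝ ℂ).injective).mpr hΔ
  have := separable_theta (W.map (algebraMap ℝ ℂ)) hΔ' hp hp2 (Nat.cast_ne_zero.mpr hp.ne_zero)
  rw [← H84.map_theta, separable_map] at this
  exact this

end Universal

section Deform

/-- **Deformation.** Along a continuous path `γ` of real Weierstrass curves with `Δ ≠ 0` on
`[0, 1]`, a non-real root at `γ 1` gives a non-real root at `γ 0`. -/
theorem deform (γ : ℝ → WeierstrassCurve ℝ)
    (h1 : Continuous fun τ => (γ τ).a₁) (h2 : Continuous fun τ => (γ τ).a₂)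
    (h3 : Continuous fun τ => (γ τ).a₃) (h4 : Continuous fun τ => (γ τ).a₄)
    (h6 : Continuous fun τ => (γ τ).a₆)
    (hΔ : ∀ τ ∈ Set.Icc (0 : ℝ) 1, (γ τ).Δ ≠ 0) {p : ℕ} (hp : p.Prime) (hp2 : p ≠ 2)
    (hend : NonReal (H84.theta (γ 1) (p / 2))) : NonReal (H84.theta (γ 0) (p / 2)) := by
  obtain ⟨j, hj⟩ := hp.odd_of_ne_two hp2
  have e : p / 2 = j := by omega
  rw [e] at hend ⊢
  have hjR : (2 * (j : ℝ) + 1) ≠ 0 := by positivity
  have hvec : Continuous fun τ : ℝ => coeffVec (γ τ) := by
    refine continuous_pi fun i => ?_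
    fin_cases i
    · exact h1
    · exact h2
    · exact h3
    · exact h4
    · exact h6
  let P : unitInterval → ℝ[X] := fun τ => H84.theta (γ (τ : ℝ)) j
  have hdeg : ∀ τ, (P τ).natDegree = 2 * j ^ 2 + 2 * j := fun τ => H84.natDegree_theta _ hjR
  have hlc : ∀ τ, (P τ).leadingCoeff = -(2 * (j : ℝ) + 1) := fun τ => H84.leadingCoeff_theta _ hjR
  have hsep : ∀ τ, (P τ).Separable := by
    intro τ
    have := separable_theta_real (γ (τ : ℝ)) (hΔ _ τ.2) hp hp2
    rwa [e] at this
  have hcont : ∀ k, Continuous fun τ => (P τ).coeff k := by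
    intro k
    have : (fun τ : unitInterval => (P τ).coeff k) = fun τ : unitInterval =>
        MvPolynomial.eval (coeffVec (γ (τ : ℝ))) ((H84.theta univCurve j).coeff k) := by
      funext τ
      exact coeff_theta_eq _ _ _
    rw [this]
    exact (MvPolynomial.continuous_eval _).comp (hvec.comp continuous_subtype_val)
  have h₁ : NonReal (P 1) := by
    show NonReal (H84.theta (γ ((1 : unitInterval) : ℝ)) j)
    simpa using hend
  have := nonReal_of_preconnected P _ hdeg (neg_ne_zero.mpr hjR) hlc hsep hcont h₁ 0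
  simpa [P] using this

end Deform

section Short

/-- the curve `y² = x³ + A x + B` -/
def shortCurve (A B : ℝ) : WeierstrassCurve ℝ := ⟨0, 0, 0, A, B⟩

lemma shortCurve_Δ (A B : ℝ) : (shortCurve A B).Δ = -16 * (4 * A ^ 3 + 27 * B ^ 2) := by
  simp [shortCurve, WeierstrassCurve.Δ, WeierstrassCurve.b₂, WeierstrassCurve.b₄,
    WeierstrassCurve.b₆, WeierstrassCurve.b₈]
  ring

lemma shortCurve_zero (A : ℝ) : shortCurve A 0 = cmCurve A := rfl

variable {p : ℕ} (hp : p.Prime) (hp2 : p ≠ 2)

include hp hp2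

/-- move `B` to `0` -/
lemma step_B (A B : ℝ) (hall : ∀ τ ∈ Set.Icc (0 : ℝ) 1, 4 * A ^ 3 + 27 * ((1 - τ) * B) ^ 2 ≠ 0)
    (hend : NonReal (H84.theta (shortCurve A 0) (p / 2))) :
    NonReal (H84.theta (shortCurve A B) (p / 2)) := by
  have := deform (fun τ => shortCurve A ((1 - τ) * B)) (by simp [shortCurve]; fun_prop)
    (by simp [shortCurve]; fun_prop) (by simp [shortCurve]; fun_prop)
    (by simp [shortCurve]; fun_prop) (by simp [shortCurve]; fun_prop)
    (by
      intro τ hτ
      rw [shortCurve_Δ]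
      exact mul_ne_zero (by norm_num) (hall τ hτ)) hp hp2
    (by simpa using hend)
  simpa using this

/-- move `A` to `1` -/
lemma step_A (A B : ℝ) (hall : ∀ τ ∈ Set.Icc (0 : ℝ) 1, 4 * ((1 - τ) * A + τ) ^ 3 + 27 * B ^ 2 ≠ 0)
    (hend : NonReal (H84.theta (shortCurve 1 B) (p / 2))) :
    NonReal (H84.theta (shortCurve A B) (p / 2)) := by
  have := deform (fun τ => shortCurve ((1 - τ) * A + τ) B) (by simp [shortCurve]; fun_prop)
    (by simp [shortCurve]; fun_prop) (by simp [shortCurve]; fun_prop)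
    (by simp [shortCurve]; fun_prop) (by simp [shortCurve]; fun_prop)
    (by
      intro τ hτ
      rw [shortCurve_Δ]
      exact mul_ne_zero (by norm_num) (hall τ hτ)) hp hp2
    (by simpa using hend)
  simpa using this

/-- the curves `y² = x³ + A x + B` with nonzero discriminant -/
theorem nonReal_theta_short (A B : ℝ) (h : 4 * A ^ 3 + 27 * B ^ 2 ≠ 0) :
    NonReal (H84.theta (shortCurve A B) (p / 2)) := by
  have key : ∀ A' : ℝ, A' ≠ 0 → (0 < A' ∨ 4 * A' ^ 3 + 27 * B ^ 2 < 0) →
      NonReal (H84.theta (shortCurve A' B) (p / 2)) := by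
    intro A' hA' hcase
    apply step_B hp hp2
    · intro τ hτ
      have hsq : ((1 - τ) * B) ^ 2 ≤ B ^ 2 := by
        have h1 : 0 ≤ 1 - τ := by linarith [hτ.2]
        have h2 : 1 - τ ≤ 1 := by linarith [hτ.1]
        have : (1 - τ) ^ 2 ≤ 1 := by nlinarith
        calc ((1 - τ) * B) ^ 2 = (1 - τ) ^ 2 * B ^ 2 := by ring
          _ ≤ 1 * B ^ 2 := mul_le_mul_of_nonneg_right this (sq_nonneg B)
          _ = B ^ 2 := one_mul _
      rcases hcase with hpos | hneg
      · have : 0 < A' ^ 3 := by positivity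
        have := sq_nonneg ((1 - τ) * B)
        exact ne_of_gt (by linarith)
      · exact ne_of_lt (by linarith)
    · rw [shortCurve_zero]
      exact nonReal_theta_cm A' hA' hp hp2
  rcases lt_or_gt_of_ne h with hneg | hpos
  · have hA : A ≠ 0 := by
      rintro rfl
      have := sq_nonneg B
      norm_num at hneg
      linarith
    exact key A hA (Or.inr hneg)
  · by_cases hA : 0 < A
    · exact key A hA.ne' (Or.inl hA)
    · have hA' : A ≤ 0 := not_lt.mp hA
      apply step_A hp hp2
      · intro τ hτ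
        have hle : A ≤ (1 - τ) * A + τ := by nlinarith [hτ.1, hτ.2]
        have hcube : A ^ 3 ≤ ((1 - τ) * A + τ) ^ 3 := by
          have h0 : 0 ≤ (((1 - τ) * A + τ) + A / 2) ^ 2 + 3 * A ^ 2 / 4 := by positivity
          nlinarith [mul_nonneg (sub_nonneg.mpr hle) h0]
        exact ne_of_gt (by linarith)
      · exact key 1 one_ne_zero (Or.inl one_pos)

end Short

section General

/-- **Every real Weierstrass curve with `Δ ≠ 0`** has, for each odd prime `p`, a `p`-torsion
abscissa which is not real: the ladder polynomial `theta W (p / 2)` has a non-real root. -/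
theorem nonReal_theta (W : WeierstrassCurve ℝ) (hΔ : W.Δ ≠ 0) {p : ℕ} (hp : p.Prime)
    (hp2 : p ≠ 2) : NonReal (H84.theta W (p / 2)) := by
  set s₀ : ℝ := -W.a₁ / 2 with hs₀
  set r₀ : ℝ := -(W.a₂ - s₀ * W.a₁ - s₀ ^ 2) / 3 with hr₀
  set t₀ : ℝ := -(W.a₃ + r₀ * W.a₁) / 2 with ht₀
  let γ : ℝ → WeierstrassCurve ℝ := fun τ =>
    (⟨1, τ * r₀, τ * s₀, τ * t₀⟩ : VariableChange ℝ) • W
  have hγ0 : γ 0 = W := by
    show (⟨1, 0 * r₀, 0 * s₀, 0 * t₀⟩ : VariableChange ℝ) • W = W
    rw [zero_mul, zero_mul, zero_mul, ← VariableChange.one_def, one_smul]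
  have hγ1 : γ 1 = shortCurve (γ 1).a₄ (γ 1).a₆ := by
    ext
    · show (γ 1).a₁ = 0
      simp only [γ, variableChange_a₁]
      rw [hs₀]; simp; ring
    · show (γ 1).a₂ = 0
      simp only [γ, variableChange_a₂]
      rw [hr₀]; simp; ring
    · show (γ 1).a₃ = 0
      simp only [γ, variableChange_a₃]
      rw [ht₀]; simp; ring
    · rfl
    · rfl
  have hΔγ : ∀ τ, (γ τ).Δ = W.Δ := by
    intro τ
    simp only [γ, variableChange_Δ]
    simp
  have hend : NonReal (H84.theta (γ 1) (p / 2)) := by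
    rw [hγ1]
    apply nonReal_theta_short hp hp2
    have := hΔγ 1
    rw [hγ1, shortCurve_Δ] at this
    intro h0
    apply hΔ
    rw [← this, h0, mul_zero]
  have := deform γ
    (by simp only [γ, variableChange_a₁]; fun_prop)
    (by simp only [γ, variableChange_a₂]; fun_prop)
    (by simp only [γ, variableChange_a₃]; fun_prop)
    (by simp only [γ, variableChange_a₄]; fun_prop)
    (by simp only [γ, variableChange_a₆]; fun_prop)
    (fun τ _ => by rw [hΔγ τ]; exact hΔ) hp hp2 hend
  rwa [hγ0] at this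

end General

end Fermat.Agent.S41.H13
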