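import Mathlib
import Fermat.Prelude.Def_FLTPrelim_GaloisRep
import Fermat.Prelude.Def_GaloisRep_ComplexConjugation
import Fermat.Agent.S13.H35_Glue
import Fermat.Agent.S41.H13_Path

/-!
# ODD: complex conjugation acts non-scalarly on `E[p](ℚ̄)`
(project S41, part (f), helper13)

For `E : WeierstrassCurve ℚ` with `Δ ≠ 0` and an odd prime `p`:

* `exists_root_not_fixed`: the ladder polynomial `theta E (p / 2)` has a root in `ℚ̄` which is
  not fixed by the prelude's `complexConjugation`;
* `exists_torsion_not_eigen`: there is `v ∈ E[p](ℚ̄)` with `c • v ≠ v` and `c • v ≠ -v`;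
* `conjFixed E p` (the `+1`-eigenspace of `c`) is a proper nonzero `ZMod p`-submodule;
* `not_irreducible_of_conj_central`: if `c` commutes with the action of every `σ ∈ G_ℚ` on `E[p]`
  (e.g. if the image of `G_ℚ` is abelian) then `E[p]` is reducible.

No Weil pairing: the input is `nonReal_theta` (real-root deformation to `y² = x³ + a x`).
-/

set_option autoImplicit false

namespace Fermat.Agent.S41.H13

open Polynomial WeierstrassCurve WeierstrassCurve.Affine WeierstrassCurve.Affine.Point
open Fermat.Agent.S13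

local notation "Qb" => AlgebraicClosure ℚ

section Root

variable (E : WeierstrassCurve ℚ)

/-- a root of the ladder polynomial in `ℚ̄` which is moved by complex conjugation -/
theorem exists_root_not_fixed (hΔ : E.Δ ≠ 0) {p : ℕ} (hp : p.Prime) (hp2 : p ≠ 2) :
    ∃ x₀ : Qb, ((H84.theta E (p / 2)).map (algebraMap ℚ Qb)).eval x₀ = 0 ∧
      complexConjugation x₀ ≠ x₀ := by
  set θ := H84.theta E (p / 2) with hθ
  have hΔℝ : (E.map (algebraMap ℚ ℝ)).Δ ≠ 0 := by
    rw [map_Δ]
    exact (map_ne_zero_iff _ (algebraMap ℚ ℝ).injective).mpr hΔ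
  obtain ⟨z, him, hz⟩ := nonReal_theta (E.map (algebraMap ℚ ℝ)) hΔℝ hp hp2
  rw [← H84.map_theta, ← hθ, aeval_map_algebraMap] at hz
  have hθ0 : θ ≠ 0 := by
    obtain ⟨j, hj⟩ := hp.odd_of_ne_two hp2
    have e : p / 2 = j := by omega
    rw [hθ, e]
    refine H84.theta_ne_zero E ?_
    have : (2 * (j : ℚ) + 1) = ((2 * j + 1 : ℕ) : ℚ) := by push_cast; ring
    rw [this]
    exact Nat.cast_ne_zero.mpr (by omega)
  set f : Qb[X] := θ.map (algebraMap ℚ Qb) with hf
  have hf0 : f ≠ 0 := (Polynomial.map_ne_zero_iff (algebraMap ℚ Qb).injective).mpr hθ0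
  have hsplits : f.Splits := IsAlgClosed.splits f
  have hmap : f.map (complexEmbedding : Qb →+* ℂ) = θ.map (algebraMap ℚ ℂ) := by
    rw [hf, Polynomial.map_map]
    congr 1
    exact complexEmbedding.comp_algebraMap
  have hroot : (f.map (complexEmbedding : Qb →+* ℂ)).IsRoot z := by
    rw [hmap, IsRoot.def, eval_map_algebraMap]
    exact hz
  obtain ⟨x₀, hx₀⟩ := hsplits.mem_range_of_isRoot hf0 hroot
  have hx₀' : complexEmbedding x₀ = z := hx₀
  refine ⟨x₀, ?_, ?_⟩
  · have h1 : (f.map (complexEmbedding : Qb →+* ℂ)).eval ((complexEmbedding : Qb →+* ℂ) x₀) =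
        (complexEmbedding : Qb →+* ℂ) (f.eval x₀) := eval_map_apply _ _
    have h2 : (complexEmbedding : Qb →+* ℂ) (f.eval x₀) = 0 := by
      rw [← h1]
      have : (complexEmbedding : Qb →+* ℂ) x₀ = z := hx₀
      rw [this]
      exact hroot
    exact (map_eq_zero_iff _ (complexEmbedding : Qb →+* ℂ).injective).mp h2
  · intro hfix
    have := complexEmbedding_complexConjugation x₀
    rw [hfix, hx₀'] at this
    exact him (Complex.conj_eq_iff_im.mp this.symm)

end Root

section Torsion

variable (E : WeierstrassCurve ℚ)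

/-- **ODD.** There is a `p`-torsion point `v` over `ℚ̄` with `c • v ≠ v` and `c • v ≠ -v`. -/
theorem exists_torsion_not_eigen (hΔ : E.Δ ≠ 0) {p : ℕ} (hp : p.Prime) (hp2 : p ≠ 2) :
    ∃ v : Submodule.torsionBy ℤ (E⁄Qb).Point p,
      complexConjugation • v ≠ v ∧ complexConjugation • v ≠ -v := by
  obtain ⟨x₀, hroot, hmove⟩ := exists_root_not_fixed E hΔ hp hp2
  have hΔ' : (E⁄Qb).Δ ≠ 0 := by
    show (E.map (algebraMap ℚ Qb)).Δ ≠ 0
    rw [map_Δ]
    exact (map_ne_zero_iff _ (algebraMap ℚ Qb).injective).mpr hΔ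
  obtain ⟨y₀, hy₀⟩ := H59.exists_equation (E⁄Qb) x₀
  have hns : (E⁄Qb).Nonsingular x₀ y₀ := (equation_iff_nonsingular_of_Δ_ne_zero hΔ').mp hy₀
  have hP : p • (Point.some x₀ y₀ hns : (E⁄Qb).Point) = 0 :=
    (H84.torsion_criterion E (hp.odd_of_ne_two hp2) x₀ y₀ hns).mpr hroot
  have hmem : (Point.some x₀ y₀ hns : (E⁄Qb).Point) ∈
      Submodule.torsionBy ℤ (E⁄Qb).Point p := by
    rw [Submodule.mem_torsionBy_iff, natCast_zsmul]
    exact hP
  refine ⟨⟨Point.some x₀ y₀ hns, hmem⟩, ?_, ?_⟩
  · intro h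
    have h1 : complexConjugation • (Point.some x₀ y₀ hns : (E⁄Qb).Point) =
        Point.some x₀ y₀ hns := congrArg Subtype.val h
    rw [algEquiv_smul_def, Point.map_some] at h1
    exact hmove (Point.some.inj h1).1
  · intro h
    have h1 : complexConjugation • (Point.some x₀ y₀ hns : (E⁄Qb).Point) =
        -Point.some x₀ y₀ hns := congrArg Subtype.val h
    rw [algEquiv_smul_def, Point.map_some, Point.neg_some] at h1
    exact hmove (Point.some.inj h1).1

variable {E} {p : ℕ} [Fact p.Prime]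

/-- the `+1`-eigenspace of complex conjugation on `E[p](ℚ̄)` -/
def conjFixed (E : WeierstrassCurve ℚ) (p : ℕ) [Fact p.Prime] :
    Submodule (ZMod p) (Submodule.torsionBy ℤ (E⁄Qb).Point p) where
  carrier := {v | complexConjugation • v = v}
  add_mem' := by
    intro a b ha hb
    show complexConjugation • (a + b) = a + b
    rw [smul_add, ha, hb]
  zero_mem' := smul_zero _
  smul_mem' := by
    intro k v hv
    show complexConjugation • (k • v) = k • v
    rw [H35.smul_zmod_smul, hv]

lemma mem_conjFixed {v : Submodule.torsionBy ℤ (E⁄Qb).Point p} :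
    v ∈ conjFixed E p ↔ complexConjugation • v = v := Iff.rfl

omit [Fact p.Prime] in
/-- complex conjugation is an involution on `E[p]` -/
lemma conj_smul_conj_smul (v : Submodule.torsionBy ℤ (E⁄Qb).Point p) :
    complexConjugation • complexConjugation • v = v := by
  rw [← mul_smul, complexConjugation_mul_self, one_smul]

/-- **ODD**, eigenspace form: the `+1`-eigenspace of `c` is neither `0` nor everything. -/
theorem conjFixed_ne_bot_ne_top (hΔ : E.Δ ≠ 0) (hp2 : p ≠ 2) :
    conjFixed E p ≠ ⊥ ∧ conjFixed E p ≠ ⊤ := by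
  obtain ⟨v, hv1, hv2⟩ := exists_torsion_not_eigen E hΔ (Fact.out : p.Prime) hp2
  constructor
  · intro hbot
    have hmem : complexConjugation • v + v ∈ conjFixed E p := by
      rw [mem_conjFixed, smul_add, conj_smul_conj_smul, add_comm]
    rw [hbot, Submodule.mem_bot] at hmem
    exact hv2 (eq_neg_of_add_eq_zero_left hmem)
  · intro htop
    have : v ∈ conjFixed E p := by rw [htop]; exact Submodule.mem_top
    exact hv1 this

/-- **Consumer form.** If complex conjugation commutes with every `σ ∈ G_ℚ` on `E[p]` (e.g. if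
the image of `G_ℚ` in `Aut E[p]` is abelian), then `E[p]` is reducible. -/
theorem not_irreducible_of_conj_central (hΔ : E.Δ ≠ 0) (hp2 : p ≠ 2)
    (hcomm : ∀ (σ : Qb ≃ₐ[ℚ] Qb) (v : Submodule.torsionBy ℤ (E⁄Qb).Point p),
      σ • complexConjugation • v = complexConjugation • σ • v) :
    ¬ GaloisRepIsIrreducible (K := Qb) ℚ E p := by
  rintro ⟨-, hirr⟩
  obtain ⟨h0, h1⟩ := conjFixed_ne_bot_ne_top (E := E) (p := p) hΔ hp2
  have hstable : IsGaloisStable ℚ (conjFixed E p) := by
    intro σ x hx
    rw [mem_conjFixed] at hx ⊢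
    rw [← hcomm, hx]
  rcases hirr _ hstable with h | h
  · exact h0 h
  · exact h1 h

end Torsion

end Fermat.Agent.S41.H13
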