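/-
S41 / (P) Poincare duality, route P-tr: adjointness of restriction and corestriction for the
intersection form `pd` of `H18_PDForm` (helper18):
  `pd (N q) (res x) y = pd N x (cor y)`
(helper60's TRANSFER `pairQ_transfer`, the coset representatives of helper65's `corDatum`,
helper85's primitive of a coset operator).
-/
import Fermat.Agent.S41.H18_PDForm
import Fermat.Agent.S41.H60_PDPair
import Fermat.Agent.S41.H65_DegPar

set_option autoImplicit false
set_option linter.unusedSectionVars false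
set_option linter.style.haveILetI false

open scoped MatrixGroups
open Matrix ModularGroup OnePoint SpecialLinearGroup CongruenceSubgroup ModularCurve.Period

namespace Fermat.Agent.S41.H18

open Fermat.Agent.S41.H85 Fermat.Agent.S41.H65 Fermat.Agent.S41.H72

variable {N q : ℕ}

/-- The rational model of helper65's `corDatum` (same permutation and cocycle, representatives
`corRep D x` viewed in `GL₂(ℚ)`). -/
noncomputable def corDatumQ (D : ALData N q) (hq : q.Prime) (hqN : ¬ q ∣ N) (hN : N ≠ 0) :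
    haveI : NeZero q := ⟨hq.ne_zero⟩
    CosetDatum (glQ (N * q)) (glQ N) (OnePoint (ZMod q)) :=
  haveI : NeZero q := ⟨hq.ne_zero⟩
  (corDatum D hq hqN hN).descend castGL castGL_injective (glQ (N * q)) (glQ N)
    (castGL_glQ (N * q)) (castGL_glQ N) (fun x => glQ N (corRep D x))
    (fun x => castGL_glQ N (corRep D x))

/-- Cusp primitive of `cor ψ`: `∑ x, F ∘ corRep D x`. -/
theorem isPrimitive_cor (D : ALData N q) (hq : q.Prime) (hqN : ¬ q ∣ N) (hN : N ≠ 0)
    {A : Type*} [AddCommGroup A] {ψ : Additive (Gamma0 (N * q)) →+ A} {F : OnePoint ℚ → A}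
    (hF : IsPrimitive (glQ (N * q)) ψ F) :
    haveI : NeZero q := ⟨hq.ne_zero⟩
    IsPrimitive (glQ N) (cor A D hq hqN hN ψ)
      (fun s => ∑ x : OnePoint (ZMod q), F (((corRep D x : Gamma0 N) : SL(2, ℤ)) • s)) := by
  haveI : NeZero q := ⟨hq.ne_zero⟩
  exact hF.op (corDatumQ D hq hqN hN)

/-- Cusp primitive of `res φ`: the same function. -/
theorem isPrimitive_res {A : Type*} [AddCommGroup A] {φ : Additive (Gamma0 N) →+ A}
    {F : OnePoint ℚ → A} (hF : IsPrimitive (glQ N) φ F) :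
    IsPrimitive (glQ (N * q)) (res A N q φ) F := by
  rw [res_apply]
  exact hF.comp (inclHom N q)

/-- The `corRep D x` are representatives of `Γ₀(N q) \ Γ₀(N)`. -/
theorem existsUnique_corRep (D : ALData N q) (hq : q.Prime) (hqN : ¬ q ∣ N) (hN : N ≠ 0)
    (γ : SL(2, ℤ)) (hγ : γ ∈ Gamma0 N) :
    ∃! x : OnePoint (ZMod q), γ * ((corRep D x : Gamma0 N) : SL(2, ℤ))⁻¹ ∈ Gamma0 (N * q) := by
  obtain ⟨y, g, hy⟩ := stable_corAlpha D hq hqN ⟨γ, hγ⟩ OnePoint.infty
  have h1 : γ = (g : SL(2, ℤ)) * ((corRep D y : Gamma0 N) : SL(2, ℤ)) := by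
    simp only [corAlpha, corRep_infty, map_one, one_mul] at hy
    rw [gl_apply, gl_apply, gl_apply, ← map_mul] at hy
    exact mapGL_injective hy
  refine ⟨y, ?_, fun y' hy' => ?_⟩
  · beta_reduce
    rw [h1, mul_inv_cancel_right]
    exact g.2
  · -- `corRep y = (g⁻¹ g') corRep y'`
    set g' : Gamma0 (N * q) := ⟨_, hy'⟩ with hg'
    have h2 : γ = (g' : SL(2, ℤ)) * ((corRep D y' : Gamma0 N) : SL(2, ℤ)) := by
      rw [hg']
      simp only
      rw [inv_mul_cancel_right]
    have h3 : gl (N * q) (g⁻¹ * g') * corAlpha D y' = corAlpha D y := by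
      simp only [corAlpha]
      rw [gl_apply, gl_apply, gl_apply, ← map_mul]
      congr 1
      have : (g : SL(2, ℤ)) * ((corRep D y : Gamma0 N) : SL(2, ℤ))
          = (g' : SL(2, ℤ)) * ((corRep D y' : Gamma0 N) : SL(2, ℤ)) := by rw [← h1, ← h2]
      simp only [Subgroup.coe_mul, Subgroup.coe_inv, mul_assoc]
      rw [← this, inv_mul_cancel_left]
    exact (isReduced_corAlpha D hq hqN hN).distinct y' y _ h3

/-- **Adjointness of `res` and `cor`** for the intersection form. -/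
theorem pd_res_cor [NeZero N] (D : ALData N q) (hq : q.Prime) (hqN : ¬ q ∣ N) (hN : N ≠ 0)
    (x : parabolicHoms ℤ (Gamma0 N) ℤ) (y : parabolicHoms ℤ (Gamma0 (N * q)) ℤ) :
    haveI : NeZero (N * q) := ⟨Nat.mul_ne_zero hN hq.ne_zero⟩
    pd (N * q) (resPar ℤ ℤ N q x) y = pd N x (corPar ℤ ℤ D hq hqN hN y) := by
  haveI : NeZero (N * q) := ⟨Nat.mul_ne_zero hN hq.ne_zero⟩
  haveI : NeZero q := ⟨hq.ne_zero⟩
  classical
  letI i₁ : Fintype (SL(2, ℤ) ⧸ Gamma0 N) := Fintype.ofFinite _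
  letI i₂ : Fintype (SL(2, ℤ) ⧸ Gamma0 (N * q)) := Fintype.ofFinite _
  have hF := prim_spec x
  have hF' := prim_spec y
  have hres : IsPrimitive (glQ (N * q))
      ((resPar ℤ ℤ N q x : parabolicHoms ℤ (Gamma0 (N * q)) ℤ) : Additive (Gamma0 (N * q)) →+ ℤ)
      (prim x) := isPrimitive_res hF
  have hcor : IsPrimitive (glQ N)
      ((corPar ℤ ℤ D hq hqN hN y : parabolicHoms ℤ (Gamma0 N) ℤ) : Additive (Gamma0 N) →+ ℤ)
      (fun s => ∑ j : OnePoint (ZMod q), prim y (((corRep D j : Gamma0 N) : SL(2, ℤ)) • s)) :=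
    isPrimitive_cor D hq hqN hN hF'
  have hL := three_mul_pd_eq_tr i₂ hres hF'
  have hR := three_mul_pd_eq_tr i₁ hF hcor
  have hT := H46.fareyData.pairQ_transfer (Gamma0 (N * q)) (Gamma0 N) (gamma0_mul_le N q)
    (fun j : OnePoint (ZMod q) => ((corRep D j : Gamma0 N) : SL(2, ℤ)))
    (fun j => (corRep D j).2) (existsUnique_corRep D hq hqN hN)
    (F₁ := prim x) (F₂ := prim y)
    (isCuspPrimitive_of_isPrimitive hF) (isCuspPrimitive_of_isPrimitive hF')
  have hLR : (3 : ℚ) * (pd (N * q) (resPar ℤ ℤ N q x) y : ℚ)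
      = (3 : ℚ) * (pd N x (corPar ℤ ℤ D hq hqN hN y) : ℚ) := by
    rw [hL, hR]
    exact hT.symm
  have h3 : ((pd (N * q) (resPar ℤ ℤ N q x) y : ℤ) : ℚ)
      = ((pd N x (corPar ℤ ℤ D hq hqN hN y) : ℤ) : ℚ) :=
    mul_left_cancel₀ (by norm_num : (3 : ℚ) ≠ 0) hLR
  exact_mod_cast h3

end Fermat.Agent.S41.H18
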