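import Mathlib

/-!
# Package D, Theorem I: the arithmetic input (helper2)

For coprime `q ≥ 2`, `m ≥ 1` and a coprime pair `(a, b)` with `a ≡ 1`, `b ≡ 0 mod m` we find
(two applications of Dirichlet's theorem) `a' = a + b m t₁`, `b' = b + a' m t₂`, an exponent `K`
and an integer `w₀` with `b' w₀ = 1 - (q ^ K) ^ 2`, `q ^ K ≡ 1 mod m` and `w₀ ≡ -1 mod m`.
-/

set_option autoImplicit false

namespace Fermat.Agent.S41.H2

/-- Step 0: move `a` inside its class mod `b m` to make it coprime to a given `B > 0`. -/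
lemma exists_adjust_a (a b : ℤ) (m : ℕ) (hm : 0 < m) (B : ℕ) (hB : 0 < B)
    (hab : IsCoprime a b) (ham : IsCoprime a (m : ℤ)) :
    ∃ t : ℤ, IsCoprime (a + b * (m * t)) (B : ℤ) := by
  by_cases hb : b = 0
  · subst hb
    refine ⟨0, ?_⟩
    have hu : IsUnit a := isCoprime_zero_right.mp hab
    simpa using (isCoprime_one_left.of_isCoprime_of_dvd_left hu.dvd : IsCoprime a (B : ℤ))
  · have hn : b.natAbs * m ≠ 0 := Nat.mul_ne_zero (Int.natAbs_ne_zero.mpr hb) hm.ne'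
    have hcop : IsCoprime a ((b.natAbs * m : ℕ) : ℤ) := by
      push_cast
      refine IsCoprime.mul_right ?_ ham
      rcases abs_choice b with h | h <;> rw [h]
      · exact hab
      · exact hab.neg_right
    obtain ⟨P, hPB, hP, hmod⟩ := Nat.forall_exists_prime_gt_and_zmodEq B hn hcop
    have hdvd : ((b.natAbs * m : ℕ) : ℤ) ∣ (P : ℤ) - a := (Int.modEq_iff_dvd.mp hmod.symm)
    have hdvd2 : b * (m : ℤ) ∣ (P : ℤ) - a := by
      refine dvd_trans ?_ hdvd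
      push_cast
      exact mul_dvd_mul_right ((dvd_abs b b).mpr dvd_rfl) _
    obtain ⟨t, ht⟩ := hdvd2
    refine ⟨t, ?_⟩
    have e : a + b * (m * t) = P := by linarith
    rw [e]
    exact Nat.isCoprime_iff_coprime.mpr
      ((Nat.Prime.coprime_iff_not_dvd hP).mpr (Nat.not_dvd_of_pos_of_lt hB hPB))

/-- Step 1 (Dirichlet): the special prime `ℓ ≡ -1 mod 2m` with `M₁' ℓ ≡ b₁ mod a`. -/
lemma exists_special_prime (m : ℕ) (hm : 0 < m) (a b₁ M₁' : ℤ) (B : ℕ)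
    (ha2m : IsCoprime a (2 * m : ℤ)) (haM : IsCoprime a M₁') (hab : IsCoprime a b₁) :
    ∃ ℓ : ℕ, ℓ.Prime ∧ B < ℓ ∧ (2 * m : ℤ) ∣ (ℓ : ℤ) + 1 ∧ a ∣ M₁' * ℓ - b₁ := by
  have ha0 : a ≠ 0 := by
    rintro rfl
    have h1 : IsUnit (2 * m : ℤ) := isCoprime_zero_left.mp ha2m
    have h2 := Int.isUnit_iff.mp h1
    omega
  obtain ⟨u, v, huv⟩ := ha2m
  obtain ⟨u', v', huv'⟩ := haM
  set c : ℤ := -(u * a) + (b₁ * v') * (v * (2 * m)) with hc
  have hc1 : c + 1 = (2 * m : ℤ) * (v + b₁ * v' * v) := by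
    rw [hc]; linear_combination (-1 : ℤ) * huv
  have hc2 : M₁' * c - b₁ = a * (-(M₁' * u) + b₁ * (-u' - u + u' * u * a)) := by
    rw [hc]
    have e1 : v * (2 * (m : ℤ)) = 1 - u * a := by linear_combination huv
    have e2 : v' * M₁' = 1 - u' * a := by linear_combination huv'
    calc M₁' * (-(u * a) + b₁ * v' * (v * (2 * ↑m))) - b₁
        = -(M₁' * u * a) + b₁ * ((v' * M₁') * (v * (2 * ↑m))) - b₁ := by ring
      _ = -(M₁' * u * a) + b₁ * ((1 - u' * a) * (1 - u * a)) - b₁ := by rw [e1, e2]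
      _ = _ := by ring
  have hcop2m : IsCoprime c (2 * m : ℤ) := ⟨-1, v + b₁ * v' * v, by linear_combination (-1 : ℤ) * hc1⟩
  have hv'a : IsCoprime v' a := ⟨M₁', u', by linear_combination huv'⟩
  have hcopa : IsCoprime c a := by
    have h1 : IsCoprime (b₁ * v') a := hab.symm.mul_left hv'a
    have e : c = b₁ * v' + a * (-(u + b₁ * v' * u)) := by
      rw [hc]
      have e1 : v * (2 * (m : ℤ)) = 1 - u * a := by linear_combination huv
      rw [e1]; ring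
    rw [e]
    exact h1.add_mul_left_left _
  have hQ : 2 * m * a.natAbs ≠ 0 := by
    have := Int.natAbs_ne_zero.mpr ha0
    positivity
  have hcopQ : IsCoprime c ((2 * m * a.natAbs : ℕ) : ℤ) := by
    push_cast
    refine IsCoprime.mul_right hcop2m ?_
    rcases abs_choice a with h | h <;> rw [h]
    · exact hcopa
    · exact hcopa.neg_right
  obtain ⟨ℓ, hℓB, hℓ, hmod⟩ := Nat.forall_exists_prime_gt_and_zmodEq B hQ hcopQ
  have hdvd : ((2 * m * a.natAbs : ℕ) : ℤ) ∣ (ℓ : ℤ) - c := by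
    have := Int.modEq_iff_dvd.mp hmod.symm
    simpa using this
  refine ⟨ℓ, hℓ, hℓB, ?_, ?_⟩
  · have h1 : (2 * m : ℤ) ∣ (ℓ : ℤ) - c := by
      refine dvd_trans ?_ hdvd
      push_cast
      exact Dvd.intro _ rfl
    have : (ℓ : ℤ) + 1 = ((ℓ : ℤ) - c) + (c + 1) := by ring
    rw [this]
    exact dvd_add h1 ⟨_, hc1⟩
  · have h1 : a ∣ (ℓ : ℤ) - c := by
      refine dvd_trans ?_ hdvd
      push_cast
      exact Dvd.dvd.mul_left ((dvd_abs a a).mpr dvd_rfl) _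
    have : M₁' * ℓ - b₁ = M₁' * ((ℓ : ℤ) - c) + (M₁' * c - b₁) := by ring
    rw [this]
    exact dvd_add (Dvd.dvd.mul_left h1 _) ⟨_, hc2⟩

/-- **The arithmetic input of Theorem I.** -/
theorem exists_arith (q m : ℕ) (hq : 2 ≤ q) (hm : 0 < m) (hqm : q.Coprime m) (a b : ℤ)
    (hab : IsCoprime a b) (ha : (m : ℤ) ∣ a - 1) (hb : (m : ℤ) ∣ b) :
    ∃ (t₁ t₂ w₀ : ℤ) (K : ℕ),
      (m : ℤ) ∣ (q : ℤ) ^ K - 1 ∧ (m : ℤ) ∣ w₀ + 1 ∧
      (b + (a + b * (m * t₁)) * (m * t₂)) * w₀ = 1 - ((q : ℤ) ^ K) ^ 2 := by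
  classical
  set r : ℕ := Nat.totient m with hr
  have hr0 : 0 < r := Nat.totient_pos.mpr hm
  -- `q ^ r ≡ 1 mod m`
  have hqr : (m : ℤ) ∣ (q : ℤ) ^ r - 1 := by
    have h1 : q ^ r ≡ 1 [MOD m] := Nat.ModEq.pow_totient hqm
    have h2 : ((q ^ r : ℕ) : ℤ) ≡ ((1 : ℕ) : ℤ) [ZMOD m] := (Int.natCast_modEq_iff).mpr h1
    have h3 := Int.modEq_iff_dvd.mp h2.symm
    simpa using h3
  set x : ℤ := (q : ℤ) ^ (2 * r) with hx
  have hxr : x = ((q : ℤ) ^ r) ^ 2 := by rw [hx, mul_comm, pow_mul]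
  set M₁ : ℤ := x - 1 with hM₁
  have hmM₁ : (m : ℤ) ∣ M₁ := by
    have : M₁ = ((q : ℤ) ^ r - 1) * ((q : ℤ) ^ r + 1) := by rw [hM₁, hxr]; ring
    rw [this]; exact Dvd.dvd.mul_right hqr _
  have hqr2 : (2 : ℤ) ≤ (q : ℤ) ^ r := by
    have h1 : (2 : ℤ) ≤ (q : ℤ) := by exact_mod_cast hq
    calc (2 : ℤ) = 2 ^ 1 := by norm_num
      _ ≤ (q : ℤ) ^ 1 := by simpa using h1
      _ ≤ (q : ℤ) ^ r := pow_le_pow_right₀ (by linarith) hr0
  have hM₁pos : 0 < M₁ := by rw [hM₁, hxr]; nlinarith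
  obtain ⟨M₁', hM₁'⟩ := hmM₁
  -- Step 0
  have ham : IsCoprime a (m : ℤ) := by
    obtain ⟨k, hk⟩ := ha
    exact ⟨1, -k, by linear_combination hk⟩
  set B : ℕ := 2 * m * M₁.natAbs with hB
  have hBpos : 0 < B := by
    have : 0 < M₁.natAbs := Int.natAbs_pos.mpr hM₁pos.ne'
    positivity
  obtain ⟨t₁, ht₁⟩ := exists_adjust_a a b m hm B hBpos hab ham
  set a' : ℤ := a + b * (m * t₁) with ha'
  have hBcast : (B : ℤ) = 2 * m * M₁ := by
    rw [hB]; push_cast; rw [abs_of_pos hM₁pos]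
  rw [hBcast] at ht₁
  have ha'2m : IsCoprime a' (2 * m : ℤ) := ht₁.of_mul_right_left
  have ha'M₁ : IsCoprime a' M₁ := ht₁.of_mul_right_right
  have ha'M₁' : IsCoprime a' M₁' := by rw [hM₁'] at ha'M₁; exact ha'M₁.of_mul_right_right
  obtain ⟨b₁, hb₁⟩ := hb
  have ha'b : IsCoprime a' b := hab.add_mul_left_left _
  have ha'b₁ : IsCoprime a' b₁ := by rw [hb₁] at ha'b; exact ha'b.of_mul_right_right
  -- Step 1
  obtain ⟨ℓ, hℓ, hℓB, hℓ2m, hℓa⟩ :=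
    exists_special_prime m hm a' b₁ M₁' (M₁.natAbs * q) ha'2m ha'M₁' ha'b₁
  have : Fact ℓ.Prime := ⟨hℓ⟩
  obtain ⟨t₂, ht₂⟩ := hℓa
  -- `ℓ = 2 K₀ + 1`, `m ∣ K₀ + 1`
  have hℓ2m' : 2 * m ∣ ℓ + 1 := by exact_mod_cast hℓ2m
  obtain ⟨j, hj⟩ := hℓ2m'
  have hj0 : 0 < j := by
    rcases Nat.eq_zero_or_pos j with h | h
    · subst h; omega
    · exact h
  have hmj : 1 ≤ m * j := Nat.mul_pos hm hj0
  set K₀ : ℕ := m * j - 1 with hK₀
  have hℓK : ℓ = 2 * K₀ + 1 := by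
    have : 2 * m * j = 2 * (m * j) := by ring
    omega
  have hK₀m : K₀ + 1 = m * j := by omega
  -- `ℓ` does not divide `q` and `M₁`
  have hM₁q : M₁.natAbs * q < ℓ := hℓB
  have hM₁nat : 0 < M₁.natAbs := Int.natAbs_pos.mpr hM₁pos.ne'
  have hqℓ : q < ℓ := by nlinarith
  have hM₁ℓ : M₁.natAbs < ℓ := by nlinarith
  have hq_ne : (q : ZMod ℓ) ≠ 0 := by
    intro h
    have := (ZMod.natCast_eq_zero_iff q ℓ).mp h
    exact Nat.not_dvd_of_pos_of_lt (by omega) hqℓ this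
  have hℓM₁ : ¬ (ℓ : ℤ) ∣ M₁ := by
    intro h
    have h1 : ℓ ∣ M₁.natAbs := Int.natCast_dvd.mp h
    exact Nat.not_dvd_of_pos_of_lt hM₁nat hM₁ℓ h1
  -- geometric sum
  set Sg : ℤ := ∑ i ∈ Finset.range K₀, x ^ i with hSg
  have hgeom : Sg * M₁ = x ^ K₀ - 1 := geom_sum_mul x K₀
  have hℓdvd : (ℓ : ℤ) ∣ x ^ K₀ - 1 := by
    rw [← ZMod.intCast_zmod_eq_zero_iff_dvd]
    have e : x ^ K₀ = ((q : ℤ) ^ r) ^ (ℓ - 1) := by
      rw [hx, ← pow_mul, ← pow_mul]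
      congr 1
      rw [hℓK]; simp; ring
    rw [e]
    push_cast
    rw [ZMod.pow_card_sub_one_eq_one (pow_ne_zero _ hq_ne)]
    simp
  have hℓSg : (ℓ : ℤ) ∣ Sg := by
    rw [← hgeom] at hℓdvd
    rcases (Nat.prime_iff_prime_int.mp hℓ).dvd_or_dvd hℓdvd with h | h
    · exact h
    · exact absurd h hℓM₁
  obtain ⟨σ, hσ⟩ := hℓSg
  refine ⟨t₁, t₂, -σ, r * K₀, ?_, ?_, ?_⟩
  · -- `m ∣ q ^ (r K₀) - 1`
    rw [pow_mul]
    have h1 : (q : ℤ) ^ r ≡ 1 [ZMOD m] := by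
      refine (Int.modEq_iff_dvd.mpr ?_).symm
      exact hqr
    have h2 := h1.pow K₀
    rw [one_pow] at h2
    have h3 := Int.modEq_iff_dvd.mp h2.symm
    exact h3
  · -- `m ∣ -σ + 1`
    rw [← ZMod.intCast_zmod_eq_zero_iff_dvd]
    have hx1 : ((x : ℤ) : ZMod m) = 1 := by
      have : (m : ℤ) ∣ x - 1 := ⟨M₁', hM₁'⟩
      have h0 := (ZMod.intCast_zmod_eq_zero_iff_dvd (x - 1) m).mpr this
      push_cast at h0
      exact sub_eq_zero.mp h0
    have hSgK : ((Sg : ℤ) : ZMod m) = (K₀ : ZMod m) := by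
      rw [hSg]; push_cast; rw [hx1]; simp
    have hK1 : ((K₀ : ℕ) : ZMod m) = -1 := by
      have : ((K₀ + 1 : ℕ) : ZMod m) = 0 := by rw [hK₀m]; simp
      push_cast at this
      exact eq_neg_of_add_eq_zero_left this
    have hℓ1 : ((ℓ : ℕ) : ZMod m) = -1 := by
      have : ((ℓ + 1 : ℕ) : ZMod m) = 0 := by rw [hj]; push_cast; simp [mul_assoc]
      push_cast at this
      exact eq_neg_of_add_eq_zero_left this
    have h4 : ((σ : ℤ) : ZMod m) = 1 := by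
      have h5 : ((Sg : ℤ) : ZMod m) = ((ℓ : ℤ) : ZMod m) * ((σ : ℤ) : ZMod m) := by
        rw [hσ]; push_cast; rfl
      rw [hSgK, hK1] at h5
      simp only [Int.cast_natCast, hℓ1] at h5
      have : -(1 : ZMod m) = -((σ : ℤ) : ZMod m) := by rw [h5]; ring
      exact (neg_injective this).symm
    push_cast
    rw [h4]; ring
  · -- the product formula
    have e1 : b + a' * (m * t₂) = M₁ * ℓ := by
      rw [hb₁, hM₁']
      have : a' * t₂ = M₁' * ℓ - b₁ := ht₂.symm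
      linear_combination (m : ℤ) * this
    have e2 : ((q : ℤ) ^ (r * K₀)) ^ 2 = x ^ K₀ := by
      rw [hx, ← pow_mul, ← pow_mul]; congr 1; ring
    rw [e1, e2]
    have : x ^ K₀ = Sg * M₁ + 1 := by rw [hgeom]; ring
    rw [this, hσ]; ring

end Fermat.Agent.S41.H2
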