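import Fermat.Agent.S41.H2_CSPElem
import Fermat.Agent.S41.H2_CSPArith

/-!
# Package D, Theorem I (centrality) (helper2)

`A` a commutative ring in which the natural number `q ≥ 2` is a unit, `m ≥ 1` prime to `q`.
For `σ ∈ SL(2, ℤ)` and `g ∈ Γ(m) ⊆ SL(2, ℤ)` the commutator of their images in `SL(2, A)` lies in
`E(m) = Elev A m`, the normal closure of the level-`m` elementary matrices.

Blueprint: board post #1439.
-/

set_option autoImplicit false

open Matrix CongruenceSubgroup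
open scoped MatrixGroups

namespace Fermat.Agent.S41.H2

variable {A : Type*} [CommRing A]

/-- The map `SL(2, ℤ) → SL(2, A)`. -/
def intMap (A : Type*) [CommRing A] : SL(2, ℤ) →* SL(2, A) :=
  Matrix.SpecialLinearGroup.map (Int.castRingHom A)

@[simp] lemma intMap_apply (γ : SL(2, ℤ)) (i j : Fin 2) :
    (intMap A γ).1 i j = ((γ.1 i j : ℤ) : A) := by
  simp [intMap]

lemma intMap_x12 (t : ℤ) : intMap A (x12 t) = x12 (t : A) := by
  apply sl2A_ext <;> simp

lemma intMap_x21 (t : ℤ) : intMap A (x21 t) = x21 (t : A) := by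
  apply sl2A_ext <;> simp

lemma intMap_wA : intMap A (wA : SL(2, ℤ)) = wA := by
  apply sl2A_ext <;> simp

lemma Gamma_mem_dvd {m : ℕ} {γ : SL(2, ℤ)} (h : γ ∈ Gamma m) :
    (m : ℤ) ∣ γ.1 0 0 - 1 ∧ (m : ℤ) ∣ γ.1 0 1 ∧ (m : ℤ) ∣ γ.1 1 0 ∧ (m : ℤ) ∣ γ.1 1 1 - 1 := by
  rw [Gamma_mem] at h
  obtain ⟨h00, h01, h10, h11⟩ := h
  refine ⟨?_, ?_, ?_, ?_⟩
  · rw [← ZMod.intCast_zmod_eq_zero_iff_dvd]; push_cast; rw [h00]; ring
  · rw [← ZMod.intCast_zmod_eq_zero_iff_dvd]; exact h01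
  · rw [← ZMod.intCast_zmod_eq_zero_iff_dvd]; exact h10
  · rw [← ZMod.intCast_zmod_eq_zero_iff_dvd]; push_cast; rw [h11]; ring

/-- The class map `SL(2, A) → SL(2, A) ⧸ E(m)`. -/
def cl (A : Type*) [CommRing A] (m : ℕ) : SL(2, A) →* SL(2, A) ⧸ Elev A m :=
  QuotientGroup.mk' (Elev A m)

lemma cl_eq_one_iff {m : ℕ} (x : SL(2, A)) : cl A m x = 1 ↔ x ∈ Elev A m :=
  QuotientGroup.eq_one_iff x

lemma natCast_dvd_of_int {m : ℕ} {z : ℤ} (h : (m : ℤ) ∣ z) : (m : A) ∣ (z : A) := by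
  have := map_dvd (Int.castRingHom A) h
  simpa using this

/-- Main step: `x21 1` commutes with the class of every `g ∈ Γ(m)`. -/
lemma commute_x21_one (q m : ℕ) (hq2 : 2 ≤ q) (hm : 0 < m) (hqm : q.Coprime m)
    (hqA : IsUnit (q : A)) (g : SL(2, ℤ)) (hg : g ∈ Gamma m) :
    Commute (cl A m (x21 1)) (cl A m (intMap A g)) := by
  obtain ⟨ha, hb, hc, hd⟩ := Gamma_mem_dvd hg
  have hdet := sl2A_det g
  have hab : IsCoprime (g.1 0 0) (g.1 0 1) := ⟨g.1 1 1, -g.1 1 0, by linear_combination hdet⟩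
  obtain ⟨t₁, t₂, w₀, K, hK, hw, hprod⟩ :=
    exists_arith q m hq2 hm hqm (g.1 0 0) (g.1 0 1) hab ha hb
  -- the adjusted matrix
  set g₀ : SL(2, ℤ) := g * x21 ((m : ℤ) * t₁) * x12 ((m : ℤ) * t₂) with hg₀
  have e00 : g₀.1 0 0 = g.1 0 0 + g.1 0 1 * (m * t₁) := by
    rw [hg₀]
    simp only [sl2A_mul_00, sl2A_mul_01, sl2A_mul_10, sl2A_mul_11, x12_00, x12_01, x12_10, x12_11,
      x21_00, x21_01, x21_10, x21_11]
    ring
  have e01 : g₀.1 0 1 = g.1 0 1 + (g.1 0 0 + g.1 0 1 * (m * t₁)) * (m * t₂) := by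
    rw [hg₀]
    simp only [sl2A_mul_00, sl2A_mul_01, sl2A_mul_10, sl2A_mul_11, x12_00, x12_01, x12_10, x12_11,
      x21_00, x21_01, x21_10, x21_11]
    ring
  have e10 : g₀.1 1 0 = g.1 1 0 + g.1 1 1 * (m * t₁) := by
    rw [hg₀]
    simp only [sl2A_mul_00, sl2A_mul_01, sl2A_mul_10, sl2A_mul_11, x12_00, x12_01, x12_10, x12_11,
      x21_00, x21_01, x21_10, x21_11]
    ring
  have e11 : g₀.1 1 1 = g.1 1 1 + (g.1 1 0 + g.1 1 1 * (m * t₁)) * (m * t₂) := by
    rw [hg₀]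
    simp only [sl2A_mul_00, sl2A_mul_01, sl2A_mul_10, sl2A_mul_11, x12_00, x12_01, x12_10, x12_11,
      x21_00, x21_01, x21_10, x21_11]
    ring
  have ha₀ : (m : ℤ) ∣ g₀.1 0 0 - 1 := by
    rw [e00]
    have : g.1 0 0 + g.1 0 1 * (m * t₁) - 1 = (g.1 0 0 - 1) + (m : ℤ) * (g.1 0 1 * t₁) := by ring
    rw [this]; exact dvd_add ha (Dvd.intro _ rfl)
  have hc₀ : (m : ℤ) ∣ g₀.1 1 0 := by
    rw [e10]
    have : g.1 1 0 + g.1 1 1 * (m * t₁) = g.1 1 0 + (m : ℤ) * (g.1 1 1 * t₁) := by ring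
    rw [this]; exact dvd_add hc (Dvd.intro _ rfl)
  have hd₀ : (m : ℤ) ∣ g₀.1 1 1 - 1 := by
    rw [e11]
    have : g.1 1 1 + (g.1 1 0 + g.1 1 1 * (m * t₁)) * (m * t₂) - 1
        = (g.1 1 1 - 1) + (m : ℤ) * ((g.1 1 0 + g.1 1 1 * (m * t₁)) * t₂) := by ring
    rw [this]; exact dvd_add hd (Dvd.intro _ rfl)
  -- the unit `v = q ^ K`
  set v : Aˣ := hqA.unit ^ K with hv
  have hvA : (v : A) = (q : A) ^ K := by rw [hv]; simp
  have hvm : (m : A) ∣ (v : A) - 1 := by
    rw [hvA]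
    have := natCast_dvd_of_int (A := A) hK
    simpa using this
  have hbw : (intMap A g₀).1 0 1 * (w₀ : A) = 1 - (v : A) ^ 2 := by
    rw [hvA, intMap_apply, e01]
    have := congrArg (Int.cast : ℤ → A) hprod
    push_cast at this ⊢
    linear_combination this
  have key := core_conj_mem (m := m) (intMap A g₀) v (w₀ : A) hbw
    (by rw [intMap_apply]; exact natCast_dvd_of_int hc₀)
    (by
      rw [intMap_apply]
      have := natCast_dvd_of_int (A := A) ha₀
      simpa using this)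
    (by
      rw [intMap_apply]
      have := natCast_dvd_of_int (A := A) hd₀
      simpa using this)
    hvm
  -- pass to the quotient
  have h1 : cl A m (intMap A g₀) = cl A m (intMap A g) := by
    rw [hg₀, map_mul, map_mul, map_mul, map_mul, intMap_x21, intMap_x12]
    have h21 : cl A m (x21 (((m : ℤ) * t₁ : ℤ) : A)) = 1 :=
      (cl_eq_one_iff _).mpr (x21_mem_Elev ⟨(t₁ : A), by push_cast; ring⟩)
    have h12 : cl A m (x12 (((m : ℤ) * t₂ : ℤ) : A)) = 1 :=
      (cl_eq_one_iff _).mpr (x12_mem_Elev ⟨(t₂ : A), by push_cast; ring⟩)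
    rw [h21, h12, mul_one, mul_one]
  set s₀ : A := (w₀ : A) * (intMap A g₀).1 0 0 with hs₀
  have h2 : cl A m (x21 s₀) = cl A m (x21 (-1)) := by
    have e : s₀ = -1 + (s₀ + 1) := by ring
    have hdv : (m : A) ∣ s₀ + 1 := by
      have h3 : (m : ℤ) ∣ w₀ * g₀.1 0 0 + 1 := by
        have : w₀ * g₀.1 0 0 + 1 = (w₀ + 1) * g₀.1 0 0 - (g₀.1 0 0 - 1) := by ring
        rw [this]; exact dvd_sub (Dvd.dvd.mul_right hw _) ha₀
      have := natCast_dvd_of_int (A := A) h3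
      rw [hs₀, intMap_apply]
      simpa using this
    rw [e, x21_add, map_mul, (cl_eq_one_iff _).mpr (x21_mem_Elev hdv), mul_one]
  have h3 : Commute (cl A m (x21 s₀)) (cl A m (intMap A g₀)) := by
    have := (cl_eq_one_iff _).mpr key
    rw [map_mul, map_mul, map_mul, map_inv, map_inv] at this
    have h4 : cl A m (x21 s₀) * cl A m (intMap A g₀) * (cl A m (x21 s₀))⁻¹
        = cl A m (intMap A g₀) := mul_inv_eq_one.mp this
    exact (mul_inv_eq_iff_eq_mul.mp h4)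
  rw [h1, h2, x21_neg, map_inv] at h3
  exact (Commute.inv_left_iff).mp h3

lemma wA_int_conj_mem {m : ℕ} (g : SL(2, ℤ)) (hg : g ∈ Gamma m) :
    (wA : SL(2, ℤ)) * g * (wA : SL(2, ℤ))⁻¹ ∈ Gamma m :=
  (Gamma_normal m).conj_mem g hg _

/-- `x12 1` commutes with the class of every `g ∈ Γ(m)`. -/
lemma commute_x12_one (q m : ℕ) (hq2 : 2 ≤ q) (hm : 0 < m) (hqm : q.Coprime m)
    (hqA : IsUnit (q : A)) (g : SL(2, ℤ)) (hg : g ∈ Gamma m) :
    Commute (cl A m (x12 1)) (cl A m (intMap A g)) := by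
  have h := commute_x21_one (A := A) q m hq2 hm hqm hqA _ (wA_int_conj_mem g hg)
  simp only [map_mul, map_inv, intMap_wA] at h
  -- conjugate back by `wA`
  have e : (wA : SL(2, A))⁻¹ * x21 1 * wA = x12 (-1) := by
    have := wA_conj_x12 (A := A) (-1)
    rw [neg_neg] at this
    rw [← this]; group
  have h2 : Commute ((cl A m wA)⁻¹ * cl A m (x21 1) * cl A m wA) (cl A m (intMap A g)) := by
    have h3 := h.eq
    unfold Commute SemiconjBy
    calc (cl A m wA)⁻¹ * cl A m (x21 1) * cl A m wA * cl A m (intMap A g)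
        = (cl A m wA)⁻¹ * (cl A m (x21 1) * (cl A m wA * cl A m (intMap A g) * (cl A m wA)⁻¹))
            * cl A m wA := by group
      _ = (cl A m wA)⁻¹ * ((cl A m wA * cl A m (intMap A g) * (cl A m wA)⁻¹) * cl A m (x21 1))
            * cl A m wA := by rw [h3]
      _ = cl A m (intMap A g) * ((cl A m wA)⁻¹ * cl A m (x21 1) * cl A m wA) := by group
  have e2 : (cl A m wA)⁻¹ * cl A m (x21 1) * cl A m wA = (cl A m (x12 1))⁻¹ := by
    rw [← map_inv, ← map_mul, ← map_mul, e, x12_neg, map_inv]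
  rw [e2] at h2
  exact (Commute.inv_left_iff).mp h2

/-- **Theorem I (centrality).** For `σ ∈ SL(2, ℤ)` and `g ∈ Γ(m)`, the classes of `σ` and `g`
commute in `SL(2, A) ⧸ E(m)`. -/
theorem commute_cl_intMap (q m : ℕ) (hq2 : 2 ≤ q) (hm : 0 < m) (hqm : q.Coprime m)
    (hqA : IsUnit (q : A)) (σ g : SL(2, ℤ)) (hg : g ∈ Gamma m) :
    Commute (cl A m (intMap A σ)) (cl A m (intMap A g)) := by
  have h12 := commute_x12_one (A := A) q m hq2 hm hqm hqA g hg
  have h21 := commute_x21_one (A := A) q m hq2 hm hqm hqA g hg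
  -- the centraliser of the class of `g`, pulled back to `SL(2, ℤ)`
  let C : Subgroup SL(2, ℤ) :=
    (Subgroup.centralizer {cl A m (intMap A g)}).comap ((cl A m).comp (intMap A))
  have hmemC : ∀ x : SL(2, ℤ), x ∈ C ↔ Commute (cl A m (intMap A x)) (cl A m (intMap A g)) := by
    intro x
    simp only [C, Subgroup.mem_comap, Subgroup.mem_centralizer_iff, Set.mem_singleton_iff,
      forall_eq, MonoidHom.comp_apply]
    exact ⟨fun h => h.symm, fun h => h.symm⟩
  have hT : ModularGroup.T ∈ C := by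
    rw [hmemC]
    have : intMap A ModularGroup.T = x12 1 := by
      apply sl2A_ext <;> simp [ModularGroup.T]
    rw [this]; exact h12
  have hS : ModularGroup.S ∈ C := by
    rw [hmemC]
    have : intMap A ModularGroup.S = (wA : SL(2, A))⁻¹ := by
      apply sl2A_ext <;> simp [ModularGroup.S, sl2A_inv_00, sl2A_inv_01, sl2A_inv_10, sl2A_inv_11]
    rw [this, wA_eq, map_inv, map_mul, map_mul, x21_neg, map_inv]
    exact ((h12.mul_left h21.inv_left).mul_left h12).inv_left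
  have htop : C = ⊤ := by
    rw [eq_top_iff, ← SpecialLinearGroup.SL2Z_generators, Subgroup.closure_le]
    intro x hx
    rcases hx with rfl | rfl
    · exact hS
    · exact hT
  have : σ ∈ C := by rw [htop]; trivial
  exact (hmemC σ).mp this

/-- **Theorem I**, membership form: `[σ, g] ∈ E(m)`. -/
theorem comm_mem_Elev (q m : ℕ) (hq2 : 2 ≤ q) (hm : 0 < m) (hqm : q.Coprime m)
    (hqA : IsUnit (q : A)) (σ g : SL(2, ℤ)) (hg : g ∈ Gamma m) :
    intMap A σ * intMap A g * (intMap A σ)⁻¹ * (intMap A g)⁻¹ ∈ Elev A m := by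
  have h := (commute_cl_intMap (A := A) q m hq2 hm hqm hqA σ g hg).eq
  rw [← cl_eq_one_iff, map_mul, map_mul, map_mul, map_inv, map_inv, h]
  group

end Fermat.Agent.S41.H2
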