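import Mathlib

/-!
# Package D, Theorem I: elementary matrices and the level-`m` elementary subgroup (helper2)

`A` is any commutative ring.  `x12 t`, `x21 t`, `hdiag u`, `wA` are the usual elements of
`SL(2, A)`, and `Elev A m` is the normal closure of `{x12 (m t)}`.  We prove
* `x21_mem_Elev`, `hdiag_mem_Elev` (the Whitehead-type identity),
* `eq_x21_mul_of_row_eq` (two elements with the same first row differ by `x21 y`),
* `core_conj_mem` : the key identity of Theorem I.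
-/

set_option autoImplicit false

open Matrix
open scoped MatrixGroups

namespace Fermat.Agent.S41.H2

variable {A : Type*} [CommRing A]

lemma sl2A_ext {g h : SL(2, A)} (h00 : g.1 0 0 = h.1 0 0) (h01 : g.1 0 1 = h.1 0 1)
    (h10 : g.1 1 0 = h.1 1 0) (h11 : g.1 1 1 = h.1 1 1) : g = h := by
  apply Subtype.ext
  ext i j
  fin_cases i <;> fin_cases j <;> assumption

lemma sl2A_mul_00 (g h : SL(2, A)) : (g * h).1 0 0 = g.1 0 0 * h.1 0 0 + g.1 0 1 * h.1 1 0 := by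
  simp [Matrix.mul_apply, Fin.sum_univ_two]
lemma sl2A_mul_01 (g h : SL(2, A)) : (g * h).1 0 1 = g.1 0 0 * h.1 0 1 + g.1 0 1 * h.1 1 1 := by
  simp [Matrix.mul_apply, Fin.sum_univ_two]
lemma sl2A_mul_10 (g h : SL(2, A)) : (g * h).1 1 0 = g.1 1 0 * h.1 0 0 + g.1 1 1 * h.1 1 0 := by
  simp [Matrix.mul_apply, Fin.sum_univ_two]
lemma sl2A_mul_11 (g h : SL(2, A)) : (g * h).1 1 1 = g.1 1 0 * h.1 0 1 + g.1 1 1 * h.1 1 1 := by
  simp [Matrix.mul_apply, Fin.sum_univ_two]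

lemma sl2A_inv_00 (g : SL(2, A)) : (g⁻¹).1 0 0 = g.1 1 1 := by
  simp [Matrix.SpecialLinearGroup.coe_inv, Matrix.adjugate_fin_two]
lemma sl2A_inv_01 (g : SL(2, A)) : (g⁻¹).1 0 1 = - g.1 0 1 := by
  simp [Matrix.SpecialLinearGroup.coe_inv, Matrix.adjugate_fin_two]
lemma sl2A_inv_10 (g : SL(2, A)) : (g⁻¹).1 1 0 = - g.1 1 0 := by
  simp [Matrix.SpecialLinearGroup.coe_inv, Matrix.adjugate_fin_two]
lemma sl2A_inv_11 (g : SL(2, A)) : (g⁻¹).1 1 1 = g.1 0 0 := by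
  simp [Matrix.SpecialLinearGroup.coe_inv, Matrix.adjugate_fin_two]

lemma sl2A_det (g : SL(2, A)) : g.1 0 0 * g.1 1 1 - g.1 0 1 * g.1 1 0 = 1 := by
  have h := g.det_coe
  rwa [Matrix.det_fin_two] at h

/-- The upper elementary matrix. -/
def x12 (t : A) : SL(2, A) := ⟨!![1, t; 0, 1], by simp [Matrix.det_fin_two_of]⟩
/-- The lower elementary matrix. -/
def x21 (t : A) : SL(2, A) := ⟨!![1, 0; t, 1], by simp [Matrix.det_fin_two_of]⟩
/-- The diagonal matrix `diag(u, u⁻¹)`. -/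
def hdiag (u : Aˣ) : SL(2, A) :=
  ⟨!![(u : A), 0; 0, ((u⁻¹ : Aˣ) : A)], by simp [Matrix.det_fin_two_of]⟩
/-- The Weyl element `[[0, 1], [-1, 0]]`. -/
def wA : SL(2, A) := ⟨!![0, 1; -1, 0], by simp [Matrix.det_fin_two_of]⟩

@[simp] lemma x12_00 (t : A) : (x12 t).1 0 0 = 1 := rfl
@[simp] lemma x12_01 (t : A) : (x12 t).1 0 1 = t := rfl
@[simp] lemma x12_10 (t : A) : (x12 t).1 1 0 = 0 := rfl
@[simp] lemma x12_11 (t : A) : (x12 t).1 1 1 = 1 := rfl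
@[simp] lemma x21_00 (t : A) : (x21 t).1 0 0 = 1 := rfl
@[simp] lemma x21_01 (t : A) : (x21 t).1 0 1 = 0 := rfl
@[simp] lemma x21_10 (t : A) : (x21 t).1 1 0 = t := rfl
@[simp] lemma x21_11 (t : A) : (x21 t).1 1 1 = 1 := rfl
@[simp] lemma hdiag_00 (u : Aˣ) : (hdiag u).1 0 0 = u := rfl
@[simp] lemma hdiag_01 (u : Aˣ) : (hdiag u).1 0 1 = 0 := rfl
@[simp] lemma hdiag_10 (u : Aˣ) : (hdiag u).1 1 0 = 0 := rfl
@[simp] lemma hdiag_11 (u : Aˣ) : (hdiag u).1 1 1 = ((u⁻¹ : Aˣ) : A) := rfl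
@[simp] lemma wA_00 : (wA : SL(2, A)).1 0 0 = 0 := rfl
@[simp] lemma wA_01 : (wA : SL(2, A)).1 0 1 = 1 := rfl
@[simp] lemma wA_10 : (wA : SL(2, A)).1 1 0 = -1 := rfl
@[simp] lemma wA_11 : (wA : SL(2, A)).1 1 1 = 0 := rfl

/-! ## Basic identities -/

lemma x12_add (s t : A) : x12 (s + t) = x12 s * x12 t := by
  apply sl2A_ext <;> simp only [sl2A_mul_00, sl2A_mul_01, sl2A_mul_10, sl2A_mul_11, x12_00, x12_01,
    x12_10, x12_11] <;> ring

lemma x21_add (s t : A) : x21 (s + t) = x21 s * x21 t := by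
  apply sl2A_ext <;> simp only [sl2A_mul_00, sl2A_mul_01, sl2A_mul_10, sl2A_mul_11, x21_00, x21_01,
    x21_10, x21_11] <;> ring

lemma x12_zero : x12 (0 : A) = 1 := by
  apply sl2A_ext <;> simp

lemma x21_zero : x21 (0 : A) = 1 := by
  apply sl2A_ext <;> simp

lemma x12_neg (t : A) : x12 (-t) = (x12 t)⁻¹ := by
  apply sl2A_ext <;> simp only [sl2A_inv_00, sl2A_inv_01, sl2A_inv_10, sl2A_inv_11, x12_00, x12_01,
    x12_10, x12_11] <;> ring

lemma x21_neg (t : A) : x21 (-t) = (x21 t)⁻¹ := by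
  apply sl2A_ext <;> simp only [sl2A_inv_00, sl2A_inv_01, sl2A_inv_10, sl2A_inv_11, x21_00, x21_01,
    x21_10, x21_11] <;> ring

lemma wA_conj_x12 (t : A) : wA * x12 t * wA⁻¹ = x21 (-t) := by
  apply sl2A_ext <;> simp only [sl2A_mul_00, sl2A_mul_01, sl2A_mul_10, sl2A_mul_11, sl2A_inv_00,
    sl2A_inv_01, sl2A_inv_10, sl2A_inv_11, x12_00, x12_01, x12_10, x12_11, x21_00, x21_01, x21_10,
    x21_11, wA_00, wA_01, wA_10, wA_11] <;> ring

lemma wA_conj_x21 (t : A) : wA * x21 t * wA⁻¹ = x12 (-t) := by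
  apply sl2A_ext <;> simp only [sl2A_mul_00, sl2A_mul_01, sl2A_mul_10, sl2A_mul_11, sl2A_inv_00,
    sl2A_inv_01, sl2A_inv_10, sl2A_inv_11, x12_00, x12_01, x12_10, x12_11, x21_00, x21_01, x21_10,
    x21_11, wA_00, wA_01, wA_10, wA_11] <;> ring

lemma wA_eq : (wA : SL(2, A)) = x12 1 * x21 (-1) * x12 1 := by
  apply sl2A_ext <;> simp only [sl2A_mul_00, sl2A_mul_01, sl2A_mul_10, sl2A_mul_11, x12_00, x12_01,
    x12_10, x12_11, x21_00, x21_01, x21_10, x21_11, wA_00, wA_01, wA_10, wA_11] <;> ring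

/-- The Whitehead-type identity: `diag(u, u⁻¹)` as a product of conjugates of `x12 (u - 1)` and
`x21 (1 - u⁻¹)`. -/
lemma hdiag_eq (u : Aˣ) :
    hdiag u = x12 ((u : A) - 1) * (x12 1 * x21 (1 - ((u⁻¹ : Aˣ) : A)) * (x12 1)⁻¹) *
      ((x12 1 * x21 (-1)) * x12 ((u : A) - 1) * (x12 1 * x21 (-1))⁻¹) := by
  have h1 : (u : A) * ((u⁻¹ : Aˣ) : A) = 1 := u.mul_inv
  apply sl2A_ext <;> simp only [sl2A_mul_00, sl2A_mul_01, sl2A_mul_10, sl2A_mul_11, sl2A_inv_00,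
    sl2A_inv_01, sl2A_inv_10, sl2A_inv_11, x12_00, x12_01, x12_10, x12_11, x21_00, x21_01, x21_10,
    x21_11, hdiag_00, hdiag_01, hdiag_10, hdiag_11]
  · linear_combination (u : A) * h1
  · linear_combination (-1 : A) * h1
  · linear_combination (1 : A) * h1
  · linear_combination (0 : A) * h1

/-- Two elements of `SL(2, A)` with the same first row differ by a left factor `x21 y`. -/
lemma eq_x21_mul_of_row_eq (P g : SL(2, A)) (h0 : P.1 0 0 = g.1 0 0) (h1 : P.1 0 1 = g.1 0 1) :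
    P = x21 (P.1 1 0 * g.1 1 1 - P.1 1 1 * g.1 1 0) * g := by
  have hP := sl2A_det P
  have hg := sl2A_det g
  rw [h0, h1] at hP
  apply sl2A_ext <;> simp only [sl2A_mul_00, sl2A_mul_01, sl2A_mul_10, sl2A_mul_11, x21_00, x21_01,
    x21_10, x21_11]
  · rw [h0]; ring
  · rw [h1]; ring
  · linear_combination (g.1 1 0) * hP - (P.1 1 0) * hg
  · linear_combination (g.1 1 1) * hP - (P.1 1 1) * hg

/-! ## The level-`m` elementary subgroup -/

/-- `E(m)`: the normal closure in `SL(2, A)` of the `x12 (m t)`. -/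
def Elev (A : Type*) [CommRing A] (m : ℕ) : Subgroup SL(2, A) :=
  Subgroup.normalClosure (Set.range fun t : A => x12 ((m : A) * t))

instance Elev_normal (m : ℕ) : (Elev A m).Normal := Subgroup.normalClosure_normal

lemma x12_mem_Elev {m : ℕ} {s : A} (hs : (m : A) ∣ s) : x12 s ∈ Elev A m := by
  obtain ⟨t, rfl⟩ := hs
  exact Subgroup.subset_normalClosure ⟨t, rfl⟩

lemma x21_mem_Elev {m : ℕ} {s : A} (hs : (m : A) ∣ s) : x21 s ∈ Elev A m := by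
  have h1 : x12 (-s) ∈ Elev A m := x12_mem_Elev ((dvd_neg).mpr hs)
  have h2 := (Elev_normal (A := A) m).conj_mem _ h1 wA
  rwa [wA_conj_x12, neg_neg] at h2

lemma hdiag_mem_Elev {m : ℕ} (u : Aˣ) (hu : (m : A) ∣ (u : A) - 1) : hdiag u ∈ Elev A m := by
  have hu' : (m : A) ∣ 1 - ((u⁻¹ : Aˣ) : A) := by
    obtain ⟨t, ht⟩ := hu
    refine ⟨t * ((u⁻¹ : Aˣ) : A), ?_⟩
    have h1 : (u : A) * ((u⁻¹ : Aˣ) : A) = 1 := u.mul_inv
    linear_combination (-1 : A) * h1 + ((u⁻¹ : Aˣ) : A) * ht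
  rw [hdiag_eq]
  refine Subgroup.mul_mem _ (Subgroup.mul_mem _ (x12_mem_Elev hu) ?_) ?_
  · exact (Elev_normal (A := A) m).conj_mem _ (x21_mem_Elev hu') _
  · exact (Elev_normal (A := A) m).conj_mem _ (x12_mem_Elev hu) _

/-- **The key identity of Theorem I.** If `b w₀ = 1 - v²` for a unit `v ≡ 1 mod m` and
`g = [[a, b], [c, d]]` is congruent to `1` mod `m` (only `a, c, d` matter), then `x21 (w₀ a)`
commutes with `g` modulo `E(m)`. -/
lemma core_conj_mem {m : ℕ} (g : SL(2, A)) (v : Aˣ) (w₀ : A)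
    (hbw : g.1 0 1 * w₀ = 1 - (v : A) ^ 2)
    (hc : (m : A) ∣ g.1 1 0) (ha : (m : A) ∣ g.1 0 0 - 1) (hd : (m : A) ∣ g.1 1 1 - 1)
    (hv : (m : A) ∣ (v : A) - 1) :
    x21 (w₀ * g.1 0 0) * g * (x21 (w₀ * g.1 0 0))⁻¹ * g⁻¹ ∈ Elev A m := by
  have hvv : (v : A) * ((v⁻¹ : Aˣ) : A) = 1 := v.mul_inv
  set s₀ : A := w₀ * g.1 0 0 with hs₀
  set P : SL(2, A) := x21 s₀ * g * (x21 s₀)⁻¹ with hP
  set g₁ : SL(2, A) := hdiag v * g * hdiag v with hg₁
  have hP00 : P.1 0 0 = g.1 0 0 - g.1 0 1 * s₀ := by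
    rw [hP]
    simp only [sl2A_mul_00, sl2A_mul_01, sl2A_mul_10, sl2A_mul_11, sl2A_inv_00,
      sl2A_inv_01, sl2A_inv_10, sl2A_inv_11, x21_00, x21_01, x21_10, x21_11]
    ring
  have hP01 : P.1 0 1 = g.1 0 1 := by
    rw [hP]
    simp only [sl2A_mul_00, sl2A_mul_01, sl2A_mul_10, sl2A_mul_11, sl2A_inv_00,
      sl2A_inv_01, sl2A_inv_10, sl2A_inv_11, x21_00, x21_01, x21_10, x21_11]
    ring
  have hP10 : P.1 1 0 = s₀ * (g.1 0 0 - g.1 0 1 * s₀) + g.1 1 0 - g.1 1 1 * s₀ := by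
    rw [hP]
    simp only [sl2A_mul_00, sl2A_mul_01, sl2A_mul_10, sl2A_mul_11, sl2A_inv_00,
      sl2A_inv_01, sl2A_inv_10, sl2A_inv_11, x21_00, x21_01, x21_10, x21_11]
    ring
  have hg00 : g₁.1 0 0 = (v : A) ^ 2 * g.1 0 0 := by
    rw [hg₁]
    simp only [sl2A_mul_00, sl2A_mul_01, sl2A_mul_10, sl2A_mul_11, hdiag_00, hdiag_01, hdiag_10,
      hdiag_11]
    ring
  have hg01 : g₁.1 0 1 = g.1 0 1 := by
    rw [hg₁]
    simp only [sl2A_mul_00, sl2A_mul_01, sl2A_mul_10, sl2A_mul_11, hdiag_00, hdiag_01, hdiag_10,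
      hdiag_11]
    linear_combination (g.1 0 1) * hvv
  have hg10 : g₁.1 1 0 = g.1 1 0 := by
    rw [hg₁]
    simp only [sl2A_mul_00, sl2A_mul_01, sl2A_mul_10, sl2A_mul_11, hdiag_00, hdiag_01, hdiag_10,
      hdiag_11]
    linear_combination (g.1 1 0) * hvv
  have hrow0 : P.1 0 0 = g₁.1 0 0 := by
    rw [hP00, hg00, hs₀]
    linear_combination (-(g.1 0 0)) * hbw
  have hrow1 : P.1 0 1 = g₁.1 0 1 := by rw [hP01, hg01]
  have key := eq_x21_mul_of_row_eq P g₁ hrow0 hrow1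
  set y : A := P.1 1 0 * g₁.1 1 1 - P.1 1 1 * g₁.1 1 0 with hy
  have hyP : (m : A) ∣ P.1 1 0 := by
    have e : P.1 1 0 = s₀ * ((g.1 0 0 - 1) * (v : A) ^ 2 + ((v : A) - 1) * ((v : A) + 1)
        - (g.1 1 1 - 1)) + g.1 1 0 := by
      rw [hP10, hs₀]
      linear_combination (-(w₀ * g.1 0 0 * g.1 0 0)) * hbw
    rw [e]
    refine dvd_add (Dvd.dvd.mul_left (dvd_sub (dvd_add ?_ ?_) hd) _) hc
    · exact Dvd.dvd.mul_right ha _
    · exact Dvd.dvd.mul_right hv _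
  have hym : (m : A) ∣ y := by
    rw [hy, hg10]
    exact dvd_sub (Dvd.dvd.mul_right hyP _) (Dvd.dvd.mul_left hc _)
  have e : P * g⁻¹ = x21 y * hdiag v * (g * hdiag v * g⁻¹) := by
    rw [key, hg₁]; group
  rw [e]
  refine Subgroup.mul_mem _ (Subgroup.mul_mem _ (x21_mem_Elev hym) (hdiag_mem_Elev v hv)) ?_
  exact (Elev_normal (A := A) m).conj_mem _ (hdiag_mem_Elev v hv) _

end Fermat.Agent.S41.H2
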