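import Mathlib

/-!
# Package D-WILD (helper57): the wild extension step (T2) of helper2's Theorem T, abstract part

Board post #1456 (T2).  Contents:

* `wildLA`  : the 4-dimensional linear algebra core (basis `F, P = X F, E, z`).
* `wildTL`  : the same statement for a commutative group of exponent `p`, written multiplicatively.
* `WildSetup`, `WildSetup.exists_extension` : abstract group-theoretic version: a group `N1`, a
  hom `π` onto an elementary abelian group, a character `φ` of `ker π` invariant under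
  `N1`-conjugation and under two endomorphisms `X, W` (to be: conjugation by `T` and `S`), plus
  the Weyl / braid relations, yield an `X, W`-invariant extension of `φ` to `N1`.
-/

set_option autoImplicit false

namespace Fermat.Agent.S41.H57

open Module in
/-- Linear algebra core of the wild extension step. -/
theorem wildLA {k M : Type*} [Field k] [AddCommGroup M] [Module k M] (h2 : (2 : k) ≠ 0)
    (F E z : M) (X W : M →ₗ[k] M)
    (hXz : X z = z) (hWz : W z = z) (hXE : X E = E) (hWF : W F = -E) (hWE : W E = -F)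
    (hbraid : X (W (X F)) = F)
    (hXP : ∃ β : k, X (X F) = -F + (2 : k) • X F - (2 : k) • E + β • z)
    (hWP : ∃ ω : k, W (X F) = (2 : k) • F - (2 : k) • E - X F + ω • z)
    (hli : LinearIndependent k ![F, X F, E, z])
    (hsp : ⊤ ≤ Submodule.span k (Set.range ![F, X F, E, z])) :
    ∃ θ : M →ₗ[k] k, θ z = 1 ∧ (∀ v, θ (X v) = θ v) ∧ (∀ v, θ (W v) = θ v) := by
  obtain ⟨β, hβ⟩ := hXP
  obtain ⟨ω, hω⟩ := hWP
  have hz0 : z ≠ 0 := by
    have := hli.ne_zero 3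
    simpa using this
  -- ω = β
  have hωβ : ω = β := by
    have h1 : X (W (X F)) = F + (ω - β) • z := by
      rw [hω]
      simp only [map_sub, map_add, map_smul, hXE, hXz, hβ]
      module
    rw [hbraid] at h1
    have h3 : (ω - β) • z = 0 := by
      have := h1
      have h4 : F + (ω - β) • z = F + 0 := by rw [add_zero]; exact this.symm
      exact add_left_cancel h4
    rcases smul_eq_zero.mp h3 with h | h
    · exact sub_eq_zero.mp h
    · exact absurd h hz0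
  subst hωβ
  let b : Basis (Fin 4) k M := Basis.mk hli hsp
  have hb0 : b 0 = F := by simp [b]
  have hb1 : b 1 = X F := by simp [b]
  have hb2 : b 2 = E := by simp [b]
  have hb3 : b 3 = z := by simp [b]
  let θ : M →ₗ[k] k := b.constr k ![-ω / 2, -ω / 2, ω / 2, 1]
  have hθF : θ F = -ω / 2 := by rw [← hb0]; simp [θ]
  have hθP : θ (X F) = -ω / 2 := by rw [← hb1]; simp [θ]
  have hθE : θ E = ω / 2 := by rw [← hb2]; simp [θ]
  have hθz : θ z = 1 := by rw [← hb3]; simp [θ]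
  refine ⟨θ, hθz, ?_, ?_⟩
  · have : θ ∘ₗ X = θ := by
      apply b.ext
      intro i
      fin_cases i
      · simp only [Fin.zero_eta, LinearMap.comp_apply, hb0, hθP, hθF]
      · simp only [Fin.mk_one, LinearMap.comp_apply, hb1, hβ, map_add, map_sub, map_neg, map_smul,
          hθF, hθP, hθE, hθz, smul_eq_mul]
        field_simp
        ring
      · simp only [Fin.reduceFinMk, LinearMap.comp_apply, hb2, hXE]
      · simp only [Fin.reduceFinMk, LinearMap.comp_apply, hb3, hXz]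
    intro v
    exact LinearMap.congr_fun this v
  · have : θ ∘ₗ W = θ := by
      apply b.ext
      intro i
      fin_cases i
      · simp only [Fin.zero_eta, LinearMap.comp_apply, hb0, hWF, map_neg, hθE, hθF]
        ring
      · simp only [Fin.mk_one, LinearMap.comp_apply, hb1, hω, map_add, map_sub, map_smul,
          hθF, hθP, hθE, hθz, smul_eq_mul]
        field_simp
        ring
      · simp only [Fin.reduceFinMk, LinearMap.comp_apply, hb2, hWE, map_neg, hθF, hθE]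
        ring
      · simp only [Fin.reduceFinMk, LinearMap.comp_apply, hb3, hWz]
    intro v
    exact LinearMap.congr_fun this v

theorem wildTL {Q : Type*} [Group Q] {p : ℕ} [hp : Fact p.Prime] (hp2 : p ≠ 2)
    (hcomm : ∀ x y : Q, x * y = y * x) (hexp : ∀ x : Q, x ^ p = 1)
    (F E z : Q) (X W : Q →* Q)
    (hXz : X z = z) (hWz : W z = z) (hXE : X E = E) (hWF : W F = E⁻¹) (hWE : W E = F⁻¹)
    (hbraid : X (W (X F)) = F)
    (hXP : ∃ j : ℤ, X (X F) = F⁻¹ * (X F) ^ 2 * (E ^ 2)⁻¹ * z ^ j)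
    (hWP : ∃ j : ℤ, W (X F) = F ^ 2 * (E ^ 2)⁻¹ * (X F)⁻¹ * z ^ j)
    (hspan : ∀ x : Q, ∃ a b c d : ℤ, x = F ^ a * (X F) ^ b * E ^ c * z ^ d)
    (hind : ∀ a b c d : ℤ, F ^ a * (X F) ^ b * E ^ c * z ^ d = 1 →
      (p : ℤ) ∣ a ∧ (p : ℤ) ∣ b ∧ (p : ℤ) ∣ c ∧ (p : ℤ) ∣ d) :
    ∃ θ : Q →* Multiplicative (ZMod p), θ z = Multiplicative.ofAdd 1 ∧
      (∀ x, θ (X x) = θ x) ∧ (∀ x, θ (W x) = θ x) := by
  let _i1 : AddCommGroup (Additive Q) :=
    { (inferInstance : AddGroup (Additive Q)) with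
      add_comm := fun a b => congrArg Additive.ofMul (hcomm a.toMul b.toMul) }
  let _i2 : Module (ZMod p) (Additive Q) :=
    AddCommGroup.zmodModule (n := p) (fun x => congrArg Additive.ofMul (hexp x.toMul))
  let Xl : Additive Q →ₗ[ZMod p] Additive Q := (MonoidHom.toAdditive X).toZModLinearMap p
  let Wl : Additive Q →ₗ[ZMod p] Additive Q := (MonoidHom.toAdditive W).toZModLinearMap p
  have hXl : ∀ v : Additive Q, Xl v = Additive.ofMul (X v.toMul) := fun v => rfl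
  have hWl : ∀ v : Additive Q, Wl v = Additive.ofMul (W v.toMul) := fun v => rfl
  have h2 : (2 : ZMod p) ≠ 0 := by
    intro h
    have h3 : ((2 : ℕ) : ZMod p) = 0 := by exact_mod_cast h
    rw [ZMod.natCast_eq_zero_iff] at h3
    have := (Nat.prime_dvd_prime_iff_eq hp.out Nat.prime_two).mp h3
    exact hp2 this
  have hcast : ∀ (j : ℤ) (v : Additive Q), ((j : ZMod p)) • v = Additive.ofMul (v.toMul ^ j) := by
    intro j v
    rw [Int.cast_smul_eq_zsmul]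
    rfl
  have htwo : ∀ (v : Additive Q), (2 : ZMod p) • v = Additive.ofMul (v.toMul ^ 2) := by
    intro v
    rw [two_smul]
    rw [pow_two]
    rfl
  obtain ⟨jX, hjX⟩ := hXP
  obtain ⟨jW, hjW⟩ := hWP
  obtain ⟨θ, hθz, hθX, hθW⟩ := wildLA (k := ZMod p) (M := Additive Q) h2
    (Additive.ofMul F) (Additive.ofMul E) (Additive.ofMul z) Xl Wl
    (by rw [hXl]; exact congrArg Additive.ofMul hXz)
    (by rw [hWl]; exact congrArg Additive.ofMul hWz)
    (by rw [hXl]; exact congrArg Additive.ofMul hXE)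
    (by rw [hWl]; exact congrArg Additive.ofMul hWF)
    (by rw [hWl]; exact congrArg Additive.ofMul hWE)
    (by rw [hXl, hWl, hXl]; exact congrArg Additive.ofMul hbraid)
    ⟨(jX : ZMod p), by
      rw [hXl, hXl, htwo, htwo, hcast]
      simp only [toMul_ofMul]
      rw [hjX]
      simp only [ofMul_mul, ofMul_inv, sub_eq_add_neg]⟩
    ⟨(jW : ZMod p), by
      rw [hWl, hXl, htwo, htwo, hcast]
      simp only [toMul_ofMul]
      rw [hjW]
      simp only [ofMul_mul, ofMul_inv, sub_eq_add_neg]⟩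
    (by
      rw [Fintype.linearIndependent_iff]
      intro g hg
      rw [Fin.sum_univ_four] at hg
      have hval : ∀ i, g i = (((g i).val : ℤ) : ZMod p) := by
        intro i
        simp
      rw [hval 0, hval 1, hval 2, hval 3] at hg
      simp only [Matrix.cons_val_zero, Matrix.cons_val_one, Matrix.cons_val] at hg
      rw [hcast, hcast, hcast, hcast, hXl] at hg
      simp only [toMul_ofMul] at hg
      have h1 := hind _ _ _ _ (congrArg Additive.toMul hg)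
      have hz : ∀ i, (p : ℤ) ∣ ((g i).val : ℤ) → g i = 0 := by
        intro i hi
        rw [hval i]
        exact (ZMod.intCast_zmod_eq_zero_iff_dvd _ p).2 hi
      intro i
      fin_cases i
      · exact hz 0 h1.1
      · exact hz 1 h1.2.1
      · exact hz 2 h1.2.2.1
      · exact hz 3 h1.2.2.2)
    (by
      intro v _
      obtain ⟨a, b, c, d, h⟩ := hspan v.toMul
      have hv : v = (a : ZMod p) • Additive.ofMul F + (b : ZMod p) • Xl (Additive.ofMul F)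
          + (c : ZMod p) • Additive.ofMul E + (d : ZMod p) • Additive.ofMul z := by
        rw [hcast, hcast, hcast, hcast, hXl]
        simp only [toMul_ofMul]
        exact congrArg Additive.ofMul h
      rw [hv]
      have hm : ∀ i, (![Additive.ofMul F, Xl (Additive.ofMul F), Additive.ofMul E,
          Additive.ofMul z]) i ∈ Submodule.span (ZMod p) (Set.range ![Additive.ofMul F,
            Xl (Additive.ofMul F), Additive.ofMul E, Additive.ofMul z]) :=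
        fun i => Submodule.subset_span (Set.mem_range_self i)
      refine Submodule.add_mem _ (Submodule.add_mem _ (Submodule.add_mem _ ?_ ?_) ?_) ?_
      · exact Submodule.smul_mem _ _ (hm 0)
      · exact Submodule.smul_mem _ _ (hm 1)
      · exact Submodule.smul_mem _ _ (hm 2)
      · exact Submodule.smul_mem _ _ (hm 3))
  refine ⟨AddMonoidHom.toMultiplicativeRight θ.toAddMonoidHom, ?_, ?_, ?_⟩
  · show Multiplicative.ofAdd (θ (Additive.ofMul z)) = _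
    rw [hθz]
  · intro x
    show Multiplicative.ofAdd (θ (Additive.ofMul (X x))) = Multiplicative.ofAdd (θ (Additive.ofMul x))
    rw [← hθX (Additive.ofMul x), hXl]
    rfl
  · intro x
    show Multiplicative.ofAdd (θ (Additive.ofMul (W x))) = Multiplicative.ofAdd (θ (Additive.ofMul x))
    rw [← hθW (Additive.ofMul x), hWl]
    rfl

/-- Abstract data for the wild extension step. -/
structure WildSetup (p : ℕ) (N1 A : Type*) [Group N1] [CommGroup A] where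
  π : N1 →* A
  φ : π.ker →* Multiplicative (ZMod p)
  X : N1 →* N1
  W : N1 →* N1
  F : N1
  E : N1
  hA : ∀ a : A, a ^ p = 1
  hXπ : ∀ x, π x = 1 → π (X x) = 1
  hWπ : ∀ x, π x = 1 → π (W x) = 1
  hφc : ∀ (x : N1) (n : π.ker) (h : x * n * x⁻¹ ∈ π.ker), φ ⟨_, h⟩ = φ n
  hφX : ∀ (n : π.ker) (h : X n ∈ π.ker), φ ⟨_, h⟩ = φ n
  hφW : ∀ (n : π.ker) (h : W n ∈ π.ker), φ ⟨_, h⟩ = φ n
  hXE : X E = E
  hWF : W F = E⁻¹
  hWE : W E = F⁻¹
  hbraid : X (W (X F)) = F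
  hXP : π (X (X F)) = π (F⁻¹ * (X F) ^ 2 * (E ^ 2)⁻¹)
  hWP : π (W (X F)) = π (F ^ 2 * (E ^ 2)⁻¹ * (X F)⁻¹)
  hspan : ∀ x, ∃ a b c : ℤ, π x = π (F ^ a * (X F) ^ b * E ^ c)
  hind : ∀ a b c : ℤ, π (F ^ a * (X F) ^ b * E ^ c) = 1 →
    (p : ℤ) ∣ a ∧ (p : ℤ) ∣ b ∧ (p : ℤ) ∣ c

namespace WildSetup

variable {p : ℕ} {N1 A : Type*} [Group N1] [CommGroup A] (D : WildSetup p N1 A)

open Classical in
/-- `φ` extended by zero, additively. -/
noncomputable def ψ (u : N1) : ZMod p :=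
  if h : u ∈ D.π.ker then Multiplicative.toAdd (D.φ ⟨u, h⟩) else 0

lemma ψ_of_mem {u : N1} (h : u ∈ D.π.ker) : D.ψ u = Multiplicative.toAdd (D.φ ⟨u, h⟩) := by
  unfold ψ
  rw [dif_pos h]

lemma ψ_mul {u v : N1} (hu : u ∈ D.π.ker) (hv : v ∈ D.π.ker) : D.ψ (u * v) = D.ψ u + D.ψ v := by
  rw [D.ψ_of_mem hu, D.ψ_of_mem hv, D.ψ_of_mem (mul_mem hu hv)]
  have : (⟨u * v, mul_mem hu hv⟩ : D.π.ker) = ⟨u, hu⟩ * ⟨v, hv⟩ := rfl
  rw [this, map_mul]
  rfl

lemma ψ_one : D.ψ 1 = 0 := by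
  rw [D.ψ_of_mem (one_mem _)]
  have : (⟨1, one_mem _⟩ : D.π.ker) = 1 := rfl
  rw [this, map_one]
  rfl

lemma ψ_inv {u : N1} (hu : u ∈ D.π.ker) : D.ψ u⁻¹ = - D.ψ u := by
  have h := D.ψ_mul hu (inv_mem hu)
  rw [mul_inv_cancel, D.ψ_one] at h
  exact (neg_eq_of_add_eq_zero_right h.symm).symm

lemma ψ_zpow {u : N1} (hu : u ∈ D.π.ker) (j : ℤ) : D.ψ (u ^ j) = (j : ZMod p) * D.ψ u := by
  rw [D.ψ_of_mem hu, D.ψ_of_mem (zpow_mem hu j)]
  have : (⟨u ^ j, zpow_mem hu j⟩ : D.π.ker) = ⟨u, hu⟩ ^ j := rfl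
  rw [this, map_zpow, toAdd_zpow, zsmul_eq_mul]

lemma ψ_pow {u : N1} (hu : u ∈ D.π.ker) (j : ℕ) : D.ψ (u ^ j) = (j : ZMod p) * D.ψ u := by
  have := D.ψ_zpow hu (j : ℤ)
  simpa using this

lemma conj_mem {u : N1} (x : N1) (hu : u ∈ D.π.ker) : x * u * x⁻¹ ∈ D.π.ker :=
  (inferInstance : D.π.ker.Normal).conj_mem u hu x

lemma ψ_conj {u : N1} (x : N1) (hu : u ∈ D.π.ker) : D.ψ (x * u * x⁻¹) = D.ψ u := by
  rw [D.ψ_of_mem hu, D.ψ_of_mem (D.conj_mem x hu)]
  exact congrArg _ (D.hφc x ⟨u, hu⟩ (D.conj_mem x hu))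

lemma X_mem {u : N1} (hu : u ∈ D.π.ker) : D.X u ∈ D.π.ker :=
  MonoidHom.mem_ker.mpr (D.hXπ u (MonoidHom.mem_ker.mp hu))

lemma W_mem {u : N1} (hu : u ∈ D.π.ker) : D.W u ∈ D.π.ker :=
  MonoidHom.mem_ker.mpr (D.hWπ u (MonoidHom.mem_ker.mp hu))

lemma ψ_X {u : N1} (hu : u ∈ D.π.ker) : D.ψ (D.X u) = D.ψ u := by
  rw [D.ψ_of_mem hu, D.ψ_of_mem (D.X_mem hu)]
  exact congrArg _ (D.hφX ⟨u, hu⟩ (D.X_mem hu))

lemma ψ_W {u : N1} (hu : u ∈ D.π.ker) : D.ψ (D.W u) = D.ψ u := by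
  rw [D.ψ_of_mem hu, D.ψ_of_mem (D.W_mem hu)]
  exact congrArg _ (D.hφW ⟨u, hu⟩ (D.W_mem hu))

lemma mem_of_π_eq {x y : N1} (h : D.π x = D.π y) : x⁻¹ * y ∈ D.π.ker := by
  rw [MonoidHom.mem_ker, map_mul, map_inv, h, inv_mul_cancel]

lemma com_mem (x y : N1) : x * y * x⁻¹ * y⁻¹ ∈ D.π.ker := by
  rw [MonoidHom.mem_ker]
  simp only [map_mul, map_inv]
  rw [mul_comm (D.π x) (D.π y), mul_inv_cancel_right, mul_inv_cancel]

/-- The commutator pairing. -/
noncomputable def c (x y : N1) : ZMod p := D.ψ (x * y * x⁻¹ * y⁻¹)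

lemma c_mul_left (x x' y : N1) : D.c (x * x') y = D.c x' y + D.c x y := by
  unfold c
  have : x * x' * y * (x * x')⁻¹ * y⁻¹ =
      (x * (x' * y * x'⁻¹ * y⁻¹) * x⁻¹) * (x * y * x⁻¹ * y⁻¹) := by group
  rw [this, D.ψ_mul (D.conj_mem x (D.com_mem x' y)) (D.com_mem x y),
    D.ψ_conj x (D.com_mem x' y)]

lemma c_mul_right (x y y' : N1) : D.c x (y * y') = D.c x y + D.c x y' := by
  unfold c
  have : x * (y * y') * x⁻¹ * (y * y')⁻¹ =
      (x * y * x⁻¹ * y⁻¹) * (y * (x * y' * x⁻¹ * y'⁻¹) * y⁻¹) := by group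
  rw [this, D.ψ_mul (D.com_mem x y) (D.conj_mem y (D.com_mem x y')),
    D.ψ_conj y (D.com_mem x y')]

lemma c_ker_left {x : N1} (y : N1) (hx : x ∈ D.π.ker) : D.c x y = 0 := by
  unfold c
  have : x * y * x⁻¹ * y⁻¹ = x * (y * x⁻¹ * y⁻¹) := by group
  rw [this, D.ψ_mul hx (D.conj_mem y (inv_mem hx)), D.ψ_conj y (inv_mem hx), D.ψ_inv hx]
  ring

lemma c_ker_right (x : N1) {y : N1} (hy : y ∈ D.π.ker) : D.c x y = 0 := by
  unfold c
  have : x * y * x⁻¹ * y⁻¹ = (x * y * x⁻¹) * y⁻¹ := by group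
  rw [this, D.ψ_mul (D.conj_mem x hy) (inv_mem hy), D.ψ_conj x hy, D.ψ_inv hy]
  ring

lemma c_self (x : N1) : D.c x x = 0 := by
  unfold c
  have : x * x * x⁻¹ * x⁻¹ = 1 := by group
  rw [this, D.ψ_one]

lemma c_antisymm (x y : N1) : D.c y x = - D.c x y := by
  unfold c
  have : y * x * y⁻¹ * x⁻¹ = (x * y * x⁻¹ * y⁻¹)⁻¹ := by group
  rw [this, D.ψ_inv (D.com_mem x y)]

lemma c_X (x y : N1) : D.c (D.X x) (D.X y) = D.c x y := by
  unfold c
  have : D.X x * D.X y * (D.X x)⁻¹ * (D.X y)⁻¹ = D.X (x * y * x⁻¹ * y⁻¹) := by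
    simp only [map_mul, map_inv]
  rw [this, D.ψ_X (D.com_mem x y)]

lemma c_W (x y : N1) : D.c (D.W x) (D.W y) = D.c x y := by
  unfold c
  have : D.W x * D.W y * (D.W x)⁻¹ * (D.W y)⁻¹ = D.W (x * y * x⁻¹ * y⁻¹) := by
    simp only [map_mul, map_inv]
  rw [this, D.ψ_W (D.com_mem x y)]

/-- `c` as a hom in the first variable. -/
noncomputable def cL (y : N1) : N1 →* Multiplicative (ZMod p) where
  toFun x := Multiplicative.ofAdd (D.c x y)
  map_one' := by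
    rw [D.c_ker_left y (one_mem _)]
    rfl
  map_mul' x x' := by
    rw [D.c_mul_left, add_comm]
    rfl

/-- `c` as a hom in the second variable. -/
noncomputable def cR (x : N1) : N1 →* Multiplicative (ZMod p) where
  toFun y := Multiplicative.ofAdd (D.c x y)
  map_one' := by
    rw [D.c_ker_right x (one_mem _)]
    rfl
  map_mul' y y' := by
    rw [D.c_mul_right]
    rfl

lemma cL_apply (x y : N1) : D.cL y x = Multiplicative.ofAdd (D.c x y) := rfl
lemma cR_apply (x y : N1) : D.cR x y = Multiplicative.ofAdd (D.c x y) := rfl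

lemma c_congr_left {x x' : N1} (y : N1) (h : D.π x = D.π x') : D.c x y = D.c x' y := by
  have h1 : x' = x * (x⁻¹ * x') := by group
  rw [h1, D.c_mul_left, D.c_ker_left y (D.mem_of_π_eq h), zero_add]

lemma c_congr_right (x : N1) {y y' : N1} (h : D.π y = D.π y') : D.c x y = D.c x y' := by
  have h1 : y' = y * (y⁻¹ * y') := by group
  rw [h1, D.c_mul_right, D.c_ker_right x (D.mem_of_π_eq h), add_zero]


lemma c_zpow_right (x y : N1) (j : ℤ) : D.c x (y ^ j) = (j : ZMod p) * D.c x y := by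
  have h := congrArg Multiplicative.toAdd (map_zpow (D.cR x) y j)
  rw [cR_apply, cR_apply, toAdd_zpow, toAdd_ofAdd, toAdd_ofAdd, zsmul_eq_mul] at h
  exact h

lemma c_zpow_left (x y : N1) (j : ℤ) : D.c (x ^ j) y = (j : ZMod p) * D.c x y := by
  have h := congrArg Multiplicative.toAdd (map_zpow (D.cL y) x j)
  rw [cL_apply, cL_apply, toAdd_zpow, toAdd_ofAdd, toAdd_ofAdd, zsmul_eq_mul] at h
  exact h

lemma c_pow_right (x y : N1) (j : ℕ) : D.c x (y ^ j) = (j : ZMod p) * D.c x y := by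
  have := D.c_zpow_right x y (j : ℤ)
  simpa using this

lemma c_pow_left (x y : N1) (j : ℕ) : D.c (x ^ j) y = (j : ZMod p) * D.c x y := by
  have := D.c_zpow_left x y (j : ℤ)
  simpa using this

lemma c_inv_right (x y : N1) : D.c x y⁻¹ = - D.c x y := by
  have := D.c_zpow_right x y (-1)
  simpa using this

lemma c_inv_left (x y : N1) : D.c x⁻¹ y = - D.c x y := by
  have := D.c_zpow_left x y (-1)
  simpa using this


lemma two_ne_zero_zmod {p : ℕ} [Fact p.Prime] (hp2 : p ≠ 2) : (2 : ZMod p) ≠ 0 := by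
  intro h
  have h3 : ((2 : ℕ) : ZMod p) = 0 := by exact_mod_cast h
  rw [ZMod.natCast_eq_zero_iff] at h3
  have := (Nat.prime_dvd_prime_iff_eq (Fact.out : p.Prime) Nat.prime_two).mp h3
  exact hp2 this

lemma c_gens [Fact p.Prime] (hp2 : p ≠ 2) :
    D.c D.F (D.X D.F) = 0 ∧ D.c D.F D.E = 0 ∧ D.c (D.X D.F) D.E = 0 := by
  have h2 := two_ne_zero_zmod (p := p) hp2
  have r1 : D.c (D.X D.F) D.E = D.c D.F D.E := by
    have := D.c_X D.F D.E
    rwa [D.hXE] at this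
  have r2 : D.c (D.X D.F) (D.X (D.X D.F)) = D.c D.F (D.X D.F) := D.c_X D.F (D.X D.F)
  rw [D.c_congr_right _ D.hXP] at r2
  simp only [c_mul_right, c_inv_right, c_pow_right, c_self] at r2
  rw [D.c_antisymm D.F (D.X D.F)] at r2
  have r3 : D.c (D.W (D.X D.F)) (D.W D.E) = D.c (D.X D.F) D.E := D.c_W (D.X D.F) D.E
  rw [D.hWE, D.c_congr_left _ D.hWP] at r3
  simp only [c_mul_left, c_inv_left, c_inv_right, c_pow_left, c_self] at r3
  rw [D.c_antisymm D.F D.E, D.c_antisymm D.F (D.X D.F)] at r3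
  have e1 : D.c (D.X D.F) D.E = 0 := by
    have : (2 : ZMod p) * D.c (D.X D.F) D.E = 0 := by
      push_cast at r2
      linear_combination -r2
    rcases mul_eq_zero.mp this with h | h
    · exact absurd h h2
    · exact h
  have e2 : D.c D.F D.E = 0 := by rw [← r1, e1]
  have e3 : D.c D.F (D.X D.F) = 0 := by
    rw [e1, e2] at r3
    push_cast at r3
    linear_combination -r3
  exact ⟨e3, e2, e1⟩

lemma c_zero [Fact p.Prime] (hp2 : p ≠ 2) (x y : N1) : D.c x y = 0 := by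
  obtain ⟨e3, e2, e1⟩ := D.c_gens hp2
  obtain ⟨a, b, c, hx⟩ := D.hspan x
  obtain ⟨a', b', c', hy⟩ := D.hspan y
  rw [D.c_congr_left y hx, D.c_congr_right _ hy]
  have e3' := D.c_antisymm D.F (D.X D.F)
  have e2' := D.c_antisymm D.F D.E
  have e1' := D.c_antisymm (D.X D.F) D.E
  rw [e3] at e3'
  rw [e2] at e2'
  rw [e1] at e1'
  simp only [c_mul_left, c_mul_right, c_zpow_left, c_zpow_right, c_self, e1, e2, e3, e1', e2', e3']
  ring


/-- The subgroup `ker φ`, as a subgroup of `N1`. -/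
def L : Subgroup N1 := D.φ.ker.map D.π.ker.subtype

lemma mem_L {u : N1} : u ∈ D.L ↔ u ∈ D.π.ker ∧ D.ψ u = 0 := by
  unfold L
  constructor
  · rintro ⟨n, hn, rfl⟩
    refine ⟨n.2, ?_⟩
    have h1 : D.φ n = 1 := hn
    have h2 : D.ψ (D.π.ker.subtype n) = Multiplicative.toAdd (D.φ ⟨n.1, n.2⟩) := D.ψ_of_mem n.2
    rw [h2]
    have h3 : (⟨n.1, n.2⟩ : D.π.ker) = n := rfl
    rw [h3, h1]
    rfl
  · rintro ⟨hu, h0⟩
    refine ⟨⟨u, hu⟩, ?_, rfl⟩
    rw [D.ψ_of_mem hu] at h0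
    show D.φ ⟨u, hu⟩ = 1
    exact Multiplicative.toAdd.injective h0

instance L_normal : D.L.Normal := ⟨fun u hu x => by
  rw [mem_L] at *
  exact ⟨D.conj_mem x hu.1, by rw [D.ψ_conj x hu.1]; exact hu.2⟩⟩

lemma mkQ_eq {x y : N1} :
    (QuotientGroup.mk x : N1 ⧸ D.L) = QuotientGroup.mk y ↔ x⁻¹ * y ∈ D.L := QuotientGroup.eq

lemma Q_comm [Fact p.Prime] (hp2 : p ≠ 2) (a b : N1 ⧸ D.L) : a * b = b * a := by
  induction a using QuotientGroup.induction_on with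
  | H x =>
  induction b using QuotientGroup.induction_on with
  | H y =>
  rw [← QuotientGroup.mk_mul, ← QuotientGroup.mk_mul, D.mkQ_eq, mem_L]
  have h : (x * y)⁻¹ * (y * x) = y⁻¹ * x⁻¹ * y⁻¹⁻¹ * x⁻¹⁻¹ := by group
  rw [h]
  exact ⟨D.com_mem _ _, D.c_zero hp2 y⁻¹ x⁻¹⟩

lemma pow_mem (x : N1) : x ^ p ∈ D.π.ker := by
  rw [MonoidHom.mem_ker, map_pow, D.hA]

/-- The `p`-th power functional. -/
noncomputable def f (x : N1) : ZMod p := D.ψ (x ^ p)

lemma f_mul [Fact p.Prime] (hp2 : p ≠ 2) (x y : N1) : D.f (x * y) = D.f x + D.f y := by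
  have h : (QuotientGroup.mk ((x * y) ^ p) : N1 ⧸ D.L) = QuotientGroup.mk (x ^ p * y ^ p) := by
    rw [QuotientGroup.mk_pow, QuotientGroup.mk_mul, QuotientGroup.mk_mul, QuotientGroup.mk_pow,
      QuotientGroup.mk_pow]
    exact (show Commute _ _ from D.Q_comm hp2 _ _).mul_pow p
  rw [D.mkQ_eq, mem_L] at h
  have h2 := h.2
  rw [D.ψ_mul (inv_mem (D.pow_mem _)) (mul_mem (D.pow_mem x) (D.pow_mem y)),
    D.ψ_inv (D.pow_mem _), D.ψ_mul (D.pow_mem x) (D.pow_mem y)] at h2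
  unfold f
  linear_combination -h2

lemma f_ker {x : N1} (hx : x ∈ D.π.ker) : D.f x = 0 := by
  unfold f
  rw [D.ψ_pow hx p, ZMod.natCast_self, zero_mul]

lemma f_X (x : N1) : D.f (D.X x) = D.f x := by
  unfold f
  rw [← map_pow, D.ψ_X (D.pow_mem x)]

lemma f_W (x : N1) : D.f (D.W x) = D.f x := by
  unfold f
  rw [← map_pow, D.ψ_W (D.pow_mem x)]

/-- `f` as a hom. -/
noncomputable def fHom [Fact p.Prime] (hp2 : p ≠ 2) : N1 →* Multiplicative (ZMod p) where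
  toFun x := Multiplicative.ofAdd (D.f x)
  map_one' := by
    rw [D.f_ker (one_mem _)]
    rfl
  map_mul' x y := by
    rw [D.f_mul hp2]
    rfl

lemma fHom_apply [Fact p.Prime] (hp2 : p ≠ 2) (x : N1) : D.fHom hp2 x = Multiplicative.ofAdd (D.f x) := rfl

lemma f_zpow [Fact p.Prime] (hp2 : p ≠ 2) (x : N1) (j : ℤ) : D.f (x ^ j) = (j : ZMod p) * D.f x := by
  have h := congrArg Multiplicative.toAdd (map_zpow (D.fHom hp2) x j)
  rw [fHom_apply, fHom_apply, toAdd_zpow, toAdd_ofAdd, toAdd_ofAdd, zsmul_eq_mul] at h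
  exact h

lemma f_pow [Fact p.Prime] (hp2 : p ≠ 2) (x : N1) (j : ℕ) : D.f (x ^ j) = (j : ZMod p) * D.f x := by
  have := D.f_zpow hp2 x (j : ℤ)
  simpa using this

lemma f_inv [Fact p.Prime] (hp2 : p ≠ 2) (x : N1) : D.f x⁻¹ = - D.f x := by
  have := D.f_zpow hp2 x (-1)
  simpa using this

lemma f_congr [Fact p.Prime] (hp2 : p ≠ 2) {x x' : N1} (h : D.π x = D.π x') : D.f x = D.f x' := by
  have h1 : x' = x * (x⁻¹ * x') := by group
  rw [h1, D.f_mul hp2, D.f_ker (D.mem_of_π_eq h), add_zero]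

lemma f_gens [Fact p.Prime] (hp2 : p ≠ 2) : D.f D.F = 0 ∧ D.f (D.X D.F) = 0 ∧ D.f D.E = 0 := by
  have h2 := two_ne_zero_zmod (p := p) hp2
  have r1 : D.f (D.X D.F) = D.f D.F := D.f_X D.F
  have r2 : D.f D.E = - D.f D.F := by
    have := D.f_W D.F
    rw [D.hWF, D.f_inv hp2] at this
    linear_combination -this
  have r3 : D.f (D.X (D.X D.F)) = D.f (D.X D.F) := D.f_X _
  rw [D.f_congr hp2 D.hXP] at r3
  simp only [D.f_mul hp2, D.f_inv hp2, D.f_pow hp2, r1, r2] at r3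
  have e : D.f D.F = 0 := by
    have : (2 : ZMod p) * D.f D.F = 0 := by
      push_cast at r3
      linear_combination r3
    rcases mul_eq_zero.mp this with h | h
    · exact absurd h h2
    · exact h
  exact ⟨e, by rw [r1, e], by rw [r2, e, neg_zero]⟩

lemma f_zero [Fact p.Prime] (hp2 : p ≠ 2) (x : N1) : D.f x = 0 := by
  obtain ⟨e1, e2, e3⟩ := D.f_gens hp2
  obtain ⟨a, b, c, hx⟩ := D.hspan x
  rw [D.f_congr hp2 hx]
  simp only [D.f_mul hp2, D.f_zpow hp2, e1, e2, e3]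
  ring

lemma Q_exp [Fact p.Prime] (hp2 : p ≠ 2) (a : N1 ⧸ D.L) : a ^ p = 1 := by
  induction a using QuotientGroup.induction_on with
  | H x =>
  rw [← QuotientGroup.mk_pow, QuotientGroup.eq_one_iff, mem_L]
  exact ⟨D.pow_mem x, D.f_zero hp2 x⟩


lemma L_le_comap_X : D.L ≤ D.L.comap D.X := by
  intro u hu
  rw [Subgroup.mem_comap, mem_L]
  rw [mem_L] at hu
  exact ⟨D.X_mem hu.1, by rw [D.ψ_X hu.1]; exact hu.2⟩

lemma L_le_comap_W : D.L ≤ D.L.comap D.W := by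
  intro u hu
  rw [Subgroup.mem_comap, mem_L]
  rw [mem_L] at hu
  exact ⟨D.W_mem hu.1, by rw [D.ψ_W hu.1]; exact hu.2⟩

/-- `X` on the quotient. -/
def Xq : N1 ⧸ D.L →* N1 ⧸ D.L := QuotientGroup.map D.L D.L D.X D.L_le_comap_X

/-- `W` on the quotient. -/
def Wq : N1 ⧸ D.L →* N1 ⧸ D.L := QuotientGroup.map D.L D.L D.W D.L_le_comap_W

lemma Xq_mk (x : N1) : D.Xq (QuotientGroup.mk x) = QuotientGroup.mk (D.X x) := rfl

lemma Wq_mk (x : N1) : D.Wq (QuotientGroup.mk x) = QuotientGroup.mk (D.W x) := rfl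

lemma mk_ker [Fact p.Prime] {ζ : N1} (hζ : ζ ∈ D.π.ker) (hψζ : D.ψ ζ = 1) {u : N1}
    (hu : u ∈ D.π.ker) (j : ℤ) (hj : (j : ZMod p) = D.ψ u) :
    (QuotientGroup.mk u : N1 ⧸ D.L) = (QuotientGroup.mk ζ) ^ j := by
  rw [← QuotientGroup.mk_zpow, eq_comm, D.mkQ_eq, mem_L]
  refine ⟨mul_mem (inv_mem (zpow_mem hζ j)) hu, ?_⟩
  rw [D.ψ_mul (inv_mem (zpow_mem hζ j)) hu, D.ψ_inv (zpow_mem hζ j), D.ψ_zpow hζ, hψζ, hj]
  ring

lemma mk_of_π_eq [Fact p.Prime] {ζ : N1} (hζ : ζ ∈ D.π.ker) (hψζ : D.ψ ζ = 1) {x y : N1}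
    (h : D.π x = D.π y) :
    ∃ j : ℤ, (QuotientGroup.mk x : N1 ⧸ D.L) = QuotientGroup.mk y * (QuotientGroup.mk ζ) ^ j := by
  have hu : y⁻¹ * x ∈ D.π.ker := D.mem_of_π_eq h.symm
  refine ⟨((D.ψ (y⁻¹ * x)).val : ℤ), ?_⟩
  rw [← D.mk_ker hζ hψζ hu _ (by simp), ← QuotientGroup.mk_mul]
  congr 1
  group

lemma zpow_eq_one_of_dvd {Q : Type*} [Group Q] {q : Q} (h : q ^ p = 1) {a : ℤ}
    (ha : (p : ℤ) ∣ a) : q ^ a = 1 := by
  obtain ⟨k, rfl⟩ := ha
  rw [zpow_mul, zpow_natCast, h, one_zpow]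

theorem exists_extension [Fact p.Prime] (hp2 : p ≠ 2)
    (hsurj : ∃ ζ : D.π.ker, D.φ ζ = Multiplicative.ofAdd 1) :
    ∃ θ : N1 →* Multiplicative (ZMod p), (∀ n : D.π.ker, θ n = D.φ n) ∧
      (∀ x, θ (D.X x) = θ x) ∧ (∀ x, θ (D.W x) = θ x) := by
  obtain ⟨⟨ζ, hζ⟩, hφζ⟩ := hsurj
  have hψζ : D.ψ ζ = 1 := by
    rw [D.ψ_of_mem hζ, hφζ]
    rfl
  have hπζ : D.π ζ = 1 := MonoidHom.mem_ker.mp hζ
  have hXz : D.Xq (QuotientGroup.mk ζ) = QuotientGroup.mk ζ := by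
    rw [Xq_mk, eq_comm, D.mkQ_eq, mem_L]
    refine ⟨mul_mem (inv_mem hζ) (D.X_mem hζ), ?_⟩
    rw [D.ψ_mul (inv_mem hζ) (D.X_mem hζ), D.ψ_inv hζ, D.ψ_X hζ]
    ring
  have hWz : D.Wq (QuotientGroup.mk ζ) = QuotientGroup.mk ζ := by
    rw [Wq_mk, eq_comm, D.mkQ_eq, mem_L]
    refine ⟨mul_mem (inv_mem hζ) (D.W_mem hζ), ?_⟩
    rw [D.ψ_mul (inv_mem hζ) (D.W_mem hζ), D.ψ_inv hζ, D.ψ_W hζ]
    ring
  obtain ⟨jX, hjX⟩ := D.mk_of_π_eq hζ hψζ D.hXP
  obtain ⟨jW, hjW⟩ := D.mk_of_π_eq hζ hψζ D.hWP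
  obtain ⟨θ, hθz, hθX, hθW⟩ := wildTL hp2 (D.Q_comm hp2) (D.Q_exp hp2)
    (QuotientGroup.mk D.F) (QuotientGroup.mk D.E) (QuotientGroup.mk ζ) D.Xq D.Wq hXz hWz
    (by rw [Xq_mk, D.hXE])
    (by rw [Wq_mk, D.hWF]; rfl)
    (by rw [Wq_mk, D.hWE]; rfl)
    (by rw [Xq_mk, Wq_mk, Xq_mk, D.hbraid])
    ⟨jX, by rw [Xq_mk, Xq_mk, hjX]; rfl⟩
    ⟨jW, by rw [Xq_mk, Wq_mk, hjW]; rfl⟩
    (by
      intro q
      induction q using QuotientGroup.induction_on with
      | H x =>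
      obtain ⟨a, b, c, hx⟩ := D.hspan x
      obtain ⟨j, hj⟩ := D.mk_of_π_eq hζ hψζ hx
      exact ⟨a, b, c, j, by rw [hj]; rfl⟩)
    (by
      intro a b c d h
      have h' : (QuotientGroup.mk (D.F ^ a * (D.X D.F) ^ b * D.E ^ c * ζ ^ d) : N1 ⧸ D.L) = 1 := h
      rw [QuotientGroup.eq_one_iff, mem_L] at h'
      have h1 : D.π (D.F ^ a * (D.X D.F) ^ b * D.E ^ c) = 1 := by
        have := MonoidHom.mem_ker.mp h'.1
        rw [map_mul, map_zpow _ ζ, hπζ, one_zpow, mul_one] at this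
        exact this
      obtain ⟨ha, hb, hc⟩ := D.hind a b c h1
      refine ⟨ha, hb, hc, ?_⟩
      rw [zpow_eq_one_of_dvd (D.Q_exp hp2 _) ha, zpow_eq_one_of_dvd (D.Q_exp hp2 _) hb,
        zpow_eq_one_of_dvd (D.Q_exp hp2 _) hc, one_mul, one_mul, one_mul,
        ← QuotientGroup.mk_zpow, QuotientGroup.eq_one_iff, mem_L, D.ψ_zpow hζ, hψζ, mul_one] at h
      exact (ZMod.intCast_zmod_eq_zero_iff_dvd _ p).1 h.2)
  refine ⟨θ.comp (QuotientGroup.mk' D.L), ?_, ?_, ?_⟩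
  · intro n
    have h1 := D.mk_ker hζ hψζ n.2 ((D.ψ n.1).val : ℤ) (by simp)
    show θ (QuotientGroup.mk n.1) = D.φ n
    rw [h1, map_zpow, hθz, ← ofAdd_zsmul, D.ψ_of_mem n.2]
    simp
  · intro x
    show θ (QuotientGroup.mk (D.X x)) = θ (QuotientGroup.mk x)
    rw [← Xq_mk, hθX]
  · intro x
    show θ (QuotientGroup.mk (D.W x)) = θ (QuotientGroup.mk x)
    rw [← Wq_mk, hθW]

end WildSetup

end Fermat.Agent.S41.H57
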