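import Mathlib
import Fermat.Agent.S41.H2_CSPDefs
import Fermat.Agent.S41.H57_CSP_WildAbstract

/-!
# Package D-WILD (helper57): the wild extension step (T2) of helper2's Theorem T

Board post #1456 (T2).  For an odd prime `p`, `0 < m₁`, `p ∣ m₁`: every `SL(2, ℤ)`-invariant
character `φ : Γ(p m₁) → 𝔽_p` extends to an `SL(2, ℤ)`-invariant character of `Γ(m₁)`:

  `wild_extension : p.Prime → p ≠ 2 → 0 < m₁ → p ∣ m₁ → H2.ExtensionStep p p m₁`.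

The abstract group theory / linear algebra is in `H57_CSP_WildAbstract`; this file provides the
coordinate hom `Γ(τ) → M₂(𝔽_p)`, `γ ↦ (γ - 1)/τ mod p`, the explicit elements
`E = x₁₂(τ)`, `F = x₂₁(τ)`, `P = T F T⁻¹`, the Weyl / braid relations with `S, T`, and the glue.
-/

set_option autoImplicit false

open Matrix CongruenceSubgroup ModularGroup
open scoped MatrixGroups

namespace Fermat.Agent.S41.H57

/-- `(γ - 1) / τ`, entrywise. -/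
def Xm (τ : ℕ) (γ : SL(2, ℤ)) : Matrix (Fin 2) (Fin 2) ℤ :=
  Matrix.of fun i j =>
    ((γ : Matrix (Fin 2) (Fin 2) ℤ) i j - (1 : Matrix (Fin 2) (Fin 2) ℤ) i j) / (τ : ℤ)

lemma Xm_eq_of {τ : ℕ} (hτ : τ ≠ 0) {γ : SL(2, ℤ)} {Y : Matrix (Fin 2) (Fin 2) ℤ}
    (h : (γ : Matrix (Fin 2) (Fin 2) ℤ) = 1 + (τ : ℤ) • Y) : Xm τ γ = Y := by
  ext i j
  simp only [Xm, Matrix.of_apply, h, Matrix.add_apply, Matrix.smul_apply, smul_eq_mul,
    add_sub_cancel_left]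
  exact Int.mul_ediv_cancel_left _ (by exact_mod_cast hτ)

lemma Gamma_mem_iff_dvd (N : ℕ) (γ : SL(2, ℤ)) :
    γ ∈ Gamma N ↔ ∀ i j, (N : ℤ) ∣
      ((γ : Matrix (Fin 2) (Fin 2) ℤ) i j - (1 : Matrix (Fin 2) (Fin 2) ℤ) i j) := by
  rw [Gamma_mem]
  have key : ∀ (x c : ℤ), ((x : ZMod N) = (c : ZMod N)) ↔ (N : ℤ) ∣ (x - c) := by
    intro x c
    rw [← ZMod.intCast_zmod_eq_zero_iff_dvd]
    push_cast
    rw [sub_eq_zero]
  constructor
  · rintro ⟨h00, h01, h10, h11⟩ i j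
    fin_cases i <;> fin_cases j
    · exact (key _ 1).1 (by simpa using h00)
    · exact (key _ 0).1 (by simpa using h01)
    · exact (key _ 0).1 (by simpa using h10)
    · exact (key _ 1).1 (by simpa using h11)
  · intro h
    refine ⟨?_, ?_, ?_, ?_⟩
    · simpa using (key _ 1).2 (h 0 0)
    · simpa using (key _ 0).2 (h 0 1)
    · simpa using (key _ 0).2 (h 1 0)
    · simpa using (key _ 1).2 (h 1 1)

lemma Xm_spec {τ : ℕ} {γ : SL(2, ℤ)} (hγ : γ ∈ Gamma τ) :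
    (γ : Matrix (Fin 2) (Fin 2) ℤ) = 1 + (τ : ℤ) • Xm τ γ := by
  rw [Gamma_mem_iff_dvd] at hγ
  ext i j
  simp only [Xm, Matrix.of_apply, Matrix.add_apply, Matrix.smul_apply, smul_eq_mul]
  rw [Int.mul_ediv_cancel' (hγ i j)]
  ring

lemma Xm_one {τ : ℕ} (hτ : τ ≠ 0) : Xm τ 1 = 0 :=
  Xm_eq_of hτ (by simp)

lemma Xm_mul {τ : ℕ} (hτ : τ ≠ 0) {γ γ' : SL(2, ℤ)} (hγ : γ ∈ Gamma τ) (hγ' : γ' ∈ Gamma τ) :
    Xm τ (γ * γ') = Xm τ γ + Xm τ γ' + (τ : ℤ) • (Xm τ γ * Xm τ γ') := by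
  apply Xm_eq_of hτ
  rw [Matrix.SpecialLinearGroup.coe_mul]
  conv_lhs => rw [Xm_spec hγ, Xm_spec hγ']
  simp only [add_mul, mul_add, one_mul, mul_one, Matrix.smul_mul, Matrix.mul_smul, smul_add,
    smul_smul]
  abel

lemma Xm_conj {τ : ℕ} (hτ : τ ≠ 0) (g : SL(2, ℤ)) {γ : SL(2, ℤ)} (hγ : γ ∈ Gamma τ) :
    Xm τ (g * γ * g⁻¹) = (g : Matrix (Fin 2) (Fin 2) ℤ) * Xm τ γ *
      ((g⁻¹ : SL(2, ℤ)) : Matrix (Fin 2) (Fin 2) ℤ) := by
  apply Xm_eq_of hτ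
  rw [Matrix.SpecialLinearGroup.coe_mul, Matrix.SpecialLinearGroup.coe_mul]
  conv_lhs => rw [Xm_spec hγ]
  have h1 : (g : Matrix (Fin 2) (Fin 2) ℤ) * ((g⁻¹ : SL(2, ℤ)) : Matrix (Fin 2) (Fin 2) ℤ) = 1 := by
    rw [← Matrix.SpecialLinearGroup.coe_mul, mul_inv_cancel, Matrix.SpecialLinearGroup.coe_one]
  simp only [add_mul, mul_add, mul_one, Matrix.smul_mul, Matrix.mul_smul, h1]

/-- The coordinate hom `Γ(τ) → M₂(𝔽_p)`, `γ ↦ (γ - 1)/τ mod p`. -/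
noncomputable def piHom (p τ : ℕ) (hτ : τ ≠ 0) (hpτ : p ∣ τ) :
    ↥(Gamma τ) →* Multiplicative (Matrix (Fin 2) (Fin 2) (ZMod p)) where
  toFun γ := Multiplicative.ofAdd ((Int.castRingHom (ZMod p)).mapMatrix (Xm τ γ.1))
  map_one' := by
    show Multiplicative.ofAdd ((Int.castRingHom (ZMod p)).mapMatrix (Xm τ 1)) = 1
    rw [Xm_one hτ, map_zero]
    rfl
  map_mul' γ γ' := by
    have h0 : ((τ : ℤ) : ZMod p) = 0 := by
      rw [Int.cast_natCast, ZMod.natCast_eq_zero_iff]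
      exact hpτ
    have key : (Int.castRingHom (ZMod p)).mapMatrix (Xm τ (γ.1 * γ'.1)) =
        (Int.castRingHom (ZMod p)).mapMatrix (Xm τ γ.1) +
          (Int.castRingHom (ZMod p)).mapMatrix (Xm τ γ'.1) := by
      rw [Xm_mul hτ γ.2 γ'.2, map_add, map_add, map_zsmul, ← Int.cast_smul_eq_zsmul (ZMod p), h0,
        zero_smul, add_zero]
    show Multiplicative.ofAdd ((Int.castRingHom (ZMod p)).mapMatrix (Xm τ (γ.1 * γ'.1))) = _
    rw [key]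
    rfl

lemma piHom_apply (p τ : ℕ) (hτ : τ ≠ 0) (hpτ : p ∣ τ) (γ : ↥(Gamma τ)) :
    piHom p τ hτ hpτ γ =
      Multiplicative.ofAdd ((Int.castRingHom (ZMod p)).mapMatrix (Xm τ γ.1)) := rfl

lemma piHom_eq_one_iff (p τ : ℕ) (hτ : τ ≠ 0) (hpτ : p ∣ τ) (γ : ↥(Gamma τ)) :
    piHom p τ hτ hpτ γ = 1 ↔ (γ : SL(2, ℤ)) ∈ Gamma (p * τ) := by
  rw [piHom_apply, Gamma_mem_iff_dvd]
  have hspec := Xm_spec γ.2
  have hτ' : (τ : ℤ) ≠ 0 := by exact_mod_cast hτ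
  constructor
  · intro h i j
    have h1 : (Int.castRingHom (ZMod p)).mapMatrix (Xm τ γ.1) = 0 := h
    have h2 : ((Xm τ γ.1 i j : ℤ) : ZMod p) = 0 := by
      have := congrFun (congrFun h1 i) j
      simpa using this
    rw [ZMod.intCast_zmod_eq_zero_iff_dvd] at h2
    rw [hspec]
    simp only [Matrix.add_apply, Matrix.smul_apply, smul_eq_mul, add_sub_cancel_left]
    push_cast
    rw [mul_comm (p : ℤ)]
    exact mul_dvd_mul_left _ h2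
  · intro h
    show Multiplicative.ofAdd _ = Multiplicative.ofAdd 0
    congr 1
    ext i j
    have h1 := h i j
    rw [hspec] at h1
    simp only [Matrix.add_apply, Matrix.smul_apply, smul_eq_mul, add_sub_cancel_left] at h1
    push_cast at h1
    rw [mul_comm (p : ℤ)] at h1
    have h2 : (p : ℤ) ∣ Xm τ γ.1 i j := (mul_dvd_mul_iff_left hτ').1 h1
    simp only [RingHom.mapMatrix_apply, Matrix.map_apply, Matrix.zero_apply, eq_intCast]
    exact (ZMod.intCast_zmod_eq_zero_iff_dvd _ p).2 h2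


/-- Conjugation by `g` on `Γ(τ)`. -/
def conjHom (τ : ℕ) (g : SL(2, ℤ)) : ↥(Gamma τ) →* ↥(Gamma τ) where
  toFun x := ⟨g * x * g⁻¹, (Gamma_normal τ).conj_mem x x.2 g⟩
  map_one' := by
    apply Subtype.ext
    show g * 1 * g⁻¹ = 1
    group
  map_mul' x y := by
    apply Subtype.ext
    show g * (x.1 * y.1) * g⁻¹ = (g * x.1 * g⁻¹) * (g * y.1 * g⁻¹)
    group

lemma conjHom_coe (τ : ℕ) (g : SL(2, ℤ)) (x : ↥(Gamma τ)) :
    ((conjHom τ g x : ↥(Gamma τ)) : SL(2, ℤ)) = g * x * g⁻¹ := rfl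

/-- `x12(τ)`. -/
def Emat (τ : ℕ) : SL(2, ℤ) := ⟨!![1, (τ : ℤ); 0, 1], by simp [Matrix.det_fin_two_of]⟩

/-- `x21(τ)`. -/
def Fmat (τ : ℕ) : SL(2, ℤ) := ⟨!![1, 0; (τ : ℤ), 1], by simp [Matrix.det_fin_two_of]⟩

lemma Emat_coe (τ : ℕ) : ((Emat τ : SL(2, ℤ)) : Matrix (Fin 2) (Fin 2) ℤ) = !![1, (τ : ℤ); 0, 1] := rfl
lemma Fmat_coe (τ : ℕ) : ((Fmat τ : SL(2, ℤ)) : Matrix (Fin 2) (Fin 2) ℤ) = !![1, 0; (τ : ℤ), 1] := rfl

lemma Emat_mem (τ : ℕ) : Emat τ ∈ Gamma τ := by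
  rw [Gamma_mem_iff_dvd]
  intro i j
  fin_cases i <;> fin_cases j <;> simp [Emat_coe]

lemma Fmat_mem (τ : ℕ) : Fmat τ ∈ Gamma τ := by
  rw [Gamma_mem_iff_dvd]
  intro i j
  fin_cases i <;> fin_cases j <;> simp [Fmat_coe]

lemma Xm_Emat {τ : ℕ} (hτ : τ ≠ 0) : Xm τ (Emat τ) = !![0, 1; 0, 0] := by
  apply Xm_eq_of hτ
  rw [Emat_coe]
  ext i j
  fin_cases i <;> fin_cases j <;> simp

lemma Xm_Fmat {τ : ℕ} (hτ : τ ≠ 0) : Xm τ (Fmat τ) = !![0, 0; 1, 0] := by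
  apply Xm_eq_of hτ
  rw [Fmat_coe]
  ext i j
  fin_cases i <;> fin_cases j <;> simp

lemma T_mul_Emat (τ : ℕ) : T * Emat τ = Emat τ * T := by
  ext i j
  fin_cases i <;> fin_cases j <;>
    simp [Matrix.SpecialLinearGroup.coe_mul, Emat_coe, Matrix.mul_apply, Fin.sum_univ_two, add_comm]

lemma Emat_S_Fmat (τ : ℕ) : Emat τ * S * Fmat τ = S := by
  ext i j
  fin_cases i <;> fin_cases j <;>
    simp [Matrix.SpecialLinearGroup.coe_mul, Emat_coe, Fmat_coe, Matrix.mul_apply, Fin.sum_univ_two]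

lemma Fmat_S_Emat (τ : ℕ) : Fmat τ * S * Emat τ = S := by
  ext i j
  fin_cases i <;> fin_cases j <;>
    simp [Matrix.SpecialLinearGroup.coe_mul, Emat_coe, Fmat_coe, Matrix.mul_apply, Fin.sum_univ_two]

lemma TST_mul_Fmat (τ : ℕ) : T * S * T * Fmat τ = Fmat τ * (T * S * T) := by
  ext i j
  fin_cases i <;> fin_cases j <;>
    simp [Matrix.SpecialLinearGroup.coe_mul, Fmat_coe, Matrix.mul_apply, Fin.sum_univ_two, add_comm]


lemma coe_S_inv' : ((S⁻¹ : SL(2, ℤ)) : Matrix (Fin 2) (Fin 2) ℤ) = !![0, 1; -1, 0] := by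
  rw [S_inv, Matrix.SpecialLinearGroup.coe_neg, coe_S]
  ext i j
  fin_cases i <;> fin_cases j <;> simp

lemma P_mem (τ : ℕ) : T * Fmat τ * T⁻¹ ∈ Gamma τ := (Gamma_normal τ).conj_mem _ (Fmat_mem τ) T

lemma Xm_P {τ : ℕ} (hτ : τ ≠ 0) : Xm τ (T * Fmat τ * T⁻¹) = !![1, -1; 1, -1] := by
  rw [Xm_conj hτ T (Fmat_mem τ), Xm_Fmat hτ, coe_T, coe_T_inv]
  ext i j
  fin_cases i <;> fin_cases j <;> simp [Matrix.mul_apply, Fin.sum_univ_two]

lemma Xm_XP {τ : ℕ} (hτ : τ ≠ 0) :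
    Xm τ (T * (T * Fmat τ * T⁻¹) * T⁻¹) = !![2, -4; 1, -2] := by
  rw [Xm_conj hτ T (P_mem τ), Xm_P hτ, coe_T, coe_T_inv]
  ext i j
  fin_cases i <;> fin_cases j <;> simp [Matrix.mul_apply, Fin.sum_univ_two]

lemma Xm_WP {τ : ℕ} (hτ : τ ≠ 0) :
    Xm τ (S * (T * Fmat τ * T⁻¹) * S⁻¹) = !![-1, -1; 1, 1] := by
  rw [Xm_conj hτ S (P_mem τ), Xm_P hτ, coe_S, coe_S_inv']
  ext i j
  fin_cases i <;> fin_cases j <;> simp [Matrix.mul_apply, Fin.sum_univ_two]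

lemma Xm_trace {p τ : ℕ} (hτ : τ ≠ 0) (hpτ : p ∣ τ) {γ : SL(2, ℤ)} (hγ : γ ∈ Gamma τ) :
    (p : ℤ) ∣ Xm τ γ 0 0 + Xm τ γ 1 1 := by
  have hdet : (γ : Matrix (Fin 2) (Fin 2) ℤ).det = 1 := γ.2
  rw [Matrix.det_fin_two] at hdet
  have h := Xm_spec hγ
  have h00 : (γ : Matrix (Fin 2) (Fin 2) ℤ) 0 0 = 1 + τ * Xm τ γ 0 0 := by
    have := congrFun (congrFun h 0) 0
    simp only [Matrix.add_apply, Matrix.smul_apply, smul_eq_mul, Matrix.one_apply_eq] at this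
    exact this
  have h01 : (γ : Matrix (Fin 2) (Fin 2) ℤ) 0 1 = τ * Xm τ γ 0 1 := by
    have := congrFun (congrFun h 0) 1
    simp only [Matrix.add_apply, Matrix.smul_apply, smul_eq_mul,
      Matrix.one_apply_ne (show (0 : Fin 2) ≠ 1 by decide), zero_add] at this
    exact this
  have h10 : (γ : Matrix (Fin 2) (Fin 2) ℤ) 1 0 = τ * Xm τ γ 1 0 := by
    have := congrFun (congrFun h 1) 0
    simp only [Matrix.add_apply, Matrix.smul_apply, smul_eq_mul,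
      Matrix.one_apply_ne (show (1 : Fin 2) ≠ 0 by decide), zero_add] at this
    exact this
  have h11 : (γ : Matrix (Fin 2) (Fin 2) ℤ) 1 1 = 1 + τ * Xm τ γ 1 1 := by
    have := congrFun (congrFun h 1) 1
    simp only [Matrix.add_apply, Matrix.smul_apply, smul_eq_mul, Matrix.one_apply_eq] at this
    exact this
  rw [h00, h01, h10, h11] at hdet
  have hτ' : (τ : ℤ) ≠ 0 := by exact_mod_cast hτ
  have h1 : (τ : ℤ) * (Xm τ γ 0 0 + Xm τ γ 1 1 +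
      τ * (Xm τ γ 0 0 * Xm τ γ 1 1 - Xm τ γ 0 1 * Xm τ γ 1 0)) = 0 := by
    linear_combination hdet
  have h2 := (mul_eq_zero.mp h1).resolve_left hτ'
  have h3 : (τ : ℤ) ∣ Xm τ γ 0 0 + Xm τ γ 1 1 :=
    ⟨-(Xm τ γ 0 0 * Xm τ γ 1 1 - Xm τ γ 0 1 * Xm τ γ 1 0), by linear_combination h2⟩
  exact dvd_trans (by exact_mod_cast hpτ) h3

/-- The inclusion `ker π → Γ(pτ)`. -/
noncomputable def kerToGamma (p τ : ℕ) (hτ : τ ≠ 0) (hpτ : p ∣ τ) :
    (piHom p τ hτ hpτ).ker →* ↥(Gamma (p * τ)) where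
  toFun n := ⟨n.1.1, (piHom_eq_one_iff p τ hτ hpτ n.1).1 (MonoidHom.mem_ker.mp n.2)⟩
  map_one' := rfl
  map_mul' _ _ := rfl


lemma piHom_val {p τ : ℕ} (hτ : τ ≠ 0) (hpτ : p ∣ τ) (γ : ↥(Gamma τ))
    {Y : Matrix (Fin 2) (Fin 2) ℤ} (h : Xm τ γ.1 = Y) :
    Multiplicative.toAdd (piHom p τ hτ hpτ γ) = (Int.castRingHom (ZMod p)).mapMatrix Y := by
  rw [piHom_apply, h]
  rfl

/-- `π (F^a P^b E^c)` in coordinates. -/
lemma piHom_gens {p τ : ℕ} (hτ : τ ≠ 0) (hpτ : p ∣ τ) (a b c : ℤ) :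
    Multiplicative.toAdd (piHom p τ hτ hpτ
      ((⟨Fmat τ, Fmat_mem τ⟩ : ↥(Gamma τ)) ^ a * (conjHom τ T ⟨Fmat τ, Fmat_mem τ⟩) ^ b *
        (⟨Emat τ, Emat_mem τ⟩ : ↥(Gamma τ)) ^ c)) =
      !![(b : ZMod p), -(b : ZMod p) + c; (a : ZMod p) + b, -(b : ZMod p)] := by
  have hh : ∀ x y z : ↥(Gamma τ), piHom p τ hτ hpτ (x ^ a * y ^ b * z ^ c) =
      (piHom p τ hτ hpτ x) ^ a * (piHom p τ hτ hpτ y) ^ b * (piHom p τ hτ hpτ z) ^ c := by
    intro x y z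
    simp only [map_mul, map_zpow]
  rw [hh, toAdd_mul, toAdd_mul, toAdd_zpow,
    toAdd_zpow, toAdd_zpow,
    piHom_val hτ hpτ ⟨Fmat τ, Fmat_mem τ⟩ (Xm_Fmat hτ),
    piHom_val hτ hpτ ⟨Emat τ, Emat_mem τ⟩ (Xm_Emat hτ),
    piHom_val hτ hpτ (conjHom τ T ⟨Fmat τ, Fmat_mem τ⟩) (Xm_P hτ)]
  ext i j
  simp only [Matrix.add_apply, Matrix.smul_apply, RingHom.mapMatrix_apply, Matrix.map_apply]
  simp only [zsmul_eq_mul]
  fin_cases i <;> fin_cases j <;> simp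

/-- The wild setup attached to an invariant character of `Γ(pτ)`, `p ∣ τ`. -/
noncomputable def wildSetup {p τ : ℕ} (hτ : τ ≠ 0) (hpτ : p ∣ τ)
    (φ : ↥(Gamma (p * τ)) →* Multiplicative (ZMod p)) (hφ : H2.IsInvChar (p * τ) p φ) :
    WildSetup p ↥(Gamma τ) (Multiplicative (Matrix (Fin 2) (Fin 2) (ZMod p))) where
  π := piHom p τ hτ hpτ
  φ := φ.comp (kerToGamma p τ hτ hpτ)
  X := conjHom τ T
  W := conjHom τ S
  F := ⟨Fmat τ, Fmat_mem τ⟩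
  E := ⟨Emat τ, Emat_mem τ⟩
  hA := by
    intro a
    apply Multiplicative.toAdd.injective
    rw [toAdd_pow, toAdd_one]
    ext i j
    simp
  hXπ := by
    intro x hx
    rw [piHom_eq_one_iff] at hx ⊢
    exact (Gamma_normal (p * τ)).conj_mem _ hx T
  hWπ := by
    intro x hx
    rw [piHom_eq_one_iff] at hx ⊢
    exact (Gamma_normal (p * τ)).conj_mem _ hx S
  hφc := by
    intro x n h
    exact hφ x.1 (kerToGamma p τ hτ hpτ n)
  hφX := by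
    intro n h
    exact hφ T (kerToGamma p τ hτ hpτ n)
  hφW := by
    intro n h
    exact hφ S (kerToGamma p τ hτ hpτ n)
  hXE := by
    apply Subtype.ext
    show T * Emat τ * T⁻¹ = Emat τ
    rw [T_mul_Emat, mul_inv_cancel_right]
  hWF := by
    apply Subtype.ext
    show S * Fmat τ * S⁻¹ = (Emat τ)⁻¹
    have h := Emat_S_Fmat τ
    calc S * Fmat τ * S⁻¹ = (Emat τ)⁻¹ * (Emat τ * S * Fmat τ) * S⁻¹ := by group
      _ = (Emat τ)⁻¹ := by rw [h]; group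
  hWE := by
    apply Subtype.ext
    show S * Emat τ * S⁻¹ = (Fmat τ)⁻¹
    have h := Fmat_S_Emat τ
    calc S * Emat τ * S⁻¹ = (Fmat τ)⁻¹ * (Fmat τ * S * Emat τ) * S⁻¹ := by group
      _ = (Fmat τ)⁻¹ := by rw [h]; group
  hbraid := by
    apply Subtype.ext
    show T * (S * (T * Fmat τ * T⁻¹) * S⁻¹) * T⁻¹ = Fmat τ
    have h := TST_mul_Fmat τ
    calc T * (S * (T * Fmat τ * T⁻¹) * S⁻¹) * T⁻¹
        = (T * S * T * Fmat τ) * (T * S * T)⁻¹ := by group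
      _ = Fmat τ := by rw [h]; group
  hXP := by
    have hh : ∀ x y z : ↥(Gamma τ), piHom p τ hτ hpτ (x⁻¹ * y ^ 2 * (z ^ 2)⁻¹) =
        (piHom p τ hτ hpτ x)⁻¹ * (piHom p τ hτ hpτ y) ^ 2 * ((piHom p τ hτ hpτ z) ^ 2)⁻¹ := by
      intro x y z
      simp only [map_mul, map_pow, map_inv]
    apply Multiplicative.toAdd.injective
    rw [hh, toAdd_mul, toAdd_mul, toAdd_inv,
      toAdd_inv, toAdd_pow, toAdd_pow,
      piHom_val hτ hpτ ⟨Fmat τ, Fmat_mem τ⟩ (Xm_Fmat hτ),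
      piHom_val hτ hpτ ⟨Emat τ, Emat_mem τ⟩ (Xm_Emat hτ),
      piHom_val hτ hpτ (conjHom τ T ⟨Fmat τ, Fmat_mem τ⟩) (Xm_P hτ),
      piHom_val hτ hpτ (conjHom τ T (conjHom τ T ⟨Fmat τ, Fmat_mem τ⟩)) (Xm_XP hτ)]
    ext i j
    simp only [Matrix.add_apply, Matrix.neg_apply, Matrix.smul_apply, RingHom.mapMatrix_apply,
      Matrix.map_apply]
    simp only [nsmul_eq_mul]
    fin_cases i <;> fin_cases j <;> simp <;> ring
  hWP := by
    have hh : ∀ x y z : ↥(Gamma τ), piHom p τ hτ hpτ (x ^ 2 * (y ^ 2)⁻¹ * z⁻¹) =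
        (piHom p τ hτ hpτ x) ^ 2 * ((piHom p τ hτ hpτ y) ^ 2)⁻¹ * (piHom p τ hτ hpτ z)⁻¹ := by
      intro x y z
      simp only [map_mul, map_pow, map_inv]
    apply Multiplicative.toAdd.injective
    rw [hh, toAdd_mul, toAdd_mul, toAdd_inv,
      toAdd_inv, toAdd_pow, toAdd_pow,
      piHom_val hτ hpτ ⟨Fmat τ, Fmat_mem τ⟩ (Xm_Fmat hτ),
      piHom_val hτ hpτ ⟨Emat τ, Emat_mem τ⟩ (Xm_Emat hτ),
      piHom_val hτ hpτ (conjHom τ T ⟨Fmat τ, Fmat_mem τ⟩) (Xm_P hτ),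
      piHom_val hτ hpτ (conjHom τ S (conjHom τ T ⟨Fmat τ, Fmat_mem τ⟩)) (Xm_WP hτ)]
    ext i j
    simp only [Matrix.add_apply, Matrix.neg_apply, Matrix.smul_apply, RingHom.mapMatrix_apply,
      Matrix.map_apply]
    simp only [nsmul_eq_mul]
    fin_cases i <;> fin_cases j <;> simp <;> ring
  hspan := by
    intro x
    refine ⟨Xm τ x.1 1 0 - Xm τ x.1 0 0, Xm τ x.1 0 0, Xm τ x.1 0 1 + Xm τ x.1 0 0, ?_⟩
    apply Multiplicative.toAdd.injective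
    rw [piHom_gens hτ hpτ, piHom_val hτ hpτ x rfl]
    have htr := Xm_trace hτ hpτ x.2
    have htr' : ((Xm τ x.1 1 1 : ℤ) : ZMod p) = -((Xm τ x.1 0 0 : ℤ) : ZMod p) := by
      rw [← ZMod.intCast_zmod_eq_zero_iff_dvd] at htr
      push_cast at htr
      linear_combination htr
    ext i j
    fin_cases i <;> fin_cases j
    · simp
    · simp
    · simp
    · simpa using htr'
  hind := by
    intro a b c h
    have h1 := congrArg Multiplicative.toAdd h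
    rw [piHom_gens hτ hpτ, toAdd_one] at h1
    have h00 : (b : ZMod p) = 0 := by
      have := congrFun (congrFun h1 0) 0
      simpa using this
    have h01 : -(b : ZMod p) + c = 0 := by
      have := congrFun (congrFun h1 0) 1
      simpa using this
    have h10 : (a : ZMod p) + b = 0 := by
      have := congrFun (congrFun h1 1) 0
      simpa using this
    have ha : (a : ZMod p) = 0 := by linear_combination h10 - h00
    have hc : (c : ZMod p) = 0 := by linear_combination h01 + h00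
    exact ⟨(ZMod.intCast_zmod_eq_zero_iff_dvd _ p).1 ha, (ZMod.intCast_zmod_eq_zero_iff_dvd _ p).1 h00,
      (ZMod.intCast_zmod_eq_zero_iff_dvd _ p).1 hc⟩


lemma conjHom_mul (τ : ℕ) (σ₁ σ₂ : SL(2, ℤ)) (g : ↥(Gamma τ)) :
    conjHom τ (σ₁ * σ₂) g = conjHom τ σ₁ (conjHom τ σ₂ g) := by
  apply Subtype.ext
  show σ₁ * σ₂ * g.1 * (σ₁ * σ₂)⁻¹ = σ₁ * (σ₂ * g.1 * σ₂⁻¹) * σ₁⁻¹
  group

lemma conjHom_inv_cancel (τ : ℕ) (σ : SL(2, ℤ)) (g : ↥(Gamma τ)) :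
    conjHom τ σ (conjHom τ σ⁻¹ g) = g := by
  apply Subtype.ext
  show σ * (σ⁻¹ * g.1 * σ⁻¹⁻¹) * σ⁻¹ = g.1
  group

/-- A hom on `Γ(τ)` invariant under conjugation by `S` and `T` is `SL(2, ℤ)`-invariant. -/
lemma invariant_of_S_T {τ : ℕ} {C : Type*} [Group C] (θ : ↥(Gamma τ) →* C)
    (hT : ∀ g, θ (conjHom τ T g) = θ g) (hS : ∀ g, θ (conjHom τ S g) = θ g)
    (σ : SL(2, ℤ)) (g : ↥(Gamma τ)) : θ (conjHom τ σ g) = θ g := by
  let Sg : Subgroup SL(2, ℤ) :=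
    { carrier := {σ | ∀ g : ↥(Gamma τ), θ (conjHom τ σ g) = θ g}
      one_mem' := by
        intro g
        have : conjHom τ 1 g = g := by
          apply Subtype.ext
          show 1 * g.1 * 1⁻¹ = g.1
          group
        rw [this]
      mul_mem' := by
        intro a b ha hb g
        rw [conjHom_mul, ha, hb]
      inv_mem' := by
        intro a ha g
        have := ha (conjHom τ a⁻¹ g)
        rw [conjHom_inv_cancel] at this
        exact this.symm }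
  have hle : Subgroup.closure {S, T} ≤ Sg := by
    rw [Subgroup.closure_le]
    intro x hx
    rcases hx with rfl | rfl
    · exact hS
    · exact hT
  rw [SpecialLinearGroup.SL2Z_generators] at hle
  exact hle (Subgroup.mem_top σ) g

/-- **Wild extension step** (T2) of helper2's Theorem T: for an odd prime `p` and `p ∣ m₁`, every
`SL(2, ℤ)`-invariant character `Γ(p m₁) → 𝔽_p` extends to an invariant character of `Γ(m₁)`. -/
theorem wild_extension {p m₁ : ℕ} (hp : p.Prime) (hp2 : p ≠ 2) (hm₁ : 0 < m₁) (hpm₁ : p ∣ m₁) :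
    H2.ExtensionStep p p m₁ := by
  intro φ hφ
  have : Fact p.Prime := ⟨hp⟩
  have hτ : m₁ ≠ 0 := hm₁.ne'
  by_cases htriv : φ = 1
  · refine ⟨1, ?_, ?_⟩
    · intro σ g
      rfl
    · intro g
      rw [htriv]
      rfl
  · have hex : ∃ g₀, φ g₀ ≠ 1 := by
      by_contra hne
      push Not at hne
      exact htriv (MonoidHom.ext hne)
    obtain ⟨g₀, hg₀⟩ := hex
    set u : ZMod p := Multiplicative.toAdd (φ g₀) with hu
    have hu0 : u ≠ 0 := by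
      intro h0
      apply hg₀
      apply Multiplicative.toAdd.injective
      rw [← hu, h0]
      rfl
    let D := wildSetup hτ hpm₁ φ hφ
    have hsurj : ∃ ζ : D.π.ker, D.φ ζ = Multiplicative.ofAdd 1 := by
      have hmem : ((g₀ ^ (u⁻¹).val : ↥(Gamma (p * m₁))) : SL(2, ℤ)) ∈ Gamma m₁ :=
        H2.Gamma_le_of_dvd (Dvd.intro_left p rfl) (g₀ ^ (u⁻¹).val).2
      refine ⟨⟨⟨_, hmem⟩, MonoidHom.mem_ker.mpr
        ((piHom_eq_one_iff p m₁ hτ hpm₁ _).2 (g₀ ^ (u⁻¹).val).2)⟩, ?_⟩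
      show φ (g₀ ^ (u⁻¹).val) = Multiplicative.ofAdd 1
      rw [map_pow]
      apply Multiplicative.toAdd.injective
      rw [toAdd_pow, ← hu, toAdd_ofAdd, nsmul_eq_mul, ZMod.natCast_zmod_val, inv_mul_cancel₀ hu0]
    obtain ⟨θ, hθφ, hθX, hθW⟩ := D.exists_extension hp2 hsurj
    refine ⟨θ, ?_, ?_⟩
    · intro σ g
      exact invariant_of_S_T θ hθX hθW σ g
    · intro g
      have hmem : (g : SL(2, ℤ)) ∈ Gamma m₁ := H2.Gamma_le_of_dvd (Dvd.intro_left p rfl) g.2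
      exact hθφ ⟨⟨g.1, hmem⟩, MonoidHom.mem_ker.mpr ((piHom_eq_one_iff p m₁ hτ hpm₁ _).2 g.2)⟩

end Fermat.Agent.S41.H57
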