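import Mathlib
import Fermat.Prelude.Def_ModularCurve_PeriodMap
import Fermat.Agent.S22.H82_Gamma0FG

/-!
# S41, package H: the integral lattice of (parabolic) homomorphisms and its complexification

* `exists_int_decomp`: every additive homomorphism `φ : Additive G →+ V` from a finitely generated
  group to a torsion free abelian group is `∑ i, ψ i (·) • z i` with `z i ∈ V` linearly independent
  over `ℤ` and `ψ i : Additive G →+ ℤ`.
* `sum_comp_eq_zero_iff`: for `ℤ`-linearly independent `z i`, `∑ i, χ i (·) • z i = 0` iff all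
  `χ i = 0`.
* transfer principles: statements of the shape "`t` kills (the `S`-parabolic part of) `ker F`"
  pass from `ℤ`-valued homomorphisms to homomorphisms with values in any torsion free group (e.g.
  `ℂ`), for operator families `F`, `t` natural in the coefficient group.
* `L_M = parabolicHoms ℤ Γ ℤ` is a finitely generated free `ℤ`-module (`Γ` f.g., e.g. `Γ₀(M)`).
-/

set_option autoImplicit false

noncomputable section

namespace Fermat.Agent.S41.H88

open Module

section Decomp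

variable {G : Type*} [Group G] {V : Type*} [AddCommGroup V]

/-- The composition of `ψ : Additive G →+ ℤ` with `n ↦ n • z`. -/
def smulHom (z : V) (ψ : Additive G →+ ℤ) : Additive G →+ V :=
  (zmultiplesHom V z).comp ψ

@[simp] theorem smulHom_apply (z : V) (ψ : Additive G →+ ℤ) (g : Additive G) :
    smulHom z ψ g = ψ g • z := rfl

theorem smulHom_zero (z : V) : smulHom z (0 : Additive G →+ ℤ) = 0 := by
  refine AddMonoidHom.ext fun g => ?_
  simp

theorem sum_smulHom_apply {k : ℕ} (z : Fin k → V) (ψ : Fin k → (Additive G →+ ℤ))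
    (g : Additive G) : (∑ i, smulHom (z i) (ψ i)) g = ∑ i, ψ i g • z i := by
  rw [AddMonoidHom.finsetSum_apply]
  rfl

/-- For `ℤ`-linearly independent `z i`, a combination `∑ i, χ i (·) • z i` of integer valued
homomorphisms vanishes iff every `χ i` does. -/
theorem sum_smulHom_eq_zero_iff {k : ℕ} {z : Fin k → V} (hz : LinearIndependent ℤ z)
    (χ : Fin k → (Additive G →+ ℤ)) :
    (∑ i, smulHom (z i) (χ i)) = 0 ↔ ∀ i, χ i = 0 := by
  constructor
  · intro h i
    refine AddMonoidHom.ext fun g => ?_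
    have hg : ∑ j, χ j g • z j = 0 := by
      rw [← sum_smulHom_apply, h]; rfl
    exact Fintype.linearIndependent_iff.mp hz (fun j => χ j g) hg i
  · intro h
    refine Finset.sum_eq_zero fun i _ => ?_
    rw [h i, smulHom_zero]

/-- **Integral decomposition.**  A homomorphism from a finitely generated group to a torsion free
abelian group is a finite combination, with `ℤ`-linearly independent coefficients, of integer
valued homomorphisms. -/
theorem exists_int_decomp [hG : Group.FG G] [IsTorsionFree ℤ V] (φ : Additive G →+ V) :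
    ∃ (k : ℕ) (z : Fin k → V) (ψ : Fin k → (Additive G →+ ℤ)),
      LinearIndependent ℤ z ∧ φ = ∑ i, smulHom (z i) (ψ i) := by
  classical
  -- the range of `φ` as a `ℤ`-submodule
  set M : Submodule ℤ V := AddSubgroup.toIntSubmodule φ.range with hM
  have hfg : M.FG := by
    rw [Submodule.fg_iff_addSubgroup_fg]
    have h1 : (⊤ : AddSubgroup (Additive G)).FG := AddGroup.fg_def.mp inferInstance
    obtain ⟨S, hS⟩ := h1
    refine ⟨S.image φ, ?_⟩
    rw [Finset.coe_image, ← AddMonoidHom.map_closure, hS]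
    ext x
    simp [hM, AddMonoidHom.mem_range]
  have : Module.Finite ℤ M := Module.Finite.iff_fg.mpr hfg
  have : Module.Free ℤ M := Module.free_of_finite_type_torsion_free'
  let b := Module.Free.chooseBasis ℤ M
  let e := Fintype.equivFin (Module.Free.ChooseBasisIndex ℤ M)
  -- `φ` with values in `M`
  have hmem : ∀ g, φ g ∈ M := fun g => by
    show φ g ∈ φ.range
    exact ⟨g, rfl⟩
  let φM : Additive G →+ M :=
    { toFun := fun g => ⟨φ g, hmem g⟩
      map_zero' := Subtype.ext φ.map_zero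
      map_add' := fun g h => Subtype.ext (φ.map_add g h) }
  refine ⟨_, fun i => (b (e.symm i) : V), fun i =>
    { toFun := fun g => b.repr (φM g) (e.symm i)
      map_zero' := by simp
      map_add' := fun g h => by simp }, ?_, ?_⟩
  · -- linear independence
    have h1 : LinearIndependent ℤ (fun j => (b j : V)) :=
      b.linearIndependent.map' M.subtype (Submodule.ker_subtype M)
    exact h1.comp _ e.symm.injective
  · refine AddMonoidHom.ext fun g => ?_
    rw [sum_smulHom_apply]
    have h2 := b.sum_repr (φM g)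
    have h3 : (φ g : V) = ((∑ j, b.repr (φM g) j • b j : M) : V) := by rw [h2]; rfl
    rw [h3, Submodule.coe_sum]
    simp only [Submodule.coe_smul, AddMonoidHom.coe_mk, ZeroHom.coe_mk]
    exact (Equiv.sum_comp e.symm (fun j => b.repr (φM g) j • (b j : V))).symm

end Decomp

/-! ### Operator families natural in the coefficient group -/

section Transfer

variable {G₁ G₂ G₃ : Type*} [Group G₁] [Group G₂] [Group G₃]

/-- A family of additive operators `Hom(G₁, A) → Hom(G₂, A)`, one for each coefficient group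
`A : Type`. -/
abbrev OpFamily (G₁ G₂ : Type*) [Group G₁] [Group G₂] :=
  ∀ (A : Type) [AddCommGroup A], (Additive G₁ →+ A) →+ (Additive G₂ →+ A)

/-- Naturality of an operator family in the coefficient group. -/
structure OpFamily.IsNatural (F : OpFamily G₁ G₂) : Prop where
  nat : ∀ (A B : Type) [AddCommGroup A] [AddCommGroup B] (u : A →+ B) (φ : Additive G₁ →+ A),
    F B (u.comp φ) = u.comp (F A φ)

variable {V : Type} [AddCommGroup V]

theorem OpFamily.IsNatural.map_smulHom {F : OpFamily G₁ G₂} (hF : F.IsNatural) (z : V)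
    (ψ : Additive G₁ →+ ℤ) : F V (H88.smulHom z ψ) = H88.smulHom z (F ℤ ψ) :=
  hF.nat ℤ V (zmultiplesHom V z) ψ

theorem OpFamily.IsNatural.map_sum_smulHom {F : OpFamily G₁ G₂} (hF : F.IsNatural) {k : ℕ}
    (z : Fin k → V) (ψ : Fin k → (Additive G₁ →+ ℤ)) :
    F V (∑ i, H88.smulHom (z i) (ψ i)) = ∑ i, H88.smulHom (z i) (F ℤ (ψ i)) := by
  rw [map_sum]
  exact Finset.sum_congr rfl fun i _ => hF.map_smulHom (z i) (ψ i)

/-- The zero family is natural. -/
theorem OpFamily.isNatural_zero : OpFamily.IsNatural (fun (A : Type) _ => (0 : (Additive G₁ →+ A) →+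
    (Additive G₂ →+ A))) := by
  refine ⟨fun A B _ _ u φ => ?_⟩
  refine AddMonoidHom.ext fun g => ?_
  simp

/-- Composition of natural families is natural. -/
theorem OpFamily.IsNatural.comp {F : OpFamily G₁ G₂} {F' : OpFamily G₂ G₃} (hF : F.IsNatural)
    (hF' : F'.IsNatural) : OpFamily.IsNatural (fun A _ => (F' A).comp (F A)) := by
  refine ⟨fun A B _ _ u φ => ?_⟩
  show F' B (F B (u.comp φ)) = u.comp (F' A (F A φ))
  rw [hF.nat, hF'.nat]

/-- Sums of natural families are natural. -/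
theorem OpFamily.IsNatural.add {F F' : OpFamily G₁ G₂} (hF : F.IsNatural)
    (hF' : F'.IsNatural) : OpFamily.IsNatural (fun A _ => F A + F' A) := by
  refine ⟨fun A B _ _ u φ => ?_⟩
  show F B (u.comp φ) + F' B (u.comp φ) = u.comp (F A φ + F' A φ)
  rw [hF.nat, hF'.nat]
  refine AddMonoidHom.ext fun g => ?_
  simp

/-- Integer multiples of natural families are natural. -/
theorem OpFamily.IsNatural.zsmul {F : OpFamily G₁ G₂} (hF : F.IsNatural) (n : ℤ) :
    OpFamily.IsNatural (fun A _ => n • F A) := by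
  refine ⟨fun A B _ _ u φ => ?_⟩
  show n • F B (u.comp φ) = u.comp (n • F A φ)
  rw [hF.nat]
  refine AddMonoidHom.ext fun g => ?_
  simp

/-- Precomposition with a group homomorphism is a natural family. -/
def OpFamily.precomp (f : G₂ →* G₁) : OpFamily G₁ G₂ := fun A _ =>
  { toFun := fun φ => φ.comp (MonoidHom.toAdditive f)
    map_zero' := rfl
    map_add' := fun _ _ => rfl }

theorem OpFamily.isNatural_precomp (f : G₂ →* G₁) : (OpFamily.precomp f).IsNatural :=
  ⟨fun _ _ _ _ _ _ => rfl⟩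

/-- **Transfer principle (one condition).**  `S ⊆ G₁` a set of elements ("parabolic elements"),
`F`, `t` natural operator families.  If `t` kills every `ℤ`-valued homomorphism that vanishes on
`S` and is killed by `F`, then the same holds for homomorphisms with values in any torsion free
abelian group `V` (e.g. `V = ℂ`). -/
theorem transfer_of_int [Group.FG G₁] [IsTorsionFree ℤ V] (S : Set G₁)
    {F : OpFamily G₁ G₂} (hF : F.IsNatural) {t : OpFamily G₁ G₃} (ht : t.IsNatural)
    (h : ∀ ψ : Additive G₁ →+ ℤ, (∀ s ∈ S, ψ (Additive.ofMul s) = 0) → F ℤ ψ = 0 → t ℤ ψ = 0)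
    (φ : Additive G₁ →+ V) (hS : ∀ s ∈ S, φ (Additive.ofMul s) = 0) (hFφ : F V φ = 0) :
    t V φ = 0 := by
  obtain ⟨k, z, ψ, hz, rfl⟩ := exists_int_decomp φ
  -- every `ψ i` vanishes on `S`
  have h1 : ∀ i, ∀ s ∈ S, ψ i (Additive.ofMul s) = 0 := by
    intro i s hs
    have := hS s hs
    rw [sum_smulHom_apply] at this
    exact Fintype.linearIndependent_iff.mp hz (fun j => ψ j (Additive.ofMul s)) this i
  -- every `ψ i` is killed by `F`
  have h2 : ∀ i, F ℤ (ψ i) = 0 := by
    rw [hF.map_sum_smulHom] at hFφ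
    exact (sum_smulHom_eq_zero_iff hz _).mp hFφ
  rw [ht.map_sum_smulHom]
  exact (sum_smulHom_eq_zero_iff hz _).mpr fun i => h (ψ i) (h1 i) (h2 i)

/-- **Transfer principle (two conditions)**, e.g. `F = cor`, `F' = corc`, `ker β = ker F ⊓ ker F'`.
-/
theorem transfer_of_int₂ {G₂' : Type*} [Group G₂'] [Group.FG G₁] [IsTorsionFree ℤ V] (S : Set G₁)
    {F : OpFamily G₁ G₂} (hF : F.IsNatural) {F' : OpFamily G₁ G₂'} (hF' : F'.IsNatural)
    {t : OpFamily G₁ G₃} (ht : t.IsNatural)
    (h : ∀ ψ : Additive G₁ →+ ℤ, (∀ s ∈ S, ψ (Additive.ofMul s) = 0) → F ℤ ψ = 0 → F' ℤ ψ = 0 →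
      t ℤ ψ = 0)
    (φ : Additive G₁ →+ V) (hS : ∀ s ∈ S, φ (Additive.ofMul s) = 0) (hFφ : F V φ = 0)
    (hF'φ : F' V φ = 0) : t V φ = 0 := by
  obtain ⟨k, z, ψ, hz, rfl⟩ := exists_int_decomp φ
  have h1 : ∀ i, ∀ s ∈ S, ψ i (Additive.ofMul s) = 0 := by
    intro i s hs
    have := hS s hs
    rw [sum_smulHom_apply] at this
    exact Fintype.linearIndependent_iff.mp hz (fun j => ψ j (Additive.ofMul s)) this i
  have h2 : ∀ i, F ℤ (ψ i) = 0 := by
    rw [hF.map_sum_smulHom] at hFφ
    exact (sum_smulHom_eq_zero_iff hz _).mp hFφ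
  have h3 : ∀ i, F' ℤ (ψ i) = 0 := by
    rw [hF'.map_sum_smulHom] at hF'φ
    exact (sum_smulHom_eq_zero_iff hz _).mp hF'φ
  rw [ht.map_sum_smulHom]
  exact (sum_smulHom_eq_zero_iff hz _).mpr fun i => h (ψ i) (h1 i) (h2 i) (h3 i)

/-- **Transfer principle (no condition)**: if `t` kills the `ℤ`-valued homomorphisms vanishing on
`S`, it kills the `V`-valued ones. -/
theorem transfer_of_int₀ [Group.FG G₁] [IsTorsionFree ℤ V] (S : Set G₁)
    {t : OpFamily G₁ G₃} (ht : t.IsNatural)
    (h : ∀ ψ : Additive G₁ →+ ℤ, (∀ s ∈ S, ψ (Additive.ofMul s) = 0) → t ℤ ψ = 0)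
    (φ : Additive G₁ →+ V) (hS : ∀ s ∈ S, φ (Additive.ofMul s) = 0) : t V φ = 0 :=
  transfer_of_int (G₂ := G₁) S (OpFamily.isNatural_zero) ht (fun ψ hψ _ => h ψ hψ) φ hS rfl

end Transfer

/-! ### The lattice `L_M` -/

section Lattice

open ModularCurve.Period
open scoped MatrixGroups

variable {G : Type*} [Group G]

/-- Two homomorphisms agreeing on a generating set are equal. -/
theorem hom_ext_of_closure {A : Type*} [AddCommGroup A] {S : Set G}
    (hS : Subgroup.closure S = ⊤) {φ ψ : Additive G →+ A}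
    (h : ∀ s ∈ S, φ (Additive.ofMul s) = ψ (Additive.ofMul s)) : φ = ψ := by
  let H : Subgroup G :=
    { carrier := {g | φ (Additive.ofMul g) = ψ (Additive.ofMul g)}
      one_mem' := by
        show φ (Additive.ofMul 1) = ψ (Additive.ofMul 1)
        rw [ofMul_one, map_zero, map_zero]
      mul_mem' := by
        intro a b ha hb
        show φ (Additive.ofMul (a * b)) = ψ (Additive.ofMul (a * b))
        rw [ofMul_mul, map_add, map_add, ha, hb]
      inv_mem' := by
        intro a ha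
        show φ (Additive.ofMul a⁻¹) = ψ (Additive.ofMul a⁻¹)
        rw [ofMul_inv, map_neg, map_neg, ha] }
  have hH : H = ⊤ := by
    rw [eq_top_iff, ← hS, Subgroup.closure_le]
    exact h
  refine AddMonoidHom.ext fun g => ?_
  have : Additive.toMul g ∈ H := by rw [hH]; exact Subgroup.mem_top _
  exact this

/-- Evaluation at a finite generating family, as a linear map. -/
def evGen (S : Set G) : (Additive G →+ ℤ) →ₗ[ℤ] (S → ℤ) where
  toFun φ s := φ (Additive.ofMul (s : G))
  map_add' _ _ := rfl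
  map_smul' _ _ := rfl

theorem evGen_injective {S : Set G} (hS : Subgroup.closure S = ⊤) :
    Function.Injective (evGen S) := by
  intro φ ψ h
  refine hom_ext_of_closure hS fun s hs => ?_
  exact congrFun h ⟨s, hs⟩

instance isTorsionFree_hom_int : IsTorsionFree ℤ (Additive G →+ ℤ) := by
  have hinj : Function.Injective (evGen (Set.univ : Set G)) :=
    evGen_injective (Subgroup.closure_univ)
  exact hinj.moduleIsTorsionFree _ fun r m => (evGen Set.univ).map_smul r m

instance finite_hom_int [hG : Group.FG G] : Module.Finite ℤ (Additive G →+ ℤ) := by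
  classical
  obtain ⟨S, hS⟩ := Group.fg_def.mp hG
  have : Finite (S : Set G) := Finset.finite_toSet S |>.to_subtype
  exact Module.Finite.of_injective (evGen (S : Set G)) (evGen_injective hS)

instance free_hom_int [Group.FG G] : Module.Free ℤ (Additive G →+ ℤ) :=
  Module.free_of_finite_type_torsion_free'

instance finite_submodule_hom_int [Group.FG G] (L : Submodule ℤ (Additive G →+ ℤ)) :
    Module.Finite ℤ L := inferInstance

instance free_submodule_hom_int [Group.FG G] (L : Submodule ℤ (Additive G →+ ℤ)) :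
    Module.Free ℤ L := Module.free_of_finite_type_torsion_free'

variable (Γ : Subgroup SL(2, ℤ))

/-- `L = parabolicHoms ℤ Γ ℤ` is a finitely generated `ℤ`-module for finitely generated `Γ`. -/
theorem finite_parabolicHoms [Group.FG Γ] : Module.Finite ℤ (parabolicHoms ℤ Γ ℤ) := inferInstance

/-- `L = parabolicHoms ℤ Γ ℤ` is a free `ℤ`-module for finitely generated `Γ`. -/
theorem free_parabolicHoms [Group.FG Γ] : Module.Free ℤ (parabolicHoms ℤ Γ ℤ) := inferInstance

theorem finite_parabolicHoms_Gamma0 (M : ℕ) [NeZero M] :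
    Module.Finite ℤ (parabolicHoms ℤ (CongruenceSubgroup.Gamma0 M) ℤ) :=
  haveI := S22.H82.groupFG_Gamma0 M
  inferInstance

theorem free_parabolicHoms_Gamma0 (M : ℕ) [NeZero M] :
    Module.Free ℤ (parabolicHoms ℤ (CongruenceSubgroup.Gamma0 M) ℤ) :=
  haveI := S22.H82.groupFG_Gamma0 M
  inferInstance

/-- The set of parabolic elements of `Γ` (those with `trace ^ 2 = 4`). -/
def parabolicSet : Set Γ :=
  {γ | ((γ : SL(2, ℤ)) : Matrix (Fin 2) (Fin 2) ℤ).trace ^ 2 = 4}

theorem isParabolicHom_iff {A : Type*} [AddCommGroup A] (φ : Additive Γ →+ A) :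
    IsParabolicHom Γ φ ↔ ∀ s ∈ parabolicSet Γ, φ (Additive.ofMul s) = 0 := Iff.rfl

/-- **Complexification of the lattice**: every parabolic homomorphism with values in a torsion
free group `V` (e.g. `ℂ`) is a combination `∑ i, ψ i (·) • z i` of INTEGRAL parabolic homomorphisms
`ψ i` with `ℤ`-linearly independent `z i ∈ V`. -/
theorem exists_parabolic_int_decomp [Group.FG Γ] {V : Type*} [AddCommGroup V]
    [IsTorsionFree ℤ V] (φ : Additive Γ →+ V) (hφ : IsParabolicHom Γ φ) :
    ∃ (k : ℕ) (z : Fin k → V) (ψ : Fin k → (Additive Γ →+ ℤ)),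
      LinearIndependent ℤ z ∧ (∀ i, ψ i ∈ parabolicHoms ℤ Γ ℤ) ∧
        φ = ∑ i, smulHom (z i) (ψ i) := by
  obtain ⟨k, z, ψ, hz, rfl⟩ := exists_int_decomp φ
  refine ⟨k, z, ψ, hz, fun i γ hγ => ?_, rfl⟩
  have := hφ γ hγ
  rw [sum_smulHom_apply] at this
  exact Fintype.linearIndependent_iff.mp hz (fun j => ψ j (Additive.ofMul γ)) this i

/-- The `ℂ`-span of the integral parabolic homomorphisms is all of `parabolicHoms ℂ Γ ℂ`. -/
theorem span_int_parabolicHoms [Group.FG Γ] :
    Submodule.span ℂ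
      ((fun ψ : Additive Γ →+ ℤ => (Int.castAddHom ℂ).comp ψ) '' (parabolicHoms ℤ Γ ℤ : Set _)) =
      parabolicHoms ℂ Γ ℂ := by
  apply le_antisymm
  · rw [Submodule.span_le]
    rintro _ ⟨ψ, hψ, rfl⟩
    intro γ hγ
    show ((ψ (Additive.ofMul γ) : ℤ) : ℂ) = 0
    rw [hψ γ hγ, Int.cast_zero]
  · intro φ hφ
    obtain ⟨k, z, ψ, -, hψ, rfl⟩ := exists_parabolic_int_decomp Γ φ hφ
    refine Submodule.sum_mem _ fun i _ => ?_
    have : smulHom (z i) (ψ i) = z i • ((Int.castAddHom ℂ).comp (ψ i)) := by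
      ext g
      simp [mul_comm]
    rw [this]
    exact Submodule.smul_mem _ _ (Submodule.subset_span ⟨ψ i, hψ i, rfl⟩)

/-- **(H2)** If a natural operator family kills the lattice `L = parabolicHoms ℤ Γ ℤ`, it kills
`parabolicHoms ℂ Γ ℂ`. -/
theorem kills_parabolicHoms_complex [Group.FG Γ] {G₃ : Type*} [Group G₃]
    {t : OpFamily Γ G₃} (ht : t.IsNatural)
    (h : ∀ ψ ∈ parabolicHoms ℤ Γ ℤ, t ℤ ψ = 0) :
    ∀ φ ∈ parabolicHoms ℂ Γ ℂ, t ℂ φ = 0 := fun φ hφ =>
  transfer_of_int₀ (parabolicSet Γ) ht (fun ψ hψ => h ψ hψ) φ hφ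

/-- **(H1)**, one condition: if `t` kills `L ∩ ker F_ℤ` then `t` kills
`parabolicHoms ℂ Γ ℂ ∩ ker F_ℂ`. -/
theorem kills_ker_complex [Group.FG Γ] {G₂ G₃ : Type*} [Group G₂] [Group G₃]
    {F : OpFamily Γ G₂} (hF : F.IsNatural) {t : OpFamily Γ G₃} (ht : t.IsNatural)
    (h : ∀ ψ ∈ parabolicHoms ℤ Γ ℤ, F ℤ ψ = 0 → t ℤ ψ = 0) :
    ∀ φ ∈ parabolicHoms ℂ Γ ℂ, F ℂ φ = 0 → t ℂ φ = 0 := fun φ hφ hFφ =>
  transfer_of_int (parabolicSet Γ) hF ht (fun ψ hψ => h ψ hψ) φ hφ hFφ

/-- **(H1)**, two conditions (`β = (cor, corc)`): if `t` kills `L ∩ ker F_ℤ ∩ ker F'_ℤ` then `t`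
kills `parabolicHoms ℂ Γ ℂ ∩ ker F_ℂ ∩ ker F'_ℂ`. -/
theorem kills_ker₂_complex [Group.FG Γ] {G₂ G₂' G₃ : Type*} [Group G₂] [Group G₂'] [Group G₃]
    {F : OpFamily Γ G₂} (hF : F.IsNatural) {F' : OpFamily Γ G₂'} (hF' : F'.IsNatural)
    {t : OpFamily Γ G₃} (ht : t.IsNatural)
    (h : ∀ ψ ∈ parabolicHoms ℤ Γ ℤ, F ℤ ψ = 0 → F' ℤ ψ = 0 → t ℤ ψ = 0) :
    ∀ φ ∈ parabolicHoms ℂ Γ ℂ, F ℂ φ = 0 → F' ℂ φ = 0 → t ℂ φ = 0 := fun φ hφ hFφ hF'φ =>
  transfer_of_int₂ (parabolicSet Γ) hF hF' ht (fun ψ hψ => h ψ hψ) φ hφ hFφ hF'φ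

end Lattice

end Fermat.Agent.S41.H88
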