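import Mathlib
import Fermat.Agent.S41.H58_Generation
import Fermat.Agent.S41.H65_DegDefs
import Fermat.Agent.S41.H49_EisGamma0
import Fermat.Agent.S41.H66_ThetaKernel
import Fermat.Agent.S41.H88_Lattice

/-!
# S41, package E2 (helper82): the glue of Ihara's lemma

`N > 0`, `q` prime, `q ∤ N`, `p` a prime.  Input: the congruence subgroup property of
`Γ₀(N)[1/q]` for `𝔽_p`-valued characters, as the named hypothesis `CSPHyp N q p` (it is implied by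
the multiplicative shape `csp_ab` of the blueprint, see `cspHyp_of_mul`).

Output (`exists_ihara_level`): there is a level `M > 0` such that for every pair
`φ ψ : Hom(Γ₀(N), ℤ)` with `res φ + cst ψ ∈ p · Hom(Γ₀(N q), ℤ)` and every prime `ℓ ∤ N` prime to
`M`, both `T_ℓ φ - (ℓ + 1) φ` and `T_ℓ ψ - (ℓ + 1) ψ` lie in `p · Hom(Γ₀(N), ℤ)`.
`exists_ihara_level_parabolic` is the same statement on the lattice
`L_N = parabolicHoms ℤ (Gamma0 N) ℤ` in the vocabulary `pSub` of `H66` (hypothesis `hI` of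
`H66.levelRaising_support`).

Proof: reduce mod `p`; `res φ̄ = cst (-ψ̄)` is exactly the compatibility needed by helper58's
`glue_gamma_add`, which produces `Φ : Γ₀(N)[1/q] → 𝔽_p` with `Φ ∘ ι = φ̄`, `Φ ∘ ι' = -ψ̄`; CSP for
`Φ` and for `Φ ∘ twist` (the twist by `δ = diag(q, 1)` normalises `Γ₀(N)[1/q]`) gives levels
`M₁`, `M₂` with `φ̄`, `ψ̄` trivial on `Γ(M₁ M₂) ∩ Γ₀(N)`; helper49's `E1` then gives
`T_ℓ φ̄ = (ℓ + 1) φ̄`; by naturality of `T_ℓ` in the coefficient group `T_ℓ φ - (ℓ + 1) φ` is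
divisible by `p`.  One `M` serves all pairs because the module of admissible pairs is finitely
generated over `ℤ`.
-/

set_option autoImplicit false

open CongruenceSubgroup Matrix.SpecialLinearGroup
open scoped MatrixGroups

namespace Fermat.Agent.S41.H82

open Fermat.Agent.S41

/-! ## The CSP hypothesis -/

/-- The congruence subgroup property of `Γ₀(N)[1/q]` for `𝔽_p`-valued characters, in the shape
consumed by Ihara's lemma: every additive character of `Γ₀(N)[1/q]` with values in `ZMod p`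
restricts on `Γ₀(N)` to a character trivial on `Γ(M) ∩ Γ₀(N)` for some `M > 0`. -/
def CSPHyp (N q p : ℕ) [Fact q.Prime] : Prop :=
  ∀ Φ : Additive ↥(H58.Delta N q) →+ ZMod p, ∃ M : ℕ, 0 < M ∧
    ∀ γ : Gamma0 N, (γ : SL(2, ℤ)) ∈ Gamma M → Φ (Additive.ofMul (H58.iota N q γ)) = 0

/-- The multiplicative shape `csp_ab` of the blueprint implies `CSPHyp`. -/
theorem cspHyp_of_mul {N q p : ℕ} [Fact q.Prime]
    (h : ∀ Φ : ↥(H58.Delta N q) →* Multiplicative (ZMod p), ∃ M : ℕ, 0 < M ∧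
      ∀ γ : SL(2, ℤ), γ ∈ Gamma M → ∀ hγ : H58.castQ γ ∈ H58.Delta N q,
        Φ ⟨H58.castQ γ, hγ⟩ = 1) : CSPHyp N q p := by
  intro Φ
  obtain ⟨M, hM, hΦ⟩ := h (AddMonoidHom.toMultiplicativeRight Φ)
  refine ⟨M, hM, fun γ hγ => ?_⟩
  have := hΦ (γ : SL(2, ℤ)) hγ (H58.iota N q γ).2
  exact congrArg Multiplicative.toAdd this

/-- `Γ(M') ≤ Γ(M)` for `M ∣ M'`. -/
theorem gamma_le_of_dvd {M M' : ℕ} (h : M ∣ M') : Gamma M' ≤ Gamma M := by
  intro γ hγ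
  rw [Gamma_mem] at hγ ⊢
  obtain ⟨h00, h01, h10, h11⟩ := hγ
  have key : ∀ z : ℤ, ∀ c : ℤ, ((z : ℤ) : ZMod M') = (c : ZMod M') →
      ((z : ℤ) : ZMod M) = (c : ZMod M) := by
    intro z c hz
    have := congrArg (ZMod.castHom h (ZMod M)) hz
    simpa using this
  refine ⟨?_, ?_, ?_, ?_⟩
  · simpa using key _ 1 (by simpa using h00)
  · simpa using key _ 0 (by simpa using h01)
  · simpa using key _ 0 (by simpa using h10)
  · simpa using key _ 1 (by simpa using h11)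

/-! ## The twist automorphism of `Γ₀(N)[1/q]` -/

section twist

variable {N q : ℕ} [hq : Fact q.Prime]

/-- Conjugation by `diag(1, q)` as an endomorphism of `Γ₀(N)[1/q]`. -/
def twistDelta (hNq : Nat.Coprime N q) : ↥(H58.Delta N q) →* ↥(H58.Delta N q) where
  toFun g := ⟨H58.twistMat q (H58.q_ne_zero q) g, (H58.twist_mem_Delta_iff hNq).mpr g.2⟩
  map_one' := Subtype.ext (by
    show H58.twistEquiv q (H58.q_ne_zero q) 1 = 1
    simp)
  map_mul' a b := Subtype.ext (by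
    show H58.twistEquiv q (H58.q_ne_zero q) ((a : SL(2, ℚ)) * b) =
      H58.twistEquiv q (H58.q_ne_zero q) a * H58.twistEquiv q (H58.q_ne_zero q) b
    simp)

theorem twistDelta_iota (hNq : Nat.Coprime N q) (γ : Gamma0 N) :
    twistDelta hNq (H58.iota N q γ) = H58.iota' N q γ := rfl

end twist

/-! ## Mod `p` coefficients -/

section modp

variable {N q p : ℕ} [hq : Fact q.Prime]

/-- **Gluing**: if `res φ + cst ψ = 0` for characters `φ`, `ψ` of `Γ₀(N)` (any coefficient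
group), there is a character `Φ` of `Γ₀(N)[1/q]` with `Φ ∘ ι = φ` and `Φ ∘ ι' = -ψ`. -/
theorem exists_glued {A : Type*} [AddCommGroup A] (hNq : Nat.Coprime N q)
    (φ ψ : Additive (Gamma0 N) →+ A)
    (h : H65.res A N q φ + H65.cst A N hq.out.ne_zero ψ = 0) :
    ∃ Φ : Additive ↥(H58.Delta N q) →+ A,
      (∀ γ : Gamma0 N, Φ (Additive.ofMul (H58.iota N q γ)) = φ (Additive.ofMul γ)) ∧
      (∀ γ : Gamma0 N, Φ (Additive.ofMul (H58.iota' N q γ)) = -ψ (Additive.ofMul γ)) := by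
  have hq0 : q ≠ 0 := hq.out.ne_zero
  -- the compatibility for gluing `φ` and `-ψ`
  have hc : ∀ γ₁ γ₂ : ↥(Gamma0 N),
      H58.castQ γ₁ = H58.twistMat q (H58.q_ne_zero q) (H58.castQ γ₂) →
      φ (Additive.ofMul γ₁) = (-ψ) (Additive.ofMul γ₂) := by
    intro γ₁ γ₂ h12
    obtain ⟨h00, h01, h10, h11⟩ := H58.castQ_eq_twist_iff.mp h12
    -- `γ₁ ∈ Γ₀(N q)`
    have hmem : (γ₁ : SL(2, ℤ)) ∈ Gamma0 (N * q) := by
      rw [H72.mem_Gamma0_iff_dvd]
      have h2 : ((N : ℕ) : ℤ) ∣ (γ₂ : SL(2, ℤ)) 1 0 := H72.mem_Gamma0_iff_dvd.mp γ₂.2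
      obtain ⟨c, hc⟩ := h2
      refine ⟨c, ?_⟩
      have : (γ₁ : SL(2, ℤ)) 1 0 = (q : ℤ) * (γ₂ : SL(2, ℤ)) 1 0 := h10
      rw [this, hc]
      push_cast
      ring
    let g : Gamma0 (N * q) := ⟨(γ₁ : SL(2, ℤ)), hmem⟩
    have hincl : H65.inclHom N q g = γ₁ := Subtype.ext rfl
    have hcH : H65.cHom hq0 g = γ₂ := by
      apply Subtype.ext
      apply Subtype.ext
      rw [H65.cHom_coe_apply]
      have hq' : (q : ℤ) ≠ 0 := by exact_mod_cast hq0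
      have e10 : (γ₁ : SL(2, ℤ)) 1 0 / (q : ℤ) = (γ₂ : SL(2, ℤ)) 1 0 := by
        have : (γ₁ : SL(2, ℤ)) 1 0 = (q : ℤ) * (γ₂ : SL(2, ℤ)) 1 0 := h10
        rw [this, Int.mul_ediv_cancel_left _ hq']
      ext i j
      fin_cases i <;> fin_cases j
      · exact h00
      · exact h01
      · exact e10
      · exact h11
    have hg := DFunLike.congr_fun h (Additive.ofMul g)
    rw [AddMonoidHom.add_apply, H65.res_apply_apply, H65.cst_apply_apply, hincl, hcH] at hg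
    rw [AddMonoidHom.neg_apply]
    exact eq_neg_of_add_eq_zero_left hg
  obtain ⟨Φ, ⟨hΦ0, hΦ1⟩, -⟩ := H58.glue_gamma_add hNq φ (-ψ) hc
  exact ⟨Φ, hΦ0, fun γ => by rw [hΦ1 γ, AddMonoidHom.neg_apply]⟩

/-- If `res φ + cst ψ = 0` for `𝔽_p`-valued characters `φ`, `ψ` of `Γ₀(N)`, then (under CSP) both
are trivial on `Γ(M) ∩ Γ₀(N)` for some `M > 0`. -/
theorem exists_level_of_res_add_cst_eq_zero (hcsp : CSPHyp N q p) (hNq : Nat.Coprime N q)
    (φ ψ : Additive (Gamma0 N) →+ ZMod p)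
    (h : H65.res (ZMod p) N q φ + H65.cst (ZMod p) N hq.out.ne_zero ψ = 0) :
    ∃ M : ℕ, 0 < M ∧
      (∀ γ : Gamma0 N, (γ : SL(2, ℤ)) ∈ Gamma M → φ (Additive.ofMul γ) = 0) ∧
      (∀ γ : Gamma0 N, (γ : SL(2, ℤ)) ∈ Gamma M → ψ (Additive.ofMul γ) = 0) := by
  obtain ⟨Φ, hΦ0, hΦ1⟩ := exists_glued hNq φ ψ h
  obtain ⟨M₁, hM₁, h₁⟩ := hcsp Φ
  obtain ⟨M₂, hM₂, h₂⟩ := hcsp (Φ.comp (MonoidHom.toAdditive (twistDelta hNq)))
  refine ⟨M₁ * M₂, Nat.mul_pos hM₁ hM₂, fun γ hγ => ?_, fun γ hγ => ?_⟩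
  · rw [← hΦ0 γ]
    exact h₁ γ (gamma_le_of_dvd (Dvd.intro _ rfl) hγ)
  · have h3 := h₂ γ (gamma_le_of_dvd (Dvd.intro_left _ rfl) hγ)
    have h4 : (Φ.comp (MonoidHom.toAdditive (twistDelta hNq)))
        (Additive.ofMul (H58.iota N q γ)) = Φ (Additive.ofMul (H58.iota' N q γ)) := rfl
    rw [h4, hΦ1 γ, neg_eq_zero] at h3
    exact h3

end modp

/-! ## Integral coefficients -/

section integral

open Fermat.Agent.S41.H66 (pSub mem_pSub)

/-- A `ℤ`-valued character whose reduction mod `p` vanishes is divisible by `p`. -/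
theorem exists_eq_smul_of_castHom_comp_eq_zero {G : Type*} [AddGroup G] {p : ℕ} [NeZero p]
    (φ : G →+ ℤ) (h : (Int.castAddHom (ZMod p)).comp φ = 0) :
    ∃ φ' : G →+ ℤ, φ = (p : ℤ) • φ' := by
  have hp0 : (p : ℤ) ≠ 0 := by exact_mod_cast NeZero.ne p
  have hdvd : ∀ g, (p : ℤ) ∣ φ g := by
    intro g
    have := DFunLike.congr_fun h g
    exact (ZMod.intCast_zmod_eq_zero_iff_dvd (φ g) p).mp (by simpa using this)
  refine ⟨{ toFun := fun g => φ g / p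
            map_zero' := by simp
            map_add' := fun a b => by
              rw [map_add, Int.add_ediv_of_dvd_left (hdvd a)] }, ?_⟩
  refine AddMonoidHom.ext fun g => ?_
  show φ g = (p : ℤ) • (φ g / p)
  rw [smul_eq_mul, Int.mul_ediv_cancel' (hdvd g)]

variable {N q p : ℕ} [hq : Fact q.Prime] [NeZero N] [NeZero p]

/-- **Ihara glue for one pair** `(φ, ψ)`. -/
theorem exists_level_pair (hcsp : CSPHyp N q p) (hNq : Nat.Coprime N q)
    (φ ψ : Additive (Gamma0 N) →+ ℤ) (y : Additive (Gamma0 (N * q)) →+ ℤ)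
    (h : H65.res ℤ N q φ + H65.cst ℤ N hq.out.ne_zero ψ = (p : ℤ) • y) :
    ∃ M : ℕ, 0 < M ∧ ∀ (l : ℕ) (hl : l.Prime) (hlN : ¬ l ∣ N), l.Coprime M →
      (∃ φ' : Additive (Gamma0 N) →+ ℤ,
        H85.heckeTHom ℤ hl hlN φ - ((l : ℤ) + 1) • φ = (p : ℤ) • φ') ∧
      (∃ ψ' : Additive (Gamma0 N) →+ ℤ,
        H85.heckeTHom ℤ hl hlN ψ - ((l : ℤ) + 1) • ψ = (p : ℤ) • ψ') := by
  set c : ℤ →+ ZMod p := Int.castAddHom (ZMod p) with hc
  have hq0 : q ≠ 0 := hq.out.ne_zero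
  -- the reductions satisfy `res φ̄ + cst ψ̄ = 0`
  have h0 : H65.res (ZMod p) N q (c.comp φ) + H65.cst (ZMod p) N hq0 (c.comp ψ) = 0 := by
    have e1 : H65.res (ZMod p) N q (c.comp φ) = c.comp (H65.res ℤ N q φ) :=
      (H65.resDatum N q).op_comp_hom c φ
    have e2 : H65.cst (ZMod p) N hq0 (c.comp ψ) = c.comp (H65.cst ℤ N hq0 ψ) :=
      (H65.cstDatum N hq0).op_comp_hom c ψ
    rw [e1, e2, ← AddMonoidHom.comp_add, h]
    refine AddMonoidHom.ext fun g => ?_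
    simp [hc]
  obtain ⟨M, hM, hφ, hψ⟩ := exists_level_of_res_add_cst_eq_zero hcsp hNq _ _ h0
  have : NeZero M := ⟨hM.ne'⟩
  refine ⟨M, hM, fun l hl hlN hlM => ?_⟩
  have key : ∀ χ : Additive (Gamma0 N) →+ ℤ,
      (∀ γ : Gamma0 N, (γ : SL(2, ℤ)) ∈ Gamma M → (c.comp χ) (Additive.ofMul γ) = 0) →
      ∃ χ' : Additive (Gamma0 N) →+ ℤ,
        H85.heckeTHom ℤ hl hlN χ - ((l : ℤ) + 1) • χ = (p : ℤ) • χ' := by
    intro χ hχ
    apply exists_eq_smul_of_castHom_comp_eq_zero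
    have e1 := H49.heckeTHom_eq_nsmul_of_kills_Gamma hl hlN hlM (c.comp χ) hχ
    have e2 : H85.heckeTHom (ZMod p) hl hlN (c.comp χ) = c.comp (H85.heckeTHom ℤ hl hlN χ) := by
      have : Fact l.Prime := ⟨hl⟩
      exact (H85.heckeTDatum N l hlN).op_comp_hom c χ
    rw [e2] at e1
    rw [AddMonoidHom.comp_sub, e1]
    refine AddMonoidHom.ext fun g => ?_
    simp [hc]
  exact ⟨key φ hφ, key ψ hψ⟩

/-- **Ihara glue, uniform level**: one `M` for all pairs `(φ, ψ)` with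
`res φ + cst ψ ∈ p · Hom(Γ₀(N q), ℤ)`. -/
theorem exists_ihara_level (hcsp : CSPHyp N q p) (hNq : Nat.Coprime N q) :
    ∃ M : ℕ, 0 < M ∧ ∀ (φ ψ : Additive (Gamma0 N) →+ ℤ),
      H65.res ℤ N q φ + H65.cst ℤ N hq.out.ne_zero ψ ∈
        pSub p (Additive (Gamma0 (N * q)) →+ ℤ) →
      ∀ (l : ℕ) (hl : l.Prime) (hlN : ¬ l ∣ N), l.Coprime M →
        H85.heckeTHom ℤ hl hlN φ - ((l : ℤ) + 1) • φ ∈ pSub p (Additive (Gamma0 N) →+ ℤ) ∧
        H85.heckeTHom ℤ hl hlN ψ - ((l : ℤ) + 1) • ψ ∈ pSub p (Additive (Gamma0 N) →+ ℤ) := by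
  classical
  have hq0 : q ≠ 0 := hq.out.ne_zero
  have : Group.FG (Gamma0 N) := S22.H82.groupFG_Gamma0 N
  -- the linear map `α`
  let H := Additive (Gamma0 N) →+ ℤ
  let H₂ := Additive (Gamma0 (N * q)) →+ ℤ
  let α : H × H →ₗ[ℤ] H₂ :=
    (H65.res ℤ N q).toIntLinearMap ∘ₗ LinearMap.fst ℤ H H +
      (H65.cst ℤ N hq0).toIntLinearMap ∘ₗ LinearMap.snd ℤ H H
  let K : Submodule ℤ (H × H) := (pSub p H₂).comap α
  have hKfg : K.FG := IsNoetherian.noetherian K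
  obtain ⟨s, hs⟩ := hKfg
  -- a level for every element of `K`
  have hex : ∀ x : H × H, ∃ M : ℕ, 0 < M ∧ (x ∈ K → ∀ (l : ℕ) (hl : l.Prime) (hlN : ¬ l ∣ N),
      l.Coprime M →
      (∃ φ' : H, H85.heckeTHom ℤ hl hlN x.1 - ((l : ℤ) + 1) • x.1 = (p : ℤ) • φ') ∧
      (∃ ψ' : H, H85.heckeTHom ℤ hl hlN x.2 - ((l : ℤ) + 1) • x.2 = (p : ℤ) • ψ')) := by
    intro x
    by_cases hx : x ∈ K
    · obtain ⟨y, hy⟩ := mem_pSub.mp (show α x ∈ pSub p H₂ from hx)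
      obtain ⟨M, hM, hMl⟩ := exists_level_pair hcsp hNq x.1 x.2 y hy.symm
      exact ⟨M, hM, fun _ => hMl⟩
    · exact ⟨1, one_pos, fun h => absurd h hx⟩
  choose Mf hMpos hMf using hex
  refine ⟨∏ x ∈ s, Mf x, Finset.prod_pos fun x _ => hMpos x, fun φ ψ hφψ l hl hlN hlM => ?_⟩
  -- the operator `T_l - (l + 1)` on pairs
  let τ : H →ₗ[ℤ] H := (H85.heckeTHom ℤ hl hlN).toIntLinearMap - ((l : ℤ) + 1) • LinearMap.id
  let τ₂ : H × H →ₗ[ℤ] H × H := τ.prodMap τ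
  have hle : K ≤ (pSub p (H × H)).comap τ₂ := by
    rw [← hs, Submodule.span_le]
    intro x hx
    have hxK : x ∈ K := hs ▸ Submodule.subset_span hx
    have hcop : l.Coprime (Mf x) :=
      Nat.Coprime.coprime_dvd_right (Finset.dvd_prod_of_mem Mf hx) hlM
    obtain ⟨⟨φ', hφ'⟩, ⟨ψ', hψ'⟩⟩ := hMf x hxK l hl hlN hcop
    show τ₂ x ∈ pSub p (H × H)
    rw [H66.mem_pSub_prod]
    exact ⟨mem_pSub.mpr ⟨φ', hφ'.symm⟩, mem_pSub.mpr ⟨ψ', hψ'.symm⟩⟩
  have hmem : τ₂ (φ, ψ) ∈ pSub p (H × H) := hle (show α (φ, ψ) ∈ pSub p H₂ from hφψ)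
  rw [H66.mem_pSub_prod] at hmem
  exact hmem

/-! ## The generic form: any natural operator family killing the glued characters

This is the form consumed by the "centrality + transfer" route (helper31's Lemma T): the
hypothesis `hkill` is about characters of `Γ₀(N)[1/q]` whose two restrictions to `Γ₀(N)` are
parabolic, the operator `T` is e.g. `(T_{l'} - (l' + 1)) ∘ (T_l - (l + 1))`. -/

open ModularCurve.Period in
omit [NeZero N] in
/-- **Ihara glue, generic form.**  Let `T` be an operator family on `Hom(Γ₀(N), ·)`, natural in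
the coefficient group, which kills `Φ ∘ ι` and `Φ ∘ ι'` for every `𝔽_p`-valued character `Φ` of
`Γ₀(N)[1/q]` whose restrictions `Φ ∘ ι`, `Φ ∘ ι'` are parabolic.  Then for parabolic `φ ψ` in
`Hom(Γ₀(N), ℤ)` with `res φ + cst ψ ∈ p · Hom(Γ₀(N q), ℤ)` both `T φ` and `T ψ` lie in
`p · Hom(Γ₀(N), ℤ)`. -/
theorem ihara_of_glued_kill (hNq : Nat.Coprime N q)
    (T : H88.OpFamily (Gamma0 N) (Gamma0 N)) (hT : T.IsNatural)
    (hkill : ∀ Φ : Additive ↥(H58.Delta N q) →+ ZMod p,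
      IsParabolicHom (Gamma0 N) (Φ.comp (MonoidHom.toAdditive (H58.iota N q))) →
      IsParabolicHom (Gamma0 N) (Φ.comp (MonoidHom.toAdditive (H58.iota' N q))) →
      T (ZMod p) (Φ.comp (MonoidHom.toAdditive (H58.iota N q))) = 0 ∧
      T (ZMod p) (Φ.comp (MonoidHom.toAdditive (H58.iota' N q))) = 0)
    (φ ψ : Additive (Gamma0 N) →+ ℤ) (hφ : IsParabolicHom (Gamma0 N) φ)
    (hψ : IsParabolicHom (Gamma0 N) ψ)
    (h : H65.res ℤ N q φ + H65.cst ℤ N hq.out.ne_zero ψ ∈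
      pSub p (Additive (Gamma0 (N * q)) →+ ℤ)) :
    T ℤ φ ∈ pSub p (Additive (Gamma0 N) →+ ℤ) ∧ T ℤ ψ ∈ pSub p (Additive (Gamma0 N) →+ ℤ) := by
  set c : ℤ →+ ZMod p := Int.castAddHom (ZMod p) with hc
  have hq0 : q ≠ 0 := hq.out.ne_zero
  obtain ⟨y, hy⟩ := mem_pSub.mp h
  have h0 : H65.res (ZMod p) N q (c.comp φ) + H65.cst (ZMod p) N hq0 (c.comp ψ) = 0 := by
    have e1 : H65.res (ZMod p) N q (c.comp φ) = c.comp (H65.res ℤ N q φ) :=
      (H65.resDatum N q).op_comp_hom c φ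
    have e2 : H65.cst (ZMod p) N hq0 (c.comp ψ) = c.comp (H65.cst ℤ N hq0 ψ) :=
      (H65.cstDatum N hq0).op_comp_hom c ψ
    rw [e1, e2, ← AddMonoidHom.comp_add, ← hy]
    refine AddMonoidHom.ext fun g => ?_
    simp [hc]
  obtain ⟨Φ, hΦ0, hΦ1⟩ := exists_glued hNq _ _ h0
  have e0 : Φ.comp (MonoidHom.toAdditive (H58.iota N q)) = c.comp φ :=
    AddMonoidHom.ext fun γ => hΦ0 (Additive.toMul γ)
  have e1 : Φ.comp (MonoidHom.toAdditive (H58.iota' N q)) = -(c.comp ψ) :=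
    AddMonoidHom.ext fun γ => hΦ1 (Additive.toMul γ)
  have hpar0 : IsParabolicHom (Gamma0 N) (c.comp φ) := fun γ hγ => by
    show c (φ (Additive.ofMul γ)) = 0
    rw [hφ γ hγ, map_zero]
  have hpar1 : IsParabolicHom (Gamma0 N) (-(c.comp ψ)) := fun γ hγ => by
    show -(c (ψ (Additive.ofMul γ))) = 0
    rw [hψ γ hγ, map_zero, neg_zero]
  obtain ⟨k0, k1⟩ := hkill Φ (e0 ▸ hpar0) (e1 ▸ hpar1)
  rw [e0] at k0
  rw [e1, map_neg, neg_eq_zero] at k1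
  rw [hT.nat ℤ (ZMod p) c φ] at k0
  rw [hT.nat ℤ (ZMod p) c ψ] at k1
  obtain ⟨φ', hφ'⟩ := exists_eq_smul_of_castHom_comp_eq_zero _ k0
  obtain ⟨ψ', hψ'⟩ := exists_eq_smul_of_castHom_comp_eq_zero _ k1
  exact ⟨mem_pSub.mpr ⟨φ', hφ'.symm⟩, mem_pSub.mpr ⟨ψ', hψ'.symm⟩⟩

/-! ## The parabolic lattice `L_N` -/

open ModularCurve.Period in
/-- An element of the parabolic lattice whose underlying character is divisible by `p` is
divisible by `p` in the lattice (`ℤ` is torsion free). -/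
theorem mem_pSub_parabolic_of_coe_mem (Γ : Subgroup SL(2, ℤ))
    (χ : ↥(parabolicHoms ℤ Γ ℤ)) (h : (χ : Additive Γ →+ ℤ) ∈ pSub p (Additive Γ →+ ℤ)) :
    χ ∈ pSub p ↥(parabolicHoms ℤ Γ ℤ) := by
  have hp0 : (p : ℤ) ≠ 0 := by exact_mod_cast NeZero.ne p
  obtain ⟨χ', hχ'⟩ := mem_pSub.mp h
  have hpar : χ' ∈ parabolicHoms ℤ Γ ℤ := by
    intro γ hγ
    have h1 : (χ : Additive Γ →+ ℤ) (Additive.ofMul γ) = 0 := χ.2 γ hγ
    rw [← hχ'] at h1
    have h2 : (p : ℤ) * χ' (Additive.ofMul γ) = 0 := h1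
    exact (mul_eq_zero.mp h2).resolve_left hp0
  exact mem_pSub.mpr ⟨⟨χ', hpar⟩, Subtype.ext hχ'⟩

open ModularCurve.Period in
omit [NeZero p] in
/-- The underlying character of an element of `p L` is divisible by `p`. -/
theorem coe_mem_pSub_of_mem_pSub_parabolic (Γ : Subgroup SL(2, ℤ))
    (χ : ↥(parabolicHoms ℤ Γ ℤ)) (h : χ ∈ pSub p ↥(parabolicHoms ℤ Γ ℤ)) :
    (χ : Additive Γ →+ ℤ) ∈ pSub p (Additive Γ →+ ℤ) := by
  obtain ⟨χ', hχ'⟩ := mem_pSub.mp h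
  exact mem_pSub.mpr ⟨χ', by rw [← hχ']; rfl⟩

open ModularCurve.Period in
/-- **Ihara glue on the parabolic lattice** (hypothesis `hI` of `H66.levelRaising_support`, for
the operator `t₁ = T_l - (l + 1)`): there is `M > 0` such that for every pair `x = (φ, ψ)` in
`L_N × L_N` with `res φ + cst ψ` divisible by `p` and every prime `l ∤ N` prime to `M`,
`(T_l - (l + 1)) x ∈ p (L_N × L_N)`. -/
theorem exists_ihara_level_parabolic (hcsp : CSPHyp N q p) (hNq : Nat.Coprime N q) :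
    ∃ M : ℕ, 0 < M ∧ ∀ x : ↥(parabolicHoms ℤ (Gamma0 N) ℤ) × ↥(parabolicHoms ℤ (Gamma0 N) ℤ),
      H65.res ℤ N q (x.1 : Additive (Gamma0 N) →+ ℤ) +
          H65.cst ℤ N hq.out.ne_zero (x.2 : Additive (Gamma0 N) →+ ℤ) ∈
        pSub p (Additive (Gamma0 (N * q)) →+ ℤ) →
      ∀ (l : ℕ) (hl : l.Prime) (hlN : ¬ l ∣ N), l.Coprime M →
        (H85.heckeTPar ℤ ℤ hl hlN x.1 - ((l : ℤ) + 1) • x.1,
          H85.heckeTPar ℤ ℤ hl hlN x.2 - ((l : ℤ) + 1) • x.2) ∈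
          pSub p (↥(parabolicHoms ℤ (Gamma0 N) ℤ) × ↥(parabolicHoms ℤ (Gamma0 N) ℤ)) := by
  obtain ⟨M, hM, h⟩ := exists_ihara_level hcsp hNq
  refine ⟨M, hM, fun x hx l hl hlN hlM => ?_⟩
  obtain ⟨h1, h2⟩ := h x.1 x.2 hx l hl hlN hlM
  rw [H66.mem_pSub_prod]
  exact ⟨mem_pSub_parabolic_of_coe_mem _ _ h1, mem_pSub_parabolic_of_coe_mem _ _ h2⟩

end integral

end Fermat.Agent.S41.H82
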