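import Fermat.Agent.S41.H2_CSPGlueI
import Fermat.Agent.S41.H57_CSP_Wild
import Fermat.Agent.S41.H70_CSP_TheoremTWild
import Fermat.Agent.S41.H49_Ihara
import Fermat.Agent.S41.H82_IharaGlue

/-!
# Package D complete: Theorem T and the congruence subgroup property (helper2)

* `theoremT` : `H2.TheoremT p` for every odd prime `p` (base: helper89; tame: helper70/39/1/66;
  wild: helper57; induction: `H2.theoremT_of_steps`).
* `cspAb` : `H49.CspAb N q p`, the hypothesis of `H49.ihara_parabolic` — unconditional.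
* `cspHyp` : `H82.CSPHyp N q p`, the hypothesis of helper82's `H82_IharaGlue` — unconditional.
-/

set_option autoImplicit false

open Matrix CongruenceSubgroup
open scoped MatrixGroups

namespace Fermat.Agent.S41.H2

/-- **Theorem T**: for an odd prime `p`, every `SL(2, ℤ)`-invariant character `Γ(m) → 𝔽_p` with
`p ∣ m` is trivial. -/
theorem theoremT {p : ℕ} (hp : p.Prime) (hp2 : p ≠ 2) : TheoremT p :=
  H70.theoremT_of_wild hp hp2 (fun _ hm1 hpm1 => H57.wild_extension hp hp2 hm1 hpm1)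

/-- **CSP (package D)** in the shape consumed by `H49.ihara_parabolic`. -/
theorem cspAb {N q p : ℕ} [hq : Fact q.Prime] [hp : Fact p.Prime] (hp2 : p ≠ 2) (hN : 0 < N)
    (hNq : Nat.Coprime N q) (hqp : q ≠ p) : H49.CspAb N q p :=
  fun Φ γ hγ hγ' => csp_ab_of_theoremT' hN hNq hqp Φ (theoremT hp.out hp2) γ hγ hγ'

/-- **CSP (package D)** in the shape consumed by helper82's `H82_IharaGlue`. -/
theorem cspHyp {N q p : ℕ} [hq : Fact q.Prime] [hp : Fact p.Prime] (hp2 : p ≠ 2) (hN : 0 < N)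
    (hNq : Nat.Coprime N q) (hqp : q ≠ p) : H82.CSPHyp N q p :=
  H82.cspHyp_of_mul (fun Φ => ⟨p * N, Nat.mul_pos hp.out.pos hN,
    fun γ hγ hγ' => cspAb hp2 hN hNq hqp Φ γ hγ hγ'⟩)

end Fermat.Agent.S41.H2
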