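/-
S41, package I-TRANSFER (helper31): **centrality alone gives Ihara's lemma**.

Let `φ : Γ₀(N) → A` be a parabolic homomorphism whose restriction to `Γ(M)` (`N ∣ M`) is
invariant under conjugation by all of `SL₂(ℤ)`.  Then `T_ℓ φ = (ℓ + 1) φ` for every prime
`ℓ ≡ 1 mod M`
(`heckeTHom_eq_nsmul_of_isInvPar`).  No congruence subgroup property is needed.
Two-level version: invariance is only required on `Γ(M)` for some multiple `M` of `N`
(e.g. `M = p N`), and then `ℓ ≡ 1 mod M`.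

Proof: with `a(s,x)` the Hecke cocycle of level one and `b(s,x) = u_x s u_{σ_s x}⁻¹` the
"trivial" cocycle (`u_x` upper unipotent lifts of the representatives mod `N`), the function
`f(s) = ∑_x φ(a(s,x) b(s,x)⁻¹)` is a homomorphism `SL₂(ℤ) → A` which kills the unipotent
generators, hence vanishes; on `Γ₀(N)` it equals `T_ℓ φ - (ℓ+1) φ`.
-/
import Mathlib
import Fermat.Agent.S41.H49_EisGamma0
import Fermat.Agent.S41.H2_CSPDefs

set_option autoImplicit false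

open CongruenceSubgroup Matrix.SpecialLinearGroup ModularForm ModularCurve.Period
open scoped MatrixGroups

namespace Fermat.Agent.S41.H31

open Fermat.Agent.S41

section abstract

variable {G Γ₁ Γ₂ : Type*} [Group G] [Group Γ₁] [Group Γ₂] {ι₁ : Γ₁ →* G} {ι₂ : Γ₂ →* G}
  {I : Type*} [Fintype I] {A : Type*} [AddCommGroup A]
  (D : H85.CosetDatum ι₁ ι₂ I) (F : Γ₂ → I → A)

/-- A twisted additive cocycle over the permutation action of a coset datum. -/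
def IsAddCocycle : Prop := ∀ s t x, F (s * t) x = F s x + F t (D.perm s x)

variable {D F}

theorem IsAddCocycle.sum_mul (hF : IsAddCocycle D F) (s t : Γ₂) :
    ∑ x, F (s * t) x = ∑ x, F s x + ∑ x, F t x := by
  simp only [hF s t, Finset.sum_add_distrib]
  congr 1
  exact Equiv.sum_comp (D.permEquiv s) (fun x => F t x)

omit [Fintype I] in
theorem IsAddCocycle.map_one (hF : IsAddCocycle D F) (x : I) : F 1 x = 0 := by
  have h := hF 1 1 x
  rw [mul_one, D.perm_one] at h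
  exact left_eq_add.mp h

/-- The sum of a twisted additive cocycle is a homomorphism. -/
def IsAddCocycle.sumHom (hF : IsAddCocycle D F) : Γ₂ →* Multiplicative A where
  toFun s := Multiplicative.ofAdd (∑ x, F s x)
  map_one' := by simp [hF.map_one]
  map_mul' s t := by rw [hF.sum_mul, ofAdd_add]

theorem IsAddCocycle.sumHom_apply (hF : IsAddCocycle D F) (s : Γ₂) :
    hF.sumHom s = Multiplicative.ofAdd (∑ x, F s x) := rfl

omit [Fintype I] in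
theorem IsAddCocycle.sum_range (hF : IsAddCocycle D F) (u : Γ₂) (n : ℕ) (x : I) :
    ∑ k ∈ Finset.range n, F u (((D.permEquiv u) ^ k) x) = F (u ^ n) x := by
  induction n with
  | zero => simp [hF.map_one]
  | succ n ih =>
    rw [Finset.sum_range_succ, ih, pow_succ, hF (u ^ n) u x, D.permEquiv_pow]

/-- Orbit lemma for twisted additive cocycles. -/
theorem IsAddCocycle.sum_eq_zero_of_periodic (hF : IsAddCocycle D F) (u : Γ₂)
    (h : ∀ (x : I) (m : ℕ), 0 < m → D.perm (u ^ m) x = x → F (u ^ m) x = 0) :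
    ∑ x, F u x = 0 := by
  refine H85.CosetDatum.sum_eq_zero_of_forall_periodic (D.permEquiv u) (fun x => F u x)
    fun x m hm hx => ?_
  rw [hF.sum_range u m x]
  exact h x m hm (by rw [← D.permEquiv_pow]; exact hx)

end abstract


section concrete

/-- `SL(2, ℤ) = Γ₀(1)`. -/
def top1 : SL(2, ℤ) →* Gamma0 1 where
  toFun s := ⟨s, H85.mem_Gamma0_of_dvd (by simp)⟩
  map_one' := rfl
  map_mul' _ _ := rfl

@[simp] theorem top1_coe (s : SL(2, ℤ)) : ((top1 s : Gamma0 1) : SL(2, ℤ)) = s := rfl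

@[simp] theorem top1_coe_self (s : Gamma0 1) : top1 (s : SL(2, ℤ)) = s := rfl

/-- Upper triangular elements of `SL(2, ℤ)` form the subgroup `Γ₀(0)`. -/
theorem mem_Gamma0_zero_iff {g : SL(2, ℤ)} : g ∈ Gamma0 0 ↔ g 1 0 = 0 := by
  rw [Gamma0_mem]
  simp

theorem Gamma0_zero_le (N : ℕ) : Gamma0 0 ≤ Gamma0 N := by
  intro g hg
  rw [mem_Gamma0_zero_iff] at hg
  exact H85.mem_Gamma0_of_dvd (by rw [hg]; exact dvd_zero _)

/-- Upper triangular elements of `SL(2, ℤ)` have `tr² = 4`. -/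
theorem trace_sq_of_mem_Gamma0_zero {g : SL(2, ℤ)} (hg : g ∈ Gamma0 0) :
    (g : Matrix (Fin 2) (Fin 2) ℤ).trace ^ 2 = 4 := by
  rw [mem_Gamma0_zero_iff] at hg
  have hdet := g.det_coe
  rw [Matrix.det_fin_two, hg, mul_zero, sub_zero] at hdet
  rw [Matrix.trace_fin_two]
  rcases Int.eq_one_or_neg_one_of_mul_eq_one' hdet with ⟨h1, h2⟩ | ⟨h1, h2⟩
  · rw [h1, h2]; norm_num
  · rw [h1, h2]; norm_num

variable (ℓ : ℕ)

/-- Upper unipotent lifts of the Hecke representatives modulo `M` (for `ℓ ≡ 1 mod M`). -/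
def uT : OnePoint (ZMod ℓ) → SL(2, ℤ)
  | none => 1
  | some j => H49.uU ((j.val : ℕ) : ℤ)

theorem uT_mem (x : OnePoint (ZMod ℓ)) : uT ℓ x ∈ Gamma0 0 := by
  cases x with
  | infty => exact (mem_Gamma0_zero_iff).mpr (by simp [uT])
  | coe j => exact (mem_Gamma0_zero_iff).mpr (by simp [uT, H49.uU])

variable [Fact ℓ.Prime]

/-- The level one Hecke datum. -/
noncomputable def D1 : H85.CosetDatum (H85.gl 1) (H85.gl 1) (OnePoint (ZMod ℓ)) :=
  H85.heckeTDatum 1 ℓ (Fact.out : ℓ.Prime).not_dvd_one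

/-- The Hecke cocycle of level one, with values in `SL(2, ℤ)`. -/
noncomputable def aC (s : Gamma0 1) (x : OnePoint (ZMod ℓ)) : SL(2, ℤ) :=
  (((D1 ℓ).coc s x : Gamma0 1) : SL(2, ℤ))

/-- The trivial cocycle attached to the unipotent lifts. -/
noncomputable def bC (s : Gamma0 1) (x : OnePoint (ZMod ℓ)) : SL(2, ℤ) :=
  uT ℓ x * (s : SL(2, ℤ)) * (uT ℓ ((D1 ℓ).perm s x))⁻¹

/-- The quotient cocycle. -/
noncomputable def rC (s : Gamma0 1) (x : OnePoint (ZMod ℓ)) : SL(2, ℤ) :=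
  aC ℓ s x * (bC ℓ s x)⁻¹

theorem aC_mul (s t : Gamma0 1) (x : OnePoint (ZMod ℓ)) :
    aC ℓ (s * t) x = aC ℓ s x * aC ℓ t ((D1 ℓ).perm s x) := by
  unfold aC
  rw [(D1 ℓ).coc_mul]
  rfl

theorem bC_mul (s t : Gamma0 1) (x : OnePoint (ZMod ℓ)) :
    bC ℓ (s * t) x = bC ℓ s x * bC ℓ t ((D1 ℓ).perm s x) := by
  unfold bC
  rw [(D1 ℓ).perm_mul]
  simp only [Subgroup.coe_mul]
  group

theorem rC_mul (s t : Gamma0 1) (x : OnePoint (ZMod ℓ)) :
    rC ℓ (s * t) x =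
      (aC ℓ s x * rC ℓ t ((D1 ℓ).perm s x) * (aC ℓ s x)⁻¹) * rC ℓ s x := by
  unfold rC
  rw [aC_mul, bC_mul]
  group

theorem heckeInt_mul (s : Gamma0 1) (x : OnePoint (ZMod ℓ)) :
    H49.heckeInt ℓ x * ((s : SL(2, ℤ)) : Matrix (Fin 2) (Fin 2) ℤ) =
      ((aC ℓ s x : SL(2, ℤ)) : Matrix (Fin 2) (Fin 2) ℤ) * H49.heckeInt ℓ ((D1 ℓ).perm s x) :=
  H49.heckeInt_mul_eq 1 ℓ _ s x


variable (M : ℕ)

omit [Fact ℓ.Prime] in
theorem heckeInt_map (hℓ1 : ((ℓ : ℕ) : ZMod M) = 1) (x : OnePoint (ZMod ℓ)) :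
    (H49.heckeInt ℓ x).map (Int.castRingHom (ZMod M)) =
      (H49.redSL M (uT ℓ x) : Matrix (Fin 2) (Fin 2) (ZMod M)) := by
  rw [H49.redSL_val]
  cases x with
  | infty =>
    ext i j
    fin_cases i <;> fin_cases j <;> simp [H49.heckeInt, uT, hℓ1]
  | coe k =>
    ext i j
    fin_cases i <;> fin_cases j <;> simp [H49.heckeInt, uT, H49.uU, hℓ1]

theorem redSL_mul_eq (hℓ1 : ((ℓ : ℕ) : ZMod M) = 1) (s : Gamma0 1) (x : OnePoint (ZMod ℓ)) :
    H49.redSL M (uT ℓ x) * H49.redSL M (s : SL(2, ℤ)) =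
      H49.redSL M (aC ℓ s x) * H49.redSL M (uT ℓ ((D1 ℓ).perm s x)) := by
  apply Subtype.ext
  rw [Matrix.SpecialLinearGroup.coe_mul, Matrix.SpecialLinearGroup.coe_mul,
    ← heckeInt_map ℓ M hℓ1, ← heckeInt_map ℓ M hℓ1, H49.redSL_val, H49.redSL_val,
    ← Matrix.map_mul, ← Matrix.map_mul, heckeInt_mul]

theorem rC_mem_Gamma (hℓ1 : ((ℓ : ℕ) : ZMod M) = 1) (s : Gamma0 1) (x : OnePoint (ZMod ℓ)) :
    rC ℓ s x ∈ Gamma M := by
  rw [Gamma_mem']
  show H49.redSL M (rC ℓ s x) = 1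
  unfold rC bC
  simp only [map_mul, map_inv, mul_inv_rev, inv_inv]
  have h := redSL_mul_eq ℓ M hℓ1 s x
  have h2 : H49.redSL M (aC ℓ s x) =
      H49.redSL M (uT ℓ x) * H49.redSL M (s : SL(2, ℤ)) *
        (H49.redSL M (uT ℓ ((D1 ℓ).perm s x)))⁻¹ := by
    rw [h]; group
  rw [h2]; group


variable (N : ℕ)

variable {A : Type*} [AddCommGroup A] (φ : Additive (Gamma0 N) →+ A)

omit [Fact ℓ.Prime] in
/-- Extension by zero of `φ` to all of `SL(2, ℤ)`. -/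
noncomputable def ext0 (g : SL(2, ℤ)) : A := by
  classical
  exact if h : g ∈ Gamma0 N then φ (Additive.ofMul ⟨g, h⟩) else 0

variable {N}

theorem ext0_of_mem {g : SL(2, ℤ)} (h : g ∈ Gamma0 N) :
    ext0 N φ g = φ (Additive.ofMul ⟨g, h⟩) := by
  unfold ext0
  rw [dif_pos h]

theorem ext0_coe (g : Gamma0 N) : ext0 N φ (g : SL(2, ℤ)) = φ (Additive.ofMul g) :=
  ext0_of_mem φ g.2

theorem ext0_mul {g h : SL(2, ℤ)} (hg : g ∈ Gamma0 N) (hh : h ∈ Gamma0 N) :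
    ext0 N φ (g * h) = ext0 N φ g + ext0 N φ h := by
  rw [ext0_of_mem φ hg, ext0_of_mem φ hh, ext0_of_mem φ ((Gamma0 N).mul_mem hg hh), ← map_add]
  rfl

theorem ext0_inv {g : SL(2, ℤ)} (hg : g ∈ Gamma0 N) :
    ext0 N φ g⁻¹ = - ext0 N φ g := by
  rw [ext0_of_mem φ hg, ext0_of_mem φ ((Gamma0 N).inv_mem hg), ← map_neg]
  rfl

theorem ext0_mul_inv {g h : SL(2, ℤ)} (hg : g ∈ Gamma0 N) (hh : h ∈ Gamma0 N) :
    ext0 N φ (g * h⁻¹) = ext0 N φ g - ext0 N φ h := by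
  rw [ext0_mul φ hg ((Gamma0 N).inv_mem hh), ext0_inv φ hh, sub_eq_add_neg]

theorem ext0_eq_zero_of_trace {g : SL(2, ℤ)} (hφ : IsParabolicHom (Gamma0 N) φ)
    (hg : g ∈ Gamma0 N) (htr : (g : Matrix (Fin 2) (Fin 2) ℤ).trace ^ 2 = 4) :
    ext0 N φ g = 0 := by
  rw [ext0_of_mem φ hg]
  exact hφ ⟨g, hg⟩ htr

theorem Gamma_le_Gamma0 (N : ℕ) : Gamma N ≤ Gamma0 N := by
  intro g hg
  rw [Gamma_mem] at hg
  rw [Gamma0_mem]
  exact hg.2.2.1


theorem Gamma_le_Gamma0_of_dvd {N M : ℕ} (h : N ∣ M) : Gamma M ≤ Gamma0 N :=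
  (H2.Gamma_le_of_dvd h).trans (Gamma_le_Gamma0 N)

/-- The hypotheses on `φ`: parabolic, and `SL(2, ℤ)`-conjugation invariant on `Γ(M)`, where
`N ∣ M`. -/
structure IsInvPar (M : ℕ) : Prop where
  dvd : N ∣ M
  par : IsParabolicHom (Gamma0 N) φ
  inv : ∀ s g : SL(2, ℤ), g ∈ Gamma M → ext0 N φ (s * g * s⁻¹) = ext0 N φ g

/-- The additive cocycle `F(s, x) = φ(a(s,x) b(s,x)⁻¹)`. -/
noncomputable def Fc (s : Gamma0 1) (x : OnePoint (ZMod ℓ)) : A := ext0 N φ (rC ℓ s x)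

variable {φ} {M : ℕ}

theorem isAddCocycle_Fc (hℓ1 : ((ℓ : ℕ) : ZMod M) = 1) (h : IsInvPar φ M) :
    IsAddCocycle (D1 ℓ) (Fc ℓ φ) := by
  intro s t x
  unfold Fc
  rw [rC_mul]
  have h1 : rC ℓ t ((D1 ℓ).perm s x) ∈ Gamma M := rC_mem_Gamma ℓ M hℓ1 t _
  have h2 : rC ℓ s x ∈ Gamma M := rC_mem_Gamma ℓ M hℓ1 s x
  have h3 : aC ℓ s x * rC ℓ t ((D1 ℓ).perm s x) * (aC ℓ s x)⁻¹ ∈ Gamma M :=
    (Gamma_normal M).conj_mem _ h1 _
  rw [ext0_mul φ (Gamma_le_Gamma0_of_dvd h.dvd h3) (Gamma_le_Gamma0_of_dvd h.dvd h2), h.inv _ _ h1, add_comm]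

theorem trace_conj (g a : SL(2, ℤ)) :
    ((g * a * g⁻¹ : SL(2, ℤ)) : Matrix (Fin 2) (Fin 2) ℤ).trace
      = (a : Matrix (Fin 2) (Fin 2) ℤ).trace := by
  rw [Matrix.SpecialLinearGroup.coe_mul, Matrix.trace_mul_comm, ← Matrix.SpecialLinearGroup.coe_mul,
    inv_mul_cancel_left]

/-- **Lemma U.** The cocycle vanishes at fixed points of powers of elements conjugate to upper
triangular ones. -/
theorem Fc_pow_eq_zero (hℓ1 : ((ℓ : ℕ) : ZMod M) = 1) (h : IsInvPar φ M) (u : Gamma0 1)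
    (w v : SL(2, ℤ)) (hv : v ∈ Gamma0 0) (hu : (u : SL(2, ℤ)) = w⁻¹ * v * w)
    (x : OnePoint (ZMod ℓ)) (m : ℕ) (hx : (D1 ℓ).perm (u ^ m) x = x) :
    Fc ℓ φ (u ^ m) x = 0 := by
  unfold Fc
  set r := rC ℓ (u ^ m) x with hr
  have hrΓ : r ∈ Gamma M := rC_mem_Gamma ℓ M hℓ1 _ _
  set g : SL(2, ℤ) := w * (uT ℓ x)⁻¹ with hg
  have hpow : (((u ^ m : Gamma0 1) : SL(2, ℤ))) = w⁻¹ * v ^ m * w := by
    rw [SubgroupClass.coe_pow, hu]
    have h2 : w⁻¹ * v * w = w⁻¹ * v * (w⁻¹)⁻¹ := by rw [inv_inv]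
    rw [h2, conj_pow, inv_inv]
  -- the conjugate of `b` is `v ^ m`
  have hb : g * bC ℓ (u ^ m) x * g⁻¹ = v ^ m := by
    unfold bC
    rw [hx, hpow, hg]
    group
  have hvm : v ^ m ∈ Gamma0 0 := (Gamma0 0).pow_mem hv m
  have hvmN : v ^ m ∈ Gamma0 N := Gamma0_zero_le N hvm
  have hgr : g * r * g⁻¹ ∈ Gamma M := (Gamma_normal M).conj_mem _ hrΓ _
  -- `g r g⁻¹ = a' * (v^m)⁻¹`
  have hdecomp : g * r * g⁻¹ = (g * aC ℓ (u ^ m) x * g⁻¹) * (v ^ m)⁻¹ := by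
    rw [← hb, hr]
    unfold rC
    group
  have ha' : g * aC ℓ (u ^ m) x * g⁻¹ ∈ Gamma0 N := by
    have : g * aC ℓ (u ^ m) x * g⁻¹ = (g * r * g⁻¹) * v ^ m := by
      rw [hdecomp]; group
    rw [this]
    exact (Gamma0 N).mul_mem (Gamma_le_Gamma0_of_dvd h.dvd hgr) hvmN
  -- traces
  have htrv : ((v ^ m : SL(2, ℤ)) : Matrix (Fin 2) (Fin 2) ℤ).trace ^ 2 = 4 :=
    trace_sq_of_mem_Gamma0_zero hvm
  have htra : ((aC ℓ (u ^ m) x : SL(2, ℤ)) : Matrix (Fin 2) (Fin 2) ℤ).trace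
      = ((v ^ m : SL(2, ℤ)) : Matrix (Fin 2) (Fin 2) ℤ).trace := by
    have heq := (D1 ℓ).eq (u ^ m) x
    rw [hx, H85.gl_apply, H85.gl_apply] at heq
    have := H85.trace_eq_of_conj heq
    unfold aC
    rw [this, hpow]
    have h2 : w⁻¹ * v ^ m * w = w⁻¹ * v ^ m * (w⁻¹)⁻¹ := by rw [inv_inv]
    rw [h2, trace_conj]
  have htra' : ((g * aC ℓ (u ^ m) x * g⁻¹ : SL(2, ℤ)) : Matrix (Fin 2) (Fin 2) ℤ).trace ^ 2 = 4 := by
    rw [trace_conj, htra, htrv]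
  rw [← h.inv g r hrΓ, hdecomp, ext0_mul_inv φ ha' hvmN,
    ext0_eq_zero_of_trace φ h.par ha' htra', ext0_eq_zero_of_trace φ h.par hvmN htrv, sub_zero]


open ModularGroup in
theorem T_mem_Gamma0_zero : ModularGroup.T ∈ Gamma0 0 :=
  mem_Gamma0_zero_iff.mpr (by simp [ModularGroup.T])

theorem TSTST_eq : ModularGroup.T * ModularGroup.S * ModularGroup.T * ModularGroup.S *
    ModularGroup.T = ModularGroup.S := by
  apply Subtype.ext
  simp only [Matrix.SpecialLinearGroup.coe_mul, ModularGroup.coe_S, ModularGroup.coe_T]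
  decide

theorem S_eq : ModularGroup.S =
    ModularGroup.T⁻¹ * (ModularGroup.S * ModularGroup.T * ModularGroup.S⁻¹)⁻¹ * ModularGroup.T⁻¹ := by
  have h3 : ModularGroup.S * ModularGroup.T⁻¹ * ModularGroup.S⁻¹ =
      ModularGroup.T * ModularGroup.S * ModularGroup.T :=
    calc ModularGroup.S * ModularGroup.T⁻¹ * ModularGroup.S⁻¹
        = (ModularGroup.T * ModularGroup.S * ModularGroup.T * ModularGroup.S * ModularGroup.T) *
            ModularGroup.T⁻¹ * ModularGroup.S⁻¹ := by rw [TSTST_eq]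
      _ = ModularGroup.T * ModularGroup.S * ModularGroup.T := by group
  have h4 : (ModularGroup.S * ModularGroup.T * ModularGroup.S⁻¹)⁻¹ =
      ModularGroup.S * ModularGroup.T⁻¹ * ModularGroup.S⁻¹ := by group
  rw [h4, h3]
  group

/-- The sum of the cocycle `Fc` vanishes identically. -/
theorem sum_Fc_eq_zero (hℓ1 : ((ℓ : ℕ) : ZMod M) = 1) (h : IsInvPar φ M) (s : SL(2, ℤ)) :
    ∑ x, Fc ℓ φ (top1 s) x = 0 := by
  have hF := isAddCocycle_Fc ℓ hℓ1 h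
  -- unipotent conjugates of `T`
  have key : ∀ w : SL(2, ℤ), ∑ x, Fc ℓ φ (top1 (w⁻¹ * ModularGroup.T * w)) x = 0 := by
    intro w
    refine hF.sum_eq_zero_of_periodic _ fun x m _ hx => ?_
    exact Fc_pow_eq_zero ℓ hℓ1 h _ w ModularGroup.T T_mem_Gamma0_zero rfl x m hx
  have hT : hF.sumHom (top1 ModularGroup.T) = 1 := by
    have := key 1
    rw [inv_one, one_mul, mul_one] at this
    rw [hF.sumHom_apply, this]; rfl
  have hL : hF.sumHom (top1 (ModularGroup.S * ModularGroup.T * ModularGroup.S⁻¹)) = 1 := by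
    have := key ModularGroup.S⁻¹
    rw [inv_inv] at this
    rw [hF.sumHom_apply, this]; rfl
  have hS : hF.sumHom (top1 ModularGroup.S) = 1 := by
    have hS' : top1 ModularGroup.S = (top1 ModularGroup.T)⁻¹ *
        (top1 (ModularGroup.S * ModularGroup.T * ModularGroup.S⁻¹))⁻¹ *
          (top1 ModularGroup.T)⁻¹ := by
      rw [← map_inv, ← map_inv, ← map_mul, ← map_mul, ← S_eq]
    rw [hS', map_mul, map_mul, map_inv, map_inv, hT, hL]
    simp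
  have hall : (hF.sumHom).comp top1 = 1 := by
    refine MonoidHom.eq_of_eqOn_dense _root_.SpecialLinearGroup.SL2Z_generators ?_
    intro g hg
    rcases hg with rfl | rfl
    · exact hS
    · exact hT
  have := DFunLike.congr_fun hall s
  rw [MonoidHom.comp_apply, hF.sumHom_apply] at this
  exact this


omit [Fact ℓ.Prime] in
/-- **Lemma T (centrality ⟹ Ihara), pointwise form.** -/
theorem heckeTHom_apply_of_isInvPar (hℓ : ℓ.Prime) (hℓN : ¬ ℓ ∣ N)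
    (hℓ1 : ((ℓ : ℕ) : ZMod M) = 1) (h : IsInvPar φ M) (γ : Gamma0 N) :
    H85.heckeTHom A hℓ hℓN φ (Additive.ofMul γ) = (ℓ + 1) • φ (Additive.ofMul γ) := by
  have : Fact ℓ.Prime := ⟨hℓ⟩
  set D := H85.heckeTDatum N ℓ hℓN with hD
  show D.op φ (Additive.ofMul γ) = _
  rw [H85.CosetDatum.op_apply]
  set γ₁ : Gamma0 1 := top1 (γ : SL(2, ℤ)) with hγ₁
  have key : ∀ x, (D1 ℓ).perm γ₁ x = D.perm γ x ∧
      (D1 ℓ).coc γ₁ x = top1 ((D.coc γ x : Gamma0 N) : SL(2, ℤ)) := by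
    intro x
    refine (D1 ℓ).eq_of_isReduced (H85.heckeTDatum_isReduced 1 ℓ _) ?_
    exact D.eq γ x
  have hsum : ∑ x, Fc ℓ φ γ₁ x = 0 := sum_Fc_eq_zero ℓ hℓ1 h (γ : SL(2, ℤ))
  have hu : ∀ x, uT ℓ x ∈ Gamma0 N := fun x => Gamma0_zero_le N (uT_mem ℓ x)
  have hFc : ∀ x, Fc ℓ φ γ₁ x = φ (Additive.ofMul (D.coc γ x)) -
      (ext0 N φ (uT ℓ x) + φ (Additive.ofMul γ) - ext0 N φ (uT ℓ (D.perm γ x))) := by
    intro x
    have ha : aC ℓ γ₁ x = ((D.coc γ x : Gamma0 N) : SL(2, ℤ)) := by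
      unfold aC; rw [(key x).2]; rfl
    have hb : bC ℓ γ₁ x = uT ℓ x * (γ : SL(2, ℤ)) * (uT ℓ (D.perm γ x))⁻¹ := by
      unfold bC; rw [(key x).1]; rfl
    have hbmem : bC ℓ γ₁ x ∈ Gamma0 N := by
      rw [hb]
      exact (Gamma0 N).mul_mem ((Gamma0 N).mul_mem (hu x) γ.2) ((Gamma0 N).inv_mem (hu _))
    unfold Fc rC
    rw [ext0_mul_inv φ (ha ▸ (D.coc γ x).2) hbmem, ha, ext0_coe, hb,
      ext0_mul_inv φ ((Gamma0 N).mul_mem (hu x) γ.2) (hu _), ext0_mul φ (hu x) γ.2, ext0_coe]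
  simp only [hFc, Finset.sum_sub_distrib, Finset.sum_add_distrib, Finset.sum_const,
    Finset.card_univ] at hsum
  have hperm : ∑ x, ext0 N φ (uT ℓ (D.perm γ x)) = ∑ x, ext0 N φ (uT ℓ x) :=
    Equiv.sum_comp (D.permEquiv γ) (fun x => ext0 N φ (uT ℓ x))
  have hcard : Fintype.card (OnePoint (ZMod ℓ)) = ℓ + 1 := by
    have : Fintype.card (Option (ZMod ℓ)) = ℓ + 1 := by rw [Fintype.card_option, ZMod.card]
    exact this
  rw [hperm, hcard] at hsum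
  have := sub_eq_zero.mp hsum
  rw [this]
  abel

omit [Fact ℓ.Prime] in
/-- **Lemma T (centrality ⟹ Ihara).** If `φ : Γ₀(N) → A` is parabolic and its restriction to
`Γ(M)` (`N ∣ M`) is invariant under conjugation by `SL(2, ℤ)`, then `T_ℓ φ = (ℓ + 1) φ` for every
prime `ℓ ≡ 1 mod M`. No congruence subgroup property is used. -/
theorem heckeTHom_eq_nsmul_of_isInvPar (hℓ : ℓ.Prime) (hℓN : ¬ ℓ ∣ N)
    (hℓ1 : ((ℓ : ℕ) : ZMod M) = 1) (h : IsInvPar φ M) :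
    H85.heckeTHom A hℓ hℓN φ = (ℓ + 1) • φ := by
  refine AddMonoidHom.ext fun γ' => ?_
  obtain ⟨γ, rfl⟩ : ∃ γ : Gamma0 N, Additive.ofMul γ = γ' := ⟨Additive.toMul γ', rfl⟩
  rw [heckeTHom_apply_of_isInvPar ℓ hℓ hℓN hℓ1 h γ]
  rfl

/-- The invariance hypothesis in subtype form. -/
theorem isInvPar_of_forall (hNM : N ∣ M) (hpar : IsParabolicHom (Gamma0 N) φ)
    (hinv : ∀ (s : SL(2, ℤ)) (g : Gamma0 N), (g : SL(2, ℤ)) ∈ Gamma M →
      ∀ hs : s * (g : SL(2, ℤ)) * s⁻¹ ∈ Gamma0 N,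
        φ (Additive.ofMul ⟨s * (g : SL(2, ℤ)) * s⁻¹, hs⟩) = φ (Additive.ofMul g)) :
    IsInvPar φ M where
  dvd := hNM
  par := hpar
  inv s g hg := by
    have hg0 : g ∈ Gamma0 N := Gamma_le_Gamma0_of_dvd hNM hg
    have hs : s * g * s⁻¹ ∈ Gamma0 N :=
      Gamma_le_Gamma0_of_dvd hNM ((Gamma_normal M).conj_mem _ hg _)
    rw [ext0_of_mem φ hs, ext0_of_mem φ hg0]
    exact hinv s ⟨g, hg0⟩ hg hs

/-- The restriction of `φ : Γ₀(N) → A` to `Γ(M)`, `N ∣ M`, in the shape of `H2.IsInvChar`. -/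
def resGammaHom (hNM : N ∣ M) (φ : Additive (Gamma0 N) →+ A) : ↥(Gamma M) →* Multiplicative A :=
  (AddMonoidHom.toMultiplicative φ).comp
    (Subgroup.inclusion (Gamma_le_Gamma0_of_dvd hNM))

theorem resGammaHom_apply (hNM : N ∣ M) (φ : Additive (Gamma0 N) →+ A) (g : ↥(Gamma M)) :
    resGammaHom hNM φ g = Multiplicative.ofAdd
      (φ (Additive.ofMul ⟨(g : SL(2, ℤ)), Gamma_le_Gamma0_of_dvd hNM g.2⟩)) := rfl

/-- The invariance hypothesis from the invariance of the restricted character (the shape of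
helper2's `H2.IsInvChar`, for an arbitrary coefficient group). -/
theorem isInvPar_of_resGammaHom (hNM : N ∣ M) (hpar : IsParabolicHom (Gamma0 N) φ)
    (hinv : ∀ (σ : SL(2, ℤ)) (g : ↥(Gamma M)),
      resGammaHom hNM φ ⟨σ * g * σ⁻¹, (Gamma_normal M).conj_mem g g.2 σ⟩ = resGammaHom hNM φ g) :
    IsInvPar φ M := by
  refine isInvPar_of_forall hNM hpar fun s g hg hs => ?_
  have := hinv s ⟨g, hg⟩
  rw [resGammaHom_apply, resGammaHom_apply] at this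
  exact Multiplicative.ofAdd.injective this

end concrete

end Fermat.Agent.S41.H31
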