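import Mathlib
import Fermat.Agent.S41.H82_IharaGlue
import Fermat.Agent.S41.H65_DegPar

/-!
# S41, package E2 (helper82): the hypothesis `hI` of the algebra lemma, in both accepted routes

Vocabulary of the assembly: `L = parabolicHoms ℤ (Gamma0 N) ℤ`, `L₂ = parabolicHoms ℤ (Gamma0 (N q)) ℤ`,
`α = H65.degAlphaPar ℤ ℤ N _ : L × L →ₗ[ℤ] L₂`, `T_l = H85.heckeTPar ℤ ℤ hl hlN : L →ₗ[ℤ] L`,
`E_l := T_l - (l + 1) • 1 ∈ Module.End ℤ L`.

* Route D1 (`csp`): `hI_of_csp` — from `CSPHyp N q p` there is `M > 0` such that for all primes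
  `l ∤ N` prime to `M`:  `α x ∈ p L₂ → (E_l x.1, E_l x.2) ∈ p (L × L)`.
* Route D2 (centrality + Lemma T): `hI_sq_of_killsGamma` — from the named hypothesis
  `KillsGammaHyp N q p M hl hlN` (for every `𝔽_p`-character `Φ` of `Γ₀(N)[1/q]` with parabolic
  restrictions, `(T_l - (l+1)) (Φ ∘ ι)` and `(T_l - (l+1)) (Φ ∘ ι')` kill `Γ(M) ∩ Γ₀(N)`; this is
  what helper31's Lemma T gives for `l ≡ 1 mod M`, `M = p N`, from centrality) and `l` prime to
  `M`:  `α x ∈ p L₂ → (E_l ^ 2 x.1, E_l ^ 2 x.2) ∈ p (L × L)`.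
-/

set_option autoImplicit false

open CongruenceSubgroup Matrix.SpecialLinearGroup ModularCurve.Period
open scoped MatrixGroups

namespace Fermat.Agent.S41.H82

open Fermat.Agent.S41
open Fermat.Agent.S41.H66 (pSub mem_pSub)

/-! ## The operator family `T_l - (l + 1)` -/

section eisOp

variable {N l : ℕ}

/-- The operator family `T_l - (l + 1)` on `Hom(Γ₀(N), ·)`. -/
noncomputable def eisOp (hl : l.Prime) (hlN : ¬ l ∣ N) : H88.OpFamily (Gamma0 N) (Gamma0 N) :=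
  fun A _ => H85.heckeTHom A hl hlN - ((l : ℤ) + 1) • AddMonoidHom.id _

theorem eisOp_apply (hl : l.Prime) (hlN : ¬ l ∣ N) {A : Type} [AddCommGroup A]
    (φ : Additive (Gamma0 N) →+ A) :
    eisOp hl hlN A φ = H85.heckeTHom A hl hlN φ - ((l : ℤ) + 1) • φ := rfl

theorem eisOp_isNatural (hl : l.Prime) (hlN : ¬ l ∣ N) : (eisOp hl hlN).IsNatural := by
  refine ⟨fun A B _ _ u φ => ?_⟩
  have : Fact l.Prime := ⟨hl⟩
  have e : H85.heckeTHom B hl hlN (u.comp φ) = u.comp (H85.heckeTHom A hl hlN φ) :=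
    (H85.heckeTDatum N l hlN).op_comp_hom u φ
  rw [eisOp_apply, eisOp_apply, e]
  refine AddMonoidHom.ext fun g => ?_
  simp

/-- The square of `T_l - (l + 1)`. -/
noncomputable def eisOpSq (hl : l.Prime) (hlN : ¬ l ∣ N) : H88.OpFamily (Gamma0 N) (Gamma0 N) :=
  fun A _ => (eisOp hl hlN A).comp (eisOp hl hlN A)

theorem eisOpSq_isNatural (hl : l.Prime) (hlN : ¬ l ∣ N) : (eisOpSq hl hlN).IsNatural :=
  (eisOp_isNatural hl hlN).comp (eisOp_isNatural hl hlN)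

/-- A character killed by `Γ(M) ∩ Γ₀(N)` is killed by `T_l - (l + 1)` (`l` prime to `M`, `l ∤ N`):
helper49's `E1`. -/
theorem eisOp_eq_zero_of_kills_Gamma {M : ℕ} [NeZero N] [NeZero M] (hl : l.Prime) (hlN : ¬ l ∣ N)
    (hlM : l.Coprime M) {A : Type} [AddCommGroup A] (χ : Additive (Gamma0 N) →+ A)
    (hχ : ∀ γ : Gamma0 N, (γ : SL(2, ℤ)) ∈ Gamma M → χ (Additive.ofMul γ) = 0) :
    eisOp hl hlN A χ = 0 := by
  rw [eisOp_apply, H49.heckeTHom_eq_nsmul_of_kills_Gamma hl hlN hlM χ hχ]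
  refine AddMonoidHom.ext fun g => ?_
  simp only [AddMonoidHom.sub_apply, AddMonoidHom.coe_smul, Pi.smul_apply,
    AddMonoidHom.zero_apply]
  rw [show ((l : ℤ) + 1) = ((l + 1 : ℕ) : ℤ) by push_cast; ring, natCast_zsmul, sub_self]

end eisOp

/-! ## The two routes on the parabolic lattice -/

section lattice

variable {N q p : ℕ} [hq : Fact q.Prime] [NeZero N] [NeZero p]

/-- The lattice `L_N = parabolicHoms ℤ (Gamma0 N) ℤ` as a type. -/
abbrev LatN (N : ℕ) : Type := ↥(parabolicHoms ℤ (Gamma0 N) ℤ)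

/-- `E_l = T_l - (l + 1)` as an endomorphism of the lattice `L_N`. -/
noncomputable def eisEnd {l : ℕ} (hl : l.Prime) (hlN : ¬ l ∣ N) : Module.End ℤ (LatN N) :=
  H85.heckeTPar ℤ ℤ hl hlN - ((l : ℤ) + 1) • (1 : Module.End ℤ (LatN N))

omit [NeZero N] in
theorem coe_eisEnd_apply {l : ℕ} (hl : l.Prime) (hlN : ¬ l ∣ N) (x : LatN N) :
    ((eisEnd hl hlN x : LatN N) : Additive (Gamma0 N) →+ ℤ) =
      eisOp hl hlN ℤ (x : Additive (Gamma0 N) →+ ℤ) := rfl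

omit [NeZero N] in
theorem coe_eisEnd_sq_apply {l : ℕ} (hl : l.Prime) (hlN : ¬ l ∣ N) (x : LatN N) :
    (((eisEnd hl hlN ^ 2) x : LatN N) : Additive (Gamma0 N) →+ ℤ) =
      eisOpSq hl hlN ℤ (x : Additive (Gamma0 N) →+ ℤ) := by
  rw [pow_two]
  rfl

omit [NeZero N] [NeZero p] in
/-- The hypothesis `α x ∈ p L₂` in terms of the underlying characters. -/
theorem res_add_cst_mem_of_degAlphaPar_mem (x : LatN N × LatN N)
    (hx : H65.degAlphaPar ℤ ℤ N hq.out.ne_zero x ∈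
      pSub p ↥(parabolicHoms ℤ (Gamma0 (N * q)) ℤ)) :
    H65.res ℤ N q (x.1 : Additive (Gamma0 N) →+ ℤ) +
        H65.cst ℤ N hq.out.ne_zero (x.2 : Additive (Gamma0 N) →+ ℤ) ∈
      pSub p (Additive (Gamma0 (N * q)) →+ ℤ) :=
  coe_mem_pSub_of_mem_pSub_parabolic _ _ hx

/-- **`hI`, route D1**: from the congruence subgroup property. -/
theorem hI_of_csp (hcsp : CSPHyp N q p) (hNq : Nat.Coprime N q) :
    ∃ M : ℕ, 0 < M ∧ ∀ (l : ℕ) (hl : l.Prime) (hlN : ¬ l ∣ N), l.Coprime M →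
      ∀ x : LatN N × LatN N,
        H65.degAlphaPar ℤ ℤ N hq.out.ne_zero x ∈ pSub p ↥(parabolicHoms ℤ (Gamma0 (N * q)) ℤ) →
        (eisEnd hl hlN x.1, eisEnd hl hlN x.2) ∈ pSub p (LatN N × LatN N) := by
  obtain ⟨M, hM, h⟩ := exists_ihara_level_parabolic hcsp hNq
  refine ⟨M, hM, fun l hl hlN hlM x hx => ?_⟩
  exact h x (res_add_cst_mem_of_degAlphaPar_mem x hx) l hl hlN hlM

/-- The named hypothesis of route D2 (output of "centrality + Lemma T" for `l ≡ 1 mod M`):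
for every `𝔽_p`-valued character `Φ` of `Γ₀(N)[1/q]` whose restrictions along `ι`, `ι'` are
parabolic, `(T_l - (l + 1))(Φ ∘ ι)` and `(T_l - (l + 1))(Φ ∘ ι')` kill `Γ(M) ∩ Γ₀(N)`. -/
def KillsGammaHyp (N q p M : ℕ) [Fact q.Prime] {l : ℕ} (hl : l.Prime) (hlN : ¬ l ∣ N) : Prop :=
  ∀ Φ : Additive ↥(H58.Delta N q) →+ ZMod p,
    IsParabolicHom (Gamma0 N) (Φ.comp (MonoidHom.toAdditive (H58.iota N q))) →
    IsParabolicHom (Gamma0 N) (Φ.comp (MonoidHom.toAdditive (H58.iota' N q))) →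
    ∀ γ : Gamma0 N, (γ : SL(2, ℤ)) ∈ Gamma M →
      eisOp hl hlN (ZMod p) (Φ.comp (MonoidHom.toAdditive (H58.iota N q))) (Additive.ofMul γ) = 0 ∧
      eisOp hl hlN (ZMod p) (Φ.comp (MonoidHom.toAdditive (H58.iota' N q))) (Additive.ofMul γ) = 0

/-- **`hI`, route D2**: from `KillsGammaHyp` (centrality + Lemma T), with `t₁ = (T_l - (l+1))²`. -/
theorem hI_sq_of_killsGamma (hNq : Nat.Coprime N q) {M l : ℕ} (hM : 0 < M) (hl : l.Prime)
    (hlN : ¬ l ∣ N) (hlM : l.Coprime M) (hkill : KillsGammaHyp N q p M hl hlN)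
    (x : LatN N × LatN N)
    (hx : H65.degAlphaPar ℤ ℤ N hq.out.ne_zero x ∈
      pSub p ↥(parabolicHoms ℤ (Gamma0 (N * q)) ℤ)) :
    ((eisEnd hl hlN ^ 2) x.1, (eisEnd hl hlN ^ 2) x.2) ∈ pSub p (LatN N × LatN N) := by
  have : NeZero M := ⟨hM.ne'⟩
  have key := ihara_of_glued_kill (p := p) hNq (eisOpSq hl hlN) (eisOpSq_isNatural hl hlN)
    (fun Φ h0 h1 => by
      constructor
      · exact eisOp_eq_zero_of_kills_Gamma hl hlN hlM _ fun γ hγ => (hkill Φ h0 h1 γ hγ).1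
      · exact eisOp_eq_zero_of_kills_Gamma hl hlN hlM _ fun γ hγ => (hkill Φ h0 h1 γ hγ).2)
    (x.1 : Additive (Gamma0 N) →+ ℤ) (x.2 : Additive (Gamma0 N) →+ ℤ) x.1.2 x.2.2
    (res_add_cst_mem_of_degAlphaPar_mem x hx)
  rw [H66.mem_pSub_prod]
  refine ⟨mem_pSub_parabolic_of_coe_mem _ _ ?_, mem_pSub_parabolic_of_coe_mem _ _ ?_⟩
  · rw [coe_eisEnd_sq_apply]; exact key.1
  · rw [coe_eisEnd_sq_apply]; exact key.2

end lattice

end Fermat.Agent.S41.H82
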