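/-
S41, route D2 of Ihara's lemma (helper31): **centrality (Theorem I) + Lemma T ⟹ `hI`**, without the
congruence subgroup property / Theorem T.

For `Φ : Γ₀(N)[1/q] → 𝔽_p` with parabolic restrictions `Φ ∘ ι`, `Φ ∘ ι'`, helper2's Theorem I
(`H2.hI_H38`) and helper38's glue (`H38.isInvChar_resGamma`, `H38.elemNormal_le_killed`) make
`Φ ∘ ι` and `Φ ∘ ι' = (Φ ∘ twist) ∘ ι` invariant under `SL(2, ℤ)`-conjugation on `Γ(p N)`; Lemma T
(`heckeTHom_eq_nsmul_of_isInvPar`) then gives `(T_ℓ - (ℓ + 1)) (Φ ∘ ι) = 0` for every prime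
`ℓ ≡ 1 mod p N`; helper82's generic glue `H82.ihara_of_glued_kill` turns this into `hI`.
-/
import Mathlib
import Fermat.Agent.S41.H31_IharaTransfer
import Fermat.Agent.S41.H82_IharaHI
import Fermat.Agent.S41.H2_CSPGlueI

set_option autoImplicit false

open CongruenceSubgroup Matrix.SpecialLinearGroup ModularCurve.Period
open scoped MatrixGroups

namespace Fermat.Agent.S41.H31

open Fermat.Agent.S41
open Fermat.Agent.S41.H66 (pSub mem_pSub)

section D2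

variable {N q p : ℕ} [hq : Fact q.Prime] [hp : Fact p.Prime]

/-- Centrality makes `Φ ∘ ι` invariant on `Γ(p N)`. -/
theorem isInvPar_comp_iota (hN : 0 < N) (hNq : Nat.Coprime N q) (hqp : q ≠ p)
    (Φ : Additive ↥(H58.Delta N q) →+ ZMod p)
    (hpar : IsParabolicHom (Gamma0 N) (Φ.comp (MonoidHom.toAdditive (H58.iota N q)))) :
    IsInvPar (Φ.comp (MonoidHom.toAdditive (H58.iota N q))) (p * N) := by
  have hNm : N ∣ p * N := Dvd.intro_left p rfl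
  have hpos : 0 < p * N := Nat.mul_pos hp.out.pos hN
  have hqm : q.Coprime (p * N) :=
    Nat.Coprime.mul_right ((Nat.coprime_primes hq.out hp.out).mpr hqp) hNq.symm
  set Φ' : ↥(H58.Delta N q) →* Multiplicative (ZMod p) := AddMonoidHom.toMultiplicative Φ with hΦ'
  have hinv := H38.isInvChar_resGamma hNm Φ' _ (H38.elemNormal_le_killed hNq Φ')
    (H2.hI_H38 q (p * N) hq.out.two_le hpos hqm)
  refine isInvPar_of_resGammaHom hNm hpar fun σ g => ?_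
  exact hinv σ g

/-- Centrality makes `Φ ∘ ι'` invariant on `Γ(p N)`. -/
theorem isInvPar_comp_iota' (hN : 0 < N) (hNq : Nat.Coprime N q) (hqp : q ≠ p)
    (Φ : Additive ↥(H58.Delta N q) →+ ZMod p)
    (hpar : IsParabolicHom (Gamma0 N) (Φ.comp (MonoidHom.toAdditive (H58.iota' N q)))) :
    IsInvPar (Φ.comp (MonoidHom.toAdditive (H58.iota' N q))) (p * N) := by
  have e : Φ.comp (MonoidHom.toAdditive (H58.iota' N q)) =
      (Φ.comp (MonoidHom.toAdditive (H82.twistDelta hNq))).comp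
        (MonoidHom.toAdditive (H58.iota N q)) := by
    refine AddMonoidHom.ext fun γ => ?_
    rfl
  rw [e] at hpar ⊢
  exact isInvPar_comp_iota hN hNq hqp _ hpar

/-- **Route D2, the kill hypothesis of `H82.ihara_of_glued_kill`** for `T = T_ℓ - (ℓ + 1)`,
`ℓ ≡ 1 mod p N`. -/
theorem eisOp_comp_iota_eq_zero (hN : 0 < N) (hNq : Nat.Coprime N q) (hqp : q ≠ p)
    {l : ℕ} (hl : l.Prime) (hlN : ¬ l ∣ N) (hl1 : ((l : ℕ) : ZMod (p * N)) = 1)
    (Φ : Additive ↥(H58.Delta N q) →+ ZMod p)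
    (h0 : IsParabolicHom (Gamma0 N) (Φ.comp (MonoidHom.toAdditive (H58.iota N q))))
    (h1 : IsParabolicHom (Gamma0 N) (Φ.comp (MonoidHom.toAdditive (H58.iota' N q)))) :
    H82.eisOp hl hlN (ZMod p) (Φ.comp (MonoidHom.toAdditive (H58.iota N q))) = 0 ∧
    H82.eisOp hl hlN (ZMod p) (Φ.comp (MonoidHom.toAdditive (H58.iota' N q))) = 0 := by
  have key : ∀ φ : Additive (Gamma0 N) →+ ZMod p, IsInvPar φ (p * N) →
      H82.eisOp hl hlN (ZMod p) φ = 0 := by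
    intro φ hφ
    rw [H82.eisOp_apply, heckeTHom_eq_nsmul_of_isInvPar l hl hlN hl1 hφ]
    refine AddMonoidHom.ext fun g => ?_
    simp only [AddMonoidHom.sub_apply, AddMonoidHom.coe_smul, Pi.smul_apply,
      AddMonoidHom.zero_apply]
    rw [show ((l : ℤ) + 1) = ((l + 1 : ℕ) : ℤ) by push_cast; ring, natCast_zsmul, sub_self]
  exact ⟨key _ (isInvPar_comp_iota hN hNq hqp Φ h0), key _ (isInvPar_comp_iota' hN hNq hqp Φ h1)⟩

/-- **Ihara's lemma, route D2** (characters): for a prime `ℓ ≡ 1 mod p N`, `ℓ ∤ N`, and parabolic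
`φ ψ : Γ₀(N) → ℤ` with `res φ + cst ψ ∈ p · Hom(Γ₀(N q), ℤ)`, both `T_ℓ φ - (ℓ + 1) φ` and
`T_ℓ ψ - (ℓ + 1) ψ` are divisible by `p`. -/
theorem ihara_of_central (hN : 0 < N) (hNq : Nat.Coprime N q) (hqp : q ≠ p)
    {l : ℕ} (hl : l.Prime) (hlN : ¬ l ∣ N) (hl1 : ((l : ℕ) : ZMod (p * N)) = 1)
    (φ ψ : Additive (Gamma0 N) →+ ℤ) (hφ : IsParabolicHom (Gamma0 N) φ)
    (hψ : IsParabolicHom (Gamma0 N) ψ)
    (h : H65.res ℤ N q φ + H65.cst ℤ N hq.out.ne_zero ψ ∈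
      pSub p (Additive (Gamma0 (N * q)) →+ ℤ)) :
    H82.eisOp hl hlN ℤ φ ∈ pSub p (Additive (Gamma0 N) →+ ℤ) ∧
    H82.eisOp hl hlN ℤ ψ ∈ pSub p (Additive (Gamma0 N) →+ ℤ) :=
  H82.ihara_of_glued_kill (p := p) hNq (H82.eisOp hl hlN) (H82.eisOp_isNatural hl hlN)
    (fun Φ h0 h1 => eisOp_comp_iota_eq_zero hN hNq hqp hl hlN hl1 Φ h0 h1) φ ψ hφ hψ h

/-- **Ihara's lemma on `L_N × L_N`, route D2**, in the shape consumed by the assembly
(`H85.lattice_support_of_PD_of_Ihara`, hypothesis `hI`): the same statement as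
`H49.ihara_parabolic`, with the congruence subgroup property replaced by `ℓ ≡ 1 mod p N`. -/
theorem ihara_parabolic_of_central (hN : 0 < N) (hNq : Nat.Coprime N q) (hqp : q ≠ p)
    {l : ℕ} (hl : l.Prime) (hlN : ¬ l ∣ N) (hl1 : ((l : ℕ) : ZMod (p * N)) = 1)
    (x₁ x₂ : parabolicHoms ℤ (Gamma0 N) ℤ)
    (h : H65.resPar ℤ ℤ N q x₁ + H65.cstPar ℤ ℤ N hq.out.ne_zero x₂ ∈
      pSub p (parabolicHoms ℤ (Gamma0 (N * q)) ℤ)) :
    H85.heckeTPar ℤ ℤ hl hlN x₁ - ((l : ℤ) + 1) • x₁ ∈ pSub p (parabolicHoms ℤ (Gamma0 N) ℤ) ∧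
    H85.heckeTPar ℤ ℤ hl hlN x₂ - ((l : ℤ) + 1) • x₂ ∈
      pSub p (parabolicHoms ℤ (Gamma0 N) ℤ) := by
  have h' : H65.res ℤ N q (x₁ : Additive (Gamma0 N) →+ ℤ) +
      H65.cst ℤ N hq.out.ne_zero (x₂ : Additive (Gamma0 N) →+ ℤ) ∈
      pSub p (Additive (Gamma0 (N * q)) →+ ℤ) :=
    H82.coe_mem_pSub_of_mem_pSub_parabolic _ _ h
  obtain ⟨k1, k2⟩ := ihara_of_central hN hNq hqp hl hlN hl1 _ _ x₁.2 x₂.2 h'
  exact ⟨H82.mem_pSub_parabolic_of_coe_mem _ _ k1, H82.mem_pSub_parabolic_of_coe_mem _ _ k2⟩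

end D2

end Fermat.Agent.S41.H31
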