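import Mathlib
import Fermat.Agent.S41.H49_StableLine

/-!
# A Clifford-type dichotomy for two-dimensional mod `p` representations (S41, part F')

`G` acts additively on a two-dimensional `ZMod p`-vector space `V`, `H ≤ G` is a normal subgroup
such that every `h ∈ H` fixes a nonzero vector.  Then either `V` has a `G`-stable line, or `H`
acts trivially on `V`.
-/

set_option autoImplicit false

namespace Fermat.Agent.S41.H32

section Clifford

variable {p : ℕ} [Fact p.Prime] {V G : Type*} [AddCommGroup V] [Module (ZMod p) V] [Group G]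
  [DistribMulAction G V]

/-- the action commutes with `ZMod p`-scalars -/
lemma smul_zmod_smul_comm (g : G) (c : ZMod p) (v : V) : g • (c • v) = c • (g • v) := by
  have h := ((DistribSMul.toAddMonoidHom V g).toZModLinearMap p).map_smul c v
  exact h

/-- a group is not the union of two proper subgroups (relative form) -/
lemma le_or_le_of_forall_mem_or_mem {G : Type*} [Group G] (H K₁ K₂ : Subgroup G)
    (h : ∀ x ∈ H, x ∈ K₁ ∨ x ∈ K₂) : H ≤ K₁ ∨ H ≤ K₂ := by
  by_contra hcon
  push Not at hcon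
  obtain ⟨h1, h2⟩ := hcon
  obtain ⟨a, haH, haK⟩ := SetLike.not_le_iff_exists.mp h1
  obtain ⟨b, hbH, hbK⟩ := SetLike.not_le_iff_exists.mp h2
  have ha2 : a ∈ K₂ := (h a haH).resolve_left haK
  have hb1 : b ∈ K₁ := (h b hbH).resolve_right hbK
  rcases h (a * b) (H.mul_mem haH hbH) with hab | hab
  · exact haK (by simpa using K₁.mul_mem hab (K₁.inv_mem hb1))
  · exact hbK (by simpa using K₂.mul_mem (K₂.inv_mem ha2) hab)

/-- **Clifford dichotomy.** -/
theorem exists_stable_or_trivial (h2 : Module.finrank (ZMod p) V = 2) (H : Subgroup G)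
    [H.Normal] (hfix : ∀ h ∈ H, ∃ v : V, v ≠ 0 ∧ h • v = v) :
    (∃ N : Submodule (ZMod p) V, N ≠ ⊥ ∧ N ≠ ⊤ ∧ ∀ g : G, ∀ x ∈ N, g • x ∈ N) ∨
      (∀ h ∈ H, ∀ v : V, h • v = v) := by
  have : FiniteDimensional (ZMod p) V := Module.finite_of_finrank_pos (by rw [h2]; norm_num)
  -- an `H`-stable line
  obtain ⟨N, hN0, hN1, hNH⟩ := H49.exists_stable_submodule_of_distribMulAction (G := H) h2
    (fun h => by
      obtain ⟨v, hv, hhv⟩ := hfix h h.2
      exact ⟨v, hv, hhv⟩)
  have hNH' : ∀ h ∈ H, ∀ x ∈ N, h • x ∈ N := fun h hh x hx => hNH ⟨h, hh⟩ x hx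
  by_cases hG : ∀ g : G, ∀ x ∈ N, g • x ∈ N
  · exact Or.inl ⟨N, hN0, hN1, hG⟩
  right
  push Not at hG
  obtain ⟨g₀, x₀, hx₀, hy₀⟩ := hG
  set y₀ : V := g₀ • x₀ with hy₀def
  have hx₀0 : x₀ ≠ 0 := by
    rintro rfl
    exact hy₀ (by rw [hy₀def, smul_zero]; exact N.zero_mem)
  -- `x₀, y₀` are linearly independent
  have hli : LinearIndependent (ZMod p) ![x₀, y₀] := by
    rw [LinearIndependent.pair_iff]
    intro s t hst
    have ht : t = 0 := by
      by_contra ht
      apply hy₀
      have : y₀ = (-(t⁻¹ * s)) • x₀ := by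
        have h1 : t • y₀ = -(s • x₀) := eq_neg_of_add_eq_zero_right hst
        calc y₀ = t⁻¹ • (t • y₀) := by rw [smul_smul, inv_mul_cancel₀ ht, one_smul]
          _ = (-(t⁻¹ * s)) • x₀ := by rw [h1, smul_neg, smul_smul, neg_smul]
      rw [this]
      exact N.smul_mem _ hx₀
    subst ht
    rw [zero_smul, add_zero] at hst
    exact ⟨(smul_eq_zero.mp hst).resolve_right hx₀0, rfl⟩
  have hspan : Submodule.span (ZMod p) (Set.range ![x₀, y₀]) = ⊤ :=
    hli.span_eq_top_of_card_eq_finrank' (by rw [h2]; simp)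
  have hdecomp : ∀ v : V, ∃ a b : ZMod p, a • x₀ + b • y₀ = v := by
    intro v
    have hv : v ∈ Submodule.span (ZMod p) (Set.range ![x₀, y₀]) := by rw [hspan]; trivial
    have hr : Set.range ![x₀, y₀] = {x₀, y₀} := Matrix.range_cons_cons_empty x₀ y₀ _
    rw [hr, Submodule.mem_span_pair] at hv
    exact hv
  -- elements of `N` are multiples of `x₀`
  have hNx : ∀ n ∈ N, ∃ c : ZMod p, n = c • x₀ := by
    intro n hn
    obtain ⟨a, b, hab⟩ := hdecomp n
    have hb : b = 0 := by
      by_contra hb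
      apply hy₀
      have : y₀ = b⁻¹ • (n - a • x₀) := by
        rw [← hab, add_sub_cancel_left, smul_smul, inv_mul_cancel₀ hb, one_smul]
      rw [this]
      exact N.smul_mem _ (N.sub_mem hn (N.smul_mem _ hx₀))
    subst hb
    rw [zero_smul, add_zero] at hab
    exact ⟨a, hab.symm⟩
  -- key: every `h ∈ H` fixes `x₀` or `y₀`
  have hkey : ∀ h ∈ H, h • x₀ = x₀ ∨ h • y₀ = y₀ := by
    intro h hh
    have hh' : g₀⁻¹ * h * g₀ ∈ H := by
      have := ‹H.Normal›.conj_mem h hh g₀⁻¹
      simpa using this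
    obtain ⟨c, hc⟩ := hNx (h • x₀) (hNH' h hh x₀ hx₀)
    obtain ⟨c', hc'⟩ := hNx ((g₀⁻¹ * h * g₀) • x₀) (hNH' _ hh' x₀ hx₀)
    have hhy : h • y₀ = c' • y₀ := by
      have : h • y₀ = g₀ • ((g₀⁻¹ * h * g₀) • x₀) := by
        rw [hy₀def, ← mul_smul, ← mul_smul]
        congr 1
        group
      rw [this, hc', smul_zmod_smul_comm]
    obtain ⟨v, hv0, hv⟩ := hfix h hh
    obtain ⟨a, b, hab⟩ := hdecomp v
    have hv' : (a * c - a) • x₀ + (b * c' - b) • y₀ = 0 := by
      have h1 : h • v = (a * c) • x₀ + (b * c') • y₀ := by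
        rw [← hab, smul_add, smul_zmod_smul_comm, smul_zmod_smul_comm, hc, hhy, smul_smul,
          smul_smul]
      have h2' : (a * c) • x₀ + (b * c') • y₀ = a • x₀ + b • y₀ := by rw [← h1, hv, hab]
      rw [sub_smul, sub_smul]
      rw [← sub_eq_zero] at h2'
      rw [← h2']
      abel
    obtain ⟨h1, h2'⟩ := LinearIndependent.pair_iff.mp hli _ _ hv'
    by_cases ha : a = 0
    · have hb : b ≠ 0 := by
        rintro rfl
        apply hv0
        rw [← hab, ha, zero_smul, zero_smul, add_zero]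
      right
      have : c' = 1 := by
        have : b * (c' - 1) = 0 := by rw [mul_sub, mul_one]; exact h2'
        exact sub_eq_zero.mp ((mul_eq_zero.mp this).resolve_left hb)
      rw [hhy, this, one_smul]
    · left
      have : c = 1 := by
        have : a * (c - 1) = 0 := by rw [mul_sub, mul_one]; exact h1
        exact sub_eq_zero.mp ((mul_eq_zero.mp this).resolve_left ha)
      rw [hc, this, one_smul]
  -- so all of `H` fixes `x₀`, or all of `H` fixes `y₀`
  have hboth : (∀ h ∈ H, h • x₀ = x₀) ∧ (∀ h ∈ H, h • y₀ = y₀) := by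
    rcases le_or_le_of_forall_mem_or_mem H (MulAction.stabilizer G x₀) (MulAction.stabilizer G y₀)
      (fun h hh => by simpa [MulAction.mem_stabilizer_iff] using hkey h hh) with h1 | h1
    · have hx : ∀ h ∈ H, h • x₀ = x₀ := fun h hh => MulAction.mem_stabilizer_iff.mp (h1 hh)
      refine ⟨hx, fun h hh => ?_⟩
      have hh' : g₀⁻¹ * h * g₀ ∈ H := by
        have := ‹H.Normal›.conj_mem h hh g₀⁻¹
        simpa using this
      have : h • y₀ = g₀ • ((g₀⁻¹ * h * g₀) • x₀) := by
        rw [hy₀def, ← mul_smul, ← mul_smul]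
        congr 1
        group
      rw [this, hx _ hh']
    · have hy : ∀ h ∈ H, h • y₀ = y₀ := fun h hh => MulAction.mem_stabilizer_iff.mp (h1 hh)
      refine ⟨fun h hh => ?_, hy⟩
      have hh' : g₀ * h * g₀⁻¹ ∈ H := ‹H.Normal›.conj_mem h hh g₀
      have h3 := hy _ hh'
      rw [hy₀def, ← mul_smul] at h3
      have h4 : g₀ * h * g₀⁻¹ * g₀ = g₀ * h := by group
      rw [h4, mul_smul] at h3
      exact smul_left_cancel g₀ h3
  intro h hh v
  obtain ⟨a, b, hab⟩ := hdecomp v
  rw [← hab, smul_add, smul_zmod_smul_comm, smul_zmod_smul_comm, hboth.1 h hh, hboth.2 h hh]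

end Clifford

end Fermat.Agent.S41.H32
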