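import Mathlib
import Fermat.Agent.S41.H84_NonEisenstein
import Fermat.Agent.S41.H11_OddCor
import Fermat.Agent.S14.H31_FrobCongr
import Fermat.Agent.S41.H32_Clifford

/-!
# Irreducible `E[p]` is not Eisenstein along the primes `l ≡ 1 mod M` (S41, part F')

`E` an elliptic curve over `ℚ` with integral model `W`, `p` an odd prime with `E[p]` irreducible,
`M > 0`.  Then outside every finite set of primes there is a good prime `l ≠ p`, `l ≡ 1 mod M`,
with `a_l(W) ≢ l + 1 mod p`.

Proof: otherwise every element of `H = Gal(ℚ̄ / ℚ(ζ_M))` fixes a nonzero point of `E[p]`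
(Frobenius density with a congruence condition + the fixed torsion point at a prime with
`p ∣ #E~(F_l)`).  By the Clifford dichotomy (`H32_Clifford`) either `E[p]` has a Galois-stable
line, or `H` acts trivially; in the second case the Galois action on `E[p]` is abelian, which
contradicts irreducibility because complex conjugation is not a scalar (`H11_OddCor`).
-/

set_option autoImplicit false

namespace Fermat.Agent.S41.H32

open WeierstrassCurve WeierstrassCurve.Affine WeierstrassCurve.Affine.Point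

local notation "Qb" => AlgebraicClosure ℚ
local notation "GQ" => (AlgebraicClosure ℚ ≃ₐ[ℚ] AlgebraicClosure ℚ)

section Assembly

attribute [local instance 10000] AlgebraicClosure.instAlgebra

/-- **Irreducible `E[p]` is not Eisenstein along `l ≡ 1 mod M`**. -/
theorem exists_good_prime_modEq_one_not_eisenstein_aux (E : WeierstrassCurve ℚ) [E.IsElliptic]
    {W : WeierstrassCurve ℤ} (hW : W.IsIntegralModelOf E) {p : ℕ} (hp : p.Prime) (hp2 : p ≠ 2)
    (hirr : GaloisRepIsIrreducible (K := Qb) ℚ (E : Affine ℚ) p) (M : ℕ) (hM : 0 < M)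
    (T : Finset ℕ) :
    ∃ l : ℕ, l.Prime ∧ l ∉ T ∧ l ≠ p ∧ l ≡ 1 [MOD M] ∧ W.IsGoodPrimeFor l ∧
      ¬ (p : ℤ) ∣ (l : ℤ) + 1 - W.apOfModel l := by
  haveI : Fact p.Prime := ⟨hp⟩
  haveI : NeZero M := ⟨hM.ne'⟩
  haveI : NeZero ((M : ℕ) : Qb) := ⟨by exact_mod_cast hM.ne'⟩
  by_contra hcon
  push Not at hcon
  have hΔ := H84.Δ_ne_zero_of_isIntegralModelOf E hW
  haveI := H84.finiteDimensional_torsionField E hp hp2
  obtain ⟨ζ, hζ⟩ := HasEnoughRootsOfUnity.exists_primitiveRoot Qb M
  let ρ : GQ →* Equiv.Perm (Submodule.torsionBy ℤ ((E : Affine ℚ)⁄Qb).Point p) :=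
    MulAction.toPermHom GQ _
  have hF : (H84.torsionField E p).fixingSubgroup ≤ ρ.ker := by
    intro σ hσ
    rw [MonoidHom.mem_ker]
    ext P : 1
    exact H84.smul_eq_self_of_mem_fixingSubgroup E p hσ P
  let χ : GQ →* (ZMod M)ˣ := hζ.autToPow ℚ
  have hfix : ∀ g ∈ χ.ker, ∃ v : Submodule.torsionBy ℤ ((E : Affine ℚ)⁄Qb).Point p,
      v ≠ 0 ∧ g • v = v := by
    intro g hg
    have hgζ : g ζ = ζ :=
      Fermat.Agent.S14.H31.map_eq_of_autToPow_eq_one hζ g (MonoidHom.mem_ker.mp hg)
    obtain ⟨q, A, φ, j, k, hq, hqT, hq1, hA, hφ, -, -, h2⟩ :=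
      Fermat.Agent.S14.H31.exists_isFrobeniusAt_modEq_one_map_eq_zpow (H84.torsionField E p) ρ hF
        hζ g hgζ (T ∪ {p} ∪ W.Δ.natAbs.divisors)
    have hqT1 : q ∉ T := fun h => hqT (by simp [h])
    have hqp : q ≠ p := fun h => hqT (by simp [h])
    have hgood : W.IsGoodPrimeFor q :=
      H84.isGoodPrimeFor_of_notMem_divisors (fun h => hqT (by simp [h])) hΔ
    have hap := hcon q hq hqT1 hqp hq1 hgood
    obtain ⟨x, hx0, hx⟩ := H84.exists_torsion_fixed_of_integralModel E hW hp hp2 hq hqp hgood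
      ((H84.dvd_card_iff_apOfModel W p q).mpr hap) A hA
    refine ⟨x, hx0, ?_⟩
    have hφx : ρ φ ∈ MulAction.stabilizer (Equiv.Perm _) x := by
      rw [MulAction.mem_stabilizer_iff]
      exact hx φ hφ.mem_decompositionSubgroup
    have h2' : ρ g = ρ φ ^ j := h2
    have hgx : ρ g ∈ MulAction.stabilizer (Equiv.Perm _) x := by
      rw [h2']; exact zpow_mem hφx j
    exact hgx
  rcases exists_stable_or_trivial (H84.finrank_torsionBy E hp hp2) χ.ker hfix with
    ⟨N, hN0, hN1, hN⟩ | htriv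
  · rcases hirr.2 N (fun σ x hx => hN σ x hx) with h | h
    · exact hN0 h
    · exact hN1 h
  · -- the action is abelian
    have h3 : 3 ≤ p := by
      have := hp.two_le
      omega
    have key : ∀ (σ τ : GQ) (x : Submodule.torsionBy ℤ ((E : Affine ℚ)⁄Qb).Point p),
        τ • σ • x = σ • τ • x := by
      intro σ τ x
      have hc : σ⁻¹ * τ⁻¹ * σ * τ ∈ χ.ker := by
        rw [MonoidHom.mem_ker, map_mul, map_mul, map_mul, map_inv, map_inv]
        rw [mul_comm (χ σ)⁻¹, mul_assoc, mul_assoc, ← mul_assoc (χ σ)⁻¹, inv_mul_cancel, one_mul,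
          inv_mul_cancel]
      have h4 := htriv _ hc x
      rw [mul_smul, mul_smul, mul_smul] at h4
      -- `σ⁻¹ • τ⁻¹ • σ • τ • x = x`
      have := congrArg (fun y => τ • σ • y) h4
      simp only [smul_inv_smul] at this
      exact this.symm
    exact H11.not_irreducible_of_abelian E E.isUnit_Δ.ne_zero (hp.odd_of_ne_two hp2) h3
      (fun σ τ x => key σ τ x) hirr

end Assembly

section Default

/-- `exists_good_prime_modEq_one_not_eisenstein_aux` with the instances found by default when all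
of Mathlib is imported (the form of the hypothesis `hirr` in the frozen statement S41). -/
theorem exists_good_prime_modEq_one_not_eisenstein (E : WeierstrassCurve ℚ) [E.IsElliptic]
    {W : WeierstrassCurve ℤ} (hW : W.IsIntegralModelOf E) {p : ℕ} (hp : p.Prime) (hp2 : p ≠ 2)
    (hirr : GaloisRepIsIrreducible (K := AlgebraicClosure ℚ) ℚ E p) (M : ℕ) (hM : 0 < M)
    (T : Finset ℕ) :
    ∃ l : ℕ, l.Prime ∧ l ∉ T ∧ l ≠ p ∧ l ≡ 1 [MOD M] ∧ W.IsGoodPrimeFor l ∧
      ¬ (p : ℤ) ∣ (l : ℤ) + 1 - W.apOfModel l :=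
  exists_good_prime_modEq_one_not_eisenstein_aux E hW hp hp2 hirr M hM T

end Default

end Fermat.Agent.S41.H32
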