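import Mathlib

/-!
# S41 / package D-I: the arithmetic half of the centrality CLAIM (helper2, board #1439)

Pure integer lemma, no matrices.  Given `q ≥ 2`, `m ≥ 1` coprime and a first row `(a, b)` of an
element of `Γ(m)`, we produce `t s : ℤ`, `k : ℕ`, `w : ℤ` such that, with
`a' = a + b m t`, `b' = b + a' m s`, `v = q ^ k`:
`v ≡ 1 [m]`, `1 - v^2 = b' w`, and `w` is prime to `m`.
-/

namespace Fermat.Agent.S41.H71

open Finset

/-- A geometric sum of powers of `x ≡ 1 [m]` with `n` terms is `≡ n [m]`. -/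
theorem dvd_geom_sum_sub_card (m x : ℤ) (hx : m ∣ x - 1) (n : ℕ) :
    m ∣ (∑ i ∈ range n, x ^ i) - n := by
  induction n with
  | zero => simp
  | succ n ih =>
    rw [Finset.sum_range_succ]
    have h1 : m ∣ x ^ n - 1 := dvd_trans hx (sub_one_dvd_pow_sub_one x n) |> fun h => by
      simpa using h
    have : (∑ i ∈ range n, x ^ i) + x ^ n - ((n + 1 : ℕ) : ℤ)
        = ((∑ i ∈ range n, x ^ i) - n) + (x ^ n - 1) := by push_cast; ring
    rw [this]
    exact dvd_add ih h1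


/-- Step 0 of the CLAIM: move `a` inside its class mod `b m` to an odd number prime to `M`. -/
theorem step0 (m : ℕ) (M : ℤ) (hM : 0 < M) (a b : ℤ) (ha : (m : ℤ) ∣ a - 1)
    (hab : IsCoprime a b) :
    ∃ t : ℤ, ¬ (2 : ℤ) ∣ (a + b * (m * t)) ∧ IsCoprime (a + b * (m * t)) M ∧
      IsCoprime (a + b * (m * t)) b := by
  by_cases hb0 : b = 0
  · subst hb0
    have hu : IsUnit a := isCoprime_zero_right.mp hab
    rcases Int.isUnit_iff.mp hu with h | h
    · subst h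
      exact ⟨0, by norm_num, by simpa using isCoprime_one_left, by simpa using hab⟩
    · subst h
      refine ⟨0, by norm_num, ?_, by simpa using hab⟩
      simp only [mul_zero, add_zero]
      exact ⟨-1, 0, by ring⟩
  · obtain ⟨y, hy⟩ := ha
    have ham : IsCoprime a (m : ℤ) := ⟨1, -y, by linarith⟩
    have habm : IsCoprime a (b * (m : ℤ)) := hab.mul_right ham
    by_cases hm0 : m = 0
    · -- then `a = 1`
      subst hm0
      have ha1 : a = 1 := by simp at hy; linarith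
      refine ⟨0, ?_, ?_, ?_⟩
      · rw [ha1]; norm_num
      · rw [ha1]; simpa using isCoprime_one_left
      · simpa using hab
    set N : ℕ := (b * (m : ℤ)).natAbs with hN
    have hN0 : N ≠ 0 := by
      rw [hN]; exact Int.natAbs_ne_zero.mpr (mul_ne_zero hb0 (by exact_mod_cast hm0))
    have hNZ : ((N : ℕ) : ℤ) = |b * (m : ℤ)| := by rw [hN]; exact Int.natCast_natAbs _
    have haN : IsCoprime a (N : ℤ) := by
      rw [hNZ]
      rcases abs_choice (b * (m : ℤ)) with h | h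
      · rw [h]; exact habm
      · rw [h]; exact habm.neg_right
    obtain ⟨P, hPgt, hPp, hPa⟩ :=
      Nat.forall_exists_prime_gt_and_zmodEq (max M.toNat 2) hN0 haN
    have hdvd : (b * (m : ℤ)) ∣ (P : ℤ) - a := by
      have h1 : ((N : ℕ) : ℤ) ∣ (P : ℤ) - a := Int.modEq_iff_dvd.mp hPa.symm
      refine dvd_trans ?_ h1
      rw [hNZ]; exact (dvd_abs _ _).mpr dvd_rfl
    obtain ⟨t, ht⟩ := hdvd
    have hPeq : a + b * ((m : ℤ) * t) = (P : ℤ) := by rw [← mul_assoc, ← ht]; ring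
    have hP2 : 2 < P := lt_of_le_of_lt (le_max_right _ _) hPgt
    have hPM : M.toNat < P := lt_of_le_of_lt (le_max_left _ _) hPgt
    have hMnat : ((M.toNat : ℕ) : ℤ) = M := Int.toNat_of_nonneg hM.le
    have hMnatpos : 0 < M.toNat := by
      have : (0 : ℤ) < ((M.toNat : ℕ) : ℤ) := by rw [hMnat]; exact hM
      exact_mod_cast this
    refine ⟨t, ?_, ?_, ?_⟩
    · rw [hPeq]
      intro h2
      have h2' : (2 : ℕ) ∣ P := by
        have : (((2 : ℕ)) : ℤ) ∣ ((P : ℕ) : ℤ) := by simpa using h2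
        exact Int.natCast_dvd_natCast.mp this
      have := (Nat.prime_dvd_prime_iff_eq Nat.prime_two hPp).mp h2'
      omega
    · rw [hPeq, ← hMnat, Nat.isCoprime_iff_coprime]
      exact (Nat.Prime.coprime_iff_not_dvd hPp).mpr (Nat.not_dvd_of_pos_of_lt hMnatpos hPM)
    · exact hab.add_mul_left_left _

/-- Step 1 of the CLAIM.  `M1 = q^(2r) - 1` where `q^r ≡ 1 [m]`; `a'` odd and prime to `M1` and
to `b`, `m ∣ b`. -/
theorem step1 (q m r : ℕ) (hq : 2 ≤ q) (hm : 0 < m) (hr : 0 < r)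
    (hqr : (m : ℤ) ∣ (q : ℤ) ^ r - 1) (a' b : ℤ) (hb : (m : ℤ) ∣ b)
    (hodd : ¬ (2 : ℤ) ∣ a') (haM : IsCoprime a' ((q : ℤ) ^ (2 * r) - 1)) (hab : IsCoprime a' b) :
    ∃ (s : ℤ) (k : ℕ) (w : ℤ), (m : ℤ) ∣ (q : ℤ) ^ k - 1 ∧
      1 - (q : ℤ) ^ (2 * k) = (b + a' * (m * s)) * w ∧ IsCoprime w (m : ℤ) := by
  set M1 : ℤ := (q : ℤ) ^ (2 * r) - 1 with hM1
  -- `m ∣ M1`
  have hmM1 : (m : ℤ) ∣ M1 := by
    have : M1 = ((q : ℤ) ^ r - 1) * ((q : ℤ) ^ r + 1) := by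
      rw [hM1, two_mul, pow_add]; ring
    rw [this]; exact Dvd.dvd.mul_right hqr _
  obtain ⟨M1', hM1'⟩ := hmM1
  obtain ⟨b1, hb1⟩ := hb
  -- positivity of `M1`
  have hq2 : (2 : ℤ) ≤ (q : ℤ) := by exact_mod_cast hq
  have hM1pos : 0 < M1 := by
    have : (1 : ℤ) < (q : ℤ) ^ (2 * r) := by
      apply one_lt_pow₀ (by linarith)
      omega
    rw [hM1]; linarith
  -- coprimality bookkeeping
  have ha'm : IsCoprime a' (m : ℤ) := by
    rw [hM1'] at haM; exact haM.of_mul_right_left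
  have ha'M1' : IsCoprime a' M1' := by
    rw [hM1'] at haM; exact haM.of_mul_right_right
  have ha'b1 : IsCoprime a' b1 := by
    rw [hb1] at hab; exact hab.of_mul_right_right
  have ha'2 : IsCoprime a' 2 := by
    rw [isCoprime_comm]
    exact (Int.prime_two.coprime_iff_not_dvd).mpr hodd
  have ha'4m : IsCoprime a' (4 * (m : ℤ)) := by
    have h4 : IsCoprime a' 4 := by
      have : (4 : ℤ) = 2 * 2 := by norm_num
      rw [this]; exact ha'2.mul_right ha'2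
    exact h4.mul_right ha'm
  have ha'0 : a' ≠ 0 := by
    rintro rfl; exact hodd (dvd_zero _)
  -- the residue class
  obtain ⟨u, v, huv⟩ := ha'M1'
  obtain ⟨u2, v2, huv2⟩ := ha'4m
  -- `c = v * b1`, `x = -(u2 * a') + c * (v2 * (4 m))`
  set c : ℤ := v * b1 with hc
  set x : ℤ := -(u2 * a') + c * (v2 * (4 * (m : ℤ))) with hx
  have hx4m : x = -1 + (4 * (m : ℤ)) * (v2 + c * v2) := by
    rw [hx]; linear_combination (-1 : ℤ) * huv2
  have hxa' : x = c + a' * (-u2 - c * u2) := by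
    rw [hx]; linear_combination (c : ℤ) * huv2
  have hcx1 : IsCoprime x (4 * (m : ℤ)) := ⟨-1, v2 + c * v2, by rw [hx4m]; ring⟩
  have hva' : IsCoprime v a' := ⟨M1', u, by linarith⟩
  have hca' : IsCoprime c a' := hva'.mul_left ha'b1.symm
  have hcx2 : IsCoprime x a' := by
    rw [hxa']; exact hca'.add_mul_left_left _
  set N : ℕ := (4 * m) * a'.natAbs with hN
  have hN0 : N ≠ 0 := by
    rw [hN]; exact Nat.mul_ne_zero (by omega) (Int.natAbs_ne_zero.mpr ha'0)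
  have hcxN : IsCoprime x (N : ℤ) := by
    rw [hN]; push_cast
    refine IsCoprime.mul_right hcx1 ?_
    rcases abs_choice a' with h | h
    · rw [h]; exact hcx2
    · rw [h]; exact hcx2.neg_right
  -- Dirichlet
  obtain ⟨l, hlgt, hlp, hlx⟩ :=
    Nat.forall_exists_prime_gt_and_zmodEq (M1.toNat * q) hN0 hcxN
  -- consequences of the congruence
  have hdvdN : (N : ℤ) ∣ (l : ℤ) - x := (Int.modEq_iff_dvd.mp hlx.symm)
  have h4mN : (4 * (m : ℤ)) ∣ (N : ℤ) := by rw [hN]; push_cast; exact Dvd.intro _ rfl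
  have ha'N : a' ∣ (N : ℤ) := by
    rw [hN]; push_cast
    exact Dvd.dvd.mul_left ((dvd_abs a' a').mpr dvd_rfl) _
  have hl4m : (4 * (m : ℤ)) ∣ (l : ℤ) + 1 := by
    have h1 := dvd_trans h4mN hdvdN
    have : (l : ℤ) + 1 = ((l : ℤ) - x) + (4 * (m : ℤ)) * (v2 + c * v2) := by rw [hx4m]; ring
    rw [this]; exact dvd_add h1 (Dvd.intro _ rfl)
  have hla' : a' ∣ M1' * (l : ℤ) - b1 := by
    have h1 := dvd_trans ha'N hdvdN
    -- M1' * l - b1 = M1' * (l - x) + M1' * x - b1, and M1' * x ≡ M1' * c = M1' v b1 ≡ b1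
    have : M1' * (l : ℤ) - b1
        = M1' * ((l : ℤ) - x) + a' * (M1' * (-u2 - c * u2) - u * b1) := by
      rw [hxa', hc]; linear_combination (b1 : ℤ) * huv
    rw [this]
    exact dvd_add (Dvd.dvd.mul_left h1 _) (Dvd.intro _ rfl)
  -- size of `l`
  have hM1nat : ((M1.toNat : ℕ) : ℤ) = M1 := Int.toNat_of_nonneg hM1pos.le
  have hM1natpos : 0 < M1.toNat := by
    have : (0 : ℤ) < ((M1.toNat : ℕ) : ℤ) := by rw [hM1nat]; exact hM1pos
    exact_mod_cast this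
  have hqpos : 0 < q := by omega
  have hlM1 : M1.toNat < l := lt_of_le_of_lt (Nat.le_mul_of_pos_right _ hqpos) hlgt
  have hlq : q < l := lt_of_le_of_lt (Nat.le_mul_of_pos_left _ hM1natpos) hlgt
  have hcop_lq : IsCoprime (q : ℤ) (l : ℤ) := by
    rw [Nat.isCoprime_iff_coprime, Nat.coprime_comm]
    exact (Nat.Prime.coprime_iff_not_dvd hlp).mpr (Nat.not_dvd_of_pos_of_lt hqpos hlq)
  have hcop_lM1 : IsCoprime (l : ℤ) M1 := by
    rw [← hM1nat, Nat.isCoprime_iff_coprime]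
    exact (Nat.Prime.coprime_iff_not_dvd hlp).mpr (Nat.not_dvd_of_pos_of_lt hM1natpos hlM1)
  -- `l + 1 = 4 m j`
  have hl4m' : (4 * m) ∣ l + 1 := by
    have : (((4 * m : ℕ)) : ℤ) ∣ ((l + 1 : ℕ) : ℤ) := by push_cast; exact hl4m
    exact Int.natCast_dvd_natCast.mp this
  obtain ⟨j, hj⟩ := hl4m'
  have hj' : l + 1 = 4 * (m * j) := by rw [hj]; ring
  have hl2 : 2 ≤ l := hlp.two_le
  set e : ℕ := m * j with he
  set k0 : ℕ := 2 * e - 1 with hk0
  have hk0l : 2 * k0 = l - 1 := by omega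
  have hk0l' : 2 * k0 + 1 = l := by omega
  have hk0Z : (k0 : ℤ) = 2 * (m : ℤ) * (j : ℤ) - 1 := by
    have h1 : 1 ≤ 2 * e := by omega
    rw [hk0, Nat.cast_sub h1, he]; push_cast; ring
  have hk0m : IsCoprime (k0 : ℤ) (m : ℤ) := ⟨-1, 2 * (j : ℤ), by rw [hk0Z]; ring⟩
  -- Fermat
  have hfermat : (q : ℤ) ^ (l - 1) ≡ 1 [ZMOD (l : ℤ)] :=
    Int.ModEq.pow_card_sub_one_eq_one hlp hcop_lq
  set y : ℤ := (q : ℤ) ^ (2 * r) with hy
  have hyk0 : y ^ k0 = ((q : ℤ) ^ (l - 1)) ^ r := by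
    rw [hy, ← pow_mul, ← pow_mul, ← hk0l]; congr 1; ring
  have hly : (l : ℤ) ∣ y ^ k0 - 1 := by
    rw [hyk0]
    have := (hfermat.pow r)
    rw [one_pow] at this
    exact (Int.modEq_iff_dvd.mp this.symm)
  -- geometric sum
  set Sg : ℤ := ∑ i ∈ range k0, y ^ i with hSg
  have hgeom : M1 * Sg = y ^ k0 - 1 := mul_geom_sum y k0
  have hlSg : (l : ℤ) ∣ Sg := by
    have : (l : ℤ) ∣ M1 * Sg := by rw [hgeom]; exact hly
    exact hcop_lM1.dvd_of_dvd_mul_left this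
  obtain ⟨σ, hσ⟩ := hlSg
  have hmy : (m : ℤ) ∣ y - 1 := ⟨M1', hM1'⟩
  obtain ⟨e', he'⟩ := dvd_geom_sum_sub_card (m : ℤ) y hmy k0
  have hSgm : IsCoprime Sg (m : ℤ) := by
    have : Sg = (k0 : ℤ) + (m : ℤ) * e' := by rw [← hSg] at he'; linarith
    rw [this]; exact hk0m.add_mul_left_left _
  have hσm : IsCoprime σ (m : ℤ) := by
    rw [hσ] at hSgm; exact hSgm.of_mul_left_right
  obtain ⟨s, hs⟩ := hla'
  refine ⟨s, r * k0, -σ, ?_, ?_, hσm.neg_left⟩
  · rw [pow_mul]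
    exact dvd_trans hqr (sub_one_dvd_pow_sub_one _ _)
  · have h1 : (q : ℤ) ^ (2 * (r * k0)) = y ^ k0 := by
      rw [hy, ← pow_mul]; congr 1; ring
    rw [h1]
    have h2 : y ^ k0 = M1 * Sg + 1 := by rw [hgeom]; ring
    rw [h2, hσ, hb1]
    have h3 : a' * ((m : ℤ) * s) = (m : ℤ) * (M1' * (l : ℤ) - b1) := by rw [hs]; ring
    rw [h3, hM1']; ring


/-- **The arithmetic half of the centrality CLAIM** (helper2's Theorem I, board #1439,
Steps 0 and 1).  For a first row `(a, b)` of an element of `Γ(m)`: after the moves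
`(a, b) ↦ (a', b) := (a + b m t, b)` and `(a', b) ↦ (a', b') := (a', b + a' m s)` there are a unit
`v = q ^ k` of `ℤ[1/q]`, `v ≡ 1 [m]`, and an integer `w` prime to `m` with `1 - v^2 = b' w`. -/
theorem exists_csp_data (q m : ℕ) (hq : 2 ≤ q) (hm : 0 < m) (hqm : q.Coprime m) (a b : ℤ)
    (ha : (m : ℤ) ∣ a - 1) (hb : (m : ℤ) ∣ b) (hab : IsCoprime a b) :
    ∃ (t s : ℤ) (k : ℕ) (w : ℤ), (m : ℤ) ∣ (q : ℤ) ^ k - 1 ∧
      1 - (q : ℤ) ^ (2 * k) = (b + (a + b * (m * t)) * (m * s)) * w ∧ IsCoprime w (m : ℤ) := by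
  set r : ℕ := Nat.totient m with hr
  have hrpos : 0 < r := Nat.totient_pos.mpr hm
  have hqr : (m : ℤ) ∣ (q : ℤ) ^ r - 1 := by
    have h1 : q ^ r ≡ 1 [MOD m] := Nat.ModEq.pow_totient hqm
    have h2 := (Nat.modEq_iff_dvd.mp h1.symm)
    simpa using h2
  have hq2 : (2 : ℤ) ≤ (q : ℤ) := by exact_mod_cast hq
  have hM1pos : 0 < (q : ℤ) ^ (2 * r) - 1 := by
    have : (1 : ℤ) < (q : ℤ) ^ (2 * r) := by
      apply one_lt_pow₀ (by linarith)
      omega
    linarith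
  obtain ⟨t, hodd, haM, hab'⟩ := step0 m ((q : ℤ) ^ (2 * r) - 1) hM1pos a b ha hab
  obtain ⟨s, k, w, h1, h2, h3⟩ :=
    step1 q m r hq hm hrpos hqr (a + b * (m * t)) b hb hodd haM hab'
  exact ⟨t, s, k, w, h1, h2, h3⟩

/-- Variant with the new first row `(a', b')` named.  `a' ≡ 1 [m]`, `m ∣ b'`, and
`s0 := w * a'` satisfies `a' - b' * s0 = q^(2k) * a'` and is a unit mod `m`. -/
theorem exists_csp_data' (q m : ℕ) (hq : 2 ≤ q) (hm : 0 < m) (hqm : q.Coprime m) (a b : ℤ)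
    (ha : (m : ℤ) ∣ a - 1) (hb : (m : ℤ) ∣ b) (hab : IsCoprime a b) :
    ∃ (t s a' b' : ℤ) (k : ℕ) (s0 : ℤ), a' = a + b * (m * t) ∧ b' = b + a' * (m * s) ∧
      (m : ℤ) ∣ a' - 1 ∧ (m : ℤ) ∣ b' ∧ (m : ℤ) ∣ (q : ℤ) ^ k - 1 ∧
      a' - b' * s0 = (q : ℤ) ^ (2 * k) * a' ∧ IsCoprime s0 (m : ℤ) := by
  obtain ⟨t, s, k, w, h1, h2, h3⟩ := exists_csp_data q m hq hm hqm a b ha hb hab
  obtain ⟨y, hy⟩ := ha
  obtain ⟨b1, hb1⟩ := hb
  have ha' : (m : ℤ) ∣ (a + b * (m * t)) - 1 :=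
    ⟨y + b * t, by rw [show a + b * (↑m * t) - 1 = (a - 1) + b * (↑m * t) by ring, hy]; ring⟩
  refine ⟨t, s, a + b * (m * t), b + (a + b * (m * t)) * (m * s), k,
    w * (a + b * (m * t)), rfl, rfl, ha', ?_, h1, ?_, ?_⟩
  · exact ⟨b1 + (a + b * (m * t)) * s, by rw [hb1]; ring⟩
  · have : (b + (a + b * (↑m * t)) * (↑m * s)) * (w * (a + b * (↑m * t)))
        = ((b + (a + b * (↑m * t)) * (↑m * s)) * w) * (a + b * (↑m * t)) := by ring
    rw [this, ← h2]; ring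
  · obtain ⟨y', hy'⟩ := ha'
    have hcop : IsCoprime (a + b * (m * t)) (m : ℤ) := ⟨1, -y', by linarith⟩
    exact h3.mul_left hcop

end Fermat.Agent.S41.H71
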