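import Mathlib
import Fermat.Agent.S41.H38_CSPGlue
import Fermat.Agent.S41.H71_CSP_Arith

/-!
# S41 / D-I, group side (helper38): centrality `[SL(2, ℤ), Γ(m)] ⊆ E(m)` in `SL(2, R)`

`R` is any commutative ring in which `q` is a unit, `(q, m) = 1`, and
`E(m) = elemNormal (m : R)` is the normal closure in `SL(2, R)` of the elementary matrices
`x12 (m t)`.  This is Theorem I of helper2's paper proof (board #1439), with the arithmetic
half taken from helper71's `H71.exists_csp_data'`.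

Main result: `centrality`.
-/

set_option autoImplicit false
set_option linter.unusedSectionVars false
set_option linter.unusedSimpArgs false
set_option linter.unusedVariables false

open Matrix CongruenceSubgroup
open scoped MatrixGroups

namespace Fermat.Agent.S41.H38

section Basics

variable {R : Type*} [CommRing R]

lemma sl_ext {g h : SL(2, R)} (h00 : g.1 0 0 = h.1 0 0) (h01 : g.1 0 1 = h.1 0 1)
    (h10 : g.1 1 0 = h.1 1 0) (h11 : g.1 1 1 = h.1 1 1) : g = h := by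
  apply Matrix.SpecialLinearGroup.ext
  intro i j
  fin_cases i <;> fin_cases j <;> assumption

lemma sl_mul_00 (g h : SL(2, R)) :
    (g * h).1 0 0 = g.1 0 0 * h.1 0 0 + g.1 0 1 * h.1 1 0 := by
  rw [Matrix.SpecialLinearGroup.coe_mul, Matrix.mul_apply, Fin.sum_univ_two]

lemma sl_mul_01 (g h : SL(2, R)) :
    (g * h).1 0 1 = g.1 0 0 * h.1 0 1 + g.1 0 1 * h.1 1 1 := by
  rw [Matrix.SpecialLinearGroup.coe_mul, Matrix.mul_apply, Fin.sum_univ_two]

lemma sl_mul_10 (g h : SL(2, R)) :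
    (g * h).1 1 0 = g.1 1 0 * h.1 0 0 + g.1 1 1 * h.1 1 0 := by
  rw [Matrix.SpecialLinearGroup.coe_mul, Matrix.mul_apply, Fin.sum_univ_two]

lemma sl_mul_11 (g h : SL(2, R)) :
    (g * h).1 1 1 = g.1 1 0 * h.1 0 1 + g.1 1 1 * h.1 1 1 := by
  rw [Matrix.SpecialLinearGroup.coe_mul, Matrix.mul_apply, Fin.sum_univ_two]

lemma sl_inv_00 (g : SL(2, R)) : (g⁻¹).1 0 0 = g.1 1 1 := by
  rw [Matrix.SpecialLinearGroup.coe_inv, Matrix.adjugate_fin_two]; simp

lemma sl_inv_01 (g : SL(2, R)) : (g⁻¹).1 0 1 = -g.1 0 1 := by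
  rw [Matrix.SpecialLinearGroup.coe_inv, Matrix.adjugate_fin_two]; simp

lemma sl_inv_10 (g : SL(2, R)) : (g⁻¹).1 1 0 = -g.1 1 0 := by
  rw [Matrix.SpecialLinearGroup.coe_inv, Matrix.adjugate_fin_two]; simp

lemma sl_inv_11 (g : SL(2, R)) : (g⁻¹).1 1 1 = g.1 0 0 := by
  rw [Matrix.SpecialLinearGroup.coe_inv, Matrix.adjugate_fin_two]; simp

lemma sl_det (g : SL(2, R)) : g.1 0 0 * g.1 1 1 - g.1 0 1 * g.1 1 0 = 1 := by
  have := g.2
  rw [Matrix.det_fin_two] at this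
  exact this

/-- The lower elementary matrix `[[1, 0], [t, 1]]`. -/
def x21 (t : R) : SL(2, R) := ⟨!![1, 0; t, 1], by simp [Matrix.det_fin_two_of]⟩

@[simp] lemma x21_00 (t : R) : (x21 t).1 0 0 = 1 := rfl
@[simp] lemma x21_01 (t : R) : (x21 t).1 0 1 = 0 := rfl
@[simp] lemma x21_10 (t : R) : (x21 t).1 1 0 = t := rfl
@[simp] lemma x21_11 (t : R) : (x21 t).1 1 1 = 1 := rfl

/-- The Weyl element `[[0, 1], [-1, 0]]`. -/
def wEl : SL(2, R) := ⟨!![0, 1; -1, 0], by simp [Matrix.det_fin_two_of]⟩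

@[simp] lemma wEl_00 : (wEl : SL(2, R)).1 0 0 = 0 := rfl
@[simp] lemma wEl_01 : (wEl : SL(2, R)).1 0 1 = 1 := rfl
@[simp] lemma wEl_10 : (wEl : SL(2, R)).1 1 0 = -1 := rfl
@[simp] lemma wEl_11 : (wEl : SL(2, R)).1 1 1 = 0 := rfl

/-- The diagonal matrix `diag(u, u⁻¹)`. -/
def hdiag (u : Rˣ) : SL(2, R) :=
  ⟨!![(u : R), 0; 0, ((u⁻¹ : Rˣ) : R)], by simp [Matrix.det_fin_two_of]⟩

@[simp] lemma hdiag_00 (u : Rˣ) : (hdiag u).1 0 0 = (u : R) := rfl
@[simp] lemma hdiag_01 (u : Rˣ) : (hdiag u).1 0 1 = 0 := rfl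
@[simp] lemma hdiag_10 (u : Rˣ) : (hdiag u).1 1 0 = 0 := rfl
@[simp] lemma hdiag_11 (u : Rˣ) : (hdiag u).1 1 1 = ((u⁻¹ : Rˣ) : R) := rfl

lemma x21_zero : x21 (0 : R) = 1 := by
  apply sl_ext <;> simp

lemma x21_add (s t : R) : x21 (s + t) = x21 s * x21 t := by
  apply sl_ext <;> simp [sl_mul_00, sl_mul_01, sl_mul_10, sl_mul_11, add_comm]

/-- `t ↦ x21 t` as a homomorphism. -/
def x21Hom : Multiplicative R →* SL(2, R) where
  toFun t := x21 (Multiplicative.toAdd t)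
  map_one' := x21_zero
  map_mul' a b := x21_add _ _

lemma x21_zsmul (n : ℤ) (t : R) : x21 (n • t) = x21 t ^ n := by
  have := map_zpow (x21Hom (R := R)) (Multiplicative.ofAdd t) n
  rw [← ofAdd_zsmul] at this
  exact this

lemma x12_neg (t : R) : x12 (-t) = (x12 t)⁻¹ := by
  rw [eq_inv_iff_mul_eq_one, ← x12_add, neg_add_cancel, x12_zero]

/-- `w x12(s) w⁻¹ = x21(-s)`. -/
lemma wEl_conj_x12 (s : R) : wEl * x12 s * wEl⁻¹ = x21 (-s) := by
  apply sl_ext <;>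
    simp [sl_mul_00, sl_mul_01, sl_mul_10, sl_mul_11, sl_inv_00, sl_inv_01, sl_inv_10, sl_inv_11]

/-- `w⁻¹ x21(s) w = x12(-s)`. -/
lemma wEl_inv_conj_x21 (s : R) : wEl⁻¹ * x21 s * wEl = x12 (-s) := by
  have h := wEl_conj_x12 (-s)
  rw [neg_neg] at h
  rw [← h]
  group

/-- `diag(u, u⁻¹) = w_u w_1⁻¹` with `w_u = x12(u) x21(-u⁻¹) x12(u)`. -/
lemma hdiag_eq (u : Rˣ) :
    hdiag u = x12 (u : R) * x21 (-((u⁻¹ : Rˣ) : R)) * x12 (u : R) *
      (x12 (1 : R) * x21 (-1) * x12 1)⁻¹ := by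
  apply sl_ext <;>
    simp [sl_mul_00, sl_mul_01, sl_mul_10, sl_mul_11, sl_inv_00, sl_inv_01, sl_inv_10, sl_inv_11]

/-- **(F3)** Two elements with the same first row differ by a lower elementary matrix. -/
lemma eq_x21_mul (g g' : SL(2, R)) (h00 : g'.1 0 0 = g.1 0 0) (h01 : g'.1 0 1 = g.1 0 1) :
    g' = x21 (g'.1 1 0 * g.1 1 1 - g'.1 1 1 * g.1 1 0) * g := by
  have hd := sl_det g
  have hd' := sl_det g'
  rw [h00, h01] at hd'
  apply sl_ext
  · simp [sl_mul_00, h00]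
  · simp [sl_mul_01, h01]
  · simp only [sl_mul_10, x21_10, x21_11]
    linear_combination (-(g'.1 1 0)) * hd + (g.1 1 0) * hd'
  · simp only [sl_mul_11, x21_10, x21_11]
    linear_combination (-(g'.1 1 1)) * hd + (g.1 1 1) * hd'

end Basics

section Quotient

variable {R : Type*} [CommRing R] (m : R)

/-- The projection `SL(2, R) → SL(2, R) ⧸ E(m)`. -/
def piE : SL(2, R) →* SL(2, R) ⧸ elemNormal m := QuotientGroup.mk' (elemNormal m)

lemma piE_eq_one_iff {x : SL(2, R)} : piE m x = 1 ↔ x ∈ elemNormal m :=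
  QuotientGroup.eq_one_iff x

lemma x12_mem (t : R) : x12 (m * t) ∈ elemNormal m :=
  Subgroup.subset_normalClosure ⟨t, rfl⟩

lemma x21_mem (t : R) : x21 (m * t) ∈ elemNormal m := by
  have h : x21 (m * t) = wEl * x12 (m * (-t)) * wEl⁻¹ := by
    rw [wEl_conj_x12]; congr 1; ring
  rw [h]
  exact (inferInstance : (elemNormal m).Normal).conj_mem _ (x12_mem m (-t)) _

/-- **(F1)** for `x12`. -/
lemma piE_x12_add (s t : R) : piE m (x12 (s + m * t)) = piE m (x12 s) := by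
  rw [x12_add, map_mul, (piE_eq_one_iff m).2 (x12_mem m t), mul_one]

/-- **(F1)** for `x21`. -/
lemma piE_x21_add (s t : R) : piE m (x21 (s + m * t)) = piE m (x21 s) := by
  rw [x21_add, map_mul, (piE_eq_one_iff m).2 (x21_mem m t), mul_one]

/-- **(F2)** `diag(u, u⁻¹) ∈ E(m)` for a unit `u ≡ 1 mod m`. -/
lemma hdiag_mem (u : Rˣ) (y : R) (hu : (u : R) = 1 + m * y) : hdiag u ∈ elemNormal m := by
  rw [← piE_eq_one_iff]
  have h1 : piE m (x12 (u : R)) = piE m (x12 1) := by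
    rw [hu]; exact piE_x12_add m 1 y
  have h2 : piE m (x21 (-((u⁻¹ : Rˣ) : R))) = piE m (x21 (-1)) := by
    have h3 : (-((u⁻¹ : Rˣ) : R)) = -1 + m * (y * ((u⁻¹ : Rˣ) : R)) := by
      have h4 : ((u⁻¹ : Rˣ) : R) * (u : R) = 1 := u.inv_mul
      rw [hu] at h4
      linear_combination (-1 : R) * h4
    rw [h3]; exact piE_x21_add m (-1) _
  rw [hdiag_eq, map_mul, map_inv, map_mul, map_mul, map_mul, map_mul, h1, h2]
  group

/-- **(F3)** in the quotient: same first row and lower-left entries in `mR` ⇒ equal mod `E(m)`. -/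
lemma piE_eq_of_row (g g' : SL(2, R)) (h00 : g'.1 0 0 = g.1 0 0) (h01 : g'.1 0 1 = g.1 0 1)
    (c c' : R) (hc : g.1 1 0 = m * c) (hc' : g'.1 1 0 = m * c') : piE m g' = piE m g := by
  rw [eq_x21_mul g g' h00 h01, map_mul]
  have h : g'.1 1 0 * g.1 1 1 - g'.1 1 1 * g.1 1 0 = m * (c' * g.1 1 1 - g'.1 1 1 * c) := by
    rw [hc, hc']; ring
  rw [h, (piE_eq_one_iff m).2 (x21_mem m _), one_mul]

end Quotient

section Integral

variable {R : Type*} [CommRing R]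

/-- `SL(2, ℤ) → SL(2, R)`. -/
def intR (R : Type*) [CommRing R] : SL(2, ℤ) →* SL(2, R) :=
  Matrix.SpecialLinearGroup.map (Int.castRingHom R)

lemma intR_apply (g : SL(2, ℤ)) (i j : Fin 2) : (intR R g).1 i j = ((g.1 i j : ℤ) : R) := by
  simp [intR]

lemma intR_x12 (t : ℤ) : intR R (x12 t) = x12 (t : R) := by
  apply sl_ext <;> simp [intR_apply]

lemma intR_x21 (t : ℤ) : intR R (x21 t) = x21 (t : R) := by
  apply sl_ext <;> simp [intR_apply]

lemma intR_wEl : intR R wEl = wEl := by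
  apply sl_ext <;> simp [intR_apply]

lemma Gamma_mem_iff_dvd {m : ℕ} {g : SL(2, ℤ)} :
    g ∈ Gamma m ↔ (m : ℤ) ∣ g.1 0 0 - 1 ∧ (m : ℤ) ∣ g.1 0 1 ∧ (m : ℤ) ∣ g.1 1 0 ∧
      (m : ℤ) ∣ g.1 1 1 - 1 := by
  rw [Gamma_mem]
  simp only [← ZMod.intCast_zmod_eq_zero_iff_dvd]
  push_cast
  simp only [sub_eq_zero]

lemma x12_mem_Gamma (m : ℕ) (t : ℤ) : x12 ((m : ℤ) * t) ∈ Gamma m := by
  rw [Gamma_mem_iff_dvd]
  simp

lemma x21_mem_Gamma (m : ℕ) (t : ℤ) : x21 ((m : ℤ) * t) ∈ Gamma m := by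
  rw [Gamma_mem_iff_dvd]
  simp

end Integral

section Claim

variable {R : Type*} [CommRing R]

/-- **CLAIM** of Theorem I: for `g ∈ Γ(m)` some `x21(s0)` with `s0` prime to `m` commutes with
`g` modulo `E(m)`. -/
theorem exists_commute_x21 {q m : ℕ} (hq : 2 ≤ q) (hm : 0 < m) (hqm : q.Coprime m)
    (hqR : IsUnit ((q : ℕ) : R)) (g : SL(2, ℤ)) (hg : g ∈ Gamma m) :
    ∃ s0 : ℤ, IsCoprime s0 (m : ℤ) ∧
      Commute (piE ((m : ℕ) : R) (x21 ((s0 : ℤ) : R))) (piE ((m : ℕ) : R) (intR R g)) := by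
  obtain ⟨ha, hb, hc, hd⟩ := Gamma_mem_iff_dvd.1 hg
  have hab : IsCoprime (g.1 0 0) (g.1 0 1) :=
    ⟨g.1 1 1, -g.1 1 0, by have := sl_det g; linarith⟩
  obtain ⟨t, s, a', b', k, s0, ha', hb', ha'1, hb'0, hk, hkey, hs0⟩ :=
    H71.exists_csp_data' q m hq hm hqm (g.1 0 0) (g.1 0 1) ha hb hab
  refine ⟨s0, hs0, ?_⟩
  -- the modified element
  set g0 : SL(2, ℤ) := g * x21 ((m : ℤ) * t) * x12 ((m : ℤ) * s) with hg0
  have hg0mem : g0 ∈ Gamma m :=
    mul_mem (mul_mem hg (x21_mem_Gamma m t)) (x12_mem_Gamma m s)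
  have h00 : g0.1 0 0 = a' := by
    rw [hg0, ha']; simp [sl_mul_00, sl_mul_01, sl_mul_10, sl_mul_11]
  have h01 : g0.1 0 1 = b' := by
    rw [hg0, hb', ha']; simp [sl_mul_00, sl_mul_01, sl_mul_10, sl_mul_11]; ring
  obtain ⟨-, -, ⟨c1, hc1⟩, ⟨d1, hd1⟩⟩ := Gamma_mem_iff_dvd.1 hg0mem
  obtain ⟨a1, ha1⟩ := ha'1
  obtain ⟨b1, hb1⟩ := hb'0
  obtain ⟨y0, hy0⟩ := hk
  -- in R
  set M : R := ((m : ℕ) : R) with hM
  have hπ0 : piE M (intR R g0) = piE M (intR R g) := by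
    have e1 : intR R (x21 ((m : ℤ) * t)) = x21 (M * (t : R)) := by
      rw [intR_x21]; push_cast; rfl
    have e2 : intR R (x12 ((m : ℤ) * s)) = x12 (M * (s : R)) := by
      rw [intR_x12]; push_cast; rfl
    rw [hg0]
    simp only [map_mul]
    rw [e1, e2, (piE_eq_one_iff M).2 (x12_mem M _), (piE_eq_one_iff M).2 (x21_mem M _),
      mul_one, mul_one]
  set v : Rˣ := hqR.unit ^ k with hv
  have hvq : (v : R) = (q : R) ^ k := by simp [hv]
  have hv1 : (v : R) = 1 + M * (y0 : R) := by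
    rw [hvq]
    have : (((q : ℤ) ^ k - 1 : ℤ) : R) = (((m : ℤ) * y0 : ℤ) : R) := by rw [hy0]
    push_cast at this
    linear_combination this
  have hhv : piE M (hdiag v) = 1 := (piE_eq_one_iff M).2 (hdiag_mem M v _ hv1)
  -- entries of G0 in R
  set G0 : SL(2, R) := intR R g0 with hG0
  have e00 : G0.1 0 0 = (a' : R) := by rw [hG0, intR_apply, h00]
  have e01 : G0.1 0 1 = (b' : R) := by rw [hG0, intR_apply, h01]
  have e10 : G0.1 1 0 = M * (c1 : R) := by rw [hG0, intR_apply, hc1]; push_cast; rfl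
  have e11 : G0.1 1 1 = 1 + M * (d1 : R) := by
    rw [hG0, intR_apply]
    have : ((g0.1 1 1 - 1 : ℤ) : R) = (((m : ℤ) * d1 : ℤ) : R) := by rw [hd1]
    push_cast at this
    linear_combination this
  have ea : (a' : R) = 1 + M * (a1 : R) := by
    have : ((a' - 1 : ℤ) : R) = (((m : ℤ) * a1 : ℤ) : R) := by rw [ha1]
    push_cast at this
    linear_combination this
  have eb : (b' : R) = M * (b1 : R) := by rw [hb1]; push_cast; rfl
  have ekey : (a' : R) - (b' : R) * (s0 : R) = (v : R) ^ 2 * (a' : R) := by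
    have : ((a' - b' * s0 : ℤ) : R) = (((q : ℤ) ^ (2 * k) * a' : ℤ) : R) := by rw [hkey]
    push_cast at this
    rw [this, hvq]; ring
  -- the two conjugates
  have hvinv : ((v⁻¹ : Rˣ) : R) * (v : R) = 1 := v.inv_mul
  have hvinv' : (v : R) * ((v⁻¹ : Rˣ) : R) = 1 := v.mul_inv
  have hrow := piE_eq_of_row M (hdiag v * G0 * hdiag v)
    (x21 (s0 : R) * G0 * (x21 (s0 : R))⁻¹) ?_ ?_ (c1 : R)
    ((c1 : R) + s0 * a1 - s0 * d1 - s0 ^ 2 * b1) ?_ ?_
  · -- conclude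
    rw [map_mul, map_mul, map_mul, map_mul, hhv, one_mul, mul_one, map_inv, hπ0] at hrow
    exact (mul_inv_eq_iff_eq_mul.1 hrow)
  · simp only [sl_mul_00, sl_mul_01, sl_mul_10, sl_mul_11, sl_inv_00, sl_inv_01, sl_inv_10,
      sl_inv_11, e00, e01, x21_00, x21_01, x21_10, x21_11, hdiag_00, hdiag_01, hdiag_10, hdiag_11]
    linear_combination ekey
  · simp only [sl_mul_00, sl_mul_01, sl_mul_10, sl_mul_11, sl_inv_00, sl_inv_01, sl_inv_10,
      sl_inv_11, e00, e01, x21_00, x21_01, x21_10, x21_11, hdiag_00, hdiag_01, hdiag_10, hdiag_11]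
    linear_combination (-(b' : R)) * hvinv'
  · simp only [sl_mul_00, sl_mul_01, sl_mul_10, sl_mul_11, sl_inv_00, sl_inv_01, sl_inv_10,
      sl_inv_11, e10, x21_00, x21_01, x21_10, x21_11, hdiag_00, hdiag_01, hdiag_10, hdiag_11]
    linear_combination (M * (c1 : R)) * hvinv
  · simp only [sl_mul_00, sl_mul_01, sl_mul_10, sl_mul_11, sl_inv_00, sl_inv_01, sl_inv_10,
      sl_inv_11, e00, e01, e10, e11, x21_00, x21_01, x21_10, x21_11]
    rw [ea, eb]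
    ring

end Claim

section Centrality

variable {R : Type*} [CommRing R]

/-- `x21(1)` commutes with `Γ(m)` modulo `E(m)`. -/
theorem commute_x21_one {q m : ℕ} (hq : 2 ≤ q) (hm : 0 < m) (hqm : q.Coprime m)
    (hqR : IsUnit ((q : ℕ) : R)) (g : SL(2, ℤ)) (hg : g ∈ Gamma m) :
    Commute (piE ((m : ℕ) : R) (x21 (1 : R))) (piE ((m : ℕ) : R) (intR R g)) := by
  obtain ⟨s0, ⟨x, y, hxy⟩, hcomm⟩ := exists_commute_x21 (R := R) hq hm hqm hqR g hg
  have h1 : (1 : R) = (x : ℤ) • ((s0 : ℤ) : R) + ((m : ℕ) : R) * (y : R) := by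
    have : ((x * s0 + y * (m : ℤ) : ℤ) : R) = ((1 : ℤ) : R) := by rw [hxy]
    push_cast at this
    rw [zsmul_eq_mul]
    linear_combination -this
  rw [h1, piE_x21_add, x21_zsmul, map_zpow]
  exact hcomm.zpow_left x

/-- `x12(1)` commutes with `Γ(m)` modulo `E(m)`. -/
theorem commute_x12_one {q m : ℕ} (hq : 2 ≤ q) (hm : 0 < m) (hqm : q.Coprime m)
    (hqR : IsUnit ((q : ℕ) : R)) (g : SL(2, ℤ)) (hg : g ∈ Gamma m) :
    Commute (piE ((m : ℕ) : R) (x12 (1 : R))) (piE ((m : ℕ) : R) (intR R g)) := by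
  have hg' : (wEl : SL(2, ℤ)) * g * wEl⁻¹ ∈ Gamma m := (Gamma_normal m).conj_mem g hg wEl
  have h := commute_x21_one (R := R) hq hm hqm hqR _ hg'
  simp only [map_mul, map_inv, intR_wEl] at h
  set W := piE ((m : ℕ) : R) (wEl : SL(2, R)) with hW
  set X := piE ((m : ℕ) : R) (x21 (1 : R)) with hX
  set Gb := piE ((m : ℕ) : R) (intR R g) with hGb
  have h2 : Commute (W⁻¹ * X * W) Gb := by
    have h3 : X * (W * Gb * W⁻¹) = (W * Gb * W⁻¹) * X := h
    show (W⁻¹ * X * W) * Gb = Gb * (W⁻¹ * X * W)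
    have h4 : W⁻¹ * (X * (W * Gb * W⁻¹)) * W = W⁻¹ * ((W * Gb * W⁻¹) * X) * W := by rw [h3]
    calc (W⁻¹ * X * W) * Gb = W⁻¹ * (X * (W * Gb * W⁻¹)) * W := by group
      _ = W⁻¹ * ((W * Gb * W⁻¹) * X) * W := h4
      _ = Gb * (W⁻¹ * X * W) := by group
  have h5 : W⁻¹ * X * W = (piE ((m : ℕ) : R) (x12 (1 : R)))⁻¹ := by
    rw [hW, hX, ← map_inv, ← map_mul, ← map_mul, wEl_inv_conj_x21, x12_neg, map_inv]
  rw [h5] at h2
  exact (Commute.inv_left_iff).1 h2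

lemma closure_x12_x21 :
    Subgroup.closure ({x12 (1 : ℤ), x21 (1 : ℤ)} : Set SL(2, ℤ)) = ⊤ := by
  rw [eq_top_iff, ← _root_.SpecialLinearGroup.SL2Z_generators, Subgroup.closure_le]
  have hT : ModularGroup.T = x12 (1 : ℤ) := by
    apply sl_ext <;> simp [ModularGroup.T]
  have hS : ModularGroup.S = x21 (1 : ℤ) * (x12 (1 : ℤ))⁻¹ * x21 (1 : ℤ) := by
    apply sl_ext <;>
      simp [ModularGroup.S, sl_mul_00, sl_mul_01, sl_mul_10, sl_mul_11, sl_inv_00, sl_inv_01,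
        sl_inv_10, sl_inv_11]
  have h12 : x12 (1 : ℤ) ∈ Subgroup.closure ({x12 (1 : ℤ), x21 (1 : ℤ)} : Set SL(2, ℤ)) :=
    Subgroup.subset_closure (by simp)
  have h21 : x21 (1 : ℤ) ∈ Subgroup.closure ({x12 (1 : ℤ), x21 (1 : ℤ)} : Set SL(2, ℤ)) :=
    Subgroup.subset_closure (by simp)
  rintro x (rfl | rfl)
  · rw [hS]
    exact mul_mem (mul_mem h21 (inv_mem h12)) h21
  · rw [hT]
    exact h12

/-- **Theorem I (centrality)**: for `s ∈ SL(2, ℤ)` and `g ∈ Γ(m)`, the commutator `[s, g]`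
lies in `E(m) ⊆ SL(2, R)`, for any commutative ring `R` in which `q` is a unit, `(q, m) = 1`. -/
theorem centrality {q m : ℕ} (hq : 2 ≤ q) (hm : 0 < m) (hqm : q.Coprime m)
    (hqR : IsUnit ((q : ℕ) : R)) (s g : SL(2, ℤ)) (hg : g ∈ Gamma m) :
    intR R (s * g * s⁻¹ * g⁻¹) ∈ elemNormal (((m : ℕ) : R)) := by
  set Gb := piE ((m : ℕ) : R) (intR R g) with hGb
  let H : Subgroup SL(2, ℤ) :=
    (Subgroup.centralizer ({Gb} : Set (SL(2, R) ⧸ elemNormal ((m : ℕ) : R)))).comap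
      ((piE ((m : ℕ) : R)).comp (intR R))
  have hH : H = ⊤ := by
    rw [eq_top_iff, ← closure_x12_x21, Subgroup.closure_le]
    rintro x (rfl | rfl)
    · show (piE ((m : ℕ) : R)).comp (intR R) (x12 (1 : ℤ)) ∈ Subgroup.centralizer {Gb}
      rw [Subgroup.mem_centralizer_iff]
      intro h hh
      rw [Set.mem_singleton_iff] at hh
      subst hh
      have := commute_x12_one (R := R) hq hm hqm hqR g hg
      rw [MonoidHom.comp_apply, intR_x12]
      push_cast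
      exact this.symm
    · show (piE ((m : ℕ) : R)).comp (intR R) (x21 (1 : ℤ)) ∈ Subgroup.centralizer {Gb}
      rw [Subgroup.mem_centralizer_iff]
      intro h hh
      rw [Set.mem_singleton_iff] at hh
      subst hh
      have := commute_x21_one (R := R) hq hm hqm hqR g hg
      rw [MonoidHom.comp_apply, intR_x21]
      push_cast
      exact this.symm
  have hs : s ∈ H := by rw [hH]; trivial
  have hs' : (piE ((m : ℕ) : R)).comp (intR R) s ∈ Subgroup.centralizer {Gb} := hs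
  rw [Subgroup.mem_centralizer_iff] at hs'
  have hcomm := hs' Gb rfl
  rw [MonoidHom.comp_apply] at hcomm
  rw [← piE_eq_one_iff]
  simp only [map_mul, map_inv]
  rw [← hGb, ← hcomm]
  group

end Centrality

/-! ## Specialisation to `ℤ[1/q] = H58.Zq q` and the D-GLUE consequences -/

section Final

variable {N q p : ℕ} [hq : Fact q.Prime] [hp : Fact p.Prime]

lemma isUnit_q_Zq : IsUnit (((q : ℕ) : ↥(H58.Zq q))) := by
  have hq0 : (q : ℚ) ≠ 0 := by exact_mod_cast hq.out.ne_zero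
  refine ⟨⟨((q : ℕ) : ↥(H58.Zq q)), ⟨(q : ℚ)⁻¹, H58.q_inv_mem_Zq q⟩, ?_, ?_⟩, rfl⟩
  · apply Subtype.ext
    simp [hq0]
  · apply Subtype.ext
    simp [hq0]

/-- **Theorem I for `ℤ[1/q]`**, in the shape `hI` consumed by `H38_CSPGlue`. -/
theorem centrality_Zq {m : ℕ} (hm : 0 < m) (hqm : q.Coprime m) (s g : SL(2, ℤ))
    (hg : g ∈ Gamma m) :
    intA q (s * g * s⁻¹ * g⁻¹) ∈ elemNormal (((m : ℕ) : ↥(H58.Zq q))) :=
  centrality (R := ↥(H58.Zq q)) hq.out.two_le hm hqm isUnit_q_Zq s g hg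

lemma coprime_q_mul (hNq : Nat.Coprime N q) (hpq : p ≠ q) : q.Coprime (p * N) :=
  Nat.Coprime.mul_right ((Nat.coprime_primes hq.out hp.out).2 (Ne.symm hpq)) hNq.symm

/-- **(H1)**: the restriction of any `Φ : Γ₀(N)[1/q] →* 𝔽_p` to `Γ(pN)` is invariant under
`SL(2, ℤ)`-conjugation.  Unconditional. -/
theorem isInvChar_resGamma_mul (hN : 0 < N) (hNq : Nat.Coprime N q) (hpq : p ≠ q)
    (Φ : ↥(H58.Delta N q) →* Multiplicative (ZMod p)) :
    H2.IsInvChar (p * N) p (resGamma (Dvd.intro_left p rfl) Φ) :=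
  isInvChar_resGamma _ Φ _ (elemNormal_le_killed hNq Φ)
    (fun s g hg => centrality_Zq (Nat.mul_pos hp.out.pos hN) (coprime_q_mul hNq hpq) s g hg)

/-- (H1) in elementwise form: `Φ(s g s⁻¹) = Φ(g)` for `s ∈ SL(2, ℤ)`, `g ∈ Γ(pN)`. -/
theorem Phi_conj_eq (hN : 0 < N) (hNq : Nat.Coprime N q) (hpq : p ≠ q)
    (Φ : ↥(H58.Delta N q) →* Multiplicative (ZMod p)) (s g : SL(2, ℤ)) (hg : g ∈ Gamma (p * N))
    (h1 : H58.castQ (s * g * s⁻¹) ∈ H58.Delta N q) (h2 : H58.castQ g ∈ H58.Delta N q) :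
    Φ ⟨H58.castQ (s * g * s⁻¹), h1⟩ = Φ ⟨H58.castQ g, h2⟩ :=
  isInvChar_resGamma_mul hN hNq hpq Φ s ⟨g, hg⟩

/-- **D-GLUE, final form modulo Theorem T**: `Φ` kills `Γ(pN)`. -/
theorem csp_ab_of_T (hN : 0 < N) (hNq : Nat.Coprime N q) (hpq : p ≠ q)
    (Φ : ↥(H58.Delta N q) →* Multiplicative (ZMod p)) (hT : H2.TheoremT p)
    (γ : SL(2, ℤ)) (hγ : γ ∈ Gamma (p * N)) (hγ' : H58.castQ γ ∈ H58.Delta N q) :
    Φ ⟨H58.castQ γ, hγ'⟩ = 1 :=
  csp_ab_of_theoremT hN hNq Φ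
    (fun s g hg => centrality_Zq (Nat.mul_pos hp.out.pos hN) (coprime_q_mul hNq hpq) s g hg)
    hT γ hγ hγ'

end Final

end Fermat.Agent.S41.H38
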