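import Mathlib
import Fermat.Agent.S41.H2_CSPDefs
import Fermat.Agent.S20.H78_Index

/-!
# Package D, base step of Theorem T (helper40)

For an odd prime `p`, every `SL(2, ℤ)`-invariant homomorphism `φ : Γ(p) → 𝔽_p` is trivial
(`base_case`, `baseStep : H2.BaseStep p`).

Proof: in `SL(2, ℤ) ⧸ ker φ` the image of `Γ(p)` is central of exponent `p`, the image `Hb` of
`Γ₁(p) = ⟨T⟩ Γ(p)` is abelian of exponent `p²` and index `(p - 1)(p + 1)·(...)` prime to `p`.
The transfer `V : SL(2, ℤ) → Hb` is `x ↦ x ^ index` on the image of `Γ(p)`; it factors through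
the abelianisation of `SL(2, ℤ)` (cyclic generated by `T`, of order dividing `12`), so for
`p ≠ 3` it is trivial, and for `p = 3` it is killed on `Γ(3)` by comparison with the explicit
character `chi3`.  Hence the image of `Γ(p)` is killed by `index` and by `p`, so it is trivial.
-/

set_option autoImplicit false

open Matrix CongruenceSubgroup ModularGroup
open scoped MatrixGroups

namespace Fermat.Agent.S41.H40

/-! ### Homomorphisms from `SL(2, ℤ)` to commutative groups -/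

section Abelianization

theorem S_mul_T_pow_three : (S * T) ^ 3 = S ^ 2 := by
  ext i j
  fin_cases i <;> fin_cases j <;>
    simp [pow_succ, coe_S, coe_T, Matrix.mul_apply, Fin.sum_univ_two]

theorem S_pow_four : S ^ 4 = 1 := by
  ext i j
  fin_cases i <;> fin_cases j <;>
    simp [pow_succ, coe_S, Matrix.mul_apply, Fin.sum_univ_two]

variable {A : Type*} [CommGroup A] (f : SL(2, ℤ) →* A)

/-- In an abelian quotient of `SL(2, ℤ)`, `S = T⁻³`. -/
theorem hom_S_eq : f S = (f T)⁻¹ ^ 3 := by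
  have h1 : f ((S * T) ^ 3) = f (S ^ 2) := by rw [S_mul_T_pow_three]
  rw [map_pow, map_mul, map_pow, mul_pow] at h1
  -- (f S)^3 * (f T)^3 = (f S)^2
  have h2 : f S * (f T) ^ 3 = 1 := by
    have : (f S) ^ 2 * (f S * (f T) ^ 3) = (f S) ^ 2 * 1 := by
      rw [← mul_assoc, ← pow_succ, h1, mul_one]
    exact mul_left_cancel this
  rw [inv_pow]
  exact eq_inv_of_mul_eq_one_left h2

theorem hom_T_pow_twelve : f T ^ 12 = 1 := by
  have h1 : f (S ^ 4) = 1 := by rw [S_pow_four, map_one]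
  rw [map_pow, hom_S_eq, ← pow_mul, inv_pow] at h1
  simpa using h1

theorem hom_range_le : f.range ≤ Subgroup.zpowers (f T) := by
  rw [MonoidHom.range_eq_map, ← SpecialLinearGroup.SL2Z_generators, MonoidHom.map_closure,
    Subgroup.closure_le]
  rintro _ ⟨g, hg, rfl⟩
  rcases hg with rfl | rfl
  · rw [hom_S_eq]
    exact Subgroup.pow_mem _ (Subgroup.inv_mem _ (Subgroup.mem_zpowers _)) 3
  · exact Subgroup.mem_zpowers _

theorem hom_apply_mem_zpowers (g : SL(2, ℤ)) : f g ∈ Subgroup.zpowers (f T) :=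
  hom_range_le f ⟨g, rfl⟩

end Abelianization

/-! ### The character `χ₃ : SL(2, ℤ) → ℤ/3` -/

section Chi3

/-- The polynomial formula for `χ₃` on entries mod 3. -/
def chi3Fun (a b c d : ZMod 3) : ZMod 3 := a * c + b * d + c * d - b * c ^ 2 * d

theorem chi3Fun_mul : ∀ a b c d a' b' c' d' : ZMod 3, a * d - b * c = 1 → a' * d' - b' * c' = 1 →
    chi3Fun (a * a' + b * c') (a * b' + b * d') (c * a' + d * c') (c * b' + d * d')
      = chi3Fun a b c d + chi3Fun a' b' c' d' := by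
  decide

theorem det_cast (n : ℕ) (g : SL(2, ℤ)) :
    ((g 0 0 : ℤ) : ZMod n) * ((g 1 1 : ℤ) : ZMod n) - ((g 0 1 : ℤ) : ZMod n) * ((g 1 0 : ℤ) : ZMod n)
      = 1 := by
  have h := g.det_coe
  rw [Matrix.det_fin_two] at h
  have h2 := congrArg (Int.cast : ℤ → ZMod n) h
  push_cast at h2
  exact h2

/-- `χ₃ : SL(2, ℤ) → ℤ/3`, the character of order `3` (trivial on `Γ(3)`, `χ₃ T = 1`). -/
def chi3 : SL(2, ℤ) →* Multiplicative (ZMod 3) where
  toFun g := Multiplicative.ofAdd (chi3Fun (g 0 0 : ℤ) (g 0 1 : ℤ) (g 1 0 : ℤ) (g 1 1 : ℤ))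
  map_one' := by
    simp [chi3Fun]
  map_mul' g h := by
    rw [← ofAdd_add]
    congr 1
    rw [← chi3Fun_mul _ _ _ _ _ _ _ _ (det_cast 3 g) (det_cast 3 h)]
    simp only [Matrix.SpecialLinearGroup.coe_mul, Matrix.mul_apply, Fin.sum_univ_two]
    push_cast
    rfl

theorem chi3_T : chi3 T = Multiplicative.ofAdd 1 := by
  show Multiplicative.ofAdd _ = _
  congr 1

theorem chi3_of_mem_Gamma {g : SL(2, ℤ)} (hg : g ∈ Gamma 3) : chi3 g = 1 := by
  rw [Gamma_mem] at hg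
  obtain ⟨h00, h01, h10, h11⟩ := hg
  show Multiplicative.ofAdd _ = _
  rw [h00, h01, h10, h11]
  simp [chi3Fun]

end Chi3


/-! ### The index of `Γ₁(p)` is prime to `p` -/

section Index

variable {p : ℕ}

theorem index_Gamma1'_dvd (hp : p.Prime) : (Gamma1' p).index ∣ p - 1 := by
  have : Fact p.Prime := ⟨hp⟩
  have h1 : (Gamma0Map p).toHomUnits.ker = Gamma1' p := by
    ext g
    rw [MonoidHom.mem_ker, Gamma1_mem', Units.ext_iff, MonoidHom.coe_toHomUnits, Units.val_one]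
  rw [← h1, Subgroup.index_ker]
  have h2 := Subgroup.card_subgroup_dvd_card ((Gamma0Map p).toHomUnits.range)
  rwa [Nat.card_eq_fintype_card (α := (ZMod p)ˣ), ZMod.card_units_eq_totient,
    Nat.totient_prime hp] at h2

theorem Gamma1_eq_map (N : ℕ) : Gamma1 N = (Gamma1' N).map (Gamma0 N).subtype := by
  rw [Gamma1, ← Subgroup.map_map, ← MonoidHom.range_eq_map, Subgroup.range_subtype]

theorem index_Gamma1 (hp : p.Prime) : (Gamma1 p).index = (Gamma1' p).index * (p + 1) := by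
  have : NeZero p := ⟨hp.ne_zero⟩
  rw [Gamma1_eq_map, Subgroup.index_map_subtype, Fermat.Agent.S20.H78.index_Gamma0]
  have h := Fermat.Agent.S20.H78.dedekindPsi_prime_pow hp (k := 1) one_pos
  simp only [pow_one, Nat.sub_self, pow_zero] at h
  rw [h]

theorem index_Gamma1_ne_zero (hp : p.Prime) : (Gamma1 p).index ≠ 0 := by
  rw [index_Gamma1 hp]
  have h1 := index_Gamma1'_dvd hp
  have h2 : (Gamma1' p).index ≠ 0 := by
    intro h0
    rw [h0, zero_dvd_iff] at h1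
    have := hp.two_le
    omega
  exact Nat.mul_ne_zero h2 (Nat.succ_ne_zero p)

theorem coprime_index_Gamma1 (hp : p.Prime) : Nat.Coprime p (Gamma1 p).index := by
  rw [hp.coprime_iff_not_dvd, index_Gamma1 hp, hp.dvd_mul]
  rintro (h | h)
  · have h1 := Nat.le_of_dvd (Nat.sub_pos_of_lt hp.one_lt) (h.trans (index_Gamma1'_dvd hp))
    have := hp.two_le
    omega
  · have h1 : p ∣ 1 := (Nat.dvd_add_right (dvd_refl p)).mp h
    exact hp.one_lt.ne' (Nat.dvd_one.mp h1)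

end Index


/-! ### Generic group lemmas -/

section Generic

variable {G : Type*} [Group G]

theorem mul_comm_of_central {t z w : G} (hz : ∀ x : G, x * z = z * x) (hw : ∀ x : G, x * w = w * x)
    (i j : ℤ) : (t ^ i * z) * (t ^ j * w) = (t ^ j * w) * (t ^ i * z) := by
  have c1 : Commute (t ^ i) (t ^ j) := (Commute.refl t).zpow_zpow i j
  have c2 : Commute (t ^ i) w := hw (t ^ i)
  have c3 : Commute z (t ^ j) := (hz (t ^ j)).symm
  have c4 : Commute z w := hw z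
  exact ((c1.mul_right c2).mul_left (c3.mul_right c4)).eq

theorem eq_one_of_pow_eq_one_of_coprime {x : G} {m n : ℕ} (hmn : Nat.Coprime m n)
    (hm : x ^ m = 1) (hn : x ^ n = 1) : x = 1 := by
  have h1 := orderOf_dvd_of_pow_eq_one hm
  have h2 := orderOf_dvd_of_pow_eq_one hn
  have h3 : orderOf x ∣ 1 := hmn ▸ Nat.dvd_gcd h1 h2
  exact orderOf_eq_one_iff.mp (Nat.dvd_one.mp h3)

end Generic

theorem pow_eq_one_multiplicative_zmod (p : ℕ) (y : Multiplicative (ZMod p)) : y ^ p = 1 := by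
  show Multiplicative.ofAdd (p • Multiplicative.toAdd y) = Multiplicative.ofAdd 0
  congr 1
  rw [nsmul_eq_mul, ZMod.natCast_self, zero_mul]


/-! ### The base case -/

section Main

open Fermat.Agent.S41.H2

variable {p : ℕ} (φ : ↥(Gamma p) →* Multiplicative (ZMod p))

/-- The kernel of `φ` as a subgroup of `SL(2, ℤ)`. -/
def kerG : Subgroup SL(2, ℤ) := φ.ker.map (Gamma p).subtype

theorem mem_kerG {g : SL(2, ℤ)} : g ∈ kerG φ ↔ ∃ h : g ∈ Gamma p, φ ⟨g, h⟩ = 1 := by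
  constructor
  · rintro ⟨x, hx, rfl⟩
    exact ⟨x.2, hx⟩
  · rintro ⟨h, hg⟩
    exact ⟨⟨g, h⟩, hg, rfl⟩

theorem kerG_le_Gamma : kerG φ ≤ Gamma p := fun _ hg => ((mem_kerG φ).mp hg).1

theorem Gamma_le_Gamma1 : Gamma p ≤ Gamma1 p := by
  intro g hg
  rw [Gamma_mem] at hg
  rw [Gamma1_mem]
  exact ⟨hg.1, hg.2.2.2, hg.2.2.1⟩

variable {φ}

theorem kerG_normal (hφ : IsInvChar p p φ) : (kerG φ).Normal := by
  refine ⟨fun g hg σ => ?_⟩
  obtain ⟨h, hg1⟩ := (mem_kerG φ).mp hg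
  refine (mem_kerG φ).mpr ⟨(Gamma_normal p).conj_mem g h σ, ?_⟩
  rw [← hg1]
  exact hφ σ ⟨g, h⟩

/-- `[σ, n] ∈ ker φ` for `n ∈ Γ(p)`. -/
theorem comm_mem_kerG (hφ : IsInvChar p p φ) (σ : SL(2, ℤ)) {n : SL(2, ℤ)} (hn : n ∈ Gamma p) :
    (n * σ)⁻¹ * (σ * n) ∈ kerG φ := by
  have h1 : σ⁻¹ * n⁻¹ * σ⁻¹⁻¹ ∈ Gamma p :=
    (Gamma_normal p).conj_mem _ ((Gamma p).inv_mem hn) σ⁻¹
  have e : (n * σ)⁻¹ * (σ * n) = (σ⁻¹ * n⁻¹ * σ⁻¹⁻¹) * n := by group
  rw [e]
  refine (mem_kerG φ).mpr ⟨(Gamma p).mul_mem h1 hn, ?_⟩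
  have h2 : (⟨(σ⁻¹ * n⁻¹ * σ⁻¹⁻¹) * n, (Gamma p).mul_mem h1 hn⟩ : ↥(Gamma p))
      = ⟨σ⁻¹ * n⁻¹ * σ⁻¹⁻¹, h1⟩ * ⟨n, hn⟩ := rfl
  rw [h2, map_mul]
  have h3 := hφ σ⁻¹ ⟨n⁻¹, (Gamma p).inv_mem hn⟩
  rw [h3]
  have h4 : (⟨n⁻¹, (Gamma p).inv_mem hn⟩ : ↥(Gamma p)) = (⟨n, hn⟩ : ↥(Gamma p))⁻¹ := rfl
  rw [h4, map_inv, inv_mul_cancel]

/-- Elements of `Γ₁(p)` are `T^b · n` with `n ∈ Γ(p)`. -/
theorem exists_eq_T_zpow_mul {h : SL(2, ℤ)} (hh : h ∈ Gamma1 p) :
    ∃ n ∈ Gamma p, h = T ^ (h 0 1) * n := by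
  refine ⟨T ^ (-(h 0 1)) * h, ?_, by group⟩
  rw [Gamma1_mem] at hh
  obtain ⟨h00, h11, h10⟩ := hh
  rw [Gamma_mem]
  have e : ((T ^ (-(h 0 1)) * h : SL(2, ℤ)) : Matrix (Fin 2) (Fin 2) ℤ)
      = !![h 0 0 + (-(h 0 1)) * h 1 0, h 0 1 + (-(h 0 1)) * h 1 1; h 1 0, h 1 1] := by
    rw [Matrix.SpecialLinearGroup.coe_mul, coe_T_zpow]
    ext i j
    fin_cases i <;> fin_cases j <;> simp [Matrix.mul_apply, Fin.sum_univ_two]
  simp only [e, Matrix.of_apply, Matrix.cons_val', Matrix.cons_val_zero, Matrix.cons_val_one,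
    Matrix.cons_val_fin_one]
  push_cast
  rw [h00, h11, h10]
  refine ⟨by ring, by ring, rfl, rfl⟩

/-- `n ^ p ∈ ker φ` for `n ∈ Γ(p)`. -/
theorem pow_mem_kerG {n : SL(2, ℤ)} (hn : n ∈ Gamma p) : n ^ p ∈ kerG φ := by
  refine (mem_kerG φ).mpr ⟨(Gamma p).pow_mem hn p, ?_⟩
  have h : (⟨n ^ p, (Gamma p).pow_mem hn p⟩ : ↥(Gamma p)) = (⟨n, hn⟩ : ↥(Gamma p)) ^ p := rfl
  rw [h, map_pow]
  exact pow_eq_one_multiplicative_zmod p _

theorem T_pow_mem_Gamma (p : ℕ) : T ^ p ∈ Gamma p := by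
  rw [Gamma_mem]
  have e : ((T ^ p : SL(2, ℤ)) : Matrix (Fin 2) (Fin 2) ℤ) = !![1, (p : ℤ); 0, 1] := by
    have := coe_T_zpow (p : ℤ)
    rw [zpow_natCast] at this
    exact this
  simp [e]

theorem base_case (hp : p.Prime) (hp2 : p ≠ 2) (hφ : IsInvChar p p φ) : φ = 1 := by
  have hN : (kerG φ).Normal := kerG_normal hφ
  set π : SL(2, ℤ) →* SL(2, ℤ) ⧸ kerG φ := QuotientGroup.mk' (kerG φ) with hπdef
  have hπ : Function.Surjective π := QuotientGroup.mk'_surjective _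
  -- centrality of the image of `Γ(p)`
  have hcentral : ∀ n ∈ Gamma p, ∀ x : SL(2, ℤ) ⧸ kerG φ, x * π n = π n * x := by
    intro n hn x
    obtain ⟨σ, rfl⟩ := hπ x
    rw [← map_mul, ← map_mul]
    symm
    exact QuotientGroup.eq.mpr (comm_mem_kerG hφ σ hn)
  -- `π n` has exponent `p`
  have hpowp : ∀ n ∈ Gamma p, π n ^ p = 1 := by
    intro n hn
    rw [← map_pow]
    exact (QuotientGroup.eq_one_iff _).mpr (pow_mem_kerG hn)
  -- the image of `Γ₁(p)`
  set Hb : Subgroup (SL(2, ℤ) ⧸ kerG φ) := (Gamma1 p).map π with hHb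
  have hform : ∀ x ∈ Hb, ∃ (i : ℤ) (n : SL(2, ℤ)), n ∈ Gamma p ∧ x = π T ^ i * π n := by
    rintro _ ⟨h, hh, rfl⟩
    obtain ⟨n, hn, e⟩ := exists_eq_T_zpow_mul hh
    refine ⟨h 0 1, n, hn, ?_⟩
    conv_lhs => rw [e]
    rw [map_mul, map_zpow]
  have hcomm : ∀ x ∈ Hb, ∀ y ∈ Hb, x * y = y * x := by
    intro x hx y hy
    obtain ⟨i, n, hn, rfl⟩ := hform x hx
    obtain ⟨j, m, hm, rfl⟩ := hform y hy
    exact mul_comm_of_central (hcentral n hn) (hcentral m hm) i j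
  have hTpp : π T ^ (p * p) = 1 := by
    rw [pow_mul, ← map_pow]
    exact hpowp _ (T_pow_mem_Gamma p)
  have hexp : ∀ x ∈ Hb, x ^ (p * p) = 1 := by
    intro x hx
    obtain ⟨i, n, hn, rfl⟩ := hform x hx
    have c : Commute (π T ^ i) (π n) := hcentral n hn _
    rw [c.mul_pow, ← zpow_natCast, ← _root_.zpow_mul, mul_comm i, _root_.zpow_mul, zpow_natCast, hTpp, _root_.one_zpow,
      one_mul, pow_mul, hpowp n hn, one_pow]
  have hindex : Hb.index = (Gamma1 p).index := by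
    refine Subgroup.index_map_eq _ hπ ?_
    rw [hπdef, QuotientGroup.ker_mk']
    exact (kerG_le_Gamma φ).trans Gamma_le_Gamma1
  have hfi : Hb.FiniteIndex := ⟨by rw [hindex]; exact index_Gamma1_ne_zero hp⟩
  -- `↥Hb` is a commutative group
  let instC : CommGroup ↥Hb :=
    { (inferInstance : Group ↥Hb) with
      mul_comm := fun x y => Subtype.ext (hcomm x.1 x.2 y.1 y.2) }
  -- the transfer to `Hb`
  set V : SL(2, ℤ) →* ↥Hb := (MonoidHom.transfer (MonoidHom.id ↥Hb)).comp π with hV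
  have hVn : ∀ n ∈ Gamma p, ((V n : ↥Hb) : SL(2, ℤ) ⧸ kerG φ) = π n ^ Hb.index := by
    intro n hn
    have key : ∀ (k : ℕ) (g₀ : SL(2, ℤ) ⧸ kerG φ), g₀⁻¹ * π n ^ k * g₀ ∈ Hb →
        g₀⁻¹ * π n ^ k * g₀ = π n ^ k := by
      intro k g₀ _
      rw [← map_pow, mul_assoc, ← hcentral (n ^ k) ((Gamma p).pow_mem hn k) g₀, ← mul_assoc,
        inv_mul_cancel, one_mul]
    have h1 := MonoidHom.transfer_eq_pow (MonoidHom.id ↥Hb) (π n) key
    rw [hV, MonoidHom.comp_apply, h1]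
    rfl
  -- `t = V T` has order dividing `12` and `p ^ 2`
  have ht12 : V T ^ 12 = 1 := hom_T_pow_twelve V
  have htpp : V T ^ (p * p) = 1 := Subtype.ext (by
    rw [Subgroup.coe_pow, Subgroup.coe_one]
    exact hexp _ (V T).2)
  -- `V` kills `Γ(p)`
  have hVone : ∀ n ∈ Gamma p, V n = 1 := by
    intro n hn
    by_cases hp3 : p = 3
    · subst hp3
      have ht3 : V T ^ 3 = 1 := by
        have h9 : V T ^ 9 = 1 := htpp
        calc V T ^ 3 = V T ^ 12 * (V T ^ 9)⁻¹ := by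
              rw [eq_mul_inv_iff_mul_eq, ← pow_add]
          _ = 1 := by rw [ht12, h9, inv_one, one_mul]
      obtain ⟨k, hk⟩ := Subgroup.mem_zpowers_iff.mp (hom_apply_mem_zpowers (V.prod chi3) n)
      rw [MonoidHom.prod_apply, MonoidHom.prod_apply, Prod.pow_mk, Prod.mk.injEq] at hk
      obtain ⟨hk1, hk2⟩ := hk
      rw [chi3_T, chi3_of_mem_Gamma hn] at hk2
      have h3k : (3 : ℤ) ∣ k := by
        have h0 : ((k : ℤ) : ZMod 3) = 0 := by
          have h := congrArg Multiplicative.toAdd hk2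
          rw [toAdd_zpow, toAdd_ofAdd, toAdd_one, zsmul_eq_mul, mul_one] at h
          exact h
        exact (ZMod.intCast_zmod_eq_zero_iff_dvd k 3).mp h0
      obtain ⟨j, rfl⟩ := h3k
      rw [← hk1, _root_.zpow_mul, zpow_ofNat, ht3, _root_.one_zpow]
    · have hcop : Nat.Coprime (p * p) 12 := by
        have h2 : Nat.Coprime p 2 := (Nat.coprime_primes hp Nat.prime_two).mpr hp2
        have h3 : Nat.Coprime p 3 := (Nat.coprime_primes hp Nat.prime_three).mpr hp3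
        have h12 : Nat.Coprime p 12 := by
          have : (12 : ℕ) = 2 * 2 * 3 := by norm_num
          rw [this]
          exact (h2.mul_right h2).mul_right h3
        exact h12.mul_left h12
      have ht1 : V T = 1 := eq_one_of_pow_eq_one_of_coprime hcop htpp ht12
      have h := hom_apply_mem_zpowers V n
      rw [ht1, Subgroup.zpowers_one_eq_bot, Subgroup.mem_bot] at h
      exact h
  -- conclusion
  ext ⟨n, hn⟩
  have h1 : π n ^ Hb.index = 1 := by
    rw [← hVn n hn, hVone n hn, Subgroup.coe_one]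
  rw [hindex] at h1
  have h2 : π n = 1 := eq_one_of_pow_eq_one_of_coprime (coprime_index_Gamma1 hp) (hpowp n hn) h1
  have h3 : n ∈ kerG φ := (QuotientGroup.eq_one_iff _).mp h2
  obtain ⟨_, h4⟩ := (mem_kerG φ).mp h3
  exact h4

theorem baseStep (hp : p.Prime) (hp2 : p ≠ 2) : BaseStep p :=
  fun _ hφ => base_case hp hp2 hφ

end Main

end Fermat.Agent.S41.H40
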