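import Mathlib
import Fermat.Agent.S41.H98_PDModel
import Fermat.Agent.S41.H72_PermPullPush
import Fermat.Agent.S41.H85_CosetDatum
import Fermat.Agent.S41.H65_DegDefs
import Fermat.Agent.S41.H72_PeriodTrace

/-!
# S41 / P-int P3b : restriction and corestriction in the permutation model (helper40)

`Γ' ≤ Γ ≤ SL(2,ℤ)`, `π : Cos Γ' → Cos Γ` the projection `g Γ' ↦ g Γ` (`cosProj`).

* `pullC h v = v ∘ π`, `pushC h v' =` sum over the fibres of `π`; both commute with `gact g`.
* `rep_res`  : `Rep Γ φ v → Rep Γ' (φ ∘ inclusion) (pullC h v)`.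
* `rep_cor`  : `Rep Γ' ψ v' → Rep Γ (D.op ψ) (pushC h v')` for every coset datum `D` of `Γ' \ Γ`
  (any ambient group; representatives `r i ∈ Γ`, `Γ = ⨆ Γ' r i` disjoint), and
  `rep_cor_of_isReduced` for a reduced datum containing the trivial coset.
* `resCorMap : H72.PDMap (modelData Γ _ A) (modelData Γ' _ A)` with `pull = pullC`, `push = pushC`;
  hence `isWit_pullC`, `isWit_pushC`, `Bw_pullC` (adjointness of the raw pairing).
* `rep_res_Gamma0`, `rep_cor_Gamma0`, `rep_traceDatum_Gamma0` : the same for helper65's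
  `H65.res`, `H65.cor` and helper72's `traceDatum` on `Γ₀(N q) ≤ Γ₀(N)`.
-/

set_option autoImplicit false
set_option linter.unusedSectionVars false

open scoped MatrixGroups

namespace Fermat.Agent.S41.H40

open Fermat.Agent.S41.H98 Fermat.Agent.S41.H72 Fermat.Agent.S41.H85

variable {Γ' Γ : Subgroup SL(2, ℤ)} (h : Γ' ≤ Γ)

/-! ### The projection `SL(2,ℤ) ⧸ Γ' → SL(2,ℤ) ⧸ Γ` -/

/-- The projection `Cos Γ' → Cos Γ`, `g Γ' ↦ g Γ`. -/
def cosProj : Cos Γ' → Cos Γ := Subgroup.quotientMapOfLE h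

theorem cosProj_mk (g : SL(2, ℤ)) : cosProj h (g : Cos Γ') = (g : Cos Γ) := rfl

theorem cosProj_smul (g : SL(2, ℤ)) (x : Cos Γ') : cosProj h (g • x) = g • cosProj h x := by
  induction x using QuotientGroup.induction_on with
  | H a => rfl

theorem cosProj_base : cosProj h (base Γ') = base Γ := rfl

theorem cosProj_surjective : Function.Surjective (cosProj h) := by
  intro x
  induction x using QuotientGroup.induction_on with
  | H a => exact ⟨(a : Cos Γ'), rfl⟩

/-- The fibre of `cosProj` over the base point consists of the `g Γ'` with `g ∈ Γ`. -/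
theorem cosProj_eq_base_iff (g : SL(2, ℤ)) : cosProj h (g • base Γ') = base Γ ↔ g ∈ Γ := by
  rw [cosProj_smul, cosProj_base, smul_base_eq_iff]

theorem exists_smul_base (x : Cos Γ') : ∃ g : SL(2, ℤ), g • base Γ' = x := by
  induction x using QuotientGroup.induction_on with
  | H a =>
    refine ⟨a, ?_⟩
    unfold base
    rw [MulAction.Quotient.smul_coe, smul_eq_mul, mul_one]

/-! ### Pull-back and push-forward of functions -/

section PullPush

variable {A : Type*} [AddCommGroup A]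

/-- pull-back `v ↦ v ∘ π` -/
def pullC (v : Cos Γ → A) : Cos Γ' → A := fun y => v (cosProj h y)

theorem pullC_apply (v : Cos Γ → A) (y : Cos Γ') : pullC h v y = v (cosProj h y) := rfl

theorem pullC_gact (g : SL(2, ℤ)) (v : Cos Γ → A) :
    pullC h (gact Γ g v) = gact Γ' g (pullC h v) := by
  funext y
  rw [pullC_apply, gact_apply, gact_apply, pullC_apply, cosProj_smul]

theorem pullC_add (v w : Cos Γ → A) : pullC h (v + w) = pullC h v + pullC h w := rfl

theorem pullC_sub (v w : Cos Γ → A) : pullC h (v - w) = pullC h v - pullC h w := rfl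

theorem pullC_zero : pullC h (0 : Cos Γ → A) = 0 := rfl

variable [Γ'.FiniteIndex]

/-- push-forward: sum over the fibres of `π` -/
noncomputable def pushC (v' : Cos Γ' → A) : Cos Γ → A :=
  letI : Fintype (Cos Γ') := cosFintype Γ'
  letI : DecidableEq (Cos Γ) := Classical.decEq _
  fun x => ∑ y ∈ Finset.univ.filter (fun y => cosProj h y = x), v' y

theorem pushC_apply [Fintype (Cos Γ')] [DecidableEq (Cos Γ)] (v' : Cos Γ' → A) (x : Cos Γ) :
    pushC h v' x = ∑ y ∈ Finset.univ.filter (fun y => cosProj h y = x), v' y := by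
  unfold pushC
  have h1 : cosFintype Γ' = ‹Fintype (Cos Γ')› := Subsingleton.elim _ _
  have h2 : Classical.decEq (Cos Γ) = ‹DecidableEq (Cos Γ)› := Subsingleton.elim _ _
  rw [h1, h2]

theorem pushC_add (v w : Cos Γ' → A) : pushC h (v + w) = pushC h v + pushC h w := by
  classical
  let _ : Fintype (Cos Γ') := cosFintype Γ'
  funext x
  rw [Pi.add_apply, pushC_apply, pushC_apply, pushC_apply, ← Finset.sum_add_distrib]
  rfl

theorem pushC_zero : pushC h (0 : Cos Γ' → A) = 0 := by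
  classical
  let _ : Fintype (Cos Γ') := cosFintype Γ'
  funext x
  rw [pushC_apply]
  exact Finset.sum_const_zero

theorem pushC_neg (v : Cos Γ' → A) : pushC h (-v) = -pushC h v := by
  classical
  let _ : Fintype (Cos Γ') := cosFintype Γ'
  funext x
  rw [Pi.neg_apply, pushC_apply, pushC_apply, ← Finset.sum_neg_distrib]
  rfl

theorem pushC_sub (v w : Cos Γ' → A) : pushC h (v - w) = pushC h v - pushC h w := by
  rw [sub_eq_add_neg, pushC_add, pushC_neg, ← sub_eq_add_neg]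

theorem pushC_gact (g : SL(2, ℤ)) (v' : Cos Γ' → A) :
    pushC h (gact Γ' g v') = gact Γ g (pushC h v') := by
  classical
  let _ : Fintype (Cos Γ') := cosFintype Γ'
  funext x
  rw [gact_apply, pushC_apply, pushC_apply]
  refine Finset.sum_bij' (fun y _ => g⁻¹ • y) (fun z _ => g • z) ?_ ?_ ?_ ?_ ?_
  · intro y hy
    rw [Finset.mem_filter] at hy ⊢
    refine ⟨Finset.mem_univ _, ?_⟩
    rw [cosProj_smul, hy.2]
  · intro z hz
    rw [Finset.mem_filter] at hz ⊢
    refine ⟨Finset.mem_univ _, ?_⟩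
    rw [cosProj_smul, hz.2, smul_inv_smul]
  · intro y _
    exact smul_inv_smul g y
  · intro z _
    exact inv_smul_smul g z
  · intro y _
    rfl

end PullPush

/-! ### Cocycles -/

section Rep

variable {A : Type*} [AddCommGroup A]

theorem cocycle_one {f : SL(2, ℤ) → Cos Γ → A} (hf : IsCocycle Γ f) : f 1 = 0 := by
  have h1 := hf 1 1
  rw [mul_one, gact_one] at h1
  exact left_eq_add.mp h1

/-- evaluation of the cocycle relation at a point -/
theorem cocycle_apply {f : SL(2, ℤ) → Cos Γ → A} (hf : IsCocycle Γ f) (g k : SL(2, ℤ))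
    (x : Cos Γ) : f (g * k) x = f g x + f k (g⁻¹ • x) := by
  rw [hf g k]
  rfl

/-- **Restriction.**  If `v` represents `φ : Γ → A` then `v ∘ π` represents `φ|Γ'`. -/
theorem rep_res {φ : Additive Γ →+ A} {v : Cos Γ → A} (hv : Rep Γ φ v) :
    Rep Γ' (φ.comp (MonoidHom.toAdditive (Subgroup.inclusion h))) (pullC h v) := by
  obtain ⟨f, hf, hU, hS, hφ⟩ := hv
  refine ⟨fun g => pullC h (f g), ?_, ?_, ?_, ?_⟩
  · intro g k
    show pullC h (f (g * k)) = _
    rw [hf g k, pullC_add, pullC_gact]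
  · show pullC h (f mU) = 0
    rw [hU, pullC_zero]
  · show pullC h (f mS) = _
    rw [hS, pullC_sub, pullC_gact]
  · intro γ
    show φ (Additive.ofMul (Subgroup.inclusion h γ)) = pullC h (f γ) (base Γ')
    rw [hφ]
    rfl

variable [Γ'.FiniteIndex]

/-- **Corestriction (transfer).**  Let `D` be a coset datum for `Γ' \ Γ` (any ambient group `Gamb`
into which `SL(2,ℤ)` embeds), with representatives `r i ∈ Γ` such that `Γ = ⨆ Γ' r i` (disjoint).
If `v'` represents `ψ : Γ' → A` then the fibre sum `π_* v'` represents `D.op ψ : Γ → A`. -/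
theorem rep_cor {Gamb : Type*} [Group Gamb] (j : SL(2, ℤ) →* Gamb) (hj : Function.Injective j)
    {ι₁ : ↥Γ' →* Gamb} {ι₂ : ↥Γ →* Gamb} (hι₁ : ∀ g : Γ', ι₁ g = j g) (hι₂ : ∀ g : Γ, ι₂ g = j g)
    {I : Type*} [Fintype I] (D : CosetDatum ι₁ ι₂ I) (r : I → SL(2, ℤ))
    (hr : ∀ i, D.α i = j (r i)) (hmem : ∀ i, r i ∈ Γ)
    (hinj : ∀ i k, r i * (r k)⁻¹ ∈ Γ' → i = k) (hsurj : ∀ γ ∈ Γ, ∃ i, γ * (r i)⁻¹ ∈ Γ')
    {ψ : Additive Γ' →+ A} {v' : Cos Γ' → A} (hv : Rep Γ' ψ v') :
    Rep Γ (D.op ψ) (pushC h v') := by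
  classical
  let _ : Fintype (Cos Γ') := cosFintype Γ'
  obtain ⟨f, hf, hU, hS, hψ⟩ := hv
  refine ⟨fun g => pushC h (f g), ?_, ?_, ?_, ?_⟩
  · intro g k
    show pushC h (f (g * k)) = _
    rw [hf g k, pushC_add, pushC_gact]
  · show pushC h (f mU) = 0
    rw [hU, pushC_zero]
  · show pushC h (f mS) = _
    rw [hS, pushC_sub, pushC_gact]
  · intro γ
    show D.op ψ (Additive.ofMul γ) = pushC h (f γ) (base Γ)
    rw [CosetDatum.op_apply]
    -- the bookkeeping relation in `SL(2,ℤ)`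
    have key : ∀ i, r i * (γ : SL(2, ℤ)) = (D.coc γ i : SL(2, ℤ)) * r (D.perm γ i) := by
      intro i
      apply hj
      rw [map_mul, map_mul, ← hr, ← hr, ← hι₁, ← hι₂]
      exact D.eq γ i
    -- each term
    have hterm : ∀ i, ψ (Additive.ofMul (D.coc γ i))
        = f γ ((r i)⁻¹ • base Γ') + (f (r i) (base Γ') - f (r (D.perm γ i)) (base Γ')) := by
      intro i
      rw [hψ]
      have e1 := cocycle_apply hf (r i) (γ : SL(2, ℤ)) (base Γ')
      have e2 := cocycle_apply hf (D.coc γ i : SL(2, ℤ)) (r (D.perm γ i)) (base Γ')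
      have e3 : ((D.coc γ i : SL(2, ℤ)))⁻¹ • base Γ' = base Γ' := by
        rw [smul_base_eq_iff]
        exact Γ'.inv_mem (D.coc γ i).2
      rw [key i, e2, e3] at e1
      -- e1 : f c base + f r_j base = f r_i base + f γ (x_i)
      rw [eq_sub_of_add_eq e1]
      abel
    have hperm : ∑ i, f (r (D.perm γ i)) (base Γ') = ∑ i, f (r i) (base Γ') :=
      Equiv.sum_comp (D.permEquiv γ) (fun i => f (r i) (base Γ'))
    rw [Finset.sum_congr rfl (fun i _ => hterm i), Finset.sum_add_distrib, Finset.sum_sub_distrib,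
      hperm, sub_self, add_zero, pushC_apply]
    -- the fibre over the base point
    refine Finset.sum_bij (fun i _ => (r i)⁻¹ • base Γ') ?_ ?_ ?_ ?_
    · intro i _
      rw [Finset.mem_filter]
      exact ⟨Finset.mem_univ _, (cosProj_eq_base_iff h _).mpr (Γ.inv_mem (hmem i))⟩
    · intro i _ k _ hik
      refine (hinj k i ?_).symm
      rw [← smul_base_eq_iff, mul_smul, hik, smul_inv_smul]
    · intro y hy
      rw [Finset.mem_filter] at hy
      obtain ⟨g, rfl⟩ := exists_smul_base y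
      have hg : g ∈ Γ := (cosProj_eq_base_iff h g).mp hy.2
      obtain ⟨i, hi⟩ := hsurj g⁻¹ (Γ.inv_mem hg)
      refine ⟨i, Finset.mem_univ _, ?_⟩
      rw [← smul_base_eq_iff, mul_smul] at hi
      exact inv_smul_eq_iff.mp hi
    · intro i _
      rfl

end Rep

/-! ### Reduced coset data containing the trivial coset -/

section Reduced

variable {A : Type*} [AddCommGroup A] [Γ'.FiniteIndex]

/-- Version of `rep_cor` for a reduced coset datum one of whose representatives lies in `Γ'`. -/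
theorem rep_cor_of_isReduced {Gamb : Type*} [Group Gamb] (j : SL(2, ℤ) →* Gamb)
    (hj : Function.Injective j)
    {ι₁ : ↥Γ' →* Gamb} {ι₂ : ↥Γ →* Gamb} (hι₁ : ∀ g : Γ', ι₁ g = j g) (hι₂ : ∀ g : Γ, ι₂ g = j g)
    {I : Type*} [Fintype I] (D : CosetDatum ι₁ ι₂ I) (hred : IsReduced ι₁ D.α)
    (r : I → SL(2, ℤ)) (hr : ∀ i, D.α i = j (r i)) (hmem : ∀ i, r i ∈ Γ)
    (i₀ : I) (hi₀ : r i₀ ∈ Γ')
    {ψ : Additive Γ' →+ A} {v' : Cos Γ' → A} (hv : Rep Γ' ψ v') :
    Rep Γ (D.op ψ) (pushC h v') := by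
  refine rep_cor h j hj hι₁ hι₂ D r hr hmem ?_ ?_ hv
  · intro i k hik
    refine (hred.distinct k i ⟨_, hik⟩ ?_).symm
    rw [hι₁, hr, hr, ← map_mul, inv_mul_cancel_right]
  · intro γ hγ
    refine ⟨D.perm ⟨γ, hγ⟩ i₀, ?_⟩
    have h1 := D.eq ⟨γ, hγ⟩ i₀
    rw [hr, hr, hι₁, hι₂, ← map_mul, ← map_mul] at h1
    have h2 : r i₀ * γ = (D.coc ⟨γ, hγ⟩ i₀ : SL(2, ℤ)) * r (D.perm ⟨γ, hγ⟩ i₀) := hj h1
    have h3 : γ * (r (D.perm ⟨γ, hγ⟩ i₀))⁻¹ = (r i₀)⁻¹ * (D.coc ⟨γ, hγ⟩ i₀ : SL(2, ℤ)) := by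
      rw [mul_inv_eq_iff_eq_mul, mul_assoc, ← h2, inv_mul_cancel_left]
    rw [h3]
    exact Γ'.mul_mem (Γ'.inv_mem hi₀) (D.coc ⟨γ, hγ⟩ i₀).2

end Reduced

/-! ### The Poincaré-duality data: `(π^*, π_*)` is an adjoint pair -/

section Model

variable [Γ.FiniteIndex] [Γ'.FiniteIndex] (hneg' : (-1 : SL(2, ℤ)) ∈ Γ') (A : Type*) [CommRing A]

/-- The adjoint pair `(π^*, π_*)` between the models of `Γ` and `Γ' ≤ Γ`. -/
noncomputable def resCorMap : PDMap (modelData Γ (h hneg') A) (modelData Γ' hneg' A) :=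
  letI : Fintype (Cos Γ) := cosFintype Γ
  letI : DecidableEq (Cos Γ) := Classical.decEq _
  letI : Fintype (Cos Γ') := cosFintype Γ'
  letI : DecidableEq (Cos Γ') := Classical.decEq _
  permMap A (MulAction.toPerm mS) (MulAction.toPerm mU) (fun x => mS_smul_mS_smul Γ (h hneg') x)
    (MulAction.toPerm mS) (MulAction.toPerm mU) (fun x => mS_smul_mS_smul Γ' hneg' x)
    (cosProj h) (fun y => cosProj_smul h mS y) (fun y => cosProj_smul h mU y)

theorem resCorMap_pull (v : Cos Γ → A) : (resCorMap h hneg' A).pull v = pullC h v := rfl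

theorem resCorMap_push (v' : Cos Γ' → A) : (resCorMap h hneg' A).push v' = pushC h v' := rfl

theorem isWit_pullC {v w : Cos Γ → A} (hw : (modelData Γ (h hneg') A).IsWit v w) :
    (modelData Γ' hneg' A).IsWit (pullC h v) (pullC h w) :=
  (resCorMap h hneg' A).isWit_pull hw

theorem isWit_pushC {v' w' : Cos Γ' → A} (hw : (modelData Γ' hneg' A).IsWit v' w') :
    (modelData Γ (h hneg') A).IsWit (pushC h v') (pushC h w') :=
  (resCorMap h hneg' A).isWit_push hw

/-- **Adjointness of the raw pairing**: `B_{Γ'}(π^* w, v') = B_Γ(w, π_* v')`. -/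
theorem Bw_pullC (w : Cos Γ → A) (v' : Cos Γ' → A) :
    (modelData Γ' hneg' A).Bw (pullC h w) v' = (modelData Γ (h hneg') A).Bw w (pushC h v') :=
  (resCorMap h hneg' A).Bw_pull w v'

end Model

/-! ### Specialisation to `Γ₀(N q) ≤ Γ₀(N)` in the vocabulary of `H65_DegDefs` -/

section Gamma0

open CongruenceSubgroup Matrix.SpecialLinearGroup

variable {N q : ℕ} {A : Type*} [AddCommGroup A]

/-- `res`: if `v` represents `φ` on `Γ₀(N)` then `π^* v` represents `res φ` on `Γ₀(N q)`. -/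
theorem rep_res_Gamma0 {φ : Additive (Gamma0 N) →+ A} {v : Cos (Gamma0 N) → A}
    (hv : Rep (Gamma0 N) φ v) :
    Rep (Gamma0 (N * q)) (H65.res A N q φ) (pullC (H65.gamma0_mul_le N q) v) := by
  rw [H65.res_apply]
  exact rep_res _ hv

variable [(Gamma0 (N * q)).FiniteIndex]

/-- `cor` (helper65's `corDatum`): if `v'` represents `ψ` on `Γ₀(N q)` then `π_* v'` represents
`cor ψ` on `Γ₀(N)`. -/
theorem rep_cor_Gamma0 (D : ALData N q) (hq : q.Prime) (hqN : ¬ q ∣ N) (hN : N ≠ 0)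
    {ψ : Additive (Gamma0 (N * q)) →+ A} {v' : Cos (Gamma0 (N * q)) → A}
    (hv : Rep (Gamma0 (N * q)) ψ v') :
    Rep (Gamma0 N) (H65.cor A D hq hqN hN ψ) (pushC (H65.gamma0_mul_le N q) v') := by
  have : NeZero q := ⟨hq.ne_zero⟩
  exact rep_cor_of_isReduced (H65.gamma0_mul_le N q) (mapGL ℝ) mapGL_injective
    (gl_apply (N * q)) (gl_apply N) (H65.corDatum D hq hqN hN) (H65.corDatum_isReduced D hq hqN hN)
    (fun x => ((H65.corRep D x : Gamma0 N) : SL(2, ℤ))) (fun _ => rfl)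
    (fun x => (H65.corRep D x).2) OnePoint.infty (by simp) hv

/-- `cor` (helper72's `traceDatum`). -/
theorem rep_traceDatum_Gamma0 (D : ALData N q) (hq : q.Prime) (hqN : ¬ q ∣ N) (hN : N ≠ 0)
    {ψ : Additive (Gamma0 (N * q)) →+ A} {v' : Cos (Gamma0 (N * q)) → A}
    (hv : Rep (Gamma0 (N * q)) ψ v') :
    Rep (Gamma0 N) ((traceDatum D hq hqN hN).op ψ) (pushC (H65.gamma0_mul_le N q) v') :=
  rep_cor_of_isReduced (H65.gamma0_mul_le N q) (mapGL ℝ) mapGL_injective
    (gl_apply (N * q)) (gl_apply N) (traceDatum D hq hqN hN) (traceDatum_isReduced D hq hqN hN)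
    (repSL D) (fun _ => rfl) (repSL_mem D) none (one_mem _) hv

end Gamma0

/-! ### `-1 ∈ Γ₀(M)` -/

theorem neg_one_mem_Gamma0 (M : ℕ) : (-1 : SL(2, ℤ)) ∈ CongruenceSubgroup.Gamma0 M := by
  rw [CongruenceSubgroup.Gamma0_mem]
  simp

end Fermat.Agent.S41.H40
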