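import Mathlib
import Fermat.Agent.S41.H43_CuspSum

/-!
S41 / package P4, second half (helper43): the peripheral system of a finite-index subgroup
`Γ ≤ SL(2,ℤ)` (with `-1 ∈ Γ`) is permuted, up to `Γ`-conjugacy, by every isomorphism
`c : Γ₁ ≃* Γ₂` induced by an integer matrix `A` of positive determinant (`A γ = c(γ) A`).
Hence the cusp sum of a conjugation-invariant function is invariant: `cuspSum Γ₁ T (κ ∘ c) =
cuspSum Γ₂ T κ`.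
-/

set_option autoImplicit false

noncomputable section

namespace Fermat.Agent.S41.H43

open Matrix ModularGroup MatrixGroups MulAction Subgroup

/-! ### matrix lemmas in `SL(2,ℤ)` -/

theorem sl2_det (g : SL(2, ℤ)) : g 0 0 * g 1 1 - g 0 1 * g 1 0 = 1 := by
  have := g.det_coe
  rwa [Matrix.det_fin_two] at this

theorem sl2_mul_apply (g h : SL(2, ℤ)) (i j : Fin 2) :
    (g * h) i j = g i 0 * h 0 j + g i 1 * h 1 j := by
  rw [Matrix.SpecialLinearGroup.coe_mul, Matrix.mul_apply, Fin.sum_univ_two]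

theorem mat_mul_apply (X Y : Matrix (Fin 2) (Fin 2) ℤ) (i j : Fin 2) :
    (X * Y) i j = X i 0 * Y 0 j + X i 1 * Y 1 j := by
  rw [Matrix.mul_apply, Fin.sum_univ_two]

theorem T_zpow_apply (n : ℤ) : (T ^ n) 0 0 = 1 ∧ (T ^ n) 0 1 = n ∧ (T ^ n) 1 0 = 0 ∧
    (T ^ n) 1 1 = 1 := by
  change (T ^ n).1 0 0 = 1 ∧ (T ^ n).1 0 1 = n ∧ (T ^ n).1 1 0 = 0 ∧ (T ^ n).1 1 1 = 1
  rw [coe_T_zpow]
  simp

/-- An element with first column `(1, 0)` is a power of `T`. -/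
theorem eq_T_zpow_of_first_col (X : SL(2, ℤ)) (h00 : X 0 0 = 1) (h10 : X 1 0 = 0) :
    X = T ^ (X 0 1) := by
  have hdet := sl2_det X
  rw [h00, h10, mul_zero, sub_zero, one_mul] at hdet
  obtain ⟨t00, t01, t10, t11⟩ := T_zpow_apply (X 0 1)
  ext i j
  fin_cases i <;> fin_cases j
  · exact h00.trans t00.symm
  · exact t01.symm
  · exact h10.trans t10.symm
  · exact hdet.trans t11.symm

/-- An upper triangular element is `± T ^ i`. -/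
theorem eq_T_zpow_or_neg_of_lower_left (k : SL(2, ℤ)) (h : k 1 0 = 0) :
    ∃ i : ℤ, k = T ^ i ∨ k = -T ^ i := by
  have hdet := sl2_det k
  rw [h, mul_zero, sub_zero] at hdet
  rcases Int.mul_eq_one_iff_eq_one_or_neg_one.mp hdet with ⟨h0, h1⟩ | ⟨h0, h1⟩
  · exact ⟨k 0 1, Or.inl (eq_T_zpow_of_first_col k h0 h)⟩
  · refine ⟨-k 0 1, Or.inr ?_⟩
    have h2 : (-k) 0 0 = 1 := by
      change (-k).1 0 0 = 1
      rw [Matrix.SpecialLinearGroup.coe_neg]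
      simp [h0]
    have h3 : (-k) 1 0 = 0 := by
      change (-k).1 1 0 = 0
      rw [Matrix.SpecialLinearGroup.coe_neg]
      simp [h]
    have h4 : (-k) 0 1 = -k 0 1 := by
      change (-k).1 0 1 = _
      rw [Matrix.SpecialLinearGroup.coe_neg]
      simp
    have := eq_T_zpow_of_first_col (-k) h2 h3
    rw [h4] at this
    rw [← this, neg_neg]

/-- If `k T^m = T^m' k` with `m ≠ 0` then `k` is upper triangular and `m = m'`. -/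
theorem lower_left_eq_zero_of_conj_T (k : SL(2, ℤ)) {m m' : ℤ} (hm : m ≠ 0)
    (h : k * T ^ m = T ^ m' * k) : k 1 0 = 0 ∧ m = m' := by
  obtain ⟨a00, a01, a10, a11⟩ := T_zpow_apply m
  obtain ⟨b00, b01, b10, b11⟩ := T_zpow_apply m'
  have e11 := congrArg (fun g : SL(2, ℤ) => g 1 1) h
  have e01 := congrArg (fun g : SL(2, ℤ) => g 0 1) h
  simp only [sl2_mul_apply, a00, a01, a10, a11, b00, b01, b10, b11] at e11 e01
  have hr : k 1 0 = 0 := by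
    have : k 1 0 * m = 0 := by linarith
    rcases mul_eq_zero.mp this with h0 | h0
    · exact h0
    · exact absurd h0 hm
  refine ⟨hr, ?_⟩
  have hdet := sl2_det k
  rw [hr, mul_zero, sub_zero] at hdet
  rcases Int.mul_eq_one_iff_eq_one_or_neg_one.mp hdet with ⟨h0, h1⟩ | ⟨h0, h1⟩
  · rw [h0, h1] at e01; linarith
  · rw [h0, h1] at e01; linarith

/-- entries of the inverse -/
theorem sl2_inv_apply (g : SL(2, ℤ)) : g⁻¹ 0 0 = g 1 1 ∧ g⁻¹ 0 1 = -g 0 1 ∧ g⁻¹ 1 0 = -g 1 0 ∧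
    g⁻¹ 1 1 = g 0 0 := by
  change (g⁻¹).1 0 0 = _ ∧ (g⁻¹).1 0 1 = _ ∧ (g⁻¹).1 1 0 = _ ∧ (g⁻¹).1 1 1 = _
  rw [Matrix.SpecialLinearGroup.coe_inv, Matrix.adjugate_fin_two]
  simp

theorem inv_mul_cancel_left_mat (g : SL(2, ℤ)) (M : Matrix (Fin 2) (Fin 2) ℤ) :
    (g⁻¹).1 * (g.1 * M) = M := by
  rw [← Matrix.mul_assoc, ← Matrix.SpecialLinearGroup.coe_mul, inv_mul_cancel,
    Matrix.SpecialLinearGroup.coe_one, Matrix.one_mul]

theorem mul_inv_cancel_left_mat (g : SL(2, ℤ)) (M : Matrix (Fin 2) (Fin 2) ℤ) :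
    g.1 * ((g⁻¹).1 * M) = M := by
  rw [← Matrix.mul_assoc, ← Matrix.SpecialLinearGroup.coe_mul, mul_inv_cancel,
    Matrix.SpecialLinearGroup.coe_one, Matrix.one_mul]

theorem mul_inv_cancel_mat (g : SL(2, ℤ)) : g.1 * (g⁻¹).1 = 1 := by
  rw [← Matrix.SpecialLinearGroup.coe_mul, mul_inv_cancel, Matrix.SpecialLinearGroup.coe_one]

/-- **Transport of positive parabolic elements**: if an integer matrix `A` of positive
determinant intertwines `h⁻¹ T^n h` (`n > 0`) with `γ' ∈ SL(2,ℤ)`, then `γ' = h'⁻¹ T^m h'` with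
`m > 0`. -/
theorem exists_conj_T_zpow_of_intertwine (A : Matrix (Fin 2) (Fin 2) ℤ) (hA : 0 < A.det)
    (h γ' : SL(2, ℤ)) (n : ℤ) (hn : 0 < n)
    (hc : A * ((h⁻¹ * T ^ n * h : SL(2, ℤ)) : Matrix (Fin 2) (Fin 2) ℤ) = (γ' : Matrix _ _ ℤ) * A) :
    ∃ (h' : SL(2, ℤ)) (m : ℤ), 0 < m ∧ γ' = h'⁻¹ * T ^ m * h' := by
  rw [Matrix.det_fin_two] at hA
  have hdeth := sl2_det h
  -- the fixed vector `u = A (h⁻¹ e₁)`
  set u₁ : ℤ := A 0 0 * h 1 1 - A 0 1 * h 1 0 with hu₁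
  set u₂ : ℤ := A 1 0 * h 1 1 - A 1 1 * h 1 0 with hu₂
  have hu : ¬ (u₁ = 0 ∧ u₂ = 0) := by
    rintro ⟨h1, h2⟩
    have e1 : (A 0 0 * A 1 1 - A 0 1 * A 1 0) * h 1 1 = 0 := by
      linear_combination A 1 1 * h1 - A 0 1 * h2
    have e2 : (A 0 0 * A 1 1 - A 0 1 * A 1 0) * h 1 0 = 0 := by
      linear_combination A 1 0 * h1 - A 0 0 * h2
    have s0 : h 1 1 = 0 := (mul_eq_zero.mp e1).resolve_left hA.ne'
    have r0 : h 1 0 = 0 := (mul_eq_zero.mp e2).resolve_left hA.ne'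
    rw [s0, r0] at hdeth
    simp at hdeth
  set e : ℤ := (Int.gcd u₁ u₂ : ℤ) with he
  have he0 : 0 < e := by
    rw [he]
    have : Int.gcd u₁ u₂ ≠ 0 := by
      rw [Ne, Int.gcd_eq_zero_iff]
      exact hu
    exact_mod_cast Nat.pos_of_ne_zero this
  obtain ⟨u₁', hu₁'⟩ : e ∣ u₁ := Int.gcd_dvd_left u₁ u₂
  obtain ⟨u₂', hu₂'⟩ : e ∣ u₂ := Int.gcd_dvd_right u₁ u₂
  have hbez : u₁ * Int.gcdA u₁ u₂ + u₂ * Int.gcdB u₁ u₂ = e := (Int.gcd_eq_gcd_ab u₁ u₂).symm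
  set x := Int.gcdA u₁ u₂ with hx
  set y := Int.gcdB u₁ u₂ with hy
  have hbez' : u₁' * x + u₂' * y = 1 := by
    have : e * (u₁' * x + u₂' * y) = e * 1 := by
      rw [mul_one]
      calc e * (u₁' * x + u₂' * y) = (e * u₁') * x + (e * u₂') * y := by ring
        _ = e := by rw [← hu₁', ← hu₂', hbez]
    exact mul_left_cancel₀ he0.ne' this
  -- the element `h'` with `h' u' = e₁`
  let h' : SL(2, ℤ) := ⟨!![x, y; -u₂', u₁'], by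
    rw [Matrix.det_fin_two_of]; linear_combination hbez'⟩
  have h'00 : h' 0 0 = x := rfl
  have h'01 : h' 0 1 = y := rfl
  have h'10 : h' 1 0 = -u₂' := rfl
  have h'11 : h' 1 1 = u₁' := rfl
  -- `Y = h' A h⁻¹` and `X = h' γ' h'⁻¹`
  set Y : Matrix (Fin 2) (Fin 2) ℤ := (h' : Matrix _ _ ℤ) * A * ((h⁻¹ : SL(2, ℤ)) : Matrix _ _ ℤ)
    with hY
  set X : SL(2, ℤ) := h' * γ' * h'⁻¹ with hX
  have hXY : (X : Matrix _ _ ℤ) * Y = Y * ((T ^ n : SL(2, ℤ)) : Matrix _ _ ℤ) := by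
    have e1 : (X : Matrix _ _ ℤ) * Y =
        (h' : Matrix _ _ ℤ) * ((γ' : Matrix _ _ ℤ) * A) * ((h⁻¹ : SL(2, ℤ)) : Matrix _ _ ℤ) := by
      rw [hX, hY]
      simp only [Matrix.SpecialLinearGroup.coe_mul, Matrix.mul_assoc]
      rw [inv_mul_cancel_left_mat]
    rw [e1, ← hc, hY]
    simp only [Matrix.SpecialLinearGroup.coe_mul, Matrix.mul_assoc]
    rw [mul_inv_cancel_mat, Matrix.mul_one]
  obtain ⟨i00, i01, i10, i11⟩ := sl2_inv_apply h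
  have hYi0 : ∀ i, Y i 0 = h' i 0 * u₁ + h' i 1 * u₂ := by
    intro i
    rw [hY, mat_mul_apply, mat_mul_apply, mat_mul_apply]
    change _ * (h⁻¹ 0 0) + _ * (h⁻¹ 1 0) = _
    rw [i00, i10, hu₁, hu₂]
    ring
  have hY00 : Y 0 0 = e := by
    rw [hYi0, h'00, h'01]
    linear_combination hbez
  have hY10 : Y 1 0 = 0 := by
    rw [hYi0, h'10, h'11, hu₁', hu₂']
    ring
  obtain ⟨t00, t01, t10, t11⟩ := T_zpow_apply n
  have c00 := congrFun (congrFun hXY 0) 0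
  have c10 := congrFun (congrFun hXY 1) 0
  have c01 := congrFun (congrFun hXY 0) 1
  rw [mat_mul_apply, mat_mul_apply] at c00 c10 c01
  change X 0 0 * Y 0 0 + X 0 1 * Y 1 0 = Y 0 0 * (T ^ n) 0 0 + Y 0 1 * (T ^ n) 1 0 at c00
  change X 1 0 * Y 0 0 + X 1 1 * Y 1 0 = Y 1 0 * (T ^ n) 0 0 + Y 1 1 * (T ^ n) 1 0 at c10
  change X 0 0 * Y 0 1 + X 0 1 * Y 1 1 = Y 0 0 * (T ^ n) 0 1 + Y 0 1 * (T ^ n) 1 1 at c01
  rw [t00, t10, hY00, hY10] at c00 c10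
  rw [t01, t11, hY00] at c01
  have hX00 : X 0 0 = 1 := by
    have : e * (X 0 0) = e * 1 := by linarith
    exact mul_left_cancel₀ he0.ne' this
  have hX10 : X 1 0 = 0 := by
    have : e * (X 1 0) = e * 0 := by linarith
    exact mul_left_cancel₀ he0.ne' this
  have hXT : X = T ^ (X 0 1) := eq_T_zpow_of_first_col X hX00 hX10
  -- the determinant of `Y`
  have hdetY : Y.det = A 0 0 * A 1 1 - A 0 1 * A 1 0 := by
    rw [hY, Matrix.det_mul, Matrix.det_mul, Matrix.SpecialLinearGroup.det_coe,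
      Matrix.SpecialLinearGroup.det_coe, Matrix.det_fin_two A]
    ring
  rw [Matrix.det_fin_two, hY00, hY10] at hdetY
  have hY11 : 0 < Y 1 1 := by
    have : 0 < e * Y 1 1 := by linarith
    exact (mul_pos_iff_of_pos_left he0).mp this
  have hm : 0 < X 0 1 := by
    rw [hX00] at c01
    have : X 0 1 * Y 1 1 = e * n := by linarith
    have h2 : 0 < X 0 1 * Y 1 1 := by rw [this]; exact mul_pos he0 hn
    exact (mul_pos_iff_of_pos_right hY11).mp h2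
  refine ⟨h', X 0 1, hm, ?_⟩
  rw [← hXT, hX]
  group

/-! ### cosets, periods and the standard peripheral elements -/

section Cosets

variable {G : Type*} [Group G] (Γ : Subgroup G)

theorem conj_mem_iff (h t : G) : h⁻¹ * t * h ∈ Γ ↔ t • ((h : G) : G ⧸ Γ) = (h : G ⧸ Γ) := by
  rw [MulAction.Quotient.smul_coe, smul_eq_mul, eq_comm, QuotientGroup.eq, mul_assoc]

theorem coe_mul_of_mem (h : G) {δ : G} (hδ : δ ∈ Γ) : ((h * δ : G) : G ⧸ Γ) = (h : G ⧸ Γ) := by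
  rw [eq_comm, QuotientGroup.eq, inv_mul_cancel_left]
  exact hδ

/-- The minimal period is constant along orbits. -/
theorem minimalPeriod_zpow_smul (t : G) (i : ℤ) (x : G ⧸ Γ) :
    Function.minimalPeriod (t • ·) (t ^ i • x) = Function.minimalPeriod (t • ·) x := by
  have key : ∀ k : ℕ, t ^ k • (t ^ i • x) = t ^ i • x ↔ t ^ k • x = x := by
    intro k
    rw [smul_smul, ← zpow_natCast, ← _root_.zpow_add, add_comm, _root_.zpow_add, ← smul_smul,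
      smul_left_cancel_iff, zpow_natCast]
  apply Nat.dvd_antisymm
  · rw [← MulAction.pow_smul_eq_iff_minimalPeriod_dvd, key,
      MulAction.pow_smul_eq_iff_minimalPeriod_dvd]
  · rw [← MulAction.pow_smul_eq_iff_minimalPeriod_dvd, ← key,
      MulAction.pow_smul_eq_iff_minimalPeriod_dvd]

theorem minimalPeriod_pos [Γ.FiniteIndex] (t : G) (x : G ⧸ Γ) :
    0 < Function.minimalPeriod (t • ·) x := by
  have : Finite (G ⧸ Γ) := Subgroup.finite_quotient_of_finiteIndex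
  exact Nat.pos_of_ne_zero (NeZero.ne _)

/-- The standard peripheral element of an orbit class. -/
def stdPer (t : G) (q : Quotient (orbitRel (zpowers t) (G ⧸ Γ))) : Γ :=
  ⟨q.out.out⁻¹ * t ^ Function.minimalPeriod (t • ·) q.out * q.out.out,
    QuotientGroup.out_conj_pow_minimalPeriod_mem Γ t q.out⟩

/-- Every element `h⁻¹ t^n h` (`n` the period of `h Γ`) is `Γ`-conjugate to the standard
peripheral element of the orbit class of `h Γ`. -/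
theorem exists_stdPer_eq_conj (t h : G) :
    ∃ δ : Γ, (stdPer Γ t (Quotient.mk'' ((h : G) : G ⧸ Γ)) : G) =
      (δ : G)⁻¹ * (h⁻¹ * t ^ Function.minimalPeriod (t • ·) ((h : G) : G ⧸ Γ) * h) * δ := by
  set x : G ⧸ Γ := (h : G ⧸ Γ) with hx
  set q : Quotient (orbitRel (zpowers t) (G ⧸ Γ)) := Quotient.mk'' x with hq
  -- `q.out` lies in the orbit of `x`
  have hrel : (orbitRel (zpowers t) (G ⧸ Γ)) q.out x := Quotient.exact (Quotient.out_eq q)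
  rw [MulAction.orbitRel_apply] at hrel
  obtain ⟨⟨z, hz⟩, hzx⟩ := hrel
  obtain ⟨i, rfl⟩ := Subgroup.mem_zpowers_iff.mp hz
  change t ^ i • x = q.out at hzx
  have hper : Function.minimalPeriod (t • ·) q.out = Function.minimalPeriod (t • ·) x := by
    rw [← hzx, minimalPeriod_zpow_smul]
  -- `q.out.out = t^i h δ`
  have hout : ((q.out.out : G) : G ⧸ Γ) = ((t ^ i * h : G) : G ⧸ Γ) := by
    rw [QuotientGroup.out_eq', ← hzx, hx, MulAction.Quotient.smul_coe, smul_eq_mul]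
  have hδ : (t ^ i * h)⁻¹ * q.out.out ∈ Γ := QuotientGroup.eq.mp hout.symm
  refine ⟨⟨(t ^ i * h)⁻¹ * q.out.out, hδ⟩, ?_⟩
  change q.out.out⁻¹ * t ^ Function.minimalPeriod (t • ·) q.out * q.out.out = _
  rw [hper]
  generalize Function.minimalPeriod (t • ·) x = n
  change q.out.out⁻¹ * t ^ n * q.out.out =
    ((t ^ i * h)⁻¹ * q.out.out)⁻¹ * (h⁻¹ * t ^ n * h) * ((t ^ i * h)⁻¹ * q.out.out)
  generalize q.out.out = g
  group

end Cosets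

theorem cuspSum_eq_sum_stdPer {G : Type} [Group G] (Γ : Subgroup G)
    [Γ.FiniteIndex] (t : G)
    [Fintype (Quotient (orbitRel (zpowers t) (G ⧸ Γ)))] (κ : Γ → ℚ) :
    cuspSum Γ t κ = ∑ q, κ (stdPer Γ t q) := rfl

/-! ### the peripheral system of `Γ ≤ SL(2,ℤ)` -/

section SL2

variable (Γ : Subgroup SL(2, ℤ))

theorem coe_neg_eq (hneg : (-1 : SL(2, ℤ)) ∈ Γ) (g : SL(2, ℤ)) :
    ((-g : SL(2, ℤ)) : SL(2, ℤ) ⧸ Γ) = (g : SL(2, ℤ) ⧸ Γ) := by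
  have : -g = g * (-1) := by rw [mul_neg, mul_one]
  rw [this, coe_mul_of_mem Γ g hneg]

/-- Left multiplication by an upper triangular element moves a coset along its `T`-orbit. -/
theorem coe_mul_eq_zpow_smul (hneg : (-1 : SL(2, ℤ)) ∈ Γ) (k g : SL(2, ℤ)) (hk : k 1 0 = 0) :
    ∃ i : ℤ, ((k * g : SL(2, ℤ)) : SL(2, ℤ) ⧸ Γ) = T ^ i • (g : SL(2, ℤ) ⧸ Γ) := by
  obtain ⟨i, rfl | rfl⟩ := eq_T_zpow_or_neg_of_lower_left k hk
  · exact ⟨i, rfl⟩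
  · refine ⟨i, ?_⟩
    rw [neg_mul, coe_neg_eq Γ hneg]
    rfl

/-- **Separation**: conjugate standard-form elements come from the same `T`-orbit and have the
same exponent. -/
theorem orbit_eq_of_conj (hneg : (-1 : SL(2, ℤ)) ∈ Γ) (h₁ h₂ : SL(2, ℤ)) (n₁ n₂ : ℕ)
    (hn₁ : 0 < n₁) (δ : SL(2, ℤ)) (hδ : δ ∈ Γ)
    (heq : h₁⁻¹ * T ^ n₁ * h₁ = δ⁻¹ * (h₂⁻¹ * T ^ n₂ * h₂) * δ) :
    (Quotient.mk'' ((h₁ : SL(2, ℤ)) : SL(2, ℤ) ⧸ Γ) :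
      Quotient (orbitRel (zpowers T) (SL(2, ℤ) ⧸ Γ))) = Quotient.mk'' (h₂ : SL(2, ℤ) ⧸ Γ) ∧
    n₁ = n₂ := by
  set k : SL(2, ℤ) := h₂ * δ * h₁⁻¹ with hk
  have hkT : k * T ^ (n₁ : ℤ) = T ^ (n₂ : ℤ) * k := by
    rw [zpow_natCast, zpow_natCast]
    calc k * T ^ n₁ = h₂ * δ * (h₁⁻¹ * T ^ n₁ * h₁) * h₁⁻¹ := by rw [hk]; group
      _ = T ^ n₂ * k := by rw [heq, hk]; group
  obtain ⟨hk10, hnn⟩ := lower_left_eq_zero_of_conj_T k (by exact_mod_cast hn₁.ne') hkT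
  refine ⟨?_, by exact_mod_cast hnn⟩
  obtain ⟨i, hi⟩ := coe_mul_eq_zpow_smul Γ hneg k h₁ hk10
  have hk' : k * h₁ = h₂ * δ := by rw [hk]; group
  rw [hk', coe_mul_of_mem Γ h₂ hδ] at hi
  refine (Quotient.sound ?_).symm
  change orbitRel (zpowers T) (SL(2, ℤ) ⧸ Γ) _ _
  rw [MulAction.orbitRel_apply, hi]
  exact ⟨⟨T ^ i, Subgroup.zpow_mem_zpowers T i⟩, rfl⟩

end SL2

theorem inv_conj_pow {G : Type*} [Group G] (g a : G) (k : ℕ) :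
    (g⁻¹ * a * g) ^ k = g⁻¹ * a ^ k * g := by
  have := conj_pow (a := g⁻¹) (b := a) (i := k)
  rwa [inv_inv] at this

/-! ### transport of the peripheral system along `c : Γ₁ ≃* Γ₂` -/

section Transport

variable (Γ₁ Γ₂ : Subgroup SL(2, ℤ)) [Γ₁.FiniteIndex] [Γ₂.FiniteIndex]

/-- `c` maps primitive positive standard-form elements to such elements. -/
theorem exists_stdForm_of_equiv (hneg₁ : (-1 : SL(2, ℤ)) ∈ Γ₁) (c : Γ₁ ≃* Γ₂)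
    (A A' : Matrix (Fin 2) (Fin 2) ℤ) (hA : 0 < A.det) (hA' : 0 < A'.det)
    (hc : ∀ γ : Γ₁, A * (γ : SL(2, ℤ)).1 = ((c γ : Γ₂) : SL(2, ℤ)).1 * A)
    (hc' : ∀ γ : Γ₂, A' * (γ : SL(2, ℤ)).1 = ((c.symm γ : Γ₁) : SL(2, ℤ)).1 * A')
    (h : SL(2, ℤ))
    (hmem : h⁻¹ * T ^ Function.minimalPeriod (T • ·) ((h : SL(2, ℤ)) : SL(2, ℤ) ⧸ Γ₁) * h ∈ Γ₁) :
    ∃ h' : SL(2, ℤ), ((c ⟨_, hmem⟩ : Γ₂) : SL(2, ℤ)) =
      h'⁻¹ * T ^ Function.minimalPeriod (T • ·) ((h' : SL(2, ℤ)) : SL(2, ℤ) ⧸ Γ₂) * h' := by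
  have hnpos : 0 < Function.minimalPeriod (T • ·) ((h : SL(2, ℤ)) : SL(2, ℤ) ⧸ Γ₁) :=
    minimalPeriod_pos Γ₁ T _
  generalize hn : Function.minimalPeriod (T • ·) ((h : SL(2, ℤ)) : SL(2, ℤ) ⧸ Γ₁) = n at hmem hnpos
  set π : Γ₁ := ⟨h⁻¹ * T ^ n * h, hmem⟩ with hπ
  obtain ⟨h', m, hm, hcπ⟩ := exists_conj_T_zpow_of_intertwine A hA h (c π : SL(2, ℤ)) n
    (by exact_mod_cast hnpos) (by rw [zpow_natCast]; exact hc π)
  lift m to ℕ using hm.le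
  rw [zpow_natCast] at hcπ
  have hn'pos : 0 < Function.minimalPeriod (T • ·) ((h' : SL(2, ℤ)) : SL(2, ℤ) ⧸ Γ₂) :=
    minimalPeriod_pos Γ₂ T _
  have hmem'' : h'⁻¹ * T ^ Function.minimalPeriod (T • ·) ((h' : SL(2, ℤ)) : SL(2, ℤ) ⧸ Γ₂) * h'
      ∈ Γ₂ :=
    (conj_mem_iff Γ₂ h' _).mpr (MulAction.pow_smul_eq_iff_minimalPeriod_dvd.mpr dvd_rfl)
  have hfix : T ^ m • ((h' : SL(2, ℤ)) : SL(2, ℤ) ⧸ Γ₂) = (h' : SL(2, ℤ) ⧸ Γ₂) :=
    (conj_mem_iff Γ₂ h' (T ^ m)).mp (hcπ ▸ (c π).2)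
  obtain ⟨k, hk⟩ : Function.minimalPeriod (T • ·) ((h' : SL(2, ℤ)) : SL(2, ℤ) ⧸ Γ₂) ∣ m :=
    MulAction.pow_smul_eq_iff_minimalPeriod_dvd.mp hfix
  generalize hn' : Function.minimalPeriod (T • ·) ((h' : SL(2, ℤ)) : SL(2, ℤ) ⧸ Γ₂) = n'
    at hn'pos hmem'' hk ⊢
  set π'' : Γ₂ := ⟨h'⁻¹ * T ^ n' * h', hmem''⟩ with hπ''
  have hpow : π'' ^ k = c π := by
    apply Subtype.ext
    rw [Subgroup.coe_pow]
    change (h'⁻¹ * T ^ n' * h') ^ k = _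
    rw [hcπ, hk, pow_mul, inv_conj_pow]
  set ρ : Γ₁ := c.symm π'' with hρdef
  have hρ : ρ ^ k = π := by rw [hρdef, ← map_pow, hpow, c.symm_apply_apply]
  obtain ⟨h₂, m₂, hm₂, hρ₂⟩ := exists_conj_T_zpow_of_intertwine A' hA' h' (ρ : SL(2, ℤ)) n'
    (by exact_mod_cast hn'pos) (by rw [zpow_natCast]; exact hc' π'')
  lift m₂ to ℕ using hm₂.le
  rw [zpow_natCast] at hρ₂
  have e1 : h₂⁻¹ * T ^ (m₂ * k) * h₂ = h⁻¹ * T ^ n * h := by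
    have := congrArg Subtype.val hρ
    rw [Subgroup.coe_pow, hρ₂, inv_conj_pow, ← pow_mul] at this
    exact this
  obtain ⟨horb, hnm⟩ := orbit_eq_of_conj Γ₁ hneg₁ h h₂ n (m₂ * k) hnpos 1 (one_mem _)
    (by rw [e1]; group)
  -- the period of `h₂ Γ₁` is `n`
  have hper₂ : Function.minimalPeriod (T • ·) ((h₂ : SL(2, ℤ)) : SL(2, ℤ) ⧸ Γ₁) = n := by
    have hrel : (orbitRel (zpowers T) (SL(2, ℤ) ⧸ Γ₁)) (h : SL(2, ℤ) ⧸ Γ₁) (h₂ : SL(2, ℤ) ⧸ Γ₁) :=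
      Quotient.exact horb
    rw [MulAction.orbitRel_apply] at hrel
    obtain ⟨⟨z, hz⟩, hzx⟩ := hrel
    obtain ⟨i, rfl⟩ := Subgroup.mem_zpowers_iff.mp hz
    change T ^ i • ((h₂ : SL(2, ℤ)) : SL(2, ℤ) ⧸ Γ₁) = _ at hzx
    rw [← hn, ← hzx, minimalPeriod_zpow_smul]
  have hfix₂ : T ^ m₂ • ((h₂ : SL(2, ℤ)) : SL(2, ℤ) ⧸ Γ₁) = (h₂ : SL(2, ℤ) ⧸ Γ₁) :=
    (conj_mem_iff Γ₁ h₂ (T ^ m₂)).mp (hρ₂ ▸ ρ.2)
  have hdvd : n ∣ m₂ := hper₂ ▸ MulAction.pow_smul_eq_iff_minimalPeriod_dvd.mp hfix₂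
  have hk1 : k = 1 := by
    obtain ⟨l, hl⟩ := hdvd
    have h3 : n * (l * k) = n * 1 := by
      rw [mul_one]
      calc n * (l * k) = (n * l) * k := by ring
        _ = n := by rw [← hl, ← hnm]
    have := Nat.eq_of_mul_eq_mul_left hnpos h3
    exact Nat.eq_one_of_mul_eq_one_left this
  refine ⟨h', ?_⟩
  rw [hn', hcπ, hk, hk1, mul_one]

theorem stdPer_coe (Γ : Subgroup SL(2, ℤ))
    (q : Quotient (orbitRel (zpowers T) (SL(2, ℤ) ⧸ Γ))) :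
    (stdPer Γ T q : SL(2, ℤ)) = q.out.out⁻¹ *
      T ^ Function.minimalPeriod (T • ·) ((q.out.out : SL(2, ℤ)) : SL(2, ℤ) ⧸ Γ) * q.out.out := by
  rw [QuotientGroup.out_eq']
  rfl

/-- The map on orbit classes induced by `c`, and its injectivity. -/
theorem exists_injective_orbit_map (hneg₁ : (-1 : SL(2, ℤ)) ∈ Γ₁) (c : Γ₁ ≃* Γ₂)
    (A A' : Matrix (Fin 2) (Fin 2) ℤ) (hA : 0 < A.det) (hA' : 0 < A'.det)
    (hc : ∀ γ : Γ₁, A * (γ : SL(2, ℤ)).1 = ((c γ : Γ₂) : SL(2, ℤ)).1 * A)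
    (hc' : ∀ γ : Γ₂, A' * (γ : SL(2, ℤ)).1 = ((c.symm γ : Γ₁) : SL(2, ℤ)).1 * A') :
    ∃ e : Quotient (orbitRel (zpowers T) (SL(2, ℤ) ⧸ Γ₁)) →
        Quotient (orbitRel (zpowers T) (SL(2, ℤ) ⧸ Γ₂)),
      Function.Injective e ∧
      ∀ q, ∃ δ : Γ₂, stdPer Γ₂ T (e q) = δ⁻¹ * c (stdPer Γ₁ T q) * δ := by
  have hex : ∀ q : Quotient (orbitRel (zpowers T) (SL(2, ℤ) ⧸ Γ₁)),
      ∃ q' : Quotient (orbitRel (zpowers T) (SL(2, ℤ) ⧸ Γ₂)),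
        ∃ δ : Γ₂, stdPer Γ₂ T q' = δ⁻¹ * c (stdPer Γ₁ T q) * δ := by
    intro q
    have hmem : q.out.out⁻¹ *
        T ^ Function.minimalPeriod (T • ·) ((q.out.out : SL(2, ℤ)) : SL(2, ℤ) ⧸ Γ₁) * q.out.out
        ∈ Γ₁ := by
      rw [← stdPer_coe]
      exact (stdPer Γ₁ T q).2
    obtain ⟨h', hh'⟩ := exists_stdForm_of_equiv Γ₁ Γ₂ hneg₁ c A A' hA hA' hc hc' q.out.out hmem
    have hsub : (⟨_, hmem⟩ : Γ₁) = stdPer Γ₁ T q := Subtype.ext (stdPer_coe Γ₁ q).symm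
    rw [hsub] at hh'
    obtain ⟨δ, hδ⟩ := exists_stdPer_eq_conj Γ₂ T h'
    refine ⟨Quotient.mk'' ((h' : SL(2, ℤ)) : SL(2, ℤ) ⧸ Γ₂), δ, Subtype.ext ?_⟩
    rw [hδ, ← hh']
    rfl
  choose e he using hex
  refine ⟨e, ?_, he⟩
  intro q₁ q₂ hq
  obtain ⟨δ₁, hδ₁⟩ := he q₁
  obtain ⟨δ₂, hδ₂⟩ := he q₂
  rw [hq] at hδ₁
  -- `c π₁` and `c π₂` are conjugate in `Γ₂`, hence `π₁`, `π₂` are conjugate in `Γ₁`
  have h1 : c (stdPer Γ₁ T q₁) = (δ₂ * δ₁⁻¹)⁻¹ * c (stdPer Γ₁ T q₂) * (δ₂ * δ₁⁻¹) := by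
    have : δ₁⁻¹ * c (stdPer Γ₁ T q₁) * δ₁ = δ₂⁻¹ * c (stdPer Γ₁ T q₂) * δ₂ := by
      rw [← hδ₁, ← hδ₂]
    calc c (stdPer Γ₁ T q₁) = δ₁ * (δ₁⁻¹ * c (stdPer Γ₁ T q₁) * δ₁) * δ₁⁻¹ := by group
      _ = _ := by rw [this]; group
  have h2 : stdPer Γ₁ T q₁ =
      (c.symm (δ₂ * δ₁⁻¹))⁻¹ * stdPer Γ₁ T q₂ * c.symm (δ₂ * δ₁⁻¹) := by
    apply c.injective
    rw [map_mul, map_mul, map_inv, c.apply_symm_apply]
    exact h1
  have h3 := congrArg Subtype.val h2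
  rw [Subgroup.coe_mul, Subgroup.coe_mul, Subgroup.coe_inv, stdPer_coe, stdPer_coe] at h3
  obtain ⟨horb, -⟩ := orbit_eq_of_conj Γ₁ hneg₁ q₁.out.out q₂.out.out _ _
    (minimalPeriod_pos Γ₁ T _) _ (c.symm (δ₂ * δ₁⁻¹)).2 h3
  rw [QuotientGroup.out_eq', QuotientGroup.out_eq'] at horb
  have e1 : (Quotient.mk'' q₁.out : Quotient (orbitRel (zpowers T) (SL(2, ℤ) ⧸ Γ₁))) = q₁ :=
    Quotient.out_eq q₁
  have e2 : (Quotient.mk'' q₂.out : Quotient (orbitRel (zpowers T) (SL(2, ℤ) ⧸ Γ₁))) = q₂ :=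
    Quotient.out_eq q₂
  rw [← e1, ← e2]
  exact horb

/-- **Invariance of the cusp sum** under an isomorphism induced by an integer matrix of positive
determinant. -/
theorem cuspSum_comp_equiv (hneg₁ : (-1 : SL(2, ℤ)) ∈ Γ₁) (hneg₂ : (-1 : SL(2, ℤ)) ∈ Γ₂)
    (c : Γ₁ ≃* Γ₂) (A A' : Matrix (Fin 2) (Fin 2) ℤ) (hA : 0 < A.det) (hA' : 0 < A'.det)
    (hc : ∀ γ : Γ₁, A * (γ : SL(2, ℤ)).1 = ((c γ : Γ₂) : SL(2, ℤ)).1 * A)
    (hc' : ∀ γ : Γ₂, A' * (γ : SL(2, ℤ)).1 = ((c.symm γ : Γ₁) : SL(2, ℤ)).1 * A')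
    [Fintype (Quotient (orbitRel (zpowers T) (SL(2, ℤ) ⧸ Γ₁)))]
    [Fintype (Quotient (orbitRel (zpowers T) (SL(2, ℤ) ⧸ Γ₂)))]
    (κ : Γ₂ → ℚ)
    (hκ : ∀ (q : Quotient (orbitRel (zpowers T) (SL(2, ℤ) ⧸ Γ₂))) (δ : Γ₂),
      κ (δ * stdPer Γ₂ T q * δ⁻¹) = κ (stdPer Γ₂ T q)) :
    cuspSum Γ₁ T (κ ∘ c) = cuspSum Γ₂ T κ := by
  obtain ⟨e, hinj, he⟩ := exists_injective_orbit_map Γ₁ Γ₂ hneg₁ c A A' hA hA' hc hc'
  obtain ⟨e', hinj', -⟩ := exists_injective_orbit_map Γ₂ Γ₁ hneg₂ c.symm A' A hA' hA hc'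
    (by simpa using hc)
  have hbij : Function.Bijective e := by
    rw [Fintype.bijective_iff_injective_and_card]
    exact ⟨hinj, le_antisymm (Fintype.card_le_of_injective e hinj)
      (Fintype.card_le_of_injective e' hinj')⟩
  rw [cuspSum_eq_sum_stdPer, cuspSum_eq_sum_stdPer, ← hbij.sum_comp]
  refine Finset.sum_congr rfl fun q _ => ?_
  obtain ⟨δ, hδ⟩ := he q
  have : c (stdPer Γ₁ T q) = δ * stdPer Γ₂ T (e q) * δ⁻¹ := by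
    rw [hδ]; group
  rw [Function.comp_apply, this, hκ]

end Transport

end Fermat.Agent.S41.H43
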