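import Mathlib
import Fermat.Agent.S41.H43_Peripheral
import Fermat.Agent.S41.H69_SL2ZPresentation

/-!
S41 / package P4, final part (helper43): the presentation data of `SL(2,ℤ)`, and the
INVARIANCE OF THE MODEL PAIRING under isomorphisms `c : Γ₁ ≃* Γ₂` induced by an integer matrix of
positive determinant (Theorem A on both sides + invariance of the cusp sum).
-/

set_option autoImplicit false

noncomputable section

namespace Fermat.Agent.S41.H43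

open Matrix ModularGroup MatrixGroups MulAction Subgroup

/-- The presentation data of `SL(2,ℤ)`: `S`, `U = T S⁻¹`. -/
def sl2zPresData : PresData SL(2, ℤ) where
  S := S
  U := T * S⁻¹
  hS4 := H69.S_pow_four
  hU3 := H69.U_pow_three
  hcentral := H69.S_sq_central
  hgen := by
    rw [H69.S_sq_mul_U, eq_top_iff, ← SpecialLinearGroup.SL2Z_generators, Subgroup.closure_le]
    rintro g (rfl | rfl)
    · exact Subgroup.subset_closure (Set.mem_insert _ _)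
    · have hS : S ∈ Subgroup.closure ({S, T * S} : Set SL(2, ℤ)) :=
        Subgroup.subset_closure (Set.mem_insert _ _)
      have hTS : T * S ∈ Subgroup.closure ({S, T * S} : Set SL(2, ℤ)) :=
        Subgroup.subset_closure (Set.mem_insert_of_mem _ rfl)
      have h3 := Subgroup.mul_mem _ hTS (Subgroup.inv_mem _ hS)
      rwa [mul_inv_cancel_right] at h3
  hpres := fun E _ s u hs hu => (H69.existsUnique_hom_negU s u hs hu).exists

@[simp] theorem sl2zPresData_S : sl2zPresData.S = S := rfl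
@[simp] theorem sl2zPresData_U : sl2zPresData.U = T * S⁻¹ := rfl

theorem sl2zPresData_US : sl2zPresData.U * sl2zPresData.S = T := by
  change T * S⁻¹ * S = T
  group

theorem S_sq_eq_neg_one : (S ^ 2 : SL(2, ℤ)) = -1 := by decide

/-! ### the inverse intertwiner -/

theorem intertwine_symm {Γ₁ Γ₂ : Subgroup SL(2, ℤ)} (c : Γ₁ ≃* Γ₂)
    (A : Matrix (Fin 2) (Fin 2) ℤ) (hA : 0 < A.det)
    (hc : ∀ γ : Γ₁, A * (γ : SL(2, ℤ)).1 = ((c γ : Γ₂) : SL(2, ℤ)).1 * A) (γ : Γ₂) :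
    A.adjugate * (γ : SL(2, ℤ)).1 = ((c.symm γ : Γ₁) : SL(2, ℤ)).1 * A.adjugate := by
  have h1 := hc (c.symm γ)
  rw [c.apply_symm_apply] at h1
  have h2 : A.det • (((c.symm γ : Γ₁) : SL(2, ℤ)).1 * A.adjugate) =
      A.det • (A.adjugate * (γ : SL(2, ℤ)).1) := by
    calc A.det • (((c.symm γ : Γ₁) : SL(2, ℤ)).1 * A.adjugate)
        = (A.adjugate * A) * ((c.symm γ : Γ₁) : SL(2, ℤ)).1 * A.adjugate := by
          rw [Matrix.adjugate_mul, Matrix.smul_mul, Matrix.one_mul, Matrix.smul_mul]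
      _ = A.adjugate * (A * ((c.symm γ : Γ₁) : SL(2, ℤ)).1) * A.adjugate := by
          simp only [Matrix.mul_assoc]
      _ = A.adjugate * (γ : SL(2, ℤ)).1 * (A * A.adjugate) := by
          rw [h1]; simp only [Matrix.mul_assoc]
      _ = A.det • (A.adjugate * (γ : SL(2, ℤ)).1) := by
          rw [Matrix.mul_adjugate, Matrix.mul_smul, Matrix.mul_one]
  exact (smul_right_injective _ hA.ne' h2).symm

theorem det_adjugate_fin_two (A : Matrix (Fin 2) (Fin 2) ℤ) : A.adjugate.det = A.det := by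
  rw [Matrix.det_adjugate]
  simp

/-! ### model data and the invariance of the model pairing -/

/-- Model data representing a pair of classes on `Γ` (the output shape of the dictionary, over
`ℚ`): cocycles `a b : SL(2,ℤ) → (SL(2,ℤ) ⧸ Γ → ℚ)` normalised by `a U = 0`, `a S = σ v - v`, with
parabolicity witnesses `w, w'`. -/
structure RepData (Γ : Subgroup SL(2, ℤ)) where
  a : SL(2, ℤ) → (SL(2, ℤ) ⧸ Γ) → ℚ
  b : SL(2, ℤ) → (SL(2, ℤ) ⧸ Γ) → ℚ
  v : SL(2, ℤ) ⧸ Γ → ℚ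
  v' : SL(2, ℤ) ⧸ Γ → ℚ
  w : SL(2, ℤ) ⧸ Γ → ℚ
  w' : SL(2, ℤ) ⧸ Γ → ℚ
  ha : IsCocycle a
  hb : IsCocycle b
  haU : a (T * S⁻¹) = 0
  hbU : b (T * S⁻¹) = 0
  haS : a S = act S v - v
  hbS : b S = act S v' - v'
  hw : act T w - w = act (T * S⁻¹) v - v
  hw' : act T w' - w' = act (T * S⁻¹) v' - v'

namespace RepData

variable {Γ : Subgroup SL(2, ℤ)} (R : RepData Γ)

/-- The class represented by `a`. -/
def phi (γ : Γ) : ℚ := R.a γ ((1 : SL(2, ℤ)) : SL(2, ℤ) ⧸ Γ)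

/-- The class represented by `b`. -/
def psi (γ : Γ) : ℚ := R.b γ ((1 : SL(2, ℤ)) : SL(2, ℤ) ⧸ Γ)

/-- The model pairing `B(v, v') = ⟨(σ - 1) w, v'⟩`. -/
def form [Fintype (SL(2, ℤ) ⧸ Γ)] : ℚ := ∑ x, (act S R.w - R.w) x * R.v' x

theorem base_fixed (γ : Γ) :
    (γ : SL(2, ℤ))⁻¹ • (((1 : SL(2, ℤ)) : SL(2, ℤ) ⧸ Γ)) = ((1 : SL(2, ℤ)) : SL(2, ℤ) ⧸ Γ) := by
  rw [MulAction.Quotient.smul_coe, smul_eq_mul, mul_one, QuotientGroup.eq, inv_inv, mul_one]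
  exact γ.2

theorem phi_mul (γ γ' : Γ) : R.phi (γ * γ') = R.phi γ + R.phi γ' := by
  have := congrFun (R.ha γ γ') ((1 : SL(2, ℤ)) : SL(2, ℤ) ⧸ Γ)
  rw [Pi.add_apply, act_apply, base_fixed] at this
  exact this

theorem psi_mul (γ γ' : Γ) : R.psi (γ * γ') = R.psi γ + R.psi γ' := by
  have := congrFun (R.hb γ γ') ((1 : SL(2, ℤ)) : SL(2, ℤ) ⧸ Γ)
  rw [Pi.add_apply, act_apply, base_fixed] at this
  exact this

theorem a_T : R.a T = act T (R.v - R.w) - (R.v - R.w) := by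
  have hT : (T : SL(2, ℤ)) = T * S⁻¹ * S := by group
  have e : R.a T = act T R.v - act (T * S⁻¹) R.v := by
    conv_lhs => rw [hT]
    rw [R.ha, R.haU, zero_add, R.haS, act_sub, ← act_mul, ← hT]
  rw [e, act_sub]
  linear_combination (exp := 1) R.hw

theorem b_T : R.b T = act T (R.v' - R.w') - (R.v' - R.w') := by
  have hT : (T : SL(2, ℤ)) = T * S⁻¹ * S := by group
  have e : R.b T = act T R.v' - act (T * S⁻¹) R.v' := by
    conv_lhs => rw [hT]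
    rw [R.hb, R.hbU, zero_add, R.hbS, act_sub, ← act_mul, ← hT]
  rw [e, act_sub]
  linear_combination (exp := 1) R.hw'

/-- A cocycle with `c T = τ y - y` vanishes, at the base point, on the standard peripheral
elements. -/
theorem cocycle_stdPer_eq_zero {c : SL(2, ℤ) → (SL(2, ℤ) ⧸ Γ) → ℚ} (hc : IsCocycle c)
    {y : SL(2, ℤ) ⧸ Γ → ℚ} (hy : c T = act T y - y)
    (q : Quotient (orbitRel (zpowers T) (SL(2, ℤ) ⧸ Γ))) :
    c (stdPer Γ T q : SL(2, ℤ)) ((1 : SL(2, ℤ)) : SL(2, ℤ) ⧸ Γ) = 0 := by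
  have hx0 : q.out.out • (((1 : SL(2, ℤ)) : SL(2, ℤ) ⧸ Γ)) = q.out := by
    rw [MulAction.Quotient.smul_coe, smul_eq_mul, mul_one, QuotientGroup.out_eq']
  have htx : T ^ Function.minimalPeriod (T • ·) q.out • q.out = q.out :=
    MulAction.pow_smul_eq_iff_minimalPeriod_dvd.mpr dvd_rfl
  have hinv : (T ^ Function.minimalPeriod (T • ·) q.out)⁻¹ • q.out = q.out := by
    rw [inv_smul_eq_iff, htx]
  change c (q.out.out⁻¹ * T ^ Function.minimalPeriod (T • ·) q.out * q.out.out) _ = 0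
  rw [hc.conj_apply _ _ hx0 htx, hc.map_pow_of_eq hy]
  simp only [Pi.sub_apply, act_apply, hinv, sub_self]

theorem phi_stdPer (q : Quotient (orbitRel (zpowers T) (SL(2, ℤ) ⧸ Γ))) :
    R.phi (stdPer Γ T q) = 0 :=
  cocycle_stdPer_eq_zero R.ha R.a_T q

theorem psi_stdPer (q : Quotient (orbitRel (zpowers T) (SL(2, ℤ) ⧸ Γ))) :
    R.psi (stdPer Γ T q) = 0 :=
  cocycle_stdPer_eq_zero R.hb R.b_T q

/-- `κ` is a primitive of `φ ∪ ψ`. -/
def IsPrimitive (κ : Γ → ℚ) : Prop :=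
  ∀ γ γ' : Γ, κ (γ * γ') = κ γ + κ γ' - R.phi γ * R.psi γ'

theorem IsPrimitive.conj {κ : Γ → ℚ} (hκ : R.IsPrimitive κ) (π δ : Γ) (hφ : R.phi π = 0)
    (hψ : R.psi π = 0) : κ (δ * π * δ⁻¹) = κ π := by
  have h1 : R.phi 1 = 0 := by
    have := R.phi_mul 1 1
    rw [mul_one] at this
    linarith
  have hκ1 : κ 1 = 0 := by
    have := hκ 1 1
    rw [mul_one, h1, zero_mul, sub_zero] at this
    linarith
  have e1 := hκ (δ * π) δ⁻¹
  have e2 := hκ δ π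
  have e3 := hκ δ δ⁻¹
  rw [mul_inv_cancel, hκ1] at e3
  rw [R.phi_mul, hφ] at e1
  rw [hψ] at e2
  rw [e1, e2]
  linarith

theorem exists_isPrimitive (hneg : (-1 : SL(2, ℤ)) ∈ Γ) [Γ.FiniteIndex] :
    ∃ κ : Γ → ℚ, R.IsPrimitive κ :=
  exists_primitive Γ sl2zPresData (by change S ^ 2 ∈ Γ; rw [S_sq_eq_neg_one]; exact hneg)
    R.ha R.hb R.haU R.hbU R.haS R.hbS (fun _ => rfl) (fun _ => rfl)

/-- **THEOREM A** for `SL(2,ℤ)`: every primitive has cusp sum `- form`. -/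
theorem cuspSum_eq_neg_form (hneg : (-1 : SL(2, ℤ)) ∈ Γ) [Γ.FiniteIndex]
    [Fintype (SL(2, ℤ) ⧸ Γ)] [Fintype (Quotient (orbitRel (zpowers T) (SL(2, ℤ) ⧸ Γ)))]
    {κ : Γ → ℚ} (hκ : R.IsPrimitive κ) : cuspSum Γ T κ = -R.form :=
  cuspSum_eq_aux Γ sl2zPresData (by change S ^ 2 ∈ Γ; rw [S_sq_eq_neg_one]; exact hneg) T
    sl2zPresData_US.symm R.ha R.hb R.haU R.hbU R.haS R.hbS R.hw R.hw' (fun _ => rfl)
    (fun _ => rfl) hκ

/-- **INVARIANCE OF THE MODEL PAIRING** under an isomorphism `c : Γ₁ ≃* Γ₂` induced by an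
integer matrix `A` of positive determinant (`A γ = c(γ) A`): if the classes correspond under `c`
then the pairings agree. -/
theorem form_eq_of_equiv {Γ₁ Γ₂ : Subgroup SL(2, ℤ)} [Γ₁.FiniteIndex] [Γ₂.FiniteIndex]
    [Fintype (SL(2, ℤ) ⧸ Γ₁)] [Fintype (SL(2, ℤ) ⧸ Γ₂)]
    (hneg₁ : (-1 : SL(2, ℤ)) ∈ Γ₁) (hneg₂ : (-1 : SL(2, ℤ)) ∈ Γ₂)
    (R₁ : RepData Γ₁) (R₂ : RepData Γ₂) (c : Γ₁ ≃* Γ₂)
    (A : Matrix (Fin 2) (Fin 2) ℤ) (hA : 0 < A.det)
    (hc : ∀ γ : Γ₁, A * (γ : SL(2, ℤ)).1 = ((c γ : Γ₂) : SL(2, ℤ)).1 * A)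
    (hφ : ∀ γ : Γ₁, R₁.phi γ = R₂.phi (c γ)) (hψ : ∀ γ : Γ₁, R₁.psi γ = R₂.psi (c γ)) :
    R₁.form = R₂.form := by
  classical
  have : Finite (Quotient (orbitRel (zpowers T) (SL(2, ℤ) ⧸ Γ₁))) := Quotient.finite _
  have : Finite (Quotient (orbitRel (zpowers T) (SL(2, ℤ) ⧸ Γ₂))) := Quotient.finite _
  letI : Fintype (Quotient (orbitRel (zpowers T) (SL(2, ℤ) ⧸ Γ₁))) := Fintype.ofFinite _
  letI : Fintype (Quotient (orbitRel (zpowers T) (SL(2, ℤ) ⧸ Γ₂))) := Fintype.ofFinite _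
  obtain ⟨κ₂, hκ₂⟩ := R₂.exists_isPrimitive hneg₂
  have hκ₁ : R₁.IsPrimitive (κ₂ ∘ c) := by
    intro γ γ'
    simp only [Function.comp_apply, map_mul, hκ₂ (c γ) (c γ'), hφ, hψ]
  have h1 := R₁.cuspSum_eq_neg_form hneg₁ hκ₁
  have h2 := R₂.cuspSum_eq_neg_form hneg₂ hκ₂
  have h3 := cuspSum_comp_equiv Γ₁ Γ₂ hneg₁ hneg₂ c A A.adjugate hA
    (by rw [det_adjugate_fin_two]; exact hA) hc (intertwine_symm c A hA hc) κ₂
    (fun q δ => hκ₂.conj R₂ _ δ (R₂.phi_stdPer q) (R₂.psi_stdPer q))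
  rw [h1, h2] at h3
  exact neg_injective h3

end RepData

end Fermat.Agent.S41.H43
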