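import Mathlib
import Fermat.Agent.S41.H48_PDGlue
import Fermat.Agent.S41.H85_Assembly

/-!
# S41 : (P) discharged.  `S41` follows from the Ihara package (I) alone

helper85's `H85.S41_of_PD_of_Ihara` with the Poincare duality package instantiated by
helper18's form `H18.pd` and the adjointness relations of `H48_PDGlue`.
-/

set_option autoImplicit false

open CongruenceSubgroup ModularCurve ModularCurve.Period
open WeierstrassCurve WeierstrassCurve.Affine WeierstrassCurve.Affine.Point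
open scoped MatrixGroups

namespace Fermat.Agent.S41.H48G

open Fermat.Agent.S41 Fermat.Agent.S41.H72 Fermat.Agent.S41.H66

section bridge

variable {N q : ℕ}

theorem h85_resPar_eq (x : H85.Lat N) : H85.resPar N q x = H65.resPar ℤ ℤ N q x :=
  Subtype.ext rfl

theorem h85_cstPar_eq (hq : q ≠ 0) (x : H85.Lat N) :
    H85.cstPar N hq x = H65.cstPar ℤ ℤ N hq x := Subtype.ext rfl

theorem h85_corPar_eq (D : ALData N q) (hq : q.Prime) (hqN : ¬ q ∣ N) (hN : N ≠ 0)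
    (y : H85.Lat (N * q)) :
    H85.corPar D hq hqN hN y = H65.corPar ℤ ℤ D hq hqN hN y := Subtype.ext rfl

theorem h85_corcPar_eq (D : ALData N q) (hq : q.Prime) (hqN : ¬ q ∣ N) (hN : N ≠ 0)
    (y : H85.Lat (N * q)) :
    H85.corcPar D hq hqN hN y = H65.corcPar ℤ ℤ D hq hqN hN y := Subtype.ext rfl

end bridge

/-- **The (P) package in the assembler's shape**, for helper18's form. -/
theorem pd_package {N q : ℕ} [NeZero N] [NeZero (N * q)] (D : ALData N q) (hq : q.Prime)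
    (hqN : ¬ q ∣ N) (hN : N ≠ 0) {p : ℕ} (hp : p.Prime) (hp2 : p ≠ 2) :
    (∀ x : H85.Lat N, (∀ y, (p : ℤ) ∣ H18.pd N x y) → x ∈ pSub p (H85.Lat N)) ∧
    (∀ x : H85.Lat (N * q), (∀ y, (p : ℤ) ∣ H18.pd (N * q) x y) → x ∈ pSub p (H85.Lat (N * q))) ∧
    (∀ x y, H18.pd (N * q) (H85.resPar N q x) y = H18.pd N x (H85.corPar D hq hqN hN y)) ∧
    (∀ x y, H18.pd (N * q) (H85.cstPar N hq.ne_zero x) y
      = H18.pd N x (H85.corcPar D hq hqN hN y)) ∧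
    (∀ (l : ℕ) (hl : l.Prime) (hlN : ¬ l ∣ N) (x y : H85.Lat N),
      H18.pd N (H85.heckeTPar ℤ ℤ hl hlN x) y = H18.pd N x (H85.heckeTPar ℤ ℤ hl hlN y)) := by
  refine ⟨fun x hx => pd_nondeg hp hp2 x hx, fun x hx => pd_nondeg hp hp2 x hx,
    fun x y => ?_, fun x y => ?_, fun l hl hlN x y => pd_heckeT_self hl hlN x y⟩
  · rw [h85_resPar_eq, h85_corPar_eq]
    exact pd_res_cor D hq hqN hN x y
  · rw [h85_cstPar_eq, h85_corcPar_eq]
    exact pd_cst_corc D hq hqN hN x y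

/-- **S41 from the Ihara package (I) alone**: Poincare duality is discharged. -/
theorem S41_of_Ihara
    (E : WeierstrassCurve ℚ) [E.IsElliptic] {W : WeierstrassCurve ℤ} (hW : W.IsIntegralModelOf E)
    {p N q : ℕ} (hp : p.Prime) (hp2 : p ≠ 2) (hN : 0 < N) (hq : q.Prime) (hqN : ¬ q ∣ N)
    (hirr : GaloisRepIsIrreducible (K := AlgebraicClosure ℚ) ℚ E p)
    (f : CuspForm (CongruenceSubgroup.Gamma0 N) 2) (𝔪 : Ideal (integralClosure ℤ ℂ))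
    (hf : f.IsNormalizedEigenform) (hmax : 𝔪.IsMaximal) (hpm : (p : integralClosure ℤ ℂ) ∈ 𝔪)
    (hcong : ∀ ℓ : ℕ, ℓ.Prime → W.IsGoodPrimeFor ℓ → ¬ ℓ ∣ N → ℓ ≠ p →
      ∃ a : integralClosure ℤ ℂ, (a : ℂ) = ModularFormClass.qCoeff f ℓ ∧
        a - ((W.apOfModel ℓ : ℤ) : integralClosure ℤ ℂ) ∈ 𝔪)
    (hLR : ∃ a : integralClosure ℤ ℂ, (a : ℂ) = ModularFormClass.qCoeff f q ∧
      a ^ 2 - ((q : integralClosure ℤ ℂ) + 1) ^ 2 ∈ 𝔪)
    -- (I) Ihara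
    (hI : ∀ (l : ℕ) (hl : l.Prime) (hlN : ¬ l ∣ N), l ≠ q → l ≠ p → ∀ x₁ x₂ : H85.Lat N,
      H85.resPar N q x₁ + H85.cstPar N hq.ne_zero x₂ ∈ pSub p (H85.Lat (N * q)) →
        H85.heckeTPar ℤ ℤ hl hlN x₁ - ((l : ℤ) + 1) • x₁ ∈ pSub p (H85.Lat N) ∧
        H85.heckeTPar ℤ ℤ hl hlN x₂ - ((l : ℤ) + 1) • x₂ ∈ pSub p (H85.Lat N)) :
    ∃ (g : CuspForm (CongruenceSubgroup.Gamma0 (N * q)) 2) (𝔪' : Ideal (integralClosure ℤ ℂ)),
      g.IsNormalizedEigenform ∧ 𝔪'.IsMaximal ∧ (p : integralClosure ℤ ℂ) ∈ 𝔪' ∧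
      (∀ ℓ : ℕ, ℓ.Prime → W.IsGoodPrimeFor ℓ → ¬ ℓ ∣ N * q → ℓ ≠ p →
        ∃ a : integralClosure ℤ ℂ, (a : ℂ) = ModularFormClass.qCoeff g ℓ ∧
          a - ((W.apOfModel ℓ : ℤ) : integralClosure ℤ ℂ) ∈ 𝔪') ∧
      g.IsNewAt q := by
  haveI : NeZero N := ⟨hN.ne'⟩
  haveI : NeZero (N * q) := ⟨Nat.mul_ne_zero hN.ne' hq.ne_zero⟩
  obtain ⟨D⟩ := nonempty_alData (N := N) (q := q) ((Nat.Prime.coprime_iff_not_dvd hq).mpr hqN)
  obtain ⟨hndN, hndNq, hrc, hcc, hself⟩ := pd_package D hq hqN hN.ne' hp hp2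
  exact H85.S41_of_PD_of_Ihara E hW hp hp2 hN hq hqN hirr f 𝔪 hf hmax hpm hcong hLR D
    (H18.pd N) (H18.pd (N * q)) hndN hndNq hrc hcc
    (fun l hl hlN _ _ x y => hself l hl hlN x y) hI

end Fermat.Agent.S41.H48G
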