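import Mathlib
import Fermat.Agent.S41.H85_CosetDatum

/-!
# S41 / (P) Poincare duality, package PD-GLUE (helper48), abstract part

* `IsPrim ι φ F` : `F : X → A` is a *(cusp) primitive* of the homomorphism `φ : Γ → A` for the
  action of `Γ` on `X` through `ι : Γ →* Perm X`-like data: `F (γ • s) = F s + φ γ`.
* `exists_isPrim` : a homomorphism which kills every point stabiliser has a primitive (orbit
  representatives).
* `IsPrim.cosetOp` : for a coset datum `D` (helper85's `H85.CosetDatum`) whose representatives act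
  on `X` compatibly, `s ↦ ∑ i, F (a i s)` is a primitive of `D.op φ`.

Everything is stated for abstract groups `Γ` acting on a set `X` (`[MulAction Γ X]`), so that it
does not depend on the chosen model of `ℙ¹(ℚ)`.
-/

set_option autoImplicit false

namespace Fermat.Agent.S41.H48

open Fermat.Agent.S41.H85

section Prim

variable {Γ X A : Type*} [Group Γ] [MulAction Γ X] [AddCommGroup A]

/-- `F` is a primitive of `φ`: `F (γ • s) = F s + φ γ` for all `γ`, `s`. -/
def IsPrim (φ : Additive Γ →+ A) (F : X → A) : Prop :=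
  ∀ (γ : Γ) (s : X), F (γ • s) = F s + φ (Additive.ofMul γ)

theorem IsPrim.apply_smul {φ : Additive Γ →+ A} {F : X → A} (h : IsPrim φ F) (γ : Γ) (s : X) :
    F (γ • s) = F s + φ (Additive.ofMul γ) := h γ s

theorem IsPrim.sub_apply_smul {φ : Additive Γ →+ A} {F : X → A} (h : IsPrim φ F) (γ : Γ)
    (s t : X) : F (γ • s) - F (γ • t) = F s - F t := by
  rw [h γ s, h γ t]; abel

theorem isPrim_zero_iff {F : X → A} :
    IsPrim (0 : Additive Γ →+ A) F ↔ ∀ (γ : Γ) (s : X), F (γ • s) = F s := by
  unfold IsPrim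
  simp

theorem IsPrim.add {φ ψ : Additive Γ →+ A} {F F' : X → A} (h : IsPrim φ F) (h' : IsPrim ψ F') :
    IsPrim (φ + ψ) (F + F') := by
  intro γ s
  simp only [Pi.add_apply, AddMonoidHom.add_apply, h γ s, h' γ s]
  abel

theorem IsPrim.neg {φ : Additive Γ →+ A} {F : X → A} (h : IsPrim φ F) : IsPrim (-φ) (-F) := by
  intro γ s
  simp only [Pi.neg_apply, AddMonoidHom.neg_apply, h γ s]
  abel

theorem IsPrim.sub {φ ψ : Additive Γ →+ A} {F F' : X → A} (h : IsPrim φ F) (h' : IsPrim ψ F') :
    IsPrim (φ - ψ) (F - F') := by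
  intro γ s
  simp only [Pi.sub_apply, AddMonoidHom.sub_apply, h γ s, h' γ s]
  abel

theorem IsPrim.zsmul {φ : Additive Γ →+ A} {F : X → A} (h : IsPrim φ F) (n : ℤ) :
    IsPrim (n • φ) (n • F) := by
  intro γ s
  simp only [Pi.smul_apply, AddMonoidHom.smul_apply, h γ s, smul_add]

theorem IsPrim.add_const {φ : Additive Γ →+ A} {F : X → A} (h : IsPrim φ F) (c : A) :
    IsPrim φ (fun s => F s + c) := by
  intro γ s
  simp only [h γ s]
  abel

/-- Two primitives of the same homomorphism differ by an invariant function. -/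
theorem IsPrim.sub_invariant {φ : Additive Γ →+ A} {F F' : X → A} (h : IsPrim φ F)
    (h' : IsPrim φ F') (γ : Γ) (s : X) : (F - F') (γ • s) = (F - F') s := by
  simp only [Pi.sub_apply, h γ s, h' γ s]
  abel

/-- The homomorphism is determined by a primitive (if `X` is nonempty). -/
theorem IsPrim.hom_eq {φ ψ : Additive Γ →+ A} {F : X → A} (h : IsPrim φ F) (h' : IsPrim ψ F)
    [Nonempty X] : φ = ψ := by
  obtain ⟨s⟩ := ‹Nonempty X›
  refine AddMonoidHom.ext fun γ => ?_
  obtain ⟨γ, rfl⟩ := Additive.ofMul.surjective γ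
  have h1 := h γ s
  rw [h' γ s] at h1
  exact (add_left_cancel h1).symm

/-- A primitive kills the stabilisers. -/
theorem IsPrim.apply_eq_zero_of_smul_eq {φ : Additive Γ →+ A} {F : X → A} (h : IsPrim φ F)
    {γ : Γ} {s : X} (hs : γ • s = s) : φ (Additive.ofMul γ) = 0 := by
  have h1 := h γ s
  rw [hs] at h1
  exact (add_eq_left.mp h1.symm)

/-- **Existence of primitives**: a homomorphism which kills all point stabilisers has a
primitive. -/
theorem exists_isPrim (φ : Additive Γ →+ A)
    (hφ : ∀ (γ : Γ) (s : X), γ • s = s → φ (Additive.ofMul γ) = 0) :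
    ∃ F : X → A, IsPrim φ F := by
  classical
  -- orbit representatives
  let r : X → X := fun s => (Quotient.out (Quotient.mk (MulAction.orbitRel Γ X) s))
  have hr : ∀ s, ∃ γ : Γ, γ • r s = s := by
    intro s
    have h1 : (MulAction.orbitRel Γ X).r (r s) s := Quotient.mk_out (s := MulAction.orbitRel Γ X) s
    have h2 : r s ∈ MulAction.orbit Γ s := h1
    obtain ⟨γ, hγ⟩ := h2
    refine ⟨γ⁻¹, ?_⟩
    rw [← hγ, inv_smul_smul]
  have hrr : ∀ (γ : Γ) (s : X), r (γ • s) = r s := by
    intro γ s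
    have : (Quotient.mk (MulAction.orbitRel Γ X) (γ • s))
        = Quotient.mk (MulAction.orbitRel Γ X) s := by
      apply Quotient.sound
      exact ⟨γ, rfl⟩
    show Quotient.out _ = Quotient.out _
    rw [this]
  choose g hg using hr
  refine ⟨fun s => φ (Additive.ofMul (g s)), ?_⟩
  intro γ s
  have h1 : ((g (γ • s))⁻¹ * γ * g s) • r s = r s := by
    rw [mul_smul, mul_smul, hg s]
    have := hg (γ • s)
    rw [hrr] at this
    rw [inv_smul_eq_iff]
    exact this.symm
  have h2 := hφ _ _ h1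
  rw [ofMul_mul, ofMul_mul, ofMul_inv, map_add, map_add, map_neg] at h2
  have h3 : φ (Additive.ofMul (g (γ • s)))
      = φ (Additive.ofMul γ) + φ (Additive.ofMul (g s)) := by
    have := eq_neg_of_add_eq_zero_left h2
    -- -a + b + c = 0  →  a = b + c
    have h4 : -φ (Additive.ofMul (g (γ • s))) + (φ (Additive.ofMul γ) + φ (Additive.ofMul (g s)))
        = 0 := by rw [← add_assoc]; exact h2
    have h5 := eq_neg_of_add_eq_zero_right h4
    rw [h5, neg_neg]
  show φ (Additive.ofMul (g (γ • s))) = φ (Additive.ofMul (g s)) + φ (Additive.ofMul γ)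
  rw [h3, add_comm]

end Prim

section CosetOp

variable {G Γ₁ Γ₂ : Type*} [Group G] [Group Γ₁] [Group Γ₂] {ι₁ : Γ₁ →* G} {ι₂ : Γ₂ →* G}
  {I : Type*} [Fintype I] {X A : Type*} [MulAction Γ₁ X] [MulAction Γ₂ X] [AddCommGroup A]

/-- **Primitive of a coset operator**: if the representatives `α i` of a coset datum act on `X`
through maps `a i : X → X` compatibly with the bookkeeping relation
`α i * ι₂ γ = ι₁ (coc γ i) * α (perm γ i)`, then `s ↦ ∑ i, F (a i s)` is a primitive of
`D.op φ`. -/
theorem IsPrim.cosetOp (D : CosetDatum ι₁ ι₂ I) (a : I → X → X)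
    (ha : ∀ (γ : Γ₂) (i : I) (s : X), a i (γ • s) = D.coc γ i • a (D.perm γ i) s)
    {φ : Additive Γ₁ →+ A} {F : X → A} (h : IsPrim φ F) :
    IsPrim (D.op φ) (fun s => ∑ i, F (a i s)) := by
  intro γ s
  show ∑ i, F (a i (γ • s)) = ∑ i, F (a i s) + D.op φ (Additive.ofMul γ)
  rw [CosetDatum.op_apply, ← Finset.sum_add_distrib]
  have h1 : ∀ i, F (a i (γ • s)) = F (a (D.perm γ i) s) + φ (Additive.ofMul (D.coc γ i)) := by
    intro i
    rw [ha, h]
  rw [Finset.sum_congr rfl (fun i _ => h1 i), Finset.sum_add_distrib, Finset.sum_add_distrib]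
  congr 1
  exact Equiv.sum_comp (D.permEquiv γ) (fun i => F (a i s))

end CosetOp

end Fermat.Agent.S41.H48
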