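import Mathlib
import Fermat.Agent.S41.H46_PDFareyData
import Fermat.Agent.S41.H18_PDND
import Fermat.Agent.S41.H85_PrimitiveGamma0

/-!
# S41 / (P) Poincare duality, PD-GLUE (helper48), part (S0): the common setup

* `fareySetup : H18.FareySetup SL(2, ℤ) (OnePoint ℚ)` (helper18's structure, for helper46's action
  `H46.cuspAction`), `fareySetup_farey`, `smul_smul_coset`/`smul_smul_smul_coset` (`hSD`, `hRD`).
* `Fintype (SL(2, ℤ) ⧸ Gamma0 M)` for `[NeZero M]`, `neg_one_mem_Gamma0`.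
* `IsPrimitive.isCuspPrimitive` : helper85's primitives are helper18's cusp primitives.
* `areaQ F F'` : helper18's area cocycle, `ℚ`-valued, with `IsAlt3`, `IsCocycle3`, `IsInv3`.
* `trForm_eq_tr` : `(fareySetup.trForm Γ F F' : ℚ) = H46.fareyData.tr Γ (areaQ F F')`.
-/

set_option autoImplicit false

open Matrix SpecialLinearGroup OnePoint CongruenceSubgroup ModularGroup
open scoped MatrixGroups

namespace Fermat.Agent.S41.H48

open Fermat.Agent.S41

/-- helper18's Farey setup for `SL(2, ℤ)` acting on `ℙ¹(ℚ)`. -/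
noncomputable def fareySetup : H18.FareySetup SL(2, ℤ) (OnePoint ℚ) where
  S := S
  R := H46.R
  i := ∞
  o := ((0 : ℚ) : OnePoint ℚ)
  e := ((1 : ℚ) : OnePoint ℚ)
  S_i := H46.S_smul_infty
  S_o := H46.S_smul_zero
  R_i := H46.R_smul_infty
  R_o := H46.R_smul_zero
  R_e := H46.R_smul_one
  gen := H46.closure_S_R
  trans := H46.exists_smul_infty_eq

@[simp] theorem fareySetup_S : fareySetup.S = S := rfl
@[simp] theorem fareySetup_R : fareySetup.R = H46.R := rfl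
@[simp] theorem fareySetup_i : fareySetup.i = ∞ := rfl
@[simp] theorem fareySetup_o : fareySetup.o = ((0 : ℚ) : OnePoint ℚ) := rfl
@[simp] theorem fareySetup_e : fareySetup.e = ((1 : ℚ) : OnePoint ℚ) := rfl

/-- **(FAREY)** in helper18's shape. -/
theorem fareySetup_farey : fareySetup.Farey := fun w hS hR =>
  H46.exists_farey_primitive w hS hR

section cosets

variable (Γ : Subgroup SL(2, ℤ))

/-- `hSD` of helper18's theorems. -/
theorem smul_smul_coset (h : (-1 : SL(2, ℤ)) ∈ Γ) (x : SL(2, ℤ) ⧸ Γ) :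
    fareySetup.S • fareySetup.S • x = x :=
  H46.fareyData.S_S_coset Γ h x

/-- `hRD` of helper18's theorems. -/
theorem smul_smul_smul_coset (x : SL(2, ℤ) ⧸ Γ) :
    fareySetup.R • fareySetup.R • fareySetup.R • x = x :=
  H46.fareyData.R_R_R_coset Γ x

end cosets

theorem neg_one_mem_Gamma0 (M : ℕ) : (-1 : SL(2, ℤ)) ∈ Gamma0 M := by
  rw [Gamma0_mem]
  simp

noncomputable instance fintypeQuotGamma0 (M : ℕ) [NeZero M] : Fintype (SL(2, ℤ) ⧸ Gamma0 M) :=
  Fintype.ofFinite _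

/-! ### Primitives -/

section prim

variable {M : ℕ}

theorem glQ_smul (γ : Gamma0 M) (s : OnePoint ℚ) :
    H85.glQ M γ • s = ((γ : SL(2, ℤ)) • s : OnePoint ℚ) := rfl

/-- helper85's primitives are helper18's cusp primitives. -/
theorem isCuspPrimitive_of_isPrimitive {φ : Additive (Gamma0 M) →+ ℤ} {F : OnePoint ℚ → ℤ}
    (h : H85.IsPrimitive (H85.glQ M) φ F) : H18.IsCuspPrimitive (Gamma0 M) F := by
  intro γ hγ
  exact ⟨φ (Additive.ofMul (⟨γ, hγ⟩ : Gamma0 M)), fun s => h ⟨γ, hγ⟩ s⟩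

/-- The period homomorphism of a cusp primitive. -/
noncomputable def perHom (Γ : Subgroup SL(2, ℤ)) (F : OnePoint ℚ → ℤ) (s₀ : OnePoint ℚ)
    (hF : H18.IsCuspPrimitive Γ F) : Additive Γ →+ ℤ :=
  AddMonoidHom.mk' (fun γ => F ((Additive.toMul γ : Γ).1 • s₀) - F s₀) (by
    intro a b
    obtain ⟨a, rfl⟩ := Additive.ofMul.surjective a
    obtain ⟨b, rfl⟩ := Additive.ofMul.surjective b
    show F (((a * b : Γ) : SL(2, ℤ)) • s₀) - F s₀
      = (F ((a : SL(2, ℤ)) • s₀) - F s₀) + (F ((b : SL(2, ℤ)) • s₀) - F s₀)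
    obtain ⟨c, hc⟩ := hF a a.2
    rw [Subgroup.coe_mul, mul_smul, hc, hc]
    ring)

theorem perHom_apply (Γ : Subgroup SL(2, ℤ)) (F : OnePoint ℚ → ℤ) (s₀ : OnePoint ℚ)
    (hF : H18.IsCuspPrimitive Γ F) (γ : Γ) :
    perHom Γ F s₀ hF (Additive.ofMul γ) = F ((γ : SL(2, ℤ)) • s₀) - F s₀ := rfl

/-- A cusp primitive is a primitive of its period homomorphism. -/
theorem isPrimitive_perHom (F : OnePoint ℚ → ℤ) (s₀ : OnePoint ℚ)
    (hF : H18.IsCuspPrimitive (Gamma0 M) F) :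
    H85.IsPrimitive (H85.glQ M) (perHom (Gamma0 M) F s₀ hF) F := by
  intro γ s
  rw [perHom_apply, glQ_smul]
  obtain ⟨c, hc⟩ := hF γ γ.2
  rw [hc, hc]
  ring

end prim

/-! ### The area cocycle -/

section area

/-- helper18's area cocycle `D[F, F']`, `ℚ`-valued. -/
def areaQ (F F' : OnePoint ℚ → ℤ) (a b c : OnePoint ℚ) : ℚ :=
  ((H18.FareySetup.area F F' a b c : ℤ) : ℚ)

theorem areaQ_eq (F F' : OnePoint ℚ → ℤ) (a b c : OnePoint ℚ) :
    areaQ F F' a b c = ((F b : ℚ) - F a) * (F' c - F' b) - (F c - F b) * (F' b - F' a) := by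
  simp [areaQ, H18.FareySetup.area]

theorem areaQ_isAlt3 (F F' : OnePoint ℚ → ℤ) : H60.IsAlt3 (areaQ F F') := by
  refine ⟨fun x y z => ?_, fun x y z => ?_⟩ <;> simp only [areaQ_eq] <;> ring

theorem areaQ_isCocycle3 (F F' : OnePoint ℚ → ℤ) : H60.IsCocycle3 (areaQ F F') := by
  intro x y z w
  simp only [areaQ_eq]
  ring

theorem areaQ_isInv3 {Γ : Subgroup SL(2, ℤ)} {F F' : OnePoint ℚ → ℤ}
    (hF : H18.IsCuspPrimitive Γ F) (hF' : H18.IsCuspPrimitive Γ F') :
    H60.IsInv3 Γ (areaQ F F') := by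
  intro γ hγ x y z
  obtain ⟨c, hc⟩ := hF γ hγ
  obtain ⟨c', hc'⟩ := hF' γ hγ
  simp only [areaQ_eq, hc, hc']
  push_cast
  ring

/-- **The bridge**: helper18's trace form is helper60's trace of the area cocycle. -/
theorem trForm_eq_tr (Γ : Subgroup SL(2, ℤ)) [Fintype (SL(2, ℤ) ⧸ Γ)] {F F' : OnePoint ℚ → ℤ}
    (hF : H18.IsCuspPrimitive Γ F) (hF' : H18.IsCuspPrimitive Γ F') :
    ((fareySetup.trForm Γ F F' : ℤ) : ℚ) = H46.fareyData.tr Γ (areaQ F F') := by
  rw [fareySetup.trForm_eq_sum_area hF hF', H60.FareyData.tr]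
  push_cast
  refine Finset.sum_congr rfl fun x _ => ?_
  rw [H60.FareyData.cF, H46.fareyData_zero, H46.fareyData_one, H46.fareyData_oo]
  rfl

end area

end Fermat.Agent.S41.H48
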