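/-
S41 / P1-abstract-heisenberg-pairing (helper49).

An intrinsic description of the cup-product pairing on `Hom(Γ, R)` relative to a system of
peripheral (parabolic) elements.  For `φ ψ : Additive Γ →+ R` a *trivialisation* of `φ ∪ ψ`
is a function `f : Γ → R` with `f (g h) = f g + f h + φ g * ψ h`
(i.e. `γ ↦ (φ γ, ψ γ, f γ)` is a homomorphism into the Heisenberg group).  The pairing is
`∑ s, f (π s)` over the peripheral elements `π s`.

* `IsTriv` and its calculus (`map_one`, `map_inv`, `conj`, `pow`, `sub_isAddHom`, `swap`).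
* `IsTriv.comp` : pull-back along a group homomorphism (isomorphism invariance is formal).
* `IsTriv.transfer` : if `f'` trivialises `(res φ, ψ')` then
  `γ ↦ ∑ i, (f' (coc γ i) + φ (α i) * ψ' (coc γ i))` trivialises `(φ, cor ψ')`.
* `transfer_coc_pow`, `nsmul_sum_transfer` : evaluation on peripheral elements.

Mathlib + H85_CosetDatum only.
-/
import Mathlib
import Fermat.Agent.S41.H85_CosetDatum

set_option autoImplicit false

namespace Fermat.Agent.S41.H49

open Additive

section Triv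

variable {Γ : Type*} [Group Γ] {R : Type*} [CommRing R]

/-- `f` trivialises the cup product `φ ∪ ψ`:
`f (g * h) = f g + f h + φ g * ψ h`. -/
def IsTriv (φ ψ : Additive Γ →+ R) (f : Γ → R) : Prop :=
  ∀ g h : Γ, f (g * h) = f g + f h + φ (ofMul g) * ψ (ofMul h)

namespace IsTriv

variable {φ ψ : Additive Γ →+ R} {f : Γ → R}

theorem map_one (hf : IsTriv φ ψ f) : f 1 = 0 := by
  have h := hf 1 1
  have h1 : φ (ofMul (1 : Γ)) = 0 := map_zero φ
  rw [mul_one, h1, zero_mul, add_zero] at h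
  linear_combination -h

theorem map_inv (hf : IsTriv φ ψ f) (g : Γ) :
    f g⁻¹ = - f g + φ (ofMul g) * ψ (ofMul g) := by
  have h := hf g g⁻¹
  rw [mul_inv_cancel, hf.map_one] at h
  have h2 : ψ (ofMul g⁻¹) = - ψ (ofMul g) := by
    rw [ofMul_inv, map_neg]
  rw [h2] at h
  linear_combination -h

/-- A trivialisation is invariant under conjugation on elements killed by `φ` and `ψ`. -/
theorem conj (hf : IsTriv φ ψ f) {π : Γ} (hφ : φ (ofMul π) = 0) (hψ : ψ (ofMul π) = 0)
    (h : Γ) : f (h * π * h⁻¹) = f π := by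
  have h1 := hf (h * π) h⁻¹
  have h2 := hf h π
  have h3 := hf.map_inv h
  have h4 : φ (ofMul (h * π)) = φ (ofMul h) := by
    rw [ofMul_mul, map_add, hφ, add_zero]
  have h5 : ψ (ofMul h⁻¹) = - ψ (ofMul h) := by rw [ofMul_inv, map_neg]
  rw [h1, h2, h3, h4, h5, hψ]
  ring

theorem pow (hf : IsTriv φ ψ f) {π : Γ} (hφ : φ (ofMul π) = 0) (n : ℕ) :
    f (π ^ n) = n • f π := by
  induction n with
  | zero => simp [hf.map_one]
  | succ n ih =>
    rw [pow_succ, hf, ih, succ_nsmul]
    have : φ (ofMul (π ^ n)) = 0 := by rw [ofMul_pow, map_nsmul, hφ, smul_zero]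
    rw [this, zero_mul, add_zero]

/-- Two trivialisations differ by a homomorphism. -/
theorem sub_map_mul (hf : IsTriv φ ψ f) {f' : Γ → R} (hf' : IsTriv φ ψ f') (g h : Γ) :
    (f - f') (g * h) = (f - f') g + (f - f') h := by
  simp only [Pi.sub_apply, hf g h, hf' g h]
  ring

/-- The difference of two trivialisations as an additive homomorphism. -/
def subHom (hf : IsTriv φ ψ f) {f' : Γ → R} (hf' : IsTriv φ ψ f') : Additive Γ →+ R where
  toFun g := f (toMul g) - f' (toMul g)
  map_zero' := by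
    show f 1 - f' 1 = 0
    rw [hf.map_one, hf'.map_one, sub_zero]
  map_add' g h := by
    show f (toMul g * toMul h) - f' (toMul g * toMul h) = _
    rw [hf, hf']
    ring

@[simp] theorem subHom_apply (hf : IsTriv φ ψ f) {f' : Γ → R} (hf' : IsTriv φ ψ f') (g : Γ) :
    hf.subHom hf' (ofMul g) = f g - f' g := rfl

/-- Swapping the arguments: `φ * ψ - f` trivialises `ψ ∪ φ`. -/
theorem swap (hf : IsTriv φ ψ f) :
    IsTriv ψ φ (fun g => φ (ofMul g) * ψ (ofMul g) - f g) := by
  intro g h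
  simp only [ofMul_mul, map_add, hf g h]
  ring

/-- Pull-back of a trivialisation along a group homomorphism. -/
theorem comp {Γ' : Type*} [Group Γ'] (hf : IsTriv φ ψ f) (c : Γ' →* Γ) :
    IsTriv (φ.comp (MonoidHom.toAdditive c)) (ψ.comp (MonoidHom.toAdditive c)) (f ∘ c) := by
  intro g h
  simp only [Function.comp_apply, map_mul, hf (c g) (c h), AddMonoidHom.comp_apply]
  rfl

/-- Linearity in the first variable. -/
theorem add_left {φ' : Additive Γ →+ R} {f' : Γ → R} (hf : IsTriv φ ψ f)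
    (hf' : IsTriv φ' ψ f') : IsTriv (φ + φ') ψ (f + f') := by
  intro g h
  simp only [Pi.add_apply, hf g h, hf' g h, AddMonoidHom.add_apply]
  ring

theorem smul_left (c : R) (hf : IsTriv φ ψ f) : IsTriv (c • φ) ψ (c • f) := by
  intro g h
  simp only [Pi.smul_apply, hf g h, AddMonoidHom.smul_apply, smul_eq_mul]
  ring

theorem add_right {ψ' : Additive Γ →+ R} {f' : Γ → R} (hf : IsTriv φ ψ f)
    (hf' : IsTriv φ ψ' f') : IsTriv φ (ψ + ψ') (f + f') := by
  intro g h
  simp only [Pi.add_apply, hf g h, hf' g h, AddMonoidHom.add_apply]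
  ring

theorem smul_right (c : R) (hf : IsTriv φ ψ f) : IsTriv φ (c • ψ) (c • f) := by
  intro g h
  simp only [Pi.smul_apply, hf g h, AddMonoidHom.smul_apply, smul_eq_mul]
  ring

end IsTriv

/-- **Isomorphism invariance of the peripheral sum.**  If `c : Γ' →* Γ` maps the peripheral
elements `π' j` to conjugates of the peripheral elements `π (e j)`, then the peripheral sum of the
pulled-back trivialisation equals the peripheral sum of `f`. -/
theorem sum_comp_eq {Γ' : Type*} [Group Γ'] {φ ψ : Additive Γ →+ R} {f : Γ → R}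
    (hf : IsTriv φ ψ f) (c : Γ' →* Γ) {J J' : Type*} [Fintype J] [Fintype J'] (π : J → Γ)
    (π' : J' → Γ') (e : J' ≃ J) (hφ : ∀ j, φ (ofMul (π j)) = 0) (hψ : ∀ j, ψ (ofMul (π j)) = 0)
    (hc : ∀ j', ∃ h : Γ, c (π' j') = h * π (e j') * h⁻¹) :
    ∑ j', (f ∘ c) (π' j') = ∑ j, f (π j) := by
  rw [← Equiv.sum_comp e (fun j => f (π j))]
  refine Finset.sum_congr rfl fun j' _ => ?_
  obtain ⟨h, hh⟩ := hc j'
  rw [Function.comp_apply, hh, hf.conj (hφ _) (hψ _)]

end Triv

section Transfer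

variable {Γ Γ' : Type*} [Group Γ] [Group Γ'] {R : Type*} [CommRing R] {j : Γ' →* Γ}
  {I : Type*} [Fintype I] (D : H85.CosetDatum j (MonoidHom.id Γ) I)

/-- The summand of the transferred trivialisation. -/
def transferTerm (φ : Additive Γ →+ R) (ψ' : Additive Γ' →+ R) (f' : Γ' → R) (γ : Γ) (i : I) : R :=
  f' (D.coc γ i) - φ (ofMul (D.α i)) * ψ' (ofMul (D.coc γ i))

/-- The transferred trivialisation: if `f'` trivialises `(res φ, ψ')` on `Γ'`, this function
trivialises `(φ, cor ψ')` on `Γ`. -/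
def transferF (φ : Additive Γ →+ R) (ψ' : Additive Γ' →+ R) (f' : Γ' → R) (γ : Γ) : R :=
  ∑ i, transferTerm D φ ψ' f' γ i

omit [Fintype I] in
theorem map_coc (φ : Additive Γ →+ R) (γ : Γ) (i : I) :
    φ (ofMul (j (D.coc γ i))) =
      φ (ofMul (D.α i)) + φ (ofMul γ) - φ (ofMul (D.α (D.perm γ i))) := by
  have h := D.eq γ i
  simp only [MonoidHom.id_apply] at h
  have h' := congrArg (fun x => φ (ofMul x)) h
  simp only [ofMul_mul, map_add] at h'
  linear_combination -h'

omit [Fintype I] in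
theorem transferTerm_mul {φ : Additive Γ →+ R} {ψ' : Additive Γ' →+ R} {f' : Γ' → R}
    (hf' : IsTriv (φ.comp (MonoidHom.toAdditive j)) ψ' f') (γ δ : Γ) (i : I) :
    transferTerm D φ ψ' f' (γ * δ) i =
      transferTerm D φ ψ' f' γ i + transferTerm D φ ψ' f' δ (D.perm γ i) +
        φ (ofMul γ) * ψ' (ofMul (D.coc δ (D.perm γ i))) := by
  unfold transferTerm
  rw [D.coc_mul, hf', ofMul_mul, map_add]
  have h1 : (φ.comp (MonoidHom.toAdditive j)) (ofMul (D.coc γ i)) =
      φ (ofMul (j (D.coc γ i))) := rfl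
  rw [h1, map_coc D φ γ i]
  ring

/-- **Transfer of trivialisations** (the key to `(res, cor)`-adjointness). -/
theorem IsTriv.transfer {φ : Additive Γ →+ R} {ψ' : Additive Γ' →+ R} {f' : Γ' → R}
    (hf' : IsTriv (φ.comp (MonoidHom.toAdditive j)) ψ' f') :
    IsTriv φ (D.op ψ') (transferF D φ ψ' f') := by
  intro γ δ
  unfold transferF
  simp only [transferTerm_mul D hf', Finset.sum_add_distrib]
  have e1 : ∑ i, transferTerm D φ ψ' f' δ (D.perm γ i) = ∑ i, transferTerm D φ ψ' f' δ i :=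
    Equiv.sum_comp (D.permEquiv γ) (fun i => transferTerm D φ ψ' f' δ i)
  have e2 : ∑ i, ψ' (ofMul (D.coc δ (D.perm γ i))) = ∑ i, ψ' (ofMul (D.coc δ i)) :=
    Equiv.sum_comp (D.permEquiv γ) (fun i => ψ' (ofMul (D.coc δ i)))
  rw [H85.CosetDatum.op_apply, ← Finset.mul_sum, e1, e2]

/-- Evaluation of the transferred trivialisation on a peripheral element `π` of `Γ`: if
`ψ'` kills all the elements `coc (π ^ W) i` then `W • f π = ∑ i, f' (coc (π ^ W) i)`. -/
theorem nsmul_transferF {φ : Additive Γ →+ R} {ψ' : Additive Γ' →+ R} {f' : Γ' → R}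
    (hf' : IsTriv (φ.comp (MonoidHom.toAdditive j)) ψ' f') {π : Γ} (hφ : φ (ofMul π) = 0)
    (W : ℕ) (hψ' : ∀ i, ψ' (ofMul (D.coc (π ^ W) i)) = 0) :
    W • transferF D φ ψ' f' π = ∑ i, f' (D.coc (π ^ W) i) := by
  rw [← (IsTriv.transfer D hf').pow hφ W]
  unfold transferF transferTerm
  refine Finset.sum_congr rfl fun i _ => ?_
  rw [hψ' i, mul_zero, sub_zero]

/-- **Abstract `(res, cor)` adjointness on peripheral sums.**  Let `π s` (`s : J`) and `π' k`
(`k : J'`) be the peripheral elements of `Γ` and `Γ'`.  Assume that for a positive integer `W`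
every `coc (π s ^ W) i` is a `Γ'`-conjugate of `π' (κ s i) ^ (m s i)`, and that for each `k` the
multiplicities `m s i` over the fibre of `κ` above `k` add up to `W`.  Then
`W • ∑ s, f (π s) = W • ∑ k, f' (π' k)` for the transferred trivialisation `f`. -/
theorem nsmul_sum_transferF {φ : Additive Γ →+ R} {ψ' : Additive Γ' →+ R} {f' : Γ' → R}
    (hf' : IsTriv (φ.comp (MonoidHom.toAdditive j)) ψ' f') {J J' : Type*} [Fintype J]
    [Fintype J'] [DecidableEq J'] (π : J → Γ) (π' : J' → Γ')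
    (hφ : ∀ s, φ (ofMul (π s)) = 0)
    (hφ' : ∀ k, φ (ofMul (j (π' k))) = 0) (hψ' : ∀ k, ψ' (ofMul (π' k)) = 0)
    (W : ℕ) (κ : J → I → J') (m : J → I → ℕ)
    (hconj : ∀ s i, ∃ h : Γ', D.coc (π s ^ W) i = h * π' (κ s i) ^ (m s i) * h⁻¹)
    (hfib : ∀ k, ∑ s, ∑ i, (if κ s i = k then m s i else 0) = W) :
    W • ∑ s, transferF D φ ψ' f' (π s) = W • ∑ k, f' (π' k) := by
  have hpow : ∀ k (n : ℕ), ψ' (ofMul (π' k ^ n)) = 0 := fun k n => by
    rw [ofMul_pow, map_nsmul, hψ' k, smul_zero]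
  have hpowφ : ∀ k (n : ℕ), (φ.comp (MonoidHom.toAdditive j)) (ofMul (π' k ^ n)) = 0 :=
    fun k n => by
      rw [ofMul_pow, map_nsmul]
      show n • φ (ofMul (j (π' k))) = 0
      rw [hφ' k, smul_zero]
  have hval : ∀ s i, f' (D.coc (π s ^ W) i) = (m s i) • f' (π' (κ s i)) := by
    intro s i
    obtain ⟨h, hh⟩ := hconj s i
    rw [hh, hf'.conj (hpowφ _ _) (hpow _ _), hf'.pow]
    have := hpowφ (κ s i) 1
    simpa using this
  have hker : ∀ s i, ψ' (ofMul (D.coc (π s ^ W) i)) = 0 := by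
    intro s i
    obtain ⟨h, hh⟩ := hconj s i
    rw [hh, ofMul_mul, ofMul_mul, map_add, map_add, hpow, ofMul_inv, map_neg]
    ring
  rw [Finset.smul_sum]
  simp only [nsmul_transferF D hf' (hφ _) W (hker _), hval]
  -- regroup by fibres
  have : ∀ s i, (m s i) • f' (π' (κ s i)) =
      ∑ k, (if κ s i = k then m s i else 0) • f' (π' k) := by
    intro s i
    rw [Finset.sum_eq_single (κ s i)]
    · rw [if_pos rfl]
    · intro k _ hk
      rw [if_neg (Ne.symm hk), zero_smul]
    · intro h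
      exact absurd (Finset.mem_univ _) h
  simp only [this]
  rw [Finset.sum_comm]
  simp only [Finset.sum_comm (s := (Finset.univ : Finset I))]
  rw [Finset.smul_sum, Finset.sum_comm]
  refine Finset.sum_congr rfl fun k _ => ?_
  rw [← hfib k, Finset.sum_smul]
  refine Finset.sum_congr rfl fun s _ => ?_
  rw [Finset.sum_smul]

end Transfer

end Fermat.Agent.S41.H49
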