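/-
S41 / I-LEMMA-T (helper49): the strong form of helper31's Lemma T.

Let `N ∣ M`, `ℓ` a prime with `ℓ ≡ 1 mod M` (so `ℓ ∤ N` unless `N = 1`), `F` an abelian group and
`φ : Γ₀(N) → F` a homomorphism which is

* parabolic (`IsParabolicHom`), and
* `SL(2, ℤ)`-conjugation invariant on `Γ(M)`.

Then `T_ℓ φ = (ℓ + 1) φ` on all of `Γ₀(N)`.

Proof.  `Γ' := Γ⁰(ℓ)` has the coset representatives `η_j = T^j` (`j < ℓ`), `η_∞ ∈ Γ₀(N)` in
`SL(2, ℤ)`, and `α_i := diag(1, ℓ) η_i` are representatives of the Hecke double coset of level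
`N`.  For `g ∈ Γ₀(N)` write `η_i g = x_i η_{σ i}`; then
`(T_ℓ φ)(g) = ∑ φ(c(x_i))`, `c` = conjugation by `diag(1, ℓ)`.  As `c(x) ≡ x mod M`,
`φ(c(x_i)) = χ(x_i) + φ(x_i)` with `χ(x) := φ(c(x) x⁻¹)`, a homomorphism on `Γ'` by invariance.
`∑ φ(x_i) = (ℓ + 1) φ(g)` (telescoping), and `∑ χ(x_i) = ρ(g)` where `ρ` is the transfer of `χ`
to `SL(2, ℤ)` — a homomorphism which kills `T` by the orbit lemma of `H85_CosetDatum` (its values
on unipotent elements are `φ` of a product of two unipotent elements of `Γ₀(N)`), hence is zero.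
-/
import Mathlib
import Fermat.Agent.S41.H85_HeckeGamma0

set_option autoImplicit false

open CongruenceSubgroup Matrix.SpecialLinearGroup ModularForm
open scoped MatrixGroups
open P2MW.S_ModularForm_heckeT_slash_eq_self_of_mem_Gamma0.ModularForm.HeckeSlashInvariance
open ModularCurve.Period

namespace Fermat.Agent.S41.H49.LT

open Fermat.Agent.S41

/-! ### Entries of products and inverses in `SL(2, ℤ)` -/

section entries

theorem mul_00 (g h : SL(2, ℤ)) : (g * h) 0 0 = g 0 0 * h 0 0 + g 0 1 * h 1 0 := by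
  rw [Matrix.SpecialLinearGroup.coe_mul, Matrix.mul_apply, Fin.sum_univ_two]

theorem mul_01 (g h : SL(2, ℤ)) : (g * h) 0 1 = g 0 0 * h 0 1 + g 0 1 * h 1 1 := by
  rw [Matrix.SpecialLinearGroup.coe_mul, Matrix.mul_apply, Fin.sum_univ_two]

theorem mul_10 (g h : SL(2, ℤ)) : (g * h) 1 0 = g 1 0 * h 0 0 + g 1 1 * h 1 0 := by
  rw [Matrix.SpecialLinearGroup.coe_mul, Matrix.mul_apply, Fin.sum_univ_two]

theorem mul_11 (g h : SL(2, ℤ)) : (g * h) 1 1 = g 1 0 * h 0 1 + g 1 1 * h 1 1 := by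
  rw [Matrix.SpecialLinearGroup.coe_mul, Matrix.mul_apply, Fin.sum_univ_two]

theorem inv_00 (g : SL(2, ℤ)) : (g⁻¹) 0 0 = g 1 1 := by
  rw [Matrix.SpecialLinearGroup.SL2_inv_expl]; rfl

theorem inv_01 (g : SL(2, ℤ)) : (g⁻¹) 0 1 = - g 0 1 := by
  rw [Matrix.SpecialLinearGroup.SL2_inv_expl]; rfl

theorem inv_10 (g : SL(2, ℤ)) : (g⁻¹) 1 0 = - g 1 0 := by
  rw [Matrix.SpecialLinearGroup.SL2_inv_expl]; rfl

theorem inv_11 (g : SL(2, ℤ)) : (g⁻¹) 1 1 = g 0 0 := by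
  rw [Matrix.SpecialLinearGroup.SL2_inv_expl]; rfl

theorem det_eq (g : SL(2, ℤ)) : g 0 0 * g 1 1 - g 0 1 * g 1 0 = 1 := by
  have h := g.det_coe
  rwa [Matrix.det_fin_two] at h

theorem ext_entries {g h : SL(2, ℤ)} (h00 : g 0 0 = h 0 0) (h01 : g 0 1 = h 0 1)
    (h10 : g 1 0 = h 1 0) (h11 : g 1 1 = h 1 1) : g = h := by
  apply Matrix.SpecialLinearGroup.ext
  intro i j
  fin_cases i <;> fin_cases j <;> assumption

/-- The matrix `[[a, b], [c, d]]` of determinant one. -/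
def mk2 (a b c d : ℤ) (h : a * d - b * c = 1) : SL(2, ℤ) :=
  ⟨!![a, b; c, d], by rw [Matrix.det_fin_two_of]; exact h⟩

@[simp] theorem mk2_00 (a b c d : ℤ) (h : a * d - b * c = 1) : (mk2 a b c d h) 0 0 = a := rfl
@[simp] theorem mk2_01 (a b c d : ℤ) (h : a * d - b * c = 1) : (mk2 a b c d h) 0 1 = b := rfl
@[simp] theorem mk2_10 (a b c d : ℤ) (h : a * d - b * c = 1) : (mk2 a b c d h) 1 0 = c := rfl
@[simp] theorem mk2_11 (a b c d : ℤ) (h : a * d - b * c = 1) : (mk2 a b c d h) 1 1 = d := rfl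

/-- The upper unipotent `[[1, t], [0, 1]]`. -/
def up (t : ℤ) : SL(2, ℤ) := mk2 1 t 0 1 (by ring)

@[simp] theorem up_00 (t : ℤ) : (up t) 0 0 = 1 := rfl
@[simp] theorem up_01 (t : ℤ) : (up t) 0 1 = t := rfl
@[simp] theorem up_10 (t : ℤ) : (up t) 1 0 = 0 := rfl
@[simp] theorem up_11 (t : ℤ) : (up t) 1 1 = 1 := rfl

theorem up_add (s t : ℤ) : up (s + t) = up s * up t := by
  apply ext_entries <;> simp [mul_00, mul_01, mul_10, mul_11, add_comm]

theorem up_zero : up 0 = 1 := by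
  apply ext_entries <;> simp

theorem up_pow (t : ℤ) (m : ℕ) : up t ^ m = up (m * t) := by
  induction m with
  | zero => simp [up_zero]
  | succ m ih =>
    rw [pow_succ, ih, ← up_add]
    congr 1
    push_cast
    ring

theorem T_eq_up : ModularGroup.T = up 1 := by
  apply ext_entries <;> simp [ModularGroup.T]

end entries

/-! ### The group `Γ⁰(ℓ)` and its cosets in `SL(2, ℤ)` -/

section gammaUp

/-- `Γ⁰(ℓ)`: the upper right entry is divisible by `ℓ`. -/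
def GammaUp (l : ℕ) : Subgroup SL(2, ℤ) where
  carrier := {g | (l : ℤ) ∣ g 0 1}
  mul_mem' := by
    intro g h hg hh
    show (l : ℤ) ∣ (g * h) 0 1
    rw [mul_01]
    exact dvd_add (Dvd.dvd.mul_left hh _) (Dvd.dvd.mul_right hg _)
  one_mem' := by
    show (l : ℤ) ∣ (1 : SL(2, ℤ)) 0 1
    simp
  inv_mem' := by
    intro g hg
    show (l : ℤ) ∣ (g⁻¹) 0 1
    rw [inv_01]
    exact (dvd_neg).mpr hg

theorem mem_GammaUp {l : ℕ} {g : SL(2, ℤ)} : g ∈ GammaUp l ↔ (l : ℤ) ∣ g 0 1 := Iff.rfl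

/-- The cross product criterion: `g' g⁻¹ ∈ Γ⁰(ℓ)` iff the top rows of `g'` and `g` are
proportional mod `ℓ`. -/
theorem mul_inv_mem_GammaUp {l : ℕ} {g g' : SL(2, ℤ)} :
    g' * g⁻¹ ∈ GammaUp l ↔ (l : ℤ) ∣ g' 0 1 * g 0 0 - g' 0 0 * g 0 1 := by
  rw [mem_GammaUp, mul_01, inv_01, inv_11]
  constructor <;> intro h <;> convert h using 1 <;> ring

end gammaUp

/-! ### Coset representatives of `Γ⁰(ℓ) \ SL(2, ℤ)` inside `Γ₀(N)` -/

section reps

variable (N l : ℕ) (x y : ℤ) (hxy : (l : ℤ) * x + (N : ℤ) * y = 1)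

/-- `η_∞ = [[ℓ x, -y], [N, 1]]`. -/
def etaInf : SL(2, ℤ) := mk2 ((l : ℤ) * x) (-y) N 1 (by linear_combination hxy)

/-- The representatives `η_j = [[1, j], [0, 1]]`, `η_∞`. -/
def eta (i : OnePoint (ZMod l)) : SL(2, ℤ) :=
  i.elim (etaInf N l x y hxy) (fun j => up (j.val : ℤ))

@[simp] theorem eta_infty : eta N l x y hxy OnePoint.infty = etaInf N l x y hxy := rfl

@[simp] theorem eta_coe (j : ZMod l) :
    eta N l x y hxy (j : OnePoint (ZMod l)) = up (j.val : ℤ) := rfl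

theorem eta_mem_Gamma0 (i : OnePoint (ZMod l)) : eta N l x y hxy i ∈ Gamma0 N := by
  induction i using OnePoint.rec with
  | infty =>
    apply H85.mem_Gamma0_of_dvd
    show (N : ℤ) ∣ (etaInf N l x y hxy) 1 0
    exact dvd_refl _
  | coe j =>
    apply H85.mem_Gamma0_of_dvd
    show (N : ℤ) ∣ (up (j.val : ℤ)) 1 0
    simp

include hxy in
theorem not_dvd_y (hl : 1 < l) : ¬ (l : ℤ) ∣ y := by
  intro h
  have h1 : (l : ℤ) ∣ 1 := by
    rw [← hxy]
    exact dvd_add (dvd_mul_right _ _) (Dvd.dvd.mul_left h _)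
  have h2 : (l : ℤ) ≤ 1 := Int.le_of_dvd one_pos h1
  have h3 : (1 : ℤ) < (l : ℤ) := by exact_mod_cast hl
  omega

variable [hl : Fact l.Prime]

/-- The cosets `Γ⁰(ℓ) η_i` are pairwise distinct. -/
theorem isReduced_eta : H85.IsReduced (GammaUp l).subtype (eta N l x y hxy) where
  inj := Subtype.coe_injective
  distinct := by
    intro i j g h
    have hmem : eta N l x y hxy j * (eta N l x y hxy i)⁻¹ ∈ GammaUp l := by
      have : eta N l x y hxy j * (eta N l x y hxy i)⁻¹ = (g : SL(2, ℤ)) := by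
        rw [← h]
        simp
      rw [this]
      exact g.2
    rw [mul_inv_mem_GammaUp] at hmem
    have hl1 : 1 < l := hl.out.one_lt
    induction i using OnePoint.rec with
    | infty =>
      induction j using OnePoint.rec with
      | infty => rfl
      | coe b =>
        exfalso
        simp only [eta_infty, eta_coe, etaInf, mk2_00, mk2_01, up_00, up_01] at hmem
        apply not_dvd_y N l x y hxy hl1
        have : (l : ℤ) ∣ ((b.val : ℤ) * ((l : ℤ) * x) - 1 * -y) - (l : ℤ) * ((b.val : ℤ) * x) :=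
          dvd_sub hmem (dvd_mul_right _ _)
        convert this using 1
        ring
    | coe a =>
      induction j using OnePoint.rec with
      | infty =>
        exfalso
        simp only [eta_infty, eta_coe, etaInf, mk2_00, mk2_01, up_00, up_01] at hmem
        apply not_dvd_y N l x y hxy hl1
        have : (l : ℤ) ∣ (l : ℤ) * (- x * (a.val : ℤ)) - (-y * 1 - (l : ℤ) * x * (a.val : ℤ)) :=
          dvd_sub (dvd_mul_right _ _) hmem
        convert this using 1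
        ring
      | coe b =>
        simp only [eta_coe, up_00, up_01] at hmem
        have hne : NeZero l := ⟨hl.out.ne_zero⟩
        have hc : (((b.val : ℤ) * 1 - 1 * (a.val : ℤ) : ℤ) : ZMod l) = 0 :=
          (ZMod.intCast_zmod_eq_zero_iff_dvd _ _).mpr hmem
        push_cast at hc
        rw [ZMod.natCast_zmod_val, ZMod.natCast_zmod_val] at hc
        have : b = a := by linear_combination hc
        rw [this]

/-- Every element of `SL(2, ℤ)` lies in some coset `Γ⁰(ℓ) η_j`. -/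
theorem exists_mul_inv_mem (h : SL(2, ℤ)) :
    ∃ j : OnePoint (ZMod l), h * (eta N l x y hxy j)⁻¹ ∈ GammaUp l := by
  have hne : NeZero l := ⟨hl.out.ne_zero⟩
  by_cases ha : (l : ℤ) ∣ h 0 0
  · refine ⟨OnePoint.infty, ?_⟩
    rw [mul_inv_mem_GammaUp]
    simp only [eta_infty, etaInf, mk2_00, mk2_01]
    have : h 0 1 * ((l : ℤ) * x) - h 0 0 * -y = (l : ℤ) * (h 0 1 * x) + h 0 0 * y := by ring
    rw [this]
    exact dvd_add (dvd_mul_right _ _) (Dvd.dvd.mul_right ha _)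
  · have ha' : ((h 0 0 : ℤ) : ZMod l) ≠ 0 := fun h0 =>
      ha ((ZMod.intCast_zmod_eq_zero_iff_dvd _ _).mp h0)
    refine ⟨(((h 0 1 : ℤ) : ZMod l) * ((h 0 0 : ℤ) : ZMod l)⁻¹ : ZMod l), ?_⟩
    rw [mul_inv_mem_GammaUp]
    simp only [eta_coe, up_00, up_01]
    rw [← ZMod.intCast_zmod_eq_zero_iff_dvd]
    push_cast
    rw [ZMod.natCast_zmod_val]
    field_simp
    ring

/-- The family `η_i` is stable under right multiplication by `SL(2, ℤ)`. -/
theorem stable_eta (γ : SL(2, ℤ)) (i : OnePoint (ZMod l)) :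
    ∃ (j : OnePoint (ZMod l)) (g : GammaUp l),
      eta N l x y hxy i * (MonoidHom.id SL(2, ℤ)) γ
        = (GammaUp l).subtype g * eta N l x y hxy j := by
  obtain ⟨j, hj⟩ := exists_mul_inv_mem N l x y hxy (eta N l x y hxy i * γ)
  refine ⟨j, ⟨_, hj⟩, ?_⟩
  simp

/-- The coset datum of `Γ⁰(ℓ) ⊆ SL(2, ℤ)`. -/
noncomputable def upDatum :
    H85.CosetDatum (GammaUp l).subtype (MonoidHom.id SL(2, ℤ)) (OnePoint (ZMod l)) :=
  H85.CosetDatum.ofReduced (isReduced_eta N l x y hxy) (stable_eta N l x y hxy)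

theorem upDatum_eq (γ : SL(2, ℤ)) (i : OnePoint (ZMod l)) :
    eta N l x y hxy i * γ = ((upDatum N l x y hxy).coc γ i : SL(2, ℤ)) *
      eta N l x y hxy ((upDatum N l x y hxy).perm γ i) :=
  (upDatum N l x y hxy).eq γ i

theorem upDatum_coc_eq (γ : SL(2, ℤ)) (i : OnePoint (ZMod l)) :
    ((upDatum N l x y hxy).coc γ i : SL(2, ℤ)) = eta N l x y hxy i * γ *
      (eta N l x y hxy ((upDatum N l x y hxy).perm γ i))⁻¹ := by
  rw [upDatum_eq N l x y hxy γ i]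
  simp

theorem upDatum_coc_mem_Gamma0 (γ : Gamma0 N) (i : OnePoint (ZMod l)) :
    ((upDatum N l x y hxy).coc (γ : SL(2, ℤ)) i : SL(2, ℤ)) ∈ Gamma0 N := by
  rw [upDatum_coc_eq]
  exact mul_mem (mul_mem (eta_mem_Gamma0 N l x y hxy i) γ.2)
    (inv_mem (eta_mem_Gamma0 N l x y hxy _))

end reps

/-! ### Conjugation by `diag(1, ℓ)` on `Γ⁰(ℓ)` -/

section conj

variable {l : ℕ}

/-- The underlying function of `cU`: `[[a, b], [c, d]] ↦ [[a, b / ℓ], [ℓ c, d]]`. -/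
def cUFun (g : GammaUp l) : SL(2, ℤ) :=
  mk2 ((g : SL(2, ℤ)) 0 0) ((g : SL(2, ℤ)) 0 1 / (l : ℤ)) ((l : ℤ) * (g : SL(2, ℤ)) 1 0)
    ((g : SL(2, ℤ)) 1 1) (by
      have h1 := det_eq (g : SL(2, ℤ))
      have h2 : (g : SL(2, ℤ)) 0 1 / (l : ℤ) * (l : ℤ) = (g : SL(2, ℤ)) 0 1 :=
        Int.ediv_mul_cancel g.2
      linear_combination h1 - (g : SL(2, ℤ)) 1 0 * h2)

theorem cUFun_coe (g : GammaUp l) :
    ((cUFun g : SL(2, ℤ)) : Matrix (Fin 2) (Fin 2) ℤ)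
      = !![(g : SL(2, ℤ)) 0 0, (g : SL(2, ℤ)) 0 1 / (l : ℤ);
           (l : ℤ) * (g : SL(2, ℤ)) 1 0, (g : SL(2, ℤ)) 1 1] := rfl

theorem diag_mul_mapGL (hl0 : l ≠ 0) (g : GammaUp l) :
    heckeMatrix l 0 * mapGL ℝ (g : SL(2, ℤ)) = mapGL ℝ (cUFun g) * heckeMatrix l 0 := by
  have h2 : (((g : SL(2, ℤ)) 0 1 / (l : ℤ) : ℤ) : ℝ) * (l : ℝ) = ((g : SL(2, ℤ)) 0 1 : ℝ) := by
    exact_mod_cast congrArg (Int.cast : ℤ → ℝ) (Int.ediv_mul_cancel g.2)
  ext a b
  fin_cases a <;> fin_cases b <;>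
    simp [Matrix.mul_apply, Fin.sum_univ_two, hl0, cUFun_coe, mul_comm]
  linarith

/-- `cU : Γ⁰(ℓ) →* SL(2, ℤ)`, conjugation by `diag(1, ℓ)`. -/
noncomputable def cU (hl0 : l ≠ 0) : GammaUp l →* SL(2, ℤ) where
  toFun := cUFun
  map_one' := by
    apply Matrix.SpecialLinearGroup.mapGL_injective (R := ℤ) (S := ℝ)
    have h1 := diag_mul_mapGL hl0 (1 : GammaUp l)
    rw [Subgroup.coe_one, map_one, mul_one] at h1
    rw [map_one]
    exact (mul_eq_right.mp h1.symm)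
  map_mul' γ γ' := by
    apply Matrix.SpecialLinearGroup.mapGL_injective (R := ℤ) (S := ℝ)
    apply mul_right_cancel (b := heckeMatrix l 0)
    rw [← diag_mul_mapGL hl0, Subgroup.coe_mul, map_mul, map_mul, ← mul_assoc, diag_mul_mapGL hl0,
      mul_assoc, diag_mul_mapGL hl0, mul_assoc]

@[simp] theorem cU_00 (hl0 : l ≠ 0) (g : GammaUp l) : (cU hl0 g) 0 0 = (g : SL(2, ℤ)) 0 0 := rfl
@[simp] theorem cU_01 (hl0 : l ≠ 0) (g : GammaUp l) :
    (cU hl0 g) 0 1 = (g : SL(2, ℤ)) 0 1 / (l : ℤ) := rfl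
@[simp] theorem cU_10 (hl0 : l ≠ 0) (g : GammaUp l) :
    (cU hl0 g) 1 0 = (l : ℤ) * (g : SL(2, ℤ)) 1 0 := rfl
@[simp] theorem cU_11 (hl0 : l ≠ 0) (g : GammaUp l) : (cU hl0 g) 1 1 = (g : SL(2, ℤ)) 1 1 := rfl

theorem diag_mul_mapGL_cU (hl0 : l ≠ 0) (g : GammaUp l) :
    heckeMatrix l 0 * mapGL ℝ (g : SL(2, ℤ)) = mapGL ℝ (cU hl0 g) * heckeMatrix l 0 :=
  diag_mul_mapGL hl0 g

theorem cU_mem_Gamma0 (hl0 : l ≠ 0) {N : ℕ} (g : GammaUp l) (hg : (g : SL(2, ℤ)) ∈ Gamma0 N) :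
    cU hl0 g ∈ Gamma0 N := by
  apply H85.mem_Gamma0_of_dvd
  rw [cU_10]
  exact Dvd.dvd.mul_left (H85.dvd_of_mem_Gamma0 hg) _

/-- `cU x ≡ x mod M` when `ℓ ≡ 1 mod M`. -/
theorem cU_mul_inv_mem_Gamma (hl0 : l ≠ 0) {M : ℕ} (hl1 : l ≡ 1 [MOD M]) (g : GammaUp l) :
    cU hl0 g * (g : SL(2, ℤ))⁻¹ ∈ Gamma M := by
  have hlM : ((l : ℕ) : ZMod M) = 1 := by
    have := (ZMod.natCast_eq_natCast_iff l 1 M).mpr hl1
    simpa using this
  have h2 : (g : SL(2, ℤ)) 0 1 / (l : ℤ) * (l : ℤ) = (g : SL(2, ℤ)) 0 1 :=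
    Int.ediv_mul_cancel g.2
  have h2' : (((g : SL(2, ℤ)) 0 1 / (l : ℤ) : ℤ) : ZMod M) = (((g : SL(2, ℤ)) 0 1 : ℤ) : ZMod M) := by
    have := congrArg (Int.cast : ℤ → ZMod M) h2
    push_cast at this
    rw [hlM, mul_one] at this
    exact this
  have hdet := congrArg (Int.cast : ℤ → ZMod M) (det_eq (g : SL(2, ℤ)))
  push_cast at hdet
  rw [Gamma_mem]
  simp only [mul_00, mul_01, mul_10, mul_11, inv_00, inv_01, inv_10, inv_11, cU_00, cU_01, cU_10,
    cU_11]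
  push_cast
  rw [h2', hlM]
  refine ⟨?_, ?_, ?_, ?_⟩
  · linear_combination hdet
  · ring
  · ring
  · linear_combination hdet

theorem trace_cU (hl0 : l ≠ 0) (g : GammaUp l) :
    (cU hl0 g) 0 0 + (cU hl0 g) 1 1 = (g : SL(2, ℤ)) 0 0 + (g : SL(2, ℤ)) 1 1 := rfl

end conj

/-! ### The Hecke coset datum of level `N` built from the `η_i` -/

section heckeDatum

variable (N l : ℕ) (x y : ℤ) (hxy : (l : ℤ) * x + (N : ℤ) * y = 1) [hl : Fact l.Prime]

/-- The coset datum of `T_ℓ` on `Γ₀(N)` with representatives `diag(1, ℓ) η_i`. -/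
noncomputable def tDatum :
    H85.CosetDatum (H85.gl N) (H85.gl N) (OnePoint (ZMod l)) where
  α i := heckeMatrix l 0 * mapGL ℝ (eta N l x y hxy i)
  perm γ i := (upDatum N l x y hxy).perm (γ : SL(2, ℤ)) i
  coc γ i := ⟨cU hl.out.ne_zero ((upDatum N l x y hxy).coc (γ : SL(2, ℤ)) i),
    cU_mem_Gamma0 hl.out.ne_zero _ (upDatum_coc_mem_Gamma0 N l x y hxy γ i)⟩
  eq γ i := by
    rw [H85.gl_apply, H85.gl_apply, mul_assoc, ← map_mul, upDatum_eq N l x y hxy, map_mul,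
      ← mul_assoc, diag_mul_mapGL_cU hl.out.ne_zero, mul_assoc]
  perm_one i := (upDatum N l x y hxy).perm_one i
  perm_mul γ δ i := (upDatum N l x y hxy).perm_mul (γ : SL(2, ℤ)) (δ : SL(2, ℤ)) i
  coc_mul γ δ i := by
    apply Subtype.ext
    show cU hl.out.ne_zero ((upDatum N l x y hxy).coc ((γ : SL(2, ℤ)) * (δ : SL(2, ℤ))) i) = _
    rw [(upDatum N l x y hxy).coc_mul, map_mul]
    rfl

theorem tDatum_coc_coe (γ : Gamma0 N) (i : OnePoint (ZMod l)) :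
    (((tDatum N l x y hxy).coc γ i : Gamma0 N) : SL(2, ℤ))
      = cU hl.out.ne_zero ((upDatum N l x y hxy).coc (γ : SL(2, ℤ)) i) := rfl

/-- The element `[[ℓ, y], [-N, x]] ∈ Γ₀(N)`. -/
def cInf : Gamma0 N :=
  ⟨mk2 (l : ℤ) y (-(N : ℤ)) x (by linear_combination hxy), by
    apply H85.mem_Gamma0_of_dvd
    show (N : ℤ) ∣ -(N : ℤ)
    exact (dvd_neg).mpr dvd_rfl⟩

include hxy in
theorem heckeDiag_eq :
    heckeDiagMatrix l = H85.gl N (cInf N l x y hxy) *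
      (heckeMatrix l 0 * mapGL ℝ (etaInf N l x y hxy)) := by
  have hl0 : l ≠ 0 := hl.out.ne_zero
  have h := congrArg (Int.cast : ℤ → ℝ) hxy
  push_cast at h
  have e1 : ((cInf N l x y hxy : Gamma0 N) : SL(2, ℤ)) = mk2 (l : ℤ) y (-(N : ℤ)) x
      (by linear_combination hxy) := rfl
  have e2 : ((mk2 (l : ℤ) y (-(N : ℤ)) x (by linear_combination hxy) : SL(2, ℤ)) :
      Matrix (Fin 2) (Fin 2) ℤ) = !![(l : ℤ), y; -(N : ℤ), x] := rfl
  have e3 : ((etaInf N l x y hxy : SL(2, ℤ)) : Matrix (Fin 2) (Fin 2) ℤ)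
      = !![(l : ℤ) * x, -y; (N : ℤ), 1] := rfl
  ext a b
  rw [H85.gl_apply, e1]
  fin_cases a <;> fin_cases b <;>
    simp [Matrix.mul_apply, Fin.sum_univ_two, hl0, e2, e3, Matrix.vecMul, dotProduct]
  · linear_combination -(l : ℝ) * h
  · ring
  · ring
  · linear_combination -h

theorem heckeMatrix_eq (j : ZMod l) :
    heckeMatrix l j.val = heckeMatrix l 0 * mapGL ℝ (up (j.val : ℤ)) := by
  have hl0 : l ≠ 0 := hl.out.ne_zero
  ext a b
  fin_cases a <;> fin_cases b <;>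
    simp [Matrix.mul_apply, Fin.sum_univ_two, hl0]

/-- The datum `tDatum` computes the Hecke operator `T_ℓ`. -/
theorem tDatum_op {A : Type*} [AddCommGroup A] (hlN : ¬ l ∣ N) :
    ((tDatum N l x y hxy).op : (Additive (Gamma0 N) →+ A) →+ _) = H85.heckeTHom A hl.out hlN := by
  have h := H85.CosetDatum.op_eq_of_equiv (A := A) (tDatum N l x y hxy)
    (H85.heckeTDatum N l hlN) (H85.heckeTDatum_isReduced N l hlN) (Equiv.refl _)
    (fun i => i.elim (cInf N l x y hxy) (fun _ => 1)) (fun i => by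
      induction i using OnePoint.rec with
      | infty =>
        show heckeRep l OnePoint.infty = H85.gl N (cInf N l x y hxy) *
          (heckeMatrix l 0 * mapGL ℝ (etaInf N l x y hxy))
        rw [heckeRep_infty]
        exact heckeDiag_eq N l x y hxy
      | coe j =>
        show heckeRep l (j : OnePoint (ZMod l)) = H85.gl N 1 *
          (heckeMatrix l 0 * mapGL ℝ (up (j.val : ℤ)))
        rw [heckeRep_coe, map_one, one_mul]
        exact heckeMatrix_eq l j)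
  rw [h]
  rfl

end heckeDatum

/-! ### Generalities -/

section general

theorem Gamma_le_Gamma0 {N M : ℕ} (h : N ∣ M) : Gamma M ≤ Gamma0 N := by
  intro γ hγ
  rw [Gamma_mem] at hγ
  rw [Gamma0_mem]
  obtain ⟨k, rfl⟩ := h
  have h10 := hγ.2.2.1
  rw [ZMod.intCast_zmod_eq_zero_iff_dvd] at h10 ⊢
  exact dvd_trans ⟨(k : ℤ), by push_cast; ring⟩ h10

theorem trace_conj (s g : SL(2, ℤ)) :
    ((s * g * s⁻¹ : SL(2, ℤ)) : Matrix (Fin 2) (Fin 2) ℤ).trace
      = (g : Matrix (Fin 2) (Fin 2) ℤ).trace := by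
  rw [Matrix.SpecialLinearGroup.coe_mul, Matrix.trace_mul_comm, ← Matrix.SpecialLinearGroup.coe_mul,
    ← mul_assoc, inv_mul_cancel, one_mul]

theorem trace_up (t : ℤ) : ((up t : SL(2, ℤ)) : Matrix (Fin 2) (Fin 2) ℤ).trace = 2 := by
  rw [Matrix.trace_fin_two]
  show (up t) 0 0 + (up t) 1 1 = 2
  simp

theorem up_mem_Gamma0 (N : ℕ) (t : ℤ) : up t ∈ Gamma0 N := by
  apply H85.mem_Gamma0_of_dvd
  simp

theorem ST_cube : ModularGroup.S * ModularGroup.T * (ModularGroup.S * ModularGroup.T) *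
    (ModularGroup.S * ModularGroup.T) = ModularGroup.S * ModularGroup.S := by
  apply ext_entries <;>
    simp only [mul_00, mul_01, mul_10, mul_11] <;>
    simp [ModularGroup.S, ModularGroup.T]

/-- A homomorphism from `SL(2, ℤ)` to an abelian group which kills `T` is zero. -/
theorem hom_eq_zero_of_T {F : Type*} [AddCommGroup F] (ρ : Additive SL(2, ℤ) →+ F)
    (hT : ρ (Additive.ofMul ModularGroup.T) = 0) (g : SL(2, ℤ)) : ρ (Additive.ofMul g) = 0 := by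
  have hS : ρ (Additive.ofMul ModularGroup.S) = 0 := by
    have h := congrArg (fun z => ρ (Additive.ofMul z)) ST_cube
    simp only [ofMul_mul, map_add, hT, add_zero] at h
    have h' : ρ (Additive.ofMul ModularGroup.S) + ρ (Additive.ofMul ModularGroup.S) +
        ρ (Additive.ofMul ModularGroup.S) - (ρ (Additive.ofMul ModularGroup.S) +
          ρ (Additive.ofMul ModularGroup.S)) = 0 := by rw [h, sub_self]
    have : ρ (Additive.ofMul ModularGroup.S) = ρ (Additive.ofMul ModularGroup.S) +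
        ρ (Additive.ofMul ModularGroup.S) + ρ (Additive.ofMul ModularGroup.S) -
          (ρ (Additive.ofMul ModularGroup.S) + ρ (Additive.ofMul ModularGroup.S)) := by abel
    rw [this, h']
  have hg : g ∈ Subgroup.closure ({ModularGroup.S, ModularGroup.T} : Set SL(2, ℤ)) := by
    rw [SpecialLinearGroup.SL2Z_generators]
    exact Subgroup.mem_top g
  induction hg using Subgroup.closure_induction with
  | mem z hz =>
    rcases hz with rfl | rfl
    · exact hS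
    · exact hT
  | one => simp
  | mul a b _ _ ha hb => rw [ofMul_mul, map_add, ha, hb, add_zero]
  | inv a _ ha => rw [ofMul_inv, map_neg, ha, neg_zero]

theorem card_onePoint_zmod' (l : ℕ) [NeZero l] : Fintype.card (OnePoint (ZMod l)) = l + 1 := by
  have : Fintype.card (OnePoint (ZMod l)) = Fintype.card (Option (ZMod l)) :=
    Fintype.card_congr (Equiv.refl _)
  rw [this, Fintype.card_option, ZMod.card]

end general

/-! ### The character `χ` on `Γ⁰(ℓ)` and Lemma T -/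

section lemmaT

variable {N M l : ℕ} [hl : Fact l.Prime] {F : Type*} [AddCommGroup F]

/-- `k(x) = c(x) x⁻¹ ∈ Γ(M) ⊆ Γ₀(N)`. -/
noncomputable def kEl (hNM : N ∣ M) (hl1 : l ≡ 1 [MOD M]) (g : GammaUp l) : Gamma0 N :=
  ⟨cU hl.out.ne_zero g * (g : SL(2, ℤ))⁻¹,
    Gamma_le_Gamma0 hNM (cU_mul_inv_mem_Gamma hl.out.ne_zero hl1 g)⟩

theorem kEl_coe (hNM : N ∣ M) (hl1 : l ≡ 1 [MOD M]) (g : GammaUp l) :
    ((kEl hNM hl1 g : Gamma0 N) : SL(2, ℤ)) = cU hl.out.ne_zero g * (g : SL(2, ℤ))⁻¹ := rfl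

theorem kEl_mem_Gamma (hNM : N ∣ M) (hl1 : l ≡ 1 [MOD M]) (g : GammaUp l) :
    ((kEl hNM hl1 g : Gamma0 N) : SL(2, ℤ)) ∈ Gamma M :=
  cU_mul_inv_mem_Gamma hl.out.ne_zero hl1 g

omit hl in
theorem conj_mem_Gamma0 (hNM : N ∣ M) (s : SL(2, ℤ)) {k : SL(2, ℤ)} (hk : k ∈ Gamma M) :
    s * k * s⁻¹ ∈ Gamma0 N :=
  Gamma_le_Gamma0 hNM ((Gamma_normal M).conj_mem k hk s)

/-- The invariance hypothesis of Lemma T. -/
def IsInv (N M : ℕ) (φ : Additive (Gamma0 N) →+ F) : Prop :=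
  ∀ (s : SL(2, ℤ)) (k : Gamma0 N), (k : SL(2, ℤ)) ∈ Gamma M →
    ∀ h : s * (k : SL(2, ℤ)) * s⁻¹ ∈ Gamma0 N,
      φ (Additive.ofMul ⟨s * (k : SL(2, ℤ)) * s⁻¹, h⟩) = φ (Additive.ofMul k)

/-- The character `χ(x) = φ(c(x) x⁻¹)` of `Γ⁰(ℓ)`. -/
noncomputable def chi (hNM : N ∣ M) (hl1 : l ≡ 1 [MOD M]) (φ : Additive (Gamma0 N) →+ F)
    (hinv : IsInv N M φ) : Additive (GammaUp l) →+ F where
  toFun a := φ (Additive.ofMul (kEl hNM hl1 (Additive.toMul a)))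
  map_zero' := by
    have : kEl (N := N) hNM hl1 (Additive.toMul (0 : Additive (GammaUp l))) = 1 := by
      apply Subtype.ext
      rw [kEl_coe]
      simp
    rw [this]
    simp
  map_add' a b := by
    obtain ⟨a, rfl⟩ := Additive.ofMul.surjective a
    obtain ⟨b, rfl⟩ := Additive.ofMul.surjective b
    show φ (Additive.ofMul (kEl hNM hl1 (a * b))) = φ (Additive.ofMul (kEl hNM hl1 a)) +
      φ (Additive.ofMul (kEl hNM hl1 b))
    have hmem : (a : SL(2, ℤ)) * ((kEl hNM hl1 b : Gamma0 N) : SL(2, ℤ)) * (a : SL(2, ℤ))⁻¹ ∈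
        Gamma0 N := conj_mem_Gamma0 hNM _ (kEl_mem_Gamma hNM hl1 b)
    have hprod : kEl (N := N) hNM hl1 (a * b) = kEl hNM hl1 a *
        ⟨(a : SL(2, ℤ)) * ((kEl hNM hl1 b : Gamma0 N) : SL(2, ℤ)) * (a : SL(2, ℤ))⁻¹, hmem⟩ := by
      apply Subtype.ext
      show cU hl.out.ne_zero (a * b) * ((a * b : GammaUp l) : SL(2, ℤ))⁻¹
        = (cU hl.out.ne_zero a * (a : SL(2, ℤ))⁻¹) *
          ((a : SL(2, ℤ)) * (cU hl.out.ne_zero b * (b : SL(2, ℤ))⁻¹) * (a : SL(2, ℤ))⁻¹)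
      rw [map_mul, Subgroup.coe_mul]
      group
    rw [hprod, ofMul_mul, map_add, hinv _ _ (kEl_mem_Gamma hNM hl1 b) hmem]

theorem chi_apply (hNM : N ∣ M) (hl1 : l ≡ 1 [MOD M]) (φ : Additive (Gamma0 N) →+ F)
    (hinv : IsInv N M φ) (g : GammaUp l) :
    chi hNM hl1 φ hinv (Additive.ofMul g) = φ (Additive.ofMul (kEl hNM hl1 g)) := rfl

/-- `χ` kills the elements of `Γ⁰(ℓ)` which are `SL(2, ℤ)`-conjugate to an upper unipotent. -/
theorem chi_eq_zero (hNM : N ∣ M) (hl1 : l ≡ 1 [MOD M]) (φ : Additive (Gamma0 N) →+ F)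
    (hinv : IsInv N M φ) (hpar : IsParabolicHom (Gamma0 N) φ) (g : GammaUp l) (s : SL(2, ℤ))
    (t : ℤ) (hs : s * (g : SL(2, ℤ)) * s⁻¹ = up t) :
    chi hNM hl1 φ hinv (Additive.ofMul g) = 0 := by
  rw [chi_apply]
  have hmem : s * ((kEl hNM hl1 g : Gamma0 N) : SL(2, ℤ)) * s⁻¹ ∈ Gamma0 N :=
    conj_mem_Gamma0 hNM _ (kEl_mem_Gamma hNM hl1 g)
  rw [← hinv s _ (kEl_mem_Gamma hNM hl1 g) hmem]
  -- `s k s⁻¹ = u' * (up t)⁻¹`
  set u' : SL(2, ℤ) := s * cU hl.out.ne_zero g * s⁻¹ with hu'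
  have hkey : s * ((kEl hNM hl1 g : Gamma0 N) : SL(2, ℤ)) * s⁻¹ = u' * (up t)⁻¹ := by
    rw [kEl_coe, ← hs, hu']
    group
  have hu'mem : u' ∈ Gamma0 N := by
    have : u' = s * ((kEl hNM hl1 g : Gamma0 N) : SL(2, ℤ)) * s⁻¹ * up t := by
      rw [hkey]; group
    rw [this]
    exact mul_mem hmem (up_mem_Gamma0 N t)
  have hsplit : (⟨s * ((kEl hNM hl1 g : Gamma0 N) : SL(2, ℤ)) * s⁻¹, hmem⟩ : Gamma0 N)
      = ⟨u', hu'mem⟩ * (⟨up t, up_mem_Gamma0 N t⟩ : Gamma0 N)⁻¹ := by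
    apply Subtype.ext
    rw [Subgroup.coe_mul, Subgroup.coe_inv]
    exact hkey
  rw [hsplit, ofMul_mul, ofMul_inv, map_add, map_neg]
  have htr_g : ((g : SL(2, ℤ)) : Matrix (Fin 2) (Fin 2) ℤ).trace = 2 := by
    rw [← trace_conj s, hs, trace_up]
  have h1 : φ (Additive.ofMul (⟨u', hu'mem⟩ : Gamma0 N)) = 0 := by
    apply hpar
    show ((u' : SL(2, ℤ)) : Matrix (Fin 2) (Fin 2) ℤ).trace ^ 2 = 4
    rw [hu', trace_conj, Matrix.trace_fin_two]
    have : (cU hl.out.ne_zero g) 0 0 + (cU hl.out.ne_zero g) 1 1 = 2 := by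
      rw [trace_cU, ← Matrix.trace_fin_two]
      exact htr_g
    show ((cU hl.out.ne_zero g) 0 0 + (cU hl.out.ne_zero g) 1 1) ^ 2 = 4
    rw [this]
    norm_num
  have h2 : φ (Additive.ofMul (⟨up t, up_mem_Gamma0 N t⟩ : Gamma0 N)) = 0 := by
    apply hpar
    show ((up t : SL(2, ℤ)) : Matrix (Fin 2) (Fin 2) ℤ).trace ^ 2 = 4
    rw [trace_up]
    norm_num
  rw [h1, h2, neg_zero, add_zero]

/-- The transfer of `χ` to `SL(2, ℤ)` vanishes. -/
theorem rho_eq_zero (hNM : N ∣ M) (hl1 : l ≡ 1 [MOD M]) (φ : Additive (Gamma0 N) →+ F)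
    (hinv : IsInv N M φ) (hpar : IsParabolicHom (Gamma0 N) φ) {x y : ℤ}
    (hxy : (l : ℤ) * x + (N : ℤ) * y = 1) (g : SL(2, ℤ)) :
    (upDatum N l x y hxy).op (chi hNM hl1 φ hinv) (Additive.ofMul g) = 0 := by
  apply hom_eq_zero_of_T
  apply H85.CosetDatum.op_apply_eq_zero_of_periodic
  intro i m _ hperm
  apply chi_eq_zero hNM hl1 φ hinv hpar _ (eta N l x y hxy i)⁻¹ (m : ℤ)
  rw [upDatum_coc_eq, hperm, T_eq_up, up_pow, mul_one]
  group

/-- **Lemma T (strong form)**, pointwise. -/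
theorem heckeTHom_apply_eq (hNM : N ∣ M) (hl1 : l ≡ 1 [MOD M]) (φ : Additive (Gamma0 N) →+ F)
    (hinv : IsInv N M φ) (hpar : IsParabolicHom (Gamma0 N) φ) {x y : ℤ}
    (hxy : (l : ℤ) * x + (N : ℤ) * y = 1) (hlN : ¬ l ∣ N) (g : Gamma0 N) :
    H85.heckeTHom F hl.out hlN φ (Additive.ofMul g) = (l + 1) • φ (Additive.ofMul g) := by
  have hne : NeZero l := ⟨hl.out.ne_zero⟩
  rw [← tDatum_op N l x y hxy hlN, H85.CosetDatum.op_apply]
  set D := upDatum N l x y hxy with hD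
  -- the elements `η_i ∈ Γ₀(N)`
  let ηN : OnePoint (ZMod l) → Gamma0 N :=
    fun i => ⟨eta N l x y hxy i, eta_mem_Gamma0 N l x y hxy i⟩
  have hterm : ∀ i, φ (Additive.ofMul ((tDatum N l x y hxy).coc g i))
      = chi hNM hl1 φ hinv (Additive.ofMul (D.coc (g : SL(2, ℤ)) i)) +
        (φ (Additive.ofMul (ηN i)) + φ (Additive.ofMul g) -
          φ (Additive.ofMul (ηN (D.perm (g : SL(2, ℤ)) i)))) := by
    intro i
    have hx : (tDatum N l x y hxy).coc g i = kEl hNM hl1 (D.coc (g : SL(2, ℤ)) i) *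
        (ηN i * g * (ηN (D.perm (g : SL(2, ℤ)) i))⁻¹) := by
      apply Subtype.ext
      show cU hl.out.ne_zero (D.coc (g : SL(2, ℤ)) i)
        = cU hl.out.ne_zero (D.coc (g : SL(2, ℤ)) i) * ((D.coc (g : SL(2, ℤ)) i : SL(2, ℤ)))⁻¹ *
          (eta N l x y hxy i * (g : SL(2, ℤ)) *
            (eta N l x y hxy (D.perm (g : SL(2, ℤ)) i))⁻¹)
      rw [← upDatum_coc_eq N l x y hxy (g : SL(2, ℤ)) i, ← hD, inv_mul_cancel_right]
    rw [hx, ofMul_mul, map_add, chi_apply, ofMul_mul, ofMul_mul, ofMul_inv, map_add, map_add,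
      map_neg, sub_eq_add_neg]
  simp only [hterm, Finset.sum_add_distrib, Finset.sum_sub_distrib]
  have hrho : ∑ i, chi hNM hl1 φ hinv (Additive.ofMul (D.coc (g : SL(2, ℤ)) i)) = 0 := by
    have := rho_eq_zero hNM hl1 φ hinv hpar hxy (g : SL(2, ℤ))
    rwa [H85.CosetDatum.op_apply] at this
  have hperm : ∑ i, φ (Additive.ofMul (ηN (D.perm (g : SL(2, ℤ)) i)))
      = ∑ i, φ (Additive.ofMul (ηN i)) :=
    Equiv.sum_comp (D.permEquiv (g : SL(2, ℤ))) (fun i => φ (Additive.ofMul (ηN i)))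
  rw [hrho, hperm, zero_add, add_sub_cancel_left, Finset.sum_const, Finset.card_univ,
    card_onePoint_zmod']

end lemmaT

/-- **Lemma T, strong form** (after helper31 #1533): a parabolic homomorphism `φ : Γ₀(N) → F`
which is `SL(2, ℤ)`-conjugation invariant on `Γ(M)` (`N ∣ M`) is Eisenstein at every prime
`ℓ ≡ 1 mod M`: `T_ℓ φ = (ℓ + 1) φ`. -/
theorem heckeTHom_eq_nsmul_of_invariant {N M l : ℕ} (hl : l.Prime) (hlN : ¬ l ∣ N) (hNM : N ∣ M)
    (hl1 : l ≡ 1 [MOD M]) {F : Type*} [AddCommGroup F] (φ : Additive (Gamma0 N) →+ F)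
    (hpar : IsParabolicHom (Gamma0 N) φ)
    (hinv : ∀ (s : SL(2, ℤ)) (k : Gamma0 N), (k : SL(2, ℤ)) ∈ Gamma M →
      ∀ h : s * (k : SL(2, ℤ)) * s⁻¹ ∈ Gamma0 N,
        φ (Additive.ofMul ⟨s * (k : SL(2, ℤ)) * s⁻¹, h⟩) = φ (Additive.ofMul k)) :
    H85.heckeTHom F hl hlN φ = (l + 1) • φ := by
  have : Fact l.Prime := ⟨hl⟩
  have hcop : IsCoprime (l : ℤ) (N : ℤ) := by
    rw [Nat.isCoprime_iff_coprime]
    exact (Nat.Prime.coprime_iff_not_dvd hl).mpr hlN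
  obtain ⟨u, v, huv⟩ := hcop
  have hxy : (l : ℤ) * u + (N : ℤ) * v = 1 := by linear_combination huv
  refine AddMonoidHom.ext fun g => ?_
  obtain ⟨g, rfl⟩ := Additive.ofMul.surjective g
  rw [AddMonoidHom.smul_apply]
  exact heckeTHom_apply_eq hNM hl1 φ hinv hpar hxy hlN g

end Fermat.Agent.S41.H49.LT
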