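/-
S41 / I-IHARA via the transfer route D2 (helper49).

**Ihara's lemma from centrality alone** (no Theorem T): let `q ∤ N` be a prime and `p` a prime.
Assume Theorem I at level `m = p N` in helper38's shape (`CentralHyp N q p`):
`[s, g] ∈ E(pN)` for `s ∈ SL(2, ℤ)`, `g ∈ Γ(pN)`, where `E(m)` is the normal closure of the
elementary matrices `x12(m t)` in `SL(2, ℤ[1/q])`.  If `x₁, x₂ ∈ L_N = parabolicHoms ℤ Γ₀(N) ℤ`
satisfy `res x₁ + cst x₂ ∈ p L_{Nq}`, then for every prime `ℓ ≡ 1 mod p N`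
`(T_ℓ - (ℓ + 1)) xᵢ ∈ p L_N`.

Route: glue `x̄₁, -x̄₂` to `Φ` on `Γ₀(N)[1/q]` (`H49_Ihara.exists_glued`); `Φ` kills `E(pN)`
unconditionally (`H38.elemNormal_le_killed`), so by centrality `Φ ∘ castQ` and its twist are
`SL(2, ℤ)`-invariant on `Γ(pN)` (`H38.resGamma_conj`); the strong Lemma T (`H49_LemmaT`) gives
`T_ℓ x̄ᵢ = (ℓ + 1) x̄ᵢ`.
-/
import Mathlib
import Fermat.Agent.S41.H49_Ihara
import Fermat.Agent.S41.H49_LemmaT
import Fermat.Agent.S41.H38_CSPGlue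

set_option autoImplicit false

open CongruenceSubgroup Matrix.SpecialLinearGroup ModularForm
open scoped MatrixGroups
open P2MW.S_ModularForm_heckeT_slash_eq_self_of_mem_Gamma0.ModularForm.HeckeSlashInvariance
open ModularCurve.Period

namespace Fermat.Agent.S41.H49

open Fermat.Agent.S41

/-- Theorem I (centrality) at level `p N`, in the shape of helper38's `hI`. -/
def CentralHyp (N q p : ℕ) [Fact q.Prime] : Prop :=
  ∀ s g : SL(2, ℤ), g ∈ Gamma (p * N) →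
    H38.intA q (s * g * s⁻¹ * g⁻¹) ∈ H38.elemNormal (((p * N : ℕ) : ↥(H58.Zq q)))

section

variable {N q p ℓ : ℕ} [hq : Fact q.Prime] [hp : Fact p.Prime]

/-- Reduction mod `p` preserves parabolicity. -/
theorem isParabolicHom_redHom {Γ : Subgroup SL(2, ℤ)} (x : parabolicHoms ℤ Γ ℤ) :
    IsParabolicHom Γ (redHom p (x : Additive Γ →+ ℤ)) := by
  intro γ hγ
  rw [redHom_apply, (mem_parabolicHoms_iff.mp x.2) γ hγ, Int.cast_zero]

/-- A character of `Γ₀(N)` which is the pull-back along `iota` of a character of `Γ₀(N)[1/q]` is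
`SL(2, ℤ)`-invariant on `Γ(pN)`, by centrality. -/
theorem isInv_of_central (hNq : Nat.Coprime N q) (hcen : CentralHyp N q p)
    (Φm : ↥(H58.Delta N q) →* Multiplicative (ZMod p)) (φ : Additive (Gamma0 N) →+ ZMod p)
    (hφ : ∀ γ : Gamma0 N, φ (Additive.ofMul γ) = Multiplicative.toAdd (Φm (H58.iota N q γ))) :
    LT.IsInv N (p * N) φ := by
  intro s k hk h
  have hNm : N ∣ p * N := Dvd.intro_left p rfl
  have hconj : s * (k : SL(2, ℤ)) * s⁻¹ ∈ Gamma (p * N) :=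
    (Gamma_normal (p * N)).conj_mem _ hk s
  have key := H38.resGamma_conj hNm Φm _ (H38.elemNormal_le_killed hNq Φm) hcen s
    ⟨(k : SL(2, ℤ)), hk⟩ hconj
  rw [hφ, hφ]
  exact congrArg Multiplicative.toAdd key

/-- From `T_ℓ φ̄ = (ℓ + 1) φ̄` for the reduction to divisibility of `T_ℓ φ - (ℓ + 1) φ`. -/
theorem forall_dvd_of_heckeTHom_redHom_eq (hℓ : ℓ.Prime) (hℓN : ¬ ℓ ∣ N)
    (φ : Additive (Gamma0 N) →+ ℤ)
    (hE : H85.heckeTHom (ZMod p) hℓ hℓN (redHom p φ) = (ℓ + 1) • redHom p φ) (γ : Gamma0 N) :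
    (p : ℤ) ∣ (H85.heckeTHom ℤ hℓ hℓN φ - (ℓ + 1) • φ) (Additive.ofMul γ) := by
  have : Fact ℓ.Prime := ⟨hℓ⟩
  have hnat : H85.heckeTHom (ZMod p) hℓ hℓN (redHom p φ)
      = (Int.castAddHom (ZMod p)).comp (H85.heckeTHom ℤ hℓ hℓN φ) :=
    H65.op_comp_coeff (H85.heckeTDatum N ℓ hℓN) (Int.castAddHom (ZMod p)) φ
  rw [hnat] at hE
  have hE' := DFunLike.congr_fun hE (Additive.ofMul γ)
  rw [← ZMod.intCast_zmod_eq_zero_iff_dvd]
  rw [AddMonoidHom.sub_apply, AddMonoidHom.smul_apply]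
  push_cast
  rw [sub_eq_zero]
  simpa using hE'

/-- **Ihara's lemma on `L_N × L_N` from centrality (route D2).** -/
theorem ihara_parabolic_of_central [NeZero N] (hNq : Nat.Coprime N q) (hcen : CentralHyp N q p)
    (hℓ : ℓ.Prime) (hℓN : ¬ ℓ ∣ N) (hℓ1 : ℓ ≡ 1 [MOD p * N])
    (x₁ x₂ : parabolicHoms ℤ (Gamma0 N) ℤ)
    (h : ∀ γ : Gamma0 (N * q), (p : ℤ) ∣
      (H65.res ℤ N q (x₁ : Additive (Gamma0 N) →+ ℤ) +
        H65.cst ℤ N hq.out.ne_zero (x₂ : Additive (Gamma0 N) →+ ℤ)) (Additive.ofMul γ)) :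
    H85.heckeTPar ℤ ℤ hℓ hℓN x₁ - ((ℓ : ℤ) + 1) • x₁ ∈ H66.pSub p (parabolicHoms ℤ (Gamma0 N) ℤ) ∧
    H85.heckeTPar ℤ ℤ hℓ hℓN x₂ - ((ℓ : ℤ) + 1) • x₂ ∈
      H66.pSub p (parabolicHoms ℤ (Gamma0 N) ℤ) := by
  have hNm : N ∣ p * N := Dvd.intro_left p rfl
  obtain ⟨Φ, h1, h2⟩ := exists_glued hNq (x₁ : Additive (Gamma0 N) →+ ℤ)
    (x₂ : Additive (Gamma0 N) →+ ℤ) h
  let Φm : ↥(H58.Delta N q) →* Multiplicative (ZMod p) := AddMonoidHom.toMultiplicativeRight Φ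
  -- invariance of the two reductions
  have hinv1 : LT.IsInv N (p * N) (redHom p (x₁ : Additive (Gamma0 N) →+ ℤ)) :=
    isInv_of_central hNq hcen Φm _ (fun γ => (h1 γ).symm)
  have hinv2' : LT.IsInv N (p * N) (- redHom p (x₂ : Additive (Gamma0 N) →+ ℤ)) :=
    isInv_of_central hNq hcen (Φm.comp (twistDelta hNq)) _ (fun γ => by
      rw [AddMonoidHom.neg_apply, ← h2 γ]
      rfl)
  have hinv2 : LT.IsInv N (p * N) (redHom p (x₂ : Additive (Gamma0 N) →+ ℤ)) := by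
    intro s k hk hh
    have := hinv2' s k hk hh
    rw [AddMonoidHom.neg_apply, AddMonoidHom.neg_apply] at this
    exact neg_injective this
  have hE1 := LT.heckeTHom_eq_nsmul_of_invariant hℓ hℓN hNm hℓ1 _
    (isParabolicHom_redHom (p := p) x₁) hinv1
  have hE2 := LT.heckeTHom_eq_nsmul_of_invariant hℓ hℓN hNm hℓ1 _
    (isParabolicHom_redHom (p := p) x₂) hinv2
  have conv : ∀ x : parabolicHoms ℤ (Gamma0 N) ℤ,
      ((H85.heckeTPar ℤ ℤ hℓ hℓN x - ((ℓ : ℤ) + 1) • x : parabolicHoms ℤ (Gamma0 N) ℤ) :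
        Additive (Gamma0 N) →+ ℤ)
      = H85.heckeTHom ℤ hℓ hℓN (x : Additive (Gamma0 N) →+ ℤ) -
          (ℓ + 1) • (x : Additive (Gamma0 N) →+ ℤ) := by
    intro x
    rw [Submodule.coe_sub, Submodule.coe_smul, H85.coe_heckeTPar_apply]
    congr 1
  constructor
  · apply mem_pSub_parabolicHoms_of_forall_dvd hp.out.ne_zero
    intro γ
    rw [conv]
    exact forall_dvd_of_heckeTHom_redHom_eq hℓ hℓN _ hE1 γ
  · apply mem_pSub_parabolicHoms_of_forall_dvd hp.out.ne_zero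
    intro γ
    rw [conv]
    exact forall_dvd_of_heckeTHom_redHom_eq hℓ hℓN _ hE2 γ

end

end Fermat.Agent.S41.H49
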