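import Fermat.Agent.S41.H38_CSPCentral
import Fermat.Agent.S41.H57_CSP_TheoremT
import Fermat.Agent.S41.H49_Ihara

/-!
# Package (D) of S41, final form (helper57): the congruence subgroup property `CspAb`, unconditional

`cspAb : p ≠ 2 → 0 < N → N.Coprime q → p ≠ q → H49.CspAb N q p` (`p, q` primes): every character
`Γ₀(N)[1/q] → 𝔽_p` kills `Γ(p N)`.  Assembly of helper38's `H38.csp_ab_of_T` (Theorem I =
centrality + glue) with `H57.theoremT` (Theorem T).
-/

set_option autoImplicit false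

open Matrix CongruenceSubgroup
open scoped MatrixGroups

namespace Fermat.Agent.S41.H57

/-- **(D) CSP, consumed shape, unconditional.** -/
theorem cspAb {N q p : ℕ} [hq : Fact q.Prime] [hp : Fact p.Prime] (hp2 : p ≠ 2) (hN : 0 < N)
    (hNq : Nat.Coprime N q) (hpq : p ≠ q) : H49.CspAb N q p :=
  fun Φ γ hγ hγ' => H38.csp_ab_of_T hN hNq hpq Φ (theoremT hp.out hp2) γ hγ hγ'

/-- The same, unfolded. -/
theorem csp_ab {N q p : ℕ} [hq : Fact q.Prime] [hp : Fact p.Prime] (hp2 : p ≠ 2) (hN : 0 < N)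
    (hNq : Nat.Coprime N q) (hpq : p ≠ q)
    (Φ : ↥(H58.Delta N q) →* Multiplicative (ZMod p)) (γ : SL(2, ℤ)) (hγ : γ ∈ Gamma (p * N))
    (hγ' : H58.castQ γ ∈ H58.Delta N q) : Φ ⟨H58.castQ γ, hγ'⟩ = 1 :=
  cspAb hp2 hN hNq hpq Φ γ hγ hγ'

end Fermat.Agent.S41.H57
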