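import Mathlib
import Fermat.Agent.S41.H43_CuspSum
import Fermat.Agent.S41.H69_ParabolicConj
import Fermat.Agent.S41.H98_PDModel

/-!
# S41 / P-int / P4 (AdW), abstract half: the bijection of `⟨t⟩`-orbits on `G ⧸ Γ` induced by an
injective endomorphism of `Γ` preserving the primitive positive "parabolic" elements

`G` a group, `Γ ≤ G` of finite index, `t : G`.  For `h : G` put
`per Γ t h = h⁻¹ t ^ n h ∈ Γ`, `n` the minimal period of `h Γ` under `t`.
The `Γ`-conjugacy class of `per Γ t h` only depends on the `⟨t⟩`-orbit of `h Γ`, and under the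
centraliser hypothesis `hC` it determines that orbit.  Hence an injective endomorphism `c` of `Γ`
mapping every `per h` to some `per h'` induces a bijection of the orbits.
-/

set_option autoImplicit false

namespace Fermat.Agent.S41.H58

open MulAction Subgroup

section Per

variable {G : Type*} [Group G] (Γ : Subgroup G) (t : G)

theorem per_mem (h : G) :
    h⁻¹ * t ^ Function.minimalPeriod (t • ·) ((h : G) : G ⧸ Γ) * h ∈ Γ := by
  rw [mul_assoc, ← QuotientGroup.eq, ← smul_eq_mul (a := t ^ _), ← MulAction.Quotient.smul_coe,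
    eq_comm, MulAction.pow_smul_eq_iff_minimalPeriod_dvd]

/-- The primitive positive `t`-parabolic element `h⁻¹ t ^ n h` of `Γ` attached to `h : G`. -/
noncomputable def per (h : G) : Γ :=
  ⟨h⁻¹ * t ^ Function.minimalPeriod (t • ·) ((h : G) : G ⧸ Γ) * h, per_mem Γ t h⟩

theorem coe_per (h : G) :
    (per Γ t h : G) = h⁻¹ * t ^ Function.minimalPeriod (t • ·) ((h : G) : G ⧸ Γ) * h := rfl

theorem minimalPeriod_zpow_smul (k : ℤ) (x : G ⧸ Γ) :
    Function.minimalPeriod (t • ·) (t ^ k • x) = Function.minimalPeriod (t • ·) x := by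
  rw [Function.minimalPeriod_eq_minimalPeriod_iff]
  intro n
  rw [MulAction.isPeriodicPt_smul_iff, MulAction.isPeriodicPt_smul_iff, ← mul_smul,
    ← zpow_natCast, (Commute.zpow_zpow_self t (n : ℤ) k).eq, mul_smul, smul_left_cancel_iff]

theorem per_mul_right (h : G) (γ : Γ) : per Γ t (h * γ) = γ⁻¹ * per Γ t h * γ := by
  have hx : ((h * (γ : G) : G) : G ⧸ Γ) = (h : G ⧸ Γ) := by
    rw [QuotientGroup.eq]
    simp
  apply Subtype.ext
  simp only [coe_per, hx, Subgroup.coe_mul, Subgroup.coe_inv, mul_inv_rev]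
  group

theorem per_zpow_mul (k : ℤ) (h : G) : per Γ t (t ^ k * h) = per Γ t h := by
  have hx : ((t ^ k * h : G) : G ⧸ Γ) = t ^ k • (h : G ⧸ Γ) := rfl
  apply Subtype.ext
  simp only [coe_per, hx, minimalPeriod_zpow_smul, mul_inv_rev]
  have hc : t ^ k * t ^ Function.minimalPeriod (t • ·) ((h : G) : G ⧸ Γ)
      = t ^ Function.minimalPeriod (t • ·) ((h : G) : G ⧸ Γ) * t ^ k := by
    rw [← zpow_natCast]
    exact (Commute.zpow_zpow_self t k _).eq
  calc h⁻¹ * (t ^ k)⁻¹ * t ^ Function.minimalPeriod (t • ·) ((h : G) : G ⧸ Γ) * (t ^ k * h)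
      = h⁻¹ * (t ^ k)⁻¹ * (t ^ Function.minimalPeriod (t • ·) ((h : G) : G ⧸ Γ) * t ^ k) * h := by
        group
    _ = h⁻¹ * (t ^ k)⁻¹ * (t ^ k * t ^ Function.minimalPeriod (t • ·) ((h : G) : G ⧸ Γ)) * h := by
        rw [hc]
    _ = h⁻¹ * t ^ Function.minimalPeriod (t • ·) ((h : G) : G ⧸ Γ) * h := by group

/-- same `⟨t⟩`-orbit ⇒ conjugate in `Γ`. -/
theorem per_conj_of_orbit {h₁ h₂ : G}
    (h : (h₂ : G ⧸ Γ) ∈ MulAction.orbit (zpowers t) ((h₁ : G) : G ⧸ Γ)) :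
    ∃ γ : Γ, per Γ t h₂ = γ⁻¹ * per Γ t h₁ * γ := by
  obtain ⟨⟨_, k, rfl⟩, hk⟩ := h
  change t ^ k • ((h₁ : G) : G ⧸ Γ) = (h₂ : G ⧸ Γ) at hk
  rw [MulAction.Quotient.smul_coe, smul_eq_mul, QuotientGroup.eq] at hk
  refine ⟨⟨_, hk⟩, ?_⟩
  have e : h₂ = t ^ k * h₁ * ((t ^ k * h₁)⁻¹ * h₂) := by group
  conv_lhs => rw [e]
  rw [show t ^ k * h₁ * ((t ^ k * h₁)⁻¹ * h₂) = (t ^ k * h₁) * ((⟨_, hk⟩ : Γ) : G) from rfl,
    per_mul_right, per_zpow_mul]

end Per

section Bij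

variable {G : Type*} [Group G] (Γ : Subgroup G) [Γ.FiniteIndex] (t : G)

theorem minimalPeriod_smul_pos (x : G ⧸ Γ) : 0 < Function.minimalPeriod (t • ·) x := by
  have : Finite (G ⧸ Γ) := Subgroup.finite_quotient_of_finiteIndex
  exact Function.minimalPeriod_pos_of_mem_periodicPts
    (Function.Injective.mem_periodicPts (MulAction.injective t) x)

/-- the centraliser hypothesis: an element conjugating a positive power of `t` to a positive
power of `t` acts on `G ⧸ Γ` like a power of `t`. -/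
def CentHyp : Prop :=
  ∀ (g : G) (m n : ℕ), 0 < m → 0 < n → g * t ^ m * g⁻¹ = t ^ n →
    ∃ k : ℤ, ∀ x : G ⧸ Γ, g • x = t ^ k • x

variable {Γ t}

/-- conjugate in `Γ` ⇒ same `⟨t⟩`-orbit (under the centraliser hypothesis). -/
theorem orbit_of_per_conj (hC : CentHyp Γ t) {h₁ h₂ : G} {γ : Γ}
    (h : per Γ t h₂ = γ⁻¹ * per Γ t h₁ * γ) :
    (h₂ : G ⧸ Γ) ∈ MulAction.orbit (zpowers t) ((h₁ : G) : G ⧸ Γ) := by
  rw [← per_mul_right] at h
  have hx : ((h₁ * (γ : G) : G) : G ⧸ Γ) = (h₁ : G ⧸ Γ) := by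
    rw [QuotientGroup.eq]
    simp
  obtain ⟨h₁', hh₁'⟩ : ∃ h₁' : G, h₁' = h₁ * (γ : G) := ⟨_, rfl⟩
  rw [← hh₁'] at h hx
  have hG : h₂⁻¹ * t ^ Function.minimalPeriod (t • ·) ((h₂ : G) : G ⧸ Γ) * h₂
      = h₁'⁻¹ * t ^ Function.minimalPeriod (t • ·) ((h₁' : G) : G ⧸ Γ) * h₁' :=
    congrArg Subtype.val h
  obtain ⟨k, hk⟩ := hC (h₂ * h₁'⁻¹) _ _ (minimalPeriod_smul_pos Γ t (h₁' : G ⧸ Γ))
    (minimalPeriod_smul_pos Γ t (h₂ : G ⧸ Γ)) (by
      have e : h₂ * h₁'⁻¹ * t ^ Function.minimalPeriod (t • ·) ((h₁' : G) : G ⧸ Γ) * (h₂ * h₁'⁻¹)⁻¹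
          = h₂ * (h₁'⁻¹ * t ^ Function.minimalPeriod (t • ·) ((h₁' : G) : G ⧸ Γ) * h₁') * h₂⁻¹ := by
        group
      rw [e, ← hG]
      group)
  refine ⟨⟨t ^ k, k, rfl⟩, ?_⟩
  change t ^ k • ((h₁ : G) : G ⧸ Γ) = (h₂ : G ⧸ Γ)
  rw [← hx, ← hk, MulAction.Quotient.smul_coe, smul_eq_mul, inv_mul_cancel_right]

/-- **the orbit bijection**: a bijective endomorphism `c` of `Γ` mapping every `per h` to some
`per h'` permutes the `⟨t⟩`-orbits on `G ⧸ Γ`, compatibly with `per` up to `Γ`-conjugacy. -/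
theorem exists_orbit_equiv (hC : CentHyp Γ t) (c : Γ →* Γ) (hc : Function.Bijective c)
    (hP : ∀ h : G, ∃ h' : G, c (per Γ t h) = per Γ t h') :
    ∃ e : Quotient (orbitRel (zpowers t) (G ⧸ Γ)) ≃ Quotient (orbitRel (zpowers t) (G ⧸ Γ)),
      ∀ j : Quotient (orbitRel (zpowers t) (G ⧸ Γ)),
        ∃ γ : Γ, c (per Γ t j.out.out) = γ * per Γ t (e j).out.out * γ⁻¹ := by
  classical
  have hfin : Finite (G ⧸ Γ) := Subgroup.finite_quotient_of_finiteIndex
  have hfinJ : Finite (Quotient (orbitRel (zpowers t) (G ⧸ Γ))) := Quotient.finite _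
  choose H hH using hP
  -- the map on orbits
  let e₀ : Quotient (orbitRel (zpowers t) (G ⧸ Γ)) → Quotient (orbitRel (zpowers t) (G ⧸ Γ)) :=
    fun j => Quotient.mk _ ((H j.out.out : G) : G ⧸ Γ)
  have hout : ∀ j : Quotient (orbitRel (zpowers t) (G ⧸ Γ)),
      ((j.out.out : G) : G ⧸ Γ) = j.out := fun j => QuotientGroup.out_eq' _
  -- the representative of `e₀ j` is in the orbit of `H j.out.out`
  have hrep : ∀ j, (((e₀ j).out.out : G) : G ⧸ Γ) ∈
      MulAction.orbit (zpowers t) (((H j.out.out : G) : G) : G ⧸ Γ) := by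
    intro j
    rw [hout]
    have : Quotient.mk (orbitRel (zpowers t) (G ⧸ Γ)) (e₀ j).out = e₀ j := Quotient.out_eq _
    exact Quotient.exact this
  have hconj : ∀ j, ∃ γ : Γ, c (per Γ t j.out.out) = γ * per Γ t (e₀ j).out.out * γ⁻¹ := by
    intro j
    obtain ⟨γ, hγ⟩ := per_conj_of_orbit Γ t (hrep j)
    refine ⟨γ, ?_⟩
    rw [hH, hγ]
    group
  have hinj : Function.Injective e₀ := by
    intro j₁ j₂ h12
    -- `H j₂.out.out` is in the orbit of `H j₁.out.out`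
    have horb : (((H j₂.out.out : G) : G) : G ⧸ Γ) ∈
        MulAction.orbit (zpowers t) (((H j₁.out.out : G) : G) : G ⧸ Γ) :=
      Quotient.exact h12.symm
    obtain ⟨γ, hγ⟩ := per_conj_of_orbit Γ t horb
    rw [← hH, ← hH] at hγ
    obtain ⟨δ, rfl⟩ := hc.2 γ
    rw [← map_inv, ← map_mul, ← map_mul] at hγ
    have h2 := hc.1 hγ
    have h3 := orbit_of_per_conj hC h2
    rw [hout, hout] at h3
    have h4 : Quotient.mk (orbitRel (zpowers t) (G ⧸ Γ)) j₂.out
        = Quotient.mk (orbitRel (zpowers t) (G ⧸ Γ)) j₁.out := Quotient.sound h3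
    rw [Quotient.out_eq, Quotient.out_eq] at h4
    exact h4.symm
  exact ⟨Equiv.ofBijective e₀ ⟨hinj, Finite.injective_iff_surjective.mp hinj⟩, hconj⟩

end Bij

/-! ### Consequence for the cusp sum of `H43_CuspSum` -/

section CuspSum

variable {G : Type} [Group G] (Γ : Subgroup G) [Γ.FiniteIndex] (t : G)
  [Fintype (Quotient (orbitRel (zpowers t) (G ⧸ Γ)))]

/-- the cusp sum of `H43_CuspSum` in terms of `per`. -/
theorem cuspSum_eq_sum_per (κ : Γ → ℚ) :
    H43.cuspSum Γ t κ = ∑ q : Quotient (orbitRel (zpowers t) (G ⧸ Γ)), κ (per Γ t q.out.out) := by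
  unfold H43.cuspSum
  refine Finset.sum_congr rfl fun q _ => ?_
  congr 1
  apply Subtype.ext
  rw [coe_per, QuotientGroup.out_eq']

variable {Γ t}

/-- **invariance of the cusp sum** under a bijective endomorphism of `Γ` preserving the elements
`per h`, for functions `κ` that are conjugation invariant on these elements. -/
theorem cuspSum_comp_eq (hC : CentHyp Γ t) (c : Γ →* Γ) (hc : Function.Bijective c)
    (hP : ∀ h : G, ∃ h' : G, c (per Γ t h) = per Γ t h') (κ : Γ → ℚ)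
    (hκ : ∀ (h : G) (γ : Γ), κ (γ * per Γ t h * γ⁻¹) = κ (per Γ t h)) :
    H43.cuspSum Γ t (κ ∘ c) = H43.cuspSum Γ t κ := by
  obtain ⟨e, he⟩ := exists_orbit_equiv hC c hc hP
  rw [cuspSum_eq_sum_per, cuspSum_eq_sum_per, ← Equiv.sum_comp e (fun q => κ (per Γ t q.out.out))]
  refine Finset.sum_congr rfl fun q _ => ?_
  obtain ⟨γ, hγ⟩ := he q
  rw [Function.comp_apply, hγ, hκ]

end CuspSum

/-! ### The centraliser hypothesis for `SL(2,ℤ)` and `T` -/

section SL2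

open scoped MatrixGroups

theorem sl2_centHyp (Γ : Subgroup SL(2, ℤ)) (hneg : (-1 : SL(2, ℤ)) ∈ Γ) :
    CentHyp Γ ModularGroup.T := by
  intro g m n _ hn h
  -- `g T^m = T^n g`; compare the `(0,0)` entries
  have h1 : g * ModularGroup.T ^ m = ModularGroup.T ^ n * g := by
    rw [← h]
    group
  have h2 := congrArg (fun x : SL(2, ℤ) => (x : Matrix (Fin 2) (Fin 2) ℤ) 0 0) h1
  simp only [Matrix.SpecialLinearGroup.coe_mul] at h2
  rw [← zpow_natCast, ← zpow_natCast, ModularGroup.coe_T_zpow, ModularGroup.coe_T_zpow] at h2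
  simp only [Matrix.mul_apply, Fin.sum_univ_two, Matrix.of_apply, Matrix.cons_val_zero,
    Matrix.cons_val_one, Matrix.cons_val', Matrix.cons_val_fin_one] at h2
  have h3 : g 1 0 = 0 := by
    have hn' : (n : ℤ) ≠ 0 := by exact_mod_cast hn.ne'
    have : (n : ℤ) * g 1 0 = 0 := by
      linarith
    exact (mul_eq_zero.mp this).resolve_left hn'
  obtain ⟨k, hk | hk⟩ := H69.eq_T_zpow_or_neg_of_lower_left_eq_zero g h3
  · exact ⟨k, fun x => by rw [hk]⟩
  · refine ⟨k, fun x => ?_⟩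
    rw [hk, show -(ModularGroup.T ^ k) = (-1 : SL(2, ℤ)) * ModularGroup.T ^ k by
      rw [neg_mul, one_mul], mul_smul, H98.neg_one_smul Γ hneg]

end SL2

end Fermat.Agent.S41.H58
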