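import Mathlib
import Fermat.Agent.S41.H58_PDDict
import Fermat.Agent.S41.H98_PDDict2
import Fermat.Agent.S41.H69_SL2ZPresentation
import Fermat.Agent.S41.H69_ParabolicConj

/-!
# S41 / P-int / P2 : the unconditional Poincaré duality pairing on `parabolicHoms ℤ Γ ℤ`

`H98_PDDict2` constructs `pd` and proves `pd_nondeg` from three named hypotheses:
`HasReps` (= (D1), proved in `H58_PDDict`), `HasPresentation` and `HasParabolicForm`
(= P0, proved in `H69_SL2ZPresentation` / `H69_ParabolicConj`).  Here they are discharged.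
-/

set_option autoImplicit false

namespace Fermat.Agent.S41.H58

open scoped MatrixGroups
open ModularCurve.Period
open Fermat.Agent.S41.H98

/-- (D1) in the shape of `H98.HasReps`. -/
theorem hasReps (Γ : Subgroup SL(2, ℤ)) [Γ.FiniteIndex] (hneg : (-1 : SL(2, ℤ)) ∈ Γ) :
    HasReps Γ hneg :=
  fun _ hφ => exists_rep Γ hneg hφ

/-- P0 (presentation) in the shape of `H98.HasPresentation`. -/
theorem hasPresentation : HasPresentation := by
  intro E _ s u hs hu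
  obtain ⟨F, ⟨hF1, hF2⟩, -⟩ := H69.existsUnique_hom_negU s u hs hu
  refine ⟨F, hF1, ?_⟩
  have e : -mU = ModularGroup.S ^ 2 * (ModularGroup.T * ModularGroup.S⁻¹) := by decide
  rw [e]
  exact hF2

/-- P0 (parabolic elements) in the shape of `H98.HasParabolicForm`. -/
theorem hasParabolicForm : HasParabolicForm := by
  intro g hg
  obtain ⟨δ, n, h⟩ := H69.exists_conj_T_zpow g hg
  exact ⟨δ, n, h⟩

section PD

variable (Γ : Subgroup SL(2, ℤ)) [Γ.FiniteIndex] (hneg : (-1 : SL(2, ℤ)) ∈ Γ)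

/-- **The Poincaré duality pairing** on `parabolicHoms ℤ Γ ℤ` (unconditional). -/
noncomputable def pdΓ : parabolicHoms ℤ Γ ℤ →ₗ[ℤ] parabolicHoms ℤ Γ ℤ →ₗ[ℤ] ℤ :=
  H98.pd Γ hneg (hasReps Γ hneg)

/-- `pdΓ` computed with arbitrary representing vectors. -/
theorem pdΓ_eq (φ ψ : parabolicHoms ℤ Γ ℤ) {v w v' : Cos Γ → ℤ} (hv : Rep Γ φ.1 v)
    (hw : (modelData Γ hneg ℤ).IsWit v w) (hv' : Rep Γ ψ.1 v') :
    pdΓ Γ hneg φ ψ = (modelData Γ hneg ℤ).Bw w v' :=
  H98.pd_eq Γ hneg (hasReps Γ hneg) φ ψ hv hw hv'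

theorem pdΓ_antisymm (φ ψ : parabolicHoms ℤ Γ ℤ) : pdΓ Γ hneg φ ψ = - pdΓ Γ hneg ψ φ :=
  H98.pd_antisymm Γ hneg (hasReps Γ hneg) φ ψ

/-- **Poincaré duality mod `p`** for every prime `p`. -/
theorem pdΓ_nondeg (p : ℕ) [Fact p.Prime] (φ : parabolicHoms ℤ Γ ℤ)
    (hdiv : ∀ ψ : parabolicHoms ℤ Γ ℤ, (p : ℤ) ∣ pdΓ Γ hneg φ ψ) :
    ∃ φ₁ : parabolicHoms ℤ Γ ℤ, φ = (p : ℤ) • φ₁ :=
  H98.pd_nondeg Γ hneg (hasReps Γ hneg) hasPresentation hasParabolicForm p φ hdiv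

/-- every parabolic vector represents a parabolic homomorphism (unconditional (D3)). -/
theorem exists_hom_of_isWit' {v w : Cos Γ → ℤ} (hw : (modelData Γ hneg ℤ).IsWit v w) :
    ∃ φ : Additive Γ →+ ℤ, IsParabolicHom Γ φ ∧ Rep Γ φ v :=
  H98.exists_hom_of_isWit Γ hneg hasPresentation hasParabolicForm hw

end PD

end Fermat.Agent.S41.H58
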