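import Mathlib
import Fermat.Agent.S41.H60_PDPair
import Fermat.Agent.S41.H46_PDFarey
import Fermat.Agent.S41.H41_PDOr

/-!
# S41 / package P: the concrete Farey setting `SL(2,ℤ) ↷ ℙ¹(ℚ) = OnePoint ℚ`

`g • x := mapGL ℚ g • x` (Mathlib's Möbius action of `GL (Fin 2) ℚ` on `OnePoint ℚ`).
We instantiate `FareyData`, `HasPrim` (helper46), generation, transitivity and the orientation
cocycle (helper41).
-/

set_option autoImplicit false

open scoped MatrixGroups
open Matrix ModularGroup OnePoint SpecialLinearGroup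

namespace Fermat.Agent.S41.H60

/-- `SL(2,ℤ)` acts on `ℙ¹(ℚ)` through `mapGL ℚ`.  (Not a global instance.) -/
@[reducible] noncomputable def sl2zAction : MulAction SL(2, ℤ) (OnePoint ℚ) :=
  MulAction.compHom (OnePoint ℚ) (mapGL ℚ : SL(2, ℤ) →* GL (Fin 2) ℚ)

attribute [local instance] sl2zAction

lemma sl2z_smul_def (g : SL(2, ℤ)) (x : OnePoint ℚ) : g • x = mapGL ℚ g • x := rfl

lemma R_cube : (H46.R * H46.R * H46.R : SL(2, ℤ)) = 1 := by
  ext i j
  fin_cases i <;> fin_cases j <;>
    simp [H46.coe_R, Matrix.mul_apply, Fin.sum_univ_two]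

/-- The concrete Farey datum. -/
noncomputable def farey : FareyData SL(2, ℤ) (OnePoint ℚ) where
  S := S
  R := H46.R
  oo := ∞
  z := -1
  S_sq := H46.S_mul_S
  R_cube := R_cube
  z_comm := fun g => by simp
  z_smul := fun x => by
    rw [sl2z_smul_def, H46.neg_smul' 1 x, map_one, one_smul]
  R_oo := by
    rw [sl2z_smul_def, sl2z_smul_def, H46.R_smul_infty, H46.S_smul_infty]

@[simp] lemma farey_S : farey.S = S := rfl
@[simp] lemma farey_R : farey.R = H46.R := rfl
@[simp] lemma farey_oo : farey.oo = ∞ := rfl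
@[simp] lemma farey_z : farey.z = -1 := rfl

lemma farey_zero : farey.zero = ((0 : ℚ) : OnePoint ℚ) := by
  rw [FareyData.zero, farey_S, farey_oo, sl2z_smul_def, H46.S_smul_infty]

lemma farey_one : farey.one = ((1 : ℚ) : OnePoint ℚ) := by
  have h := farey.R_zero
  rw [farey_zero, farey_R, sl2z_smul_def, H46.R_smul_zero] at h
  exact h.symm

/-- **(FAREY)** for the concrete datum (helper46). -/
theorem farey_hasPrim (A : Type) [AddCommGroup A] : farey.HasPrim A := by
  intro ω hS hR
  obtain ⟨f, hf⟩ := H46.exists_farey_primitive ω hS hR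
  refine ⟨f, fun g => ?_⟩
  rw [farey_zero, farey_oo, sl2z_smul_def, sl2z_smul_def]
  exact hf g

/-- generation of `SL(2,ℤ)` by `S` and `R = S T⁻¹` -/
theorem farey_gen : Subgroup.closure {farey.S, farey.R} = (⊤ : Subgroup SL(2, ℤ)) := by
  rw [eq_top_iff, ← SpecialLinearGroup.SL2Z_generators, Subgroup.closure_le]
  rintro x (rfl | hx)
  · exact Subgroup.subset_closure (Set.mem_insert _ _)
  · rw [Set.mem_singleton_iff] at hx
    subst hx
    have hS : (S : SL(2, ℤ)) ∈ Subgroup.closure {farey.S, farey.R} :=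
      Subgroup.subset_closure (Set.mem_insert _ _)
    have hR : H46.R ∈ Subgroup.closure {farey.S, farey.R} :=
      Subgroup.subset_closure (Set.mem_insert_of_mem _ rfl)
    have : (T : SL(2, ℤ)) = H46.R⁻¹ * S := by
      rw [H46.R, _root_.mul_inv_rev, inv_inv, mul_assoc, inv_mul_cancel, mul_one]
    rw [this]
    exact Subgroup.mul_mem _ (Subgroup.inv_mem _ hR) hS

/-- transitivity on cusps -/
theorem farey_trans (x : OnePoint ℚ) : ∃ g : SL(2, ℤ), g • farey.oo = x :=
  H46.exists_smul_infty_eq x

/-- the orientation cocycle (helper41), `ℚ`-valued -/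
noncomputable def orQ (a b c : OnePoint ℚ) : ℚ := (H41.orientation a b c : ℚ)

/-- invariance of `orQ` under elements of `GL (Fin 2) ℚ` of positive determinant -/
lemma orQ_smul_of_det_pos (g : GL (Fin 2) ℚ) (hg : 0 < (g : Matrix (Fin 2) (Fin 2) ℚ).det)
    (a b c : OnePoint ℚ) : orQ (g • a) (g • b) (g • c) = orQ a b c := by
  rw [orQ, orQ, H41.orientation_smul_of_det_pos g hg]

theorem farey_orientation : farey.IsOrientation orQ where
  alt := by
    refine ⟨fun x y z => ?_, fun x y z => ?_⟩
    · rw [orQ, orQ, H41.orientation_swap₁₂ y x z]; push_cast; ring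
    · rw [orQ, orQ, H41.orientation_swap₂₃ x z y]; push_cast; ring
  coc := by
    intro x y z w
    have h := H41.orientation_cocycle x y z w
    simp only [orQ]
    exact_mod_cast h
  inv := by
    intro g x y z
    rw [orQ, orQ, sl2z_smul_def, sl2z_smul_def, sl2z_smul_def, H41.orientation_mapGL_smul]
  norm := by
    rw [farey_zero, farey_one, farey_oo, orQ, H41.orientation_zero_one_infty]
    norm_num

end Fermat.Agent.S41.H60
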