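import Mathlib
import Fermat.Agent.S41.H60_PDInst

/-!
# S41 / package P: adjointness of pull-back and push-forward along `δ ∈ GL₂⁺(ℚ)`,
at the level of cusp primitives on `ℙ¹(ℚ) = OnePoint ℚ`
-/

set_option autoImplicit false

open scoped MatrixGroups
open Matrix ModularGroup OnePoint SpecialLinearGroup

namespace Fermat.Agent.S41.H60

attribute [local instance] sl2zAction

/-- **ADJOINTNESS** (paper proof #1458): let `δ ∈ GL₂(ℚ)` have positive determinant, let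
`Γ' , Γ₁ ≤ Γ` be subgroups of `SL(2,ℤ)` with `δ Γ' δ⁻¹ = Γ₁` (as permutations of `ℙ¹(ℚ)`), of the
same finite index, `-1 ∈ Γ₁`, and let `g j` be representatives of `Γ₁ \ Γ`.  If `Fφ` is a cusp
primitive for `Γ` and `Fψ` one for `Γ'`, then
`pair_{Γ'} (Fφ ∘ δ, Fψ) = pair_Γ (Fφ, ∑ⱼ Fψ ∘ δ⁻¹ ∘ gⱼ)`. -/
theorem pairQ_adjoint (Γ' Γ₁ Γ : Subgroup SL(2, ℤ))
    [Fintype (SL(2, ℤ) ⧸ Γ')] [Fintype (SL(2, ℤ) ⧸ Γ₁)] [Fintype (SL(2, ℤ) ⧸ Γ)]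
    (δ : GL (Fin 2) ℚ) (hδ : 0 < (δ : Matrix (Fin 2) (Fin 2) ℚ).det)
    (hconj : ∀ γ' ∈ Γ', ∃ γ₁ ∈ Γ₁, ∀ x : OnePoint ℚ, δ • (mapGL ℚ γ' • x) = mapGL ℚ γ₁ • (δ • x))
    (hconj' : ∀ γ₁ ∈ Γ₁, ∃ γ' ∈ Γ', ∀ x : OnePoint ℚ,
      δ⁻¹ • (mapGL ℚ γ₁ • x) = mapGL ℚ γ' • (δ⁻¹ • x))
    (hneg : (-1 : SL(2, ℤ)) ∈ Γ₁) (hle : Γ₁ ≤ Γ)
    (hcard : Fintype.card (SL(2, ℤ) ⧸ Γ₁) = Fintype.card (SL(2, ℤ) ⧸ Γ'))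
    {J : Type*} [Fintype J] (g : J → SL(2, ℤ)) (hg : ∀ j, g j ∈ Γ)
    (hrep : ∀ γ ∈ Γ, ∃! j, γ * (g j)⁻¹ ∈ Γ₁)
    {Fφ Fψ : OnePoint ℚ → ℤ} (hFφ : IsQI Γ Fφ) (hFψ : IsQI Γ' Fψ) :
    farey.pairQ Γ' (fun x => Fφ (δ • x)) Fψ
      = farey.pairQ Γ Fφ (fun x => ∑ j, Fψ (δ⁻¹ • (mapGL ℚ (g j) • x))) := by
  -- the primitive `Fψ ∘ δ⁻¹` for `Γ₁`
  set F₂ : OnePoint ℚ → ℤ := fun x => Fψ (δ⁻¹ • x) with hF₂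
  have hF₂QI : IsQI Γ₁ F₂ := by
    intro γ₁ hγ₁
    obtain ⟨γ', hγ', h⟩ := hconj' γ₁ hγ₁
    obtain ⟨c, hc⟩ := hFψ γ' hγ'
    refine ⟨c, fun x => ?_⟩
    simp only [hF₂]
    rw [sl2z_smul_def, h, ← sl2z_smul_def, hc]
  have h1 := farey.pairQ_pullback Γ' Γ₁ (farey_hasPrim ℚ) farey_gen farey_trans hneg
    farey_orientation (fun x => δ • x) (fun x y z => orQ_smul_of_det_pos δ hδ x y z)
    (fun γ' hγ' => by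
      obtain ⟨γ₁, hγ₁, h⟩ := hconj γ' hγ'
      exact ⟨γ₁, hγ₁, fun x => h x⟩)
    (hFφ.mono hle) hF₂QI
  have h2 : (F₂ ∘ fun x => δ • x) = Fψ := by
    funext x
    simp only [hF₂, Function.comp_apply, inv_smul_smul]
  rw [h2, hcard] at h1
  have hne : (Fintype.card (SL(2, ℤ) ⧸ Γ') : ℚ) ≠ 0 := by
    have : 0 < Fintype.card (SL(2, ℤ) ⧸ Γ') := Fintype.card_pos
    exact_mod_cast this.ne'
  have h3 := mul_right_cancel₀ hne h1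
  have h4 := farey.pairQ_transfer Γ₁ Γ hle g hg hrep hFφ hF₂QI
  have h5 : (Fφ ∘ fun x => δ • x) = fun x => Fφ (δ • x) := rfl
  rw [h5] at h3
  rw [h3, ← h4]
  rfl

end Fermat.Agent.S41.H60
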