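import Mathlib
import Fermat.Agent.S14.H72_SplitCorollaries

set_option autoImplicit false

/-!
# Frobenius density, two-subgroup form (analytic half, union bound only)

For a cyclic Galois extension `L/E` of number fields and two proper subgroups `U₁ U₂` of
`Gal(L/E)` there is a prime of `E` of absolute degree one, outside any given finite set of
norms, which splits completely neither in `L^{U₁}` nor in `L^{U₂}`.  Only the union bound
`1/d₁ + 1/d₂ < 1` is used (no inclusion-exclusion, no composita): two proper subgroups of a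
cyclic group either coincide or have different indices `≥ 2`.
-/

namespace Fermat.Agent.S41.H64

open NumberField Ideal IsDedekindDomain
open Fermat.Agent.S14.H72

section Analytic

variable (E : Type*) [Field E] [NumberField E]

/-- Union bound: if `1/[F₁:E] + 1/[F₂:E] < 1` there is a degree-one prime of `E` outside `T`
which splits completely in neither `F₁` nor `F₂`. -/
theorem exists_degOne_not_mem_splitSet_two (F₁ F₂ : Type*) [Field F₁] [NumberField F₁]
    [Algebra E F₁] [IsGalois E F₁] [Field F₂] [NumberField F₂] [Algebra E F₂] [IsGalois E F₂]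
    (h : (1 : ℝ) / (Module.finrank E F₁ : ℝ) + 1 / (Module.finrank E F₂ : ℝ) < 1)
    (T : Finset (HeightOneSpectrum (𝓞 E))) :
    ∃ Q : HeightOneSpectrum (𝓞 E), Q ∉ splitSet E F₁ ∧ Q ∉ splitSet E F₂ ∧
      Q ∈ degOneSet E ∧ Q ∉ T := by
  obtain ⟨C0, hC0⟩ := exists_bound_tsum_primeTerm E
  obtain ⟨C1, hC1⟩ := exists_bound_splitSum E F₁
  obtain ⟨C2, hC2⟩ := exists_bound_splitSum E F₂
  obtain ⟨Q, -, hQ, hdeg, hT⟩ := exists_mem_diff_of_density E (A := Set.univ)
    (B := splitSet E F₁ ∪ splitSet E F₂) h
    ⟨C0, fun s hs => by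
      rw [setSum_univ]; have := (abs_le.mp (hC0 s hs)).1; linarith⟩
    ⟨C1 + C2, fun s hs => by
      have h0 := setSum_le_of_subset E (A := splitSet E F₁ ∪ splitSet E F₂)
        (B := splitSet E F₁) (C := splitSet E F₂) ∅
        (by intro x hx; exact Or.inl hx) hs.1
      rw [setSum_splitSet, setSum_splitSet] at h0
      have h1 := (abs_le.mp (hC1 s hs)).2
      have h2 := (abs_le.mp (hC2 s hs)).2
      simp only [Finset.card_empty, Nat.cast_zero, add_zero] at h0
      linarith⟩ T
  exact ⟨Q, fun h => hQ (Or.inl h), fun h => hQ (Or.inr h), hdeg, hT⟩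

end Analytic

section Group

variable {G : Type*} [Group G]

/-- In a cyclic group there is at most one subgroup of index two. -/
theorem eq_of_index_two [IsCyclic G] {U₁ U₂ : Subgroup G} (h₁ : U₁.index = 2)
    (h₂ : U₂.index = 2) : U₁ = U₂ := by
  obtain ⟨g, hg⟩ := IsCyclic.exists_generator (α := G)
  have key : ∀ U : Subgroup G, U.index = 2 → ∀ k : ℤ, g ^ k ∈ U ↔ Even k := by
    intro U hU k
    have hgU : g ∉ U := by
      intro hmem
      have : U = ⊤ := by
        rw [eq_top_iff]
        intro x _
        obtain ⟨n, rfl⟩ := Subgroup.mem_zpowers_iff.mp (hg x)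
        exact U.zpow_mem hmem n
      rw [this, Subgroup.index_top] at hU
      omega
    rcases Int.even_or_odd' k with ⟨m, rfl | rfl⟩
    · have : g ^ (2 * m) = (g ^ m) ^ 2 := by
        rw [← zpow_natCast, ← zpow_mul, mul_comm]; rfl
      rw [this]
      exact ⟨fun _ => ⟨m, by ring⟩, fun _ => Subgroup.sq_mem_of_index_two hU _⟩
    · have h2m : g ^ (2 * m) ∈ U := by
        have : g ^ (2 * m) = (g ^ m) ^ 2 := by
          rw [← zpow_natCast, ← zpow_mul, mul_comm]; rfl
        rw [this]; exact Subgroup.sq_mem_of_index_two hU _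
      rw [zpow_add_one, Subgroup.mul_mem_iff_of_index_two hU]
      constructor
      · intro h; exact absurd (h.mp h2m) hgU
      · intro h
        exfalso
        rcases h with ⟨r, hr⟩
        omega
  ext x
  obtain ⟨k, rfl⟩ := Subgroup.mem_zpowers_iff.mp (hg x)
  rw [key U₁ h₁ k, key U₂ h₂ k]

end Group

section Cyclic

variable {E : Type*} [Field E] [NumberField E]
variable (L : Type*) [Field L] [NumberField L] [Algebra E L] [IsGalois E L]

/-- every subgroup of a cyclic group is normal. -/
theorem normal_of_isCyclic {G : Type*} [Group G] [IsCyclic G] (U : Subgroup G) : U.Normal := by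
  let _ : CommGroup G := IsCyclic.commGroup
  exact ⟨fun n hn g => by rwa [mul_comm g n, mul_inv_cancel_right]⟩

theorem finrank_fixedField_eq_index (U : Subgroup Gal(L/E)) :
    Module.finrank E ↥(IntermediateField.fixedField U) = U.index := by
  rw [IntermediateField.finrank_eq_fixingSubgroup_index, IntermediateField.fixingSubgroup_fixedField]

omit [IsGalois E L] in
theorem two_le_index {U : Subgroup Gal(L/E)} (hU : U ≠ ⊤) : 2 ≤ U.index := by
  have h0 : U.index ≠ 0 := Subgroup.index_ne_zero_of_finite
  have h1 : U.index ≠ 1 := fun h => hU (Subgroup.index_eq_one.mp h)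
  omega

/-- **Two-subgroup Frobenius density (split-set form).**  `L/E` cyclic, `U₁ U₂` proper
subgroups of `Gal(L/E)`, `S` a finite set of integers: there is a prime `Q` of `E` whose
absolute norm is a rational prime outside `S` and which splits completely neither in
`L^{U₁}` nor in `L^{U₂}`. -/
theorem exists_prime_not_split_fixedField [IsCyclic Gal(L/E)] (U₁ U₂ : Subgroup Gal(L/E))
    (h₁ : U₁ ≠ ⊤) (h₂ : U₂ ≠ ⊤) (S : Finset ℕ) :
    haveI := normal_of_isCyclic U₁
    haveI := normal_of_isCyclic U₂
    ∃ Q : HeightOneSpectrum (𝓞 E), (absNorm Q.asIdeal).Prime ∧ absNorm Q.asIdeal ∉ S ∧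
      Q ∉ splitSet E ↥(IntermediateField.fixedField U₁) ∧
      Q ∉ splitSet E ↥(IntermediateField.fixedField U₂) := by
  have := normal_of_isCyclic U₁
  have := normal_of_isCyclic U₂
  have hd1 := two_le_index L h₁
  have hd2 := two_le_index L h₂
  set T := (finite_absNorm_mem E S).toFinset with hT
  have hTmem : ∀ Q : HeightOneSpectrum (𝓞 E), Q ∉ T → absNorm Q.asIdeal ∉ S := by
    intro Q hQ hS
    exact hQ (by rw [hT, Set.Finite.mem_toFinset]; exact hS)
  by_cases hboth : U₁.index = 2 ∧ U₂.index = 2
  · -- the two subgroups coincide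
    have heq : U₁ = U₂ := eq_of_index_two hboth.1 hboth.2
    subst heq
    have h2 : 2 ≤ Module.finrank E ↥(IntermediateField.fixedField U₁) := by
      rw [finrank_fixedField_eq_index]; exact hd1
    obtain ⟨Q, hQ, hdeg, hQT⟩ :=
      exists_degOne_not_mem_splitSet E ↥(IntermediateField.fixedField U₁) h2 T
    exact ⟨Q, hdeg, hTmem Q hQT, hQ, hQ⟩
  · have hlt : (1 : ℝ) / (Module.finrank E ↥(IntermediateField.fixedField U₁) : ℝ) +
        1 / (Module.finrank E ↥(IntermediateField.fixedField U₂) : ℝ) < 1 := by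
      rw [finrank_fixedField_eq_index, finrank_fixedField_eq_index]
      have hd1' : (2 : ℝ) ≤ (U₁.index : ℝ) := by exact_mod_cast hd1
      have hd2' : (2 : ℝ) ≤ (U₂.index : ℝ) := by exact_mod_cast hd2
      have h3 : (3 : ℝ) ≤ (U₁.index : ℝ) ∨ (3 : ℝ) ≤ (U₂.index : ℝ) := by
        by_contra hcon
        push Not at hcon
        have a1 : U₁.index < 3 := by exact_mod_cast hcon.1
        have a2 : U₂.index < 3 := by exact_mod_cast hcon.2
        exact hboth ⟨by omega, by omega⟩
      have hpos1 : (0 : ℝ) < (U₁.index : ℝ) := by linarith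
      have hpos2 : (0 : ℝ) < (U₂.index : ℝ) := by linarith
      rcases h3 with h3 | h3
      · have e1 : 1 / (U₁.index : ℝ) ≤ 1 / 3 := one_div_le_one_div_of_le (by norm_num) h3
        have e2 : 1 / (U₂.index : ℝ) ≤ 1 / 2 := one_div_le_one_div_of_le (by norm_num) hd2'
        linarith
      · have e1 : 1 / (U₁.index : ℝ) ≤ 1 / 2 := one_div_le_one_div_of_le (by norm_num) hd1'
        have e2 : 1 / (U₂.index : ℝ) ≤ 1 / 3 := one_div_le_one_div_of_le (by norm_num) h3
        linarith
    obtain ⟨Q, hQ1, hQ2, hdeg, hQT⟩ := exists_degOne_not_mem_splitSet_two E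
      ↥(IntermediateField.fixedField U₁) ↥(IntermediateField.fixedField U₂) hlt T
    exact ⟨Q, hdeg, hTmem Q hQT, hQ1, hQ2⟩

end Cyclic

end Fermat.Agent.S41.H64
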