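import Mathlib

/-!
# S41 / Hecke operators on `Hom(Γ, A)` : the abstract transfer formalism

A *transfer datum* on a group `Γ` is a right action of `Γ` on a finite set `ι` together with a
crossed cocycle `c : ι → Γ → Γ`, `c i (γ δ) = c i γ * c (i·γ) δ`.  It induces an endomorphism
`φ ↦ (γ ↦ ∑ᵢ φ (c i γ))` of `Hom(Γ, A)` for every abelian group `A`.

The main example: `Γ ≤ G`, `α : ι → G` representatives of `Γ \ D` for a right-`Γ`-stable set
`D = ⨆ᵢ Γ αᵢ`; then `c i γ = αᵢ γ α_{i·γ}⁻¹` and the endomorphism is the Hecke operator `[D]`.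
-/

set_option autoImplicit false
set_option linter.unusedSectionVars false

namespace Fermat.Agent.S41.H65

open scoped BigOperators

/-- If every cycle sum of `f` along a permutation `σ` vanishes, then `∑ f = 0`. -/
lemma sum_eq_zero_of_cycle_sums {ι A : Type*} [Fintype ι] [AddCommGroup A] (σ : Equiv.Perm ι)
    (f : ι → A)
    (h : ∀ i r, 0 < r → (σ ^ r) i = i → ∑ k ∈ Finset.range r, f ((σ ^ k) i) = 0) :
    ∑ i, f i = 0 := by
  classical
  let _ : DecidableRel (Equiv.Perm.SameCycle.setoid σ).r := fun _ _ => Classical.dec _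
  rw [Finset.sum_partition (Equiv.Perm.SameCycle.setoid σ)]
  refine Finset.sum_eq_zero fun xbar _ => ?_
  induction xbar using Quotient.inductionOn with
  | h i =>
    set r := Function.minimalPeriod σ i with hr
    have hfin : i ∈ Function.periodicPts σ := by
      have : IsOfFinOrder σ := isOfFinOrder_of_finite σ
      refine Function.mk_mem_periodicPts (orderOf_pos σ) ?_
      rw [Function.IsPeriodicPt, Function.IsFixedPt, ← Equiv.Perm.coe_pow, pow_orderOf_eq_one]
      rfl
    have hrpos : 0 < r := Function.minimalPeriod_pos_of_mem_periodicPts hfin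
    have hper : (σ ^ r) i = i := by
      have := Function.isPeriodicPt_minimalPeriod σ i
      rw [Function.IsPeriodicPt, Function.IsFixedPt] at this
      rw [Equiv.Perm.coe_pow]
      exact this
    have hset : (Finset.univ.filter fun y => (Quotient.mk (Equiv.Perm.SameCycle.setoid σ) y) =
        Quotient.mk _ i) = (Finset.range r).image (fun k => (σ ^ k) i) := by
      ext y
      simp only [Finset.mem_filter, Finset.mem_univ, true_and, Finset.mem_image, Finset.mem_range]
      constructor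
      · intro hy
        have hsc : Equiv.Perm.SameCycle σ i y := (Quotient.exact hy).symm
        obtain ⟨n, -, hn⟩ := hsc.exists_pow_eq'
        refine ⟨n % r, Nat.mod_lt _ hrpos, ?_⟩
        rw [← hn, Equiv.Perm.coe_pow, Equiv.Perm.coe_pow, hr, Function.iterate_mod_minimalPeriod_eq]
      · rintro ⟨k, -, rfl⟩
        apply Quotient.sound
        show Equiv.Perm.SameCycle σ ((σ ^ k) i) i
        rw [Equiv.Perm.sameCycle_pow_left]
    rw [hset, Finset.sum_image]
    · exact h i r hrpos hper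
    · intro a ha b hb hab
      have := Function.iterate_injOn_Iio_minimalPeriod (f := σ) (x := i)
      simp only [Equiv.Perm.coe_pow] at hab
      exact this (by simpa using ha) (by simpa using hb) hab

/-- A transfer datum from `Γ₁` to `Γ₂`: a right action of `Γ₂` on `ι` (`act γ i = i·γ`) and a
crossed cocycle `c : ι → Γ₂ → Γ₁`.  (For Hecke operators `Γ₁ = Γ₂`; for restriction,
corestriction and degeneracy maps the two groups differ.) -/
structure TransferDatum (Γ₁ Γ : Type*) [Group Γ₁] [Group Γ] (ι : Type*) where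
  act : Γ → Equiv.Perm ι
  c : ι → Γ → Γ₁
  act_mul : ∀ γ δ i, act (γ * δ) i = act δ (act γ i)
  c_mul : ∀ i γ δ, c i (γ * δ) = c i γ * c (act γ i) δ

namespace TransferDatum

variable {Γ₁ Γ : Type*} [Group Γ₁] [Group Γ] {ι : Type*} (D : TransferDatum Γ₁ Γ ι)

@[simp] lemma act_one (i : ι) : D.act 1 i = i := by
  have h := D.act_mul 1 1 i
  rw [mul_one] at h
  exact ((D.act 1).injective h).symm

@[simp] lemma c_one (i : ι) : D.c i 1 = 1 := by
  have h := D.c_mul i 1 1
  rw [mul_one, act_one] at h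
  exact (mul_eq_left.mp h.symm)

lemma act_pow (γ : Γ) (n : ℕ) (i : ι) : D.act (γ ^ n) i = (D.act γ)^[n] i := by
  induction n generalizing i with
  | zero => simp
  | succ n ih =>
    rw [pow_succ', D.act_mul, ih, Function.iterate_succ_apply]

/-- the cocycle along a power is the product of the cocycles along the orbit -/
lemma c_pow (γ : Γ) (n : ℕ) (i : ι) :
    D.c i (γ ^ n) = ((List.range n).map fun k => D.c ((D.act γ)^[k] i) γ).prod := by
  induction n generalizing i with
  | zero => simp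
  | succ n ih =>
    rw [pow_succ', D.c_mul, ih, List.range_succ_eq_map, List.map_cons, List.prod_cons,
      List.map_map]
    rfl

variable [Fintype ι] {A : Type*} [AddCommGroup A]

/-- The transfer of a homomorphism `φ : Γ → A` along the datum: `γ ↦ ∑ᵢ φ (c i γ)`. -/
def transfer (φ : Additive Γ₁ →+ A) : Additive Γ →+ A where
  toFun γ := ∑ i, φ (Additive.ofMul (D.c i (Additive.toMul γ)))
  map_zero' := by
    simp only [toMul_zero, c_one, ofMul_one, map_zero, Finset.sum_const_zero]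
  map_add' γ δ := by
    simp only [toMul_add, D.c_mul, ofMul_mul, map_add, Finset.sum_add_distrib]
    congr 1
    exact Fintype.sum_equiv (D.act (Additive.toMul γ)) _ _ (fun i => rfl)

@[simp] lemma transfer_apply (φ : Additive Γ₁ →+ A) (γ : Γ) :
    D.transfer φ (Additive.ofMul γ) = ∑ i, φ (Additive.ofMul (D.c i γ)) := rfl

/-- The transfer as an additive endomorphism of `Hom(Γ, A)`. -/
def transferHom : (Additive Γ₁ →+ A) →+ (Additive Γ →+ A) where
  toFun := D.transfer
  map_zero' := by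
    ext γ
    simp
  map_add' φ ψ := by
    ext γ
    simp [Finset.sum_add_distrib]

/-- The transfer as an `R`-linear endomorphism of `Hom(Γ, A)`. -/
def transferLin (R : Type*) [Semiring R] [Module R A] :
    (Additive Γ₁ →+ A) →ₗ[R] (Additive Γ →+ A) where
  toFun := D.transfer
  map_add' := D.transferHom.map_add
  map_smul' r φ := by
    ext γ
    simp [Finset.smul_sum]

@[simp] lemma transferLin_apply (R : Type*) [Semiring R] [Module R A] (φ : Additive Γ₁ →+ A) :
    D.transferLin R φ = D.transfer φ := rfl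

/-- `φ` of the cocycle along a power is the sum along the orbit. -/
lemma map_c_pow (φ : Additive Γ₁ →+ A) (γ : Γ) (n : ℕ) (i : ι) :
    φ (Additive.ofMul (D.c i (γ ^ n))) =
      ∑ k ∈ Finset.range n, φ (Additive.ofMul (D.c ((D.act γ ^ k) i) γ)) := by
  induction n generalizing i with
  | zero => simp
  | succ n ih =>
    rw [pow_succ', D.c_mul, ofMul_mul, map_add, ih, Finset.sum_range_succ', add_comm]
    refine congrArg₂ _ (Finset.sum_congr rfl fun k _ => ?_) rfl
    rw [pow_succ, Equiv.Perm.mul_apply]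

/-- **Vanishing criterion.**  If `φ` kills `c i (γ ^ r)` whenever `γ ^ r` fixes `i`, then the
transfer of `φ` kills `γ`. -/
lemma transfer_apply_eq_zero (φ : Additive Γ₁ →+ A) (γ : Γ)
    (h : ∀ i r, 0 < r → D.act (γ ^ r) i = i → φ (Additive.ofMul (D.c i (γ ^ r))) = 0) :
    D.transfer φ (Additive.ofMul γ) = 0 := by
  rw [transfer_apply]
  refine sum_eq_zero_of_cycle_sums (D.act γ) _ fun i r hr hfix => ?_
  rw [← D.map_c_pow φ γ r i]
  refine h i r hr ?_
  rw [D.act_pow, ← Equiv.Perm.coe_pow]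
  exact hfix

/-! ### Composition of transfer data -/

section Comp

variable {Γ₃ : Type*} [Group Γ₃] {κ : Type*}

/-- Composition of transfer data: `Γ₁ ⇝ Γ` along `ι` followed by `Γ ⇝ Γ₃` along `κ`. -/
def comp (D : TransferDatum Γ₁ Γ ι) (E : TransferDatum Γ Γ₃ κ) : TransferDatum Γ₁ Γ₃ (ι × κ) where
  act γ :=
    { toFun := fun x => (D.act (E.c x.2 γ) x.1, E.act γ x.2)
      invFun := fun x => ((D.act (E.c ((E.act γ).symm x.2) γ)).symm x.1, (E.act γ).symm x.2)
      left_inv := fun x => by simp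
      right_inv := fun x => by simp }
  c x γ := D.c x.1 (E.c x.2 γ)
  act_mul γ δ x := by
    show (D.act (E.c x.2 (γ * δ)) x.1, E.act (γ * δ) x.2) = _
    rw [E.c_mul, D.act_mul, E.act_mul]
    rfl
  c_mul x γ δ := by
    show D.c x.1 (E.c x.2 (γ * δ)) = _
    rw [E.c_mul, D.c_mul]
    rfl

variable [Fintype κ]

lemma transfer_comp (D : TransferDatum Γ₁ Γ ι) (E : TransferDatum Γ Γ₃ κ) (φ : Additive Γ₁ →+ A) :
    (D.comp E).transfer φ = E.transfer (D.transfer φ) := by
  refine AddMonoidHom.ext fun γ => ?_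
  obtain ⟨γ, rfl⟩ : ∃ γ' : Γ₃, Additive.ofMul γ' = γ := ⟨Additive.toMul γ, rfl⟩
  rw [transfer_apply, transfer_apply, Fintype.sum_prod_type, Finset.sum_comm]
  refine Finset.sum_congr rfl fun k _ => ?_
  rw [transfer_apply]
  rfl

end Comp

end TransferDatum

/-! ### Transfer data from coset representatives -/

section Reps

variable {Γ₁ Γ G : Type*} [Group Γ₁] [Group Γ] [Group G] (f₁ : Γ₁ →* G)
  (hf : Function.Injective f₁) (f : Γ →* G) {ι : Type*} (α : ι → G)

/-- The hypothesis on a system of representatives `α : ι → G` (for `f₁ : Γ₁ → G`, `f : Γ → G`):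
for every `i` and `γ ∈ Γ` there is a unique `j` with `αᵢ γ αⱼ⁻¹ ∈ Γ₁` (i.e. `⨆ᵢ Γ₁ αᵢ` is a
disjoint union stable under right multiplication by `Γ`). -/
def IsRepSystem : Prop := ∀ (i : ι) (γ : Γ), ∃! j, α i * f γ * (α j)⁻¹ ∈ f₁.range

variable {f₁ f α}

/-- A disjoint cover `D = ⨆ᵢ Γ₁ αᵢ` of a right-`Γ`-stable set gives a system of
representatives. -/
lemma isRepSystem_of_cover (D : Set G) (hα : ∀ i, α i ∈ D)
    (hD : ∀ d ∈ D, ∀ γ : Γ, d * f γ ∈ D)
    (hcov : ∀ d ∈ D, ∃! i, d * (α i)⁻¹ ∈ f₁.range) : IsRepSystem f₁ f α :=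
  fun i γ => hcov _ (hD _ (hα i) γ)

namespace IsRepSystem

variable (h : IsRepSystem f₁ f α)

/-- the index `i·γ` -/
noncomputable def idx (γ : Γ) (i : ι) : ι := (h i γ).choose

lemma idx_spec (γ : Γ) (i : ι) : α i * f γ * (α (h.idx γ i))⁻¹ ∈ f₁.range :=
  (h i γ).choose_spec.1

lemma eq_idx {γ : Γ} {i j : ι} (hj : α i * f γ * (α j)⁻¹ ∈ f₁.range) : j = h.idx γ i :=
  (h i γ).choose_spec.2 j hj

lemma idx_mul (γ δ : Γ) (i : ι) : h.idx (γ * δ) i = h.idx δ (h.idx γ i) := by
  symm
  apply h.eq_idx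
  have h1 := h.idx_spec γ i
  have h2 := h.idx_spec δ (h.idx γ i)
  have := f₁.range.mul_mem h1 h2
  convert this using 1
  rw [map_mul]
  group

lemma idx_inv_idx (γ : Γ) (i : ι) : h.idx γ⁻¹ (h.idx γ i) = i := by
  symm
  apply h.eq_idx
  have h1 := f₁.range.inv_mem (h.idx_spec γ i)
  convert h1 using 1
  rw [map_inv]
  group

lemma idx_idx_inv (γ : Γ) (i : ι) : h.idx γ (h.idx γ⁻¹ i) = i := by
  have := h.idx_inv_idx γ⁻¹ i
  rwa [inv_inv] at this

/-- the cocycle `c i γ = αᵢ γ α_{i·γ}⁻¹ ∈ Γ₁` -/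
noncomputable def coc (i : ι) (γ : Γ) : Γ₁ := (h.idx_spec γ i).choose

lemma map_coc (i : ι) (γ : Γ) : f₁ (h.coc i γ) = α i * f γ * (α (h.idx γ i))⁻¹ :=
  (h.idx_spec γ i).choose_spec

include hf in
lemma coc_mul (i : ι) (γ δ : Γ) : h.coc i (γ * δ) = h.coc i γ * h.coc (h.idx γ i) δ := by
  apply hf
  rw [map_mul, h.map_coc, h.map_coc, h.map_coc, h.idx_mul, map_mul]
  group

/-- The transfer datum of a system of representatives. -/
noncomputable def datum (hf : Function.Injective f₁) : TransferDatum Γ₁ Γ ι where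
  act γ := ⟨h.idx γ, h.idx γ⁻¹, h.idx_inv_idx γ, h.idx_idx_inv γ⟩
  c := h.coc
  act_mul := h.idx_mul
  c_mul := h.coc_mul hf

@[simp] lemma datum_act (γ : Γ) (i : ι) : (h.datum hf).act γ i = h.idx γ i := rfl

@[simp] lemma datum_c (γ : Γ) (i : ι) : (h.datum hf).c i γ = h.coc i γ := rfl

/-- On a fixed index the cocycle is conjugation by `αᵢ`. -/
lemma map_coc_of_fixed {i : ι} {γ : Γ} (hfix : h.idx γ i = i) :
    f₁ (h.coc i γ) = α i * f γ * (α i)⁻¹ := by
  rw [h.map_coc, hfix]

variable [Fintype ι] {A : Type*} [AddCommGroup A]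

/-- The **Hecke operator** attached to a system of representatives,
`Hom(Γ₁, A) → Hom(Γ, A)`: `(T φ)(γ) = ∑ᵢ φ (αᵢ γ α_{i·γ}⁻¹)`. -/
noncomputable def hecke (hf : Function.Injective f₁) (φ : Additive Γ₁ →+ A) : Additive Γ →+ A :=
  (h.datum hf).transfer φ

lemma hecke_apply (φ : Additive Γ₁ →+ A) (γ : Γ) :
    h.hecke hf φ (Additive.ofMul γ) = ∑ i, φ (Additive.ofMul (h.coc i γ)) := rfl

/-- the Hecke operator as an `R`-linear map -/
noncomputable def heckeLin (hf : Function.Injective f₁) (R : Type*) [Semiring R] [Module R A] :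
    (Additive Γ₁ →+ A) →ₗ[R] (Additive Γ →+ A) := (h.datum hf).transferLin R

@[simp] lemma heckeLin_apply (R : Type*) [Semiring R] [Module R A] (φ : Additive Γ₁ →+ A) :
    h.heckeLin hf R φ = h.hecke hf φ := rfl

/-- **Vanishing criterion**: if `φ` kills every element `δ ∈ Γ₁` of the form `αᵢ γʳ αᵢ⁻¹`,
`r > 0`, then `T φ` kills `γ`.  (Used for parabolic elements; valid for any coefficient group.) -/
lemma hecke_apply_eq_zero (φ : Additive Γ₁ →+ A) (γ : Γ)
    (hφ : ∀ (i : ι) (r : ℕ) (δ : Γ₁), 0 < r → f₁ δ = α i * f (γ ^ r) * (α i)⁻¹ →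
      φ (Additive.ofMul δ) = 0) :
    h.hecke hf φ (Additive.ofMul γ) = 0 := by
  refine (h.datum hf).transfer_apply_eq_zero φ γ fun i r hr hfix => ?_
  exact hφ i r _ hr (h.map_coc_of_fixed hfix)

/-- **Independence of the representatives**: changing `αᵢ` to `gᵢ αᵢ` with `gᵢ ∈ Γ₁` (and
re-indexing) does not change the Hecke operator. -/
lemma hecke_congr {ι' : Type*} [Fintype ι'] {α' : ι' → G}
    (h' : IsRepSystem f₁ f α') (e : ι ≃ ι') (g : ι → Γ₁) (hg : ∀ i, α' (e i) = f₁ (g i) * α i)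
    (φ : Additive Γ₁ →+ A) : h'.hecke hf φ = h.hecke hf φ := by
  refine AddMonoidHom.ext fun γ => ?_
  obtain ⟨γ, rfl⟩ : ∃ γ' : Γ, Additive.ofMul γ' = γ := ⟨Additive.toMul γ, rfl⟩
  rw [h'.hecke_apply, h.hecke_apply, ← Fintype.sum_equiv e (fun i => φ (Additive.ofMul
    (h'.coc (e i) γ))) _ (fun i => rfl)]
  -- the two actions correspond under `e`
  have hidx : ∀ i, h'.idx γ (e i) = e (h.idx γ i) := by
    intro i
    symm
    apply h'.eq_idx
    rw [hg, hg]
    have h1 := h.idx_spec γ i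
    have : f₁ (g i) * α i * f γ * (f₁ (g (h.idx γ i)) * α (h.idx γ i))⁻¹ =
        f₁ (g i) * (α i * f γ * (α (h.idx γ i))⁻¹) * (f₁ (g (h.idx γ i)))⁻¹ := by group
    rw [this]
    exact f₁.range.mul_mem (f₁.range.mul_mem ⟨_, rfl⟩ h1) (f₁.range.inv_mem ⟨_, rfl⟩)
  have hcoc : ∀ i, h'.coc (e i) γ = g i * h.coc i γ * (g (h.idx γ i))⁻¹ := by
    intro i
    apply hf
    rw [h'.map_coc, hidx, hg, hg, map_mul, map_mul, map_inv, h.map_coc]
    group
  have key : ∀ i, φ (Additive.ofMul (h'.coc (e i) γ)) =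
      φ (Additive.ofMul (h.coc i γ)) + (φ (Additive.ofMul (g i)) -
        φ (Additive.ofMul (g (h.idx γ i)))) := by
    intro i
    rw [hcoc, ofMul_mul, ofMul_mul, ofMul_inv, map_add, map_add, map_neg]
    abel
  rw [Finset.sum_congr rfl fun i _ => key i, Finset.sum_add_distrib, Finset.sum_sub_distrib]
  have : ∑ i, φ (Additive.ofMul (g (h.idx γ i))) = ∑ i, φ (Additive.ofMul (g i)) :=
    Fintype.sum_equiv ((h.datum hf).act γ) _ _ (fun i => rfl)
  rw [this, sub_self, add_zero]

end IsRepSystem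

end Reps

end Fermat.Agent.S41.H65
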