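import Mathlib
import Fermat.Agent.S41.H66_CSP_Gen
import Fermat.Agent.S41.H2_CSPDefs

/-!
# S41 / package D-WILD, part (W-b) (helper66): `Γ(T)/ker φ` is abelian of exponent `p`

Setting of the wild extension step (T2) of Theorem T: `p` an odd prime, `p ∣ T`, `0 < T`,
`φ : Γ(p T) → 𝔽_p` an `SL(2,ℤ)`-invariant character.

* `lamZ T g`, `lam T p g` : for `g = 1 + T X ∈ Γ(T)` the matrices `X` and `X mod p`; `lam` is
  additive on `Γ(T)` (`lam_mul`), equivariant (`lam_conj`), has kernel `Γ(p T)`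
  (`lam_eq_zero_iff`) and traceless values (`lam_one_one`);
* `phix φ` : extension of `φ` by `1` outside `Γ(m)`;
* `phi_commutator_eq_one` : `φ` kills commutators of `Γ(T)`  (step (a));
* `phi_pow_eq_one` : `φ (g ^ p) = 1` for `g ∈ Γ(T)`  (step (b)).
-/

set_option autoImplicit false

open Matrix CongruenceSubgroup
open scoped MatrixGroups ModularGroup

namespace Fermat.Agent.S41.H66

/-! ### the matrices `X` with `g = 1 + T X` -/

/-- entrywise `(g - 1) / T`. -/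
def lamZ (T : ℕ) (g : SL(2, ℤ)) : Matrix (Fin 2) (Fin 2) ℤ :=
  fun i j => ((g : Matrix (Fin 2) (Fin 2) ℤ) i j - (1 : Matrix (Fin 2) (Fin 2) ℤ) i j) / (T : ℤ)

theorem lamZ_eq_of_eq {T : ℕ} (hT : 0 < T) {g : SL(2, ℤ)} {X : Matrix (Fin 2) (Fin 2) ℤ}
    (h : (g : Matrix (Fin 2) (Fin 2) ℤ) = 1 + (T : ℤ) • X) : lamZ T g = X := by
  ext i j
  have hT' : (T : ℤ) ≠ 0 := by exact_mod_cast hT.ne'
  simp only [lamZ, h, Matrix.add_apply, Matrix.smul_apply, smul_eq_mul, add_sub_cancel_left]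
  exact Int.mul_ediv_cancel_left _ hT'

theorem coe_eq_one_add_smul_lamZ {T : ℕ} (hT : 0 < T) {g : SL(2, ℤ)} (hg : g ∈ Gamma T) :
    (g : Matrix (Fin 2) (Fin 2) ℤ) = 1 + (T : ℤ) • lamZ T g := by
  obtain ⟨X, hX⟩ := exists_eq_one_add_smul hg
  rw [lamZ_eq_of_eq hT hX]
  exact hX

theorem mem_Gamma_of_eq_one_add_smul {M : ℕ} {g : SL(2, ℤ)} {X : Matrix (Fin 2) (Fin 2) ℤ}
    (h : (g : Matrix (Fin 2) (Fin 2) ℤ) = 1 + (M : ℤ) • X) : g ∈ Gamma M := by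
  rw [Gamma_mem]
  have h00 : g 0 0 = 1 + M * X 0 0 := by
    have := congrFun (congrFun h 0) 0
    simpa only [Matrix.add_apply, Matrix.smul_apply, smul_eq_mul, Matrix.one_apply_eq] using this
  have h01 : g 0 1 = M * X 0 1 := by
    have := congrFun (congrFun h 0) 1
    simpa only [Matrix.add_apply, Matrix.smul_apply, smul_eq_mul, ne_eq, zero_ne_one,
      not_false_eq_true, Matrix.one_apply_ne, zero_add] using this
  have h10 : g 1 0 = M * X 1 0 := by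
    have := congrFun (congrFun h 1) 0
    simpa only [Matrix.add_apply, Matrix.smul_apply, smul_eq_mul, ne_eq, one_ne_zero,
      not_false_eq_true, Matrix.one_apply_ne, zero_add] using this
  have h11 : g 1 1 = 1 + M * X 1 1 := by
    have := congrFun (congrFun h 1) 1
    simpa only [Matrix.add_apply, Matrix.smul_apply, smul_eq_mul, Matrix.one_apply_eq] using this
  refine ⟨?_, ?_, ?_, ?_⟩
  · rw [h00]; simp
  · rw [h01]; simp
  · rw [h10]; simp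
  · rw [h11]; simp

theorem mem_Gamma_iff_exists {M : ℕ} {g : SL(2, ℤ)} :
    g ∈ Gamma M ↔ ∃ X : Matrix (Fin 2) (Fin 2) ℤ,
      (g : Matrix (Fin 2) (Fin 2) ℤ) = 1 + (M : ℤ) • X :=
  ⟨exists_eq_one_add_smul, fun ⟨_, hX⟩ => mem_Gamma_of_eq_one_add_smul hX⟩

theorem lamZ_one {T : ℕ} (hT : 0 < T) : lamZ T 1 = 0 :=
  lamZ_eq_of_eq hT (by simp)

theorem lamZ_mul {T : ℕ} (hT : 0 < T) {g h : SL(2, ℤ)} (hg : g ∈ Gamma T) (hh : h ∈ Gamma T) :
    lamZ T (g * h) = lamZ T g + lamZ T h + (T : ℤ) • (lamZ T g * lamZ T h) := by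
  apply lamZ_eq_of_eq hT
  rw [Matrix.SpecialLinearGroup.coe_mul, coe_eq_one_add_smul_lamZ hT hg,
    coe_eq_one_add_smul_lamZ hT hh]
  generalize lamZ T g = X
  generalize lamZ T h = Y
  simp only [mul_add, add_mul, mul_one, one_mul, Matrix.smul_mul, Matrix.mul_smul, smul_add]
  abel

theorem lamZ_conj {T : ℕ} (hT : 0 < T) (s : SL(2, ℤ)) {g : SL(2, ℤ)} (hg : g ∈ Gamma T) :
    lamZ T (s * g * s⁻¹) = (s : Matrix (Fin 2) (Fin 2) ℤ) * lamZ T g *
      ((s⁻¹ : SL(2, ℤ)) : Matrix (Fin 2) (Fin 2) ℤ) := by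
  apply lamZ_eq_of_eq hT
  have h1 : (s : Matrix (Fin 2) (Fin 2) ℤ) * ((s⁻¹ : SL(2, ℤ)) : Matrix (Fin 2) (Fin 2) ℤ) = 1 := by
    rw [← Matrix.SpecialLinearGroup.coe_mul, mul_inv_cancel, Matrix.SpecialLinearGroup.coe_one]
  rw [Matrix.SpecialLinearGroup.coe_mul, Matrix.SpecialLinearGroup.coe_mul,
    coe_eq_one_add_smul_lamZ hT hg,
    mul_add, add_mul, mul_one, h1, Matrix.mul_smul, Matrix.smul_mul]

theorem lamZ_mem_iff {T : ℕ} (hT : 0 < T) (p : ℕ) {g : SL(2, ℤ)} (hg : g ∈ Gamma T) :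
    g ∈ Gamma (p * T) ↔ ∃ Y : Matrix (Fin 2) (Fin 2) ℤ, lamZ T g = (p : ℤ) • Y := by
  constructor
  · intro h
    obtain ⟨Y, hY⟩ := exists_eq_one_add_smul h
    refine ⟨Y, lamZ_eq_of_eq hT ?_⟩
    rw [hY, smul_smul]
    push_cast
    rw [mul_comm]
  · rintro ⟨Y, hY⟩
    apply mem_Gamma_of_eq_one_add_smul (X := Y)
    rw [coe_eq_one_add_smul_lamZ hT hg, hY, smul_smul]
    push_cast
    rw [mul_comm]

theorem trace_lamZ {T : ℕ} (hT : 0 < T) {g : SL(2, ℤ)} (hg : g ∈ Gamma T) :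
    lamZ T g 0 0 + lamZ T g 1 1 = -(T : ℤ) * (lamZ T g).det := by
  have hdet : (g : Matrix (Fin 2) (Fin 2) ℤ).det = 1 := g.det_coe
  rw [coe_eq_one_add_smul_lamZ hT hg] at hdet
  generalize lamZ T g = X at *
  rw [Matrix.det_fin_two] at hdet ⊢
  simp only [Matrix.add_apply, Matrix.smul_apply, smul_eq_mul, Matrix.one_apply_eq, ne_eq,
    zero_ne_one, one_ne_zero, not_false_eq_true, Matrix.one_apply_ne, zero_add] at hdet
  have hT' : (T : ℤ) ≠ 0 := by exact_mod_cast hT.ne'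
  apply mul_left_cancel₀ hT'
  linear_combination hdet

/-! ### reduction mod `p` -/

/-- `X mod p` for `g = 1 + T X`. -/
def lam (T p : ℕ) (g : SL(2, ℤ)) : Matrix (Fin 2) (Fin 2) (ZMod p) :=
  (Int.castRingHom (ZMod p)).mapMatrix (lamZ T g)

/-- reduction of an integral matrix mod `p`. -/
def redM (p : ℕ) (s : SL(2, ℤ)) : Matrix (Fin 2) (Fin 2) (ZMod p) :=
  (Int.castRingHom (ZMod p)).mapMatrix (s : Matrix (Fin 2) (Fin 2) ℤ)

theorem lam_apply (T p : ℕ) (g : SL(2, ℤ)) (i j : Fin 2) :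
    lam T p g i j = ((lamZ T g i j : ℤ) : ZMod p) := rfl

theorem redM_apply (p : ℕ) (s : SL(2, ℤ)) (i j : Fin 2) :
    redM p s i j = ((s i j : ℤ) : ZMod p) := rfl

theorem lam_one {T : ℕ} (hT : 0 < T) (p : ℕ) : lam T p 1 = 0 := by
  rw [lam, lamZ_one hT, map_zero]

theorem lam_mul {T p : ℕ} (hT : 0 < T) (hpT : p ∣ T) {g h : SL(2, ℤ)} (hg : g ∈ Gamma T)
    (hh : h ∈ Gamma T) : lam T p (g * h) = lam T p g + lam T p h := by
  have h0 : ((T : ℤ) : ZMod p) = 0 := by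
    rw [Int.cast_natCast, ZMod.natCast_eq_zero_iff]
    exact hpT
  rw [lam, lamZ_mul hT hg hh, map_add, map_add]
  have : (Int.castRingHom (ZMod p)).mapMatrix ((T : ℤ) • (lamZ T g * lamZ T h)) = 0 := by
    ext i j
    simp only [RingHom.mapMatrix_apply, Matrix.map_apply, Matrix.smul_apply, smul_eq_mul,
      Int.coe_castRingHom, Int.cast_mul, h0, zero_mul, Matrix.zero_apply]
  rw [this, add_zero]
  rfl

theorem lam_inv {T p : ℕ} (hT : 0 < T) (hpT : p ∣ T) {g : SL(2, ℤ)} (hg : g ∈ Gamma T) :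
    lam T p g⁻¹ = - lam T p g := by
  have h := lam_mul hT hpT hg (inv_mem hg)
  rw [mul_inv_cancel, lam_one hT] at h
  exact eq_neg_of_add_eq_zero_right h.symm

theorem lam_conj {T : ℕ} (hT : 0 < T) (p : ℕ) (s : SL(2, ℤ)) {g : SL(2, ℤ)} (hg : g ∈ Gamma T) :
    lam T p (s * g * s⁻¹) = redM p s * lam T p g * redM p s⁻¹ := by
  rw [lam, lamZ_conj hT s hg, map_mul, map_mul]
  rfl

theorem lam_eq_zero_iff {T p : ℕ} (hT : 0 < T) {g : SL(2, ℤ)} (hg : g ∈ Gamma T) :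
    lam T p g = 0 ↔ g ∈ Gamma (p * T) := by
  rw [lamZ_mem_iff hT p hg]
  constructor
  · intro h
    have hd : ∀ i j, (p : ℤ) ∣ lamZ T g i j := by
      intro i j
      have := congrFun (congrFun h i) j
      rw [lam_apply] at this
      exact (ZMod.intCast_zmod_eq_zero_iff_dvd _ _).mp this
    choose Y hY using hd
    exact ⟨Matrix.of Y, by ext i j; simp [hY i j]⟩
  · rintro ⟨Y, hY⟩
    ext i j
    rw [lam_apply, hY]
    simp

theorem lam_one_one {T p : ℕ} (hT : 0 < T) (hpT : p ∣ T) {g : SL(2, ℤ)} (hg : g ∈ Gamma T) :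
    lam T p g 1 1 = - lam T p g 0 0 := by
  have h0 : ((T : ℤ) : ZMod p) = 0 := by
    rw [Int.cast_natCast, ZMod.natCast_eq_zero_iff]
    exact hpT
  have h := congrArg (Int.cast : ℤ → ZMod p) (trace_lamZ hT hg)
  push_cast at h
  rw [lam_apply, lam_apply]
  have h0' : ((T : ℕ) : ZMod p) = 0 := by simpa using h0
  rw [h0'] at h
  linear_combination h

/-! ### explicit reductions and conjugations -/

theorem redM_eq (p : ℕ) (s : SL(2, ℤ)) :
    redM p s = !![((s 0 0 : ℤ) : ZMod p), ((s 0 1 : ℤ) : ZMod p);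
      ((s 1 0 : ℤ) : ZMod p), ((s 1 1 : ℤ) : ZMod p)] := by
  ext i j
  fin_cases i <;> fin_cases j <;> rfl

theorem redM_x12 (p : ℕ) (t : ℤ) : redM p (x12 t) = !![1, (t : ZMod p); 0, 1] := by
  rw [redM_eq]
  simp [x12]

theorem redM_x21 (p : ℕ) (t : ℤ) : redM p (x21 t) = !![1, 0; (t : ZMod p), 1] := by
  rw [redM_eq]
  simp [x21]

theorem redM_S (p : ℕ) : redM p ModularGroup.S = !![0, -1; 1, 0] := by
  rw [redM_eq]
  simp [ModularGroup.S]

theorem redM_inv (p : ℕ) (s : SL(2, ℤ)) :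
    redM p s⁻¹ = !![((s 1 1 : ℤ) : ZMod p), -((s 0 1 : ℤ) : ZMod p);
      -((s 1 0 : ℤ) : ZMod p), ((s 0 0 : ℤ) : ZMod p)] := by
  rw [redM_eq, Matrix.SpecialLinearGroup.SL2_inv_expl]
  simp

theorem redM_S_inv (p : ℕ) : redM p ModularGroup.S⁻¹ = !![0, 1; -1, 0] := by
  rw [redM_inv]
  simp [ModularGroup.S]

/-- conjugation by `x12 1` on `2 × 2` matrices mod `p`. -/
theorem redM_x12_conj (p : ℕ) (M : Matrix (Fin 2) (Fin 2) (ZMod p)) :
    redM p (x12 1) * M * redM p (x12 1)⁻¹ =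
      !![M 0 0 + M 1 0, M 0 1 + M 1 1 - M 0 0 - M 1 0; M 1 0, M 1 1 - M 1 0] := by
  obtain ⟨a, b, c, d, rfl⟩ : ∃ a b c d, M = !![a, b; c, d] := ⟨_, _, _, _, Matrix.eta_fin_two M⟩
  rw [← x12_neg, redM_x12, redM_x12, Matrix.mul_fin_two, Matrix.mul_fin_two]
  ext i j
  fin_cases i <;> fin_cases j <;> simp <;> ring

/-- conjugation by `S` on `2 × 2` matrices mod `p`. -/
theorem redM_S_conj (p : ℕ) (M : Matrix (Fin 2) (Fin 2) (ZMod p)) :
    redM p ModularGroup.S * M * redM p ModularGroup.S⁻¹ =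
      !![M 1 1, - M 1 0; - M 0 1, M 0 0] := by
  obtain ⟨a, b, c, d, rfl⟩ : ∃ a b c d, M = !![a, b; c, d] := ⟨_, _, _, _, Matrix.eta_fin_two M⟩
  rw [redM_S, redM_S_inv, Matrix.mul_fin_two, Matrix.mul_fin_two]
  ext i j
  fin_cases i <;> fin_cases j <;> simp

theorem lamZ_x12 {T : ℕ} (hT : 0 < T) (t : ℤ) : lamZ T (x12 (T * t)) = !![0, t; 0, 0] := by
  apply lamZ_eq_of_eq hT
  ext i j
  fin_cases i <;> fin_cases j <;> simp

theorem lamZ_x21 {T : ℕ} (hT : 0 < T) (t : ℤ) : lamZ T (x21 (T * t)) = !![0, 0; t, 0] := by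
  apply lamZ_eq_of_eq hT
  ext i j
  fin_cases i <;> fin_cases j <;> simp

theorem lam_x12 {T : ℕ} (hT : 0 < T) (p : ℕ) (t : ℤ) :
    lam T p (x12 (T * t)) = !![0, (t : ZMod p); 0, 0] := by
  rw [lam, lamZ_x12 hT]
  ext i j
  fin_cases i <;> fin_cases j <;> simp

theorem lam_x21 {T : ℕ} (hT : 0 < T) (p : ℕ) (t : ℤ) :
    lam T p (x21 (T * t)) = !![0, 0; (t : ZMod p), 0] := by
  rw [lam, lamZ_x21 hT]
  ext i j
  fin_cases i <;> fin_cases j <;> simp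

/-! ### the group `Γ(T)`: generators, conjugation, the homomorphism `lamHom` -/

/-- conjugation by `s ∈ SL(2,ℤ)` on `Γ(T)`. -/
def cj (T : ℕ) (s : SL(2, ℤ)) : ↥(Gamma T) →* ↥(Gamma T) :=
  MonoidHom.mk' (fun g => ⟨s * g * s⁻¹, (Gamma_normal T).conj_mem g g.2 s⟩)
    (fun a b => Subtype.ext (by simp [mul_assoc]))

@[simp] theorem coe_cj (T : ℕ) (s : SL(2, ℤ)) (g : ↥(Gamma T)) :
    ((cj T s g : ↥(Gamma T)) : SL(2, ℤ)) = s * g * s⁻¹ := rfl

/-- `x12 T` as an element of `Γ(T)`. -/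
def gE (T : ℕ) : ↥(Gamma T) := ⟨x12 (T : ℤ), by have := x12_mem_Gamma T 1; rwa [mul_one] at this⟩

/-- `x21 T` as an element of `Γ(T)`. -/
def gF (T : ℕ) : ↥(Gamma T) := ⟨x21 (T : ℤ), by have := x21_mem_Gamma T 1; rwa [mul_one] at this⟩

/-- an element of `Γ(T)` lifting `diag(1, -1)`; by definition
`x12 1 * gF * (x12 1)⁻¹ = gF * gH * gE⁻¹`. -/
def gH (T : ℕ) : ↥(Gamma T) := (gF T)⁻¹ * cj T (x12 1) (gF T) * gE T

@[simp] theorem coe_gE (T : ℕ) : ((gE T : ↥(Gamma T)) : SL(2, ℤ)) = x12 (T : ℤ) := rfl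
@[simp] theorem coe_gF (T : ℕ) : ((gF T : ↥(Gamma T)) : SL(2, ℤ)) = x21 (T : ℤ) := rfl

theorem cj_x12_gF (T : ℕ) : cj T (x12 1) (gF T) = gF T * gH T * (gE T)⁻¹ := by
  rw [gH]; group

theorem cj_x12_gE (T : ℕ) : cj T (x12 1) (gE T) = gE T := by
  apply Subtype.ext
  show x12 1 * x12 (T : ℤ) * (x12 1)⁻¹ = x12 (T : ℤ)
  rw [← x12_neg, ← x12_add, ← x12_add]
  congr 1
  ring

theorem cj_S_gE (T : ℕ) : cj T ModularGroup.S (gE T) = (gF T)⁻¹ := by
  apply Subtype.ext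
  show ModularGroup.S * x12 (T : ℤ) * ModularGroup.S⁻¹ = (x21 (T : ℤ))⁻¹
  rw [← x21_neg, x21_eq_conj, neg_neg]

/-- `g ↦ X mod p` (`g = 1 + T X`) as a homomorphism on `Γ(T)`, for `p ∣ T`. -/
def lamHom {T p : ℕ} (hT : 0 < T) (hpT : p ∣ T) :
    ↥(Gamma T) →* Multiplicative (Matrix (Fin 2) (Fin 2) (ZMod p)) where
  toFun g := Multiplicative.ofAdd (lam T p g)
  map_one' := by
    show Multiplicative.ofAdd (lam T p (1 : SL(2, ℤ))) = 1
    rw [lam_one hT]; rfl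
  map_mul' g h := by
    show Multiplicative.ofAdd (lam T p ((g : SL(2, ℤ)) * h)) = _
    rw [lam_mul hT hpT g.2 h.2]; rfl

theorem toAdd_lamHom {T p : ℕ} (hT : 0 < T) (hpT : p ∣ T) (g : ↥(Gamma T)) :
    Multiplicative.toAdd (lamHom hT hpT g) = lam T p g := rfl

theorem lam_zpow {T p : ℕ} (hT : 0 < T) (hpT : p ∣ T) (g : ↥(Gamma T)) (n : ℤ) :
    lam T p ((g ^ n : ↥(Gamma T)) : SL(2, ℤ)) = n • lam T p g := by
  rw [← toAdd_lamHom hT hpT, map_zpow, toAdd_zpow, toAdd_lamHom]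

theorem lam_eq_iff {T p : ℕ} (hT : 0 < T) (hpT : p ∣ T) {g g' : SL(2, ℤ)} (hg : g ∈ Gamma T)
    (hg' : g' ∈ Gamma T) : lam T p g = lam T p g' ↔ g⁻¹ * g' ∈ Gamma (p * T) := by
  rw [← lam_eq_zero_iff hT (mul_mem (inv_mem hg) hg'), lam_mul hT hpT (inv_mem hg) hg',
    lam_inv hT hpT hg, neg_add_eq_zero]

/-- a homomorphism on `Γ(T)` killing `Γ(p T)` factors through `lam`. -/
theorem hom_congr_of_lam_eq {T p : ℕ} (hT : 0 < T) (hpT : p ∣ T) {Z' : Type*} [Group Z']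
    (ψ : ↥(Gamma T) →* Z')
    (hker : ∀ g : ↥(Gamma T), (g : SL(2, ℤ)) ∈ Gamma (p * T) → ψ g = 1) {g g' : ↥(Gamma T)}
    (h : lam T p g = lam T p g') : ψ g = ψ g' := by
  have := hker (g⁻¹ * g') ((lam_eq_iff hT hpT g.2 g'.2).1 h)
  rwa [map_mul, map_inv, inv_mul_eq_one] at this

theorem lam_gE {T : ℕ} (hT : 0 < T) (p : ℕ) : lam T p (gE T) = !![0, 1; 0, 0] := by
  have := lam_x12 hT p 1
  simpa using this

theorem lam_gF {T : ℕ} (hT : 0 < T) (p : ℕ) : lam T p (gF T) = !![0, 0; 1, 0] := by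
  have := lam_x21 hT p 1
  simpa using this

theorem lam_cj_x12 {T : ℕ} (hT : 0 < T) (p : ℕ) (g : ↥(Gamma T)) :
    lam T p (cj T (x12 1) g) =
      !![lam T p g 0 0 + lam T p g 1 0, lam T p g 0 1 + lam T p g 1 1 - lam T p g 0 0 - lam T p g 1 0;
        lam T p g 1 0, lam T p g 1 1 - lam T p g 1 0] := by
  rw [coe_cj, lam_conj hT p _ g.2, redM_x12_conj]

theorem lam_cj_S {T : ℕ} (hT : 0 < T) (p : ℕ) (g : ↥(Gamma T)) :
    lam T p (cj T ModularGroup.S g) =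
      !![lam T p g 1 1, - lam T p g 1 0; - lam T p g 0 1, lam T p g 0 0] := by
  rw [coe_cj, lam_conj hT p _ g.2, redM_S_conj]

theorem lam_gH {T p : ℕ} (hT : 0 < T) (hpT : p ∣ T) : lam T p (gH T) = !![1, 0; 0, -1] := by
  have h1 : lam T p (gH T) = - lam T p (gF T) + lam T p (cj T (x12 1) (gF T)) + lam T p (gE T) := by
    rw [gH, Subgroup.coe_mul, Subgroup.coe_mul, Subgroup.coe_inv,
      lam_mul hT hpT (mul_mem (inv_mem (gF T).2) (cj T (x12 1) (gF T)).2) (gE T).2,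
      lam_mul hT hpT (inv_mem (gF T).2) (cj T (x12 1) (gF T)).2, lam_inv hT hpT (gF T).2]
  rw [h1, lam_cj_x12 hT, lam_gF hT, lam_gE hT]
  ext i j
  fin_cases i <;> fin_cases j <;> simp

/-- `lam` of the word `gE ^ a * gF ^ b * gH ^ c`. -/
theorem lam_word {T p : ℕ} (hT : 0 < T) (hpT : p ∣ T) (a b c : ℤ) :
    lam T p ((gE T ^ a * gF T ^ b * gH T ^ c : ↥(Gamma T)) : SL(2, ℤ)) =
      !![(c : ZMod p), a; b, -c] := by
  rw [Subgroup.coe_mul, Subgroup.coe_mul,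
    lam_mul hT hpT (mul_mem (gE T ^ a).2 (gF T ^ b).2) (gH T ^ c).2,
    lam_mul hT hpT (gE T ^ a).2 (gF T ^ b).2, lam_zpow hT hpT, lam_zpow hT hpT, lam_zpow hT hpT,
    lam_gE hT, lam_gF hT, lam_gH hT hpT]
  ext i j
  fin_cases i <;> fin_cases j <;> simp

/-- a homomorphism on `Γ(T)` killing `Γ(p T)` is determined by its values on `gE, gF, gH`. -/
theorem hom_apply_eq {T p : ℕ} (hT : 0 < T) (hpT : p ∣ T) {Z' : Type*} [Group Z']
    (ψ : ↥(Gamma T) →* Z')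
    (hker : ∀ g : ↥(Gamma T), (g : SL(2, ℤ)) ∈ Gamma (p * T) → ψ g = 1) (g : ↥(Gamma T)) :
    ∃ a b c : ℤ, ψ g = ψ (gE T) ^ a * ψ (gF T) ^ b * ψ (gH T) ^ c := by
  obtain ⟨a, ha⟩ := ZMod.intCast_surjective (lam T p g 0 1)
  obtain ⟨b, hb⟩ := ZMod.intCast_surjective (lam T p g 1 0)
  obtain ⟨c, hc⟩ := ZMod.intCast_surjective (lam T p g 0 0)
  refine ⟨a, b, c, ?_⟩
  rw [← map_zpow, ← map_zpow, ← map_zpow, ← map_mul, ← map_mul]
  apply hom_congr_of_lam_eq hT hpT ψ hker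
  rw [lam_word hT hpT]
  ext i j
  fin_cases i <;> fin_cases j <;> simp [ha, hb, hc, lam_one_one hT hpT g.2]

/-! ### invariant functionals and invariant alternating forms on `Γ(T)/Γ(p T)` vanish -/

/-- **invariant functionals vanish**: a homomorphism `Γ(T) → Z'` (`Z'` without `2`-torsion) killing
`Γ(p T)` and invariant under conjugation by `x12 1` and `S` is trivial. -/
theorem hom_eq_one_of_invariant {T p : ℕ} (hT : 0 < T) (hpT : p ∣ T) {Z' : Type*} [CommGroup Z']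
    (h2 : ∀ z : Z', z ^ 2 = 1 → z = 1) (ψ : ↥(Gamma T) →* Z')
    (hker : ∀ g : ↥(Gamma T), (g : SL(2, ℤ)) ∈ Gamma (p * T) → ψ g = 1)
    (hX : ∀ g, ψ (cj T (x12 1) g) = ψ g) (hS : ∀ g, ψ (cj T ModularGroup.S g) = ψ g) :
    ∀ g, ψ g = 1 := by
  have hE : ψ (gE T) = 1 := by
    have h1 : ψ (cj T (x12 1) (gH T)) = ψ (gH T * (gE T)⁻¹ * (gE T)⁻¹) := by
      apply hom_congr_of_lam_eq hT hpT ψ hker
      rw [lam_cj_x12 hT, Subgroup.coe_mul, Subgroup.coe_mul, Subgroup.coe_inv,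
        lam_mul hT hpT (mul_mem (gH T).2 (inv_mem (gE T).2)) (inv_mem (gE T).2),
        lam_mul hT hpT (gH T).2 (inv_mem (gE T).2), lam_inv hT hpT (gE T).2, lam_gH hT hpT,
        lam_gE hT]
      ext i j
      fin_cases i <;> fin_cases j <;> simp <;> ring
    rw [hX, map_mul, map_mul, map_inv] at h1
    apply h2
    have h3 : ψ (gH T) * (ψ (gE T) ^ 2) = ψ (gH T) := by
      rw [pow_two]
      calc ψ (gH T) * (ψ (gE T) * ψ (gE T))
          = (ψ (gH T) * (ψ (gE T))⁻¹ * (ψ (gE T))⁻¹) * (ψ (gE T) * ψ (gE T)) := by rw [← h1]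
        _ = ψ (gH T) := by group
    exact mul_eq_left.mp h3
  have hH : ψ (gH T) = 1 := by
    have h1 := hX (gF T)
    rw [cj_x12_gF, map_mul, map_mul, map_inv, hE, inv_one, mul_one] at h1
    exact mul_eq_left.mp h1
  have hF : ψ (gF T) = 1 := by
    have h1 := hS (gE T)
    rw [cj_S_gE, map_inv, hE] at h1
    exact inv_eq_one.mp h1
  intro g
  obtain ⟨a, b, c, h⟩ := hom_apply_eq hT hpT ψ hker g
  rw [h, hE, hF, hH, _root_.one_zpow, _root_.one_zpow, _root_.one_zpow, mul_one, mul_one]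

/-- **invariant alternating forms vanish**: a pairing `B : Γ(T) × Γ(T) → Z'` (`Z'` without
`2`-torsion), multiplicative in the first variable, killing `Γ(p T)`, antisymmetric, alternating
and invariant under simultaneous conjugation by `x12 1` and by `S`, is trivial. -/
theorem pairing_eq_one_of_invariant {T p : ℕ} (hT : 0 < T) (hpT : p ∣ T) {Z' : Type*}
    [CommGroup Z'] (h2 : ∀ z : Z', z ^ 2 = 1 → z = 1) (B : ↥(Gamma T) → ↥(Gamma T) → Z')
    (hmul : ∀ g g' h, B (g * g') h = B g h * B g' h)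
    (hker : ∀ g h : ↥(Gamma T), (g : SL(2, ℤ)) ∈ Gamma (p * T) → B g h = 1)
    (hanti : ∀ g h, B h g = (B g h)⁻¹) (halt : ∀ g, B g g = 1)
    (hX : ∀ g h, B (cj T (x12 1) g) (cj T (x12 1) h) = B g h)
    (hS : ∀ g h, B (cj T ModularGroup.S g) (cj T ModularGroup.S h) = B g h) :
    ∀ g h, B g h = 1 := by
  -- the homomorphisms `B(·, h)`
  let ψ : ↥(Gamma T) → (↥(Gamma T) →* Z') := fun h => MonoidHom.mk' (fun g => B g h)
    (fun g g' => hmul g g' h)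
  have hψ : ∀ g h, ψ h g = B g h := fun _ _ => rfl
  have hψker : ∀ h, ∀ g : ↥(Gamma T), (g : SL(2, ℤ)) ∈ Gamma (p * T) → ψ h g = 1 :=
    fun h g hg => hker g h hg
  have mulR : ∀ g h h', B g (h * h') = B g h * B g h' := by
    intro g h h'
    rw [hanti (h * h') g, hmul, mul_inv, ← hanti, ← hanti]
  have invL : ∀ g h, B g⁻¹ h = (B g h)⁻¹ := fun g h => by
    rw [← hψ, ← hψ, map_inv]
  have invR : ∀ g h, B g h⁻¹ = (B g h)⁻¹ := fun g h => by
    rw [hanti h⁻¹ g, invL, ← hanti]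
  have congL : ∀ g g' h : ↥(Gamma T), lam T p g = lam T p g' → B g h = B g' h := fun g g' h hh =>
    hom_congr_of_lam_eq hT hpT (ψ h) (hψker h) hh
  have congR : ∀ g h h' : ↥(Gamma T), lam T p h = lam T p h' → B g h = B g h' :=
      fun g h h' hh => by
    rw [hanti h g, hanti h' g, congL h h' g hh]
  -- the three basic values
  have hEH : B (gE T) (gH T) = 1 := by
    have h1 := hX (gE T) (gF T)
    rw [cj_x12_gE, cj_x12_gF, mulR, mulR, invR, halt, inv_one, mul_one] at h1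
    exact mul_eq_left.mp h1
  have hHE : B (gH T) (gE T) = 1 := by rw [hanti, hEH, inv_one]
  have hEF : B (gE T) (gF T) = 1 := by
    have h1 := hX (gH T) (gF T)
    have h3 : B (cj T (x12 1) (gH T)) (cj T (x12 1) (gF T)) =
        B (gH T * (gE T)⁻¹ * (gE T)⁻¹) (cj T (x12 1) (gF T)) := by
      apply congL
      rw [lam_cj_x12 hT, Subgroup.coe_mul, Subgroup.coe_mul, Subgroup.coe_inv,
        lam_mul hT hpT (mul_mem (gH T).2 (inv_mem (gE T).2)) (inv_mem (gE T).2),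
        lam_mul hT hpT (gH T).2 (inv_mem (gE T).2), lam_inv hT hpT (gE T).2, lam_gH hT hpT,
        lam_gE hT]
      ext i j
      fin_cases i <;> fin_cases j <;> simp <;> ring
    rw [h3, cj_x12_gF, hmul, hmul, invL, mulR, mulR, mulR, mulR, invR, invR, halt, halt, hHE,
      hEH] at h1
    simp only [inv_one, mul_one] at h1
    apply h2
    have h4 : B (gH T) (gF T) * (B (gE T) (gF T) ^ 2) = B (gH T) (gF T) := by
      rw [pow_two]
      calc B (gH T) (gF T) * (B (gE T) (gF T) * B (gE T) (gF T))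
          = (B (gH T) (gF T) * (B (gE T) (gF T))⁻¹ * (B (gE T) (gF T))⁻¹) *
              (B (gE T) (gF T) * B (gE T) (gF T)) := by rw [h1]
        _ = B (gH T) (gF T) := by group
    exact mul_eq_left.mp h4
  have hFE : B (gF T) (gE T) = 1 := by rw [hanti, hEF, inv_one]
  have hFH : B (gF T) (gH T) = 1 := by
    have h1 := hS (gE T) (gH T)
    have h3 : B (cj T ModularGroup.S (gE T)) (cj T ModularGroup.S (gH T)) =
        B (cj T ModularGroup.S (gE T)) (gH T)⁻¹ := by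
      apply congR
      rw [lam_cj_S hT, Subgroup.coe_inv, lam_inv hT hpT (gH T).2, lam_gH hT hpT]
      ext i j
      fin_cases i <;> fin_cases j <;> simp
    rw [h3, cj_S_gE, invL, invR, inv_inv, hEH] at h1
    exact h1
  have hHF : B (gH T) (gF T) = 1 := by rw [hanti, hFH, inv_one]
  -- `B(·, u) = 1` for the three generators `u`
  have gen : ∀ u, B (gE T) u = 1 → B (gF T) u = 1 → B (gH T) u = 1 → ∀ g, B g u = 1 := by
    intro u h1 h2' h3 g
    obtain ⟨a, b, c, h⟩ := hom_apply_eq hT hpT (ψ u) (hψker u) g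
    rw [hψ, hψ, hψ, hψ, h1, h2', h3, _root_.one_zpow, _root_.one_zpow, _root_.one_zpow, mul_one,
      mul_one] at h
    exact h
  have hgE := gen (gE T) (halt _) hFE hHE
  have hgF := gen (gF T) hEF (halt _) hHF
  have hgH := gen (gH T) hEH hFH (halt _)
  intro g h
  apply gen h
  · rw [hanti, hgE, inv_one]
  · rw [hanti, hgF, inv_one]
  · rw [hanti, hgH, inv_one]

/-! ### the extension of `φ` by `1` outside `Γ(m)` -/

section Phix

variable {m p : ℕ} (φ : ↥(Gamma m) →* Multiplicative (ZMod p))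

open Classical in
/-- `φ` extended by `1` outside `Γ(m)` (avoids membership proofs in computations). -/
noncomputable def phix (x : SL(2, ℤ)) : Multiplicative (ZMod p) :=
  if hx : x ∈ Gamma m then φ ⟨x, hx⟩ else 1

theorem phix_of_mem {x : SL(2, ℤ)} (hx : x ∈ Gamma m) : phix φ x = φ ⟨x, hx⟩ := dif_pos hx

theorem phix_one : phix φ 1 = 1 := by
  rw [phix_of_mem φ (one_mem _)]; exact map_one φ

theorem phix_mul {x y : SL(2, ℤ)} (hx : x ∈ Gamma m) (hy : y ∈ Gamma m) :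
    phix φ (x * y) = phix φ x * phix φ y := by
  rw [phix_of_mem φ (mul_mem hx hy), phix_of_mem φ hx, phix_of_mem φ hy, ← map_mul]; rfl

theorem phix_inv {x : SL(2, ℤ)} (hx : x ∈ Gamma m) : phix φ x⁻¹ = (phix φ x)⁻¹ := by
  rw [phix_of_mem φ (inv_mem hx), phix_of_mem φ hx, ← map_inv]; rfl

theorem phix_pow {x : SL(2, ℤ)} (hx : x ∈ Gamma m) (n : ℕ) : phix φ (x ^ n) = phix φ x ^ n := by
  rw [phix_of_mem φ (pow_mem hx n), phix_of_mem φ hx, ← map_pow]; rfl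

theorem phix_conj (hφ : H2.IsInvChar m p φ) (s : SL(2, ℤ)) {x : SL(2, ℤ)} (hx : x ∈ Gamma m) :
    phix φ (s * x * s⁻¹) = phix φ x := by
  rw [phix_of_mem φ ((Gamma_normal m).conj_mem x hx s), phix_of_mem φ hx]
  exact hφ s ⟨x, hx⟩

/-- the kernel of `φ` as a subgroup of `SL(2,ℤ)`. -/
def kerSub : Subgroup SL(2, ℤ) where
  carrier := {x | x ∈ Gamma m ∧ phix φ x = 1}
  mul_mem' := by
    rintro x y ⟨hx, hx'⟩ ⟨hy, hy'⟩
    exact ⟨mul_mem hx hy, by rw [phix_mul φ hx hy, hx', hy', mul_one]⟩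
  one_mem' := ⟨one_mem _, phix_one φ⟩
  inv_mem' := by
    rintro x ⟨hx, hx'⟩
    exact ⟨inv_mem hx, by rw [phix_inv φ hx, hx', inv_one]⟩

theorem mem_kerSub {x : SL(2, ℤ)} : x ∈ kerSub φ ↔ x ∈ Gamma m ∧ phix φ x = 1 := Iff.rfl

theorem kerSub_normal (hφ : H2.IsInvChar m p φ) : (kerSub φ).Normal :=
  ⟨fun x hx s => ⟨(Gamma_normal m).conj_mem x hx.1 s, by rw [phix_conj φ hφ s hx.1]; exact hx.2⟩⟩

end Phix

theorem mul_pow_mem_of_comm_mem {G : Type*} [Group G] (C : Subgroup G) [C.Normal] {a b : G}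
    (h : a * b * a⁻¹ * b⁻¹ ∈ C) (n : ℕ) : (a ^ n * b ^ n)⁻¹ * (a * b) ^ n ∈ C := by
  rw [← QuotientGroup.eq]
  have hc : Commute (a : G ⧸ C) (b : G ⧸ C) := by
    have h1 : ((a * b * a⁻¹ * b⁻¹ : G) : G ⧸ C) = 1 := (QuotientGroup.eq_one_iff _).2 h
    rw [QuotientGroup.mk_mul, QuotientGroup.mk_mul, QuotientGroup.mk_mul, QuotientGroup.mk_inv,
      QuotientGroup.mk_inv] at h1
    show (a : G ⧸ C) * b = b * a
    calc (a : G ⧸ C) * b = ((a : G ⧸ C) * b * (a : G ⧸ C)⁻¹ * (b : G ⧸ C)⁻¹) * (b * a) := by group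
      _ = b * a := by rw [h1, one_mul]
  rw [QuotientGroup.mk_mul, QuotientGroup.mk_pow, QuotientGroup.mk_pow, QuotientGroup.mk_pow,
    QuotientGroup.mk_mul, hc.mul_pow]

theorem zmod_mul_eq_one_of_sq {p : ℕ} (hp : p.Prime) (hp2 : p ≠ 2) (z : Multiplicative (ZMod p))
    (h : z ^ 2 = 1) : z = 1 := by
  have hF : Fact p.Prime := Fact.mk hp
  have h1 : (2 : ZMod p) * Multiplicative.toAdd z = 0 := by
    have := congrArg Multiplicative.toAdd h
    rw [toAdd_pow, toAdd_one, two_nsmul] at this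
    rw [two_mul]; exact this
  have h2 : (2 : ZMod p) ≠ 0 := by
    intro h0
    have h3 : ((2 : ℕ) : ZMod p) = 0 := by exact_mod_cast h0
    rw [ZMod.natCast_eq_zero_iff] at h3
    exact hp2 ((Nat.prime_dvd_prime_iff_eq hp Nat.prime_two).1 h3)
  rcases mul_eq_zero.1 h1 with h3 | h3
  · exact absurd h3 h2
  · exact Multiplicative.toAdd.injective (by rw [h3, toAdd_one])

theorem zmod_mul_pow_eq_one {p : ℕ} (z : Multiplicative (ZMod p)) : z ^ p = 1 := by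
  apply Multiplicative.toAdd.injective
  rw [toAdd_pow, toAdd_one, nsmul_eq_mul, ZMod.natCast_self, zero_mul]

/-! ### steps (a) and (b) of the wild extension lemma -/

section Wild

variable {p T : ℕ} (φ : ↥(Gamma (p * T)) →* Multiplicative (ZMod p))

/-- **step (a)**: `φ` kills the commutators of `Γ(T)` (`phix` form). -/
theorem phix_commutator_eq_one (hp : p.Prime) (hp2 : p ≠ 2) (hT : 0 < T) (hpT : p ∣ T)
    (hφ : H2.IsInvChar (p * T) p φ) {g h : SL(2, ℤ)} (hg : g ∈ Gamma T) (hh : h ∈ Gamma T) :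
    phix φ (g * h * g⁻¹ * h⁻¹) = 1 := by
  have hcm : ∀ {a b : SL(2, ℤ)}, a ∈ Gamma T → b ∈ Gamma T → a * b * a⁻¹ * b⁻¹ ∈ Gamma (p * T) :=
    fun ha hb => commutator_mem_gamma_of_dvd hpT ha hb
  have hN : ∀ {a : SL(2, ℤ)} (s : SL(2, ℤ)), a ∈ Gamma (p * T) → s * a * s⁻¹ ∈ Gamma (p * T) :=
    fun s ha => (Gamma_normal (p * T)).conj_mem _ ha s
  have key := pairing_eq_one_of_invariant hT hpT (zmod_mul_eq_one_of_sq hp hp2)
    (fun g h : ↥(Gamma T) => phix φ ((g : SL(2, ℤ)) * h * (g : SL(2, ℤ))⁻¹ * (h : SL(2, ℤ))⁻¹))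
    ?_ ?_ ?_ ?_ ?_ ?_ ⟨g, hg⟩ ⟨h, hh⟩
  · exact key
  · -- multiplicativity in the first variable
    rintro ⟨a, ha⟩ ⟨a', ha'⟩ ⟨b, hb⟩
    show phix φ (a * a' * b * (a * a')⁻¹ * b⁻¹) = phix φ (a * b * a⁻¹ * b⁻¹) *
      phix φ (a' * b * a'⁻¹ * b⁻¹)
    have e : a * a' * b * (a * a')⁻¹ * b⁻¹ =
        a * (a' * b * a'⁻¹ * b⁻¹) * a⁻¹ * (a * b * a⁻¹ * b⁻¹) := by group
    rw [e, phix_mul φ (hN a (hcm ha' hb)) (hcm ha hb), phix_conj φ hφ a (hcm ha' hb), mul_comm]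
  · -- kills `Γ(p T)`
    rintro ⟨a, ha⟩ ⟨b, hb⟩ haN
    show phix φ (a * b * a⁻¹ * b⁻¹) = 1
    have haN' : a ∈ Gamma (p * T) := haN
    have e : a * b * a⁻¹ * b⁻¹ = a * (b * a⁻¹ * b⁻¹) := by group
    rw [e, phix_mul φ haN' (hN b (inv_mem haN')), phix_conj φ hφ b (inv_mem haN'),
      phix_inv φ haN', mul_inv_cancel]
  · -- antisymmetry
    rintro ⟨a, ha⟩ ⟨b, hb⟩
    show phix φ (b * a * b⁻¹ * a⁻¹) = (phix φ (a * b * a⁻¹ * b⁻¹))⁻¹
    rw [← phix_inv φ (hcm ha hb)]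
    congr 1
    group
  · -- alternating
    rintro ⟨a, ha⟩
    show phix φ (a * a * a⁻¹ * a⁻¹) = 1
    have e : a * a * a⁻¹ * a⁻¹ = 1 := by group
    rw [e, phix_one]
  · -- invariance under `x12 1`
    rintro ⟨a, ha⟩ ⟨b, hb⟩
    show phix φ (x12 1 * a * (x12 1)⁻¹ * (x12 1 * b * (x12 1)⁻¹) * (x12 1 * a * (x12 1)⁻¹)⁻¹ *
      (x12 1 * b * (x12 1)⁻¹)⁻¹) = phix φ (a * b * a⁻¹ * b⁻¹)
    rw [← phix_conj φ hφ (x12 1) (hcm ha hb)]
    congr 1
    group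
  · -- invariance under `S`
    rintro ⟨a, ha⟩ ⟨b, hb⟩
    show phix φ (ModularGroup.S * a * ModularGroup.S⁻¹ * (ModularGroup.S * b * ModularGroup.S⁻¹) *
      (ModularGroup.S * a * ModularGroup.S⁻¹)⁻¹ * (ModularGroup.S * b * ModularGroup.S⁻¹)⁻¹) =
        phix φ (a * b * a⁻¹ * b⁻¹)
    rw [← phix_conj φ hφ ModularGroup.S (hcm ha hb)]
    congr 1
    group

/-- **step (a)** of the wild extension lemma: `φ` kills the commutators of `Γ(T)`. -/
theorem phi_commutator_eq_one (hp : p.Prime) (hp2 : p ≠ 2) (hT : 0 < T) (hpT : p ∣ T)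
    (hφ : H2.IsInvChar (p * T) p φ) {g h : SL(2, ℤ)} (hg : g ∈ Gamma T) (hh : h ∈ Gamma T) :
    φ ⟨g * h * g⁻¹ * h⁻¹, commutator_mem_gamma_of_dvd hpT hg hh⟩ = 1 := by
  rw [← phix_of_mem φ (commutator_mem_gamma_of_dvd hpT hg hh)]
  exact phix_commutator_eq_one φ hp hp2 hT hpT hφ hg hh

/-- the `p`-th power map `Γ(T) → 𝔽_p`, `g ↦ φ (g ^ p)`, is multiplicative. -/
theorem phix_mul_pow (hp : p.Prime) (hp2 : p ≠ 2) (hT : 0 < T) (hpT : p ∣ T)
    (hφ : H2.IsInvChar (p * T) p φ) {g h : SL(2, ℤ)} (hg : g ∈ Gamma T) (hh : h ∈ Gamma T) :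
    phix φ ((g * h) ^ p) = phix φ (g ^ p) * phix φ (h ^ p) := by
  have hnorm := kerSub_normal φ hφ
  have h1 : g * h * g⁻¹ * h⁻¹ ∈ kerSub φ :=
    ⟨commutator_mem_gamma_of_dvd hpT hg hh, phix_commutator_eq_one φ hp hp2 hT hpT hφ hg hh⟩
  have h2 := mul_pow_mem_of_comm_mem (kerSub φ) h1 p
  have hgp : g ^ p ∈ Gamma (p * T) := pow_mem_gamma_of_dvd hpT hg
  have hhp : h ^ p ∈ Gamma (p * T) := pow_mem_gamma_of_dvd hpT hh
  have e : (g * h) ^ p = (g ^ p * h ^ p) * ((g ^ p * h ^ p)⁻¹ * (g * h) ^ p) := by group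
  rw [e, phix_mul φ (mul_mem hgp hhp) h2.1, h2.2, mul_one, phix_mul φ hgp hhp]

/-- **step (b)**: `φ (g ^ p) = 1` for `g ∈ Γ(T)` (`phix` form). -/
theorem phix_pow_eq_one (hp : p.Prime) (hp2 : p ≠ 2) (hT : 0 < T) (hpT : p ∣ T)
    (hφ : H2.IsInvChar (p * T) p φ) {g : SL(2, ℤ)} (hg : g ∈ Gamma T) :
    phix φ (g ^ p) = 1 := by
  have hpw : ∀ {a : SL(2, ℤ)}, a ∈ Gamma T → a ^ p ∈ Gamma (p * T) :=
    fun ha => pow_mem_gamma_of_dvd hpT ha
  let ψ : ↥(Gamma T) →* Multiplicative (ZMod p) :=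
    MonoidHom.mk' (fun g => phix φ ((g : SL(2, ℤ)) ^ p))
      (fun a b => phix_mul_pow φ hp hp2 hT hpT hφ a.2 b.2)
  have key := hom_eq_one_of_invariant hT hpT (zmod_mul_eq_one_of_sq hp hp2) ψ ?_ ?_ ?_ ⟨g, hg⟩
  · exact key
  · rintro ⟨a, ha⟩ haN
    show phix φ (a ^ p) = 1
    have haN' : a ∈ Gamma (p * T) := haN
    rw [phix_pow φ haN', zmod_mul_pow_eq_one]
  · rintro ⟨a, ha⟩
    show phix φ ((x12 1 * a * (x12 1)⁻¹) ^ p) = phix φ (a ^ p)
    rw [conj_pow, phix_conj φ hφ _ (hpw ha)]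
  · rintro ⟨a, ha⟩
    show phix φ ((ModularGroup.S * a * ModularGroup.S⁻¹) ^ p) = phix φ (a ^ p)
    rw [conj_pow, phix_conj φ hφ _ (hpw ha)]

/-- **step (b)** of the wild extension lemma: `φ (g ^ p) = 1` for `g ∈ Γ(T)`. -/
theorem phi_pow_eq_one (hp : p.Prime) (hp2 : p ≠ 2) (hT : 0 < T) (hpT : p ∣ T)
    (hφ : H2.IsInvChar (p * T) p φ) {g : SL(2, ℤ)} (hg : g ∈ Gamma T) :
    φ ⟨g ^ p, pow_mem_gamma_of_dvd hpT hg⟩ = 1 := by
  rw [← phix_of_mem φ (pow_mem_gamma_of_dvd hpT hg)]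
  exact phix_pow_eq_one φ hp hp2 hT hpT hφ hg

end Wild

end Fermat.Agent.S41.H66
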