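/-
S41 / package D-T (helper70): THEOREM T of helper2's CSP paper proof (#1439/#1456), assembly part.

`theoremT_of` : strong induction on the level `m`, from
  * the base case `m = p`,
  * ONE extension lemma for a prime `l` (tame `l ≠ p` or wild `l = p`), under `p ∣ m1`.
Mathlib only.
-/
import Mathlib

set_option autoImplicit false

namespace Fermat.Agent.S41.H70

open CongruenceSubgroup Matrix MatrixGroups

/-- `Γ(N) ≤ Γ(M)` when `M ∣ N`. -/
theorem Gamma_le_of_dvd {M N : ℕ} (h : M ∣ N) : Gamma N ≤ Gamma M := by
  intro γ hγ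
  rw [Gamma_mem] at hγ ⊢
  have key : ∀ (a b : ℤ), ((a : ZMod N) = (b : ZMod N)) → ((a : ZMod M) = (b : ZMod M)) := by
    intro a b hab
    rw [ZMod.intCast_eq_intCast_iff_dvd_sub] at hab ⊢
    exact dvd_trans (Int.natCast_dvd_natCast.mpr h) hab
  refine ⟨?_, ?_, ?_, ?_⟩
  · have := key (γ 0 0) 1 (by simpa using hγ.1); simpa using this
  · have := key (γ 0 1) 0 (by simpa using hγ.2.1); simpa using this
  · have := key (γ 1 0) 0 (by simpa using hγ.2.2.1); simpa using this
  · have := key (γ 1 1) 1 (by simpa using hγ.2.2.2); simpa using this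

/-- `SL(2,ℤ)`-conjugation-invariant characters of `Γ(m)` with values in `ZMod p`
(same shape as helper2's `IsInvChar`). -/
def IsInvCharT (m p : ℕ) (phi : Gamma m →* Multiplicative (ZMod p)) : Prop :=
  ∀ (s : SL(2, ℤ)) (g : Gamma m),
    phi ⟨s * g * s⁻¹, (Gamma_normal m).conj_mem g g.2 s⟩ = phi g

/-- The shape of the extension lemmas (tame and wild) of helper2 #1456. -/
def ExtensionStep (p l m1 : ℕ) : Prop :=
  ∀ phi : Gamma (l * m1) →* Multiplicative (ZMod p), IsInvCharT (l * m1) p phi →
    ∃ phi1 : Gamma m1 →* Multiplicative (ZMod p), IsInvCharT m1 p phi1 ∧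
      ∀ g : Gamma (l * m1), phi1 ⟨g, Gamma_le_of_dvd (Dvd.intro_left l rfl) g.2⟩ = phi g

/-- THEOREM T from the base case and the extension steps: strong induction on the level. -/
theorem theoremT_of {p : ℕ} (hp : p.Prime)
    (base : ∀ phi : Gamma p →* Multiplicative (ZMod p), IsInvCharT p p phi → phi = 1)
    (ext : ∀ l m1 : ℕ, l.Prime → 0 < m1 → p ∣ m1 → ExtensionStep p l m1) :
    ∀ m : ℕ, 0 < m → p ∣ m → ∀ phi : Gamma m →* Multiplicative (ZMod p),
      IsInvCharT m p phi → phi = 1 := by
  intro m
  induction m using Nat.strong_induction_on with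
  | _ m ih =>
    intro hm hpm phi hphi
    obtain ⟨k, rfl⟩ := hpm
    have hk : 0 < k := Nat.pos_of_mul_pos_left hm |> fun h => by
      rcases Nat.eq_zero_or_pos k with h0 | h0
      · simp [h0] at hm
      · exact h0
    by_cases hk1 : k = 1
    · subst hk1
      -- m = p * 1
      have hpp : p * 1 = p := mul_one p
      revert phi
      rw [hpp]
      intro phi hphi
      exact base phi hphi
    · -- pick a prime l ∣ k
      obtain ⟨l, hl, hlk⟩ := Nat.exists_prime_and_dvd hk1
      obtain ⟨k', rfl⟩ := hlk
      have hk' : 0 < k' := by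
        rcases Nat.eq_zero_or_pos k' with h0 | h0
        · simp [h0] at hk
        · exact h0
      have hm1 : 0 < p * k' := Nat.mul_pos hp.pos hk'
      have heq : p * (l * k') = l * (p * k') := by ring
      revert phi
      rw [heq]
      intro phi hphi
      obtain ⟨phi1, hphi1, hext⟩ := ext l (p * k') hl hm1 (Dvd.intro _ rfl) phi hphi
      have hlt : p * k' < p * (l * k') := by
        have : k' < l * k' := by
          have := hl.two_le
          nlinarith
        exact Nat.mul_lt_mul_of_pos_left this hp.pos
      have h1 : phi1 = 1 := ih (p * k') hlt hm1 (Dvd.intro _ rfl) phi1 hphi1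
      ext g
      have := hext g
      rw [h1] at this
      simpa using this.symm

end Fermat.Agent.S41.H70
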