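/-
S41 / package D-WILD, part (W-a) (helper70): the abstract core of the wild extension step (T2)
of helper2's Theorem T (#1456). Mathlib only, no matrices.

* `wild_core` : the linear algebra of step (c) (additive form): the braid relation forces
  `ω = β`, and the corrected triple `E', H', F'` spans a complement stable under `Y`, `W`.
* `wild_core_mul` : the same for a multiplicatively written commutative group.
* `exists_extension_of_complement` : a `G`-stable complement `T` of `N` in `N1` modulo `ker φ`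
  gives a `G`-invariant extension of `φ` to `N1`.
-/
import Mathlib

set_option autoImplicit false

namespace Fermat.Agent.S41.H70


theorem mem_closure_triple {V : Type*} [AddCommGroup V] {a b c v : V}
    (hv : v ∈ AddSubgroup.closure ({a, b, c} : Set V)) :
    ∃ k l m : ℤ, v = k • a + l • b + m • c := by
  induction hv using AddSubgroup.closure_induction with
  | mem x hx =>
    rcases hx with rfl | rfl | rfl
    · exact ⟨1, 0, 0, by simp⟩
    · exact ⟨0, 1, 0, by simp⟩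
    · exact ⟨0, 0, 1, by simp⟩
  | zero => exact ⟨0, 0, 0, by simp⟩
  | add x y _ _ hx hy =>
    obtain ⟨k, l, m, rfl⟩ := hx
    obtain ⟨k', l', m', rfl⟩ := hy
    exact ⟨k + k', l + l', m + m', by simp only [add_smul]; abel⟩
  | neg x _ hx =>
    obtain ⟨k, l, m, rfl⟩ := hx
    exact ⟨-k, -l, -m, by simp only [neg_smul]; abel⟩

/-- **Core of the wild step (T2)(c)** (helper2 #1456): abstract linear algebra. -/
theorem wild_core {V : Type*} [AddCommGroup V] {p : ℕ} (hp : p.Prime) (hp2 : p ≠ 2)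
    (hpV : ∀ v : V, p • v = 0) (Z : AddSubgroup V)
    (X Y W : V ≃+ V)
    (hYZ : ∀ v ∈ Z, Y v = v) (hWZ : ∀ v ∈ Z, W v = v)
    (hX : ∀ v, W (X v) = Y.symm (W v))
    (hbraid : ∀ v, W v = X (Y.symm (X v)))
    (E F : V) (hYF : Y F = F) (hWE : W E = -F) (hWF : W F = -E)
    (hYH : Y (E - F - Y E) - (E - F - Y E) - 2 • F ∈ Z)
    (hWH : W (E - F - Y E) + (E - F - Y E) ∈ Z)
    (hind : ∀ a b c : ℤ, a • E + b • (E - F - Y E) + c • F ∈ Z →
      (p : ℤ) ∣ a ∧ (p : ℤ) ∣ b ∧ (p : ℤ) ∣ c) :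
    ∃ M : AddSubgroup V, (∀ v ∈ M, Y v ∈ M) ∧ (∀ v ∈ M, Y.symm v ∈ M) ∧
      (∀ v ∈ M, W v ∈ M) ∧ (∀ v ∈ M, W.symm v ∈ M) ∧ M ⊓ Z = ⊥ ∧ ∃ ζ ∈ Z, E - ζ ∈ M := by
  obtain ⟨H, hH⟩ : ∃ H, H = E - F - Y E := ⟨_, rfl⟩
  rw [← hH] at hYH hWH hind
  obtain ⟨ζ1, hζ1⟩ : ∃ ζ1, ζ1 = Y H - H - 2 • F := ⟨_, rfl⟩
  obtain ⟨ζ2, hζ2⟩ : ∃ ζ2, ζ2 = W H + H := ⟨_, rfl⟩
  rw [← hζ1] at hYH
  rw [← hζ2] at hWH
  have hYE : Y E = E - H - F := by rw [hH]; abel
  have hYH' : Y H = H + 2 • F + ζ1 := by rw [hζ1]; abel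
  have hWH' : W H = -H + ζ2 := by rw [hζ2]; abel
  have hY1 : Y ζ1 = ζ1 := hYZ _ hYH
  have hW1 : W ζ1 = ζ1 := hWZ _ hYH
  have hW2 : W ζ2 = ζ2 := hWZ _ hWH
  -- inverses
  have hYsF : Y.symm F = F := by rw [AddEquiv.symm_apply_eq, hYF]
  have hYs1 : Y.symm ζ1 = ζ1 := by rw [AddEquiv.symm_apply_eq, hY1]
  have hYsH : Y.symm H = H - 2 • F - ζ1 := by
    rw [AddEquiv.symm_apply_eq, map_sub, map_sub, map_nsmul, hYH', hYF, hY1]; abel
  have hYsE : Y.symm E = E + H - F - ζ1 := by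
    rw [AddEquiv.symm_apply_eq, map_sub, map_sub, map_add, hYE, hYH', hYF, hY1]; abel
  have hWsE : W.symm E = -F := by rw [AddEquiv.symm_apply_eq, map_neg, hWF, neg_neg]
  have hWsF : W.symm F = -E := by rw [AddEquiv.symm_apply_eq, map_neg, hWE, neg_neg]
  have hWs1 : W.symm ζ1 = ζ1 := by rw [AddEquiv.symm_apply_eq, hW1]
  have hWs2 : W.symm ζ2 = ζ2 := by rw [AddEquiv.symm_apply_eq, hW2]
  have hWsH : W.symm H = -H + ζ2 := by
    rw [AddEquiv.symm_apply_eq, map_add, map_neg, hWH', hW2]; abel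
  have hXdef : ∀ v, X v = W.symm (Y.symm (W v)) := by
    intro v; rw [← hX v, AddEquiv.symm_apply_apply]
  have hXE : X E = E := by
    rw [hXdef, hWE, map_neg, hYsF, map_neg, hWsF, neg_neg]
  have hXH : X H = H - 2 • E + ζ1 := by
    rw [hXdef, hWH', map_add, map_neg, hYsH]
    have : Y.symm ζ2 = ζ2 := by rw [AddEquiv.symm_apply_eq, hYZ _ hWH]
    rw [this, map_add, map_neg, map_sub, map_sub, map_nsmul, hWsH, hWsF, hWs1, hWs2]; abel
  have hXF : X F = F + H - E + ζ1 - ζ2 := by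
    rw [hXdef, hWF, map_neg, hYsE, map_neg, map_sub, map_sub, map_add, hWsE, hWsH, hWsF, hWs1]
    abel
  have hX1 : X ζ1 = ζ1 := by
    rw [hXdef, hW1, hYs1, hWs1]
  -- the braid relation at `E` gives `ζ2 = ζ1`
  have h12 : ζ2 = ζ1 := by
    have h := hbraid E
    rw [hWE, hXE, hYsE, map_sub, map_sub, map_add, hXE, hXH, hXF, hX1] at h
    have : ζ2 - ζ1 = (E + (H - 2 • E + ζ1) - (F + H - E + ζ1 - ζ2) - ζ1) - (-F) := by abel
    rw [← h, sub_self] at this
    exact sub_eq_zero.mp this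
  subst h12
  -- half of `ζ`
  obtain ⟨k, hk⟩ : ∃ k : ℕ, 2 * k = p + 1 := by
    have hodd : p % 2 = 1 := by
      rcases hp.eq_two_or_odd with h | h
      · exact absurd h hp2
      · exact h
    exact ⟨(p + 1) / 2, by omega⟩
  obtain ⟨κ, hκ⟩ : ∃ κ, κ = k • ζ2 := ⟨_, rfl⟩
  have hκZ : κ ∈ Z := by rw [hκ]; exact Z.nsmul_mem hWH k
  have h2κ : 2 • κ = ζ2 := by
    rw [hκ, ← mul_nsmul', hk, add_nsmul, hpV, zero_add, one_nsmul]
  have hYκ : Y κ = κ := hYZ _ hκZ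
  have hWκ : W κ = κ := hWZ _ hκZ
  have hYsκ : Y.symm κ = κ := by rw [AddEquiv.symm_apply_eq, hYκ]
  have hWsκ : W.symm κ = κ := by rw [AddEquiv.symm_apply_eq, hWκ]
  have hζκ : ζ2 = κ + κ := by rw [← h2κ, two_nsmul]
  set E' := E - κ with hE'
  set H' := H - κ with hH'
  set F' := F + κ with hF'
  set M : AddSubgroup V := AddSubgroup.closure ({E', H', F'} : Set V) with hM
  have hE'M : E' ∈ M := AddSubgroup.subset_closure (by simp)
  have hH'M : H' ∈ M := AddSubgroup.subset_closure (by simp)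
  have hF'M : F' ∈ M := AddSubgroup.subset_closure (by simp)
  have stab : ∀ f : V →+ V, f E' ∈ M → f H' ∈ M → f F' ∈ M → ∀ v ∈ M, f v ∈ M := by
    intro f h1 h2 h3 v hv
    have : M ≤ M.comap f := by
      rw [hM, AddSubgroup.closure_le]
      intro x hx
      rcases hx with rfl | rfl | rfl
      · exact h1
      · exact h2
      · exact h3
    exact this hv
  refine ⟨M, ?_, ?_, ?_, ?_, ?_, ⟨κ, hκZ, hE'M⟩⟩
  · refine stab Y.toAddMonoidHom ?_ ?_ ?_
    · have : Y E' = E' - H' - F' := by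
        rw [hE', hH', hF', map_sub, hYE, hYκ]; abel
      change Y E' ∈ M
      rw [this]; exact M.sub_mem (M.sub_mem hE'M hH'M) hF'M
    · have : Y H' = H' + F' + F' := by
        rw [hH', hF', map_sub, hYH', hYκ, hζκ, two_nsmul]; abel
      change Y H' ∈ M
      rw [this]; exact M.add_mem (M.add_mem hH'M hF'M) hF'M
    · have : Y F' = F' := by
        rw [hF', map_add, hYF, hYκ]
      change Y F' ∈ M
      rw [this]; exact hF'M
  · refine stab Y.symm.toAddMonoidHom ?_ ?_ ?_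
    · have : Y.symm E' = E' + H' - F' := by
        rw [hE', hH', hF', map_sub, hYsE, hYsκ, hζκ]; abel
      change Y.symm E' ∈ M
      rw [this]; exact M.sub_mem (M.add_mem hE'M hH'M) hF'M
    · have : Y.symm H' = H' - F' - F' := by
        rw [hH', hF', map_sub, hYsH, hYsκ, hζκ, two_nsmul]; abel
      change Y.symm H' ∈ M
      rw [this]; exact M.sub_mem (M.sub_mem hH'M hF'M) hF'M
    · have : Y.symm F' = F' := by
        rw [hF', map_add, hYsF, hYsκ]
      change Y.symm F' ∈ M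
      rw [this]; exact hF'M
  · refine stab W.toAddMonoidHom ?_ ?_ ?_
    · have : W E' = -F' := by
        rw [hE', hF', map_sub, hWE, hWκ]; abel
      change W E' ∈ M
      rw [this]; exact M.neg_mem hF'M
    · have : W H' = -H' := by
        rw [hH', map_sub, hWH', hWκ, hζκ]; abel
      change W H' ∈ M
      rw [this]; exact M.neg_mem hH'M
    · have : W F' = -E' := by
        rw [hE', hF', map_add, hWF, hWκ]; abel
      change W F' ∈ M
      rw [this]; exact M.neg_mem hE'M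
  · refine stab W.symm.toAddMonoidHom ?_ ?_ ?_
    · have : W.symm E' = -F' := by
        rw [hE', hF', map_sub, hWsE, hWsκ]; abel
      change W.symm E' ∈ M
      rw [this]; exact M.neg_mem hF'M
    · have : W.symm H' = -H' := by
        rw [hH', map_sub, hWsH, hWsκ, hζκ]; abel
      change W.symm H' ∈ M
      rw [this]; exact M.neg_mem hH'M
    · have : W.symm F' = -E' := by
        rw [hE', hF', map_add, hWsF, hWsκ]; abel
      change W.symm F' ∈ M
      rw [this]; exact M.neg_mem hE'M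
  · rw [eq_bot_iff]
    intro v hv
    obtain ⟨hvM, hvZ⟩ := AddSubgroup.mem_inf.mp hv
    obtain ⟨a, b, c, rfl⟩ := mem_closure_triple hvM
    have h1 : a • E + b • H + c • F ∈ Z := by
      have : a • E + b • H + c • F = (a • E' + b • H' + c • F') + (a + b - c) • κ := by
        rw [hE', hH', hF']
        simp only [smul_sub, smul_add, add_smul, sub_smul]
        abel
      rw [this]
      exact Z.add_mem hvZ (Z.zsmul_mem hκZ _)
    obtain ⟨⟨a', rfl⟩, ⟨b', rfl⟩, ⟨c', rfl⟩⟩ := hind a b c h1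
    have hz : ∀ (n : ℤ) (v : V), ((p : ℤ) * n) • v = 0 := by
      intro n v
      rw [mul_comm, mul_smul, natCast_zsmul, hpV, smul_zero]
    rw [AddSubgroup.mem_bot, hz, hz, hz, add_zero, add_zero]


/-- Multiplicative form of `wild_core`. -/
theorem wild_core_mul {K : Type*} [Group K] {p : ℕ} (hp : p.Prime) (hp2 : p ≠ 2)
    (hcomm : ∀ a b : K, a * b = b * a)
    (hpK : ∀ k : K, k ^ p = 1) (Z : Subgroup K)
    (X Y W : K ≃* K)
    (hYZ : ∀ v ∈ Z, Y v = v) (hWZ : ∀ v ∈ Z, W v = v)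
    (hX : ∀ v, W (X v) = Y.symm (W v))
    (hbraid : ∀ v, W v = X (Y.symm (X v)))
    (E F : K) (hYF : Y F = F) (hWE : W E = F⁻¹) (hWF : W F = E⁻¹)
    (hYH : Y (E / F / Y E) / (E / F / Y E) / F ^ 2 ∈ Z)
    (hWH : W (E / F / Y E) * (E / F / Y E) ∈ Z)
    (hind : ∀ a b c : ℤ, E ^ a * (E / F / Y E) ^ b * F ^ c ∈ Z →
      (p : ℤ) ∣ a ∧ (p : ℤ) ∣ b ∧ (p : ℤ) ∣ c) :
    ∃ M : Subgroup K, (∀ v ∈ M, Y v ∈ M) ∧ (∀ v ∈ M, Y.symm v ∈ M) ∧
      (∀ v ∈ M, W v ∈ M) ∧ (∀ v ∈ M, W.symm v ∈ M) ∧ M ⊓ Z = ⊥ ∧ ∃ ζ ∈ Z, E / ζ ∈ M := by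
  let _ : CommGroup K := { (inferInstance : Group K) with mul_comm := hcomm }
  obtain ⟨M, h1, h2, h3, h4, h5, ζ, hζ, h6⟩ :=
    wild_core (V := Additive K) hp hp2 (fun v => hpK (Additive.toMul v)) (Subgroup.toAddSubgroup Z)
      (MulEquiv.toAdditive X) (MulEquiv.toAdditive Y) (MulEquiv.toAdditive W)
      (fun v hv => hYZ _ hv) (fun v hv => hWZ _ hv) (fun v => hX _) (fun v => hbraid _)
      (Additive.ofMul E) (Additive.ofMul F) hYF hWE hWF hYH hWH
      (fun a b c h => hind a b c h)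
  refine ⟨AddSubgroup.toSubgroup' M, fun v hv => h1 _ hv, fun v hv => h2 _ hv,
    fun v hv => h3 _ hv, fun v hv => h4 _ hv, ?_, Additive.toMul ζ, hζ, h6⟩
  rw [eq_bot_iff]
  intro v hv
  have : Additive.ofMul v ∈ M ⊓ Subgroup.toAddSubgroup Z :=
    AddSubgroup.mem_inf.mpr ⟨(Subgroup.mem_inf.mp hv).1, (Subgroup.mem_inf.mp hv).2⟩
  rw [h5, AddSubgroup.mem_bot] at this
  rw [Subgroup.mem_bot]
  exact this


/-- **Extension from a complement.** `N ≤ N1` normal in `G`, `φ : N →* C` a `G`-invariant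
character, `T ≤ N1` a `G`-stable subgroup with `T ∩ N ⊆ ker φ` and `N1 ≤ T N`: then `φ` extends to
a `G`-invariant character of `N1` (trivial on `T`). -/
theorem exists_extension_of_complement {G : Type*} [Group G] {C : Type*} [Group C]
    (N N1 T : Subgroup G) [hN : N.Normal] [hN1 : N1.Normal] (hle : N ≤ N1)
    (hTn : ∀ (s : G), ∀ t ∈ T, s * t * s⁻¹ ∈ T)
    (φ : N →* C) (hinv : ∀ (g : G) (n : N), φ ⟨g * n * g⁻¹, hN.conj_mem n n.2 g⟩ = φ n)
    (hTN : ∀ g, g ∈ T → ∀ h : g ∈ N, φ ⟨g, h⟩ = 1)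
    (hsup : N1 ≤ T ⊔ N) :
    ∃ φ1 : N1 →* C,
      (∀ (g : G) (x : N1), φ1 ⟨g * x * g⁻¹, hN1.conj_mem x x.2 g⟩ = φ1 x) ∧
      ∀ n : N, φ1 ⟨n, hle n.2⟩ = φ n := by
  have hdec : ∀ x : N1, ∃ t ∈ T, ∃ n : N, (x : G) = t * n := by
    intro x
    have hx : (x : G) ∈ ((T ⊔ N : Subgroup G) : Set G) := hsup x.2
    rw [Subgroup.mul_normal, Set.mem_mul] at hx
    obtain ⟨t, ht, n, hn, h⟩ := hx
    exact ⟨t, ht, ⟨n, hn⟩, h.symm⟩
  have hwd : ∀ t ∈ T, ∀ t' ∈ T, ∀ n n' : N, t * n = t' * n' → φ n = φ n' := by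
    intro t ht t' ht' n n' h
    have h1 : t'⁻¹ * t = (n' : G) * (n : G)⁻¹ := by
      have : t = t' * n' * (n : G)⁻¹ := by rw [← h]; group
      rw [this]; group
    have h2 : (n' : G) * (n : G)⁻¹ ∈ T := h1 ▸ T.mul_mem (T.inv_mem ht') ht
    have h3 : (n' : G) * (n : G)⁻¹ ∈ N := N.mul_mem n'.2 (N.inv_mem n.2)
    have h4 := hTN _ h2 h3
    have h5 : (⟨(n' : G) * (n : G)⁻¹, h3⟩ : N) = n' * n⁻¹ := rfl
    rw [h5, map_mul, map_inv, mul_inv_eq_one] at h4
    exact h4.symm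
  choose tt htt nn hnn using hdec
  have hF : ∀ (x : N1), ∀ t ∈ T, ∀ n : N, (x : G) = t * n → φ (nn x) = φ n := fun x t ht n h =>
    (hwd t ht (tt x) (htt x) n (nn x) (by rw [← h, ← hnn x])).symm
  have hmul : ∀ a b : N1, φ (nn (a * b)) = φ (nn a) * φ (nn b) := by
    intro a b
    have hc : (tt b)⁻¹ * (nn a : G) * (tt b)⁻¹⁻¹ ∈ N := hN.conj_mem _ (nn a).2 _
    have h1 : ((a * b : N1) : G) = (tt a * tt b) *
        (((⟨(tt b)⁻¹ * (nn a : G) * (tt b)⁻¹⁻¹, hc⟩ : N) * nn b : N) : G) := by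
      rw [Subgroup.coe_mul, hnn a, hnn b]
      simp only [Subgroup.coe_mul]
      group
    rw [hF _ _ (T.mul_mem (htt a) (htt b)) _ h1, map_mul, hinv (tt b)⁻¹ (nn a)]
  refine ⟨MonoidHom.mk' (fun x => φ (nn x)) hmul, fun g x => ?_, fun n => ?_⟩
  · have hc : g * (nn x : G) * g⁻¹ ∈ N := hN.conj_mem _ (nn x).2 _
    have h1 : ((⟨g * x * g⁻¹, hN1.conj_mem x x.2 g⟩ : N1) : G) =
        (g * tt x * g⁻¹) * ((⟨g * (nn x : G) * g⁻¹, hc⟩ : N) : G) := by
      change g * (x : G) * g⁻¹ = _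
      rw [hnn x]
      group
    change φ (nn _) = φ (nn x)
    rw [hF _ _ (hTn g _ (htt x)) _ h1, hinv g (nn x)]
  · change φ (nn _) = φ n
    exact hF _ 1 T.one_mem n (by simp)


end Fermat.Agent.S41.H70
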