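/-
S41 / package D-WILD (helper70): the ABSTRACT WILD EXTENSION theorem (T2) of helper2's Theorem T
(#1456): pure group theory, no matrices. Inputs: steps (a), (b) (the character kills commutators
and `p`-th powers of `N1`), the Weyl/braid relations among `y = x21(1)`, `w`, the exact relations
for `E = x12(T)`, `F = x21(T)`, two congruences for `H`, independence of `E, H, F` modulo `N`, and
generation of `N1` by `N` and the conjugates of `E`.
-/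
import Fermat.Agent.S41.H39_CSP_LemmaB
import Fermat.Agent.S41.H70_CSP_WildCore

set_option autoImplicit false

namespace Fermat.Agent.S41.H70

/-- **Abstract wild extension (T2)** (helper2 #1456), no matrices. -/
theorem wild_extension_abstract {G : Type*} [Group G] {C : Type*} [Group C] {p : ℕ}
    (hp : p.Prime) (hp2 : p ≠ 2)
    (N N1 : Subgroup G) [hN : N.Normal] [hN1 : N1.Normal] (hle : N ≤ N1)
    (φ : N →* C) (hinv : ∀ (g : G) (n : N), φ ⟨g * n * g⁻¹, hN.conj_mem n n.2 g⟩ = φ n)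
    (ha : ∀ g ∈ N1, ∀ h ∈ N1, ∃ hm : g * h * g⁻¹ * h⁻¹ ∈ N, φ ⟨_, hm⟩ = 1)
    (hb : ∀ g ∈ N1, ∃ hm : g ^ p ∈ N, φ ⟨_, hm⟩ = 1)
    (y w : G) (hgen : Subgroup.closure {y, w} = ⊤)
    (hbraid : w = (w⁻¹ * y⁻¹ * w) * y⁻¹ * (w⁻¹ * y⁻¹ * w))
    (E F : G) (hE : E ∈ N1) (hF : F ∈ N1)
    (hyF : y * F * y⁻¹ = F) (hwE : w * E * w⁻¹ = F⁻¹) (hwF : w * F * w⁻¹ = E⁻¹)
    (hyH : y * (E * F⁻¹ * (y * E * y⁻¹)⁻¹) * y⁻¹ * (E * F⁻¹ * (y * E * y⁻¹)⁻¹)⁻¹ * (F ^ 2)⁻¹ ∈ N)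
    (hwH : w * (E * F⁻¹ * (y * E * y⁻¹)⁻¹) * w⁻¹ * (E * F⁻¹ * (y * E * y⁻¹)⁻¹) ∈ N)
    (hind : ∀ a b c : ℤ, E ^ a * (E * F⁻¹ * (y * E * y⁻¹)⁻¹) ^ b * F ^ c ∈ N →
      (p : ℤ) ∣ a ∧ (p : ℤ) ∣ b ∧ (p : ℤ) ∣ c)
    (hgenN1 : N1 ≤ N ⊔ Subgroup.normalClosure {E}) :
    ∃ φ1 : N1 →* C,
      (∀ (g : G) (x : N1), φ1 ⟨g * x * g⁻¹, hN1.conj_mem x x.2 g⟩ = φ1 x) ∧
      ∀ n : N, φ1 ⟨n, hle n.2⟩ = φ n := by
  classical
  -- the quotient by the kernel of `φ`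
  have hM0n : (H39.kerG φ).Normal := H39.kerG_normal N φ hinv
  set M0 : Subgroup G := H39.kerG φ with hM0
  have hM0N : M0 ≤ N := H39.kerG_le φ
  let q : G →* G ⧸ M0 := QuotientGroup.mk' M0
  have hq : Function.Surjective q := QuotientGroup.mk'_surjective _
  have hq1 : ∀ g : G, q g = 1 ↔ g ∈ M0 := fun g => QuotientGroup.eq_one_iff g
  have hqeq : ∀ g h : G, q g = q h ↔ g * h⁻¹ ∈ M0 := by
    intro g h
    rw [← hq1, map_mul, map_inv, mul_inv_eq_one]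
  set Kq : Subgroup (G ⧸ M0) := N1.map q with hKq
  set Zq : Subgroup (G ⧸ M0) := N.map q with hZq
  have hKn : Kq.Normal := hN1.map q hq
  have hZK : Zq ≤ Kq := Subgroup.map_mono hle
  -- `Zq` is central
  have hZc : ∀ z ∈ Zq, ∀ g : G ⧸ M0, g * z * g⁻¹ = z := by
    rintro _ ⟨n, hn, rfl⟩ g
    obtain ⟨g, rfl⟩ := hq g
    rw [← map_inv, ← map_mul, ← map_mul, hqeq]
    refine (H39.mem_kerG φ).mpr ⟨N.mul_mem (hN.conj_mem n hn g) (N.inv_mem hn), ?_⟩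
    have h3 : (⟨g * n * g⁻¹ * n⁻¹, N.mul_mem (hN.conj_mem n hn g) (N.inv_mem hn)⟩ : N) =
        ⟨g * n * g⁻¹, hN.conj_mem n hn g⟩ * (⟨n, hn⟩ : N)⁻¹ := rfl
    rw [h3, map_mul, map_inv, hinv g ⟨n, hn⟩, mul_inv_cancel]
  -- `Kq` is commutative of exponent `p`
  have hKc : ∀ a b : Kq, a * b = b * a := by
    rintro ⟨_, ⟨g, hg, rfl⟩⟩ ⟨_, ⟨h, hh, rfl⟩⟩
    apply Subtype.ext
    change q g * q h = q h * q g
    obtain ⟨hm, hφ⟩ := ha g hg h hh
    have : q (g * h * g⁻¹ * h⁻¹) = 1 := (hq1 _).mpr ((H39.mem_kerG φ).mpr ⟨hm, hφ⟩)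
    rw [map_mul, map_mul, map_mul, map_inv, map_inv] at this
    calc q g * q h = (q g * q h * (q g)⁻¹ * (q h)⁻¹) * (q h * q g) := by group
      _ = q h * q g := by rw [this, one_mul]
  have hKp : ∀ k : Kq, k ^ p = 1 := by
    rintro ⟨_, ⟨g, hg, rfl⟩⟩
    apply Subtype.ext
    change q g ^ p = 1
    obtain ⟨hm, hφ⟩ := hb g hg
    rw [← map_pow]
    exact (hq1 _).mpr ((H39.mem_kerG φ).mpr ⟨hm, hφ⟩)
  -- the data in the quotient
  obtain ⟨x, hx⟩ : ∃ x : G, x = w⁻¹ * y⁻¹ * w := ⟨_, rfl⟩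
  rw [← hx] at hbraid
  obtain ⟨Hh, hHh⟩ : ∃ Hh : G, Hh = E * F⁻¹ * (y * E * y⁻¹)⁻¹ := ⟨_, rfl⟩
  rw [← hHh] at hyH hwH hind
  have hxq : q x = (q w)⁻¹ * (q y)⁻¹ * q w := by rw [hx]; simp
  have hbq : q w = q x * (q y)⁻¹ * q x := by
    conv_lhs => rw [hbraid]
    simp
  let Y : Kq ≃* Kq := MulAut.conjNormal (q y)
  let W : Kq ≃* Kq := MulAut.conjNormal (q w)
  let X : Kq ≃* Kq := MulAut.conjNormal (q x)
  have hYa : ∀ v : Kq, ((Y v : Kq) : G ⧸ M0) = q y * v * (q y)⁻¹ := fun v =>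
    MulAut.conjNormal_apply _ _
  have hWa : ∀ v : Kq, ((W v : Kq) : G ⧸ M0) = q w * v * (q w)⁻¹ := fun v =>
    MulAut.conjNormal_apply _ _
  have hXa : ∀ v : Kq, ((X v : Kq) : G ⧸ M0) = q x * v * (q x)⁻¹ := fun v =>
    MulAut.conjNormal_apply _ _
  have hYs : ∀ v : Kq, ((Y.symm v : Kq) : G ⧸ M0) = (q y)⁻¹ * v * q y := fun v =>
    MulAut.conjNormal_symm_apply _ _
  have hWs : ∀ v : Kq, ((W.symm v : Kq) : G ⧸ M0) = (q w)⁻¹ * v * q w := fun v =>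
    MulAut.conjNormal_symm_apply _ _
  let E' : Kq := ⟨q E, Subgroup.mem_map_of_mem q hE⟩
  let F' : Kq := ⟨q F, Subgroup.mem_map_of_mem q hF⟩
  have hcore := wild_core_mul hp hp2 hKc hKp (Zq.subgroupOf Kq) X Y W
    (fun v hv => Subtype.ext (by rw [hYa]; exact hZc _ (Subgroup.mem_subgroupOf.mp hv) _))
    (fun v hv => Subtype.ext (by rw [hWa]; exact hZc _ (Subgroup.mem_subgroupOf.mp hv) _))
    (fun v => Subtype.ext (by rw [hWa, hXa, hYs, hWa, hxq]; group))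
    (fun v => Subtype.ext (by
      rw [hWa, hXa, hYs, hXa]
      conv_lhs => rw [hbq]
      group))
    E' F'
    (Subtype.ext (by
      rw [hYa]
      change q y * q F * (q y)⁻¹ = q F
      rw [← map_inv, ← map_mul, ← map_mul, hyF]))
    (Subtype.ext (by
      rw [hWa]
      change q w * q E * (q w)⁻¹ = (q F)⁻¹
      rw [← map_inv, ← map_mul, ← map_mul, hwE, map_inv]))
    (Subtype.ext (by
      rw [hWa]
      change q w * q F * (q w)⁻¹ = (q E)⁻¹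
      rw [← map_inv, ← map_mul, ← map_mul, hwF, map_inv]))
    ?_ ?_ ?_
  rotate_left
  · -- hYH
    rw [Subgroup.mem_subgroupOf]
    refine ⟨_, hyH, ?_⟩
    simp only [Subgroup.coe_mul, Subgroup.coe_inv, Subgroup.coe_pow, hYa, div_eq_mul_inv, map_mul,
      map_inv, map_pow, hHh, E', F']
    group
  · -- hWH
    rw [Subgroup.mem_subgroupOf]
    refine ⟨_, hwH, ?_⟩
    simp only [Subgroup.coe_mul, Subgroup.coe_inv, hYa, hWa, div_eq_mul_inv, map_mul, map_inv,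
      hHh, E', F']
    group
  · -- hind
    intro a b c habc
    apply hind a b c
    rw [Subgroup.mem_subgroupOf] at habc
    obtain ⟨n, hn, hnq⟩ := habc
    have h1 : q n = q (E ^ a * Hh ^ b * F ^ c) := by
      rw [hnq]
      simp only [Subgroup.coe_mul, Subgroup.coe_inv, Subgroup.coe_zpow, hYa, div_eq_mul_inv,
        map_mul, map_inv, map_zpow, hHh, E', F']
    rw [hqeq] at h1
    have h2 : E ^ a * Hh ^ b * F ^ c = (n * (E ^ a * Hh ^ b * F ^ c)⁻¹)⁻¹ * n := by group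
    rw [h2]
    exact N.mul_mem (N.inv_mem (hM0N h1)) hn
  obtain ⟨M, hMY, hMYs, hMW, hMWs, hMZ, ζ, hζ, hEζ⟩ := hcore
  -- the complement in the quotient and its normality
  set M' : Subgroup (G ⧸ M0) := M.map Kq.subtype with hM'
  have hM'mem : ∀ v : G ⧸ M0, v ∈ M' ↔ ∃ hv : v ∈ Kq, (⟨v, hv⟩ : Kq) ∈ M := by
    intro v
    constructor
    · rintro ⟨k, hk, rfl⟩
      exact ⟨k.2, hk⟩
    · rintro ⟨hv, hk⟩
      exact ⟨⟨v, hv⟩, hk, rfl⟩
  have hnorm : ∀ g : G ⧸ M0, (∀ v ∈ M, (MulAut.conjNormal g : Kq ≃* Kq) v ∈ M) →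
      (∀ v ∈ M, (MulAut.conjNormal g : Kq ≃* Kq).symm v ∈ M) → g ∈ Subgroup.normalizer M' := by
    intro g h1 h2
    rw [Subgroup.mem_normalizer_iff]
    intro v
    constructor
    · intro hv
      obtain ⟨hvK, hvM⟩ := (hM'mem v).mp hv
      refine (hM'mem _).mpr ⟨hKn.conj_mem v hvK g, ?_⟩
      have := h1 _ hvM
      convert this using 1
      apply Subtype.ext
      rw [MulAut.conjNormal_apply]
    · intro hv
      obtain ⟨hvK, hvM⟩ := (hM'mem _).mp hv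
      have h3 := h2 _ hvM
      have h4 : ((MulAut.conjNormal g : Kq ≃* Kq).symm ⟨g * v * g⁻¹, hvK⟩ : Kq) =
          ⟨v, by have := hKn.conj_mem _ hvK g⁻¹; simpa [mul_assoc] using this⟩ := by
        apply Subtype.ext
        rw [MulAut.conjNormal_symm_apply]
        simp [mul_assoc]
      rw [h4] at h3
      exact (hM'mem v).mpr ⟨_, h3⟩
  have hM'n : M'.Normal := by
    rw [← Subgroup.normalizer_eq_top_iff, eq_top_iff]
    have h1 : Subgroup.closure ({q y, q w} : Set (G ⧸ M0)) = ⊤ := by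
      have : ({q y, q w} : Set (G ⧸ M0)) = q '' {y, w} := by
        rw [Set.image_pair]
      rw [this, ← MonoidHom.map_closure, hgen, ← MonoidHom.range_eq_map,
        MonoidHom.range_eq_top.mpr hq]
    rw [← h1, Subgroup.closure_le]
    rintro g (rfl | rfl)
    · exact hnorm _ hMY hMYs
    · exact hnorm _ hMW hMWs
  -- the complement in `G`
  set T : Subgroup G := M'.comap q ⊓ N1 with hT
  have hTn : ∀ (s : G), ∀ t ∈ T, s * t * s⁻¹ ∈ T := by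
    intro s t ht
    obtain ⟨ht1, ht2⟩ := Subgroup.mem_inf.mp ht
    refine Subgroup.mem_inf.mpr ⟨?_, hN1.conj_mem t ht2 s⟩
    rw [Subgroup.mem_comap, map_mul, map_mul, map_inv]
    exact hM'n.conj_mem _ (Subgroup.mem_comap.mp ht1) _
  have hTN : ∀ g, g ∈ T → ∀ h : g ∈ N, φ ⟨g, h⟩ = 1 := by
    intro g hg h
    obtain ⟨hg1, hg2⟩ := Subgroup.mem_inf.mp hg
    rw [Subgroup.mem_comap] at hg1
    obtain ⟨hgK, hgM⟩ := (hM'mem _).mp hg1
    have h1 : (⟨q g, hgK⟩ : Kq) ∈ M ⊓ Zq.subgroupOf Kq :=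
      Subgroup.mem_inf.mpr ⟨hgM, Subgroup.mem_subgroupOf.mpr (Subgroup.mem_map_of_mem q h)⟩
    rw [hMZ, Subgroup.mem_bot] at h1
    have h2 : q g = 1 := congrArg Subtype.val h1
    obtain ⟨h3, h4⟩ := (H39.mem_kerG φ).mp ((hq1 g).mp h2)
    exact h4
  have hsup : N1 ≤ T ⊔ N := by
    have hTnormal : T.Normal := ⟨fun t ht s => hTn s t ht⟩
    have hET : E ∈ T ⊔ N := by
      obtain ⟨n, hn, hnζ⟩ := Subgroup.mem_subgroupOf.mp hζ
      have h1 : E * n⁻¹ ∈ T := by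
        refine Subgroup.mem_inf.mpr ⟨?_, N1.mul_mem hE (N1.inv_mem (hle hn))⟩
        rw [Subgroup.mem_comap]
        refine (hM'mem _).mpr ⟨Subgroup.mem_map_of_mem q (N1.mul_mem hE (N1.inv_mem (hle hn))), ?_⟩
        convert hEζ using 1
        apply Subtype.ext
        rw [Subgroup.coe_div, ← hnζ]
        change q (E * n⁻¹) = q E / q n
        rw [map_mul, map_inv, div_eq_mul_inv]
      have h2 : E = (E * n⁻¹) * n := by group
      rw [h2]
      exact Subgroup.mul_mem _ (Subgroup.mem_sup_left h1) (Subgroup.mem_sup_right hn)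
    refine le_trans hgenN1 (sup_le le_sup_right ?_)
    exact Subgroup.normalClosure_le_normal (Set.singleton_subset_iff.mpr hET)
  exact exists_extension_of_complement N N1 T hle hTn φ hinv hTN hsup


end Fermat.Agent.S41.H70
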