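/-
S41 / package D-WILD (helper70): the DICTIONARY for the wild extension step (T2): instantiation of
`H70.wild_extension_abstract` for `G = SL(2, ℤ)`, `N = Γ(p m1)`, `N1 = Γ(m1)` (`p ∣ m1`),
`y = x21 1`, `w = S⁻¹`, `E = x12 m1`, `F = x21 m1`. Steps (a), (b) (the character kills commutators
and `p`-th powers of `Γ(m1)`) enter as hypotheses `ha`, `hb`.
-/
import Fermat.Agent.S41.H70_CSP_WildAbstract
import Fermat.Agent.S41.H70_CSP_TameAux
import Fermat.Agent.S41.H66_CSP_Gen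
import Fermat.Agent.S41.H2_CSPDefs

set_option autoImplicit false

namespace Fermat.Agent.S41.H70


open CongruenceSubgroup Matrix MatrixGroups
open Fermat.Agent.S41.H66 (x12 x21)

/-- The Weyl element `[[0, 1], [-1, 0]] = S⁻¹`. -/
def wEl : SL(2, ℤ) := ModularGroup.S⁻¹

theorem coe_wEl : (wEl : Matrix (Fin 2) (Fin 2) ℤ) = !![0, 1; -1, 0] := by
  rw [wEl, Matrix.SpecialLinearGroup.coe_inv, ModularGroup.coe_S, Matrix.adjugate_fin_two_of]
  simp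

theorem coe_wEl_inv : ((wEl⁻¹ : SL(2, ℤ)) : Matrix (Fin 2) (Fin 2) ℤ) = !![0, -1; 1, 0] := by
  rw [wEl, inv_inv, ModularGroup.coe_S]

theorem coe_x21_inv (t : ℤ) : (((x21 t)⁻¹ : SL(2, ℤ)) : Matrix (Fin 2) (Fin 2) ℤ) = !![1, 0; -t, 1] := by
  rw [← H66.x21_neg]; rfl

theorem coe_x12_inv (t : ℤ) : (((x12 t)⁻¹ : SL(2, ℤ)) : Matrix (Fin 2) (Fin 2) ℤ) = !![1, -t; 0, 1] := by
  rw [← H66.x12_neg]; rfl

theorem w_conj_x12 (t : ℤ) : wEl * x12 t * wEl⁻¹ = (x21 t)⁻¹ := by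
  apply Subtype.ext
  simp only [Matrix.SpecialLinearGroup.coe_mul, coe_wEl, coe_wEl_inv, coe_x21_inv, H66.coe_x12]
  ext i j
  fin_cases i <;> fin_cases j <;> simp [Matrix.mul_apply, Fin.sum_univ_two]

theorem w_conj_x21 (t : ℤ) : wEl * x21 t * wEl⁻¹ = (x12 t)⁻¹ := by
  apply Subtype.ext
  simp only [Matrix.SpecialLinearGroup.coe_mul, coe_wEl, coe_wEl_inv, coe_x12_inv, H66.coe_x21]
  ext i j
  fin_cases i <;> fin_cases j <;> simp [Matrix.mul_apply, Fin.sum_univ_two]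

theorem y_conj_x21 (t : ℤ) : x21 1 * x21 t * (x21 1)⁻¹ = x21 t := by
  rw [← H66.x21_add, ← H66.x21_neg, ← H66.x21_add]
  congr 1
  ring

theorem wEl_inv_mul_y_inv_mul_wEl : wEl⁻¹ * (x21 1)⁻¹ * wEl = x12 1 := by
  apply Subtype.ext
  simp only [Matrix.SpecialLinearGroup.coe_mul, coe_wEl, coe_wEl_inv, coe_x21_inv, H66.coe_x12]
  ext i j
  fin_cases i <;> fin_cases j <;> simp [Matrix.mul_apply, Fin.sum_univ_two]

theorem braid_y_w :
    wEl = (wEl⁻¹ * (x21 1)⁻¹ * wEl) * (x21 1)⁻¹ * (wEl⁻¹ * (x21 1)⁻¹ * wEl) := by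
  rw [wEl_inv_mul_y_inv_mul_wEl]
  apply Subtype.ext
  simp only [Matrix.SpecialLinearGroup.coe_mul, coe_wEl, coe_x21_inv, H66.coe_x12]
  ext i j
  fin_cases i <;> fin_cases j <;> simp [Matrix.mul_apply, Fin.sum_univ_two]

theorem closure_y_w : Subgroup.closure ({x21 1, wEl} : Set SL(2, ℤ)) = ⊤ := by
  rw [eq_top_iff, ← SpecialLinearGroup.SL2Z_generators, Subgroup.closure_le]
  have hy : x21 1 ∈ Subgroup.closure ({x21 1, wEl} : Set SL(2, ℤ)) :=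
    Subgroup.subset_closure (by simp)
  have hw : wEl ∈ Subgroup.closure ({x21 1, wEl} : Set SL(2, ℤ)) :=
    Subgroup.subset_closure (by simp)
  rintro g (rfl | rfl)
  · have : ModularGroup.S = wEl⁻¹ := by rw [wEl, inv_inv]
    rw [SetLike.mem_coe, this]
    exact Subgroup.inv_mem _ hw
  · have : ModularGroup.T = wEl⁻¹ * (x21 1)⁻¹ * wEl := by
      rw [wEl_inv_mul_y_inv_mul_wEl, H66.x12_eq_T_zpow, zpow_one]
    rw [SetLike.mem_coe, this]
    exact Subgroup.mul_mem _ (Subgroup.mul_mem _ (Subgroup.inv_mem _ hw) (Subgroup.inv_mem _ hy)) hw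


/-- The element `H = E F⁻¹ (y E y⁻¹)⁻¹` with `E = x12 t`, `F = x21 t`, `y = x21 1`. -/
def hEl (t : ℤ) : SL(2, ℤ) := x12 t * (x21 t)⁻¹ * (x21 1 * x12 t * (x21 1)⁻¹)⁻¹

theorem coe_hEl (t : ℤ) : (hEl t : Matrix (Fin 2) (Fin 2) ℤ) =
    !![1 + t - t ^ 3, -t ^ 2 + t ^ 3; -t ^ 2, 1 - t + t ^ 2] := by
  have h1 : ((x21 1 * x12 t * (x21 1)⁻¹ : SL(2, ℤ)) : Matrix (Fin 2) (Fin 2) ℤ) =
      !![1 - t, t; -t, 1 + t] := by
    simp only [Matrix.SpecialLinearGroup.coe_mul, coe_x21_inv, H66.coe_x12, H66.coe_x21]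
    ext i j
    fin_cases i <;> fin_cases j <;> simp [Matrix.mul_apply, Fin.sum_univ_two] <;> ring
  have h2 : (((x21 1 * x12 t * (x21 1)⁻¹)⁻¹ : SL(2, ℤ)) : Matrix (Fin 2) (Fin 2) ℤ) =
      !![1 + t, -t; t, 1 - t] := by
    rw [Matrix.SpecialLinearGroup.coe_inv, h1, Matrix.adjugate_fin_two_of]
    ext i j
    fin_cases i <;> fin_cases j <;> simp
  rw [hEl, Matrix.SpecialLinearGroup.coe_mul, Matrix.SpecialLinearGroup.coe_mul, h2, coe_x21_inv,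
    H66.coe_x12]
  ext i j
  fin_cases i <;> fin_cases j <;> simp [Matrix.mul_apply, Fin.sum_univ_two] <;> ring

theorem coe_hEl_inv (t : ℤ) : (((hEl t)⁻¹ : SL(2, ℤ)) : Matrix (Fin 2) (Fin 2) ℤ) =
    !![1 - t + t ^ 2, t ^ 2 - t ^ 3; t ^ 2, 1 + t - t ^ 3] := by
  rw [Matrix.SpecialLinearGroup.coe_inv, coe_hEl, Matrix.adjugate_fin_two_of]
  ext i j
  fin_cases i <;> fin_cases j <;> simp <;> ring


theorem mem_Gamma_of_coe_eq {N : ℕ} {g : SL(2, ℤ)} {a b c d : ℤ}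
    (h : (g : Matrix (Fin 2) (Fin 2) ℤ) = !![1 + a, b; c, 1 + d])
    (ha : (N : ℤ) ∣ a) (hb : (N : ℤ) ∣ b) (hc : (N : ℤ) ∣ c) (hd : (N : ℤ) ∣ d) : g ∈ Gamma N := by
  rw [mem_Gamma_iff_dvd]
  have h00 : g 0 0 = 1 + a := by
    have := congrFun (congrFun h 0) 0; simpa using this
  have h01 : g 0 1 = b := by
    have := congrFun (congrFun h 0) 1; simpa using this
  have h10 : g 1 0 = c := by
    have := congrFun (congrFun h 1) 0; simpa using this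
  have h11 : g 1 1 = 1 + d := by
    have := congrFun (congrFun h 1) 1; simpa using this
  rw [h00, h01, h10, h11]
  exact ⟨by simpa using ha, hb, hc, by simpa using hd⟩

theorem sq_dvd_of {p m1 : ℕ} (hpm1 : p ∣ m1) (r : ℤ) :
    ((p * m1 : ℕ) : ℤ) ∣ (m1 : ℤ) ^ 2 * r := by
  obtain ⟨k, hk⟩ := hpm1
  refine ⟨(k : ℤ) * r, ?_⟩
  have : (m1 : ℤ) = (p : ℤ) * k := by exact_mod_cast hk
  push_cast
  rw [this]; ring

/-- `Ad(y) h = h + 2 f` modulo `Γ(p m1)`. -/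
theorem yH_mem {p m1 : ℕ} (hpm1 : p ∣ m1) :
    x21 1 * hEl m1 * (x21 1)⁻¹ * (hEl m1)⁻¹ * (x21 m1 ^ 2)⁻¹ ∈ Gamma (p * m1) := by
  set t : ℤ := (m1 : ℤ) with ht
  have hF2 : ((x21 t ^ 2)⁻¹ : SL(2, ℤ)) = x21 (-(t + t)) := by
    rw [pow_two, ← H66.x21_add, H66.x21_neg]
  rw [hF2]
  refine mem_Gamma_of_coe_eq (a := t ^ 2 * (1 - 2 * t + 2 * t ^ 2 - 3 * t ^ 3 + 4 * t ^ 4 - 2 * t ^ 5))
    (b := t ^ 2 * (t ^ 2 - 2 * t ^ 3 + t ^ 4))
    (c := t ^ 2 * (-2 + 2 * t - 3 * t ^ 2 + t ^ 3 + 2 * t ^ 4 - 2 * t ^ 5))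
    (d := t ^ 2 * (-1 + 2 * t - t ^ 2 - t ^ 3 + t ^ 4)) ?_
    (sq_dvd_of hpm1 _) (sq_dvd_of hpm1 _) (sq_dvd_of hpm1 _) (sq_dvd_of hpm1 _)
  simp only [Matrix.SpecialLinearGroup.coe_mul, coe_x21_inv, coe_hEl, coe_hEl_inv, H66.coe_x21]
  ext i j
  fin_cases i <;> fin_cases j <;> simp [Matrix.mul_apply, Fin.sum_univ_two] <;> ring

/-- `Ad(w) h = -h` modulo `Γ(p m1)`. -/
theorem wH_mem {p m1 : ℕ} (hpm1 : p ∣ m1) :
    wEl * hEl m1 * wEl⁻¹ * hEl m1 ∈ Gamma (p * m1) := by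
  set t : ℤ := (m1 : ℤ) with ht
  refine mem_Gamma_of_coe_eq (a := t ^ 2 * (-t ^ 3))
    (b := t ^ 2 * (t - t ^ 2 + t ^ 3))
    (c := t ^ 2 * (-t - t ^ 2 + t ^ 4))
    (d := t ^ 2 * (t ^ 3 - t ^ 4)) ?_
    (sq_dvd_of hpm1 _) (sq_dvd_of hpm1 _) (sq_dvd_of hpm1 _) (sq_dvd_of hpm1 _)
  simp only [Matrix.SpecialLinearGroup.coe_mul, coe_wEl, coe_wEl_inv, coe_hEl]
  ext i j
  fin_cases i <;> fin_cases j <;> simp [Matrix.mul_apply, Fin.sum_univ_two] <;> ring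


section Lin

variable {R : Type*} [CommRing R]

theorem SL_coe_inv_of_eq_one_add_smul {d : R} (hd : d * d = 0) (B : SL(2, R))
    (X : Matrix (Fin 2) (Fin 2) R) (hB : (B : Matrix (Fin 2) (Fin 2) R) = 1 + d • X) :
    ((B⁻¹ : SL(2, R)) : Matrix (Fin 2) (Fin 2) R) = 1 + (-d) • X := by
  have h1 : (1 + d • X) * (1 + (-d) • X) = 1 := by
    rw [H66.one_add_smul_mul (by rw [mul_neg, hd, neg_zero]), neg_smul]
    abel
  have h2 : ((B⁻¹ : SL(2, R)) : Matrix (Fin 2) (Fin 2) R) * (B : Matrix (Fin 2) (Fin 2) R) = 1 := by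
    rw [← Matrix.SpecialLinearGroup.coe_mul, inv_mul_cancel, Matrix.SpecialLinearGroup.coe_one]
  calc ((B⁻¹ : SL(2, R)) : Matrix (Fin 2) (Fin 2) R)
      = ((B⁻¹ : SL(2, R)) : Matrix (Fin 2) (Fin 2) R) * ((1 + d • X) * (1 + (-d) • X)) := by
        rw [h1, mul_one]
    _ = (((B⁻¹ : SL(2, R)) : Matrix (Fin 2) (Fin 2) R) * (B : Matrix (Fin 2) (Fin 2) R)) *
          (1 + (-d) • X) := by rw [hB, mul_assoc]
    _ = 1 + (-d) • X := by rw [h2, one_mul]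

theorem SL_coe_zpow_of_eq_one_add_smul {c : R} (hc : c * c = 0) (A : SL(2, R))
    (X : Matrix (Fin 2) (Fin 2) R) (hA : (A : Matrix (Fin 2) (Fin 2) R) = 1 + c • X) (a : ℤ) :
    ((A ^ a : SL(2, R)) : Matrix (Fin 2) (Fin 2) R) = 1 + ((a : R) * c) • X := by
  have hn : ∀ n : ℕ, ((A ^ n : SL(2, R)) : Matrix (Fin 2) (Fin 2) R) = 1 + ((n : R) * c) • X := by
    intro n
    rw [Matrix.SpecialLinearGroup.coe_pow, hA, H66.one_add_smul_pow hc]
  rcases Int.eq_nat_or_neg a with ⟨n, rfl | rfl⟩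
  · rw [zpow_natCast, hn]; simp
  · rw [_root_.zpow_neg, zpow_natCast]
    rw [SL_coe_inv_of_eq_one_add_smul (d := (n : R) * c) (by
      have : (n : R) * c * ((n : R) * c) = (n : R) * n * (c * c) := by ring
      rw [this, hc, mul_zero])
      (A ^ n) X (hn n)]
    simp

theorem SL_coe_prod_of_eq_one_add_smul {c : R} (hc : c * c = 0) (A B C : SL(2, R))
    (XA XB XC : Matrix (Fin 2) (Fin 2) R) (hA : (A : Matrix (Fin 2) (Fin 2) R) = 1 + c • XA)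
    (hB : (B : Matrix (Fin 2) (Fin 2) R) = 1 + c • XB)
    (hC : (C : Matrix (Fin 2) (Fin 2) R) = 1 + c • XC) (a b c' : ℤ) :
    ((A ^ a * B ^ b * C ^ c' : SL(2, R)) : Matrix (Fin 2) (Fin 2) R) =
      1 + c • ((a : R) • XA + (b : R) • XB + (c' : R) • XC) := by
  rw [Matrix.SpecialLinearGroup.coe_mul, Matrix.SpecialLinearGroup.coe_mul,
    SL_coe_zpow_of_eq_one_add_smul hc A XA hA, SL_coe_zpow_of_eq_one_add_smul hc B XB hB,
    SL_coe_zpow_of_eq_one_add_smul hc C XC hC]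
  have e1 : ((a : R) * c) * ((b : R) * c) = 0 := by
    have : ((a : R) * c) * ((b : R) * c) = (a : R) * b * (c * c) := by ring
    rw [this, hc, mul_zero]
  rw [H66.one_add_smul_mul e1]
  have e2 : ∀ Y : Matrix (Fin 2) (Fin 2) R, (1 + ((a : R) * c) • XA + ((b : R) * c) • XB) *
      (1 + ((c' : R) * c) • Y) = 1 + ((a : R) * c) • XA + ((b : R) * c) • XB + ((c' : R) * c) • Y := by
    intro Y
    rw [mul_add, mul_one, add_mul, add_mul, one_mul, Matrix.smul_mul, Matrix.smul_mul,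
      Matrix.mul_smul, Matrix.mul_smul, smul_smul, smul_smul]
    have e3 : (a : R) * c * ((c' : R) * c) = 0 := by
      have : (a : R) * c * ((c' : R) * c) = (a : R) * c' * (c * c) := by ring
      rw [this, hc, mul_zero]
    have e4 : (b : R) * c * ((c' : R) * c) = 0 := by
      have : (b : R) * c * ((c' : R) * c) = (b : R) * c' * (c * c) := by ring
      rw [this, hc, mul_zero]
    rw [e3, e4, zero_smul, zero_smul, add_zero, add_zero]
  rw [e2]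
  simp only [smul_add, smul_smul, mul_comm c, add_assoc]

/-- generic form of the independence computation -/
theorem ind_generic {c : R} (hc : c * c = 0) (A B C : SL(2, R))
    (hA : (A : Matrix (Fin 2) (Fin 2) R) = 1 + c • !![0, 1; 0, 0])
    (hB : (B : Matrix (Fin 2) (Fin 2) R) = 1 + c • !![1 - c ^ 2, -c + c ^ 2; -c, -1 + c])
    (hC : (C : Matrix (Fin 2) (Fin 2) R) = 1 + c • !![0, 0; 1, 0]) (a b c' : ℤ)
    (h : A ^ a * B ^ b * C ^ c' = 1) :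
    (a : R) * c = 0 ∧ (b : R) * c = 0 ∧ (c' : R) * c = 0 := by
  have h1 := SL_coe_prod_of_eq_one_add_smul hc A B C _ _ _ hA hB hC a b c'
  rw [h, Matrix.SpecialLinearGroup.coe_one] at h1
  have h2 : c • ((a : R) • !![0, 1; 0, 0] + (b : R) • !![1 - c ^ 2, -c + c ^ 2; -c, -1 + c] +
      (c' : R) • !![0, 0; 1, 0]) = (0 : Matrix (Fin 2) (Fin 2) R) := by
    have := h1.symm
    rwa [add_eq_left] at this
  have hc3 : ∀ x : R, c * (x * c ^ 2) = 0 := fun x => by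
    have : c * (x * c ^ 2) = x * c * (c * c) := by ring
    rw [this, hc, mul_zero]
  have hc2 : ∀ x : R, c * (x * c) = 0 := fun x => by
    have : c * (x * c) = x * (c * c) := by ring
    rw [this, hc, mul_zero]
  have e01 := congrFun (congrFun h2 0) 1
  have e00 := congrFun (congrFun h2 0) 0
  have e10 := congrFun (congrFun h2 1) 0
  simp only [Matrix.smul_apply, Matrix.add_apply, Matrix.of_apply, Matrix.cons_val', Matrix.cons_val_zero,
    Matrix.cons_val_one, Matrix.zero_apply, smul_eq_mul, Matrix.cons_val_fin_one] at e01 e00 e10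
  refine ⟨?_, ?_, ?_⟩
  · have : (a : R) * c = c * ((a : R) * 1 + (b : R) * (-c + c ^ 2) + (c' : R) * 0) +
        c * ((b : R) * c) - c * ((b : R) * c ^ 2) := by ring
    rw [this, e01, hc2, hc3]; ring
  · have : (b : R) * c = c * ((a : R) * 0 + (b : R) * (1 - c ^ 2) + (c' : R) * 0) +
        c * ((b : R) * c ^ 2) := by ring
    rw [this, e00, hc3]; ring
  · have : (c' : R) * c = c * ((a : R) * 0 + (b : R) * (-c) + (c' : R) * 1) +
        c * ((b : R) * c) := by ring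
    rw [this, e10, hc2]; ring

end Lin


theorem ind_EHF {p m1 : ℕ} (hm1 : 0 < m1) (hpm1 : p ∣ m1) (a b c : ℤ)
    (h : x12 m1 ^ a * hEl m1 ^ b * x21 m1 ^ c ∈ Gamma (p * m1)) :
    (p : ℤ) ∣ a ∧ (p : ℤ) ∣ b ∧ (p : ℤ) ∣ c := by
  rw [Gamma_mem', map_mul, map_mul, map_zpow, map_zpow, map_zpow] at h
  have hc := H66.natCast_mul_self_eq_zero hpm1
  set cc : ZMod (p * m1) := ((m1 : ℕ) : ZMod (p * m1)) with hcc
  have key := ind_generic hc _ _ _ ?_ ?_ ?_ a b c h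
  · have fin : ∀ z : ℤ, (z : ZMod (p * m1)) * cc = 0 → (p : ℤ) ∣ z := by
      intro z hz
      have h1 : ((z * (m1 : ℤ) : ℤ) : ZMod (p * m1)) = 0 := by
        push_cast; exact hz
      rw [ZMod.intCast_zmod_eq_zero_iff_dvd] at h1
      push_cast at h1
      exact Int.dvd_of_mul_dvd_mul_right (by exact_mod_cast hm1.ne') h1
    exact ⟨fin a key.1, fin b key.2.1, fin c key.2.2⟩
  · rw [SpecialLinearGroup.map_apply_coe, H66.coe_x12]
    ext i j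
    fin_cases i <;> fin_cases j <;> simp [hcc]
  · rw [SpecialLinearGroup.map_apply_coe, coe_hEl]
    ext i j
    fin_cases i <;> fin_cases j <;> simp [hcc] <;> ring
  · rw [SpecialLinearGroup.map_apply_coe, H66.coe_x21]
    ext i j
    fin_cases i <;> fin_cases j <;> simp [hcc]


/-- **The wild extension step (T2)**, modulo steps (a) and (b). -/
theorem wildStep_of_ab {p m1 : ℕ} (hp : p.Prime) (hp2 : p ≠ 2) (hm1 : 0 < m1) (hpm1 : p ∣ m1)
    (φ : Gamma (p * m1) →* Multiplicative (ZMod p)) (hφ : H2.IsInvChar (p * m1) p φ)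
    (ha : ∀ g ∈ Gamma m1, ∀ h ∈ Gamma m1,
      ∃ hm : g * h * g⁻¹ * h⁻¹ ∈ Gamma (p * m1), φ ⟨_, hm⟩ = 1)
    (hb : ∀ g ∈ Gamma m1, ∃ hm : g ^ p ∈ Gamma (p * m1), φ ⟨_, hm⟩ = 1) :
    ∃ φ₁ : Gamma m1 →* Multiplicative (ZMod p), H2.IsInvChar m1 p φ₁ ∧
      ∀ g : Gamma (p * m1), φ₁ ⟨g, H2.Gamma_le_of_dvd (Dvd.intro_left p rfl) g.2⟩ = φ g := by
  have hN : (Gamma (p * m1)).Normal := Gamma_normal (p * m1)
  have hN1 : (Gamma m1).Normal := Gamma_normal m1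
  have hle : Gamma (p * m1) ≤ Gamma m1 := H2.Gamma_le_of_dvd (Dvd.intro_left p rfl)
  have hE : x12 (m1 : ℤ) ∈ Gamma m1 := by
    have := H66.x12_mem_Gamma m1 1
    rwa [mul_one] at this
  have hF : x21 (m1 : ℤ) ∈ Gamma m1 := by
    have := H66.x21_mem_Gamma m1 1
    rwa [mul_one] at this
  have hgenN1 : Gamma m1 ≤ Gamma (p * m1) ⊔ Subgroup.normalClosure {x12 (m1 : ℤ)} := by
    have := H66.gamma_le_sup_normalClosure hp m1
    rwa [← zpow_natCast, ← H66.x12_eq_T_zpow] at this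
  obtain ⟨φ1, h1, h2⟩ := wild_extension_abstract hp hp2 (Gamma (p * m1)) (Gamma m1) hle φ
    (fun g n => hφ g n) ha hb (x21 1) wEl closure_y_w braid_y_w (x12 (m1 : ℤ)) (x21 (m1 : ℤ)) hE hF
    (y_conj_x21 _) (w_conj_x12 _) (w_conj_x21 _) (yH_mem hpm1) (wH_mem hpm1)
    (fun a b c h => ind_EHF hm1 hpm1 a b c h) hgenN1
  exact ⟨φ1, fun σ g => h1 σ g, fun g => h2 g⟩

end Fermat.Agent.S41.H70
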