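import Mathlib
import Fermat.Agent.S41.H72_PeriodTrace

/-!
# S41 / P-int, P4 "(AdW)" arithmetic half: the Atkin-Lehner conjugation permutes cusp generators

For `Γ ≤ SL(2,ℤ)` of finite index, `width Γ h` is the period of the coset `h Γ` under `T`, so that
`h⁻¹ T ^ width Γ h * h ∈ Γ` is the canonical (positive, primitive) generator of the stabiliser of
the cusp `h⁻¹ ∞`.

* `exists_conj_per_of_rel` : if `c : Γ →* Γ` is surjective and `c γ * W = W * γ` for an integral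
  matrix `W` of prime determinant, then `c (h⁻¹ T^{width h} h) = h'⁻¹ T^{width h'} h'` for some `h'`
  (Hermite step `h' W = β h`, `β` upper triangular).
* `conjALHom_mul_alMatZ`, `conjALHom_conjALHom`, `conjALHom_bijective`.
* `exists_conj_per` : the statement for `c = conjALHom D hq` on `Γ₀(N q)`: hypothesis `(hP)` of
  the abstract orbit bijection.
-/

set_option autoImplicit false

namespace Fermat.Agent.S41.H72

open Matrix.SpecialLinearGroup CongruenceSubgroup ModularGroup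
open scoped MatrixGroups

section General

/-- an element of `SL(2,ℤ)` with first column `(1,0)` and `g 1 1 = 1` is a power of `T`. -/
theorem eq_T_zpow_of_entries (g : SL(2, ℤ)) (h00 : g 0 0 = 1) (h10 : g 1 0 = 0) (h11 : g 1 1 = 1) :
    g = T ^ (g 0 1) := by
  ext i j
  rw [coe_T_zpow]
  fin_cases i <;> fin_cases j <;> simp [h00, h10, h11]

/-- **matrix lemma (up)**: `τ β = β Tᵏ` with `β` upper triangular with positive diagonal. -/
theorem eq_T_zpow_of_mul_eq (τ : SL(2, ℤ)) (β : Matrix (Fin 2) (Fin 2) ℤ) (hβ : β 1 0 = 0)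
    (ha : 0 < β 0 0) (hd : 0 < β 1 1) (k : ℤ) (h : τ.1 * β = β * (T ^ k).1) :
    ∃ k' : ℤ, τ = T ^ k' ∧ β 1 1 * k' = β 0 0 * k := by
  rw [coe_T_zpow] at h
  have e00 := congrFun (congrFun h 0) 0
  have e01 := congrFun (congrFun h 0) 1
  have e10 := congrFun (congrFun h 1) 0
  have e11 := congrFun (congrFun h 1) 1
  simp only [Matrix.mul_apply, Fin.sum_univ_two, hβ, Matrix.of_apply, Matrix.cons_val_zero,
    Matrix.cons_val_one, Matrix.cons_val', Matrix.cons_val_fin_one, mul_zero, add_zero,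
    mul_one] at e00 e01 e10 e11
  have h00 : τ 0 0 = 1 := by
    have : (τ 0 0 - 1) * β 0 0 = 0 := by linear_combination e00
    rcases mul_eq_zero.mp this with h | h
    · linarith
    · exact absurd h ha.ne'
  have h10 : τ 1 0 = 0 := by
    rcases mul_eq_zero.mp e10 with h | h
    · exact h
    · exact absurd h ha.ne'
  have h11 : τ 1 1 = 1 := by
    have : (τ 1 1 - 1) * β 1 1 = 0 := by
      rw [h10] at e11
      linear_combination e11
    rcases mul_eq_zero.mp this with h | h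
    · linarith
    · exact absurd h hd.ne'
  refine ⟨τ 0 1, eq_T_zpow_of_entries τ h00 h10 h11, ?_⟩
  rw [h00] at e01
  linear_combination e01

/-- **matrix lemma (down)**: `β σ = Tᵐ β`. -/
theorem eq_T_zpow_of_mul_eq' (σ : SL(2, ℤ)) (β : Matrix (Fin 2) (Fin 2) ℤ) (hβ : β 1 0 = 0)
    (ha : 0 < β 0 0) (hd : 0 < β 1 1) (m : ℤ) (h : β * σ.1 = (T ^ m).1 * β) :
    ∃ j : ℤ, σ = T ^ j ∧ β 0 0 * j = β 1 1 * m := by
  rw [coe_T_zpow] at h
  have e00 := congrFun (congrFun h 0) 0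
  have e01 := congrFun (congrFun h 0) 1
  have e10 := congrFun (congrFun h 1) 0
  have e11 := congrFun (congrFun h 1) 1
  simp only [Matrix.mul_apply, Fin.sum_univ_two, hβ, Matrix.of_apply, Matrix.cons_val_zero,
    Matrix.cons_val_one, Matrix.cons_val', Matrix.cons_val_fin_one, mul_zero, add_zero,
    zero_add, zero_mul, one_mul] at e00 e01 e10 e11
  have h10 : σ 1 0 = 0 := by
    rcases mul_eq_zero.mp e10 with h | h
    · exact absurd h hd.ne'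
    · exact h
  have h11 : σ 1 1 = 1 := by
    have : β 1 1 * (σ 1 1 - 1) = 0 := by linear_combination e11
    rcases mul_eq_zero.mp this with h | h
    · exact absurd h hd.ne'
    · linarith
  have h00 : σ 0 0 = 1 := by
    have : β 0 0 * (σ 0 0 - 1) = 0 := by
      rw [h10] at e00
      linear_combination e00
    rcases mul_eq_zero.mp this with h | h
    · exact absurd h ha.ne'
    · linarith
  refine ⟨σ 0 1, eq_T_zpow_of_entries σ h00 h10 h11, ?_⟩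
  rw [h11] at e01
  linear_combination e01

end General


section Pair

theorem coe_inv_mul_coe (g : SL(2, ℤ)) : (g⁻¹).1 * g.1 = 1 := by
  rw [← coe_mul, inv_mul_cancel, Matrix.SpecialLinearGroup.coe_one]

theorem coe_mul_coe_inv (g : SL(2, ℤ)) : g.1 * (g⁻¹).1 = 1 := by
  rw [← coe_mul, mul_inv_cancel, Matrix.SpecialLinearGroup.coe_one]

variable {Γ : Subgroup SL(2, ℤ)} (c : Γ →* Γ) (W : Matrix (Fin 2) (Fin 2) ℤ)
  (hW : ∀ γ : Γ, ((c γ : SL(2, ℤ)) : Matrix (Fin 2) (Fin 2) ℤ) * W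
    = W * ((γ : SL(2, ℤ)) : Matrix (Fin 2) (Fin 2) ℤ))

include hW in
/-- **Step 2**: `c (h⁻¹ Tᵏ h) = h'⁻¹ T^{k'} h'` with `d k' = a k`, if `h' W = β h`. -/
theorem conj_image_of_rel (h h' : SL(2, ℤ)) (β : Matrix (Fin 2) (Fin 2) ℤ) (hβ : β 1 0 = 0)
    (ha : 0 < β 0 0) (hd : 0 < β 1 1) (hrel : h'.1 * W = β * h.1) (k : ℕ)
    (hk : h⁻¹ * T ^ k * h ∈ Γ) :
    ∃ k' : ℕ, β 1 1 * (k' : ℤ) = β 0 0 * (k : ℤ) ∧
      ((c ⟨h⁻¹ * T ^ k * h, hk⟩ : Γ) : SL(2, ℤ)) = h'⁻¹ * T ^ k' * h' := by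
  set γ₀ : Γ := ⟨h⁻¹ * T ^ k * h, hk⟩ with hγ₀
  set τ : SL(2, ℤ) := h' * (c γ₀ : SL(2, ℤ)) * h'⁻¹ with hτ
  have e1 : τ.1 = h'.1 * (c γ₀ : SL(2, ℤ)).1 * (h'⁻¹).1 := by
    rw [hτ, coe_mul, coe_mul]
  have e2 : h.1 * (γ₀ : SL(2, ℤ)).1 = (T ^ (k : ℤ)).1 * h.1 := by
    rw [← coe_mul, ← coe_mul]
    congr 1
    rw [zpow_natCast]
    show h * (h⁻¹ * T ^ k * h) = T ^ k * h
    rw [mul_assoc, mul_inv_cancel_left]
  have key : τ.1 * β * h.1 = β * (T ^ (k : ℤ)).1 * h.1 := by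
    calc τ.1 * β * h.1 = h'.1 * (c γ₀ : SL(2, ℤ)).1 * ((h'⁻¹).1 * (β * h.1)) := by
          rw [e1]; simp only [Matrix.mul_assoc]
      _ = h'.1 * (c γ₀ : SL(2, ℤ)).1 * ((h'⁻¹).1 * (h'.1 * W)) := by rw [hrel]
      _ = h'.1 * ((c γ₀ : SL(2, ℤ)).1 * W) := by
          rw [← Matrix.mul_assoc (h'⁻¹).1, coe_inv_mul_coe, Matrix.one_mul, Matrix.mul_assoc]
      _ = h'.1 * (W * (γ₀ : SL(2, ℤ)).1) := by rw [hW]
      _ = (h'.1 * W) * (γ₀ : SL(2, ℤ)).1 := by simp only [Matrix.mul_assoc]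
      _ = β * (h.1 * (γ₀ : SL(2, ℤ)).1) := by rw [hrel, Matrix.mul_assoc]
      _ = β * (T ^ (k : ℤ)).1 * h.1 := by rw [e2, Matrix.mul_assoc]
  have key' : τ.1 * β = β * (T ^ (k : ℤ)).1 := by
    have := congrArg (· * (h⁻¹).1) key
    simpa only [Matrix.mul_assoc, coe_mul_coe_inv, Matrix.mul_one] using this
  obtain ⟨k', hk', hdk⟩ := eq_T_zpow_of_mul_eq τ β hβ ha hd k key'
  have hk'0 : 0 ≤ k' := by
    by_contra hneg
    rw [not_le] at hneg
    have h1 : β 1 1 * k' < 0 := mul_neg_of_pos_of_neg hd hneg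
    have h2 : 0 ≤ β 0 0 * (k : ℤ) := mul_nonneg ha.le (Int.natCast_nonneg k)
    omega
  refine ⟨k'.toNat, ?_, ?_⟩
  · rw [Int.toNat_of_nonneg hk'0, hdk]
  · have : (c γ₀ : SL(2, ℤ)) = h'⁻¹ * τ * h' := by rw [hτ]; group
    rw [this, hk', ← zpow_natCast, Int.toNat_of_nonneg hk'0]

include hW in
/-- **Step 3**: if `c γ₀ = h'⁻¹ Tᵐ h'` then `γ₀ = h⁻¹ Tʲ h` with `a j = d m`. -/
theorem conj_preimage_of_rel (h h' : SL(2, ℤ)) (β : Matrix (Fin 2) (Fin 2) ℤ) (hβ : β 1 0 = 0)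
    (ha : 0 < β 0 0) (hd : 0 < β 1 1) (hrel : h'.1 * W = β * h.1) (m : ℕ) (γ₀ : Γ)
    (hγ₀ : ((c γ₀ : Γ) : SL(2, ℤ)) = h'⁻¹ * T ^ m * h') :
    ∃ j : ℕ, β 0 0 * (j : ℤ) = β 1 1 * (m : ℤ) ∧ (γ₀ : SL(2, ℤ)) = h⁻¹ * T ^ j * h := by
  set σ : SL(2, ℤ) := h * (γ₀ : SL(2, ℤ)) * h⁻¹ with hσ
  have e1 : σ.1 = h.1 * (γ₀ : SL(2, ℤ)).1 * (h⁻¹).1 := by
    rw [hσ, coe_mul, coe_mul]
  have e2 : h'.1 * (c γ₀ : SL(2, ℤ)).1 = (T ^ (m : ℤ)).1 * h'.1 := by
    rw [← coe_mul, ← coe_mul]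
    congr 1
    rw [hγ₀, zpow_natCast, mul_assoc, mul_inv_cancel_left]
  have key : β * σ.1 * h.1 = (T ^ (m : ℤ)).1 * β * h.1 := by
    calc β * σ.1 * h.1 = β * h.1 * (γ₀ : SL(2, ℤ)).1 * ((h⁻¹).1 * h.1) := by
          rw [e1]; simp only [Matrix.mul_assoc]
      _ = h'.1 * (W * (γ₀ : SL(2, ℤ)).1) := by
          rw [coe_inv_mul_coe, Matrix.mul_one, ← hrel, Matrix.mul_assoc]
      _ = h'.1 * ((c γ₀ : SL(2, ℤ)).1 * W) := by rw [hW]
      _ = (h'.1 * (c γ₀ : SL(2, ℤ)).1) * W := by rw [Matrix.mul_assoc]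
      _ = (T ^ (m : ℤ)).1 * (h'.1 * W) := by rw [e2, Matrix.mul_assoc]
      _ = (T ^ (m : ℤ)).1 * β * h.1 := by rw [hrel, Matrix.mul_assoc]
  have key' : β * σ.1 = (T ^ (m : ℤ)).1 * β := by
    have := congrArg (· * (h⁻¹).1) key
    simpa only [Matrix.mul_assoc, coe_mul_coe_inv, Matrix.mul_one] using this
  obtain ⟨j, hj, haj⟩ := eq_T_zpow_of_mul_eq' σ β hβ ha hd m key'
  have hj0 : 0 ≤ j := by
    by_contra hneg
    rw [not_le] at hneg
    have h1 : β 0 0 * j < 0 := mul_neg_of_pos_of_neg ha hneg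
    have h2 : 0 ≤ β 1 1 * (m : ℤ) := mul_nonneg hd.le (Int.natCast_nonneg m)
    omega
  refine ⟨j.toNat, ?_, ?_⟩
  · rw [Int.toNat_of_nonneg hj0, haj]
  · have : (γ₀ : SL(2, ℤ)) = h⁻¹ * σ * h := by rw [hσ]; group
    rw [this, hj, ← zpow_natCast, Int.toNat_of_nonneg hj0]

end Pair


section Width

variable (Γ : Subgroup SL(2, ℤ))

/-- the width of the cusp `h⁻¹ ∞` of `Γ`: the period of the coset `h Γ` under `T`. -/
noncomputable def width (h : SL(2, ℤ)) : ℕ :=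
  Function.minimalPeriod (T • ·) ((h : SL(2, ℤ)) : SL(2, ℤ) ⧸ Γ)

theorem conj_T_pow_mem_iff (h : SL(2, ℤ)) (k : ℕ) :
    h⁻¹ * T ^ k * h ∈ Γ ↔ width Γ h ∣ k := by
  rw [width, ← MulAction.pow_smul_eq_iff_minimalPeriod_dvd, MulAction.Quotient.smul_coe,
    eq_comm, QuotientGroup.eq, smul_eq_mul, mul_assoc]

theorem conj_T_pow_width_mem (h : SL(2, ℤ)) : h⁻¹ * T ^ width Γ h * h ∈ Γ :=
  (conj_T_pow_mem_iff Γ h _).mpr dvd_rfl

theorem width_pos [Γ.FiniteIndex] (h : SL(2, ℤ)) : 0 < width Γ h := by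
  have : Finite (SL(2, ℤ) ⧸ Γ) := Subgroup.finite_quotient_of_finiteIndex
  have h0 : NeZero (Function.minimalPeriod (T • ·) ((h : SL(2, ℤ)) : SL(2, ℤ) ⧸ Γ)) :=
    MulAction.minimalPeriod_pos T ((h : SL(2, ℤ)) : SL(2, ℤ) ⧸ Γ)
  exact Nat.pos_of_ne_zero h0.out

end Width

section Main

variable {Γ : Subgroup SL(2, ℤ)} [Γ.FiniteIndex] (c : Γ →* Γ) (W : Matrix (Fin 2) (Fin 2) ℤ)
  (hW : ∀ γ : Γ, ((c γ : SL(2, ℤ)) : Matrix (Fin 2) (Fin 2) ℤ) * W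
    = W * ((γ : SL(2, ℤ)) : Matrix (Fin 2) (Fin 2) ℤ))

theorem hrepZ_facts {ℓ : ℕ} (hℓ : 0 < ℓ) (i : Option (Fin ℓ)) :
    hrepZ ℓ i 1 0 = 0 ∧ 0 < hrepZ ℓ i 0 0 ∧ 0 < hrepZ ℓ i 1 1 := by
  rcases i with _ | j <;> simp [hrepZ, hℓ]

include hW in
/-- **(hP)**: conjugation by an integral matrix `W` of prime determinant normalising `Γ` maps the
canonical generator of a cusp stabiliser to the canonical generator of a cusp stabiliser. -/
theorem exists_conj_per_of_rel {q : ℕ} (hq : q.Prime) (hdet : W.det = q)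
    (hc : Function.Surjective c) (h : SL(2, ℤ)) :
    ∃ h' : SL(2, ℤ),
      ((c ⟨h⁻¹ * T ^ width Γ h * h, conj_T_pow_width_mem Γ h⟩ : Γ) : SL(2, ℤ))
        = h'⁻¹ * T ^ width Γ h' * h' := by
  -- Hermite step
  have hdet' : (W * (h⁻¹).1).det = q := by
    rw [Matrix.det_mul, hdet, (h⁻¹).2, mul_one]
  obtain ⟨γ, -, i, hi⟩ := exists_eq_mul_hrepZ hq (M := 1)
    (by rw [Nat.dvd_one]; exact hq.one_lt.ne') (W * (h⁻¹).1) hdet' (by simp)
  obtain ⟨hβ, ha, hd⟩ := hrepZ_facts hq.pos i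
  set β := hrepZ q i with hβdef
  set h' : SL(2, ℤ) := γ⁻¹ with hh'
  have hrel : h'.1 * W = β * h.1 := by
    have this : (γ⁻¹).1 * (W * (h⁻¹).1) * h.1 = (γ⁻¹).1 * (γ.1 * β) * h.1 := by rw [hi]
    rw [Matrix.mul_assoc, Matrix.mul_assoc W, coe_inv_mul_coe, Matrix.mul_one,
      ← Matrix.mul_assoc (γ⁻¹).1, coe_inv_mul_coe, Matrix.one_mul] at this
    exact this
  refine ⟨h', ?_⟩
  set n := width Γ h with hn
  set m := width Γ h' with hm
  have hn0 : 0 < n := width_pos Γ h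
  have hm0 : 0 < m := width_pos Γ h'
  obtain ⟨n', hdn', hcn'⟩ := conj_image_of_rel c W hW h h' β hβ ha hd hrel n
    (conj_T_pow_width_mem Γ h)
  rw [hcn']
  -- `m ∣ n'`
  have hmem : h'⁻¹ * T ^ n' * h' ∈ Γ := by
    rw [← hcn']
    exact (c _).2
  obtain ⟨l', hl'⟩ := (conj_T_pow_mem_iff Γ h' n').mp hmem
  -- `n ∣ j`
  obtain ⟨γ₀, hγ₀⟩ := hc ⟨h'⁻¹ * T ^ m * h', conj_T_pow_width_mem Γ h'⟩
  obtain ⟨j, haj, hγ₀j⟩ := conj_preimage_of_rel c W hW h h' β hβ ha hd hrel m γ₀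
    (by rw [hγ₀])
  have hmemj : h⁻¹ * T ^ j * h ∈ Γ := by
    rw [← hγ₀j]
    exact γ₀.2
  obtain ⟨l, hl⟩ := (conj_T_pow_mem_iff Γ h j).mp hmemj
  -- arithmetic
  have hll : l' * l = 1 := by
    have h1 : β 1 1 * (m : ℤ) * ((l' * l : ℕ) : ℤ) = β 1 1 * (m : ℤ) * 1 := by
      rw [hl'] at hdn'
      rw [hl] at haj
      push_cast at hdn' haj ⊢
      linear_combination (l : ℤ) * hdn' + haj
    have h2 : β 1 1 * (m : ℤ) ≠ 0 :=
      mul_ne_zero hd.ne' (by exact_mod_cast hm0.ne')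
    exact_mod_cast mul_left_cancel₀ h2 h1
  have hl'1 : l' = 1 := Nat.eq_one_of_mul_eq_one_right hll
  rw [hl', hl'1, mul_one]

end Main


section AtkinLehner

variable {N q : ℕ} (D : ALData N q) (hq : q ≠ 0)

/-- the defining relation of `conjALHom` in integer matrices: `c(γ) W = W γ`. -/
theorem conjALHom_mul_alMatZ (γ : Gamma0 (N * q)) :
    ((conjALHom D hq γ : SL(2, ℤ)) : Matrix (Fin 2) (Fin 2) ℤ) * alMatZ D
      = alMatZ D * ((γ : SL(2, ℤ)) : Matrix (Fin 2) (Fin 2) ℤ) := by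
  have h := alGL_mul_gl D hq γ
  rw [H85.gl_apply, H85.gl_apply, mapGL_eq_toGL, mapGL_eq_toGL, alGL_eq_toGL D hq] at h
  have h1 : (alMatZ D * ((γ : SL(2, ℤ)) : Matrix (Fin 2) (Fin 2) ℤ)).det ≠ 0 := by
    rw [Matrix.det_mul]; exact mul_ne_zero (det_alMatZ_ne_zero D hq) (det_ne_zero_of_SL _)
  have h2 : (((conjALHom D hq γ : SL(2, ℤ)) : Matrix (Fin 2) (Fin 2) ℤ) * alMatZ D).det ≠ 0 := by
    rw [Matrix.det_mul]; exact mul_ne_zero (det_ne_zero_of_SL _) (det_alMatZ_ne_zero D hq)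
  rw [← toGL_mul _ _ _ _ h1, ← toGL_mul _ _ _ _ h2] at h
  exact (toGL_injective h1 h2 h).symm

theorem alMatZ_mul_alMatZ : alMatZ D * alMatZ D = (q : ℤ) • ((gam0 D : SL(2, ℤ)) : Matrix (Fin 2) (Fin 2) ℤ) := by
  ext i k
  fin_cases i <;> fin_cases k <;>
    simp [alMatZ, gam0, Matrix.mul_apply, Fin.sum_univ_two, sl2] <;> ring

/-- `W² = q γ₀`, so `c ∘ c` is conjugation by `γ₀ ∈ Γ₀(N q)`. -/
theorem conjALHom_conjALHom (γ : Gamma0 (N * q)) :
    conjALHom D hq (conjALHom D hq γ)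
      = ⟨gam0 D, gam0_mem_Gamma0 D⟩ * γ * (⟨gam0 D, gam0_mem_Gamma0 D⟩ : Gamma0 (N * q))⁻¹ := by
  rw [eq_mul_inv_iff_mul_eq]
  apply Subtype.ext
  apply Subtype.ext
  have h1 := conjALHom_mul_alMatZ D hq (conjALHom D hq γ)
  have h2 := conjALHom_mul_alMatZ D hq γ
  have h3 : ((conjALHom D hq (conjALHom D hq γ) : SL(2, ℤ)) : Matrix (Fin 2) (Fin 2) ℤ)
      * (alMatZ D * alMatZ D) = (alMatZ D * alMatZ D) * ((γ : SL(2, ℤ)) : Matrix (Fin 2) (Fin 2) ℤ) := by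
    rw [← Matrix.mul_assoc, h1, Matrix.mul_assoc, h2, Matrix.mul_assoc]
  rw [alMatZ_mul_alMatZ, Matrix.mul_smul, Matrix.smul_mul] at h3
  have hq' : (q : ℤ) ≠ 0 := by exact_mod_cast hq
  exact smul_right_injective _ hq' h3

theorem conjALHom_injective : Function.Injective (conjALHom D hq) := by
  intro γ γ' h
  have h' := congrArg (conjALHom D hq) h
  rw [conjALHom_conjALHom, conjALHom_conjALHom] at h'
  exact mul_left_cancel (mul_right_cancel h')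

theorem conjALHom_surjective : Function.Surjective (conjALHom D hq) := by
  intro γ'
  refine ⟨conjALHom D hq ((⟨gam0 D, gam0_mem_Gamma0 D⟩ : Gamma0 (N * q))⁻¹ * γ' *
    ⟨gam0 D, gam0_mem_Gamma0 D⟩), ?_⟩
  rw [conjALHom_conjALHom]
  group

theorem conjALHom_bijective : Function.Bijective (conjALHom D hq) :=
  ⟨conjALHom_injective D hq, conjALHom_surjective D hq⟩

/-- **(hP) for the Atkin–Lehner conjugation**: `c` maps the canonical generator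
`h⁻¹ T^{width h} h` of a cusp stabiliser of `Γ₀(N q)` to the canonical generator at another cusp. -/
theorem exists_conj_per (hq' : q.Prime) [NeZero (N * q)] (h : SL(2, ℤ)) :
    ∃ h' : SL(2, ℤ),
      ((conjALHom D hq'.ne_zero ⟨h⁻¹ * T ^ width (Gamma0 (N * q)) h * h,
          conj_T_pow_width_mem (Gamma0 (N * q)) h⟩ : Gamma0 (N * q)) : SL(2, ℤ))
        = h'⁻¹ * T ^ width (Gamma0 (N * q)) h' * h' :=
  exists_conj_per_of_rel (conjALHom D hq'.ne_zero) (alMatZ D)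
    (conjALHom_mul_alMatZ D hq'.ne_zero) hq' (det_alMatZ D)
    (conjALHom_surjective D hq'.ne_zero) h

end AtkinLehner

end Fermat.Agent.S41.H72
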