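import Mathlib

/-!
# Arithmetic half of the centrality theorem for `SL₂(ℤ[1/q])`

Pure integer arithmetic (one CRT, two uses of Dirichlet, Fermat's little theorem and a
geometric sum).  Given a first row `(a, b)` of an element of `Γ(m)` the theorem
`exists_claim_data` modifies it by level-`m` elementary moves to a row `(a', b')` for which
`1 - (q ^ K) ^ 2 = w0 * b'` with `q ^ K ≡ 1 mod m` and `w0` prime to `m`.
-/

namespace Fermat.Agent.S41.H76

open Finset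

/-- Two-modulus CRT over `ℤ`, keeping track of coprimality of the solution. -/
theorem exists_crt_coprime {n1 n2 c1 c2 : ℤ} (h : IsCoprime n1 n2)
    (h1 : IsCoprime c1 n1) (h2 : IsCoprime c2 n2) :
    ∃ x : ℤ, x ≡ c1 [ZMOD n1] ∧ x ≡ c2 [ZMOD n2] ∧ IsCoprime x (n1 * n2) := by
  obtain ⟨u, v, huv⟩ := h
  have e1 : c1 * (v * n2) + c2 * (u * n1) = c1 + n1 * (u * (c2 - c1)) := by
    linear_combination c1 * huv
  have e2 : c1 * (v * n2) + c2 * (u * n1) = c2 + n2 * (v * (c1 - c2)) := by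
    linear_combination c2 * huv
  refine ⟨c1 * (v * n2) + c2 * (u * n1), ?_, ?_, ?_⟩
  · rw [Int.modEq_iff_dvd]
    exact ⟨u * (c1 - c2), by rw [e1]; ring⟩
  · rw [Int.modEq_iff_dvd]
    exact ⟨v * (c2 - c1), by rw [e2]; ring⟩
  · refine IsCoprime.mul_right ?_ ?_
    · rw [e1]; exact h1.add_mul_left_left _
    · rw [e2]; exact h2.add_mul_left_left _

/-- A geometric sum with ratio `≡ 1` is congruent to its number of terms. -/
theorem geom_sum_modEq {x n : ℤ} (hx : x ≡ 1 [ZMOD n]) (k : ℕ) :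
    (∑ i ∈ range k, x ^ i) ≡ (k : ℤ) [ZMOD n] := by
  induction k with
  | zero => simp
  | succ k ih =>
    rw [Finset.sum_range_succ]
    push_cast
    exact ih.add ((hx.pow k).trans (by simp))

/-- A positive integer smaller than a prime is coprime to it. -/
theorem isCoprime_of_pos_of_lt {P : ℕ} (hP : P.Prime) {z : ℤ} (h0 : 0 < z) (hlt : z < P) :
    IsCoprime (P : ℤ) z := by
  have hPz : Prime (P : ℤ) := Nat.prime_iff_prime_int.mp hP
  refine hPz.irreducible.coprime_iff_not_dvd.mpr ?_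
  intro hd
  have := Int.le_of_dvd h0 hd
  omega


/-- **Arithmetic core of the centrality CLAIM.**  Starting from a row `(a, b)` with
`a ≡ 1`, `b ≡ 0 mod m` and `gcd(a, b) = 1`, three level-`m` elementary moves lead to a row
`(a', b')` such that `1 - (q ^ K) ^ 2 = w0 * b'`, where `q ^ K ≡ 1 mod m` and `w0` is prime
to `m`. -/
theorem exists_claim_data {m q : ℕ} (hm : 0 < m) (hq : 1 < q) (hqm : q.Coprime m)
    {a b : ℤ} (hab : IsCoprime a b) (ha : a ≡ 1 [ZMOD (m : ℤ)]) (hb : (m : ℤ) ∣ b) :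
    ∃ (t1 t2 t3 b1 a' b' : ℤ) (K : ℕ) (w0 : ℤ),
      b1 = b + a * m * t1 ∧ a' = a + b1 * m * t2 ∧ b' = b1 + a' * m * t3 ∧
      (q : ℤ) ^ K ≡ 1 [ZMOD (m : ℤ)] ∧
      1 - ((q : ℤ) ^ K) ^ 2 = w0 * b' ∧
      IsCoprime w0 (m : ℤ) ∧ IsCoprime a' (m : ℤ) := by
  have hmz : (m : ℤ) ≠ 0 := by exact_mod_cast hm.ne'
  have hmpos : (0 : ℤ) < m := by exact_mod_cast hm
  -- `a` is prime to `m`
  have ham : IsCoprime a (m : ℤ) := by
    obtain ⟨z, hz⟩ := Int.modEq_iff_dvd.mp ha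
    have : a = 1 + (m : ℤ) * (-z) := by linarith
    rw [this]
    exact isCoprime_one_left.add_mul_left_left _
  -- Step A: make `b` nonzero
  obtain ⟨t1, hb1ne⟩ : ∃ t1 : ℤ, b + a * m * t1 ≠ 0 := by
    by_cases hb0 : b = 0
    · refine ⟨1, ?_⟩
      subst hb0
      have ha0 : a ≠ 0 := by
        rintro rfl
        exact not_isCoprime_zero_zero hab
      simpa using mul_ne_zero ha0 hmz
    · exact ⟨0, by simpa using hb0⟩
  set b1 : ℤ := b + a * m * t1 with hb1def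
  have hab1 : IsCoprime a b1 := by
    have : b1 = b + a * (m * t1) := by rw [hb1def]; ring
    rw [this]
    exact hab.add_mul_left_right _
  have hmb1 : (m : ℤ) ∣ b1 := by
    rw [hb1def]
    exact dvd_add hb ⟨a * t1, by ring⟩
  obtain ⟨β, hβ⟩ := hmb1
  -- the exponent `r` and `M1 = q ^ (2 r) - 1`
  set r : ℕ := Nat.totient m with hrdef
  have hrpos : 0 < r := Nat.totient_pos.mpr hm
  have hqr : (q : ℤ) ^ r ≡ 1 [ZMOD (m : ℤ)] := by
    have h1 : q ^ r ≡ 1 [MOD m] := Nat.ModEq.pow_totient hqm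
    have h2 := (Int.natCast_modEq_iff).mpr h1
    simpa using h2
  have hq2r : (q : ℤ) ^ (2 * r) ≡ 1 [ZMOD (m : ℤ)] := by
    have : (q : ℤ) ^ (2 * r) = ((q : ℤ) ^ r) ^ 2 := by rw [mul_comm, pow_mul]
    rw [this]
    simpa using hqr.pow 2
  have hqz : (1 : ℤ) < q := by exact_mod_cast hq
  have hM1pos : 0 < (q : ℤ) ^ (2 * r) - 1 := by
    have : (1 : ℤ) < (q : ℤ) ^ (2 * r) := one_lt_pow₀ hqz (by omega)
    linarith
  obtain ⟨M1', hM1'⟩ : (m : ℤ) ∣ (q : ℤ) ^ (2 * r) - 1 := by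
    have := Int.modEq_iff_dvd.mp hq2r.symm
    simpa using this
  have hM1'pos : 0 < M1' := by
    rw [hM1'] at hM1pos
    exact (mul_pos_iff_of_pos_left hmpos).mp hM1pos
  have hM1'le : M1' ≤ (q : ℤ) ^ (2 * r) - 1 := by
    rw [hM1']
    exact le_mul_of_one_le_left hM1'pos.le (by linarith)
  have hmle : (m : ℤ) ≤ (q : ℤ) ^ (2 * r) - 1 := by
    rw [hM1']
    exact le_mul_of_one_le_right hmpos.le (by linarith)
  have hq4 : (4 : ℤ) ≤ (q : ℤ) ^ (2 * r) := by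
    have h2 : (2 : ℤ) ≤ q := by linarith
    calc (4 : ℤ) = 2 ^ 2 := by norm_num
      _ ≤ (q : ℤ) ^ 2 := by gcongr
      _ ≤ (q : ℤ) ^ (2 * r) := by
        apply pow_le_pow_right₀ (by linarith)
        omega
  -- Step B: Dirichlet, `a' = P` a large prime
  have hN0 : b1.natAbs * m ≠ 0 := by
    refine mul_ne_zero ?_ hm.ne'
    simpa using hb1ne
  have hcopN0 : IsCoprime a ((b1.natAbs * m : ℕ) : ℤ) := by
    push_cast
    refine IsCoprime.mul_right ?_ ham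
    rcases abs_choice b1 with h | h
    · rw [h]; exact hab1
    · rw [h]; exact hab1.neg_right
  obtain ⟨P, hPgt, hPprime, hPmod⟩ :=
    Nat.forall_exists_prime_gt_and_zmodEq (q ^ (2 * r) + 2) hN0 hcopN0
  have hPgtz : (q : ℤ) ^ (2 * r) + 2 < P := by exact_mod_cast hPgt
  obtain ⟨t2, ht2⟩ : ∃ t2 : ℤ, (P : ℤ) = a + b1 * m * t2 := by
    have h1 : ((b1.natAbs * m : ℕ) : ℤ) ∣ a - P := Int.modEq_iff_dvd.mp hPmod
    have h2 : b1 * m ∣ ((b1.natAbs * m : ℕ) : ℤ) := by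
      push_cast
      exact mul_dvd_mul_right ((dvd_abs b1 b1).mpr dvd_rfl) _
    obtain ⟨z, hz⟩ := h2.trans h1
    exact ⟨-z, by linarith⟩
  have hPz : Prime (P : ℤ) := Nat.prime_iff_prime_int.mp hPprime
  have hPb1 : IsCoprime (P : ℤ) b1 := by
    have : (P : ℤ) = a + (m * t2) * b1 := by rw [ht2]; ring
    rw [this]
    exact hab1.add_mul_right_left _
  have hPβ : IsCoprime (P : ℤ) β := by
    rw [hβ] at hPb1
    exact hPb1.of_mul_right_right
  have hPm : IsCoprime (P : ℤ) (m : ℤ) := by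
    have : (P : ℤ) = a + (m : ℤ) * (b1 * t2) := by rw [ht2]; ring
    rw [this]
    exact ham.add_mul_left_left _
  have hPM1' : IsCoprime (P : ℤ) M1' :=
    isCoprime_of_pos_of_lt hPprime hM1'pos (by linarith)
  have hP4 : IsCoprime (P : ℤ) 4 :=
    isCoprime_of_pos_of_lt hPprime (by norm_num) (by linarith)
  -- solve `M1' * c1 ≡ β mod P`
  obtain ⟨v, u, huv⟩ := hPM1'
  -- huv : v * P + u * M1' = 1
  set c1 : ℤ := β * u with hc1def
  have hc1P : IsCoprime c1 (P : ℤ) := by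
    refine IsCoprime.mul_left hPβ.symm ?_
    exact ⟨M1', v, by linarith [mul_comm u M1']⟩
  -- CRT: `x ≡ -1 mod 4 m`, `x ≡ c1 mod P`
  have h4mP : IsCoprime ((4 : ℤ) * m) (P : ℤ) :=
    (IsCoprime.mul_right hP4 hPm).symm
  obtain ⟨x, hx4m, hxP, hxcop⟩ :=
    exists_crt_coprime h4mP (c1 := -1) (c2 := c1) isCoprime_one_left.neg_left hc1P
  -- Dirichlet: the prime `l`
  have hN1 : 4 * m * P ≠ 0 := by
    have := hPprime.pos
    positivity
  have hxcop' : IsCoprime x ((4 * m * P : ℕ) : ℤ) := by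
    push_cast; exact hxcop
  obtain ⟨l, hlgt, hlprime, hlmod⟩ :=
    Nat.forall_exists_prime_gt_and_zmodEq (q ^ (2 * r) * q) hN1 hxcop'
  have hlgtz : (q : ℤ) ^ (2 * r) * q < l := by exact_mod_cast hlgt
  have hlmod' : (l : ℤ) ≡ x [ZMOD ((4 : ℤ) * m) * P] := by
    have := hlmod
    push_cast at this
    exact this
  have hl4m : (l : ℤ) ≡ -1 [ZMOD ((4 : ℤ) * m)] := (hlmod'.of_mul_right _).trans hx4m
  have hlP : (l : ℤ) ≡ c1 [ZMOD (P : ℤ)] := (hlmod'.of_mul_left _).trans hxP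
  have hlz : Prime (l : ℤ) := Nat.prime_iff_prime_int.mp hlprime
  -- `b' = M1 * l = b1 + P * m * t3`
  obtain ⟨z1, hz1⟩ : (P : ℤ) ∣ c1 - l := Int.modEq_iff_dvd.mp hlP
  have ht3 : ((q : ℤ) ^ (2 * r) - 1) * l = b1 + (P : ℤ) * m * (-(M1' * z1) - β * v) := by
    have e1 : (l : ℤ) = c1 - P * z1 := by linarith
    rw [hM1', e1, hβ, hc1def]
    linear_combination ((m : ℤ) * β) * huv
  -- the exponent `k0 = (l - 1) / 2`
  obtain ⟨j', hj'⟩ : ((4 : ℤ) * m) ∣ -1 - l := Int.modEq_iff_dvd.mp hl4m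
  set X : ℤ := (m : ℤ) * (-j') with hXdef
  have hlX : (l : ℤ) + 1 = 4 * X := by rw [hXdef]; linarith
  set k0 : ℕ := l / 2 with hk0def
  have hl2 : l = 2 * k0 + 1 := by omega
  have hk0X : (k0 : ℤ) + 1 = 2 * X := by omega
  have hk0m : IsCoprime (k0 : ℤ) (m : ℤ) := by
    refine ⟨-1, 2 * (-j'), ?_⟩
    have : (k0 : ℤ) = 2 * ((m : ℤ) * (-j')) - 1 := by linarith
    rw [this]; ring
  -- Fermat's little theorem
  have hql : IsCoprime (q : ℤ) (l : ℤ) := by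
    refine (isCoprime_of_pos_of_lt hlprime (by linarith) ?_).symm
    have : (1 : ℤ) ≤ (q : ℤ) ^ (2 * r) := by linarith
    nlinarith
  have hfermat : ((q : ℤ) ^ r) ^ (l - 1) ≡ 1 [ZMOD (l : ℤ)] :=
    Int.ModEq.pow_card_sub_one_eq_one hlprime hql.pow_left
  set K : ℕ := r * k0 with hKdef
  have hv2 : ((q : ℤ) ^ K) ^ 2 = ((q : ℤ) ^ (2 * r)) ^ k0 := by
    rw [hKdef, ← pow_mul, ← pow_mul]; congr 1; ring
  have hv2' : ((q : ℤ) ^ K) ^ 2 = ((q : ℤ) ^ r) ^ (l - 1) := by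
    rw [hKdef, ← pow_mul, ← pow_mul]; congr 1
    have : l - 1 = 2 * k0 := by omega
    rw [this]; ring
  have hldvd : (l : ℤ) ∣ 1 - ((q : ℤ) ^ K) ^ 2 := by
    rw [hv2']
    exact Int.modEq_iff_dvd.mp hfermat
  -- geometric sum
  set Sg : ℤ := ∑ i ∈ range k0, ((q : ℤ) ^ (2 * r)) ^ i with hSgdef
  have hgeom : Sg * ((q : ℤ) ^ (2 * r) - 1) = ((q : ℤ) ^ K) ^ 2 - 1 := by
    rw [hv2, hSgdef]
    exact geom_sum_mul _ _
  have hlSg : (l : ℤ) ∣ Sg := by
    have h1 : (l : ℤ) ∣ Sg * ((q : ℤ) ^ (2 * r) - 1) := by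
      rw [hgeom]
      have := hldvd
      rwa [← dvd_neg, neg_sub] at this
    rcases hlz.dvd_or_dvd h1 with h | h
    · exact h
    · exfalso
      have := Int.le_of_dvd hM1pos h
      have h1q : (q : ℤ) ^ (2 * r) ≤ (q : ℤ) ^ (2 * r) * q := by
        apply le_mul_of_one_le_right (by positivity) (by linarith)
      linarith
  obtain ⟨σ, hσ⟩ := hlSg
  have hSgm : IsCoprime Sg (m : ℤ) := by
    have h1 : Sg ≡ (k0 : ℤ) [ZMOD (m : ℤ)] := geom_sum_modEq hq2r k0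
    obtain ⟨z, hz⟩ := Int.modEq_iff_dvd.mp h1
    have : Sg = (k0 : ℤ) + (m : ℤ) * (-z) := by linarith
    rw [this]
    exact hk0m.add_mul_left_left _
  have hσm : IsCoprime σ (m : ℤ) := by
    rw [hσ] at hSgm
    exact hSgm.of_mul_left_right
  refine ⟨t1, t2, -(M1' * z1) - β * v, b1, P, ((q : ℤ) ^ (2 * r) - 1) * l, K, -σ,
    rfl, ht2, ht3, ?_, ?_, hσm.neg_left, hPm⟩
  · rw [hKdef, pow_mul]
    simpa using hqr.pow k0
  · have : 1 - ((q : ℤ) ^ K) ^ 2 = -(Sg * ((q : ℤ) ^ (2 * r) - 1)) := by rw [hgeom]; ring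
    rw [this, hσ]; ring

end Fermat.Agent.S41.H76
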