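import Mathlib
import Fermat.Agent.S41.H38_CSPGlue
import Fermat.Agent.S41.H76_CSPArith

/-!
# Centrality (Theorem I of package D) - group side

For a commutative ring `R` in which `q` is a unit and `m` prime to `q`:
for `s g : SL(2, ℤ)` with `g ∈ Γ(m)` the image in `SL(2, R)` of the commutator
`s g s⁻¹ g⁻¹` lies in `E(m) = H38.elemNormal m`, the normal closure of the level-`m`
elementary matrices.
-/

set_option autoImplicit false

open Matrix CongruenceSubgroup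
open scoped MatrixGroups

namespace Fermat.Agent.S41.H76

open Fermat.Agent.S41

section Basic

variable {R : Type*} [CommRing R]

/-- The lower elementary matrix `[[1, 0], [t, 1]]`. -/
def x21 (t : R) : SL(2, R) := ⟨!![1, 0; t, 1], by simp [Matrix.det_fin_two_of]⟩

@[simp] lemma x21_00 (t : R) : (x21 t).1 0 0 = 1 := rfl
@[simp] lemma x21_01 (t : R) : (x21 t).1 0 1 = 0 := rfl
@[simp] lemma x21_10 (t : R) : (x21 t).1 1 0 = t := rfl
@[simp] lemma x21_11 (t : R) : (x21 t).1 1 1 = 1 := rfl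

/-- The Weyl element `[[0, 1], [-1, 0]]`. -/
def wEl : SL(2, R) := ⟨!![0, 1; -1, 0], by simp [Matrix.det_fin_two_of]⟩

@[simp] lemma wEl_00 : (wEl : SL(2, R)).1 0 0 = 0 := rfl
@[simp] lemma wEl_01 : (wEl : SL(2, R)).1 0 1 = 1 := rfl
@[simp] lemma wEl_10 : (wEl : SL(2, R)).1 1 0 = -1 := rfl
@[simp] lemma wEl_11 : (wEl : SL(2, R)).1 1 1 = 0 := rfl

/-- The diagonal matrix `diag(v, v')` for `v * v' = 1`. -/
def hEl (v v' : R) (h : v * v' = 1) : SL(2, R) :=
  ⟨!![v, 0; 0, v'], by simp [Matrix.det_fin_two_of, h]⟩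

@[simp] lemma hEl_00 (v v' : R) (h : v * v' = 1) : (hEl v v' h).1 0 0 = v := rfl
@[simp] lemma hEl_01 (v v' : R) (h : v * v' = 1) : (hEl v v' h).1 0 1 = 0 := rfl
@[simp] lemma hEl_10 (v v' : R) (h : v * v' = 1) : (hEl v v' h).1 1 0 = 0 := rfl
@[simp] lemma hEl_11 (v v' : R) (h : v * v' = 1) : (hEl v v' h).1 1 1 = v' := rfl

/-- Entries of a product in `SL(2, R)`. -/
lemma sl_mul_apply (A B : SL(2, R)) (i j : Fin 2) :
    (A * B).1 i j = A.1 i 0 * B.1 0 j + A.1 i 1 * B.1 1 j := by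
  rw [Matrix.SpecialLinearGroup.coe_mul, Matrix.mul_apply, Fin.sum_univ_two]

lemma sl_inv_00 (A : SL(2, R)) : (A⁻¹).1 0 0 = A.1 1 1 := by
  simp [Matrix.SpecialLinearGroup.coe_inv, Matrix.adjugate_fin_two]
lemma sl_inv_01 (A : SL(2, R)) : (A⁻¹).1 0 1 = -A.1 0 1 := by
  simp [Matrix.SpecialLinearGroup.coe_inv, Matrix.adjugate_fin_two]
lemma sl_inv_10 (A : SL(2, R)) : (A⁻¹).1 1 0 = -A.1 1 0 := by
  simp [Matrix.SpecialLinearGroup.coe_inv, Matrix.adjugate_fin_two]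
lemma sl_inv_11 (A : SL(2, R)) : (A⁻¹).1 1 1 = A.1 0 0 := by
  simp [Matrix.SpecialLinearGroup.coe_inv, Matrix.adjugate_fin_two]

lemma sl_det (A : SL(2, R)) : A.1 0 0 * A.1 1 1 - A.1 0 1 * A.1 1 0 = 1 := by
  have := A.2
  rwa [Matrix.det_fin_two] at this

/-- Extensionality by the four entries. -/
lemma sl_ext4 {A B : SL(2, R)} (h00 : A.1 0 0 = B.1 0 0) (h01 : A.1 0 1 = B.1 0 1)
    (h10 : A.1 1 0 = B.1 1 0) (h11 : A.1 1 1 = B.1 1 1) : A = B := by
  apply Matrix.SpecialLinearGroup.ext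
  intro i j
  fin_cases i <;> fin_cases j <;> assumption

lemma x21_zero : x21 (0 : R) = 1 := by
  apply sl_ext4 <;> simp

lemma x21_add (s t : R) : x21 (s + t) = x21 s * x21 t := by
  apply sl_ext4 <;> simp [sl_mul_apply, add_comm]

lemma x21_neg (t : R) : x21 (-t) = (x21 t)⁻¹ := by
  rw [eq_inv_iff_mul_eq_one, ← x21_add, neg_add_cancel, x21_zero]

lemma x12_neg (t : R) : H38.x12 (-t) = (H38.x12 t)⁻¹ := by
  rw [eq_inv_iff_mul_eq_one, ← H38.x12_add, neg_add_cancel, H38.x12_zero]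

/-- `x21` as a homomorphism from the additive group of `R`. -/
def x21Hom : Multiplicative R →* SL(2, R) where
  toFun t := x21 (Multiplicative.toAdd t)
  map_one' := x21_zero
  map_mul' _ _ := x21_add _ _

lemma x21_int_mul (n : ℤ) (t : R) : x21 ((n : R) * t) = x21 t ^ n := by
  have h1 : x21 ((n : R) * t) = x21Hom (Multiplicative.ofAdd (n • t)) := by
    rw [zsmul_eq_mul]; rfl
  rw [h1, ofAdd_zsmul, map_zpow]
  rfl

/-- `x21 t = w * x12 (-t) * w⁻¹`. -/
lemma x21_eq_conj (t : R) : x21 t = wEl * H38.x12 (-t) * wEl⁻¹ := by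
  apply sl_ext4 <;> simp [sl_mul_apply, sl_inv_00, sl_inv_01, sl_inv_10, sl_inv_11]

/-- `w⁻¹ * x21 t * w = x12 (-t)`. -/
lemma conj_x21_eq (t : R) : wEl⁻¹ * x21 t * wEl = H38.x12 (-t) := by
  rw [x21_eq_conj]; group

/-- The Whitehead-type identity writing `diag(v, v')` as a product of elementary matrices. -/
lemma hEl_eq (v v' : R) (h : v * v' = 1) :
    hEl v v' h = H38.x12 (v - 1) * (H38.x12 1 * x21 (1 - v') * H38.x12 (-1)) * x21 (-(v - 1)) := by
  apply sl_ext4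
  · simp [sl_mul_apply]; linear_combination v * h
  · simp [sl_mul_apply]; linear_combination (-1 : R) * h
  · simp [sl_mul_apply]; linear_combination (1 : R) * h
  · simp [sl_mul_apply]

end Basic


section Congruence

variable {R : Type*} [CommRing R] (m : R)

/-- The principal congruence subgroup of level `m` in `SL(2, R)`. -/
def Gm : Subgroup SL(2, R) :=
  (Matrix.SpecialLinearGroup.map (Ideal.Quotient.mk (Ideal.span {m}))).ker

instance Gm_normal : (Gm m).Normal := MonoidHom.normal_ker _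

lemma map_entry {S : Type*} [CommRing S] (f : R →+* S) (g : SL(2, R)) (i j : Fin 2) :
    (Matrix.SpecialLinearGroup.map f g).1 i j = f (g.1 i j) := by
  simp [Matrix.SpecialLinearGroup.map_apply_coe]

lemma quot_eq_zero_iff (x : R) : Ideal.Quotient.mk (Ideal.span {m}) x = 0 ↔ m ∣ x := by
  rw [Ideal.Quotient.eq_zero_iff_mem, Ideal.mem_span_singleton]

lemma mem_Gm_iff (g : SL(2, R)) :
    g ∈ Gm m ↔ m ∣ g.1 0 0 - 1 ∧ m ∣ g.1 0 1 ∧ m ∣ g.1 1 0 ∧ m ∣ g.1 1 1 - 1 := by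
  unfold Gm
  rw [MonoidHom.mem_ker]
  constructor
  · intro h
    have e : ∀ i j, Ideal.Quotient.mk (Ideal.span {m}) (g.1 i j) = (1 : SL(2, R ⧸ Ideal.span {m})).1 i j := by
      intro i j
      rw [← map_entry, h]
    refine ⟨?_, ?_, ?_, ?_⟩
    · rw [← quot_eq_zero_iff, map_sub, e 0 0]; simp
    · rw [← quot_eq_zero_iff, e 0 1]; simp
    · rw [← quot_eq_zero_iff, e 1 0]; simp
    · rw [← quot_eq_zero_iff, map_sub, e 1 1]; simp
  · rintro ⟨h00, h01, h10, h11⟩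
    rw [← quot_eq_zero_iff, map_sub, sub_eq_zero] at h00 h11
    rw [← quot_eq_zero_iff] at h01 h10
    apply sl_ext4
    · rw [map_entry, h00]; simp
    · rw [map_entry, h01]; simp
    · rw [map_entry, h10]; simp
    · rw [map_entry, h11]; simp

lemma x12_mem_Gm (t : R) : H38.x12 (m * t) ∈ Gm m := by
  rw [mem_Gm_iff]
  simp

lemma elemNormal_le_Gm : H38.elemNormal m ≤ Gm m := by
  apply Subgroup.normalClosure_le_normal
  rintro x ⟨t, rfl⟩
  exact x12_mem_Gm m t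

lemma x12_mem_elemNormal (t : R) : H38.x12 (m * t) ∈ H38.elemNormal m :=
  Subgroup.subset_normalClosure ⟨t, rfl⟩

lemma conj_mem_elemNormal {X : SL(2, R)} (hX : X ∈ H38.elemNormal m) (Y : SL(2, R)) :
    Y * X * Y⁻¹ ∈ H38.elemNormal m :=
  (inferInstance : (H38.elemNormal m).Normal).conj_mem X hX Y

lemma x21_mem_elemNormal (t : R) : x21 (m * t) ∈ H38.elemNormal m := by
  rw [x21_eq_conj]
  have : -(m * t) = m * (-t) := by ring
  rw [this]
  exact conj_mem_elemNormal m (x12_mem_elemNormal m (-t)) _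

variable {m}

lemma x12_mem_of_dvd {y : R} (h : m ∣ y) : H38.x12 y ∈ H38.elemNormal m := by
  obtain ⟨t, rfl⟩ := h
  exact x12_mem_elemNormal m t

lemma x21_mem_of_dvd {y : R} (h : m ∣ y) : x21 y ∈ H38.elemNormal m := by
  obtain ⟨t, rfl⟩ := h
  exact x21_mem_elemNormal m t

/-- **(F2)** `diag(v, v')` lies in `E(m)` when `v ≡ 1 mod m`. -/
lemma hEl_mem (v v' : R) (h : v * v' = 1) (hv : m ∣ v - 1) : hEl v v' h ∈ H38.elemNormal m := by
  rw [hEl_eq]
  have h1 : m ∣ 1 - v' := by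
    obtain ⟨t, ht⟩ := hv
    exact ⟨v' * t, by linear_combination v' * ht - h⟩
  refine mul_mem (mul_mem (x12_mem_of_dvd hv) ?_) (x21_mem_of_dvd ((dvd_neg).mpr hv))
  rw [x12_neg]
  exact conj_mem_elemNormal m (x21_mem_of_dvd h1) _

/-- **(F3)** An element of the congruence subgroup with first row `(1, 0)` lies in `E(m)`. -/
lemma mem_elemNormal_of_row (X : SL(2, R)) (hX : X ∈ Gm m) (h00 : X.1 0 0 = 1)
    (h01 : X.1 0 1 = 0) : X ∈ H38.elemNormal m := by
  have h11 : X.1 1 1 = 1 := by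
    have := sl_det X
    rw [h00, h01] at this
    simpa using this
  have hX' : X = x21 (X.1 1 0) := by
    apply sl_ext4 <;> simp [h00, h01, h11]
  rw [hX']
  exact x21_mem_of_dvd ((mem_Gm_iff m X).1 hX).2.2.1

lemma row_mul_inv (A B : SL(2, R)) (h0 : A.1 0 0 = B.1 0 0) (h1 : A.1 0 1 = B.1 0 1) :
    (A * B⁻¹).1 0 0 = 1 ∧ (A * B⁻¹).1 0 1 = 0 := by
  constructor
  · rw [sl_mul_apply, sl_inv_00, sl_inv_10, h0, h1]
    linear_combination sl_det B
  · rw [sl_mul_apply, sl_inv_01, sl_inv_11, h0, h1]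
    ring

/-- **Key step.** If `G0` lies in the congruence subgroup and `x21 s0` moves its first row
`(a, b)` to `(v² a, b)` with `v ≡ 1 mod m` a unit, then `x21 s0` commutes with `G0` modulo
`E(m)`. -/
lemma comm_mem_of_row (G0 : SL(2, R)) (hG0 : G0 ∈ Gm m) (v v' : R) (hv : v * v' = 1)
    (hv1 : m ∣ v - 1) (s0 : R) (hrow : G0.1 0 0 - G0.1 0 1 * s0 = v ^ 2 * G0.1 0 0) :
    x21 s0 * G0 * x21 (-s0) * G0⁻¹ ∈ H38.elemNormal m := by
  have hE : hEl v v' hv ∈ H38.elemNormal m := hEl_mem v v' hv hv1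
  have hA : x21 s0 * G0 * x21 (-s0) ∈ Gm m := by
    rw [x21_neg]
    exact (Gm_normal m).conj_mem G0 hG0 (x21 s0)
  have hB : hEl v v' hv * G0 * hEl v v' hv ∈ Gm m :=
    mul_mem (mul_mem (elemNormal_le_Gm m hE) hG0) (elemNormal_le_Gm m hE)
  have hrows := row_mul_inv (x21 s0 * G0 * x21 (-s0)) (hEl v v' hv * G0 * hEl v v' hv)
    (by simp [sl_mul_apply]; linear_combination hrow)
    (by simp [sl_mul_apply]; linear_combination (-(G0.1 0 1)) * hv)
  have hAB : (x21 s0 * G0 * x21 (-s0)) * (hEl v v' hv * G0 * hEl v v' hv)⁻¹ ∈ H38.elemNormal m :=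
    mem_elemNormal_of_row _ (mul_mem hA (inv_mem hB)) hrows.1 hrows.2
  have hBG : (hEl v v' hv * G0 * hEl v v' hv) * G0⁻¹ ∈ H38.elemNormal m := by
    have : (hEl v v' hv * G0 * hEl v v' hv) * G0⁻¹ = hEl v v' hv * (G0 * hEl v v' hv * G0⁻¹) := by
      group
    rw [this]
    exact mul_mem hE (conj_mem_elemNormal m hE G0)
  have : x21 s0 * G0 * x21 (-s0) * G0⁻¹
      = ((x21 s0 * G0 * x21 (-s0)) * (hEl v v' hv * G0 * hEl v v' hv)⁻¹)
        * ((hEl v v' hv * G0 * hEl v v' hv) * G0⁻¹) := by group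
  rw [this]
  exact mul_mem hAB hBG

end Congruence


section Integers

variable (R : Type*) [CommRing R]

/-- `SL(2, ℤ) → SL(2, R)`. -/
def iotaR : SL(2, ℤ) →* SL(2, R) := Matrix.SpecialLinearGroup.map (Int.castRingHom R)

variable {R}

lemma iotaR_apply (g : SL(2, ℤ)) (i j : Fin 2) : (iotaR R g).1 i j = ((g.1 i j : ℤ) : R) := by
  simp [iotaR, Matrix.SpecialLinearGroup.map_apply_coe]

lemma iotaR_x12 (z : ℤ) : iotaR R (H38.x12 z) = H38.x12 (z : R) := by
  apply sl_ext4 <;> simp [iotaR_apply]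

lemma iotaR_x21 (z : ℤ) : iotaR R (x21 z) = x21 (z : R) := by
  apply sl_ext4 <;> simp [iotaR_apply]

lemma iotaR_wEl : iotaR R wEl = wEl := by
  apply sl_ext4 <;> simp [iotaR_apply]

lemma iotaR_T : iotaR R ModularGroup.T = H38.x12 1 := by
  apply sl_ext4 <;> simp [iotaR_apply, ModularGroup.coe_T]

lemma iotaR_S : iotaR R ModularGroup.S = H38.x12 (-1) * x21 1 * H38.x12 (-1) := by
  apply sl_ext4 <;> simp [iotaR_apply, ModularGroup.coe_S, sl_mul_apply]

lemma iotaR_mem_Gm {m : ℕ} {g : SL(2, ℤ)} (hg : g ∈ Gamma m) : iotaR R g ∈ Gm ((m : ℕ) : R) := by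
  rw [Gamma_mem] at hg
  obtain ⟨h00, h01, h10, h11⟩ := hg
  have d00 : (m : ℤ) ∣ g.1 0 0 - 1 := by
    rw [← ZMod.intCast_zmod_eq_zero_iff_dvd]; push_cast; rw [h00]; simp
  have d01 : (m : ℤ) ∣ g.1 0 1 := by
    rw [← ZMod.intCast_zmod_eq_zero_iff_dvd]; exact h01
  have d10 : (m : ℤ) ∣ g.1 1 0 := by
    rw [← ZMod.intCast_zmod_eq_zero_iff_dvd]; exact h10
  have d11 : (m : ℤ) ∣ g.1 1 1 - 1 := by
    rw [← ZMod.intCast_zmod_eq_zero_iff_dvd]; push_cast; rw [h11]; simp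
  have cast : ∀ z : ℤ, (m : ℤ) ∣ z → ((m : ℕ) : R) ∣ (z : R) := by
    rintro z ⟨k, rfl⟩
    exact ⟨(k : R), by push_cast; ring⟩
  rw [mem_Gm_iff]
  refine ⟨?_, ?_, ?_, ?_⟩
  · have := cast _ d00; rw [iotaR_apply]; push_cast at this; exact this
  · rw [iotaR_apply]; exact cast _ d01
  · rw [iotaR_apply]; exact cast _ d10
  · have := cast _ d11; rw [iotaR_apply]; push_cast at this; exact this

end Integers

section Main

variable {R : Type*} [CommRing R]

/-- Commutation in the quotient by `E(m)` in terms of commutators. -/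
lemma commute_mk_iff (m : R) (X Y : SL(2, R)) :
    Commute (QuotientGroup.mk' (H38.elemNormal m) X) (QuotientGroup.mk' (H38.elemNormal m) Y)
      ↔ X * Y * X⁻¹ * Y⁻¹ ∈ H38.elemNormal m := by
  rw [← QuotientGroup.eq_one_iff, ← QuotientGroup.mk'_apply]
  simp only [map_mul, map_inv]
  rw [mul_inv_eq_one, mul_inv_eq_iff_eq_mul]
  exact Iff.rfl

/-- **CLAIM**: for `g ∈ Γ(m)` some `x21 s0` with `s0` prime to `m` commutes with the image of
`g` modulo `E(m)`. -/
theorem exists_coprime_commute {m q : ℕ} (hm : 0 < m) (hq : 1 < q) (hqm : q.Coprime m)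
    (hqR : IsUnit ((q : ℕ) : R)) (g : SL(2, ℤ)) (hg : g ∈ Gamma m) :
    ∃ s0 : ℤ, IsCoprime s0 (m : ℤ) ∧
      Commute (QuotientGroup.mk' (H38.elemNormal ((m : ℕ) : R)) (x21 (s0 : R)))
        (QuotientGroup.mk' (H38.elemNormal ((m : ℕ) : R)) (iotaR R g)) := by
  have hg' := hg
  rw [Gamma_mem] at hg'
  obtain ⟨h00, h01, -, -⟩ := hg'
  have hab : IsCoprime (g.1 0 0) (g.1 0 1) :=
    ⟨g.1 1 1, -g.1 1 0, by linear_combination sl_det g⟩
  have ha : g.1 0 0 ≡ 1 [ZMOD (m : ℤ)] := by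
    rw [← ZMod.intCast_eq_intCast_iff]; push_cast; exact h00
  have hb : (m : ℤ) ∣ g.1 0 1 := by
    rw [← ZMod.intCast_zmod_eq_zero_iff_dvd]; exact h01
  obtain ⟨t1, t2, t3, b1, a', b', K, w0, hb1, ha', hb', hK, hw, hw0m, ha'm⟩ :=
    exists_claim_data hm hq hqm hab ha hb
  -- the modified element
  set e : SL(2, ℤ) := H38.x12 ((m : ℤ) * t1) * x21 ((m : ℤ) * t2) * H38.x12 ((m : ℤ) * t3)
    with hedef
  have he00 : (g * e).1 0 0 = a' := by
    simp only [hedef, sl_mul_apply, H38.x12_00, H38.x12_01, H38.x12_10, H38.x12_11,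
      x21_00, x21_01, x21_10, x21_11]
    rw [ha', hb1]; ring
  have he01 : (g * e).1 0 1 = b' := by
    simp only [hedef, sl_mul_apply, H38.x12_00, H38.x12_01, H38.x12_10, H38.x12_11,
      x21_00, x21_01, x21_10, x21_11]
    rw [hb', ha', hb1]; ring
  have heE : iotaR R e ∈ H38.elemNormal ((m : ℕ) : R) := by
    rw [hedef, map_mul, map_mul, iotaR_x12, iotaR_x21, iotaR_x12]
    push_cast
    exact mul_mem (mul_mem (x12_mem_elemNormal _ _) (x21_mem_elemNormal _ _))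
      (x12_mem_elemNormal _ _)
  have hG0 : iotaR R (g * e) ∈ Gm ((m : ℕ) : R) := by
    rw [map_mul]
    exact mul_mem (iotaR_mem_Gm hg) (elemNormal_le_Gm _ heE)
  -- the unit
  obtain ⟨u, hu⟩ := hqR
  have hv : (u : R) ^ K * ((u⁻¹ : Rˣ) : R) ^ K = 1 := by
    rw [← mul_pow, ← Units.val_mul, mul_inv_cancel, Units.val_one, one_pow]
  have hv1 : ((m : ℕ) : R) ∣ (u : R) ^ K - 1 := by
    obtain ⟨z, hz⟩ := Int.modEq_iff_dvd.mp hK.symm
    refine ⟨(z : R), ?_⟩
    have := congrArg (Int.cast : ℤ → R) hz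
    push_cast at this
    rw [hu]
    exact this
  have hrow : (iotaR R (g * e)).1 0 0 - (iotaR R (g * e)).1 0 1 * ((w0 * a' : ℤ) : R)
      = ((u : R) ^ K) ^ 2 * (iotaR R (g * e)).1 0 0 := by
    rw [iotaR_apply, iotaR_apply, he00, he01, hu]
    have hz : a' - b' * (w0 * a') = ((q : ℤ) ^ K) ^ 2 * a' := by
      linear_combination a' * hw
    have := congrArg (Int.cast : ℤ → R) hz
    push_cast at this ⊢
    exact this
  have hcomm := comm_mem_of_row (iotaR R (g * e)) hG0 _ _ hv hv1 _ hrow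
  refine ⟨w0 * a', hw0m.mul_left ha'm, ?_⟩
  rw [x21_neg, ← commute_mk_iff] at hcomm
  have h1 : QuotientGroup.mk' (H38.elemNormal ((m : ℕ) : R)) (iotaR R (g * e))
      = QuotientGroup.mk' (H38.elemNormal ((m : ℕ) : R)) (iotaR R g) := by
    rw [map_mul, map_mul]
    have : QuotientGroup.mk' (H38.elemNormal ((m : ℕ) : R)) (iotaR R e) = 1 :=
      (QuotientGroup.eq_one_iff _).mpr heE
    rw [this, mul_one]
  rw [h1] at hcomm
  exact hcomm


/-- `x21 1` commutes with the image of `Γ(m)` modulo `E(m)`. -/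
theorem commute_x21_one {m q : ℕ} (hm : 0 < m) (hq : 1 < q) (hqm : q.Coprime m)
    (hqR : IsUnit ((q : ℕ) : R)) (g : SL(2, ℤ)) (hg : g ∈ Gamma m) :
    Commute (QuotientGroup.mk' (H38.elemNormal ((m : ℕ) : R)) (x21 (1 : R)))
      (QuotientGroup.mk' (H38.elemNormal ((m : ℕ) : R)) (iotaR R g)) := by
  obtain ⟨s0, ⟨a, b, hab⟩, hs0⟩ := exists_coprime_commute hm hq hqm hqR g hg
  have h1 : x21 (1 : R) = x21 ((s0 : ℤ) : R) ^ a * x21 (((m : ℕ) : R) * 1) ^ b := by
    rw [← x21_int_mul, ← x21_int_mul, ← x21_add]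
    congr 1
    have := congrArg (Int.cast : ℤ → R) hab
    push_cast at this
    rw [mul_one]; exact this.symm
  have h2 : QuotientGroup.mk' (H38.elemNormal ((m : ℕ) : R)) (x21 (((m : ℕ) : R) * 1)) = 1 :=
    (QuotientGroup.eq_one_iff _).mpr (x21_mem_elemNormal _ _)
  rw [h1, map_mul, map_zpow, map_zpow, h2, _root_.one_zpow, mul_one]
  exact hs0.zpow_left a

/-- `x12 1` commutes with the image of `Γ(m)` modulo `E(m)`. -/
theorem commute_x12_one {m q : ℕ} (hm : 0 < m) (hq : 1 < q) (hqm : q.Coprime m)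
    (hqR : IsUnit ((q : ℕ) : R)) (g : SL(2, ℤ)) (hg : g ∈ Gamma m) :
    Commute (QuotientGroup.mk' (H38.elemNormal ((m : ℕ) : R)) (H38.x12 (1 : R)))
      (QuotientGroup.mk' (H38.elemNormal ((m : ℕ) : R)) (iotaR R g)) := by
  have hg' : (wEl : SL(2, ℤ)) * g * (wEl : SL(2, ℤ))⁻¹ ∈ Gamma m :=
    (Gamma_normal m).conj_mem g hg _
  have h := commute_x21_one hm hq hqm hqR _ hg'
  simp only [map_mul, map_inv, iotaR_wEl] at h
  -- conjugate back by `w`
  have h2 : Commute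
      (QuotientGroup.mk' (H38.elemNormal ((m : ℕ) : R)) ((wEl : SL(2, R))⁻¹ * x21 1 * wEl))
      (QuotientGroup.mk' (H38.elemNormal ((m : ℕ) : R)) (iotaR R g)) := by
    simp only [map_mul, map_inv] at h ⊢
    set W := QuotientGroup.mk' (H38.elemNormal ((m : ℕ) : R)) (wEl : SL(2, R))
    set X := QuotientGroup.mk' (H38.elemNormal ((m : ℕ) : R)) (x21 (1 : R))
    set c := QuotientGroup.mk' (H38.elemNormal ((m : ℕ) : R)) (iotaR R g)
    have h' : X * (W * c * W⁻¹) = (W * c * W⁻¹) * X := h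
    show W⁻¹ * X * W * c = c * (W⁻¹ * X * W)
    calc W⁻¹ * X * W * c = W⁻¹ * (X * (W * c * W⁻¹)) * W := by group
      _ = W⁻¹ * ((W * c * W⁻¹) * X) * W := by rw [h']
      _ = c * (W⁻¹ * X * W) := by group
  rw [conj_x21_eq, x12_neg, map_inv] at h2
  exact (Commute.inv_left_iff).mp h2

/-- Everything in `SL(2, ℤ)` commutes with the image of `Γ(m)` modulo `E(m)`. -/
theorem commute_iotaR {m q : ℕ} (hm : 0 < m) (hq : 1 < q) (hqm : q.Coprime m)
    (hqR : IsUnit ((q : ℕ) : R)) (s g : SL(2, ℤ)) (hg : g ∈ Gamma m) :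
    Commute (QuotientGroup.mk' (H38.elemNormal ((m : ℕ) : R)) (iotaR R s))
      (QuotientGroup.mk' (H38.elemNormal ((m : ℕ) : R)) (iotaR R g)) := by
  have hx12 := commute_x12_one (R := R) hm hq hqm hqR g hg
  have hx21 := commute_x21_one (R := R) hm hq hqm hqR g hg
  have hs : s ∈ Subgroup.closure {ModularGroup.S, ModularGroup.T} := by
    rw [SpecialLinearGroup.SL2Z_generators]; trivial
  induction hs using Subgroup.closure_induction with
  | mem x hx =>
    rcases hx with rfl | rfl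
    · rw [iotaR_S, map_mul, map_mul, x12_neg, map_inv]
      exact (hx12.inv_left.mul_left hx21).mul_left hx12.inv_left
    · rw [iotaR_T]; exact hx12
  | one => rw [map_one, map_one]; exact Commute.one_left _
  | mul x y _ _ hx hy => rw [map_mul, map_mul]; exact hx.mul_left hy
  | inv x _ hx => rw [map_inv, map_inv]; exact hx.inv_left

/-- **Theorem I (centrality).**  Let `R` be a commutative ring in which `q` is a unit and let
`m > 0` be prime to `q`.  For `s g : SL(2, ℤ)` with `g ∈ Γ(m)`, the image of the commutator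
`s g s⁻¹ g⁻¹` in `SL(2, R)` lies in `E(m)`, the normal closure of the level-`m` upper
elementary matrices. -/
theorem centrality {m q : ℕ} (hm : 0 < m) (hq : 1 < q) (hqm : q.Coprime m)
    (hqR : IsUnit ((q : ℕ) : R)) (s g : SL(2, ℤ)) (hg : g ∈ Gamma m) :
    Matrix.SpecialLinearGroup.map (Int.castRingHom R) (s * g * s⁻¹ * g⁻¹)
      ∈ H38.elemNormal ((m : ℕ) : R) := by
  have h := commute_iotaR (R := R) hm hq hqm hqR s g hg
  rw [commute_mk_iff] at h
  have : Matrix.SpecialLinearGroup.map (Int.castRingHom R) (s * g * s⁻¹ * g⁻¹)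
      = iotaR R s * iotaR R g * (iotaR R s)⁻¹ * (iotaR R g)⁻¹ := by
    simp only [iotaR, map_mul, map_inv]
  rw [this]
  exact h

end Main

section Zq

/-- `q` is a unit of `ℤ[1/q]`. -/
lemma isUnit_q_Zq {q : ℕ} [hq : Fact q.Prime] : IsUnit ((q : ℕ) : ↥(H58.Zq q)) := by
  have hq0 : (q : ℚ) ≠ 0 := by exact_mod_cast hq.out.pos.ne'
  refine IsUnit.of_mul_eq_one (⟨((q : ℚ))⁻¹, H58.q_inv_mem_Zq q⟩ : ↥(H58.Zq q)) ?_
  apply Subtype.ext
  push_cast
  exact mul_inv_cancel₀ hq0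

/-- **Theorem I in the shape consumed by D-GLUE** (`hI` of `H38.csp_ab_of_theoremT`). -/
theorem centrality_Zq {m q : ℕ} [hq : Fact q.Prime] (hm : 0 < m) (hqm : q.Coprime m)
    (s g : SL(2, ℤ)) (hg : g ∈ Gamma m) :
    H38.intA q (s * g * s⁻¹ * g⁻¹) ∈ H38.elemNormal (((m : ℕ) : ↥(H58.Zq q))) :=
  centrality hm hq.out.one_lt hqm isUnit_q_Zq s g hg


/-- `csp_ab` with Theorem I discharged: only Theorem T (`H2.TheoremT p`) remains as a
hypothesis. -/
theorem csp_ab_of_theoremT_only {N q p : ℕ} [hq : Fact q.Prime] [hp : Fact p.Prime]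
    (hN : 0 < N) (hNq : Nat.Coprime N q) (hpq : p ≠ q)
    (Φ : ↥(H58.Delta N q) →* Multiplicative (ZMod p)) (hT : H2.TheoremT p)
    (γ : SL(2, ℤ)) (hγ : γ ∈ Gamma (p * N)) (hγ' : H58.castQ γ ∈ H58.Delta N q) :
    Φ ⟨H58.castQ γ, hγ'⟩ = 1 :=
  H38.csp_ab_of_theoremT hN hNq Φ
    (fun s g hg => centrality_Zq (Nat.mul_pos hp.out.pos hN)
      (Nat.Coprime.mul_right ((Nat.coprime_primes hq.out hp.out).mpr (Ne.symm hpq)) hNq.symm)
      s g hg)
    hT γ hγ hγ'

end Zq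

end Fermat.Agent.S41.H76
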