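import Mathlib
import Fermat.Agent.S41.H88_Lattice
import Fermat.Agent.S41.H85_CosetDatum

/-!
# S41, package H: coset datum operators are natural in the coefficient group

Glue between `H85.CosetDatum.op` and the transfer principles of `H88_Lattice`.
-/

set_option autoImplicit false

noncomputable section

namespace Fermat.Agent.S41.H88

open H85

variable {G Γ₁ Γ₂ : Type*} [Group G] [Group Γ₁] [Group Γ₂] {ι₁ : Γ₁ →* G} {ι₂ : Γ₂ →* G}
  {I : Type*} [Fintype I]

/-- The operator family of a coset datum. -/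
def cosetFamily (D : CosetDatum ι₁ ι₂ I) : OpFamily Γ₁ Γ₂ := fun A _ => D.op (A := A)

@[simp] theorem cosetFamily_apply (D : CosetDatum ι₁ ι₂ I) (A : Type) [AddCommGroup A]
    (φ : Additive Γ₁ →+ A) : cosetFamily D A φ = D.op φ := rfl

/-- `D.op` commutes with change of coefficients. -/
theorem cosetDatum_op_comp (D : CosetDatum ι₁ ι₂ I) {A B : Type*} [AddCommGroup A]
    [AddCommGroup B] (u : A →+ B) (φ : Additive Γ₁ →+ A) :
    D.op (u.comp φ) = u.comp (D.op φ) := by
  refine AddMonoidHom.ext fun γ => ?_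
  rw [AddMonoidHom.comp_apply, CosetDatum.op_apply', CosetDatum.op_apply', map_sum]
  rfl

theorem isNatural_cosetFamily (D : CosetDatum ι₁ ι₂ I) : (cosetFamily D).IsNatural :=
  ⟨fun _ _ _ _ u φ => cosetDatum_op_comp D u φ⟩

end Fermat.Agent.S41.H88
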