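/-
S41 / package P2 of the `P-int` route (helper98 #1431): the DICTIONARY between parabolic
homomorphisms `Γ → ℤ` and parabolic vectors of the permutation module `ℤ^D`, `D` a finite
transitive `G`-set with base point `base` and `Γ = Stab(base)`.

Conventions (= helper98 `H98_PermPD2`, helper43 P4): `(g • v)(x) = v (g⁻¹ • x)`,
`T = U * S`, `σ, μ, τ` the operators of `S, U, T`.

`IsRep φ v` : there is a cocycle `f : G → ℤ^D` with `f U = 0`, `f S = (σ - 1) v` and
`φ γ = f γ base` on `Γ`.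

* (D1) `exists_isRep_of_isParAbs` : every parabolic `φ` has a representative `v`, with a witness `w`
  of parabolicity (`IsWit v w`).
* uniqueness: `IsRep.sub_mem_Triv` (same `φ` ⇒ `v - v' ∈ Triv`), `IsRep.hom_ext` (same `v` ⇒ same `φ`).
* (D2) `IsRep.exists_eq_smul` : `v ∈ p Par + Triv ⇒ φ = p • φ₁`.
* (D3) `exists_isRep_of_isWit` : every parabolic vector represents a parabolic `φ` (needs the
  presentation of `G` as a hypothesis, in helper43's shape `hpres`).
-/
import Mathlib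
import Fermat.Agent.S41.H98_PermPD2

set_option autoImplicit false
set_option linter.unusedSectionVars false
set_option linter.style.haveILetI false

namespace Fermat.Agent.S41.H8

open Fermat.Agent.S41

variable {G : Type*} [Group G] {D : Type*} [Fintype D] [DecidableEq D] [MulAction G D]

/-! ### The action on functions -/

/-- `(g • v)(x) = v (g⁻¹ • x)`, as helper98's `act` of the permutation `toPerm g`. -/
def gop (g : G) : (D → ℤ) →ₗ[ℤ] (D → ℤ) := H98.act ℤ (MulAction.toPerm g : Equiv.Perm D)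

theorem gop_apply (g : G) (v : D → ℤ) (x : D) : gop g v x = v (g⁻¹ • x) := rfl

theorem gop_one (v : D → ℤ) : gop (1 : G) v = v := by
  funext x
  rw [gop_apply, inv_one, one_smul]

theorem gop_mul (g h : G) (v : D → ℤ) : gop (g * h) v = gop g (gop h v) := by
  funext x
  rw [gop_apply, gop_apply, gop_apply, mul_inv_rev, mul_smul]

theorem gop_inv_gop (g : G) (v : D → ℤ) : gop g⁻¹ (gop g v) = v := by
  rw [← gop_mul, inv_mul_cancel, gop_one]

theorem gop_gop_inv (g : G) (v : D → ℤ) : gop g (gop g⁻¹ v) = v := by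
  rw [← gop_mul, mul_inv_cancel, gop_one]

theorem gop_pow_succ (g : G) (n : ℕ) (v : D → ℤ) : gop (g ^ (n + 1)) v = gop (g ^ n) (gop g v) := by
  rw [pow_succ, gop_mul]

/-- `gop` is an isometry of the dot product. -/
theorem dot_gop_gop (g : G) (v w : D → ℤ) : H98.dot ℤ (gop g v) (gop g w) = H98.dot ℤ v w := by
  rw [H98.dot_apply, H98.dot_apply]
  exact Fintype.sum_equiv (MulAction.toPerm g⁻¹ : Equiv.Perm D) _ _ (fun x => rfl)

/-! ### Cocycles -/

/-- `f : G → ℤ^D` is a (1-)cocycle. -/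
def IsCocyc (f : G → D → ℤ) : Prop := ∀ g h : G, f (g * h) = f g + gop g (f h)

namespace IsCocyc

variable {f f' : G → D → ℤ}

theorem one (hf : IsCocyc f) : f 1 = 0 := by
  have h := hf 1 1
  rw [mul_one, gop_one] at h
  exact left_eq_add.mp h

theorem inv (hf : IsCocyc f) (g : G) : f g⁻¹ = - gop g⁻¹ (f g) := by
  have h := hf g⁻¹ g
  rw [inv_mul_cancel, hf.one] at h
  exact eq_neg_of_add_eq_zero_left h.symm

theorem pow (hf : IsCocyc f) (g : G) (n : ℕ) :
    f (g ^ n) = ∑ i ∈ Finset.range n, gop (g ^ i) (f g) := by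
  induction n with
  | zero => rw [pow_zero, hf.one, Finset.sum_range_zero]
  | succ n ih =>
    rw [pow_succ, hf (g ^ n) g, ih, Finset.sum_range_succ]

theorem add (hf : IsCocyc f) (hf' : IsCocyc f') : IsCocyc (f + f') := by
  intro g h
  rw [Pi.add_apply, Pi.add_apply, Pi.add_apply, hf g h, hf' g h, map_add]
  abel

theorem neg (hf : IsCocyc f) : IsCocyc (-f) := by
  intro g h
  rw [Pi.neg_apply, Pi.neg_apply, Pi.neg_apply, hf g h, map_neg]
  abel

theorem sub (hf : IsCocyc f) (hf' : IsCocyc f') : IsCocyc (f - f') := by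
  rw [sub_eq_add_neg]
  exact hf.add hf'.neg

theorem zsmul (hf : IsCocyc f) (n : ℤ) : IsCocyc (n • f) := by
  intro g h
  rw [Pi.smul_apply, Pi.smul_apply, Pi.smul_apply, hf g h, map_smul, smul_add]

/-- a cocycle vanishing on a generating set vanishes. -/
theorem eq_zero_of_closure (hf : IsCocyc f) {s : Set G} (hs : Subgroup.closure s = ⊤)
    (h0 : ∀ g ∈ s, f g = 0) (g : G) : f g = 0 := by
  have hg : g ∈ Subgroup.closure s := hs ▸ Subgroup.mem_top g
  induction hg using Subgroup.closure_induction with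
  | mem g hg => exact h0 g hg
  | one => exact hf.one
  | mul g h _ _ ihg ihh => rw [hf g h, ihg, ihh, map_zero, add_zero]
  | inv g _ ih => rw [hf.inv, ih, map_zero, neg_zero]

/-- a cocycle with values divisible by `p` on a generating set has values divisible by `p`. -/
theorem dvd_of_closure (hf : IsCocyc f) {s : Set G} (hs : Subgroup.closure s = ⊤) (p : ℤ)
    (h0 : ∀ g ∈ s, ∀ x, p ∣ f g x) (g : G) (x : D) : p ∣ f g x := by
  have hg : g ∈ Subgroup.closure s := hs ▸ Subgroup.mem_top g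
  induction hg using Subgroup.closure_induction generalizing x with
  | mem g hg => exact h0 g hg x
  | one => rw [hf.one]; exact dvd_zero p
  | mul g h _ _ ihg ihh =>
    rw [hf g h, Pi.add_apply, gop_apply]
    exact dvd_add (ihg x) (ihh _)
  | inv g _ ih =>
    rw [hf.inv, Pi.neg_apply, gop_apply]
    exact (dvd_neg).mpr (ih _)

end IsCocyc

/-- the coboundary of `m`. -/
def cob (m : D → ℤ) : G → D → ℤ := fun g => gop g m - m

theorem cob_apply (m : D → ℤ) (g : G) (x : D) : cob m g x = m (g⁻¹ • x) - m x := rfl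

theorem isCocyc_cob (m : D → ℤ) : IsCocyc (cob (G := G) m) := by
  intro g h
  unfold cob
  rw [gop_mul, map_sub]
  abel


/-! ### Norm trick: a cocycle value killed by a power is a coboundary value -/

theorem gop_pow_fixed {g : G} {c : D → ℤ} (hc : gop g c = c) (n : ℕ) : gop (g ^ n) c = c := by
  induction n with
  | zero => rw [pow_zero, gop_one]
  | succ n ih => rw [gop_pow_succ, hc, ih]

theorem dot_eq_zero_of_pow {f : G → D → ℤ} (hf : IsCocyc f) (g : G) (n : ℕ) (hn : 0 < n)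
    (hfn : f (g ^ n) = 0) (c : D → ℤ) (hc : gop g c = c) : H98.dot ℤ (f g) c = 0 := by
  have h1 : H98.dot ℤ (f (g ^ n)) c = n • H98.dot ℤ (f g) c := by
    rw [hf.pow, map_sum, LinearMap.sum_apply]
    rw [Finset.sum_congr rfl (fun i _ => by
      rw [← dot_gop_gop (g ^ i)⁻¹ (gop (g ^ i) (f g)) c, gop_inv_gop,
        ← inv_pow, gop_pow_fixed (g := g⁻¹) (by rw [← hc, gop_inv_gop, hc]) i])]
    rw [Finset.sum_const, Finset.card_range]
  rw [hfn, map_zero, LinearMap.zero_apply] at h1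
  have h2 : (n : ℤ) * H98.dot ℤ (f g) c = 0 := by
    rw [← nsmul_eq_mul]; exact h1.symm
  rcases mul_eq_zero.mp h2 with h | h
  · exact absurd (by exact_mod_cast h) hn.ne'
  · exact h

/-- if `f (g ^ n) = 0` with `n > 0` then `f g = (g - 1) m` for some `m`. -/
theorem exists_cob_of_pow {f : G → D → ℤ} (hf : IsCocyc f) (g : G) (n : ℕ) (hn : 0 < n)
    (hfn : f (g ^ n) = 0) : ∃ m : D → ℤ, f g = gop g m - m := by
  obtain ⟨a, b, hab⟩ := H98.isBdry_of_forall_dot_eq_zero (1 : Equiv.Perm D)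
    (MulAction.toPerm g : Equiv.Perm D) (f g)
    (fun c _ hc => dot_eq_zero_of_pow hf g n hn hfn c hc)
  refine ⟨a + b, ?_⟩
  rw [hab, H98.act_one, map_add]
  change gop g a - a + (gop g b - b) = gop g a + gop g b - (a + b)
  abel

/-! ### The Shapiro cocycle -/

section Shapiro

variable (base : D) (Γ : Subgroup G)

open Classical in
/-- extension by zero of `φ : Γ → ℤ` to `G`. -/
noncomputable def ext0 (φ : Additive Γ →+ ℤ) (g : G) : ℤ :=
  if h : g ∈ Γ then φ (Additive.ofMul ⟨g, h⟩) else 0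

variable {Γ}

theorem ext0_of_mem (φ : Additive Γ →+ ℤ) {g : G} (h : g ∈ Γ) :
    ext0 Γ φ g = φ (Additive.ofMul ⟨g, h⟩) := by
  unfold ext0
  rw [dif_pos h]

theorem ext0_coe (φ : Additive Γ →+ ℤ) (γ : Γ) : ext0 Γ φ (γ : G) = φ (Additive.ofMul γ) :=
  ext0_of_mem φ γ.2

theorem ext0_mul (φ : Additive Γ →+ ℤ) {a b : G} (ha : a ∈ Γ) (hb : b ∈ Γ) :
    ext0 Γ φ (a * b) = ext0 Γ φ a + ext0 Γ φ b := by
  rw [ext0_of_mem φ ha, ext0_of_mem φ hb, ext0_of_mem φ (Γ.mul_mem ha hb), ← map_add]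
  rfl

theorem ext0_one (φ : Additive Γ →+ ℤ) : ext0 Γ φ 1 = 0 := by
  have h := ext0_mul φ Γ.one_mem Γ.one_mem
  rw [mul_one] at h
  exact left_eq_add.mp h

theorem ext0_inv (φ : Additive Γ →+ ℤ) {a : G} (ha : a ∈ Γ) : ext0 Γ φ a⁻¹ = - ext0 Γ φ a := by
  have h := ext0_mul φ (Γ.inv_mem ha) ha
  rw [inv_mul_cancel, ext0_one] at h
  exact eq_neg_of_add_eq_zero_left h.symm

theorem ext0_conj (φ : Additive Γ →+ ℤ) {a g : G} (ha : a ∈ Γ) (hg : g ∈ Γ) :
    ext0 Γ φ (a⁻¹ * g * a) = ext0 Γ φ g := by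
  rw [ext0_mul φ (Γ.mul_mem (Γ.inv_mem ha) hg) ha, ext0_mul φ (Γ.inv_mem ha) hg, ext0_inv φ ha]
  abel

variable (hΓ : ∀ g : G, g ∈ Γ ↔ g • base = base) (htr : ∀ x : D, ∃ g : G, g • base = x)

/-- a section of `g ↦ g • base`. -/
noncomputable def rep (htr : ∀ x : D, ∃ g : G, g • base = x) (x : D) : G := (htr x).choose

theorem rep_smul (x : D) : rep base htr x • base = x := (htr x).choose_spec

include hΓ in
theorem shap_mem (g : G) (x : D) : (rep base htr x)⁻¹ * g * rep base htr (g⁻¹ • x) ∈ Γ := by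
  rw [hΓ, mul_smul, mul_smul, rep_smul, smul_inv_smul, inv_smul_eq_iff, rep_smul]

/-- the Shapiro cocycle of `φ`. -/
noncomputable def shap (φ : Additive Γ →+ ℤ) (g : G) (x : D) : ℤ :=
  ext0 Γ φ ((rep base htr x)⁻¹ * g * rep base htr (g⁻¹ • x))

include hΓ in
theorem isCocyc_shap (φ : Additive Γ →+ ℤ) : IsCocyc (shap base htr φ) := by
  intro g h
  funext x
  rw [Pi.add_apply, gop_apply]
  unfold shap
  rw [← ext0_mul φ (shap_mem base hΓ htr g x) (shap_mem base hΓ htr h (g⁻¹ • x))]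
  congr 1
  rw [mul_inv_rev, mul_smul]
  group

include hΓ in
theorem shap_of_fixed (φ : Additive Γ →+ ℤ) (g : G) (x : D) (hx : g • x = x) :
    shap base htr φ g x = ext0 Γ φ ((rep base htr x)⁻¹ * g * rep base htr x) := by
  unfold shap
  rw [inv_smul_eq_iff.mpr hx.symm]

include hΓ in
theorem shap_base (φ : Additive Γ →+ ℤ) (γ : Γ) :
    shap base htr φ (γ : G) base = φ (Additive.ofMul γ) := by
  have hγ : (γ : G) • base = base := (hΓ _).mp γ.2
  rw [shap_of_fixed base hΓ htr φ _ _ hγ, ext0_conj φ ((hΓ _).mpr (rep_smul base htr base)) γ.2,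
    ext0_coe]

end Shapiro


/-! ### Representatives -/

section Rep

variable (base : D) (Γ : Subgroup G) (S U : G)

/-- `φ` is represented by `v`: there is a cocycle `f` with `f U = 0`, `f S = (σ - 1) v` and
`φ γ = f γ base` on `Γ`. -/
def IsRep (φ : Additive Γ →+ ℤ) (v : D → ℤ) : Prop :=
  ∃ f : G → D → ℤ, IsCocyc f ∧ f U = 0 ∧ f S = gop S v - v ∧
    ∀ γ : Γ, φ (Additive.ofMul γ) = f (γ : G) base

/-- abstract parabolicity: `φ` kills the conjugates of the powers of `T = U S` and of `S²` lying in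
`Γ`. -/
def IsParAbs (φ : Additive Γ →+ ℤ) : Prop :=
  (∀ (g : G) (n : ℕ) (h : g⁻¹ * (U * S) ^ n * g ∈ Γ), φ (Additive.ofMul ⟨_, h⟩) = 0) ∧
    ∀ (g : G) (h : g⁻¹ * S ^ 2 * g ∈ Γ), φ (Additive.ofMul ⟨_, h⟩) = 0

variable {base Γ S U}

theorem IsRep.add {φ φ' : Additive Γ →+ ℤ} {v v' : D → ℤ} (h : IsRep base Γ S U φ v)
    (h' : IsRep base Γ S U φ' v') : IsRep base Γ S U (φ + φ') (v + v') := by
  obtain ⟨f, hf, hfU, hfS, hfφ⟩ := h
  obtain ⟨f', hf', hfU', hfS', hfφ'⟩ := h'
  refine ⟨f + f', hf.add hf', ?_, ?_, fun γ => ?_⟩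
  · rw [Pi.add_apply, hfU, hfU', add_zero]
  · rw [Pi.add_apply, hfS, hfS', map_add]; abel
  · rw [AddMonoidHom.add_apply, hfφ, hfφ']; rfl

theorem IsRep.zsmul {φ : Additive Γ →+ ℤ} {v : D → ℤ} (h : IsRep base Γ S U φ v) (n : ℤ) :
    IsRep base Γ S U (n • φ) (n • v) := by
  obtain ⟨f, hf, hfU, hfS, hfφ⟩ := h
  refine ⟨n • f, hf.zsmul n, ?_, ?_, fun γ => ?_⟩
  · rw [Pi.smul_apply, hfU, smul_zero]
  · rw [Pi.smul_apply, hfS, map_smul, smul_sub]
  · rw [AddMonoidHom.smul_apply, hfφ]; rfl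

theorem isRep_zero : IsRep base Γ S U (0 : Additive Γ →+ ℤ) (0 : D → ℤ) :=
  ⟨0, fun _ _ => by simp, rfl, by simp, fun _ => rfl⟩

/-- a `μ`-invariant vector represents `0`. -/
theorem isRep_zero_of_fixed (hΓ : ∀ g : G, g ∈ Γ ↔ g • base = base) {a b : D → ℤ}
    (ha : gop S a = a) (hb : gop U b = b) : IsRep base Γ S U (0 : Additive Γ →+ ℤ) (a + b) := by
  refine ⟨cob b, isCocyc_cob b, ?_, ?_, fun γ => ?_⟩
  · unfold cob; rw [hb, sub_self]
  · unfold cob; rw [map_add, ha]; abel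
  · rw [AddMonoidHom.zero_apply, cob_apply, inv_smul_eq_iff.mpr ((hΓ _).mp γ.2).symm, sub_self]

/-- same `v`, same `φ`. -/
theorem IsRep.hom_ext (hgen : Subgroup.closure ({S, U} : Set G) = ⊤) {φ φ' : Additive Γ →+ ℤ}
    {v : D → ℤ} (h : IsRep base Γ S U φ v) (h' : IsRep base Γ S U φ' v) : φ = φ' := by
  obtain ⟨f, hf, hfU, hfS, hfφ⟩ := h
  obtain ⟨f', hf', hfU', hfS', hfφ'⟩ := h'
  have h0 : ∀ g, (f - f') g = 0 := (hf.sub hf').eq_zero_of_closure hgen (by
    rintro g (rfl | hg)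
    · rw [Pi.sub_apply, hfS, hfS', sub_self]
    · rw [Set.mem_singleton_iff] at hg
      subst hg
      rw [Pi.sub_apply, hfU, hfU', sub_self])
  refine AddMonoidHom.ext fun γ => ?_
  have := congrFun (h0 (Additive.toMul γ : Γ)) base
  rw [Pi.sub_apply, Pi.sub_apply, Pi.zero_apply, sub_eq_zero] at this
  have e1 := hfφ (Additive.toMul γ)
  have e2 := hfφ' (Additive.toMul γ)
  rw [ofMul_toMul] at e1 e2
  rw [e1, e2, this]

/-- **Shapiro injectivity**: a cocycle vanishing at `base` on `Γ` is a coboundary. -/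
theorem exists_cob_eq (hΓ : ∀ g : G, g ∈ Γ ↔ g • base = base)
    (htr : ∀ x : D, ∃ g : G, g • base = x) {h : G → D → ℤ} (hh : IsCocyc h)
    (h0 : ∀ γ : Γ, h (γ : G) base = 0) : ∃ m : D → ℤ, ∀ g, h g = cob m g := by
  refine ⟨fun x => - h (rep base htr x) x, fun g => ?_⟩
  -- key: `h a (a • base)` only depends on `a • base`
  have key : ∀ a : G, h a (a • base) = h (rep base htr (a • base)) (a • base) := by
    intro a
    set r := rep base htr (a • base) with hr
    have hrx : r • base = a • base := rep_smul base htr _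
    have hδ : r⁻¹ * a ∈ Γ := by
      rw [hΓ, mul_smul, inv_smul_eq_iff, hrx]
    have e : a = r * (r⁻¹ * a) := by group
    have := congrFun (hh r (r⁻¹ * a)) (a • base)
    rw [← e, Pi.add_apply, gop_apply, ← hrx, inv_smul_smul, h0 ⟨_, hδ⟩, add_zero] at this
    rw [hrx] at this
    exact this
  funext x
  obtain ⟨a, rfl⟩ := htr x
  have e1 := congrFun (hh g (g⁻¹ * a)) (a • base)
  rw [mul_inv_cancel_left, Pi.add_apply, gop_apply, ← mul_smul] at e1
  rw [cob_apply, ← mul_smul]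
  rw [← key (g⁻¹ * a), ← key a]
  linarith

/-- same `φ`, `v` unique modulo `V^σ + V^μ`. -/
theorem IsRep.exists_sub_eq (hΓ : ∀ g : G, g ∈ Γ ↔ g • base = base)
    (htr : ∀ x : D, ∃ g : G, g • base = x) {φ : Additive Γ →+ ℤ} {v v' : D → ℤ}
    (h : IsRep base Γ S U φ v) (h' : IsRep base Γ S U φ v') :
    ∃ a b : D → ℤ, gop S a = a ∧ gop U b = b ∧ v - v' = a + b := by
  obtain ⟨f, hf, hfU, hfS, hfφ⟩ := h
  obtain ⟨f', hf', hfU', hfS', hfφ'⟩ := h'
  obtain ⟨m, hm⟩ := exists_cob_eq hΓ htr (hf.sub hf') (fun γ => by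
    rw [Pi.sub_apply, Pi.sub_apply, ← hfφ, ← hfφ', sub_self])
  have hU := hm U
  rw [Pi.sub_apply, hfU, hfU', sub_self] at hU
  have hS := hm S
  rw [Pi.sub_apply, hfS, hfS'] at hS
  unfold cob at hU hS
  refine ⟨v - v' - m, m, ?_, (sub_eq_zero.mp hU.symm), by abel⟩
  rw [map_sub, map_sub]
  have : gop S v - gop S v' - gop S m - (v - v' - m) = 0 := by
    rw [← sub_eq_zero] at hS
    rw [← hS]; abel
  exact sub_eq_zero.mp this

/-- **(D2)** if `v ∈ p ℤ^D + V^σ + V^μ` then `φ` is divisible by `p`. -/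
theorem IsRep.exists_eq_smul (hΓ : ∀ g : G, g ∈ Γ ↔ g • base = base)
    (hgen : Subgroup.closure ({S, U} : Set G) = ⊤) {φ : Additive Γ →+ ℤ} {v : D → ℤ}
    (h : IsRep base Γ S U φ v) (p : ℤ) {v₁ a b : D → ℤ} (ha : gop S a = a)
    (hb : gop U b = b) (hv : v = p • v₁ + (a + b)) : ∃ φ₁ : Additive Γ →+ ℤ, φ = p • φ₁ := by
  obtain ⟨f, hf, hfU, hfS, hfφ⟩ := h
  have hf' : IsCocyc (f - cob (G := G) b) := hf.sub (isCocyc_cob b)
  have hdvd : ∀ (g : G) (x : D), p ∣ (f - cob (G := G) b) g x := hf'.dvd_of_closure hgen p (by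
    rintro g (rfl | hg) x
    · rw [Pi.sub_apply, hfS, hv]
      unfold cob
      refine ⟨(gop g v₁ - v₁) x, ?_⟩
      simp only [map_add, map_smul, ha, Pi.sub_apply, Pi.add_apply, Pi.smul_apply, smul_eq_mul]
      ring
    · rw [Set.mem_singleton_iff] at hg
      subst hg
      rw [Pi.sub_apply, hfU]
      unfold cob
      rw [hb, sub_self, sub_zero]
      exact dvd_zero p)
  have hφd : ∀ γ : Γ, p ∣ φ (Additive.ofMul γ) := by
    intro γ
    have := hdvd (γ : G) base
    rwa [Pi.sub_apply, Pi.sub_apply, cob_apply, inv_smul_eq_iff.mpr ((hΓ _).mp γ.2).symm, sub_self,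
      sub_zero, ← hfφ] at this
  refine ⟨AddMonoidHom.mk' (fun γ => φ γ / p) (fun γ δ => ?_), ?_⟩
  · rw [map_add]
    exact Int.add_ediv_of_dvd_left (hφd (Additive.toMul γ))
  · refine AddMonoidHom.ext fun γ => ?_
    rw [AddMonoidHom.smul_apply, AddMonoidHom.mk'_apply, smul_eq_mul]
    exact (Int.mul_ediv_cancel' (hφd (Additive.toMul γ))).symm

end Rep


/-! ### (D1): parabolic homomorphisms have representatives -/

section D1

variable {base : D} {Γ : Subgroup G} {S U : G}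

theorem exists_pow_smul_eq (t : G) : ∃ N : ℕ, 0 < N ∧ ∀ x : D, t ^ N • x = x := by
  refine ⟨orderOf (MulAction.toPermHom G D t), orderOf_pos _, fun x => ?_⟩
  have h := pow_orderOf_eq_one (MulAction.toPermHom G D t)
  rw [← map_pow] at h
  have := congrArg (fun e : Equiv.Perm D => e x) h
  exact this

/-- a cocycle evaluated at a conjugate fixing the base point. -/
theorem IsCocyc.conj_apply {f : G → D → ℤ} (hf : IsCocyc f) (t g : G)
    (ht : t • (g • base) = g • base) : f (g⁻¹ * t * g) base = f t (g • base) := by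
  rw [mul_assoc, hf g⁻¹ (t * g), hf t g, hf.inv, Pi.add_apply, Pi.neg_apply, gop_apply, gop_apply,
    Pi.add_apply, gop_apply, inv_inv, inv_smul_eq_iff.mpr ht.symm]
  ring

/-- **(D1)** every parabolic `φ` has a representative `v`, with a witness `w` of parabolicity. -/
theorem exists_isRep_of_isParAbs (hΓ : ∀ g : G, g ∈ Γ ↔ g • base = base)
    (htr : ∀ x : D, ∃ g : G, g • base = x) (hU3 : U ^ 3 = 1) (hS2 : ∀ x : D, S ^ 2 • x = x)
    (φ : Additive Γ →+ ℤ) (hφ : IsParAbs Γ S U φ) :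
    ∃ v w : D → ℤ, IsRep base Γ S U φ v ∧ gop (U * S) w - w = gop U v - v := by
  have hf₀ := isCocyc_shap base hΓ htr φ
  obtain ⟨m₁, hm₁⟩ := exists_cob_of_pow hf₀ U 3 (by norm_num) (by rw [hU3, hf₀.one])
  have hf : IsCocyc (shap base htr φ - cob (G := G) m₁) := hf₀.sub (isCocyc_cob m₁)
  set f : G → D → ℤ := shap base htr φ - cob (G := G) m₁ with hfdef
  have hfU : f U = 0 := by
    rw [hfdef, Pi.sub_apply, hm₁]
    unfold cob
    rw [sub_self]
  have hfix : ∀ t : G, (∀ x : D, t • x = x) → ∀ x,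
      f t x = ext0 Γ φ ((rep base htr x)⁻¹ * t * rep base htr x) := by
    intro t ht x
    rw [hfdef, Pi.sub_apply, Pi.sub_apply, cob_apply, inv_smul_eq_iff.mpr (ht x).symm, sub_self,
      sub_zero, shap_of_fixed base hΓ htr φ t x (ht x)]
  have hmemfix : ∀ t : G, (∀ x : D, t • x = x) → ∀ x,
      (rep base htr x)⁻¹ * t * rep base htr x ∈ Γ := by
    intro t ht x
    rw [hΓ, mul_smul, mul_smul, ht, inv_smul_smul]
  have hfS2 : f (S ^ 2) = 0 := by
    funext x
    rw [hfix (S ^ 2) hS2 x, ext0_of_mem φ (hmemfix _ hS2 x)]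
    exact hφ.2 (rep base htr x) (hmemfix _ hS2 x)
  obtain ⟨v, hv⟩ := exists_cob_of_pow hf S 2 (by norm_num) hfS2
  obtain ⟨N, hN, hTN⟩ := exists_pow_smul_eq (D := D) (U * S)
  have hfTN : f ((U * S) ^ N) = 0 := by
    funext x
    rw [hfix _ hTN x, ext0_of_mem φ (hmemfix _ hTN x)]
    exact hφ.1 (rep base htr x) N (hmemfix _ hTN x)
  obtain ⟨y, hy⟩ := exists_cob_of_pow hf (U * S) N hN hfTN
  refine ⟨v, v - y, ⟨f, hf, hfU, hv, fun γ => ?_⟩, ?_⟩
  · rw [hfdef, Pi.sub_apply, Pi.sub_apply, cob_apply,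
      inv_smul_eq_iff.mpr ((hΓ _).mp γ.2).symm, sub_self, sub_zero, shap_base base hΓ htr φ γ]
  · have hT : f (U * S) = gop U (gop S v - v) := by rw [hf U S, hfU, zero_add, hv]
    rw [hy, map_sub, ← gop_mul] at hT
    have h2 : gop (U * S) y = y + (gop (U * S) v - gop U v) := by rw [← hT]; abel
    rw [map_sub, h2]
    abel

end D1

/-! ### (D3): parabolic vectors represent parabolic homomorphisms -/

section D3

variable {G : Type} [Group G] {D : Type} [Fintype D] [DecidableEq D] [MulAction G D]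

/-- the automorphisms of `Multiplicative (D → ℤ)` given by `G`. -/
noncomputable def gopAut : G →* MulAut (Multiplicative (D → ℤ)) where
  toFun g := AddEquiv.toMultiplicative
    { toFun := gop g
      invFun := gop g⁻¹
      left_inv := gop_inv_gop g
      right_inv := gop_gop_inv g
      map_add' := map_add _ }
  map_one' := by
    refine MulEquiv.ext fun v => ?_
    apply Multiplicative.toAdd.injective
    exact gop_one (G := G) (Multiplicative.toAdd v)
  map_mul' g h := by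
    refine MulEquiv.ext fun v => ?_
    apply Multiplicative.toAdd.injective
    exact gop_mul g h (Multiplicative.toAdd v)

theorem toAdd_gopAut (g : G) (n : Multiplicative (D → ℤ)) :
    Multiplicative.toAdd (gopAut g n) = gop g (Multiplicative.toAdd n) := rfl

/-- the semidirect product `ℤ^D ⋊ G`. -/
abbrev SD (G D : Type) [Group G] [Fintype D] [DecidableEq D] [MulAction G D] : Type :=
  Multiplicative (D → ℤ) ⋊[gopAut (G := G) (D := D)] G

theorem sd_one_pow (g : G) (n : ℕ) : ((⟨1, g⟩ : SD G D)) ^ n = ⟨1, g ^ n⟩ := by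
  induction n with
  | zero =>
    rw [pow_zero, pow_zero]
    rfl
  | succ n ih =>
    rw [pow_succ, ih]
    refine SemidirectProduct.ext ?_ ?_
    · rw [SemidirectProduct.mul_left, map_one, mul_one]
    · rw [SemidirectProduct.mul_right, pow_succ]

variable {base : D} {Γ : Subgroup G} {S U : G}

theorem gop_eq_self_of_smul {t : G} (ht : ∀ x : D, t • x = x) (v : D → ℤ) : gop t v = v := by
  funext x
  rw [gop_apply, inv_smul_eq_iff.mpr (ht x).symm]

/-- **(D3)** every parabolic vector represents a parabolic homomorphism; the presentation of `G`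
enters as the hypothesis `hpres` (helper43's shape). -/
theorem exists_isRep_of_isWit
    (hpres : ∀ (E : Type) [Group E] (s u : E), s ^ 4 = 1 → u ^ 3 = s ^ 2 →
      ∃ F : G →* E, F S = s ∧ F (S ^ 2 * U) = u)
    (hΓ : ∀ g : G, g ∈ Γ ↔ g • base = base)
    (hgen : Subgroup.closure ({S, U} : Set G) = ⊤) (hS4 : S ^ 4 = 1)
    (hS2c : ∀ g : G, Commute (S ^ 2) g) (hU3 : U ^ 3 = 1) (hS2 : ∀ x : D, S ^ 2 • x = x)
    {v w : D → ℤ} (hw : gop (U * S) w - w = gop U v - v) :
    ∃ φ : Additive Γ →+ ℤ, IsParAbs Γ S U φ ∧ IsRep base Γ S U φ v := by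
  classical
  let s : SD G D := ⟨Multiplicative.ofAdd (gop S v - v), S⟩
  let u : SD G D := ⟨1, S ^ 2 * U⟩
  have hgS2 : ∀ z : D → ℤ, gop (S ^ 2) z = z := gop_eq_self_of_smul hS2
  have hs2 : s ^ 2 = ⟨1, S ^ 2⟩ := by
    rw [pow_two, pow_two]
    refine SemidirectProduct.ext ?_ rfl
    rw [SemidirectProduct.mul_left]
    apply Multiplicative.toAdd.injective
    rw [toAdd_mul, toAdd_gopAut]
    change gop S v - v + gop S (gop S v - v) = 0
    rw [map_sub, ← gop_mul, ← pow_two, hgS2]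
    abel
  have hs4 : s ^ 4 = 1 := by
    rw [show (4 : ℕ) = 2 * 2 from rfl, pow_mul, hs2, sd_one_pow, ← pow_mul, hS4]
    rfl
  have hSU3 : (S ^ 2 * U) ^ 3 = S ^ 2 := by
    rw [(hS2c U).mul_pow, hU3, mul_one, ← pow_mul, show 2 * 3 = 4 + 2 from rfl, pow_add, hS4,
      one_mul]
  have hu3 : u ^ 3 = s ^ 2 := by
    rw [hs2, sd_one_pow, hSU3]
  obtain ⟨F, hFS, hFSU⟩ := hpres (SD G D) s u hs4 hu3
  -- the right component of `F g` is `g`
  have hgen' : Subgroup.closure ({S, S ^ 2 * U} : Set G) = ⊤ := by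
    rw [eq_top_iff, ← hgen, Subgroup.closure_le]
    have hS : S ∈ Subgroup.closure ({S, S ^ 2 * U} : Set G) :=
      Subgroup.subset_closure (Set.mem_insert _ _)
    have hSU : S ^ 2 * U ∈ Subgroup.closure ({S, S ^ 2 * U} : Set G) :=
      Subgroup.subset_closure (Set.mem_insert_of_mem _ rfl)
    rintro g (rfl | hg)
    · exact hS
    · rw [Set.mem_singleton_iff] at hg
      subst hg
      have := Subgroup.mul_mem _ (Subgroup.inv_mem _ (Subgroup.pow_mem _ hS 2)) hSU
      simpa using this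
  have hright : ∀ g : G, (F g).right = g := by
    have h1 : (SemidirectProduct.rightHom.comp F) = MonoidHom.id G := by
      apply MonoidHom.eq_of_eqOn_dense hgen'
      rintro g (rfl | hg)
      · change (F g).right = g
        rw [hFS]
      · rw [Set.mem_singleton_iff] at hg
        subst hg
        change (F (S ^ 2 * U)).right = S ^ 2 * U
        rw [hFSU]
    intro g
    exact DFunLike.congr_fun h1 g
  let f : G → D → ℤ := fun g => Multiplicative.toAdd (F g).left
  have hf : IsCocyc f := by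
    intro g h
    change Multiplicative.toAdd (F (g * h)).left = _
    rw [map_mul, SemidirectProduct.mul_left, toAdd_mul, toAdd_gopAut, hright]
  have hfS : f S = gop S v - v := by
    change Multiplicative.toAdd (F S).left = _
    rw [hFS]
    rfl
  have hfS2 : f (S ^ 2) = 0 := by
    change Multiplicative.toAdd (F (S ^ 2)).left = _
    rw [map_pow, hFS, hs2]
    rfl
  have hfU : f U = 0 := by
    have h1 := hf (S ^ 2) U
    have h2 : f (S ^ 2 * U) = 0 := by
      change Multiplicative.toAdd (F (S ^ 2 * U)).left = _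
      rw [hFSU]
      rfl
    rw [h2, hfS2, zero_add, hgS2] at h1
    exact h1.symm
  -- the homomorphism
  have hγb : ∀ γ : Γ, (γ : G)⁻¹ • base = base := fun γ =>
    inv_smul_eq_iff.mpr ((hΓ _).mp γ.2).symm
  let φ : Additive Γ →+ ℤ := AddMonoidHom.mk' (fun γ => f ((Additive.toMul γ : Γ) : G) base)
    (fun γ δ => by
      change f (((Additive.toMul γ : Γ) : G) * ((Additive.toMul δ : Γ) : G)) base = _
      rw [hf, Pi.add_apply, gop_apply, hγb])
  have hφf : ∀ γ : Γ, φ (Additive.ofMul γ) = f (γ : G) base := fun γ => rfl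
  refine ⟨φ, ⟨fun g n h => ?_, fun g h => ?_⟩, ⟨f, hf, hfU, hfS, hφf⟩⟩
  · -- conjugates of powers of `T`
    have hfix : (U * S) ^ n • (g • base) = g • base := by
      have := (hΓ _).mp h
      rw [mul_smul, mul_smul, inv_smul_eq_iff] at this
      exact this
    rw [hφf]
    change f (g⁻¹ * (U * S) ^ n * g) base = 0
    rw [hf.conj_apply _ _ hfix]
    -- `f T = (T - 1) (v - w)`
    have hT : f (U * S) = cob (G := G) (v - w) (U * S) := by
      rw [hf U S, hfU, zero_add, hfS]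
      unfold cob
      rw [map_sub, ← gop_mul, map_sub]
      have : gop (U * S) w = w + (gop U v - v) := by rw [← hw]; abel
      rw [this]
      abel
    have hsub : IsCocyc (f - cob (G := G) (v - w)) := hf.sub (isCocyc_cob _)
    have h0 : (f - cob (G := G) (v - w)) ((U * S) ^ n) = 0 := by
      rw [hsub.pow]
      apply Finset.sum_eq_zero
      intro i _
      rw [Pi.sub_apply, hT, sub_self, map_zero]
    have := congrFun h0 (g • base)
    rw [Pi.sub_apply, Pi.sub_apply, Pi.zero_apply, sub_eq_zero, cob_apply,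
      inv_smul_eq_iff.mpr hfix.symm, sub_self] at this
    exact this
  · have hfix : S ^ 2 • (g • base) = g • base := hS2 _
    rw [hφf]
    change f (g⁻¹ * S ^ 2 * g) base = 0
    rw [hf.conj_apply _ _ hfix, hfS2]
    rfl

end D3


/-! ### The pairing on parabolic homomorphisms -/

section Pairing

variable {G : Type} [Group G] {D : Type} [Fintype D] [DecidableEq D] [MulAction G D]

/-- all the hypotheses on `(G, D, base, Γ, S, U)`; `hpres` is the presentation of `G`
(package P0). -/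
structure PDSetup (base : D) (Γ : Subgroup G) (S U : G) : Prop where
  hΓ : ∀ g : G, g ∈ Γ ↔ g • base = base
  htr : ∀ x : D, ∃ g : G, g • base = x
  hgen : Subgroup.closure ({S, U} : Set G) = ⊤
  hS4 : S ^ 4 = 1
  hS2c : ∀ g : G, Commute (S ^ 2) g
  hU3 : U ^ 3 = 1
  hS2 : ∀ x : D, S ^ 2 • x = x
  hpres : ∀ (E : Type) [Group E] (s u : E), s ^ 4 = 1 → u ^ 3 = s ^ 2 →
    ∃ F : G →* E, F S = s ∧ F (S ^ 2 * U) = u

variable {base : D} {Γ : Subgroup G} {S U : G}

theorem PDSetup.invol (H : PDSetup base Γ S U) (x : D) :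
    (MulAction.toPerm S : Equiv.Perm D) ((MulAction.toPerm S : Equiv.Perm D) x) = x := by
  change S • S • x = x
  rw [← mul_smul, ← pow_two, H.hS2]

/-- helper98's `PDData` for `σ = S`, `μ = U`. -/
noncomputable abbrev PDSetup.data (H : PDSetup base Γ S U) : H98.PDData ℤ (D → ℤ) :=
  H98.permData ℤ (MulAction.toPerm S : Equiv.Perm D) (MulAction.toPerm U : Equiv.Perm D) H.invol

theorem PDSetup.isWit_iff (H : PDSetup base Γ S U) (v w : D → ℤ) :
    H.data.IsWit v w ↔ gop (U * S) w - w = gop U v - v := by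
  rw [gop_mul]
  rfl

theorem PDSetup.mem_fixσ_iff (H : PDSetup base Γ S U) (a : D → ℤ) :
    a ∈ H.data.fixσ ↔ gop S a = a := H.data.mem_fixσ

theorem PDSetup.mem_fixμ_iff (H : PDSetup base Γ S U) (b : D → ℤ) :
    b ∈ H.data.fixμ ↔ gop U b = b := H.data.mem_fixμ

theorem PDSetup.mem_Triv_iff (H : PDSetup base Γ S U) (t : D → ℤ) :
    t ∈ H.data.Triv ↔ ∃ a b : D → ℤ, gop S a = a ∧ gop U b = b ∧ t = a + b := by
  unfold H98.PDData.Triv
  rw [Submodule.mem_sup]
  constructor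
  · rintro ⟨a, ha, b, hb, rfl⟩
    exact ⟨a, b, (H.mem_fixσ_iff a).mp ha, (H.mem_fixμ_iff b).mp hb, rfl⟩
  · rintro ⟨a, b, ha, hb, rfl⟩
    exact ⟨a, (H.mem_fixσ_iff a).mpr ha, b, (H.mem_fixμ_iff b).mpr hb, rfl⟩

variable (Γ S U) in
/-- the submodule of (abstractly) parabolic homomorphisms. -/
def parAbs : Submodule ℤ (Additive Γ →+ ℤ) where
  carrier := {φ | IsParAbs Γ S U φ}
  zero_mem' := ⟨fun _ _ _ => rfl, fun _ _ => rfl⟩
  add_mem' := by
    rintro φ ψ ⟨h1, h2⟩ ⟨h1', h2'⟩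
    refine ⟨fun g n h => ?_, fun g h => ?_⟩
    · rw [AddMonoidHom.add_apply, h1 g n h, h1' g n h, add_zero]
    · rw [AddMonoidHom.add_apply, h2 g h, h2' g h, add_zero]
  smul_mem' := by
    rintro c φ ⟨h1, h2⟩
    refine ⟨fun g n h => ?_, fun g h => ?_⟩
    · rw [AddMonoidHom.smul_apply, h1 g n h, smul_zero]
    · rw [AddMonoidHom.smul_apply, h2 g h, smul_zero]

theorem mem_parAbs {φ : Additive Γ →+ ℤ} : φ ∈ parAbs Γ S U ↔ IsParAbs Γ S U φ := Iff.rfl

/-- existence of a parabolic representative. -/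
theorem PDSetup.exists_par (H : PDSetup base Γ S U) (φ : parAbs Γ S U) :
    ∃ v : H.data.Par, IsRep base Γ S U (φ : Additive Γ →+ ℤ) (v : D → ℤ) := by
  obtain ⟨v, w, hv, hw⟩ := exists_isRep_of_isParAbs H.hΓ H.htr H.hU3 H.hS2 _ φ.2
  exact ⟨⟨v, ⟨w, (H.isWit_iff v w).mpr hw⟩⟩, hv⟩

/-- a chosen parabolic representative. -/
noncomputable def PDSetup.vec (H : PDSetup base Γ S U) (φ : parAbs Γ S U) : H.data.Par :=
  (H.exists_par φ).choose

theorem PDSetup.isRep_vec (H : PDSetup base Γ S U) (φ : parAbs Γ S U) :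
    IsRep base Γ S U (φ : Additive Γ →+ ℤ) (H.vec φ : D → ℤ) := (H.exists_par φ).choose_spec

/-- two representatives of the same `φ` differ by a trivial vector. -/
theorem PDSetup.sub_mem_Triv (H : PDSetup base Γ S U) {φ : Additive Γ →+ ℤ} {v v' : D → ℤ}
    (h : IsRep base Γ S U φ v) (h' : IsRep base Γ S U φ v') : v - v' ∈ H.data.Triv := by
  obtain ⟨a, b, ha, hb, hab⟩ := h.exists_sub_eq H.hΓ H.htr h'
  exact (H.mem_Triv_iff _).mpr ⟨a, b, ha, hb, hab⟩

/-- the form only depends on the homomorphisms represented. -/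
theorem PDSetup.form_congr (H : PDSetup base Γ S U) {φ ψ : Additive Γ →+ ℤ}
    {v v' u u' : H.data.Par} (hv : IsRep base Γ S U φ (v : D → ℤ))
    (hv' : IsRep base Γ S U φ (v' : D → ℤ)) (hu : IsRep base Γ S U ψ (u : D → ℤ))
    (hu' : IsRep base Γ S U ψ (u' : D → ℤ)) : H.data.form v u = H.data.form v' u' := by
  have h1 : ((v - v' : H.data.Par) : D → ℤ) ∈ H.data.Triv := H.sub_mem_Triv hv hv'
  have h2 : ((u - u' : H.data.Par) : D → ℤ) ∈ H.data.Triv := H.sub_mem_Triv hu hu'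
  have e1 : H.data.form v u = H.data.form v' u + H.data.form (v - v') u := by
    rw [← LinearMap.add_apply, ← map_add]
    congr 2
    abel
  have e2 : H.data.form v' u = H.data.form v' u' + H.data.form v' (u - u') := by
    rw [← map_add]
    congr 1
    abel
  rw [e1, e2, H.data.form_triv_left h1, H.data.form_triv_right v' h2, add_zero, add_zero]

/-- **the Poincaré duality pairing** on parabolic homomorphisms. -/
noncomputable def PDSetup.pd (H : PDSetup base Γ S U) :
    parAbs Γ S U →ₗ[ℤ] parAbs Γ S U →ₗ[ℤ] ℤ :=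
  LinearMap.mk₂ ℤ (fun φ ψ => H.data.form (H.vec φ) (H.vec ψ))
    (fun φ φ' ψ => by
      rw [← LinearMap.add_apply, ← map_add]
      exact H.form_congr (H.isRep_vec (φ + φ')) ((H.isRep_vec φ).add (H.isRep_vec φ'))
        (H.isRep_vec ψ) (H.isRep_vec ψ))
    (fun c φ ψ => by
      rw [← LinearMap.smul_apply, ← map_smul]
      exact H.form_congr (H.isRep_vec (c • φ)) ((H.isRep_vec φ).zsmul c)
        (H.isRep_vec ψ) (H.isRep_vec ψ))
    (fun φ ψ ψ' => by
      rw [← map_add]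
      exact H.form_congr (H.isRep_vec φ) (H.isRep_vec φ) (H.isRep_vec (ψ + ψ'))
        ((H.isRep_vec ψ).add (H.isRep_vec ψ')))
    (fun c φ ψ => by
      rw [← map_smul]
      exact H.form_congr (H.isRep_vec φ) (H.isRep_vec φ) (H.isRep_vec (c • ψ))
        ((H.isRep_vec ψ).zsmul c))

/-- the pairing computed with ANY representatives. -/
theorem PDSetup.pd_eq_form (H : PDSetup base Γ S U) (φ ψ : parAbs Γ S U) {v u : H.data.Par}
    (hv : IsRep base Γ S U (φ : Additive Γ →+ ℤ) (v : D → ℤ))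
    (hu : IsRep base Γ S U (ψ : Additive Γ →+ ℤ) (u : D → ℤ)) :
    H.pd φ ψ = H.data.form v u :=
  H.form_congr (H.isRep_vec φ) hv (H.isRep_vec ψ) hu

/-- the pairing in terms of representatives and a witness:
`pd φ ψ = ⟨(σ - 1) w, v'⟩` (the shape of helper43's Theorem A). -/
theorem PDSetup.pd_eq_dot (H : PDSetup base Γ S U) (φ ψ : parAbs Γ S U) {v w v' w' : D → ℤ}
    (hv : IsRep base Γ S U (φ : Additive Γ →+ ℤ) v) (hw : gop (U * S) w - w = gop U v - v)
    (hv' : IsRep base Γ S U (ψ : Additive Γ →+ ℤ) v')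
    (hw' : gop (U * S) w' - w' = gop U v' - v') :
    H.pd φ ψ = H98.dot ℤ (gop S w - w) v' := by
  have hW : H.data.IsWit v w := (H.isWit_iff v w).mpr hw
  have hW' : H.data.IsWit v' w' := (H.isWit_iff v' w').mpr hw'
  rw [H.pd_eq_form φ ψ (v := ⟨v, ⟨w, hW⟩⟩) (u := ⟨v', ⟨w', hW'⟩⟩) hv hv',
    H.data.form_apply _ _ hW]
  rfl

theorem PDSetup.pd_antisymm (H : PDSetup base Γ S U) (φ ψ : parAbs Γ S U) :
    H.pd φ ψ = - H.pd ψ φ := by
  rw [H.pd_eq_form φ ψ (H.isRep_vec φ) (H.isRep_vec ψ),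
    H.pd_eq_form ψ φ (H.isRep_vec ψ) (H.isRep_vec φ), H.data.form_antisymm]

/-- **non-degeneracy modulo `p`**: if `p ∣ pd φ ψ` for all `ψ` then `φ ∈ p • parAbs`. -/
theorem PDSetup.pd_nondeg (H : PDSetup base Γ S U) (p : ℕ) [Fact p.Prime] (φ : parAbs Γ S U)
    (hdiv : ∀ ψ : parAbs Γ S U, (p : ℤ) ∣ H.pd φ ψ) :
    ∃ φ₁ : parAbs Γ S U, φ = (p : ℤ) • φ₁ := by
  have hp0 : (p : ℤ) ≠ 0 := by exact_mod_cast (Fact.out : p.Prime).ne_zero
  obtain ⟨v₁, t, ht, hvt⟩ := H98.form_nondeg_mod_p _ _ H.invol p (H.vec φ) (fun u => by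
    obtain ⟨w', hw'⟩ := u.2
    obtain ⟨ψ, hψpar, hψ⟩ := exists_isRep_of_isWit (base := base) (Γ := Γ) H.hpres H.hΓ H.hgen
      H.hS4 H.hS2c H.hU3 H.hS2 ((H.isWit_iff _ _).mp hw')
    have := hdiv ⟨ψ, hψpar⟩
    rwa [H.pd_eq_form φ ⟨ψ, hψpar⟩ (H.isRep_vec φ) hψ] at this)
  obtain ⟨a, b, ha, hb, hab⟩ := (H.mem_Triv_iff _).mp ht
  have hv : (H.vec φ : D → ℤ) = (p : ℤ) • (v₁ : D → ℤ) + (a + b) := by
    rw [← hab, hvt]
    rfl
  obtain ⟨φ₁, hφ₁⟩ := (H.isRep_vec φ).exists_eq_smul H.hΓ H.hgen (p : ℤ) ha hb hv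
  have hpar : IsParAbs Γ S U φ₁ := by
    have hφ := φ.2
    rw [mem_parAbs, hφ₁] at hφ
    refine ⟨fun g n h => ?_, fun g h => ?_⟩
    · have := hφ.1 g n h
      rw [AddMonoidHom.smul_apply, smul_eq_mul] at this
      exact (mul_eq_zero.mp this).resolve_left hp0
    · have := hφ.2 g h
      rw [AddMonoidHom.smul_apply, smul_eq_mul] at this
      exact (mul_eq_zero.mp this).resolve_left hp0
  exact ⟨⟨φ₁, hpar⟩, Subtype.ext hφ₁⟩

end Pairing

end Fermat.Agent.S41.H8
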