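import Mathlib
import Fermat.Agent.S41.H98_PDFinal
import Fermat.Agent.S41.H43_CuspSum

/-!
# S41 / P-int / P4 bridge : `pdΓ = - cuspSum` in the `SL(2,ℤ)` model

For `Γ ≤ SL(2,ℤ)` of finite index with `-1 ∈ Γ` and `φ ψ : parabolicHoms ℤ Γ ℤ`:

* `IsPrim φ ψ κ` : `κ : Γ → ℚ` is a primitive of the cup product,
  `κ (γ γ') = κ γ + κ γ' - φ γ * ψ γ'`;
* `exists_isPrim` : primitives exist;
* `pdΓ_eq_neg_cuspSum` : `pdΓ Γ hneg φ ψ = - cuspSum Γ mT κ` for EVERY primitive `κ`
  (helper43's abstract THEOREM A, instantiated);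
* `IsPrim.conj` : `κ (γ π γ⁻¹) = κ π` as soon as `φ π = ψ π = 0`;
* `IsPrim.comp` : primitives pull back along group homomorphisms.
-/

set_option autoImplicit false
set_option linter.unusedSectionVars false

namespace Fermat.Agent.S41.H98

open scoped MatrixGroups
open ModularCurve.Period MulAction Subgroup
open Fermat.Agent.S41

/-- helper43's presentation data for `SL(2,ℤ)`: `S = mS`, `U = mU`. -/
noncomputable def presData : H43.PresData SL(2, ℤ) where
  S := mS
  U := mU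
  hS4 := mS_pow_four
  hU3 := mU_pow_three
  hcentral := fun g => by
    rw [mS_sq]
    simp
  hgen := by
    rw [← neg_mU_eq]
    exact closure_mS_neg_mU
  hpres := fun E _ s u hs hu => by
    obtain ⟨F, hFS, hFU⟩ := hasPresentation E s u hs hu
    refine ⟨F, hFS, ?_⟩
    rw [← neg_mU_eq]
    exact hFU

@[simp] theorem presData_S : presData.S = mS := rfl
@[simp] theorem presData_U : presData.U = mU := rfl

section Prim

variable {Γ : Subgroup SL(2, ℤ)}

/-- `κ` is a primitive of the cup product of the homomorphisms `φ`, `ψ` of `Γ`. -/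
def IsPrim (φ ψ : Additive Γ →+ ℤ) (κ : Γ → ℚ) : Prop :=
  ∀ γ γ' : Γ, κ (γ * γ') = κ γ + κ γ' -
    (φ (Additive.ofMul γ) : ℚ) * (ψ (Additive.ofMul γ') : ℚ)

theorem IsPrim.map_one {φ ψ : Additive Γ →+ ℤ} {κ : Γ → ℚ} (h : IsPrim φ ψ κ) : κ 1 = 0 := by
  have h1 := h 1 1
  rw [mul_one] at h1
  have : φ (Additive.ofMul (1 : Γ)) = 0 := map_zero φ
  rw [this] at h1
  simp only [Int.cast_zero, zero_mul, sub_zero] at h1
  linarith

theorem IsPrim.map_inv {φ ψ : Additive Γ →+ ℤ} {κ : Γ → ℚ} (h : IsPrim φ ψ κ) (γ : Γ) :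
    κ γ⁻¹ = -κ γ - (φ (Additive.ofMul γ) : ℚ) * (ψ (Additive.ofMul γ) : ℚ) := by
  have h1 := h γ γ⁻¹
  rw [mul_inv_cancel, h.map_one] at h1
  have h2 : ψ (Additive.ofMul γ⁻¹) = -ψ (Additive.ofMul γ) := by
    rw [ofMul_inv, map_neg]
  rw [h2] at h1
  push_cast at h1
  linarith

/-- A primitive is conjugation invariant on the common kernel of `φ` and `ψ`. -/
theorem IsPrim.conj {φ ψ : Additive Γ →+ ℤ} {κ : Γ → ℚ} (h : IsPrim φ ψ κ) (γ π : Γ)
    (hφ : φ (Additive.ofMul π) = 0) (hψ : ψ (Additive.ofMul π) = 0) :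
    κ (γ * π * γ⁻¹) = κ π := by
  have h1 := h (γ * π) γ⁻¹
  have h2 := h γ π
  have h3 := h.map_inv γ
  have e1 : φ (Additive.ofMul (γ * π)) = φ (Additive.ofMul γ) := by
    rw [ofMul_mul, map_add, hφ, add_zero]
  have e2 : ψ (Additive.ofMul γ⁻¹) = -ψ (Additive.ofMul γ) := by
    rw [ofMul_inv, map_neg]
  rw [e1, e2] at h1
  rw [hψ] at h2
  push_cast at h1 h2
  linarith

/-- Primitives pull back along homomorphisms. -/
theorem IsPrim.comp {Γ' : Subgroup SL(2, ℤ)} {φ ψ : Additive Γ →+ ℤ} {κ : Γ → ℚ}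
    (h : IsPrim φ ψ κ) (c : Γ' →* Γ) {φ' ψ' : Additive Γ' →+ ℤ}
    (hφ : ∀ γ : Γ', φ' (Additive.ofMul γ) = φ (Additive.ofMul (c γ)))
    (hψ : ∀ γ : Γ', ψ' (Additive.ofMul γ) = ψ (Additive.ofMul (c γ))) :
    IsPrim φ' ψ' (fun γ => κ (c γ)) := by
  intro γ γ'
  change κ (c (γ * γ')) = κ (c γ) + κ (c γ') - _
  rw [map_mul, h, hφ, hψ]

end Prim

variable (Γ : Subgroup SL(2, ℤ)) [Γ.FiniteIndex] (hneg : (-1 : SL(2, ℤ)) ∈ Γ)

include hneg in
theorem presData_sq_mem : presData.S ^ 2 ∈ Γ := by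
  rw [presData_S, mS_sq]
  exact hneg

/-- the rational cocycle attached to an integral one. -/
theorem isCocycle_cast {f : SL(2, ℤ) → Cos Γ → ℤ} (hf : IsCocycle Γ f) :
    H43.IsCocycle (D := Cos Γ) (fun g x => (f g x : ℚ)) := by
  intro g h
  funext x
  have := congrFun (hf g h) x
  simp only [Pi.add_apply, H43.act_apply]
  rw [this, Pi.add_apply, gact_apply]
  push_cast
  rfl

/-- **THEOREM A in the model**: `pdΓ φ ψ = - cuspSum κ` for every primitive `κ` of `φ ∪ ψ`. -/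
theorem pdΓ_eq_neg_cuspSum
    [Fintype (Quotient (orbitRel (zpowers mT) (Cos Γ)))]
    (φ ψ : parabolicHoms ℤ Γ ℤ) {κ : Γ → ℚ} (hκ : IsPrim φ.1 ψ.1 κ) :
    (pdΓ Γ hneg φ ψ : ℚ) = - H43.cuspSum Γ mT κ := by
  classical
  letI : Fintype (Cos Γ) := cosFintype Γ
  obtain ⟨v, w, hw, f, hf, hfU, hfS, hfφ⟩ := exists_rep Γ hneg φ
  obtain ⟨v', w', hw', f', hf', hfU', hfS', hfψ⟩ := exists_rep Γ hneg ψ
  have hpd := pdΓ_eq Γ hneg φ ψ ⟨f, hf, hfU, hfS, hfφ⟩ hw ⟨f', hf', hfU', hfS', hfψ⟩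
  rw [modelData_isWit_iff] at hw hw'
  have key := H43.cuspSum_eq_aux Γ presData (presData_sq_mem Γ hneg) mT mT_eq
    (a := fun g x => (f g x : ℚ)) (b := fun g x => (f' g x : ℚ))
    (isCocycle_cast Γ hf) (isCocycle_cast Γ hf')
    (v := fun x => (v x : ℚ)) (v' := fun x => (v' x : ℚ))
    (w := fun x => (w x : ℚ)) (w' := fun x => (w' x : ℚ))
    (by
      funext x
      change ((f mU x : ℤ) : ℚ) = 0
      rw [hfU]; simp)
    (by
      funext x
      change ((f' mU x : ℤ) : ℚ) = 0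
      rw [hfU']; simp)
    (by
      funext x
      change ((f mS x : ℤ) : ℚ) = _
      rw [hfS]
      simp [H43.act_apply, gact_apply])
    (by
      funext x
      change ((f' mS x : ℤ) : ℚ) = _
      rw [hfS']
      simp [H43.act_apply, gact_apply])
    (by
      funext x
      have := congrFun hw x
      simp only [Pi.sub_apply, gact_apply] at this
      simp only [Pi.sub_apply, H43.act_apply, presData_U]
      exact_mod_cast this)
    (by
      funext x
      have := congrFun hw' x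
      simp only [Pi.sub_apply, gact_apply] at this
      simp only [Pi.sub_apply, H43.act_apply, presData_U]
      exact_mod_cast this)
    (φ := fun γ => (φ.1 (Additive.ofMul γ) : ℚ)) (ψ := fun γ => (ψ.1 (Additive.ofMul γ) : ℚ))
    (κ := κ)
    (fun γ => by rw [hfφ γ]; rfl)
    (fun γ => by rw [hfψ γ]; rfl)
    hκ
  rw [key, neg_neg, hpd, modelData_Bw]
  push_cast
  refine Finset.sum_congr rfl fun x _ => ?_
  simp [H43.act_apply, gact_apply]

include hneg in
/-- **Existence of primitives** of the cup product of two parabolic homomorphisms. -/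
theorem exists_isPrim (φ ψ : parabolicHoms ℤ Γ ℤ) : ∃ κ : Γ → ℚ, IsPrim φ.1 ψ.1 κ := by
  classical
  obtain ⟨v, w, hw, f, hf, hfU, hfS, hfφ⟩ := exists_rep Γ hneg φ
  obtain ⟨v', w', hw', f', hf', hfU', hfS', hfψ⟩ := exists_rep Γ hneg ψ
  have hz : ∀ x : Cos Γ, presData.S ^ 2 • x = x :=
    H43.sq_smul_quotient Γ presData (presData_sq_mem Γ hneg)
  have hSS : ∀ u : Cos Γ → ℚ, H43.act presData.S (H43.act presData.S u) = u :=
    H43.act_S_act_S presData hz
  have haS : (fun x => ((f mS x : ℤ) : ℚ)) =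
      H43.act presData.S (fun x => (v x : ℚ)) - fun x => (v x : ℚ) := by
    funext x
    rw [hfS]
    simp [H43.act_apply, gact_apply]
  have hbS : (fun x => ((f' mS x : ℤ) : ℚ)) =
      H43.act presData.S (fun x => (v' x : ℚ)) - fun x => (v' x : ℚ) := by
    funext x
    rw [hfS']
    simp [H43.act_apply, gact_apply]
  obtain ⟨K, hK, -, -⟩ := H43.exists_K presData hz
    (a := fun g x => (f g x : ℚ)) (b := fun g x => (f' g x : ℚ))
    (isCocycle_cast Γ hf) (isCocycle_cast Γ hf')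
    (by
      funext x
      change ((f mU x : ℤ) : ℚ) = 0
      rw [hfU]; simp)
    (by
      funext x
      change ((f' mU x : ℤ) : ℚ) = 0
      rw [hfU']; simp)
    (by
      change H43.act presData.S (fun x => ((f mS x : ℤ) : ℚ)) = -fun x => ((f mS x : ℤ) : ℚ)
      rw [haS, H43.act_sub, hSS]; abel)
    (by
      change H43.act presData.S (fun x => ((f' mS x : ℤ) : ℚ)) = -fun x => ((f' mS x : ℤ) : ℚ)
      rw [hbS, H43.act_sub, hSS]; abel)
  refine ⟨fun γ => K γ (base Γ), fun γ γ' => ?_⟩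
  have h1 := congrFun (hK γ γ') (base Γ)
  have h2 : ((γ : SL(2, ℤ)))⁻¹ • base Γ = base Γ := by
    rw [inv_smul_eq_iff, smul_base]
  simp only [Pi.add_apply, Pi.sub_apply, Pi.mul_apply, H43.act_apply, h2] at h1
  change K (γ * γ' : SL(2, ℤ)) (base Γ) = _
  rw [h1, hfφ γ, hfψ γ']

end Fermat.Agent.S41.H98
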